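import Mathlib
import Fermat.Agent.S35lib.DegJK

/-!
# Item 86 (S33): the hub (definitions only)

Top-level interface between the ALGEBRA block and the GEOMETRY block of S33.  No set `W` (kernel of
reduction) occurs in the interface: the geometry target `S33Geom` is a statement about the Galois
module `J₀(M)[p]` only.

* `evalJac N S M` (S35lib): Hecke polynomials of level `(N, S)` acting on `J₀(M)`.
* `S33hPart θ' x`: `x` lies in the `θ'`-part (every Hecke polynomial in the kernel of `θ'` is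
  nilpotent on `x`).
* `s33hKI M p B`: the subgroup generated by the `τ y - y`, `τ` in the inertia group of `B`,
  `y` of `p`-power order.
* `S33hMoves p τ`: `τ` moves a `p`-th root of unity.
* `S33Geom M p θ' `: a class of order `p` in the `θ'`-part which lies in `s33hKI` and is fixed by an
  inertia element moving `μ_p` is zero.
* `S33TorP M' p`: the same for the `p`-new classes of level `M' p`, without any Hecke condition.
-/

set_option autoImplicit false

noncomputable section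

namespace Fermat.Agent.S33lib

open Fermat.Agent.GalRep ModularCurve Fermat.Agent.S31lib Fermat.Agent.S35lib

/-- `x` lies in the `θ'`-part of `J₀(M)`: every Hecke polynomial (level `(N, S)`) in the kernel of
`θ'` acts nilpotently on `x`. -/
def S33hPart (M : ℕ) [NeZero M] {N : ℕ} {S : Finset ℕ} {κ : Type*} [Semiring κ]
    (θ' : HPoly N S →+* κ) (x : JZero M) : Prop :=
  ∀ P : HPoly N S, θ' P = 0 → ∃ k : ℕ, ((evalJac N S M P) ^ k) x = 0

/-- the subgroup of `J₀(M)` generated by the `τ y - y`, `τ` in the inertia group of `B`, `y` of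
`p`-power order. -/
def s33hKI (M : ℕ) [NeZero M] (p : ℕ) (B : ValuationSubring (AlgebraicClosure ℚ)) :
    AddSubgroup (JZero M) :=
  AddSubgroup.closure
    {z | ∃ τ ∈ B.inertiaSubgroupIn ℚ, ∃ y : JZero M, (∃ n : ℕ, p ^ n • y = 0) ∧ z = τ • y - y}

/-- `τ` moves a `p`-th root of unity. -/
def S33hMoves (p : ℕ) (τ : AlgebraicClosure ℚ ≃ₐ[ℚ] AlgebraicClosure ℚ) : Prop :=
  ∃ ζ : AlgebraicClosure ℚ, ζ ^ p = 1 ∧ τ ζ ≠ ζ

/-- **GEOM** at level `M`: a class of order `p` in the `θ'`-part, lying in `s33hKI`, fixed by an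
inertia element which moves `μ_p`, is zero. -/
def S33Geom (M : ℕ) [NeZero M] (p : ℕ) {N : ℕ} {S : Finset ℕ} {κ : Type*} [Semiring κ]
    (θ' : HPoly N S →+* κ) : Prop :=
  ∀ B : ValuationSubring (AlgebraicClosure ℚ), B.LiesOverPrime p →
    ∀ x : JZero M, p • x = 0 → S33hPart M θ' x → x ∈ s33hKI M p B →
      ∀ τ₀ ∈ B.inertiaSubgroupIn ℚ, S33hMoves p τ₀ → τ₀ • x = x → x = 0

/-- **(TOR_p)**: the `p`-new classes of level `M' p`: a class of order `p` in `s33hKI` with
`α_* x = β_* x = 0`, fixed by an inertia element which moves `μ_p`, is zero. -/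
def S33TorP (M' p : ℕ) [NeZero M'] [NeZero p] [NeZero (M' * p)] : Prop :=
  ∀ B : ValuationSubring (AlgebraicClosure ℚ), B.LiesOverPrime p →
    ∀ x : JZero (M' * p), p • x = 0 → x ∈ s33hKI (M' * p) p B →
      degJAlpha M' p x = 0 → degJBeta M' p x = 0 →
        ∀ τ₀ ∈ B.inertiaSubgroupIn ℚ, S33hMoves p τ₀ → τ₀ • x = x → x = 0

/-- **(O1) on the Jacobian**: on the `θ'`-part of `J₀(N)[p^∞]`, inertia at `p` acts by the
cyclotomic character on `(τ' - 1) x`. -/
def S33OrdJ (N : ℕ) [NeZero N] (p : ℕ) [Fact p.Prime] (S : Finset ℕ) {κ : Type*} [Semiring κ]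
    (θ' : HPoly N S →+* κ) : Prop :=
  ∀ B : ValuationSubring (AlgebraicClosure ℚ), B.LiesOverPrime p →
    ∀ τ ∈ B.inertiaSubgroupIn ℚ, ∀ τ' ∈ B.inertiaSubgroupIn ℚ,
      ∀ (n : ℕ) (x : JZero N), p ^ n • x = 0 → S33hPart N θ' x →
        τ • (τ' • x - x) = ((cycChi p n τ : ZMod (p ^ n)).val) • (τ' • x - x)

/-- **what the geometry may use from `hres`**: every nonzero Galois-stable subgroup of
`J₀(M)[p]` killed by the kernel of `θ'` contains a nonzero class on which inertia at `p` acts by the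
mod `p` cyclotomic character. -/
def S33ResJ (M : ℕ) [NeZero M] (p : ℕ) [Fact p.Prime] {N : ℕ} {S : Finset ℕ} {κ : Type*}
    [Semiring κ] (θ' : HPoly N S →+* κ) : Prop :=
  ∀ B : ValuationSubring (AlgebraicClosure ℚ), B.LiesOverPrime p →
    ∀ U : AddSubgroup (JZero M), U ≠ ⊥ →
      (∀ x ∈ U, p • x = 0 ∧ ∀ P : HPoly N S, θ' P = 0 → evalJac N S M P x = 0) →
      (∀ σ : AlgebraicClosure ℚ ≃ₐ[ℚ] AlgebraicClosure ℚ, ∀ x ∈ U, σ • x ∈ U) →
        ∃ z ∈ U, z ≠ 0 ∧ ∀ τ ∈ B.inertiaSubgroupIn ℚ,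
          τ • z = ((cycChi p 1 τ : ZMod (p ^ 1)).val) • z

end Fermat.Agent.S33lib
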