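/-
Item 86 (S33), piece INERTIA-CYCLO (helper3): the inertia group at `p` moves the `p`-th roots of
unity.

For an odd prime `p` and EVERY valuation subring `A` of `ℚ̄` over `p` there is `τ` in the inertia
group of `A` with `τ t = t ^ 2` for all `t` with `t ^ p = 1`
(`ℚ(ζ_p)/ℚ` is totally ramified at `p`: every automorphism is trivial modulo `1 - ζ`).

* `icy_sub_one_mem` : `t ^ p = 1 ⇒ t - 1 ∈ 𝔪_A`;
* `icy_aeval_sub_mem` : `f(z²) - f(z) ∈ 𝔪_A` for `f ∈ ℤ[X]`, `z ^ p = 1`;
* `icy_exists`      : the statement.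
(complete proofs, standard axioms only)
-/
import Mathlib
import Fermat.Agent.S13lib.InertiaLift
import Fermat.Agent.GalRep.Cyclo

set_option autoImplicit false
set_option linter.style.haveILetI false

namespace Fermat.Agent.S33lib

open Polynomial IsLocalRing
open Fermat.Agent.GalRep

/-- a `p`-th root of unity is congruent to `1` modulo the maximal ideal of a valuation subring
over `p` -/
theorem icy_sub_one_mem (p : ℕ) [Fact p.Prime] (A : ValuationSubring (AlgebraicClosure ℚ))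
    (hA : (p : AlgebraicClosure ℚ) ∈ A.nonunits) (t : AlgebraicClosure ℚ) (ht : t ^ p = 1) :
    ∃ hmem : t ∈ A, (⟨t, hmem⟩ : A) - 1 ∈ maximalIdeal A := by
  have hpp : p.Prime := Fact.out
  have hmem : t ∈ A := cyclo_mem_of_pow_eq_one A hpp.ne_zero ht
  refine ⟨hmem, ?_⟩
  have h0 : ((p : ℕ) : ResidueField A) = 0 := cyclo_natCast_residue_eq_zero A hA
  haveI : CharP (ResidueField A) p := (CharP.charP_iff_prime_eq_zero hpp).2 h0
  have h1 : (residue A (⟨t, hmem⟩ : A)) ^ p = 1 := by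
    rw [← map_pow]
    have : (⟨t, hmem⟩ : A) ^ p = 1 := Subtype.ext (by push_cast; exact ht)
    rw [this, map_one]
  have h2 : (residue A (⟨t, hmem⟩ : A) - 1) ^ p = 0 := by
    rw [sub_pow_char, h1, one_pow, sub_self]
  have h3 : residue A (⟨t, hmem⟩ : A) - 1 = 0 := pow_eq_zero_iff hpp.ne_zero |>.1 h2
  rw [← residue_eq_zero_iff, map_sub, map_one]
  exact h3

/-- `f(z²) - f(z)` lies in the maximal ideal, for `f ∈ ℤ[X]` and `z` a `p`-th root of unity -/
theorem icy_aeval_sub_mem (p : ℕ) [Fact p.Prime] (A : ValuationSubring (AlgebraicClosure ℚ))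
    (hA : (p : AlgebraicClosure ℚ) ∈ A.nonunits) (z : AlgebraicClosure ℚ) (hz : z ^ p = 1)
    (f : ℤ[X]) :
    aeval (z ^ 2) f - aeval z f ∈ A.nonunits := by
  obtain ⟨hmem, hz1⟩ := icy_sub_one_mem p A hA z hz
  set zA : A := ⟨z, hmem⟩ with hzA
  have hdvd : zA ^ 2 - zA ∣ aeval (zA ^ 2) f - aeval zA f := by
    have := Polynomial.sub_dvd_eval_sub (zA ^ 2) zA (f.map (algebraMap ℤ A))
    rwa [Polynomial.eval_map_algebraMap, Polynomial.eval_map_algebraMap] at this
  have hm : zA ^ 2 - zA ∈ maximalIdeal A := by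
    have : zA ^ 2 - zA = zA * (zA - 1) := by ring
    rw [this]
    exact Ideal.mul_mem_left _ _ hz1
  have hm2 : aeval (zA ^ 2) f - aeval zA f ∈ maximalIdeal A := by
    obtain ⟨c, hc⟩ := hdvd
    rw [hc]
    exact Ideal.mul_mem_right _ _ hm
  have hcoe : ∀ w : A, ((aeval w f : A) : AlgebraicClosure ℚ) = aeval (w : AlgebraicClosure ℚ) f := by
    intro w
    have := Polynomial.hom_eval₂ f (algebraMap ℤ A) A.subtype w
    simp only [Polynomial.aeval_def]
    rw [ValuationSubring.subtype_apply] at this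
    rw [this]
    congr 1
  have h5 : ((aeval (zA ^ 2) f - aeval zA f : A) : AlgebraicClosure ℚ)
      = aeval (z ^ 2) f - aeval z f := by
    push_cast
    rw [hcoe, hcoe]
    rfl
  rw [← h5, ValuationSubring.coe_mem_nonunits_iff]
  exact hm2

/-- **the inertia group at `p` moves the `p`-th roots of unity**: for every valuation subring `A`
of `ℚ̄` over an odd prime `p` there is `τ` in the inertia group of `A` with `τ t = t ^ 2` for all
`p`-th roots of unity `t`. -/
theorem icy_exists (p : ℕ) [Fact p.Prime] (hp2 : p ≠ 2)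
    (A : ValuationSubring (AlgebraicClosure ℚ)) (hA : A.LiesOverPrime p) :
    ∃ τ ∈ A.inertiaSubgroupIn ℚ, ∀ t : AlgebraicClosure ℚ, t ^ p = 1 → τ t = t ^ 2 := by
  classical
  have hpp : p.Prime := Fact.out
  haveI : NeZero p := ⟨hpp.ne_zero⟩
  obtain ⟨ζ, hζ⟩ := HasEnoughRootsOfUnity.exists_primitiveRoot (AlgebraicClosure ℚ) p
  have hint : IsIntegral ℚ ζ := (hζ.isIntegral hpp.pos).tower_top
  haveI hfd : FiniteDimensional ℚ (IntermediateField.adjoin ℚ {ζ}) :=
    IntermediateField.adjoin.finiteDimensional hint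
  haveI halg : Algebra.IsAlgebraic ℚ (AlgebraicClosure ℚ) := AlgebraicClosure.isAlgebraic ℚ
  haveI hintg : Algebra.IsIntegral ℚ (AlgebraicClosure ℚ) := Algebra.IsAlgebraic.isIntegral
  haveI hcyc : IsCyclotomicExtension {p} ℚ (IntermediateField.adjoin ℚ {ζ}) :=
    hζ.intermediateField_adjoin_isCyclotomicExtension ℚ
  set K : IntermediateField ℚ (AlgebraicClosure ℚ) := IntermediateField.adjoin ℚ {ζ} with hK
  set ζK : K := ⟨ζ, IntermediateField.mem_adjoin_simple_self ℚ ζ⟩ with hζKdef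
  have hζK : IsPrimitiveRoot ζK p :=
    (IsPrimitiveRoot.map_iff_of_injective (f := K.val) K.val.injective).1 hζ
  have hirr : Irreducible (cyclotomic p ℚ) := cyclotomic.irreducible_rat hpp.pos
  have h2cop : Nat.Coprime 2 p := (Nat.coprime_primes Nat.prime_two hpp).2 (Ne.symm hp2)
  have h2lt : 2 < p := lt_of_le_of_ne hpp.two_le (Ne.symm hp2)
  set τK : K ≃ₐ[ℚ] K :=
    (IsCyclotomicExtension.autEquivPow K hirr).symm (ZMod.unitOfCoprime 2 h2cop) with hτK
  have hspec : τK (IsCyclotomicExtension.zeta p ℚ K) = (IsCyclotomicExtension.zeta p ℚ K) ^ 2 := by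
    have h1 := (IsCyclotomicExtension.zeta_spec p ℚ K).autToPow_spec ℚ τK
    have h2 : (IsCyclotomicExtension.zeta_spec p ℚ K).autToPow ℚ τK
        = ZMod.unitOfCoprime 2 h2cop :=
      (IsCyclotomicExtension.autEquivPow K hirr).apply_symm_apply (ZMod.unitOfCoprime 2 h2cop)
    rw [h2] at h1
    rw [← h1]
    congr 1
    rw [ZMod.coe_unitOfCoprime, ZMod.val_natCast, Nat.mod_eq_of_lt h2lt]
  have hτζ : τK ζK = ζK ^ 2 := by
    obtain ⟨j, -, hj⟩ :=
      (IsCyclotomicExtension.zeta_spec p ℚ K).eq_pow_of_pow_eq_one hζK.pow_eq_one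
    rw [← hj, map_pow, hspec, ← pow_mul, ← pow_mul, mul_comm]
  have hcong : ∀ x : K, IsIntegral ℤ x →
      ((τK x : K) : AlgebraicClosure ℚ) - (x : AlgebraicClosure ℚ) ∈ A.nonunits := by
    intro x hx
    have hic := IsCyclotomicExtension.Rat.isIntegralClosure_adjoin_singleton_of_prime (K := K) hζK
    obtain ⟨y, hy⟩ := hic.isIntegral_iff.1 hx
    have hy2 : (y : K) ∈ Algebra.adjoin ℤ ({ζK} : Set K) := y.2
    rw [Algebra.adjoin_singleton_eq_range_aeval] at hy2
    obtain ⟨f, hf⟩ := hy2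
    have hx' : x = aeval ζK f := by
      rw [← hy]
      exact hf.symm
    have h2 : (x : AlgebraicClosure ℚ) = aeval ζ f := by
      rw [hx']
      have := Polynomial.aeval_algebraMap_apply (AlgebraicClosure ℚ) ζK f
      exact this.symm
    have h1 : ((τK x : K) : AlgebraicClosure ℚ) = aeval (ζ ^ 2) f := by
      have h3 : τK x = aeval (ζK ^ 2) f := by
        rw [hx', ← hτζ]
        exact (Polynomial.aeval_algHom_apply (τK.toAlgHom.restrictScalars ℤ) ζK f).symm
      rw [h3]
      have := Polynomial.aeval_algebraMap_apply (AlgebraicClosure ℚ) (ζK ^ 2) f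
      exact this.symm
    rw [h1, h2]
    exact icy_aeval_sub_mem p A hA ζ hζ.pow_eq_one f
  obtain ⟨σ, hσI, hσ⟩ := Fermat.Agent.S13lib.exists_inertia_lift_of_integral K A τK hcong
  refine ⟨σ, hσI, fun t ht => ?_⟩
  obtain ⟨i, -, rfl⟩ := hζ.eq_pow_of_pow_eq_one ht
  have h1 : σ ζ = ζ ^ 2 := by
    have := hσ ζK
    rw [hτζ] at this
    exact this
  rw [map_pow, h1, ← pow_mul, ← pow_mul, mul_comm]

end Fermat.Agent.S33lib
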