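/-
Item 86 (S33), helper3: the mod `pⁿ` cyclotomic character `cycChi` (S31lib) and the roots of unity;
inertia elements moving `μ_p` (bridge between `InertiaCyclo.lean` and the Hub).

* `cysp_spec`          : `σ t = t ^ (cycChi p n σ).val` for `t ^ pⁿ = 1`;
* `cysp_eq_of_pow`     : `cycChi p n σ = e` if `σ t = t ^ e` on `μ_{pⁿ}`;
* `cysp_moves_iff`     : `S33hMoves p σ ↔ cycChi p 1 σ ≠ 1`;
* `cysp_moves_of_sq`   : `σ t = t ^ 2` on `μ_p` gives `S33hMoves p σ`;
* `cysp_exists_moves`  : for EVERY `B` over an odd prime `p` there is `τ₀` in the inertia group of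
                         `B` with `S33hMoves p τ₀` (and `τ₀ t = t ^ 2` on `μ_p`);
* `cysp_val_sub_one`   : `(cycChi p 1 τ).val - 1` is prime to `p` if `τ` moves `μ_p`.
(complete proofs, standard axioms only)
-/
import Mathlib
import Fermat.Agent.S33lib.Hub
import Fermat.Agent.S33lib.InertiaCyclo
import Fermat.Agent.S31lib.CycloMod

set_option autoImplicit false
set_option linter.style.haveILetI false

namespace Fermat.Agent.S33lib

open Fermat.Agent.GalRep Fermat.Agent.S31lib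

/-- the defining property of the mod `pⁿ` cyclotomic character -/
theorem cysp_spec (p : ℕ) [Fact p.Prime] (n : ℕ) (σ : GQ) (t : AlgebraicClosure ℚ)
    (ht : t ^ p ^ n = 1) :
    σ t = t ^ (((cycChi p n σ : (ZMod (p ^ n))ˣ) : ZMod (p ^ n)).val) := by
  rw [cyc_coe_cycChi]
  exact cyclotomicCharacter.spec (L := AlgebraicClosure ℚ) p
    (σ : AlgebraicClosure ℚ ≃+* AlgebraicClosure ℚ) t ht

/-- the value of the mod `pⁿ` cyclotomic character from the action on `μ_{pⁿ}` -/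
theorem cysp_eq_of_pow (p : ℕ) [Fact p.Prime] (n : ℕ) (σ : GQ) (e : ℕ)
    (h : ∀ t : AlgebraicClosure ℚ, t ^ p ^ n = 1 → σ t = t ^ e) :
    ((cycChi p n σ : (ZMod (p ^ n))ˣ) : ZMod (p ^ n)) = (e : ZMod (p ^ n)) := by
  rw [cyc_coe_cycChi]
  exact cyclo_toZModPow_eq p σ e n h

/-- `σ` moves a `p`-th root of unity iff its mod `p` cyclotomic character is not `1` -/
theorem cysp_moves_iff (p : ℕ) [Fact p.Prime] (σ : GQ) :
    S33hMoves p σ ↔ cycChi p 1 σ ≠ 1 := by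
  constructor
  · rintro ⟨ζ, hζ, hne⟩ h1
    apply hne
    have h2 := cysp_spec p 1 σ ζ (by rwa [pow_one])
    rw [h1, Units.val_one] at h2
    haveI : Fact (1 < p ^ 1) := ⟨by rw [pow_one]; exact (Fact.out : p.Prime).one_lt⟩
    rw [ZMod.val_one, pow_one] at h2
    exact h2
  · intro h1
    by_contra hcon
    apply h1
    have hfix : ∀ t : AlgebraicClosure ℚ, t ^ p ^ 1 = 1 → σ t = t ^ 1 := by
      intro t ht
      rw [pow_one]
      by_contra hne
      exact hcon ⟨t, by rwa [pow_one] at ht, hne⟩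
    have h2 := cysp_eq_of_pow p 1 σ 1 hfix
    apply Units.ext
    rw [h2, Nat.cast_one, Units.val_one]

/-- an element acting by `t ↦ t ^ 2` on `μ_p` moves `μ_p` -/
theorem cysp_moves_of_sq (p : ℕ) [Fact p.Prime] (σ : GQ)
    (h : ∀ t : AlgebraicClosure ℚ, t ^ p = 1 → σ t = t ^ 2) : S33hMoves p σ := by
  have hpp : p.Prime := Fact.out
  haveI : NeZero p := ⟨hpp.ne_zero⟩
  obtain ⟨ζ, hζ⟩ := HasEnoughRootsOfUnity.exists_primitiveRoot (AlgebraicClosure ℚ) p
  refine ⟨ζ, hζ.pow_eq_one, ?_⟩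
  rw [h ζ hζ.pow_eq_one]
  intro h1
  have hζ0 : ζ ≠ 0 := hζ.ne_zero hpp.ne_zero
  have h2 : ζ = 1 := by
    have h3 : ζ * ζ = ζ * 1 := by rw [mul_one, ← pow_two]; exact h1
    exact mul_left_cancel₀ hζ0 h3
  exact hζ.ne_one hpp.one_lt h2

/-- **inertia at `p` moves `μ_p`**: for every valuation subring `B` of `ℚ̄` over an odd prime `p`
there is `τ₀` in the inertia group of `B` moving a `p`-th root of unity. -/
theorem cysp_exists_moves (p : ℕ) [Fact p.Prime] (hp2 : p ≠ 2)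
    (B : ValuationSubring (AlgebraicClosure ℚ)) (hB : B.LiesOverPrime p) :
    ∃ τ₀ ∈ B.inertiaSubgroupIn ℚ, S33hMoves p τ₀ ∧
      ∀ t : AlgebraicClosure ℚ, t ^ p = 1 → τ₀ t = t ^ 2 := by
  obtain ⟨τ₀, hτ₀, h⟩ := icy_exists p hp2 B hB
  exact ⟨τ₀, hτ₀, cysp_moves_of_sq p τ₀ h, h⟩

/-- if `τ` moves `μ_p` then `χ₁(τ) - 1` is a unit of `ZMod (p ^ 1)` -/
theorem cysp_isUnit_sub_one (p : ℕ) [Fact p.Prime] (τ : GQ) (h : S33hMoves p τ) :
    IsUnit (((cycChi p 1 τ : (ZMod (p ^ 1))ˣ) : ZMod (p ^ 1)) - 1) := by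
  have hpp : p.Prime := Fact.out
  have h1 := (cysp_moves_iff p τ).1 h
  have hne : ((cycChi p 1 τ : (ZMod (p ^ 1))ˣ) : ZMod (p ^ 1)) - 1 ≠ 0 := by
    intro h0
    apply h1
    apply Units.ext
    rw [Units.val_one]
    exact sub_eq_zero.1 h0
  haveI : Fact (p ^ 1).Prime := ⟨by rw [pow_one]; exact hpp⟩
  exact IsUnit.mk0 _ hne

end Fermat.Agent.S33lib
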