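/-
Item 86 (S33), the abstract FITTING step (helper10).

`U` a finite abelian group, `T` an endomorphism (`T_p`), `S` a set of endomorphisms commuting
with `T` (Galois and Hecke operators), `W` a `T`-stable subgroup on which `T` is injective
(the classes of level `≥ v*`, on which `T_p` is the Frobenius twist of the Artin–Schreier class).
If every nonzero `S`-stable, `T`-stable subgroup of `U` contains a nonzero element of `W`,
then `T` is bijective on `U` ("Galois-ordinary ⟹ Hecke-ordinary").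

* `fitNil`: the generalised kernel of `T`;
* `fit_pow_ne_zero`: `T^[n] z ≠ 0` for `0 ≠ z ∈ W`;
* `fit_nil_eq_bot`, `fit_injective`, `fit_bijective`;
* `fit_surjective_of_quot`, `fit_isUnit_of_bijective`: consequences for modules.
Declarations are prefixed `fit`.  No sorry.
-/
import Mathlib

set_option autoImplicit false

namespace Fermat.Agent.S33lib

variable {U : Type*} [AddCommGroup U]

theorem fit_iterate_zero (T : U →+ U) (n : ℕ) : (⇑T)^[n] 0 = 0 := by
  induction n with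
  | zero => rfl
  | succ n ih => rw [Function.iterate_succ_apply, map_zero, ih]

theorem fit_iterate_add (T : U →+ U) (n : ℕ) (x y : U) :
    (⇑T)^[n] (x + y) = (⇑T)^[n] x + (⇑T)^[n] y := by
  induction n generalizing x y with
  | zero => rfl
  | succ n ih => rw [Function.iterate_succ_apply, Function.iterate_succ_apply,
      Function.iterate_succ_apply, map_add, ih]

theorem fit_iterate_neg (T : U →+ U) (n : ℕ) (x : U) :
    (⇑T)^[n] (-x) = -(⇑T)^[n] x := by
  induction n generalizing x with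
  | zero => rfl
  | succ n ih => rw [Function.iterate_succ_apply, Function.iterate_succ_apply, map_neg, ih]

/-- the generalised kernel of `T` -/
def fitNil (T : U →+ U) : AddSubgroup U where
  carrier := {x | ∃ n : ℕ, (⇑T)^[n] x = 0}
  zero_mem' := ⟨0, rfl⟩
  add_mem' := by
    rintro x y ⟨n, hn⟩ ⟨m, hm⟩
    refine ⟨n + m, ?_⟩
    rw [fit_iterate_add]
    have h1 : (⇑T)^[n + m] x = 0 := by
      rw [add_comm, Function.iterate_add_apply, hn, fit_iterate_zero]
    have h2 : (⇑T)^[n + m] y = 0 := by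
      rw [Function.iterate_add_apply, hm, fit_iterate_zero]
    rw [h1, h2, add_zero]
  neg_mem' := by
    rintro x ⟨n, hn⟩
    exact ⟨n, by rw [fit_iterate_neg, hn, neg_zero]⟩

theorem mem_fitNil {T : U →+ U} {x : U} : x ∈ fitNil T ↔ ∃ n : ℕ, (⇑T)^[n] x = 0 := Iff.rfl

theorem fit_ker_le_nil (T : U →+ U) {x : U} (hx : T x = 0) : x ∈ fitNil T :=
  ⟨1, by rw [Function.iterate_one]; exact hx⟩

/-- the generalised kernel is stable under `T` -/
theorem fitNil_stable_self (T : U →+ U) {x : U} (hx : x ∈ fitNil T) : T x ∈ fitNil T := by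
  obtain ⟨n, hn⟩ := hx
  refine ⟨n, ?_⟩
  rw [← Function.iterate_succ_apply, Function.iterate_succ_apply', hn, map_zero]

/-- the generalised kernel is stable under every operator commuting with `T` -/
theorem fitNil_stable (T s : U →+ U) (hs : ∀ x, T (s x) = s (T x)) {x : U}
    (hx : x ∈ fitNil T) : s x ∈ fitNil T := by
  obtain ⟨n, hn⟩ := hx
  refine ⟨n, ?_⟩
  have key : ∀ m : ℕ, ∀ y : U, (⇑T)^[m] (s y) = s ((⇑T)^[m] y) := by
    intro m
    induction m with
    | zero => intro y; rfl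
    | succ m ih =>
      intro y
      rw [Function.iterate_succ_apply, Function.iterate_succ_apply, hs, ih]
  rw [key, hn, map_zero]

/-- `T^[n] z ≠ 0` for a nonzero `z` of a `T`-stable subgroup on which `T` is injective -/
theorem fit_pow_ne_zero (T : U →+ U) (W : AddSubgroup U) (hWT : ∀ x ∈ W, T x ∈ W)
    (hinj : ∀ x ∈ W, T x = 0 → x = 0) {z : U} (hz : z ∈ W) (hz0 : z ≠ 0) (n : ℕ) :
    (⇑T)^[n] z ∈ W ∧ (⇑T)^[n] z ≠ 0 := by
  induction n with
  | zero => exact ⟨hz, hz0⟩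
  | succ n ih =>
    rw [Function.iterate_succ_apply']
    exact ⟨hWT _ ih.1, fun h => ih.2 (hinj _ ih.1 h)⟩

/-- **Fitting**: the generalised kernel of `T` is zero. -/
theorem fit_nil_eq_bot (T : U →+ U) (S : Set (U →+ U)) (hS : ∀ s ∈ S, ∀ x, T (s x) = s (T x))
    (W : AddSubgroup U) (hWT : ∀ x ∈ W, T x ∈ W) (hinj : ∀ x ∈ W, T x = 0 → x = 0)
    (hmeet : ∀ V : AddSubgroup U, (∀ s ∈ S, ∀ x ∈ V, s x ∈ V) → (∀ x ∈ V, T x ∈ V) → V ≠ ⊥ →
      ∃ z ∈ V, z ≠ 0 ∧ z ∈ W) :
    fitNil T = ⊥ := by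
  by_contra hne
  obtain ⟨z, hzN, hz0, hzW⟩ := hmeet (fitNil T)
    (fun s hs x hx => fitNil_stable T s (hS s hs) hx) (fun x hx => fitNil_stable_self T hx) hne
  obtain ⟨n, hn⟩ := hzN
  exact (fit_pow_ne_zero T W hWT hinj hzW hz0 n).2 hn

/-- **Fitting**: `T` is injective. -/
theorem fit_injective (T : U →+ U) (S : Set (U →+ U)) (hS : ∀ s ∈ S, ∀ x, T (s x) = s (T x))
    (W : AddSubgroup U) (hWT : ∀ x ∈ W, T x ∈ W) (hinj : ∀ x ∈ W, T x = 0 → x = 0)
    (hmeet : ∀ V : AddSubgroup U, (∀ s ∈ S, ∀ x ∈ V, s x ∈ V) → (∀ x ∈ V, T x ∈ V) → V ≠ ⊥ →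
      ∃ z ∈ V, z ≠ 0 ∧ z ∈ W) :
    Function.Injective T := by
  rw [injective_iff_map_eq_zero]
  intro x hx
  have h := fit_ker_le_nil T hx
  rw [fit_nil_eq_bot T S hS W hWT hinj hmeet] at h
  exact (AddSubgroup.mem_bot).mp h

/-- **Fitting**: `T` is bijective on a finite `U`. -/
theorem fit_bijective [Finite U] (T : U →+ U) (S : Set (U →+ U))
    (hS : ∀ s ∈ S, ∀ x, T (s x) = s (T x))
    (W : AddSubgroup U) (hWT : ∀ x ∈ W, T x ∈ W) (hinj : ∀ x ∈ W, T x = 0 → x = 0)
    (hmeet : ∀ V : AddSubgroup U, (∀ s ∈ S, ∀ x ∈ V, s x ∈ V) → (∀ x ∈ V, T x ∈ V) → V ≠ ⊥ →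
      ∃ z ∈ V, z ≠ 0 ∧ z ∈ W) :
    Function.Bijective T :=
  (Finite.injective_iff_bijective).mp (fit_injective T S hS W hWT hinj hmeet)

/-- variant: it suffices that every nonzero `S`- and `T`-stable subgroup contains a nonzero
element killed by no iterate of `T` -/
theorem fit_bijective' [Finite U] (T : U →+ U) (S : Set (U →+ U))
    (hS : ∀ s ∈ S, ∀ x, T (s x) = s (T x))
    (hmeet : ∀ V : AddSubgroup U, (∀ s ∈ S, ∀ x ∈ V, s x ∈ V) → (∀ x ∈ V, T x ∈ V) → V ≠ ⊥ →
      ∃ z ∈ V, ∀ n : ℕ, (⇑T)^[n] z ≠ 0) :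
    Function.Bijective T := by
  refine (Finite.injective_iff_bijective).mp ?_
  rw [injective_iff_map_eq_zero]
  intro x hx
  by_contra hx0
  have hne : fitNil T ≠ ⊥ := by
    intro h
    have := fit_ker_le_nil T hx
    rw [h] at this
    exact hx0 ((AddSubgroup.mem_bot).mp this)
  obtain ⟨z, hzN, hz⟩ := hmeet (fitNil T)
    (fun s hs x hx => fitNil_stable T s (hS s hs) hx) (fun x hx => fitNil_stable_self T hx) hne
  obtain ⟨n, hn⟩ := hzN
  exact hz n hn

end Fermat.Agent.S33lib
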