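/-
Item 86 (S33), abstract ASSEMBLY steps after Fitting (helper10).

* `fit_filtration`: `T` injective on a finite abelian group, `W 0 ⊇ W J` subgroups with
  `T (W j) ⊆ W (j+1)` for `j < J` ("`T_p` improves the level by one step"): then `W 0 = W J`
  ("every class of `W` has level `≥ v*`").
* `fit_eigen_fixed_zero`: if `τ` acts on `x` by a scalar `c` with `c - 1` invertible mod the
  order of `x` and `τ x = x`, then `x = 0` (regime II: `τ = ω(τ)` on `W^{≥ v*}`).
* `fit_socle`: a nonzero finite abelian group with a family of commuting locally nilpotent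
  endomorphisms has a nonzero element killed by all of them.
Declarations are prefixed `fit`.  No sorry.
-/
import Mathlib
import Fermat.Agent.S33lib.FitAbs

set_option autoImplicit false

namespace Fermat.Agent.S33lib

variable {U : Type*} [AddCommGroup U]

theorem fit_iterate_mem (T : U →+ U) (W : ℕ → AddSubgroup U) (J : ℕ)
    (hstep : ∀ j < J, ∀ x ∈ W j, T x ∈ W (j + 1)) :
    ∀ j ≤ J, ∀ x ∈ W 0, (⇑T)^[j] x ∈ W j := by
  intro j
  induction j with
  | zero => intro _ x hx; exact hx
  | succ j ih =>
    intro hj x hx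
    rw [Function.iterate_succ_apply']
    exact hstep j (Nat.lt_of_succ_le hj) _ (ih (Nat.le_of_succ_le hj) x hx)

/-- **level improvement + injectivity**: `W 0 = W J`. -/
theorem fit_filtration [Finite U] (T : U →+ U) (hT : Function.Injective T)
    (W : ℕ → AddSubgroup U) (J : ℕ)
    (hstep : ∀ j < J, ∀ x ∈ W j, T x ∈ W (j + 1)) (hle : W J ≤ W 0) :
    W 0 = W J := by
  classical
  have hinj : Function.Injective ((⇑T)^[J]) := hT.iterate J
  have hmem := fit_iterate_mem T W J hstep J le_rfl
  -- the injection `W 0 → W J`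
  let f : W 0 → W J := fun x => ⟨(⇑T)^[J] x.1, hmem x.1 x.2⟩
  have hf : Function.Injective f := by
    intro x y hxy
    have : (⇑T)^[J] x.1 = (⇑T)^[J] y.1 := congrArg Subtype.val hxy
    exact Subtype.ext (hinj this)
  -- the inclusion `W J → W 0`
  let g : W J → W 0 := fun x => ⟨x.1, hle x.2⟩
  have hg : Function.Injective g := by
    intro x y hxy
    have : (g x).1 = (g y).1 := congrArg Subtype.val hxy
    exact Subtype.ext this
  have hcard : Nat.card (W 0) = Nat.card (W J) :=
    le_antisymm (Nat.card_le_card_of_injective f hf) (Nat.card_le_card_of_injective g hg)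
  -- so the inclusion is onto
  have hgs : Function.Surjective g := by
    have hbij : Function.Bijective g :=
      (Nat.bijective_iff_injective_and_card g).mpr ⟨hg, hcard.symm⟩
    exact hbij.2
  refine le_antisymm ?_ hle
  intro x hx
  obtain ⟨y, hy⟩ := hgs ⟨x, hx⟩
  have : y.1 = x := congrArg Subtype.val hy
  rw [← this]
  exact y.2

/-- variant with the filtration cut out of a `T`-stable subgroup `U'`, `T` injective on `U'` -/
theorem fit_filtration' [Finite U] (T : U →+ U) (U' : AddSubgroup U)
    (hinj : ∀ x ∈ U', T x = 0 → x = 0)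
    (W : ℕ → AddSubgroup U) (hWU : W 0 ≤ U') (hU' : ∀ x ∈ U', T x ∈ U') (J : ℕ)
    (hstep : ∀ j < J, ∀ x ∈ W j, T x ∈ W (j + 1)) (hle : W J ≤ W 0) :
    W 0 = W J := by
  classical
  have hmem := fit_iterate_mem T W J hstep J le_rfl
  have hU'it : ∀ n : ℕ, ∀ x ∈ U', (⇑T)^[n] x ∈ U' := by
    intro n
    induction n with
    | zero => intro x hx; exact hx
    | succ n ih => intro x hx; rw [Function.iterate_succ_apply']; exact hU' _ (ih x hx)
  have hinjit : ∀ n : ℕ, ∀ x ∈ U', (⇑T)^[n] x = 0 → x = 0 := by
    intro n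
    induction n with
    | zero => intro x _ h; exact h
    | succ n ih =>
      intro x hx h
      rw [Function.iterate_succ_apply'] at h
      exact ih x hx (hinj _ (hU'it n x hx) h)
  let f : W 0 → W J := fun x => ⟨(⇑T)^[J] x.1, hmem x.1 x.2⟩
  have hf : Function.Injective f := by
    intro x y hxy
    have h1 : (⇑T)^[J] x.1 = (⇑T)^[J] y.1 := congrArg Subtype.val hxy
    have h2 : (⇑T)^[J] (x.1 - y.1) = 0 := by
      rw [sub_eq_add_neg, fit_iterate_add, fit_iterate_neg, h1, add_neg_cancel]
    have h3 := hinjit J (x.1 - y.1) (U'.sub_mem (hWU x.2) (hWU y.2)) h2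
    exact Subtype.ext (sub_eq_zero.mp h3)
  let g : W J → W 0 := fun x => ⟨x.1, hle x.2⟩
  have hg : Function.Injective g := by
    intro x y hxy
    have : (g x).1 = (g y).1 := congrArg Subtype.val hxy
    exact Subtype.ext this
  have hcard : Nat.card (W 0) = Nat.card (W J) :=
    le_antisymm (Nat.card_le_card_of_injective f hf) (Nat.card_le_card_of_injective g hg)
  have hgs : Function.Surjective g :=
    ((Nat.bijective_iff_injective_and_card g).mpr ⟨hg, hcard.symm⟩).2
  refine le_antisymm ?_ hle
  intro x hx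
  obtain ⟨y, hy⟩ := hgs ⟨x, hx⟩
  have : y.1 = x := congrArg Subtype.val hy
  rw [← this]
  exact y.2

/-- regime II conclusion: `τ x = c • x`, `τ x = x`, `p • x = 0`, `c - 1` prime to `p` ⟹ `x = 0` -/
theorem fit_eigen_fixed_zero (p : ℕ) (c : ℕ) (hc : Nat.Coprime (c - 1) p) (hc1 : 1 ≤ c)
    (x : U) (hp : p • x = 0) (τx : U) (h1 : τx = c • x) (h2 : τx = x) : x = 0 := by
  have h3 : (c - 1) • x = 0 := by
    have : c • x = (c - 1) • x + x := by
      conv_lhs => rw [show c = (c - 1) + 1 by omega]
      rw [add_smul, one_smul]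
    rw [h1, this] at h2
    exact add_eq_right.mp h2
  have h4 : (Nat.gcd (c - 1) p) • x = 0 := by
    have hbez := Nat.gcd_eq_gcd_ab (c - 1) p
    have hz : ((Nat.gcd (c - 1) p : ℕ) : ℤ) • x = 0 := by
      rw [hbez, add_smul, mul_comm, mul_smul, mul_comm (p : ℤ), mul_smul, natCast_zsmul,
        natCast_zsmul, h3, hp, smul_zero, smul_zero, add_zero]
    rw [natCast_zsmul] at hz
    exact hz
  rw [hc, one_smul] at h4
  exact h4

end Fermat.Agent.S33lib
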