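/-
Item 86 (S33), piece FIT (helper10): the ABSTRACT assembly of the good-level geometry G1
(blueprint `NOTES/S33_blueprint.md`, G1 "PROOF of G1").

`J` an abelian group with an action of `G`, `Tp` an endomorphism commuting with `G` and with the
commuting family `Ps` of endomorphisms (the Hecke polynomials in the kernel of `θ'`),
`KI` the subgroup generated by the `τ y − y`, predicates `Ker`, `Deep`.

* `fit_socle`: a nonzero finite subgroup stable under a commuting family of locally nilpotent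
  endomorphisms contains a nonzero element killed by all of them.
* `fit_good_inj`: step (1): `Tp` is injective on the `θ'`-part of `J[p]`.
* `fit_good_abs`: step (2): G1.
Declarations are prefixed `fit`.  No sorry.
-/
import Mathlib
import Fermat.Agent.S33lib.FitFilt

set_option autoImplicit false

namespace Fermat.Agent.S33lib

section Socle

variable {U : Type*} [AddCommGroup U]

/-- a locally nilpotent endomorphism has a nonzero kernel element in every nonzero stable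
subgroup -/
theorem fit_ker_of_nilp (P : U →+ U) (Y : AddSubgroup U) (hstab : ∀ x ∈ Y, P x ∈ Y)
    (hnil : ∀ x ∈ Y, ∃ k : ℕ, (⇑P)^[k] x = 0) {y : U} (hy : y ∈ Y) (hy0 : y ≠ 0) :
    ∃ z ∈ Y, z ≠ 0 ∧ P z = 0 := by
  classical
  have hex := hnil y hy
  have hk0 : Nat.find hex ≠ 0 := by
    intro h0
    have := Nat.find_spec hex
    rw [h0] at this
    exact hy0 this
  obtain ⟨k, hk⟩ := Nat.exists_eq_succ_of_ne_zero hk0
  have hitmem : ∀ n : ℕ, (⇑P)^[n] y ∈ Y := by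
    intro n
    induction n with
    | zero => exact hy
    | succ n ih => rw [Function.iterate_succ_apply']; exact hstab _ ih
  refine ⟨(⇑P)^[k] y, hitmem k, ?_, ?_⟩
  · intro h
    have := Nat.find_min' hex h
    omega
  · have := Nat.find_spec hex
    rw [hk, Function.iterate_succ_apply'] at this
    exact this

/-- **socle**: a nonzero finite subgroup stable under a commuting family of locally nilpotent
endomorphisms contains a nonzero element killed by all of them. -/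
theorem fit_socle (Ps : Set (U →+ U))
    (hcomm : ∀ P ∈ Ps, ∀ Q ∈ Ps, ∀ x, P (Q x) = Q (P x)) :
    ∀ (n : ℕ) (Y : AddSubgroup U), (Y : Set U).Finite → (Y : Set U).ncard = n → Y ≠ ⊥ →
      (∀ P ∈ Ps, ∀ x ∈ Y, P x ∈ Y) → (∀ P ∈ Ps, ∀ x ∈ Y, ∃ k : ℕ, (⇑P)^[k] x = 0) →
      ∃ z ∈ Y, z ≠ 0 ∧ ∀ P ∈ Ps, P z = 0 := by
  intro n
  induction n using Nat.strong_induction_on with
  | _ n ih =>
    intro Y hfin hcard hY hstab hnil
    by_cases hall : ∀ P ∈ Ps, ∀ x ∈ Y, P x = 0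
    · obtain ⟨z, hz⟩ := (AddSubgroup.ne_bot_iff_exists_ne_zero).mp hY
      exact ⟨z.1, z.2, fun h => hz (Subtype.ext h), fun P hP => hall P hP z.1 z.2⟩
    · have hex : ∃ P ∈ Ps, ∃ x ∈ Y, P x ≠ 0 := by
        by_contra hno
        apply hall
        intro P hP x hx
        by_contra hne
        exact hno ⟨P, hP, x, hx, hne⟩
      obtain ⟨P, hP, x, hx, hPx⟩ := hex
      -- the kernel of `P` in `Y`
      let Y' : AddSubgroup U := Y ⊓ P.ker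
      have hY'le : Y' ≤ Y := inf_le_left
      have hxY' : x ∉ Y' := fun h => hPx ((AddMonoidHom.mem_ker).mp h.2)
      have hss : (Y' : Set U) ⊂ (Y : Set U) := by
        refine ⟨hY'le, fun h => hxY' (h hx)⟩
      have hlt : (Y' : Set U).ncard < n := by
        rw [← hcard]
        exact Set.ncard_lt_ncard hss hfin
      have hY'0 : Y' ≠ ⊥ := by
        obtain ⟨y, hy, hy0⟩ : ∃ y ∈ Y, y ≠ 0 := by
          obtain ⟨z, hz⟩ := (AddSubgroup.ne_bot_iff_exists_ne_zero).mp hY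
          exact ⟨z.1, z.2, fun h => hz (Subtype.ext h)⟩
        obtain ⟨z, hzY, hz0, hPz⟩ := fit_ker_of_nilp P Y (hstab P hP) (hnil P hP) hy hy0
        intro hbot
        have : z ∈ Y' := ⟨hzY, (AddMonoidHom.mem_ker).mpr hPz⟩
        rw [hbot] at this
        exact hz0 ((AddSubgroup.mem_bot).mp this)
      have hstab' : ∀ Q ∈ Ps, ∀ x ∈ Y', Q x ∈ Y' := by
        intro Q hQ x hx
        refine ⟨hstab Q hQ x hx.1, (AddMonoidHom.mem_ker).mpr ?_⟩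
        rw [hcomm P hP Q hQ, (AddMonoidHom.mem_ker).mp hx.2, map_zero]
      have hnil' : ∀ Q ∈ Ps, ∀ x ∈ Y', ∃ k : ℕ, (⇑Q)^[k] x = 0 :=
        fun Q hQ x hx => hnil Q hQ x hx.1
      obtain ⟨z, hz, hz0, hzk⟩ := ih _ hlt Y' (hfin.subset hY'le) rfl hY'0 hstab' hnil'
      exact ⟨z, hz.1, hz0, hzk⟩

end Socle

section Good

variable {J : Type*} [AddCommGroup J] {G : Type*} [Group G] [DistribMulAction G J]

/-- iterates of an additive map commuting with another one -/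
theorem fit_iterate_comm (P Q : J →+ J) (h : ∀ x, P (Q x) = Q (P x)) (k : ℕ) (x : J) :
    (⇑P)^[k] (Q x) = Q ((⇑P)^[k] x) := by
  induction k generalizing x with
  | zero => rfl
  | succ k ih => rw [Function.iterate_succ_apply, Function.iterate_succ_apply, h, ih]

theorem fit_iterate_smul (P : J →+ J) (h : ∀ (g : G) (x : J), P (g • x) = g • P x) (k : ℕ)
    (g : G) (x : J) : (⇑P)^[k] (g • x) = g • (⇑P)^[k] x := by
  induction k generalizing x with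
  | zero => rfl
  | succ k ih => rw [Function.iterate_succ_apply, Function.iterate_succ_apply, h, ih]

/-- the `θ'`-part of `J[p]` -/
def fitPart (p : ℕ) (Ps : Set (J →+ J)) : AddSubgroup J where
  carrier := {x | p • x = 0 ∧ ∀ P ∈ Ps, ∃ k : ℕ, (⇑P)^[k] x = 0}
  zero_mem' := ⟨smul_zero _, fun P _ => ⟨0, rfl⟩⟩
  add_mem' := by
    rintro x y ⟨hx, hxP⟩ ⟨hy, hyP⟩
    refine ⟨by rw [smul_add, hx, hy, add_zero], fun P hP => ?_⟩
    obtain ⟨k, hk⟩ := hxP P hP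
    obtain ⟨l, hl⟩ := hyP P hP
    refine ⟨k + l, ?_⟩
    rw [fit_iterate_add]
    have h1 : (⇑P)^[k + l] x = 0 := by
      rw [add_comm, Function.iterate_add_apply, hk, fit_iterate_zero]
    have h2 : (⇑P)^[k + l] y = 0 := by
      rw [Function.iterate_add_apply, hl, fit_iterate_zero]
    rw [h1, h2, add_zero]
  neg_mem' := by
    rintro x ⟨hx, hxP⟩
    refine ⟨by rw [smul_neg, hx, neg_zero], fun P hP => ?_⟩
    obtain ⟨k, hk⟩ := hxP P hP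
    exact ⟨k, by rw [fit_iterate_neg, hk, neg_zero]⟩

theorem mem_fitPart {p : ℕ} {Ps : Set (J →+ J)} {x : J} :
    x ∈ fitPart p Ps ↔ p • x = 0 ∧ ∀ P ∈ Ps, ∃ k : ℕ, (⇑P)^[k] x = 0 := Iff.rfl

/-- an element killed by `p` on which `τ₀` acts by `c` with `c - 1` prime to `p` is a multiple
of `τ₀ z − z` -/
theorem fit_mem_of_eigen (p c : ℕ) (hc : Nat.Coprime (c - 1) p) (hc1 : 1 ≤ c) (KI : AddSubgroup J)
    (z τz : J) (hp : p • z = 0) (h1 : τz = c • z) (hmem : τz - z ∈ KI) : z ∈ KI := by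
  have h3 : τz - z = (c - 1) • z := by
    have : c • z = (c - 1) • z + z := by
      conv_lhs => rw [show c = (c - 1) + 1 by omega]
      rw [add_smul, one_smul]
    rw [h1, this, add_sub_cancel_right]
  rw [h3] at hmem
  have hbez := Nat.gcd_eq_gcd_ab (c - 1) p
  rw [hc] at hbez
  have hz : z = (Nat.gcdA (c - 1) p) • ((c - 1) • z) := by
    have h5 : ((1 : ℕ) : ℤ) • z = (Nat.gcdA (c - 1) p) • ((c - 1) • z) := by
      rw [hbez, add_smul, mul_comm, mul_smul, mul_comm (p : ℤ), mul_smul, natCast_zsmul,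
        natCast_zsmul, hp, smul_zero, add_zero]
    rw [natCast_zsmul, one_smul] at h5
    exact h5
  rw [hz]
  exact KI.zsmul_mem hmem _

variable (p : ℕ) (I : Set G) (I1 : Set G) (χ : G → ℕ) (Tp : J →+ J) (Ps : Set (J →+ J))
  (KI : AddSubgroup J) (Ker Deep : J → Prop)

/-- **FIT, step (1)**: `T_p` is injective on the `θ'`-part of `J[p]`. -/
theorem fit_good_inj
    (hfin : {x : J | p • x = 0}.Finite)
    (hTpG : ∀ (g : G) (x : J), Tp (g • x) = g • Tp x)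
    (hPsG : ∀ P ∈ Ps, ∀ (g : G) (x : J), P (g • x) = g • P x)
    (hPsT : ∀ P ∈ Ps, ∀ x : J, Tp (P x) = P (Tp x))
    (hPscomm : ∀ P ∈ Ps, ∀ Q ∈ Ps, ∀ x, P (Q x) = Q (P x))
    (hResJ : ∀ U : AddSubgroup J, U ≠ ⊥ → (∀ x ∈ U, p • x = 0 ∧ ∀ P ∈ Ps, P x = 0) →
      (∀ (g : G), ∀ x ∈ U, g • x ∈ U) → ∃ z ∈ U, z ≠ 0 ∧ ∀ τ ∈ I, τ • z = χ τ • z)
    (hKImem : ∀ τ ∈ I, ∀ y : J, p • y = 0 → τ • y - y ∈ KI)
    (τ₀ : G) (hτ₀ : τ₀ ∈ I) (hχ₀ : Nat.Coprime (χ τ₀ - 1) p) (hχ₀1 : 1 ≤ χ τ₀)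
    (hI1 : ∀ τ ∈ I1, τ ∈ I ∧ χ τ = 1)
    (KSAT : ∀ x ∈ KI, p • x = 0 → Ker x)
    (RAYJ : ∀ x : J, Ker x → (∀ τ ∈ I1, τ • x = x) → Deep x)
    (TPINJ : ∀ x : J, Deep x → Tp x = 0 → x = 0) :
    ∀ x ∈ fitPart p Ps, Tp x = 0 → x = 0 := by
  intro y hy hTy
  by_contra hy0
  -- the kernel of `T_p` in the `θ'`-part
  let Y : AddSubgroup J := fitPart p Ps ⊓ Tp.ker
  have hYfin : (Y : Set J).Finite := hfin.subset fun x hx => hx.1.1
  have hY0 : Y ≠ ⊥ := by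
    intro hbot
    have : y ∈ Y := ⟨hy, (AddMonoidHom.mem_ker).mpr hTy⟩
    rw [hbot] at this
    exact hy0 ((AddSubgroup.mem_bot).mp this)
  have hYstab : ∀ P ∈ Ps, ∀ x ∈ Y, P x ∈ Y := by
    intro P hP x hx
    refine ⟨⟨?_, fun Q hQ => ?_⟩, (AddMonoidHom.mem_ker).mpr ?_⟩
    · rw [← map_nsmul, hx.1.1, map_zero]
    · obtain ⟨k, hk⟩ := hx.1.2 Q hQ
      exact ⟨k, by rw [fit_iterate_comm Q P (hPscomm Q hQ P hP), hk, map_zero]⟩
    · rw [hPsT P hP, (AddMonoidHom.mem_ker).mp hx.2, map_zero]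
  have hYnil : ∀ P ∈ Ps, ∀ x ∈ Y, ∃ k : ℕ, (⇑P)^[k] x = 0 := fun P hP x hx => hx.1.2 P hP
  obtain ⟨z, hzY, hz0, hzk⟩ := fit_socle Ps hPscomm _ Y hYfin rfl hY0 hYstab hYnil
  -- the socle of the kernel
  let V : AddSubgroup J :=
    { carrier := {x | p • x = 0 ∧ Tp x = 0 ∧ ∀ P ∈ Ps, P x = 0}
      zero_mem' := ⟨smul_zero _, map_zero _, fun P _ => map_zero _⟩
      add_mem' := by
        rintro a b ⟨ha1, ha2, ha3⟩ ⟨hb1, hb2, hb3⟩
        exact ⟨by rw [smul_add, ha1, hb1, add_zero], by rw [map_add, ha2, hb2, add_zero],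
          fun P hP => by rw [map_add, ha3 P hP, hb3 P hP, add_zero]⟩
      neg_mem' := by
        rintro a ⟨ha1, ha2, ha3⟩
        exact ⟨by rw [smul_neg, ha1, neg_zero], by rw [map_neg, ha2, neg_zero],
          fun P hP => by rw [map_neg, ha3 P hP, neg_zero]⟩ }
  have hV0 : V ≠ ⊥ := by
    intro hbot
    have : z ∈ V := ⟨hzY.1.1, (AddMonoidHom.mem_ker).mp hzY.2, hzk⟩
    rw [hbot] at this
    exact hz0 ((AddSubgroup.mem_bot).mp this)
  have hVk : ∀ x ∈ V, p • x = 0 ∧ ∀ P ∈ Ps, P x = 0 := fun x hx => ⟨hx.1, hx.2.2⟩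
  have hVG : ∀ (g : G), ∀ x ∈ V, g • x ∈ V := by
    intro g x hx
    refine ⟨?_, ?_, fun P hP => ?_⟩
    · rw [smul_comm, hx.1, smul_zero]
    · rw [hTpG, hx.2.1, smul_zero]
    · rw [hPsG P hP, hx.2.2 P hP, smul_zero]
  obtain ⟨w, hwV, hw0, hwI⟩ := hResJ V hV0 hVk hVG
  have hwKI : w ∈ KI :=
    fit_mem_of_eigen p (χ τ₀) hχ₀ hχ₀1 KI w (τ₀ • w) hwV.1 (hwI τ₀ hτ₀) (hKImem τ₀ hτ₀ w hwV.1)
  have hwKer : Ker w := KSAT w hwKI hwV.1
  have hwI1 : ∀ τ ∈ I1, τ • w = w := by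
    intro τ hτ
    rw [hwI τ (hI1 τ hτ).1, (hI1 τ hτ).2, one_smul]
  exact hw0 (TPINJ w (RAYJ w hwKer hwI1) hwV.2.1)

/-- **FIT** (abstract form of G1): a class of order `p` in the `θ'`-part, lying in `KI`, fixed by
`τ₀`, is zero. -/
theorem fit_good_abs
    (hfin : {x : J | p • x = 0}.Finite)
    (hTpG : ∀ (g : G) (x : J), Tp (g • x) = g • Tp x)
    (hPsG : ∀ P ∈ Ps, ∀ (g : G) (x : J), P (g • x) = g • P x)
    (hPsT : ∀ P ∈ Ps, ∀ x : J, Tp (P x) = P (Tp x))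
    (hPscomm : ∀ P ∈ Ps, ∀ Q ∈ Ps, ∀ x, P (Q x) = Q (P x))
    (hResJ : ∀ U : AddSubgroup J, U ≠ ⊥ → (∀ x ∈ U, p • x = 0 ∧ ∀ P ∈ Ps, P x = 0) →
      (∀ (g : G), ∀ x ∈ U, g • x ∈ U) → ∃ z ∈ U, z ≠ 0 ∧ ∀ τ ∈ I, τ • z = χ τ • z)
    (hKImem : ∀ τ ∈ I, ∀ y : J, p • y = 0 → τ • y - y ∈ KI)
    (hKIstab : ∀ τ ∈ I, ∀ x ∈ KI, τ • x ∈ KI)
    (hKITp : ∀ x ∈ KI, Tp x ∈ KI)
    (τ₀ : G) (hτ₀ : τ₀ ∈ I) (hχ₀ : Nat.Coprime (χ τ₀ - 1) p) (hχ₀1 : 1 ≤ χ τ₀)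
    (hI1 : ∀ τ ∈ I1, τ ∈ I ∧ χ τ = 1)
    (KSAT : ∀ x ∈ KI, p • x = 0 → Ker x)
    (RAYJ : ∀ x : J, Ker x → (∀ τ ∈ I1, τ • x = x) → Deep x)
    (REG2 : ∀ x : J, Deep x → ∀ τ ∈ I, τ • x = χ τ • x)
    (TPINJ : ∀ x : J, Deep x → Tp x = 0 → x = 0)
    (LEV : ∀ X : AddSubgroup J, (X : Set J).Finite → (∀ x ∈ X, p • x = 0) → (∀ x ∈ X, Ker x) →
      (∀ τ ∈ I, ∀ x ∈ X, τ • x ∈ X) → (∀ x ∈ X, Tp x ∈ X) → (∀ x ∈ X, Tp x = 0 → x = 0) →
      ∀ x ∈ X, Deep x)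
    (x : J) (hpx : p • x = 0) (hxP : ∀ P ∈ Ps, ∃ k : ℕ, (⇑P)^[k] x = 0) (hxKI : x ∈ KI)
    (hfix : τ₀ • x = x) : x = 0 := by
  have hinj := fit_good_inj p I I1 χ Tp Ps KI Ker Deep hfin hTpG hPsG hPsT hPscomm hResJ hKImem
    τ₀ hτ₀ hχ₀ hχ₀1 hI1 KSAT RAYJ TPINJ
  let X : AddSubgroup J := KI ⊓ fitPart p Ps
  have hXfin : (X : Set J).Finite := hfin.subset fun x hx => hx.2.1
  have hXp : ∀ x ∈ X, p • x = 0 := fun x hx => hx.2.1
  have hXKer : ∀ x ∈ X, Ker x := fun x hx => KSAT x hx.1 hx.2.1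
  have hXI : ∀ τ ∈ I, ∀ x ∈ X, τ • x ∈ X := by
    intro τ hτ x hx
    refine ⟨hKIstab τ hτ x hx.1, ?_, fun P hP => ?_⟩
    · rw [smul_comm, hx.2.1, smul_zero]
    · obtain ⟨k, hk⟩ := hx.2.2 P hP
      exact ⟨k, by rw [fit_iterate_smul P (hPsG P hP), hk, smul_zero]⟩
  have hXT : ∀ x ∈ X, Tp x ∈ X := by
    intro x hx
    refine ⟨hKITp x hx.1, ?_, fun P hP => ?_⟩
    · rw [← map_nsmul, hx.2.1, map_zero]
    · obtain ⟨k, hk⟩ := hx.2.2 P hP
      refine ⟨k, ?_⟩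
      rw [fit_iterate_comm P Tp (fun y => (hPsT P hP y).symm), hk, map_zero]
  have hXinj : ∀ x ∈ X, Tp x = 0 → x = 0 := fun x hx => hinj x hx.2
  have hxX : x ∈ X := ⟨hxKI, hpx, hxP⟩
  have hDeep := LEV X hXfin hXp hXKer hXI hXT hXinj x hxX
  exact fit_eigen_fixed_zero p (χ τ₀) hχ₀ hχ₀1 x hpx (τ₀ • x) (REG2 x hDeep τ₀ hτ₀) hfix

end Good

end Fermat.Agent.S33lib
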