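/-
Item 86 (S33), piece FIT (helper10): the assembly of the good-level geometry G1
(blueprint `NOTES/S33_blueprint.md`, G1), wired to the hub.

**`s33_geom_good_of`** : `S33ResJ M' p θ' → S33Geom M' p θ'` from the five geometric statements
(KSAT), (RAYJ), (REG2), (TPINJ), (LEV), for ANY predicates `Ker`, `Deep` on `J₀(M')` and any
choice `I1` of "inertia elements fixing `μ_p`".  `T_p = heckeOperatorBar M' p`.

Proved here (no hypothesis): finiteness of `J₀(M')[p]` (from a `JacInput`), the commutation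
rules of the Hecke polynomials (`fgd_evalJac_smul`, `fgd_evalJac_hecke`, `fgd_evalJac_comm`),
the stability properties of `s33hKI`, the values of the mod `p` cyclotomic character.
Declarations are prefixed `fgd`.  No sorry.
-/
import Mathlib
import Fermat.Agent.S33lib.Hub
import Fermat.Agent.S33lib.CycSpec
import Fermat.Agent.S33lib.FitAsm
import Fermat.Agent.HeckeBar.Final
import Fermat.Agent.HeckeBar.GaloisHecke
import Fermat.Agent.GalRep.JacInput

set_option autoImplicit false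
set_option linter.unusedSectionVars false
set_option linter.unusedVariables false
set_option linter.style.haveILetI false

noncomputable section

namespace Fermat.Agent.S33lib

open Fermat.Agent.GalRep ModularCurve Fermat.Agent.S31lib Fermat.Agent.S35lib
open Fermat.Agent.HeckeBar

/-! ### finiteness of `J₀(M')[p]` -/

/-- `J₀(M')[p]` is finite -/
theorem fgd_finite (M' : ℕ) [NeZero M'] (p : ℕ) (hp : p.Prime) (Jin : JacInput M' p) :
    {x : JZero M' | p • x = 0}.Finite := by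
  classical
  let e1 : Jin.Λ →ₗ[ℤ] JZero M' := (Jin.e 1).toIntLinearMap
  haveI : Module.Finite ℤ (LinearMap.range e1) := Module.Finite.range e1
  have htor : Module.IsTorsion ℤ (LinearMap.range e1) := by
    intro x
    obtain ⟨l, hl⟩ := x.2
    refine ⟨⟨(p : ℤ), ?_⟩, ?_⟩
    · exact mem_nonZeroDivisors_of_ne_zero (by exact_mod_cast hp.ne_zero)
    · apply Subtype.ext
      show ((p : ℤ) • x : LinearMap.range e1).1 = 0
      rw [Submodule.coe_smul, ← hl, ← map_smul]
      show Jin.e 1 ((p : ℤ) • l) = 0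
      rw [Jin.e_ker]
      exact ⟨l, by rw [pow_one, natCast_zsmul]⟩
  haveI : Finite (LinearMap.range e1) := Module.finite_of_fg_torsion _ htor
  have hfin : (LinearMap.range e1 : Set (JZero M')).Finite := Set.toFinite _
  refine hfin.subset ?_
  intro x hx
  obtain ⟨l, hl⟩ := Jin.e_range 1 x (by rw [pow_one]; exact hx)
  exact ⟨l, hl⟩

/-! ### commutation rules -/

section Comm

variable (M' : ℕ) [NeZero M'] (N : ℕ) (S : Finset ℕ)

/-- Hecke polynomials commute with the Galois action (every level) -/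
theorem fgd_evalJac_smul (P : HPoly N S) (σ : GQ) (x : JZero M') :
    evalJac N S M' P (σ • x) = σ • evalJac N S M' P x := by
  induction P using FreeAlgebra.induction generalizing x with
  | grade0 r =>
    rw [AlgHom.commutes, Module.algebraMap_end_apply, Module.algebraMap_end_apply]
    exact (gal_smul_zsmul M' σ r x).symm
  | grade1 ℓ =>
    rw [evalJac_ι]
    exact gal_heckeOperatorBar_smul M' ℓ.1 σ x
  | mul a b ha hb =>
    rw [map_mul, Module.End.mul_apply, Module.End.mul_apply, hb, ha]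
  | add a b ha hb =>
    rw [map_add, LinearMap.add_apply, LinearMap.add_apply, ha, hb, smul_add]

/-- Hecke polynomials commute with every Hecke operator -/
theorem fgd_evalJac_hecke (P : HPoly N S) (ℓ : Nat.Primes) (x : JZero M') :
    heckeOperatorBar M' ℓ (evalJac N S M' P x) = evalJac N S M' P (heckeOperatorBar M' ℓ x) := by
  induction P using FreeAlgebra.induction generalizing x with
  | grade0 r =>
    rw [AlgHom.commutes, Module.algebraMap_end_apply, Module.algebraMap_end_apply, map_zsmul]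
  | grade1 ℓ' =>
    rw [evalJac_ι]
    have h := heckeOperatorsCommuteBar M' ℓ ℓ'.1
    have h2 := congrArg (fun f : Module.End ℤ (JZero M') => f x) h
    simpa [Module.End.mul_apply] using h2
  | mul a b ha hb =>
    rw [map_mul, Module.End.mul_apply, Module.End.mul_apply, ha, hb]
  | add a b ha hb =>
    rw [map_add, LinearMap.add_apply, LinearMap.add_apply, map_add, ha, hb]

/-- Hecke polynomials commute with each other -/
theorem fgd_evalJac_comm (P Q : HPoly N S) (x : JZero M') :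
    evalJac N S M' P (evalJac N S M' Q x) = evalJac N S M' Q (evalJac N S M' P x) := by
  induction P using FreeAlgebra.induction generalizing x with
  | grade0 r =>
    rw [AlgHom.commutes, Module.algebraMap_end_apply, Module.algebraMap_end_apply, map_zsmul]
  | grade1 ℓ =>
    rw [evalJac_ι]
    exact fgd_evalJac_hecke M' N S Q ℓ.1 x
  | mul a b ha hb =>
    rw [map_mul, Module.End.mul_apply, Module.End.mul_apply, hb, ha]
  | add a b ha hb =>
    rw [map_add, LinearMap.add_apply, LinearMap.add_apply, map_add, ha, hb]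

end Comm

/-! ### the subgroup `s33hKI` -/

section KI

variable (M' : ℕ) [NeZero M'] (p : ℕ) (B : ValuationSubring (AlgebraicClosure ℚ))

theorem fgd_mem_hKI (τ : GQ) (hτ : τ ∈ B.inertiaSubgroupIn ℚ) (y : JZero M') (hy : p • y = 0) :
    τ • y - y ∈ s33hKI M' p B :=
  AddSubgroup.subset_closure ⟨τ, hτ, y, ⟨1, by rw [pow_one]; exact hy⟩, rfl⟩

/-- `s33hKI` is stable under an additive map commuting with the inertia group -/
theorem fgd_hKI_map (f : JZero M' →+ JZero M')
    (hf : ∀ τ ∈ B.inertiaSubgroupIn ℚ, ∀ x : JZero M', f (τ • x) = τ • f x)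
    {x : JZero M'} (hx : x ∈ s33hKI M' p B) : f x ∈ s33hKI M' p B := by
  have hle : s33hKI M' p B ≤ (s33hKI M' p B).comap f := by
    rw [s33hKI, AddSubgroup.closure_le]
    rintro z ⟨τ, hτ, y, ⟨n, hn⟩, rfl⟩
    show f (τ • y - y) ∈ s33hKI M' p B
    rw [map_sub, hf τ hτ]
    refine AddSubgroup.subset_closure ⟨τ, hτ, f y, ⟨n, ?_⟩, rfl⟩
    rw [← map_nsmul, hn, map_zero]
  exact hle hx

/-- `s33hKI` is stable under the inertia group -/
theorem fgd_hKI_smul (σ : GQ) (hσ : σ ∈ B.inertiaSubgroupIn ℚ)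
    {x : JZero M'} (hx : x ∈ s33hKI M' p B) : σ • x ∈ s33hKI M' p B := by
  have hle : s33hKI M' p B ≤
      (s33hKI M' p B).comap (DistribSMul.toAddMonoidHom (JZero M') σ) := by
    rw [s33hKI, AddSubgroup.closure_le]
    rintro z ⟨τ, hτ, y, ⟨n, hn⟩, rfl⟩
    show σ • (τ • y - y) ∈ s33hKI M' p B
    have e : σ • (τ • y - y) = (σ * τ * σ⁻¹) • (σ • y) - σ • y := by
      rw [smul_sub, mul_smul, mul_smul, inv_smul_smul]
    rw [e]
    refine AddSubgroup.subset_closure ⟨σ * τ * σ⁻¹, ?_, σ • y, ⟨n, ?_⟩, rfl⟩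
    · exact Subgroup.mul_mem _ (Subgroup.mul_mem _ hσ hτ) (Subgroup.inv_mem _ hσ)
    · rw [smul_comm, hn]
      exact smul_zero (A := JZero M') σ
  exact hle hx

end KI

/-! ### the mod `p` cyclotomic character -/

section Chi

variable (p : ℕ) [Fact p.Prime]

/-- the natural number representing the mod `p` cyclotomic character -/
def fgdChi (τ : GQ) : ℕ := ((cycChi p 1 τ : (ZMod (p ^ 1))ˣ) : ZMod (p ^ 1)).val

theorem fgdChi_eq_one (τ : GQ) (h : ∀ ζ : AlgebraicClosure ℚ, ζ ^ p = 1 → τ ζ = ζ) :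
    fgdChi p τ = 1 := by
  have hpp : p.Prime := Fact.out
  have h1 := cysp_eq_of_pow p 1 τ 1 (fun t ht => by
    rw [pow_one] at ht
    rw [pow_one]
    exact h t ht)
  rw [fgdChi, h1, ZMod.val_natCast]
  apply Nat.mod_eq_of_lt
  rw [pow_one]
  exact hpp.one_lt

theorem fgdChi_pos (τ : GQ) : 1 ≤ fgdChi p τ := by
  have hpp : p.Prime := Fact.out
  haveI : NeZero (p ^ 1) := ⟨pow_ne_zero 1 hpp.ne_zero⟩
  haveI : Fact (1 < p ^ 1) := ⟨by rw [pow_one]; exact hpp.one_lt⟩
  rw [fgdChi, Nat.one_le_iff_ne_zero]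
  intro h0
  have h1 : ((cycChi p 1 τ : (ZMod (p ^ 1))ˣ) : ZMod (p ^ 1)) = 0 :=
    (ZMod.val_eq_zero _).mp h0
  exact (cycChi p 1 τ).ne_zero h1

theorem fgdChi_coprime (τ : GQ) (h : S33hMoves p τ) : Nat.Coprime (fgdChi p τ - 1) p := by
  have hpp : p.Prime := Fact.out
  haveI : NeZero (p ^ 1) := ⟨pow_ne_zero 1 hpp.ne_zero⟩
  haveI : Fact (1 < p ^ 1) := ⟨by rw [pow_one]; exact hpp.one_lt⟩
  have hpos := fgdChi_pos p τ
  have hlt : fgdChi p τ < p := by
    have := ZMod.val_lt ((cycChi p 1 τ : (ZMod (p ^ 1))ˣ) : ZMod (p ^ 1))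
    exact lt_of_lt_of_eq this (pow_one p)
  rw [Nat.coprime_comm, Nat.Prime.coprime_iff_not_dvd hpp]
  intro hdvd
  have h0 : fgdChi p τ - 1 = 0 := Nat.eq_zero_of_dvd_of_lt hdvd (by omega)
  have h1 : fgdChi p τ = 1 := by omega
  have h2 : ((cycChi p 1 τ : (ZMod (p ^ 1))ˣ) : ZMod (p ^ 1)) = 1 := by
    have := ZMod.natCast_zmod_val ((cycChi p 1 τ : (ZMod (p ^ 1))ˣ) : ZMod (p ^ 1))
    rw [← this]
    show ((fgdChi p τ : ℕ) : ZMod (p ^ 1)) = 1
    rw [h1, Nat.cast_one]
  have h3 : cycChi p 1 τ = 1 := Units.ext h2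
  exact (cysp_moves_iff p τ).1 h h3

/-- an automorphism fixing a primitive `p`-th root of unity fixes all `p`-th roots of unity
(to discharge `hI1` of `s33_geom_good_of` for `I1 = {τ ∈ I_B | τ ζ = ζ}`) -/
theorem fgd_fix_all_of_primitive {ζ : AlgebraicClosure ℚ} (hζ : IsPrimitiveRoot ζ p) (τ : GQ)
    (h : τ ζ = ζ) (t : AlgebraicClosure ℚ) (ht : t ^ p = 1) : τ t = t := by
  have hpp : p.Prime := Fact.out
  haveI : NeZero p := ⟨hpp.ne_zero⟩
  obtain ⟨i, -, rfl⟩ := hζ.eq_pow_of_pow_eq_one ht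
  rw [map_pow, h]

end Chi

/-! ### the assembly -/

section Assembly

variable (M' : ℕ) [NeZero M'] (p : ℕ) [Fact p.Prime] {N : ℕ} {S : Finset ℕ}
  {κ : Type*} [Semiring κ] (θ' : HPoly N S →+* κ)

/-- `T_p` on `J₀(M')` -/
def fgdTp : JZero M' →+ JZero M' :=
  (heckeOperatorBar M' ⟨p, Fact.out⟩).toAddMonoidHom

theorem fgdTp_apply (x : JZero M') : fgdTp M' p x = heckeOperatorBar M' ⟨p, Fact.out⟩ x := rfl

/-- **FIT = G1 (good level)**, from the five geometric statements. -/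
theorem s33_geom_good_of (Jin : JacInput M' p)
    (Ker Deep : ValuationSubring (AlgebraicClosure ℚ) → JZero M' → Prop)
    (I1 : ValuationSubring (AlgebraicClosure ℚ) → Set GQ)
    (hI1 : ∀ B : ValuationSubring (AlgebraicClosure ℚ), B.LiesOverPrime p → ∀ τ ∈ I1 B,
      τ ∈ B.inertiaSubgroupIn ℚ ∧ ∀ ζ : AlgebraicClosure ℚ, ζ ^ p = 1 → τ ζ = ζ)
    (KSAT : ∀ B : ValuationSubring (AlgebraicClosure ℚ), B.LiesOverPrime p →
      ∀ x ∈ s33hKI M' p B, p • x = 0 → Ker B x)
    (RAYJ : ∀ B : ValuationSubring (AlgebraicClosure ℚ), B.LiesOverPrime p →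
      ∀ x : JZero M', Ker B x → (∀ τ ∈ I1 B, τ • x = x) → Deep B x)
    (REG2 : ∀ B : ValuationSubring (AlgebraicClosure ℚ), B.LiesOverPrime p →
      ∀ x : JZero M', Deep B x → ∀ τ ∈ B.inertiaSubgroupIn ℚ,
        τ • x = ((cycChi p 1 τ : ZMod (p ^ 1)).val) • x)
    (TPINJ : ∀ B : ValuationSubring (AlgebraicClosure ℚ), B.LiesOverPrime p →
      ∀ x : JZero M', Deep B x → heckeOperatorBar M' ⟨p, Fact.out⟩ x = 0 → x = 0)
    (LEV : ∀ B : ValuationSubring (AlgebraicClosure ℚ), B.LiesOverPrime p →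
      ∀ X : AddSubgroup (JZero M'), (X : Set (JZero M')).Finite → (∀ x ∈ X, p • x = 0) →
        (∀ x ∈ X, Ker B x) → (∀ τ ∈ B.inertiaSubgroupIn ℚ, ∀ x ∈ X, τ • x ∈ X) →
        (∀ x ∈ X, heckeOperatorBar M' ⟨p, Fact.out⟩ x ∈ X) →
        (∀ x ∈ X, heckeOperatorBar M' ⟨p, Fact.out⟩ x = 0 → x = 0) →
        ∀ x ∈ X, Deep B x)
    (hres : S33ResJ M' p θ') : S33Geom M' p θ' := by
  have hpp : p.Prime := Fact.out
  intro B hB x hpx hpart hKI τ₀ hτ₀ hmoves hfix
  -- the family of operators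
  let Ps : Set (JZero M' →+ JZero M') :=
    {f | ∃ P : HPoly N S, θ' P = 0 ∧ f = (evalJac N S M' P).toAddMonoidHom}
  refine fit_good_abs (G := GQ) p (B.inertiaSubgroupIn ℚ : Set GQ) (I1 B) (fgdChi p)
    (fgdTp M' p) Ps (s33hKI M' p B) (Ker B) (Deep B) (fgd_finite M' p hpp Jin)
    ?_ ?_ ?_ ?_ ?_ ?_ ?_ ?_ τ₀ hτ₀ (fgdChi_coprime p τ₀ hmoves) (fgdChi_pos p τ₀) ?_
    (KSAT B hB) (RAYJ B hB) ?_ ?_ ?_ x hpx ?_ hKI hfix
  · -- T_p commutes with Galois
    intro g y
    exact gal_heckeOperatorBar_smul M' ⟨p, Fact.out⟩ g y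
  · -- the Hecke polynomials commute with Galois
    rintro f ⟨P, -, rfl⟩ g y
    exact fgd_evalJac_smul M' N S P g y
  · -- T_p commutes with the Hecke polynomials
    rintro f ⟨P, -, rfl⟩ y
    exact fgd_evalJac_hecke M' N S P ⟨p, Fact.out⟩ y
  · -- the Hecke polynomials commute
    rintro f ⟨P, -, rfl⟩ g ⟨Q, -, rfl⟩ y
    exact fgd_evalJac_comm M' N S P Q y
  · -- ResJ
    intro U hU hk hG
    obtain ⟨z, hzU, hz0, hz⟩ := hres B hB U hU
      (fun y hy => ⟨(hk y hy).1, fun P hP => (hk y hy).2 _ ⟨P, hP, rfl⟩⟩) hG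
    exact ⟨z, hzU, hz0, fun τ hτ => hz τ hτ⟩
  · -- generators of `s33hKI`
    intro τ hτ y hy
    exact fgd_mem_hKI M' p B τ hτ y hy
  · -- `s33hKI` is inertia-stable
    intro τ hτ y hy
    exact fgd_hKI_smul M' p B τ hτ hy
  · -- `s33hKI` is `T_p`-stable
    intro y hy
    exact fgd_hKI_map M' p B (fgdTp M' p)
      (fun τ _ z => gal_heckeOperatorBar_smul M' ⟨p, Fact.out⟩ τ z) hy
  · -- `I1`
    intro τ hτ
    exact ⟨(hI1 B hB τ hτ).1, fgdChi_eq_one p τ (hI1 B hB τ hτ).2⟩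
  · -- REG2
    intro y hy τ hτ
    exact REG2 B hB y hy τ hτ
  · -- TPINJ
    intro y hy h0
    exact TPINJ B hB y hy h0
  · -- LEV
    intro X hXfin hXp hXK hXI hXT hXinj y hy
    exact LEV B hB X hXfin hXp hXK hXI hXT hXinj y hy
  · -- the `θ'`-part
    rintro f ⟨P, hP, rfl⟩
    obtain ⟨k, hk⟩ := hpart P hP
    refine ⟨k, ?_⟩
    rw [← hk, Module.End.pow_apply]
    rfl

end Assembly

end Fermat.Agent.S33lib

end
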