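/-
Item 86 (S33), piece FIT (helper10): the assembly of G1 PER valuation ring `B ∣ p`, with the
stronger form of (LEV) asked for by the LEV block (helper15): the subgroup `X` is stable under the
DECOMPOSITION group of `B`, contained in `s33hKI`, killed by `p`, Hecke-stable.

* `fgd_inertia_conj`, `fgd_inertia_le_decomp`: the inertia group is normal in the decomposition
  group;
* `fgd_hKI_smul_decomp`: `s33hKI` is stable under the decomposition group;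
* `fit_good_abs2`: the abstract assembly (Mathlib only);
* **`s33_geom_good_at`**: G1 at `B` from (KSAT), (RAYJ), (REG2), (TPINJ), (LEV) at `B`, for ANY
  predicates `Ker`, `Deep` on `J₀(M')` and any set `I1`.
Declarations are prefixed `fgd` / `fit`.  No sorry.
-/
import Mathlib
import Fermat.Agent.S33lib.FitGood

set_option autoImplicit false
set_option linter.unusedSectionVars false
set_option linter.unusedVariables false
set_option linter.style.haveILetI false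

noncomputable section

namespace Fermat.Agent.S33lib

open Fermat.Agent.GalRep ModularCurve Fermat.Agent.S31lib Fermat.Agent.S35lib
open Fermat.Agent.HeckeBar

/-! ### the abstract assembly, second form -/

section Abs

variable {J : Type*} [AddCommGroup J] {G : Type*} [Group G] [DistribMulAction G J]
variable (p : ℕ) (I : Set G) (Dc : Set G) (I1 : Set G) (χ : G → ℕ) (Tp : J →+ J)
  (Ps : Set (J →+ J)) (KI : AddSubgroup J) (Ker Deep : J → Prop)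

/-- **FIT** (abstract form of G1, second form): (RAYJ) may use `p • x = 0` and `x ∈ KI`;
(LEV) may use `X ≤ KI`, the stability under `Dc` and under `Ps`. -/
theorem fit_good_abs2
    (hfin : {x : J | p • x = 0}.Finite)
    (hTpG : ∀ (g : G) (x : J), Tp (g • x) = g • Tp x)
    (hPsG : ∀ P ∈ Ps, ∀ (g : G) (x : J), P (g • x) = g • P x)
    (hPsT : ∀ P ∈ Ps, ∀ x : J, Tp (P x) = P (Tp x))
    (hPscomm : ∀ P ∈ Ps, ∀ Q ∈ Ps, ∀ x, P (Q x) = Q (P x))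
    (hResJ : ∀ U : AddSubgroup J, U ≠ ⊥ → (∀ x ∈ U, p • x = 0 ∧ ∀ P ∈ Ps, P x = 0) →
      (∀ (g : G), ∀ x ∈ U, g • x ∈ U) → ∃ z ∈ U, z ≠ 0 ∧ ∀ τ ∈ I, τ • z = χ τ • z)
    (hKImem : ∀ τ ∈ I, ∀ y : J, p • y = 0 → τ • y - y ∈ KI)
    (hKIstab : ∀ τ ∈ Dc, ∀ x ∈ KI, τ • x ∈ KI)
    (hKITp : ∀ x ∈ KI, Tp x ∈ KI)
    (hKIPs : ∀ P ∈ Ps, ∀ x ∈ KI, P x ∈ KI)
    (τ₀ : G) (hτ₀ : τ₀ ∈ I) (hχ₀ : Nat.Coprime (χ τ₀ - 1) p) (hχ₀1 : 1 ≤ χ τ₀)
    (hI1 : ∀ τ ∈ I1, τ ∈ I ∧ χ τ = 1)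
    (KSAT : ∀ x ∈ KI, p • x = 0 → Ker x)
    (RAYJ : ∀ x : J, p • x = 0 → x ∈ KI → Ker x → (∀ τ ∈ I1, τ • x = x) → Deep x)
    (REG2 : ∀ x : J, p • x = 0 → Deep x → ∀ τ ∈ I, τ • x = χ τ • x)
    (TPINJ : ∀ x : J, p • x = 0 → Deep x → Tp x = 0 → x = 0)
    (LEV : ∀ X : AddSubgroup J, X ≤ KI → (X : Set J).Finite → (∀ x ∈ X, p • x = 0) →
      (∀ x ∈ X, Ker x) → (∀ τ ∈ Dc, ∀ x ∈ X, τ • x ∈ X) → (∀ x ∈ X, Tp x ∈ X) →
      (∀ P ∈ Ps, ∀ x ∈ X, P x ∈ X) → (∀ x ∈ X, Tp x = 0 → x = 0) → ∀ x ∈ X, Deep x)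
    (x : J) (hpx : p • x = 0) (hxP : ∀ P ∈ Ps, ∃ k : ℕ, (⇑P)^[k] x = 0) (hxKI : x ∈ KI)
    (hfix : τ₀ • x = x) : x = 0 := by
  -- step (1), with the predicates enriched by the extra information
  have hinj := fit_good_inj p I I1 χ Tp Ps KI
    (fun x => p • x = 0 ∧ x ∈ KI ∧ Ker x) (fun x => p • x = 0 ∧ Deep x)
    hfin hTpG hPsG hPsT hPscomm hResJ hKImem τ₀ hτ₀ hχ₀ hχ₀1 hI1
    (fun x hx hp => ⟨hp, hx, KSAT x hx hp⟩)
    (fun x hx hfixI1 => ⟨hx.1, RAYJ x hx.1 hx.2.1 hx.2.2 hfixI1⟩)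
    (fun x hx hT => TPINJ x hx.1 hx.2 hT)
  -- step (2)
  let X : AddSubgroup J := KI ⊓ fitPart p Ps
  have hXfin : (X : Set J).Finite := hfin.subset fun x hx => hx.2.1
  have hXp : ∀ x ∈ X, p • x = 0 := fun x hx => hx.2.1
  have hXKer : ∀ x ∈ X, Ker x := fun x hx => KSAT x hx.1 hx.2.1
  have hXD : ∀ τ ∈ Dc, ∀ x ∈ X, τ • x ∈ X := by
    intro τ hτ x hx
    refine ⟨hKIstab τ hτ x hx.1, ?_, fun P hP => ?_⟩
    · rw [smul_comm, hx.2.1, smul_zero]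
    · obtain ⟨k, hk⟩ := hx.2.2 P hP
      exact ⟨k, by rw [fit_iterate_smul P (hPsG P hP), hk, smul_zero]⟩
  have hXT : ∀ x ∈ X, Tp x ∈ X := by
    intro x hx
    refine ⟨hKITp x hx.1, ?_, fun P hP => ?_⟩
    · rw [← map_nsmul, hx.2.1, map_zero]
    · obtain ⟨k, hk⟩ := hx.2.2 P hP
      refine ⟨k, ?_⟩
      rw [fit_iterate_comm P Tp (fun y => (hPsT P hP y).symm), hk, map_zero]
  have hXPs : ∀ P ∈ Ps, ∀ x ∈ X, P x ∈ X := by
    intro P hP x hx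
    refine ⟨hKIPs P hP x hx.1, ?_, fun Q hQ => ?_⟩
    · rw [← map_nsmul, hx.2.1, map_zero]
    · obtain ⟨k, hk⟩ := hx.2.2 Q hQ
      refine ⟨k, ?_⟩
      rw [fit_iterate_comm Q P (hPscomm Q hQ P hP), hk, map_zero]
  have hXinj : ∀ x ∈ X, Tp x = 0 → x = 0 := fun x hx => hinj x hx.2
  have hxX : x ∈ X := ⟨hxKI, hpx, hxP⟩
  have hDeep := LEV X inf_le_left hXfin hXp hXKer hXD hXT hXPs hXinj x hxX
  exact fit_eigen_fixed_zero p (χ τ₀) hχ₀ hχ₀1 x hpx (τ₀ • x) (REG2 x hpx hDeep τ₀ hτ₀) hfix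

end Abs

/-! ### inertia and decomposition groups -/

section Decomp

variable (B : ValuationSubring (AlgebraicClosure ℚ))

theorem fgd_inertia_le_decomp {τ : GQ} (hτ : τ ∈ B.inertiaSubgroupIn ℚ) :
    τ ∈ B.decompositionSubgroup ℚ := by
  obtain ⟨g, -, rfl⟩ := hτ
  exact g.2

/-- the inertia group is normal in the decomposition group -/
theorem fgd_inertia_conj {σ τ : GQ} (hσ : σ ∈ B.decompositionSubgroup ℚ)
    (hτ : τ ∈ B.inertiaSubgroupIn ℚ) : σ * τ * σ⁻¹ ∈ B.inertiaSubgroupIn ℚ := by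
  obtain ⟨g, hg, rfl⟩ := hτ
  let d : B.decompositionSubgroup ℚ := ⟨σ, hσ⟩
  refine ⟨d * g * d⁻¹, ?_, rfl⟩
  have hg' : g ∈ (MulSemiringAction.toRingAut (B.decompositionSubgroup ℚ)
      (IsLocalRing.ResidueField B)).ker := hg
  show d * g * d⁻¹ ∈ (MulSemiringAction.toRingAut (B.decompositionSubgroup ℚ)
      (IsLocalRing.ResidueField B)).ker
  rw [MonoidHom.mem_ker] at hg' ⊢
  rw [map_mul, map_mul, hg', mul_one, map_inv, mul_inv_cancel]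

variable (M' : ℕ) [NeZero M'] (p : ℕ)

/-- `s33hKI` is stable under the decomposition group -/
theorem fgd_hKI_smul_decomp (σ : GQ) (hσ : σ ∈ B.decompositionSubgroup ℚ)
    {x : JZero M'} (hx : x ∈ s33hKI M' p B) : σ • x ∈ s33hKI M' p B := by
  have hle : s33hKI M' p B ≤
      (s33hKI M' p B).comap (DistribSMul.toAddMonoidHom (JZero M') σ) := by
    rw [s33hKI, AddSubgroup.closure_le]
    rintro z ⟨τ, hτ, y, ⟨n, hn⟩, rfl⟩
    show σ • (τ • y - y) ∈ s33hKI M' p B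
    have e : σ • (τ • y - y) = (σ * τ * σ⁻¹) • (σ • y) - σ • y := by
      rw [smul_sub, mul_smul, mul_smul, inv_smul_smul]
    rw [e]
    refine AddSubgroup.subset_closure ⟨σ * τ * σ⁻¹, fgd_inertia_conj B hσ hτ, σ • y, ⟨n, ?_⟩, rfl⟩
    rw [smul_comm, hn]
    exact smul_zero (A := JZero M') σ
  exact hle hx

end Decomp

/-! ### the assembly at `B` -/

section Assembly

variable (M' : ℕ) [NeZero M'] (p : ℕ) [Fact p.Prime] {N : ℕ} {S : Finset ℕ}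
  {κ : Type*} [Semiring κ] (θ' : HPoly N S →+* κ)

/-- **FIT = G1 (good level) at `B`**, from the five geometric statements at `B`. -/
theorem s33_geom_good_at (Jin : JacInput M' p)
    (B : ValuationSubring (AlgebraicClosure ℚ)) (hB : B.LiesOverPrime p)
    (Ker Deep : JZero M' → Prop) (I1 : Set GQ)
    (hI1 : ∀ τ ∈ I1, τ ∈ B.inertiaSubgroupIn ℚ ∧ ∀ ζ : AlgebraicClosure ℚ, ζ ^ p = 1 → τ ζ = ζ)
    (KSAT : ∀ x ∈ s33hKI M' p B, p • x = 0 → Ker x)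
    (RAYJ : ∀ x : JZero M', p • x = 0 → x ∈ s33hKI M' p B → Ker x →
      (∀ τ ∈ I1, τ • x = x) → Deep x)
    (REG2 : ∀ x : JZero M', p • x = 0 → Deep x → ∀ τ ∈ B.inertiaSubgroupIn ℚ,
        τ • x = ((cycChi p 1 τ : ZMod (p ^ 1)).val) • x)
    (TPINJ : ∀ x : JZero M', p • x = 0 → Deep x →
      heckeOperatorBar M' ⟨p, Fact.out⟩ x = 0 → x = 0)
    (LEV : ∀ X : AddSubgroup (JZero M'), X ≤ s33hKI M' p B → (X : Set (JZero M')).Finite →
        (∀ x ∈ X, p • x = 0) → (∀ x ∈ X, Ker x) →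
        (∀ τ ∈ B.decompositionSubgroup ℚ, ∀ x ∈ X, τ • x ∈ X) →
        (∀ x ∈ X, heckeOperatorBar M' ⟨p, Fact.out⟩ x ∈ X) →
        (∀ P : HPoly N S, θ' P = 0 → ∀ x ∈ X, evalJac N S M' P x ∈ X) →
        (∀ x ∈ X, heckeOperatorBar M' ⟨p, Fact.out⟩ x = 0 → x = 0) →
        ∀ x ∈ X, Deep x)
    (hres : S33ResJ M' p θ') :
    ∀ x : JZero M', p • x = 0 → S33hPart M' θ' x → x ∈ s33hKI M' p B →
      ∀ τ₀ ∈ B.inertiaSubgroupIn ℚ, S33hMoves p τ₀ → τ₀ • x = x → x = 0 := by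
  have hpp : p.Prime := Fact.out
  intro x hpx hpart hKI τ₀ hτ₀ hmoves hfix
  let Ps : Set (JZero M' →+ JZero M') :=
    {f | ∃ P : HPoly N S, θ' P = 0 ∧ f = (evalJac N S M' P).toAddMonoidHom}
  refine fit_good_abs2 (G := GQ) p (B.inertiaSubgroupIn ℚ : Set GQ)
    (B.decompositionSubgroup ℚ : Set GQ) I1 (fgdChi p)
    (fgdTp M' p) Ps (s33hKI M' p B) Ker Deep (fgd_finite M' p hpp Jin)
    ?_ ?_ ?_ ?_ ?_ ?_ ?_ ?_ ?_ τ₀ hτ₀ (fgdChi_coprime p τ₀ hmoves) (fgdChi_pos p τ₀) ?_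
    KSAT RAYJ ?_ ?_ ?_ x hpx ?_ hKI hfix
  · intro g y
    exact gal_heckeOperatorBar_smul M' ⟨p, Fact.out⟩ g y
  · rintro f ⟨P, -, rfl⟩ g y
    exact fgd_evalJac_smul M' N S P g y
  · rintro f ⟨P, -, rfl⟩ y
    exact fgd_evalJac_hecke M' N S P ⟨p, Fact.out⟩ y
  · rintro f ⟨P, -, rfl⟩ g ⟨Q, -, rfl⟩ y
    exact fgd_evalJac_comm M' N S P Q y
  · intro U hU hk hG
    obtain ⟨z, hzU, hz0, hz⟩ := hres B hB U hU
      (fun y hy => ⟨(hk y hy).1, fun P hP => (hk y hy).2 _ ⟨P, hP, rfl⟩⟩) hG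
    exact ⟨z, hzU, hz0, fun τ hτ => hz τ hτ⟩
  · intro τ hτ y hy
    exact fgd_mem_hKI M' p B τ hτ y hy
  · intro τ hτ y hy
    exact fgd_hKI_smul_decomp B M' p τ hτ hy
  · intro y hy
    exact fgd_hKI_map M' p B (fgdTp M' p)
      (fun τ _ z => gal_heckeOperatorBar_smul M' ⟨p, Fact.out⟩ τ z) hy
  · rintro f ⟨P, -, rfl⟩ y hy
    exact fgd_hKI_map M' p B (evalJac N S M' P).toAddMonoidHom
      (fun τ _ z => fgd_evalJac_smul M' N S P τ z) hy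
  · intro τ hτ
    exact ⟨(hI1 τ hτ).1, fgdChi_eq_one p τ (hI1 τ hτ).2⟩
  · intro y hpy hy τ hτ
    exact REG2 y hpy hy τ hτ
  · intro y hpy hy h0
    exact TPINJ y hpy hy h0
  · intro X hXKI hXfin hXp hXK hXD hXT hXPs hXinj y hy
    exact LEV X hXKI hXfin hXp hXK hXD hXT
      (fun P hP z hz => hXPs _ ⟨P, hP, rfl⟩ z hz) hXinj y hy
  · rintro f ⟨P, hP, rfl⟩
    obtain ⟨k, hk⟩ := hpart P hP
    refine ⟨k, ?_⟩
    rw [← hk, Module.End.pow_apply]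
    rfl

end Assembly

end Fermat.Agent.S33lib

end
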