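/-
Item 86 (S33), block G1, piece (KSAT) (helper26; blueprint helper6): **classes in `K_I` killed by
`p` have a Kummer function with constant reduction.**  No sorry in this file.

Abstract part (any function field `F/K` with a constant reduction `R` and a set `G` of inertial
semilinear automorphisms):

* `KsatU R u` : `u` is a unit of `O` whose reduction is a nonzero constant; closed under products,
  inverses, powers; contains `g • f / f` for `g` inertial (`IsInertial.exists_const`);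
* `ksat_root` : if `F₀ ^ N = c · U` with `U ∈ KsatU`, `N ≥ 1`, then a constant multiple of `F₀` is
  `≡ 1` modulo the maximal ideal of `O` (the reduction is algebraic over `k`, hence constant);
* `ksat_abs` : a class `x` in the subgroup generated by the `g • y - y` (`g ∈ G`, `y` of `p`-power
  order) with `p • x = 0` has a divisor `D` and a Kummer function `f` (`div f = p D`) with
  `f - 1 ∈ m_O`.
-/
import Mathlib
import Fermat.Agent.GoodRed.PlaceRed
import Fermat.Agent.GoodRed.Lattice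
import Fermat.Agent.S34lib.InertiaRed
import Fermat.Agent.S34lib.UnipK

set_option autoImplicit false
set_option linter.style.haveILetI false
set_option linter.unusedSectionVars false
set_option linter.unusedVariables false

noncomputable section

namespace Fermat.Agent.S33lib

open AlgebraicCurve Fermat.Agent.RRlib Fermat.Agent.GoodRed Fermat.Agent.S34lib

section Abs

variable {K F k Fk : Type*} [Field K] [Field F] [Algebra K F] [Field k] [Field Fk] [Algebra k Fk]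
variable {A : ValuationSubring K} {π : A →+* k}

/-- `u` is a unit of `O` whose reduction is a nonzero constant -/
def KsatU (R : ConstRed A π Fk F) (u : F) : Prop :=
  ∃ (hu : u ∈ R.O) (a : A), π a ≠ 0 ∧ R.red ⟨u, hu⟩ = algebraMap k Fk (π a)

variable (R : ConstRed A π Fk F)

theorem ksatU_one : KsatU R 1 :=
  ⟨one_mem _, 1, by rw [map_one]; exact one_ne_zero, by
    rw [show (⟨1, one_mem _⟩ : R.O) = 1 from rfl, map_one, map_one, map_one]⟩

theorem ksatU_mul {u v : F} (hu : KsatU R u) (hv : KsatU R v) : KsatU R (u * v) := by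
  obtain ⟨hu, a, ha, hua⟩ := hu
  obtain ⟨hv, b, hb, hvb⟩ := hv
  refine ⟨mul_mem hu hv, a * b, by rw [map_mul]; exact mul_ne_zero ha hb, ?_⟩
  rw [show (⟨u * v, mul_mem hu hv⟩ : R.O) = ⟨u, hu⟩ * ⟨v, hv⟩ from rfl, map_mul, hua, hvb,
    map_mul, map_mul]

theorem ksatU_pow {u : F} (hu : KsatU R u) (n : ℕ) : KsatU R (u ^ n) := by
  induction n with
  | zero => rw [pow_zero]; exact ksatU_one R
  | succ n ih => rw [pow_succ]; exact ksatU_mul R ih hu

theorem ksatU_ne_zero {u : F} (hu : KsatU R u) : u ≠ 0 := by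
  obtain ⟨hu, a, ha, hua⟩ := hu
  rintro rfl
  rw [show (⟨0, hu⟩ : R.O) = 0 from rfl, map_zero] at hua
  exact ha ((algebraMap k Fk).injective (by rw [← hua, map_zero]))

include R in
/-- an element of `A` with nonzero residue is a unit of `A` -/
theorem ksat_inv_mem {a : A} (ha : π a ≠ 0) : (a : K) ≠ 0 ∧ (a : K)⁻¹ ∈ A := by
  have hnu : (a : K) ∉ A.nonunits := fun h => ha ((R.π_eq_zero_iff a).2 h)
  rw [ValuationSubring.mem_nonunits_iff_or, not_or, not_not] at hnu
  exact hnu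

theorem ksatU_inv {u : F} (hu : KsatU R u) : KsatU R u⁻¹ := by
  have hu0 := ksatU_ne_zero R hu
  obtain ⟨hu, a, ha, hua⟩ := hu
  obtain ⟨ha0, hai⟩ := ksat_inv_mem R ha
  have hnu : u ∉ R.O.nonunits := by
    intro h
    have := (R.red_eq_zero_iff ⟨u, hu⟩).2 h
    rw [hua] at this
    exact ha ((algebraMap k Fk).injective (by rw [this, map_zero]))
  rw [ValuationSubring.mem_nonunits_iff_or, not_or, not_not] at hnu
  have hπ : π ⟨(a : K)⁻¹, hai⟩ * π a = 1 := by
    rw [← map_mul]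
    have : (⟨(a : K)⁻¹, hai⟩ : A) * a = 1 := Subtype.ext (inv_mul_cancel₀ ha0)
    rw [this, map_one]
  refine ⟨hnu.2, ⟨(a : K)⁻¹, hai⟩, left_ne_zero_of_mul_eq_one hπ, ?_⟩
  have h1 : R.red ⟨u⁻¹, hnu.2⟩ * R.red ⟨u, hu⟩ = 1 := by
    rw [← map_mul]
    have : (⟨u⁻¹, hnu.2⟩ : R.O) * ⟨u, hu⟩ = 1 := Subtype.ext (inv_mul_cancel₀ hu0)
    rw [this, map_one]
  have h2 : algebraMap k Fk (π ⟨(a : K)⁻¹, hai⟩) * R.red ⟨u, hu⟩ = 1 := by
    rw [hua, ← map_mul, hπ, map_one]
  have hne : R.red ⟨u, hu⟩ ≠ 0 := right_ne_zero_of_mul_eq_one h1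
  exact mul_right_cancel₀ hne (h1.trans h2.symm)

theorem ksatU_div {u v : F} (hu : KsatU R u) (hv : KsatU R v) : KsatU R (u / v) := by
  rw [div_eq_mul_inv]
  exact ksatU_mul R hu (ksatU_inv R hv)

/-- `g • f / f` has constant reduction, for `g` inertial -/
theorem ksatU_smul_div {g : SemilinearAut K F} (hg : IsInertial R g) {f : F} (hf : f ≠ 0) :
    KsatU R (g • f / f) := by
  obtain ⟨a, ha, hm, hred⟩ := hg.exists_const hf
  exact ⟨hm, a, ha, hred⟩

/-- **roots**: if `F₀ ^ N = c · U` with `U` of constant reduction and `N ≥ 1`, then a constant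
multiple of `F₀` is congruent to `1`. -/
theorem ksat_root [RRBase k Fk] (F₀ U : F) (N : ℕ) (hN : 1 ≤ N) (c : K) (hF₀ : F₀ ≠ 0)
    (hU : KsatU R U) (h : F₀ ^ N = algebraMap K F c * U) :
    ∃ b : K, b ≠ 0 ∧ algebraMap K F b * F₀ - 1 ∈ R.O.nonunits := by
  have hU0 := ksatU_ne_zero R hU
  obtain ⟨hUi, aU', haU', hUred'⟩ := ksatU_inv R hU
  obtain ⟨hUO, aU, haU, hUred⟩ := hU
  obtain ⟨b₀, hb₀, hFO, hFi⟩ := R.exists_unit_smul F₀ hF₀
  have hb₀F : algebraMap K F b₀ ≠ 0 := by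
    rw [Ne, map_eq_zero_iff _ (algebraMap K F).injective]
    exact hb₀
  set F' : F := algebraMap K F b₀ * F₀ with hF'
  have hF'0 : F' ≠ 0 := mul_ne_zero hb₀F hF₀
  -- the constant `c' = b₀^N c` is a unit of `A`
  have hpow : F' ^ N = algebraMap K F (b₀ ^ N * c) * U := by
    rw [hF', mul_pow, h, map_mul, map_pow]
    ring
  have hc'O : algebraMap K F (b₀ ^ N * c) ∈ R.O := by
    have : algebraMap K F (b₀ ^ N * c) = F' ^ N * U⁻¹ := by
      rw [hpow, mul_assoc, mul_inv_cancel₀ hU0, mul_one]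
    rw [this]
    exact mul_mem (pow_mem hFO N) hUi
  have hc'A : b₀ ^ N * c ∈ A := (R.algebraMap_mem_iff _).1 hc'O
  -- the reduction of `F'` is a root of a nonzero constant
  have hredpow : R.red ⟨F', hFO⟩ ^ N
      = algebraMap k Fk (π ⟨b₀ ^ N * c, hc'A⟩ * π aU) := by
    rw [← map_pow]
    have : (⟨F', hFO⟩ : R.O) ^ N
        = ⟨algebraMap K F ((⟨b₀ ^ N * c, hc'A⟩ : A) : K), R.algebraMap_mem _⟩ * ⟨U, hUO⟩ :=
      Subtype.ext hpow
    rw [this, map_mul, R.red_algebraMap, hUred, map_mul]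
  have hredne : R.red ⟨F', hFO⟩ ≠ 0 := by
    intro h0
    have := (R.red_eq_zero_iff ⟨F', hFO⟩).1 h0
    rw [ValuationSubring.mem_nonunits_iff_or] at this
    rcases this with h1 | h1
    · exact hF'0 h1
    · exact h1 hFi
  have hconst : ∀ v : Place k Fk, 0 ≤ v.ord (R.red ⟨F', hFO⟩) := by
    intro v
    have h1 : v.ord (R.red ⟨F', hFO⟩ ^ N) = 0 := by
      rw [hredpow]
      exact uk_ord_const v _
    rw [Fermat.Agent.S18lib.ord_pow_nat] at h1
    have hN0 : (N : ℤ) ≠ 0 := by exact_mod_cast (by omega : N ≠ 0)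
    rcases mul_eq_zero.1 h1 with h2 | h2
    · exact absurd h2 hN0
    · rw [h2]
  obtain ⟨e, he⟩ := RRBase.const_of_forall_ord_nonneg (K := k) _ hconst
  have he0 : e ≠ 0 := by
    rintro rfl
    rw [map_zero] at he
    exact hredne he.symm
  obtain ⟨a₁, ha₁⟩ := R.π_surjective e
  have hπa₁ : π a₁ ≠ 0 := by rw [ha₁]; exact he0
  obtain ⟨ha₁0, ha₁i⟩ := ksat_inv_mem R hπa₁
  have hπ : π ⟨(a₁ : K)⁻¹, ha₁i⟩ * π a₁ = 1 := by
    rw [← map_mul]
    have : (⟨(a₁ : K)⁻¹, ha₁i⟩ : A) * a₁ = 1 := Subtype.ext (inv_mul_cancel₀ ha₁0)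
    rw [this, map_one]
  refine ⟨(a₁ : K)⁻¹ * b₀, mul_ne_zero (inv_ne_zero ha₁0) hb₀, ?_⟩
  have hmem : algebraMap K F ((a₁ : K)⁻¹ * b₀) * F₀ ∈ R.O := by
    have : algebraMap K F ((a₁ : K)⁻¹ * b₀) * F₀ = algebraMap K F (a₁ : K)⁻¹ * F' := by
      rw [hF', map_mul]
      ring
    rw [this]
    exact mul_mem (R.algebraMap_mem ⟨(a₁ : K)⁻¹, ha₁i⟩) hFO
  have hmem1 : algebraMap K F ((a₁ : K)⁻¹ * b₀) * F₀ - 1 ∈ R.O := sub_mem hmem (one_mem _)
  rw [← R.red_eq_zero_iff ⟨_, hmem1⟩]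
  have e1 : (⟨algebraMap K F ((a₁ : K)⁻¹ * b₀) * F₀ - 1, hmem1⟩ : R.O)
      = ⟨algebraMap K F ((⟨(a₁ : K)⁻¹, ha₁i⟩ : A) : K), R.algebraMap_mem _⟩ * ⟨F', hFO⟩ - 1 := by
    apply Subtype.ext
    show algebraMap K F ((a₁ : K)⁻¹ * b₀) * F₀ - 1 = algebraMap K F (a₁ : K)⁻¹ * F' - 1
    rw [hF', map_mul]
    ring
  rw [e1, map_sub, map_one, map_mul, R.red_algebraMap, ← he, ← ha₁, ← map_mul, hπ, map_one,
    sub_self]

end Abs

section Pic

variable {K F k Fk : Type*} [Field K] [Field F] [Algebra K F] [Field k] [Field Fk] [Algebra k Fk]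
variable {A : ValuationSubring K} {π : A →+* k}
variable (R : ConstRed A π Fk F)

/-- the induction predicate: `x` is the class of a divisor `D` with `p^n D = div U`, `U` of
constant reduction -/
def KsatPred (p : ℕ) (x : Pic0 K F) : Prop :=
  ∃ (D : Divisor.degZero (K := K) (F := F)) (n : ℕ) (U : F), Pic0.mk D = x ∧ KsatU R U ∧
    ∀ v : Place K F, ((p : ℤ) ^ n) * (D : Divisor K F) v = v.ord U

theorem ksatPred_zero (p : ℕ) : KsatPred R p 0 :=
  ⟨0, 0, 1, rfl, ksatU_one R, fun v => by simp⟩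

theorem ksatPred_add (p : ℕ) {x y : Pic0 K F} (hx : KsatPred R p x) (hy : KsatPred R p y) :
    KsatPred R p (x + y) := by
  obtain ⟨D₁, n₁, U₁, rfl, hU₁, h₁⟩ := hx
  obtain ⟨D₂, n₂, U₂, rfl, hU₂, h₂⟩ := hy
  have hU₁0 := ksatU_ne_zero R hU₁
  have hU₂0 := ksatU_ne_zero R hU₂
  refine ⟨D₁ + D₂, n₁ + n₂, U₁ ^ (p ^ n₂) * U₂ ^ (p ^ n₁), rfl,
    ksatU_mul R (ksatU_pow R hU₁ _) (ksatU_pow R hU₂ _), fun v => ?_⟩
  rw [v.ord_mul (pow_ne_zero _ hU₁0) (pow_ne_zero _ hU₂0), Fermat.Agent.S18lib.ord_pow_nat,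
    Fermat.Agent.S18lib.ord_pow_nat, ← h₁ v, ← h₂ v, AddSubgroup.coe_add, Finsupp.add_apply]
  push_cast
  ring

theorem ksatPred_neg (p : ℕ) {x : Pic0 K F} (hx : KsatPred R p x) : KsatPred R p (-x) := by
  obtain ⟨D, n, U, rfl, hU, h⟩ := hx
  refine ⟨-D, n, U⁻¹, rfl, ksatU_inv R hU, fun v => ?_⟩
  rw [v.ord_inv, ← h v, AddSubgroup.coe_neg, Finsupp.neg_apply]
  ring

/-- the generators of `K_I` -/
theorem ksatPred_gen (p : ℕ) {g : SemilinearAut K F} (hg : IsInertial R g) (y : Pic0 K F) (n : ℕ)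
    (hy : p ^ n • y = 0) : KsatPred R p (g • y - y) := by
  obtain ⟨D, rfl⟩ := Pic0.mk_surjective y
  have hprin : (((p ^ n) • D : Divisor.degZero (K := K) (F := F)) : Divisor K F)
      ∈ Divisor.principal := by
    apply Fermat.Agent.S18lib.mem_principal_of_mk_eq_zero
    rw [← hy]
    rfl
  obtain ⟨f, hf0, hf⟩ := hprin
  have hfD : ∀ v : Place K F, ((p : ℤ) ^ n) * (D : Divisor K F) v = v.ord f := by
    intro v
    rw [← hf v]
    simp
  have hgf0 : g • f ≠ 0 := by simpa using hf0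
  refine ⟨SemilinearAut.degZeroSMulHom g D - D, n, g • f / f, rfl, ksatU_smul_div R hg hf0,
    fun v => ?_⟩
  rw [uk_ord_div v hgf0 hf0, uk_ord_smul' g v, ← hfD, ← hfD, AddSubgroup.coe_sub,
    Finsupp.sub_apply, SemilinearAut.coe_degZeroSMulHom, SemilinearAut.divisor_smul_apply]
  ring

/-- **(KSAT), abstract form.**  A class `x` in the subgroup generated by the `g • y - y`
(`g ∈ G` inertial, `y` of `p`-power order) with `p • x = 0` is the class of a divisor `D` with a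
Kummer function `f` (`div f = p D`) congruent to `1` modulo the maximal ideal of `O`. -/
theorem ksat_abs [RRBase K F] [RRBase k Fk] (p : ℕ) (hp : p ≠ 0)
    (G : Set (SemilinearAut K F)) (hG : ∀ g ∈ G, IsInertial R g) (x : Pic0 K F)
    (hx : x ∈ AddSubgroup.closure
      {z : Pic0 K F | ∃ g ∈ G, ∃ y : Pic0 K F, (∃ n : ℕ, p ^ n • y = 0) ∧ z = g • y - y})
    (hpx : p • x = 0) :
    ∃ (D : Divisor.degZero (K := K) (F := F)) (f : F), Pic0.mk D = x ∧ f ≠ 0 ∧
      (∀ v : Place K F, (p : ℤ) * (D : Divisor K F) v = v.ord f) ∧ f - 1 ∈ R.O.nonunits := by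
  have hpred : KsatPred R p x := by
    clear hpx
    induction hx using AddSubgroup.closure_induction with
    | mem z hz =>
      obtain ⟨g, hg, y, ⟨n, hn⟩, rfl⟩ := hz
      exact ksatPred_gen R p (hG g hg) y n hn
    | zero => exact ksatPred_zero R p
    | add a b _ _ ha hb => exact ksatPred_add R p ha hb
    | neg a _ ha => exact ksatPred_neg R p ha
  obtain ⟨D, n, U, rfl, hU, hDU⟩ := hpred
  have hU0 := ksatU_ne_zero R hU
  -- a Kummer function of `D`
  have hprin : ((p • D : Divisor.degZero (K := K) (F := F)) : Divisor K F)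
      ∈ Divisor.principal := by
    apply Fermat.Agent.S18lib.mem_principal_of_mk_eq_zero
    rw [← hpx]
    rfl
  obtain ⟨F₀, hF₀, hF⟩ := hprin
  have hFD : ∀ v : Place K F, (p : ℤ) * (D : Divisor K F) v = v.ord F₀ := by
    intro v
    rw [← hF v]
    simp
  -- `F₀ ^ (p^n)` and `U ^ p` have the same divisor
  have hw : ∀ v : Place K F, 0 ≤ v.ord (F₀ ^ (p ^ n) / U ^ p) := by
    intro v
    rw [uk_ord_div v (pow_ne_zero _ hF₀) (pow_ne_zero _ hU0), Fermat.Agent.S18lib.ord_pow_nat,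
      Fermat.Agent.S18lib.ord_pow_nat, ← hFD v, ← hDU v]
    push_cast
    apply le_of_eq
    ring
  obtain ⟨c, hc⟩ := RRBase.const_of_forall_ord_nonneg (K := K) _ hw
  have h : F₀ ^ (p ^ n) = algebraMap K F c * U ^ p := by
    rw [hc, div_mul_cancel₀ _ (pow_ne_zero _ hU0)]
  obtain ⟨b, hb, hmem⟩ := ksat_root R F₀ (U ^ p) (p ^ n) (Nat.one_le_pow _ _ (by omega)) c hF₀
    (ksatU_pow R hU p) h
  have hbF : algebraMap K F b ≠ 0 := by
    rw [Ne, map_eq_zero_iff _ (algebraMap K F).injective]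
    exact hb
  refine ⟨D, algebraMap K F b * F₀, rfl, mul_ne_zero hbF hF₀, fun v => ?_, hmem⟩
  rw [v.ord_mul hbF hF₀, uk_ord_const, zero_add, hFD v]

end Pic

end Fermat.Agent.S33lib

end
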