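/-
Item 86 (S33), block G1, piece (KSAT), concrete form (helper26; blueprint helper6).
No sorry in this file.

`ksat_conc` : for every level `M`, every prime `p`, `B ∣ p`, and every series reduction `R` of
`F_M` along `B`: a class `x ∈ s33hKI M p B` with `p • x = 0` is the class of a divisor `D` with
a Kummer function `f` (`div f = p D`) such that `f - 1 ∈ m_O` (constant reduction `1`).

In particular `x` has a Kummer function `f` with `c · f · w ^ p - 1 ∈ m_O` (`c = 1`, `w = 1`):
this is the predicate `Ker x` of the blueprint (`ksat_conc_ker`).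
-/
import Mathlib
import Fermat.Agent.S33lib.Hub
import Fermat.Agent.S33lib.KSat
import Fermat.Agent.S34lib.InertiaRedAL
import Fermat.Agent.S34lib.VRedInto
import Fermat.Agent.RRlib.Modular

set_option autoImplicit false
set_option linter.style.haveILetI false
set_option linter.unusedSectionVars false
set_option linter.unusedVariables false
set_option synthInstance.maxHeartbeats 400000

noncomputable section

namespace Fermat.Agent.S33lib

open AlgebraicCurve ModularCurve
open Fermat.Agent.RRlib Fermat.Agent.GoodRed Fermat.Agent.S34lib Fermat.Agent.S24lib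
  Fermat.Agent.GM Fermat.Agent.S35lib

variable (M : ℕ) [NeZero M] (p : ℕ) (hp : p.Prime)
variable (B : ValuationSubring Kbar) (hB : B.LiesOverPrime p)
variable {Fk : IntermediateField (IsLocalRing.ResidueField B)
  (LaurentSeries (IsLocalRing.ResidueField B))}
variable (R : ConstRed B (IsLocalRing.residue B) (↥Fk) (FF M)) (hR : IsSeriesRed R)

include hp hB hR in
/-- **(KSAT)**: a class of `s33hKI M p B` killed by `p` has a Kummer function congruent to `1`
modulo the maximal ideal of the series reduction. -/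
theorem ksat_conc [RRBase (IsLocalRing.ResidueField B) (↥Fk)]
    (x : JZero M) (hx : x ∈ s33hKI M p B) (hpx : p • x = 0) :
    ∃ (D : Divisor.degZero (K := Kbar) (F := FF M)) (f : FF M), Pic0.mk D = x ∧ f ≠ 0 ∧
      (∀ v : Place Kbar (FF M), (p : ℤ) * (D : Divisor Kbar (FF M)) v = v.ord f) ∧
        f - 1 ∈ R.O.nonunits := by
  haveI : RRBase Kbar (FF M) := (mod_rrHyp M).toRRBase
  have hfrac : HasPrimFrac B (modularFunctionFieldBar M) := vri_hfrac M p hp B hB
  refine ksat_abs R p hp.ne_zero
    {g | ∃ τ ∈ B.inertiaSubgroupIn ℚ, g = galFF M τ} ?_ x ?_ hpx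
  · rintro g ⟨τ, hτ, rfl⟩
    exact inred_isInertial_inf M hR hfrac τ hτ
  · refine AddSubgroup.closure_mono ?_ hx
    rintro z ⟨τ, hτ, y, hy, rfl⟩
    exact ⟨galFF M τ, ⟨τ, hτ, rfl⟩, y, hy, rfl⟩

include hp hB hR in
/-- **(KSAT)** in the form of the predicate `Ker` of the blueprint: `c · f · w ^ p - 1 ∈ m_O`. -/
theorem ksat_conc_ker [RRBase (IsLocalRing.ResidueField B) (↥Fk)]
    (x : JZero M) (hx : x ∈ s33hKI M p B) (hpx : p • x = 0) :
    ∃ (D : Divisor.degZero (K := Kbar) (F := FF M)) (f : FF M), Pic0.mk D = x ∧ f ≠ 0 ∧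
      (∀ v : Place Kbar (FF M), (p : ℤ) * (D : Divisor Kbar (FF M)) v = v.ord f) ∧
        ∃ (c : Kbar) (w : FF M), c ≠ 0 ∧ w ≠ 0 ∧
          algebraMap Kbar (FF M) c * f * w ^ p - 1 ∈ R.O.nonunits := by
  obtain ⟨D, f, h1, h2, h3, h4⟩ := ksat_conc M p hp B hB R hR x hx hpx
  refine ⟨D, f, h1, h2, h3, 1, 1, one_ne_zero, one_ne_zero, ?_⟩
  rw [map_one, one_mul, one_pow, mul_one]
  exact h4

end Fermat.Agent.S33lib

end
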