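/-
Item 86 (S33), regime II (helper12): the ARTIN–SCHREIER congruence for `p`-th powers.

`O` a commutative ring, `p` a prime, `ζ ∈ O` a root of `1 + X + … + X^(p-1)`, `lam = ζ - 1`.

* `asp_poly` : in `ℤ[X]`, `(1 + X)^p = 1 + X^p + p X (1 + X s)`;
* `asp_binom` : `(1 + x)^p = 1 + x^p + p x (1 + x s)` in every commutative ring;
* `asp_p_mul` : `p (1 + lam s) = - lam^(p-1)`;
* `asp_p_eq`  : if `1 + lam c` is a unit for every `c`, then `p = - lam^(p-1) (1 + lam c)`;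
* `asp_pow`   : **`(1 + lam h)^p = 1 + lam^p (h^p - h) + lam^(p+1) r`**;
* `asp_pow_of_level` : for `x = lam^j h`, `1 ≤ j`, `(1 + x)^p = 1 + lam^(p - 1 + j) (…)`, the
  linear regime.
Complete proofs.
-/
import Mathlib

set_option autoImplicit false

namespace Fermat.Agent.S33lib

open Polynomial

/-- in `ℤ[X]`: `(1 + X)^p = 1 + X^p + p X (1 + X s)` -/
theorem asp_poly (p : ℕ) (hp : p.Prime) :
    ∃ s : ℤ[X], (1 + X : ℤ[X]) ^ p = 1 + X ^ p + (p : ℤ[X]) * X * (1 + X * s) := by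
  obtain ⟨r, hr⟩ := exists_add_pow_prime_eq hp (1 : ℤ[X]) X
  rw [one_pow, mul_one] at hr
  -- the constant coefficient of `r` is `1`
  have h1 : (((1 + X : ℤ[X]) ^ p).coeff 1 : ℤ) = p := by
    rw [add_comm, coeff_X_add_one_pow]
    simp
  have h2 : ((1 + X ^ p + (p : ℤ[X]) * X * r : ℤ[X]).coeff 1 : ℤ) = p * r.coeff 0 := by
    have hp1 : (1 : ℕ) ≠ p := hp.one_lt.ne
    have e : ((p : ℤ[X]) * X * r) = C (p : ℤ) * (r * X) := by
      rw [← C_eq_natCast (R := ℤ)]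
      simp only [map_natCast]
      ring
    rw [coeff_add, coeff_add, coeff_X_pow, if_neg hp1, e, coeff_C_mul, coeff_mul_X]
    simp [coeff_one]
  have h3 : (p : ℤ) * r.coeff 0 = p := by rw [← h2, ← hr, h1]
  have h4 : r.coeff 0 = 1 := by
    have hp0 : (p : ℤ) ≠ 0 := by exact_mod_cast hp.ne_zero
    have : (p : ℤ) * r.coeff 0 = p * 1 := by rw [h3, mul_one]
    exact mul_left_cancel₀ hp0 this
  refine ⟨r.divX, ?_⟩
  have h5 : r = 1 + X * r.divX := by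
    conv_lhs => rw [← divX_mul_X_add r, h4]
    simp only [map_one]
    ring
  rw [hr, ← h5]

/-- `(1 + x)^p = 1 + x^p + p x (1 + x s)` in every commutative ring -/
theorem asp_binom {O : Type*} [CommRing O] (p : ℕ) (hp : p.Prime) (x : O) :
    ∃ s : O, (1 + x) ^ p = 1 + x ^ p + (p : O) * x * (1 + x * s) := by
  obtain ⟨s, hs⟩ := asp_poly p hp
  refine ⟨aeval x s, ?_⟩
  have := congrArg (aeval x) hs
  simpa using this

/-- in `ℤ[X]`: `1 + (1+X) + … + (1+X)^(p-1) = X^(p-1) + p (1 + X s)` -/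
theorem asp_geom_poly (p : ℕ) (hp : p.Prime) :
    ∃ s : ℤ[X], (∑ i ∈ Finset.range p, (1 + X : ℤ[X]) ^ i)
      = X ^ (p - 1) + (p : ℤ[X]) * (1 + X * s) := by
  obtain ⟨s, hs⟩ := asp_poly p hp
  refine ⟨s, ?_⟩
  have h1 : (X : ℤ[X]) * (∑ i ∈ Finset.range p, (1 + X : ℤ[X]) ^ i) = (1 + X) ^ p - 1 := by
    have := mul_geom_sum (1 + X : ℤ[X]) p
    rw [add_sub_cancel_left] at this
    exact this
  have h2 : (X : ℤ[X]) * (∑ i ∈ Finset.range p, (1 + X : ℤ[X]) ^ i)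
      = X * (X ^ (p - 1) + (p : ℤ[X]) * (1 + X * s)) := by
    rw [h1, hs]
    have e : (X : ℤ[X]) ^ p = X * X ^ (p - 1) := by
      rw [← pow_succ', Nat.sub_add_cancel hp.one_lt.le]
    rw [e]
    ring
  exact mul_left_cancel₀ X_ne_zero h2

section Ring

variable {O : Type*} [CommRing O] (p : ℕ) (hp : p.Prime) (ζ : O)

include hp in
/-- `p (1 + lam s) = - lam^(p-1)` for `lam = ζ - 1`, `ζ` a root of the `p`-th cyclotomic
polynomial -/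
theorem asp_p_mul (hζ : ∑ i ∈ Finset.range p, ζ ^ i = 0) :
    ∃ s : O, (p : O) * (1 + (ζ - 1) * s) = -(ζ - 1) ^ (p - 1) := by
  obtain ⟨s, hs⟩ := asp_geom_poly p hp
  refine ⟨aeval (ζ - 1) s, ?_⟩
  have h := congrArg (aeval (ζ - 1)) hs
  simp only [map_sum, map_pow, map_add, map_one, aeval_X, map_mul, map_natCast,
    add_sub_cancel] at h
  rw [hζ] at h
  linear_combination -h

include hp in
/-- `p = - lam^(p-1) (1 + lam c)` if the elements `1 + lam c` are units -/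
theorem asp_p_eq (hζ : ∑ i ∈ Finset.range p, ζ ^ i = 0)
    (hu : ∀ c : O, IsUnit (1 + (ζ - 1) * c)) :
    ∃ c : O, (p : O) = -(ζ - 1) ^ (p - 1) * (1 + (ζ - 1) * c) := by
  obtain ⟨s, hs⟩ := asp_p_mul p hp ζ hζ
  obtain ⟨u, hu'⟩ := hu s
  -- `u⁻¹ = 1 + lam c` with `c = - s u⁻¹`
  refine ⟨-(s * (↑u⁻¹ : O)), ?_⟩
  have h1 : (↑u : O) * (↑u⁻¹ : O) = 1 := by rw [← Units.val_mul, mul_inv_cancel, Units.val_one]
  have h2 : (1 + (ζ - 1) * (-(s * (↑u⁻¹ : O)))) = (↑u⁻¹ : O) := by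
    have h0 : (1 + (ζ - 1) * s) * (↑u⁻¹ : O) = 1 := by rw [← hu']; exact h1
    linear_combination (-1 : O) * h0
  rw [h2]
  have h3 : (p : O) = (p : O) * ((↑u : O) * ↑u⁻¹) := by rw [h1, mul_one]
  rw [h3, ← mul_assoc, hu', hs]

include hp in
/-- **Artin–Schreier congruence**, precise form:
`(1 + lam h)^p = 1 + lam^p (h^p - h) + lam^(p+1) h r` -/
theorem asp_pow' (hζ : ∑ i ∈ Finset.range p, ζ ^ i = 0)
    (hu : ∀ c : O, IsUnit (1 + (ζ - 1) * c)) (h : O) :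
    ∃ r : O, (1 + (ζ - 1) * h) ^ p
      = 1 + (ζ - 1) ^ p * (h ^ p - h) + (ζ - 1) ^ (p + 1) * h * r := by
  obtain ⟨c, hc⟩ := asp_p_eq p hp ζ hζ hu
  obtain ⟨s, hs⟩ := asp_binom p hp ((ζ - 1) * h)
  have e1 : (ζ - 1) ^ p = (ζ - 1) ^ (p - 1) * (ζ - 1) := by
    rw [← pow_succ, Nat.sub_add_cancel hp.one_lt.le]
  have e2 : (ζ - 1) ^ (p + 1) = (ζ - 1) ^ (p - 1) * (ζ - 1) * (ζ - 1) := by
    rw [pow_succ, e1]
  refine ⟨-(c + h * s + (ζ - 1) * c * h * s), ?_⟩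
  rw [hs, hc, mul_pow, e2, e1]
  ring

include hp in
/-- **Artin–Schreier congruence**: `(1 + lam h)^p = 1 + lam^p (h^p - h) + lam^(p+1) r` -/
theorem asp_pow (hζ : ∑ i ∈ Finset.range p, ζ ^ i = 0)
    (hu : ∀ c : O, IsUnit (1 + (ζ - 1) * c)) (h : O) :
    ∃ r : O, (1 + (ζ - 1) * h) ^ p
      = 1 + (ζ - 1) ^ p * (h ^ p - h) + (ζ - 1) ^ (p + 1) * r := by
  obtain ⟨r, hr⟩ := asp_pow' p hp ζ hζ hu h
  exact ⟨h * r, by rw [hr]; ring⟩

include hp in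
/-- the **linear regime**: for `x = lam^j h` with `1 ≤ j`,
`(1 + lam^(j+1) h)^p = 1 - lam^(p+j) h + lam^(p+j+1) r`. -/
theorem asp_pow_linear (hζ : ∑ i ∈ Finset.range p, ζ ^ i = 0)
    (hu : ∀ c : O, IsUnit (1 + (ζ - 1) * c)) (j : ℕ) (hj : 1 ≤ j) (h : O) :
    ∃ r : O, (1 + (ζ - 1) ^ (j + 1) * h) ^ p
      = 1 - (ζ - 1) ^ (p + j) * h + (ζ - 1) ^ (p + j + 1) * r := by
  obtain ⟨r, hr⟩ := asp_pow' p hp ζ hζ hu ((ζ - 1) ^ j * h)
  have e0 : (ζ - 1) * ((ζ - 1) ^ j * h) = (ζ - 1) ^ (j + 1) * h := by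
    rw [pow_succ]; ring
  rw [e0] at hr
  -- `lam^p (lam^j h)^p = lam^(p+j+1) (…)` since `p j ≥ j + 1`
  have hpj : j + 1 ≤ p * j := by
    have h2 : 2 ≤ p := hp.two_le
    nlinarith
  obtain ⟨d, hd⟩ := Nat.exists_eq_add_of_le hpj
  refine ⟨(ζ - 1) ^ d * h ^ p + h * r, ?_⟩
  rw [hr, mul_pow, ← pow_mul, mul_comm j p, hd]
  ring

end Ring

end Fermat.Agent.S33lib
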