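/-
Item 86 (S33), block RAY, piece POW (helper12; blueprint helper2): `p`-th powers of one-units.

* `rpw_pow`  : `(1 + lam h₁)^p = 1 + lam^p (h₁^p - h₁) + lam^(p+1) ρ`, `ρ ∈ O`
  (regime II: the leading term at level `v*` is the Artin–Schreier expression `h̄₁^p - h̄₁`);
* `rpw_p_eq` : `p = - (ζ - 1)^(p-1) (1 + (ζ - 1) ε)`, `ε ∈ A`, for a primitive `p`-th root of unity
  `ζ ∈ A` (any valuation ring `A`);
* `rpw_pow_mem` : `(1 + lam h₁)^p ∈ 1 + lam^p O`.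
Complete proofs.
-/
import Mathlib
import Fermat.Agent.S33lib.ASPow

set_option autoImplicit false

namespace Fermat.Agent.S33lib

/-- **POW**: `(1 + lam h₁)^p = 1 + lam^p (h₁^p - h₁) + lam^(p+1) ρ` with `ρ ∈ O` -/
theorem rpw_pow {F : Type*} [Field F] (O : ValuationSubring F) (p : ℕ) (hp : p.Prime) (lam : F)
    (hlamO : lam ∈ O)
    (hplam : ∃ ε ∈ O, (p : F) = -(lam ^ (p - 1)) * (1 + lam * ε)) (h₁ : F) (hh : h₁ ∈ O) :
    ∃ ρ ∈ O, (1 + lam * h₁) ^ p = 1 + lam ^ p * (h₁ ^ p - h₁) + lam ^ (p + 1) * ρ := by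
  obtain ⟨ε, hε, hpe⟩ := hplam
  -- the binomial expansion in the ring `O`
  obtain ⟨s, hs⟩ := asp_binom (O := O) p hp (⟨lam, hlamO⟩ * ⟨h₁, hh⟩)
  have hs' : (1 + lam * h₁) ^ p = 1 + (lam * h₁) ^ p + (p : F) * (lam * h₁) * (1 + lam * h₁ * s) := by
    have := congrArg (fun z : O => (z : F)) hs
    simpa using this
  have e1 : lam ^ p = lam ^ (p - 1) * lam := by
    rw [← pow_succ, Nat.sub_add_cancel hp.one_lt.le]
  have e2 : lam ^ (p + 1) = lam ^ (p - 1) * lam * lam := by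
    rw [pow_succ, e1]
  refine ⟨-(h₁ * (ε + h₁ * s + lam * ε * h₁ * s)), ?_, ?_⟩
  · refine neg_mem (mul_mem hh (add_mem (add_mem hε (mul_mem hh s.2)) ?_))
    exact mul_mem (mul_mem (mul_mem hlamO hε) hh) s.2
  · rw [hs', hpe, mul_pow, e2, e1]
    ring

/-- `(1 + lam h₁)^p ∈ 1 + lam^p O` -/
theorem rpw_pow_mem {F : Type*} [Field F] (O : ValuationSubring F) (p : ℕ) (hp : p.Prime) (lam : F)
    (hlamO : lam ∈ O)
    (hplam : ∃ ε ∈ O, (p : F) = -(lam ^ (p - 1)) * (1 + lam * ε)) (h₁ : F) (hh : h₁ ∈ O) :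
    ∃ ρ ∈ O, (1 + lam * h₁) ^ p = 1 + lam ^ p * ρ := by
  obtain ⟨ρ, hρ, e⟩ := rpw_pow O p hp lam hlamO hplam h₁ hh
  refine ⟨h₁ ^ p - h₁ + lam * ρ, ?_, ?_⟩
  · exact add_mem (sub_mem (pow_mem hh p) hh) (mul_mem hlamO hρ)
  · rw [e, pow_succ]
    ring

/-- `p = - (ζ - 1)^(p-1) (1 + (ζ - 1) ε)` with `ε ∈ A` -/
theorem rpw_p_eq {K : Type*} [Field K] {p : ℕ} (hp : p.Prime) {ζ : K}
    (hζ : IsPrimitiveRoot ζ p) (A : ValuationSubring K) (hζA : ζ ∈ A) :
    ∃ ε ∈ A, (p : K) = -((ζ - 1) ^ (p - 1)) * (1 + (ζ - 1) * ε) := by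
  have hsum : ∑ i ∈ Finset.range p, (⟨ζ, hζA⟩ : A) ^ i = 0 := by
    apply Subtype.ext
    have h := hζ.geom_sum_eq_zero hp.one_lt
    simpa using h
  obtain ⟨s, hs⟩ := asp_p_mul (O := A) p hp ⟨ζ, hζA⟩ hsum
  have hs' : (p : K) * (1 + (ζ - 1) * (s : K)) = -(ζ - 1) ^ (p - 1) := by
    have := congrArg (fun z : A => (z : K)) hs
    simpa using this
  have hlam0 : ζ - 1 ≠ 0 := sub_ne_zero.mpr (hζ.ne_one hp.one_lt)
  have hlamA : ζ - 1 ∈ A := sub_mem hζA (one_mem A)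
  -- `p ≠ 0` in `K`
  have hp0 : (p : K) ≠ 0 := by
    intro h0
    rw [h0, zero_mul] at hs'
    exact pow_ne_zero _ hlam0 (neg_eq_zero.mp hs'.symm)
  have ht0 : (1 + (ζ - 1) * (s : K)) ≠ 0 := by
    intro h0
    rw [h0, mul_zero] at hs'
    exact pow_ne_zero _ hlam0 (neg_eq_zero.mp hs'.symm)
  have htA : (1 + (ζ - 1) * (s : K)) ∈ A := add_mem (one_mem A) (mul_mem hlamA s.2)
  -- `t = 1 + lam s` is a unit of `A`
  have htinv : (1 + (ζ - 1) * (s : K))⁻¹ ∈ A := by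
    by_cases hu : (ζ - 1)⁻¹ ∈ A
    · -- `lam` is a unit: `t⁻¹ = - p / lam^(p-1)`
      have hpow0 : (ζ - 1) ^ (p - 1) ≠ 0 := pow_ne_zero _ hlam0
      have e : (1 + (ζ - 1) * (s : K))⁻¹ = -((p : K) * ((ζ - 1)⁻¹) ^ (p - 1)) := by
        rw [inv_pow]
        field_simp
        linear_combination hs'
      rw [e]
      exact neg_mem (mul_mem (natCast_mem A p) (pow_mem hu _))
    · -- `lam` is a nonunit: `t ≡ 1`
      have hlt : A.valuation (ζ - 1) < 1 := by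
        have hle := (A.valuation_le_one_iff _).mpr hlamA
        refine lt_of_le_of_ne hle fun h1 => hu ?_
        rw [← A.valuation_le_one_iff, map_inv₀, h1, inv_one]
      have hv : A.valuation (1 + (ζ - 1) * (s : K)) = 1 := by
        have h2 : A.valuation ((ζ - 1) * (s : K)) < 1 := by
          rw [map_mul]
          calc A.valuation (ζ - 1) * A.valuation (s : K)
              ≤ A.valuation (ζ - 1) * 1 := by
                gcongr
                exact (A.valuation_le_one_iff _).mpr s.2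
            _ < 1 := by rw [mul_one]; exact hlt
        have h3 := Valuation.map_add_eq_of_lt_left A.valuation
          (x := (1 : K)) (y := (ζ - 1) * (s : K)) (by rw [map_one]; exact h2)
        rw [h3, map_one]
      rw [← A.valuation_le_one_iff, map_inv₀, hv, inv_one]
  refine ⟨-((s : K) * (1 + (ζ - 1) * (s : K))⁻¹), neg_mem (mul_mem s.2 htinv), ?_⟩
  field_simp
  linear_combination hs'

end Fermat.Agent.S33lib
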