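/-
Item 86 (S33), block RAY, piece ABS (helper12): the abstract K1-lemma `ray_abs`
(blueprint: helper2).  Complete proofs.

Setting: `R` a constant reduction of `F/K` to `Fk/k` with place reduction `r`; `lam` a nonunit of
`A` with `p = -lam^(p-1) (1 + lam ε)`; `F1` a subfield of `F` fixed by a set `G` of semilinear
automorphisms, with
* (DISC)  every nonzero element of `F1` is `lam^n ·` (unit of `O`),
* (RES1)  every residue constant lifts to `A ∩ F1`,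
* (LIFT1) for `G`-invariant `D` of large degree every element of `L(r_* D)` lifts to
  `F1 ∩ O ∩ L(D)`;
two `G`-fixed places `P`, `Q` with `r P ≠ r Q`.

`ray_abs`: a function `f ∈ F1` with `div f = p D` which is a `p`-th power in the residue field
(up to constants) has the form `c · s^p · (1 + lam^p g)`, `g ∈ O`.
-/
import Mathlib
import Fermat.Agent.S18lib.Crux
import Fermat.Agent.S33lib.RayPow

set_option autoImplicit false

noncomputable section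

namespace Fermat.Agent.S33lib

open AlgebraicCurve Fermat.Agent.RRlib Fermat.Agent.GoodRed Fermat.Agent.S18lib

variable {K F k Fk : Type*} [Field K] [Field F] [Algebra K F] [Field k] [Field Fk] [Algebra k Fk]

/-! ### generalities -/

theorem ray_divOf_smul [RRBase K F] (g : SemilinearAut K F) (f : F) :
    divOf (K := K) (g • f) = g • divOf (K := K) f := by
  ext v
  rw [SemilinearAut.divisor_smul_apply, divOf_apply', divOf_apply']
  have h := SemilinearAut.ord_smul g (g⁻¹ • v) f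
  rw [smul_inv_smul] at h
  exact h

theorem ray_nsmul_cancel {ι : Type*} {p : ℕ} (hp : p ≠ 0) {D D' : ι →₀ ℤ}
    (h : p • D = p • D') : D = D' := by
  ext v
  have := DFunLike.congr_fun h v
  rw [Finsupp.smul_apply, Finsupp.smul_apply, nsmul_eq_mul, nsmul_eq_mul] at this
  exact mul_left_cancel₀ (Nat.cast_ne_zero.mpr hp) this

theorem ray_algebraMap_ne_zero {c : K} (hc : c ≠ 0) : algebraMap K F c ≠ 0 := by
  rw [Ne, map_eq_zero_iff _ (algebraMap K F).injective]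
  exact hc

/-- an affine function of an element of `L(D)`, `D ≥ 0`, stays in `L(D)` -/
theorem ray_affine_mem {D : Divisor K F} (hD : 0 ≤ D) {x : F}
    (hx : x ∈ riemannRochSpace (K := K) D) (c d : K) :
    (algebraMap K F c * x - 1) * algebraMap K F d ∈ riemannRochSpace (K := K) D := by
  have h1 : (1 : F) ∈ riemannRochSpace (K := K) D := cxa_one_mem hD
  have e : (algebraMap K F c * x - 1) * algebraMap K F d = d • (c • x - 1) := by
    rw [Algebra.smul_def, Algebra.smul_def]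
    ring
  rw [e]
  exact Submodule.smul_mem _ _ (Submodule.sub_mem _ (Submodule.smul_mem _ _ hx) h1)

section red

variable {A : ValuationSubring K} {π : A →+* k} (R : ConstRed A π Fk F)

/-- a unit of `O` has nonzero reduction -/
theorem ray_red_ne_zero {x : F} (hx : x ∈ R.O) (hxi : x⁻¹ ∈ R.O) (hx0 : x ≠ 0) :
    R.red ⟨x, hx⟩ ≠ 0 := by
  intro h
  have hmul : (⟨x, hx⟩ : R.O) * ⟨x⁻¹, hxi⟩ = 1 := Subtype.ext (mul_inv_cancel₀ hx0)
  have := congrArg R.red hmul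
  rw [map_mul, h, zero_mul, map_one] at this
  exact zero_ne_one this

/-- an element of `O` with nonzero reduction is a unit of `O` -/
theorem ray_inv_mem {x : F} (hx : x ∈ R.O) (h : R.red ⟨x, hx⟩ ≠ 0) : x⁻¹ ∈ R.O := by
  by_contra hcon
  apply h
  rw [R.red_eq_zero_iff, ValuationSubring.mem_nonunits_iff_or]
  exact Or.inr hcon

theorem ray_red_inv {x : F} (hx : x ∈ R.O) (hxi : x⁻¹ ∈ R.O) (hx0 : x ≠ 0) :
    R.red ⟨x⁻¹, hxi⟩ = (R.red ⟨x, hx⟩)⁻¹ := by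
  have hmul : (⟨x, hx⟩ : R.O) * ⟨x⁻¹, hxi⟩ = 1 := Subtype.ext (mul_inv_cancel₀ hx0)
  have := congrArg R.red hmul
  rw [map_mul, map_one] at this
  exact eq_inv_of_mul_eq_one_right this

theorem ray_lam_mem {lam : K} (hlamA : lam ∈ A.nonunits) : algebraMap K F lam ∈ R.O :=
  R.algebraMap_mem ⟨lam, A.nonunits_subset hlamA⟩

theorem ray_red_lam {lam : K} (hlamA : lam ∈ A.nonunits) :
    R.red ⟨algebraMap K F lam, ray_lam_mem R hlamA⟩ = 0 := by
  have h := R.red_algebraMap ⟨lam, A.nonunits_subset hlamA⟩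
  rw [(R.π_eq_zero_iff ⟨lam, A.nonunits_subset hlamA⟩).mpr hlamA, map_zero] at h
  exact h

end red

section main

variable {A : ValuationSubring K} {π : A →+* k} (R : ConstRed A π Fk F)
variable {lam : K} (F1 : Subfield F)

/-- (DISC) implies: an element of `F1 ∩ m_O` is divisible by `lam` in `O` -/
theorem ray_disc_div (hlam0 : lam ≠ 0) (hlamA : lam ∈ A.nonunits)
    (hdisc : ∀ f ∈ F1, f ≠ 0 → ∃ n : ℤ,
      algebraMap K F (lam ^ n) * f ∈ R.O ∧ (algebraMap K F (lam ^ n) * f)⁻¹ ∈ R.O)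
    {x : F} (hx1 : x ∈ F1) (hxO : x ∈ R.O) (hred : R.red ⟨x, hxO⟩ = 0) :
    ∃ y ∈ R.O, x = algebraMap K F lam * y := by
  rcases eq_or_ne x 0 with rfl | hx0
  · exact ⟨0, R.O.zero_mem, by rw [mul_zero]⟩
  obtain ⟨j, hu, hui⟩ := hdisc x hx1 hx0
  have hlamO : algebraMap K F lam ∈ R.O := ray_lam_mem R hlamA
  have hu0 : algebraMap K F (lam ^ j) * x ≠ 0 :=
    mul_ne_zero (ray_algebraMap_ne_zero (zpow_ne_zero j hlam0)) hx0
  have hj : j < 0 := by
    by_contra hcon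
    push Not at hcon
    obtain ⟨t, rfl⟩ := Int.eq_ofNat_of_zero_le hcon
    have hmem : algebraMap K F (lam ^ (t : ℤ)) ∈ R.O := by
      rw [zpow_natCast, map_pow]
      exact pow_mem hlamO t
    have h1 : R.red ⟨algebraMap K F (lam ^ (t : ℤ)) * x, hu⟩ = 0 := by
      have : (⟨algebraMap K F (lam ^ (t : ℤ)) * x, hu⟩ : R.O) = ⟨_, hmem⟩ * ⟨x, hxO⟩ := rfl
      rw [this, map_mul, hred, mul_zero]
    exact ray_red_ne_zero R hu hui hu0 h1
  obtain ⟨t, rfl⟩ := Int.eq_negSucc_of_lt_zero hj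
  refine ⟨algebraMap K F (lam ^ t) * (algebraMap K F (lam ^ Int.negSucc t) * x), ?_, ?_⟩
  · refine mul_mem ?_ hu
    rw [map_pow]
    exact pow_mem hlamO t
  · rw [zpow_negSucc, map_inv₀, map_pow, map_pow]
    have : (algebraMap K F lam) ≠ 0 := ray_algebraMap_ne_zero hlam0
    field_simp
    ring

/-- the induction step: level `i` to level `i + 1` (for `1 ≤ i < p`) -/
theorem ray_step [RRBase K F] [RRBase k Fk] {r : Place K F → Place k Fk} (hr : R.IsPlaceRed r)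
    {p : ℕ} (hlam0 : lam ≠ 0) (hlamA : lam ∈ A.nonunits)
    (hlam1 : algebraMap K F lam ∈ F1)
    (hdisc : ∀ f ∈ F1, f ≠ 0 → ∃ n : ℤ,
      algebraMap K F (lam ^ n) * f ∈ R.O ∧ (algebraMap K F (lam ^ n) * f)⁻¹ ∈ R.O)
    (hres1 : ∀ c : k, ∃ a : A, π a = c ∧ algebraMap K F (a : K) ∈ F1)
    {P Q : Place K F} (hPQ : r P ≠ r Q) (N M : ℕ)
    {f₁ : F} (hf₁1 : f₁ ∈ F1) (hf₁0 : f₁ ≠ 0)
    (hf₁P : f₁ ∈ riemannRochSpace (K := K) (N • Finsupp.single P (1 : ℤ)))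
    {H ρ : F} (hρ : ρ ∈ R.O) (hH : H = 1 + algebraMap K F (lam ^ p) * ρ)
    (hHQ : H * f₁⁻¹ ∈ riemannRochSpace (K := K) (M • Finsupp.single Q (1 : ℤ)))
    {i : ℕ} (hi1 : 1 ≤ i) (hip : i < p)
    {c : K} (hc0 : c ≠ 0) (hc1 : algebraMap K F c ∈ F1) {g : F} (hgO : g ∈ R.O)
    (hfg : f₁ = algebraMap K F c * (1 + algebraMap K F (lam ^ i) * g)) :
    ∃ c' : K, c' ≠ 0 ∧ algebraMap K F c' ∈ F1 ∧ ∃ g' ∈ R.O,
      f₁ = algebraMap K F c' * (1 + algebraMap K F (lam ^ (i + 1)) * g') := by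
  have hlamF0 : algebraMap K F lam ≠ 0 := ray_algebraMap_ne_zero hlam0
  have hcF0 : algebraMap K F c ≠ 0 := ray_algebraMap_ne_zero hc0
  have hlamO : algebraMap K F lam ∈ R.O := ray_lam_mem R hlamA
  have hlamred : R.red ⟨algebraMap K F lam, hlamO⟩ = 0 := ray_red_lam R hlamA
  have hi0 : i ≠ 0 := by omega
  have hpi0 : p - i ≠ 0 := by omega
  -- u = 1 + lam^i g
  obtain ⟨u, hu⟩ : ∃ u : F, u = 1 + algebraMap K F lam ^ i * g := ⟨_, rfl⟩
  have hfu : f₁ = algebraMap K F c * u := by rw [hfg, map_pow, hu]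
  have hu0 : u ≠ 0 := by
    intro h; apply hf₁0; rw [hfu, h, mul_zero]
  have huO : u ∈ R.O := by
    rw [hu]; exact add_mem (one_mem _) (mul_mem (pow_mem hlamO i) hgO)
  have hured : R.red ⟨u, huO⟩ = 1 := by
    have : (⟨u, huO⟩ : R.O) = 1 + ⟨algebraMap K F lam, hlamO⟩ ^ i * ⟨g, hgO⟩ := Subtype.ext hu
    rw [this, map_add, map_one, map_mul, map_pow, hlamred, zero_pow hi0, zero_mul, add_zero]
  have hui : u⁻¹ ∈ R.O := ray_inv_mem R huO (by rw [hured]; exact one_ne_zero)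
  have huired : R.red ⟨u⁻¹, hui⟩ = 1 := by
    rw [ray_red_inv R huO hui hu0, hured, inv_one]
  -- g ∈ F1
  have hg1 : g ∈ F1 := by
    have e : g = (f₁ / algebraMap K F c - 1) / algebraMap K F lam ^ i := by
      rw [hfu, hu]; field_simp; ring
    rw [e]
    exact F1.div_mem (F1.sub_mem (F1.div_mem hf₁1 hc1) F1.one_mem) (F1.pow_mem hlam1 i)
  -- g ∈ L(N P)
  have hgP : g ∈ riemannRochSpace (K := K) (N • Finsupp.single P (1 : ℤ)) := by
    have e : g = (algebraMap K F c⁻¹ * f₁ - 1) * algebraMap K F (lam ^ i)⁻¹ := by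
      rw [hfu, hu, map_inv₀, map_inv₀, map_pow]; field_simp; ring
    rw [e]
    exact ray_affine_mem (cxa_nsmul_single_nonneg N P) hf₁P _ _
  have hgbarP : R.red ⟨g, hgO⟩
      ∈ riemannRochSpace (K := k) (N • Finsupp.single (r P) (1 : ℤ)) := by
    have := hr.W_le (N • Finsupp.single P (1 : ℤ)) ((R.mem_W_iff _ _).mpr ⟨⟨g, hgO⟩, hgP, rfl⟩)
    rwa [uq_mapDomain_nsmul_single] at this
  -- the second function
  obtain ⟨g2, hg2⟩ : ∃ g2 : F, g2 = (algebraMap K F lam ^ (p - i) * ρ - g) * u⁻¹ := ⟨_, rfl⟩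
  have hg2O : g2 ∈ R.O := by
    rw [hg2]; exact mul_mem (sub_mem (mul_mem (pow_mem hlamO _) hρ) hgO) hui
  have hg2red : R.red ⟨g2, hg2O⟩ = - R.red ⟨g, hgO⟩ := by
    have : (⟨g2, hg2O⟩ : R.O)
        = (⟨algebraMap K F lam, hlamO⟩ ^ (p - i) * ⟨ρ, hρ⟩ - ⟨g, hgO⟩) * ⟨u⁻¹, hui⟩ :=
      Subtype.ext hg2
    rw [this, map_mul, map_sub, map_mul, map_pow, hlamred, zero_pow hpi0, zero_mul, zero_sub,
      huired, mul_one]
  have hg2Q : g2 ∈ riemannRochSpace (K := K) (M • Finsupp.single Q (1 : ℤ)) := by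
    have e : g2 = (algebraMap K F c * (H * f₁⁻¹) - 1) * algebraMap K F (lam ^ i)⁻¹ := by
      have hpow : algebraMap K F lam ^ p = algebraMap K F lam ^ (p - i) * algebraMap K F lam ^ i := by
        rw [← pow_add]; congr 1; omega
      have hH' : H = u + algebraMap K F lam ^ i * (algebraMap K F lam ^ (p - i) * ρ - g) := by
        rw [hH, hu, map_pow, hpow]; ring
      rw [hg2, hH', hfu, map_inv₀, map_pow]
      field_simp
      ring
    rw [e]
    exact ray_affine_mem (cxa_nsmul_single_nonneg M Q) hHQ _ _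
  have hgbarQ : R.red ⟨g, hgO⟩
      ∈ riemannRochSpace (K := k) (M • Finsupp.single (r Q) (1 : ℤ)) := by
    have := hr.W_le (M • Finsupp.single Q (1 : ℤ)) ((R.mem_W_iff _ _).mpr ⟨⟨g2, hg2O⟩, hg2Q, rfl⟩)
    rw [uq_mapDomain_nsmul_single, hg2red] at this
    simpa using Submodule.neg_mem _ this
  obtain ⟨cbar, hcbar⟩ := cxa_inter_const hPQ N M hgbarP hgbarQ
  obtain ⟨a', ha', ha'1⟩ := hres1 cbar
  have ha'O : algebraMap K F (a' : K) ∈ R.O := R.algebraMap_mem a'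
  have hdred : R.red ⟨g - algebraMap K F (a' : K), sub_mem hgO ha'O⟩ = 0 := by
    have : (⟨g - algebraMap K F (a' : K), sub_mem hgO ha'O⟩ : R.O) = ⟨g, hgO⟩ - ⟨_, ha'O⟩ := rfl
    rw [this, map_sub, R.red_algebraMap, ha', hcbar, sub_self]
  obtain ⟨y, hyO, hy⟩ := ray_disc_div R F1 hlam0 hlamA hdisc (F1.sub_mem hg1 ha'1)
    (sub_mem hgO ha'O) hdred
  -- v = 1 + lam^i a'
  obtain ⟨v, hv⟩ : ∃ v : F, v = 1 + algebraMap K F lam ^ i * algebraMap K F (a' : K) := ⟨_, rfl⟩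
  have hvO : v ∈ R.O := by
    rw [hv]; exact add_mem (one_mem _) (mul_mem (pow_mem hlamO i) ha'O)
  have hvred : R.red ⟨v, hvO⟩ = 1 := by
    have : (⟨v, hvO⟩ : R.O) = 1 + ⟨algebraMap K F lam, hlamO⟩ ^ i * ⟨_, ha'O⟩ := Subtype.ext hv
    rw [this, map_add, map_one, map_mul, map_pow, hlamred, zero_pow hi0, zero_mul, add_zero]
  have hv0 : v ≠ 0 := by
    intro h
    have : (⟨v, hvO⟩ : R.O) = 0 := Subtype.ext h
    rw [this, map_zero] at hvred
    exact zero_ne_one hvred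
  have hvi : v⁻¹ ∈ R.O := ray_inv_mem R hvO (by rw [hvred]; exact one_ne_zero)
  have hvK : v = algebraMap K F (1 + lam ^ i * (a' : K)) := by
    rw [hv, map_add, map_one, map_mul, map_pow]
  have hvK0 : (1 + lam ^ i * (a' : K)) ≠ 0 := by
    intro h; apply hv0; rw [hvK, h, map_zero]
  refine ⟨c * (1 + lam ^ i * (a' : K)), mul_ne_zero hc0 hvK0, ?_, y * v⁻¹, mul_mem hyO hvi, ?_⟩
  · rw [map_mul, ← hvK, hv]
    exact F1.mul_mem hc1 (F1.add_mem F1.one_mem (F1.mul_mem (F1.pow_mem hlam1 i) ha'1))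
  · have hg' : g = algebraMap K F (a' : K) + algebraMap K F lam * y := by rw [← hy]; ring
    rw [map_mul, ← hvK, hfu, map_pow, hu, hg']
    have hv' : 1 + algebraMap K F lam ^ i * (algebraMap K F (a' : K) + algebraMap K F lam * y)
        = v + algebraMap K F lam ^ (i + 1) * y := by rw [hv]; ring
    rw [hv']
    field_simp

theorem ray_smul_nsmul (g : SemilinearAut K F) (n : ℕ) (D : Divisor K F) :
    g • (n • D) = n • (g • D) := by
  ext v
  rw [SemilinearAut.divisor_smul_apply, Finsupp.smul_apply, Finsupp.smul_apply,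
    SemilinearAut.divisor_smul_apply]

theorem ray_divOf_one [RRBase K F] : divOf (K := K) (1 : F) = 0 := by
  have := cxa_divOf_const (K := K) (F := F) 1
  rwa [map_one] at this

/-- step (1): normalisation -/
theorem ray_normalise [RRHyp K F] [RRHyp k Fk] {r : Place K F → Place k Fk}
    (hr : R.IsPlaceRed r) {p : ℕ} (hp : p ≠ 0) (hlam0 : lam ≠ 0)
    (G : Set (SemilinearAut K F)) (hF1 : ∀ x ∈ F1, ∀ g ∈ G, g • x = x)
    (hlam1 : algebraMap K F lam ∈ F1)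
    (hdisc : ∀ f ∈ F1, f ≠ 0 → ∃ n : ℤ,
      algebraMap K F (lam ^ n) * f ∈ R.O ∧ (algebraMap K F (lam ^ n) * f)⁻¹ ∈ R.O)
    (hres1 : ∀ c : k, ∃ a : A, π a = c ∧ algebraMap K F (a : K) ∈ F1)
    (hlift : ∀ D : Divisor K F, (∀ g ∈ G, g • D = D) →
      2 * (genusFF K F : ℤ) - 2 < Divisor.degree D →
      ∀ w ∈ riemannRochSpace (K := k) (Finsupp.mapDomain r D),
        ∃ s : R.O, (s : F) ∈ F1 ∧ (s : F) ∈ riemannRochSpace (K := K) D ∧ R.red s = w)
    {P : Place K F} (hP : ∀ g ∈ G, g • P = P)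
    (f : F) (hf1 : f ∈ F1) (hf0 : f ≠ 0) (D : Divisor K F) (hD : divOf (K := K) f = p • D)
    (hW : ∃ (c : K) (w : F), c ≠ 0 ∧ w ≠ 0 ∧ algebraMap K F c * f * w ^ p - 1 ∈ R.O.nonunits) :
    ∃ (c₀ : K) (s₀ f₁ : F) (n : ℕ) (E : Divisor K F), c₀ ≠ 0 ∧ s₀ ≠ 0 ∧
      f = algebraMap K F c₀ * s₀ ^ p * f₁ ∧ f₁ ∈ F1 ∧
      (∃ hf₁O : f₁ ∈ R.O, R.red ⟨f₁, hf₁O⟩ = 1) ∧ 0 ≤ E ∧ (∀ g ∈ G, g • E = E) ∧
      Divisor.degree E = n ∧
      divOf (K := K) f₁ = p • (E - n • Finsupp.single P (1 : ℤ)) := by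
  obtain ⟨c, w, hc0, hw0, hX⟩ := hW
  -- the one-unit `X`
  obtain ⟨X, hXdef⟩ : ∃ X : F, X = algebraMap K F c * f * w ^ p := ⟨_, rfl⟩
  rw [← hXdef] at hX
  have hX1O : X - 1 ∈ R.O := R.O.nonunits_subset hX
  have hXO : X ∈ R.O := by
    have := add_mem hX1O (one_mem R.O)
    rwa [sub_add_cancel] at this
  have hXred : R.red ⟨X, hXO⟩ = 1 := by
    have h0 : R.red ⟨X - 1, hX1O⟩ = 0 := (R.red_eq_zero_iff _).mpr hX
    have : (⟨X, hXO⟩ : R.O) = ⟨X - 1, hX1O⟩ + 1 := Subtype.ext (by simp)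
    rw [this, map_add, h0, map_one, zero_add]
  have hX0 : X ≠ 0 := by
    rw [hXdef]
    exact mul_ne_zero (mul_ne_zero (ray_algebraMap_ne_zero hc0) hf0) (pow_ne_zero p hw0)
  have hXi : X⁻¹ ∈ R.O := ray_inv_mem R hXO (by rw [hXred]; exact one_ne_zero)
  -- `w'`
  obtain ⟨d, hd0, hw'O, hw'i⟩ := R.exists_unit_smul w hw0
  obtain ⟨w', hw'def⟩ : ∃ w' : F, w' = algebraMap K F d * w := ⟨_, rfl⟩
  rw [← hw'def] at hw'O hw'i
  have hdF0 : algebraMap K F d ≠ 0 := ray_algebraMap_ne_zero hd0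
  have hw'0 : w' ≠ 0 := by rw [hw'def]; exact mul_ne_zero hdF0 hw0
  -- `f'`
  obtain ⟨j, hf'O, hf'i⟩ := hdisc f hf1 hf0
  obtain ⟨f', hf'def⟩ : ∃ f' : F, f' = algebraMap K F (lam ^ j) * f := ⟨_, rfl⟩
  rw [← hf'def] at hf'O hf'i
  have hlj0 : algebraMap K F (lam ^ j) ≠ 0 := ray_algebraMap_ne_zero (zpow_ne_zero j hlam0)
  have hf'0 : f' ≠ 0 := by rw [hf'def]; exact mul_ne_zero hlj0 hf0
  have hlj1 : algebraMap K F (lam ^ j) ∈ F1 := by
    rw [map_zpow₀]; exact F1.zpow_mem hlam1 j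
  have hf'1 : f' ∈ F1 := by rw [hf'def]; exact F1.mul_mem hlj1 hf1
  -- the constant `e`
  obtain ⟨e, hedef⟩ : ∃ e : K, e = c * (lam ^ j)⁻¹ * (d ^ p)⁻¹ := ⟨_, rfl⟩
  have hXe : X = algebraMap K F e * f' * w' ^ p := by
    rw [hXdef, hedef, hf'def, hw'def, map_mul, map_mul, map_inv₀, map_inv₀, map_pow]
    field_simp
    ring
  have heO : algebraMap K F e ∈ R.O := by
    have : algebraMap K F e = X * f'⁻¹ * (w'⁻¹) ^ p := by
      rw [hXe, inv_pow]; field_simp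
    rw [this]
    exact mul_mem (mul_mem hXO hf'i) (pow_mem hw'i p)
  have heA : e ∈ A := (R.algebraMap_mem_iff e).mp heO
  have hred1 : algebraMap k Fk (π ⟨e, heA⟩) * R.red ⟨f', hf'O⟩ * R.red ⟨w', hw'O⟩ ^ p = 1 := by
    rw [← hXred, ← R.red_algebraMap ⟨e, heA⟩, ← map_pow, ← map_mul, ← map_mul]
    congr 1
    exact Subtype.ext hXe.symm
  have hf'red0 : R.red ⟨f', hf'O⟩ ≠ 0 := ray_red_ne_zero R hf'O hf'i hf'0
  have hw'red0 : R.red ⟨w', hw'O⟩ ≠ 0 := ray_red_ne_zero R hw'O hw'i hw'0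
  have hπe0 : π ⟨e, heA⟩ ≠ 0 := by
    intro h
    rw [h, map_zero, zero_mul, zero_mul] at hred1
    exact zero_ne_one hred1
  have hπeF0 : algebraMap k Fk (π ⟨e, heA⟩) ≠ 0 := ray_algebraMap_ne_zero hπe0
  -- divisors
  have hdivf' : divOf (K := K) f' = p • D := by
    rw [hf'def, cxa_divOf_mul hlj0 hf0, cxa_divOf_const, zero_add, hD]
  have hrD : Finsupp.mapDomain r D + divOf (K := k) (R.red ⟨w', hw'O⟩) = 0 := by
    apply ray_nsmul_cancel hp
    rw [smul_zero, smul_add, ← Finsupp.mapDomain_smul, ← hdivf',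
      hr.mapDomain_divOf ⟨f', hf'O⟩ hf'red0, ← cxa_divOf_pow]
    have h1 := congrArg (divOf (K := k)) hred1
    rw [cxa_divOf_mul (mul_ne_zero hπeF0 hf'red0) (pow_ne_zero p hw'red0),
      cxa_divOf_mul hπeF0 hf'red0, cxa_divOf_const, zero_add, ray_divOf_one] at h1
    exact h1
  have hdegD : Divisor.degree D = 0 := by
    have h := degree_divOf (K := K) f
    rw [hD, map_nsmul, nsmul_eq_mul] at h
    rcases mul_eq_zero.mp h with h | h
    · exact absurd (Nat.cast_eq_zero.mp h) hp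
    · exact h
  have hDinv : ∀ g ∈ G, g • D = D := by
    intro g hg
    apply ray_nsmul_cancel hp
    rw [← ray_smul_nsmul, ← hD, ← ray_divOf_smul, hF1 f hf1 g hg]
  obtain ⟨n, hn⟩ : ∃ n : ℕ, n = 2 * genusFF K F + 1 := ⟨_, rfl⟩
  obtain ⟨Δ, hΔ⟩ : ∃ Δ : Divisor K F, Δ = D + n • Finsupp.single P (1 : ℤ) := ⟨_, rfl⟩
  have hΔinv : ∀ g ∈ G, g • Δ = Δ := by
    intro g hg
    rw [hΔ, smul_add, hDinv g hg, ray_smul_nsmul, SemilinearAut.smul_single, hP g hg]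
  have hΔdeg : Divisor.degree Δ = n := by
    rw [hΔ, map_add, hdegD, zero_add, map_nsmul, degree_single_one, nsmul_eq_mul, mul_one]
  have hΔbig : 2 * (genusFF K F : ℤ) - 2 < Divisor.degree Δ := by
    rw [hΔdeg, hn]; push_cast; linarith
  have hwmem : R.red ⟨w', hw'O⟩ ∈ riemannRochSpace (K := k) (Finsupp.mapDomain r Δ) := by
    rw [mem_riemannRochSpace_iff_divOf hw'red0, hΔ, Finsupp.mapDomain_add,
      uq_mapDomain_nsmul_single]
    have : Finsupp.mapDomain r D + n • Finsupp.single (r P) (1 : ℤ)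
          + divOf (K := k) (R.red ⟨w', hw'O⟩)
        = n • Finsupp.single (r P) (1 : ℤ) := by
      rw [add_right_comm, hrD, zero_add]
    rw [this]
    exact cxa_nsmul_single_nonneg n (r P)
  obtain ⟨s₁, hs₁1, hs₁L, hs₁red⟩ := hlift Δ hΔinv hΔbig _ hwmem
  have hs₁0 : (s₁ : F) ≠ 0 := by
    intro h
    have : s₁ = 0 := Subtype.ext h
    rw [this, map_zero] at hs₁red
    exact hw'red0 hs₁red.symm
  obtain ⟨a, ha, ha1⟩ := hres1 (π ⟨e, heA⟩)
  have haO : algebraMap K F (a : K) ∈ R.O := R.algebraMap_mem a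
  have ha0 : (a : K) ≠ 0 := by
    intro h
    have : a = 0 := Subtype.ext h
    rw [this, map_zero] at ha
    exact hπe0 ha.symm
  have haF0 : algebraMap K F (a : K) ≠ 0 := ray_algebraMap_ne_zero ha0
  -- the normalised function
  obtain ⟨f₁, hf₁def⟩ : ∃ f₁ : F, f₁ = algebraMap K F (a : K) * f' * (s₁ : F) ^ p := ⟨_, rfl⟩
  have hf₁O : f₁ ∈ R.O := by
    rw [hf₁def]; exact mul_mem (mul_mem haO hf'O) (pow_mem s₁.2 p)
  have hf₁red : R.red ⟨f₁, hf₁O⟩ = 1 := by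
    have : (⟨f₁, hf₁O⟩ : R.O) = ⟨_, haO⟩ * ⟨f', hf'O⟩ * s₁ ^ p := Subtype.ext hf₁def
    rw [this, map_mul, map_mul, map_pow, R.red_algebraMap, ha, hs₁red, hred1]
  refine ⟨(lam ^ j)⁻¹ * (a : K)⁻¹, (s₁ : F)⁻¹, f₁, n, Δ + divOf (K := K) (s₁ : F), ?_, ?_, ?_, ?_,
    ⟨hf₁O, hf₁red⟩, ?_, ?_, ?_, ?_⟩
  · exact mul_ne_zero (inv_ne_zero (zpow_ne_zero j hlam0)) (inv_ne_zero ha0)
  · exact inv_ne_zero hs₁0
  · rw [hf₁def, hf'def, map_mul, map_inv₀, map_inv₀, inv_pow]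
    field_simp
  · rw [hf₁def]
    exact F1.mul_mem (F1.mul_mem ha1 hf'1) (F1.pow_mem hs₁1 p)
  · exact (mem_riemannRochSpace_iff_divOf hs₁0 Δ).mp hs₁L
  · intro g hg
    rw [smul_add, hΔinv g hg, ← ray_divOf_smul, hF1 _ hs₁1 g hg]
  · rw [map_add, hΔdeg, degree_divOf, add_zero]
  · rw [hf₁def, cxa_divOf_mul (mul_ne_zero haF0 hf'0) (pow_ne_zero p hs₁0),
      cxa_divOf_mul haF0 hf'0, cxa_divOf_const, zero_add, hdivf', cxa_divOf_pow, hΔ]
    module

/-- step (2): the second representative -/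
theorem ray_second [RRHyp K F] [RRHyp k Fk] {r : Place K F → Place k Fk}
    (hr : R.IsPlaceRed r) {p : ℕ} (hp : p ≠ 0)
    (G : Set (SemilinearAut K F))
    (hlift : ∀ D : Divisor K F, (∀ g ∈ G, g • D = D) →
      2 * (genusFF K F : ℤ) - 2 < Divisor.degree D →
      ∀ w ∈ riemannRochSpace (K := k) (Finsupp.mapDomain r D),
        ∃ s : R.O, (s : F) ∈ F1 ∧ (s : F) ∈ riemannRochSpace (K := K) D ∧ R.red s = w)
    {P Q : Place K F} (hP : ∀ g ∈ G, g • P = P) (hQ : ∀ g ∈ G, g • Q = Q)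
    {f₁ : F} (hf₁O : f₁ ∈ R.O) (hf₁red : R.red ⟨f₁, hf₁O⟩ = 1)
    {n : ℕ} {E : Divisor K F} (hE : 0 ≤ E) (hEinv : ∀ g ∈ G, g • E = E)
    (hEdeg : Divisor.degree E = n)
    (hdiv : divOf (K := K) f₁ = p • (E - n • Finsupp.single P (1 : ℤ))) :
    ∃ (m : ℕ) (h : F), h ∈ F1 ∧ (∃ hhO : h ∈ R.O, R.red ⟨h, hhO⟩ = 1) ∧
      f₁ ∈ riemannRochSpace (K := K) ((p * n) • Finsupp.single P (1 : ℤ)) ∧
      h ^ p * f₁⁻¹ ∈ riemannRochSpace (K := K) ((p * m) • Finsupp.single Q (1 : ℤ)) := by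
  have hf₁0 : f₁ ≠ 0 := by
    intro h
    have : (⟨f₁, hf₁O⟩ : R.O) = 0 := Subtype.ext h
    rw [this, map_zero] at hf₁red
    exact zero_ne_one hf₁red
  have hrE : Finsupp.mapDomain r E = n • Finsupp.single (r P) (1 : ℤ) := by
    have h1 : Finsupp.mapDomain r (E - n • Finsupp.single P (1 : ℤ)) = 0 := by
      apply ray_nsmul_cancel hp
      rw [smul_zero, ← Finsupp.mapDomain_smul, ← hdiv,
        hr.mapDomain_divOf ⟨f₁, hf₁O⟩ (by rw [hf₁red]; exact one_ne_zero), hf₁red, ray_divOf_one]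
    rw [cxa_mapDomain_sub, uq_mapDomain_nsmul_single, sub_eq_zero] at h1
    exact h1
  obtain ⟨m, hm⟩ : ∃ m : ℕ, m = 2 * genusFF K F + 1 := ⟨_, rfl⟩
  obtain ⟨Δ, hΔ⟩ : ∃ Δ : Divisor K F,
      Δ = m • Finsupp.single Q (1 : ℤ) + n • Finsupp.single P (1 : ℤ) - E := ⟨_, rfl⟩
  have hΔinv : ∀ g ∈ G, g • Δ = Δ := by
    intro g hg
    rw [hΔ, smul_sub, smul_add, ray_smul_nsmul, ray_smul_nsmul, SemilinearAut.smul_single,
      SemilinearAut.smul_single, hP g hg, hQ g hg, hEinv g hg]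
  have hΔdeg : Divisor.degree Δ = m := by
    rw [hΔ, map_sub, map_add, map_nsmul, map_nsmul, degree_single_one, degree_single_one, hEdeg]
    simp
  have hΔbig : 2 * (genusFF K F : ℤ) - 2 < Divisor.degree Δ := by
    rw [hΔdeg, hm]; push_cast; linarith
  have hrΔ : Finsupp.mapDomain r Δ = m • Finsupp.single (r Q) (1 : ℤ) := by
    rw [hΔ, cxa_mapDomain_sub, Finsupp.mapDomain_add, uq_mapDomain_nsmul_single,
      uq_mapDomain_nsmul_single, hrE, add_sub_cancel_right]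
  have h1mem : (1 : Fk) ∈ riemannRochSpace (K := k) (Finsupp.mapDomain r Δ) := by
    rw [hrΔ]; exact cxa_one_mem (cxa_nsmul_single_nonneg m (r Q))
  obtain ⟨h, hh1, hhL, hhred⟩ := hlift Δ hΔinv hΔbig 1 h1mem
  have hh0 : (h : F) ≠ 0 := by
    intro h0
    have : h = 0 := Subtype.ext h0
    rw [this, map_zero] at hhred
    exact zero_ne_one hhred
  have hhE : 0 ≤ Δ + divOf (K := K) (h : F) := (mem_riemannRochSpace_iff_divOf hh0 Δ).mp hhL
  refine ⟨m, (h : F), hh1, ⟨h.2, hhred⟩, ?_, ?_⟩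
  · rw [mem_riemannRochSpace_iff_divOf hf₁0, hdiv]
    have : (p * n) • Finsupp.single P (1 : ℤ) + p • (E - n • Finsupp.single P (1 : ℤ))
        = p • E := by
      module
    rw [this]
    exact nsmul_nonneg hE p
  · rw [mem_riemannRochSpace_iff_divOf (mul_ne_zero (pow_ne_zero p hh0) (inv_ne_zero hf₁0)),
      cxa_divOf_mul (pow_ne_zero p hh0) (inv_ne_zero hf₁0), cxa_divOf_pow, cxa_divOf_inv, hdiv]
    have : (p * m) • Finsupp.single Q (1 : ℤ)
          + (p • divOf (K := K) (h : F) + -(p • (E - n • Finsupp.single P (1 : ℤ))))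
        = p • (Δ + divOf (K := K) (h : F)) := by
      rw [hΔ]; module
    rw [this]
    exact nsmul_nonneg hhE p

/-- **The abstract K1-lemma.**  A function `f ∈ F1` whose divisor is divisible by `p` and which
is a `p`-th power modulo the maximal ideal of `O` (up to a constant) is of the form
`c · s^p · (1 + lam^p g)` with `g ∈ O`. -/
theorem ray_abs [RRHyp K F] [RRHyp k Fk] {r : Place K F → Place k Fk}
    (hr : R.IsPlaceRed r) {p : ℕ} (hp : p.Prime) (hlam0 : lam ≠ 0) (hlamA : lam ∈ A.nonunits)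
    (hplam : ∃ ε ∈ A, (p : K) = -(lam ^ (p - 1)) * (1 + lam * ε))
    (G : Set (SemilinearAut K F)) (hF1 : ∀ x ∈ F1, ∀ g ∈ G, g • x = x)
    (hlam1 : algebraMap K F lam ∈ F1)
    (hdisc : ∀ f ∈ F1, f ≠ 0 → ∃ n : ℤ,
      algebraMap K F (lam ^ n) * f ∈ R.O ∧ (algebraMap K F (lam ^ n) * f)⁻¹ ∈ R.O)
    (hres1 : ∀ c : k, ∃ a : A, π a = c ∧ algebraMap K F (a : K) ∈ F1)
    (hlift : ∀ D : Divisor K F, (∀ g ∈ G, g • D = D) →
      2 * (genusFF K F : ℤ) - 2 < Divisor.degree D →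
      ∀ w ∈ riemannRochSpace (K := k) (Finsupp.mapDomain r D),
        ∃ s : R.O, (s : F) ∈ F1 ∧ (s : F) ∈ riemannRochSpace (K := K) D ∧ R.red s = w)
    {P Q : Place K F} (hP : ∀ g ∈ G, g • P = P) (hQ : ∀ g ∈ G, g • Q = Q) (hPQ : r P ≠ r Q)
    (f : F) (hf1 : f ∈ F1) (hf0 : f ≠ 0) (D : Divisor K F) (hD : divOf (K := K) f = p • D)
    (hW : ∃ (c : K) (w : F), c ≠ 0 ∧ w ≠ 0 ∧ algebraMap K F c * f * w ^ p - 1 ∈ R.O.nonunits) :
    ∃ (c : K) (s g : F), c ≠ 0 ∧ s ≠ 0 ∧ g ∈ R.O ∧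
      f = algebraMap K F c * s ^ p * (1 + algebraMap K F (lam ^ p) * g) := by
  obtain ⟨c₀, s₀, f₁, n, E, hc₀, hs₀, hff₁, hf₁1, ⟨hf₁O, hf₁red⟩, hE, hEinv, hEdeg, hdiv⟩ :=
    ray_normalise R F1 hr hp.ne_zero hlam0 G hF1 hlam1 hdisc hres1 hlift hP f hf1 hf0 D hD hW
  obtain ⟨m, h, hh1, ⟨hhO, hhred⟩, hf₁P, hHQ⟩ :=
    ray_second R F1 hr hp.ne_zero G hlift hP hQ hf₁O hf₁red hE hEinv hEdeg hdiv
  have hlamO : algebraMap K F lam ∈ R.O := ray_lam_mem R hlamA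
  have hf₁0 : f₁ ≠ 0 := by
    intro h0
    have : (⟨f₁, hf₁O⟩ : R.O) = 0 := Subtype.ext h0
    rw [this, map_zero] at hf₁red
    exact zero_ne_one hf₁red
  -- step (3): `h ^ p` is a one-unit of level `lam ^ p`
  have hh1red : R.red ⟨h - 1, sub_mem hhO (one_mem _)⟩ = 0 := by
    have : (⟨h - 1, sub_mem hhO (one_mem _)⟩ : R.O) = ⟨h, hhO⟩ - 1 := rfl
    rw [this, map_sub, hhred, map_one, sub_self]
  obtain ⟨h₁, hh₁O, hh₁⟩ := ray_disc_div R F1 hlam0 hlamA hdisc (F1.sub_mem hh1 F1.one_mem)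
    _ hh1red
  have hplamF : ∃ ε ∈ R.O,
      (p : F) = -(algebraMap K F lam ^ (p - 1)) * (1 + algebraMap K F lam * ε) := by
    obtain ⟨ε, hε, he⟩ := hplam
    refine ⟨algebraMap K F ε, R.algebraMap_mem ⟨ε, hε⟩, ?_⟩
    have := congrArg (algebraMap K F) he
    rw [map_natCast, map_mul, map_neg, map_pow, map_add, map_one, map_mul] at this
    exact this
  obtain ⟨ρ, hρ, hpow⟩ := rpw_pow_mem R.O p hp (algebraMap K F lam) hlamO hplamF h₁ hh₁O
  have hH : h ^ p = 1 + algebraMap K F (lam ^ p) * ρ := by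
    rw [map_pow, ← hpow]
    congr 1
    rw [← hh₁]; ring
  -- step (4): induction on the level
  have key : ∀ i : ℕ, 1 ≤ i → i ≤ p → ∃ c : K, c ≠ 0 ∧ algebraMap K F c ∈ F1 ∧ ∃ g ∈ R.O,
      f₁ = algebraMap K F c * (1 + algebraMap K F (lam ^ i) * g) := by
    intro i hi
    induction i, hi using Nat.le_induction with
    | base =>
      intro _
      have hred0 : R.red ⟨f₁ - 1, sub_mem hf₁O (one_mem _)⟩ = 0 := by
        have : (⟨f₁ - 1, sub_mem hf₁O (one_mem _)⟩ : R.O) = ⟨f₁, hf₁O⟩ - 1 := rfl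
        rw [this, map_sub, hf₁red, map_one, sub_self]
      obtain ⟨y, hyO, hy⟩ := ray_disc_div R F1 hlam0 hlamA hdisc
        (F1.sub_mem hf₁1 F1.one_mem) _ hred0
      refine ⟨1, one_ne_zero, by rw [map_one]; exact F1.one_mem, y, hyO, ?_⟩
      rw [map_one, one_mul, pow_one, ← hy]; ring
    | succ i hi ih =>
      intro hip
      obtain ⟨c, hc0, hc1, g, hgO, hfg⟩ := ih (by omega)
      exact ray_step R F1 hr hlam0 hlamA hlam1 hdisc hres1 hPQ (p * n) (p * m) hf₁1 hf₁0 hf₁P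
        hρ hH hHQ hi (by omega) hc0 hc1 hgO hfg
  obtain ⟨c, hc0, -, g, hgO, hfg⟩ := key p hp.one_lt.le le_rfl
  refine ⟨c₀ * c, s₀, g, mul_ne_zero hc₀ hc0, hs₀, hgO, ?_⟩
  rw [hff₁, hfg, map_mul]; ring

end main

end Fermat.Agent.S33lib

end
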