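/-
Item 86 (S33), block RAY, piece CAN (helper17), abstract part.  Complete proofs.

`G` a set of semilinear automorphisms of a function field `F/K` fixing a place `P`.

* `rcn_exists_invariant`: a divisor class of degree `0` fixed by `G` is represented by `E − j P`
  with `E ≥ 0` INVARIANT under `G` (`j` minimal with `ℓ(D₀ + j P) > 0`; then `ℓ = 1` and the
  effective divisor of `|D₀ + j P|` is unique);
* `rcn_exists_fixed`: if `lc : F → K` is a `G`-equivariant, `K`-homogeneous "leading coefficient"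
  (for us: the leading coefficient of the `q`-expansion at `∞`), a function with `G`-invariant
  divisor has a `G`-FIXED scalar multiple;
* `rcn_main`, `rcn_pic0`: a `G`-fixed class killed by `p` has a `G`-invariant representative
  `D` and a `G`-fixed Kummer function `f`, `div f = p D`.
-/
import Mathlib
import Fermat.Agent.RRlib.Cor
import Fermat.Prelude.Def_AlgebraicCurve_BaseChangeGalois

set_option autoImplicit false

noncomputable section

namespace Fermat.Agent.S33lib

open AlgebraicCurve Fermat.Agent.RRlib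

variable {K F : Type*} [Field K] [Field F] [Algebra K F]

/-! ### Elementary facts -/

/-- the order of a nonzero constant -/
theorem rcn_ord_const (v : Place K F) {c : K} (hc : c ≠ 0) : v.ord (algebraMap K F c) = 0 := by
  have hcF : algebraMap K F c ≠ 0 := (map_ne_zero _).mpr hc
  have h1 : 0 ≤ v.ord (algebraMap K F c) :=
    (v.adicValuation_le_one_iff.mp (v.adicValuation_algebraMap_le_one c)).resolve_left hcF
  have h2 : 0 ≤ v.ord (algebraMap K F c⁻¹) :=
    (v.adicValuation_le_one_iff.mp (v.adicValuation_algebraMap_le_one c⁻¹)).resolve_left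
      ((map_ne_zero _).mpr (inv_ne_zero hc))
  rw [map_inv₀, Place.ord_inv] at h2
  omega

theorem rcn_divOf_mul [RRBase K F] {f h : F} (hf : f ≠ 0) (hh : h ≠ 0) :
    divOf (K := K) (f * h) = divOf (K := K) f + divOf (K := K) h := by
  ext v
  rw [Finsupp.add_apply, divOf_apply (mul_ne_zero hf hh), divOf_apply hf, divOf_apply hh,
    v.ord_mul hf hh]

theorem rcn_divOf_const_mul [RRBase K F] {c : K} (hc : c ≠ 0) (f : F) :
    divOf (K := K) (algebraMap K F c * f) = divOf (K := K) f := by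
  have hcF : algebraMap K F c ≠ 0 := fun h => hc ((algebraMap K F).injective (by rw [h, map_zero]))
  rcases eq_or_ne f 0 with rfl | hf
  · rw [mul_zero]
  ext v
  rw [divOf_apply (mul_ne_zero hcF hf), divOf_apply hf, v.ord_mul hcF hf, rcn_ord_const v hc,
    zero_add]

/-- `div (g • f) = g • div f` -/
theorem rcn_divOf_smul [RRBase K F] (g : SemilinearAut K F) (f : F) :
    divOf (K := K) (g • f) = g • divOf (K := K) f := by
  ext w
  rw [SemilinearAut.divisor_smul_apply, divOf_apply', divOf_apply']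
  have h := SemilinearAut.ord_smul g (g⁻¹ • w) f
  rwa [smul_inv_smul] at h

/-- `g` preserves effective divisors -/
theorem rcn_smul_nonneg (g : SemilinearAut K F) {D : Divisor K F} (h : 0 ≤ D) : 0 ≤ g • D := by
  rw [Finsupp.le_def] at h ⊢
  intro w
  rw [SemilinearAut.divisor_smul_apply]
  exact h (g⁻¹ • w)

/-- a principal divisor is the divisor of a function -/
theorem rcn_exists_divOf [RRBase K F] {D : Divisor K F}
    (h : D ∈ Divisor.principal (K := K) (F := F)) : ∃ f : F, f ≠ 0 ∧ divOf (K := K) f = D := by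
  obtain ⟨f, hf, hD⟩ := h
  refine ⟨f, hf, ?_⟩
  ext v
  rw [divOf_apply hf, hD v]

/-- `G` fixes the multiples of a fixed place -/
theorem rcn_smul_nsmul_single (g : SemilinearAut K F) {P : Place K F} (hP : g • P = P) (j : ℕ) :
    g • (j • Finsupp.single P (1 : ℤ)) = j • Finsupp.single P (1 : ℤ) := by
  rw [smul_comm, SemilinearAut.smul_single, hP]

/-! ### The minimal `j` -/

/-- the minimal `j` with `ℓ(D₀ + j P) > 0` has `ℓ(D₀ + j P) = 1` -/
theorem rcn_exists_ell_one [RRHyp K F] (P : Place K F) (D₀ : Divisor K F)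
    (hdeg : Divisor.degree D₀ = 0) :
    ∃ j : ℕ, ell (D₀ + j • Finsupp.single P (1 : ℤ)) = 1 := by
  classical
  have hdegj : ∀ j : ℕ, Divisor.degree (D₀ + j • Finsupp.single P (1 : ℤ)) = j := by
    intro j
    rw [map_add, map_nsmul, hdeg, zero_add, degree_single_one, nsmul_eq_mul, mul_one]
  have hex : ∃ j : ℕ, 0 < ell (D₀ + j • Finsupp.single P (1 : ℤ)) := by
    refine ⟨genusFF K F, ?_⟩
    have h := riemann_inequality (K := K) (D₀ + (genusFF K F) • Finsupp.single P (1 : ℤ))
    rw [hdegj] at h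
    have : (0 : ℤ) < ell (D₀ + (genusFF K F) • Finsupp.single P (1 : ℤ)) := by linarith
    exact_mod_cast this
  refine ⟨Nat.find hex, ?_⟩
  have hpos := Nat.find_spec hex
  have hle : ell (D₀ + (Nat.find hex) • Finsupp.single P (1 : ℤ)) ≤ 1 := by
    rcases Nat.eq_zero_or_pos (Nat.find hex) with h0 | h0
    · have h1 := ell_le_degree_add_one (K := K)
        (D := D₀ + (Nat.find hex) • Finsupp.single P (1 : ℤ)) (by rw [hdegj]; positivity)
      rw [hdegj] at h1
      have : (ell (D₀ + (Nat.find hex) • Finsupp.single P (1 : ℤ)) : ℤ) ≤ 1 := by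
        have h0' : ((Nat.find hex : ℕ) : ℤ) = 0 := by exact_mod_cast h0
        linarith
      exact_mod_cast this
    · obtain ⟨j', hj'⟩ : ∃ j', Nat.find hex = j' + 1 := ⟨Nat.find hex - 1, by omega⟩
      have hmin : ¬ 0 < ell (D₀ + j' • Finsupp.single P (1 : ℤ)) :=
        Nat.find_min hex (by omega)
      have h0' : ell (D₀ + j' • Finsupp.single P (1 : ℤ)) = 0 := by omega
      have hmono : D₀ + j' • Finsupp.single P (1 : ℤ) ≤
          D₀ + (j' + 1) • Finsupp.single P (1 : ℤ) := by
        rw [succ_nsmul, ← add_assoc]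
        exact le_add_of_nonneg_right (Finsupp.single_nonneg.mpr zero_le_one)
      have h1 := ell_le_ell_add (K := K) hmono
      rw [hdegj, hdegj, h0'] at h1
      rw [hj']
      have : (ell (D₀ + (j' + 1) • Finsupp.single P (1 : ℤ)) : ℤ) ≤ 1 := by
        push_cast at h1
        linarith
      exact_mod_cast this
  omega

/-! ### CAN for divisors -/

/-- **CAN, divisors**: a class of degree `0` fixed by `G` is represented by `E − j P` with
`E ≥ 0` invariant under `G`. -/
theorem rcn_exists_invariant [RRHyp K F] (G : Set (SemilinearAut K F)) (P : Place K F)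
    (hP : ∀ g ∈ G, g • P = P) (D₀ : Divisor K F) (hdeg : Divisor.degree D₀ = 0)
    (hfix : ∀ g ∈ G, g • D₀ - D₀ ∈ Divisor.principal (K := K) (F := F)) :
    ∃ (j : ℕ) (E : Divisor K F), 0 ≤ E ∧ (∀ g ∈ G, g • E = E) ∧
      E - j • Finsupp.single P (1 : ℤ) - D₀ ∈ Divisor.principal (K := K) (F := F) := by
  obtain ⟨j, hj⟩ := rcn_exists_ell_one P D₀ hdeg
  set Δ : Divisor K F := D₀ + j • Finsupp.single P (1 : ℤ) with hΔ
  have hfin := finite_riemannRochSpace (K := K) Δ
  have hne : riemannRochSpace Δ ≠ ⊥ := by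
    intro hbot
    rw [ell, hbot, finrank_bot] at hj
    exact zero_ne_one hj
  obtain ⟨s, hsmem, hs0⟩ := Submodule.exists_mem_ne_zero_of_ne_bot hne
  have hE : 0 ≤ Δ + divOf (K := K) s := (mem_riemannRochSpace_iff_divOf (K := K) hs0 Δ).mp hsmem
  refine ⟨j, Δ + divOf (K := K) s, hE, ?_, ?_⟩
  · intro g hg
    obtain ⟨h, hh0, hh⟩ := rcn_exists_divOf (hfix g hg)
    have hgs0 : g • s ≠ 0 := by
      intro h0
      apply hs0
      have := congrArg (fun x => g⁻¹ • x) h0
      simpa using this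
    have hgD : g • D₀ = D₀ + divOf (K := K) h := by rw [hh]; abel
    -- `(g • s) h ∈ L(Δ)`
    have hkey : Δ + divOf (K := K) (g • s * h) = g • (Δ + divOf (K := K) s) := by
      rw [rcn_divOf_mul hgs0 hh0, rcn_divOf_smul, smul_add, hΔ, smul_add,
        rcn_smul_nsmul_single g (hP g hg), hgD]
      abel
    have hmem : g • s * h ∈ riemannRochSpace Δ := by
      rw [mem_riemannRochSpace_iff_divOf (K := K) (mul_ne_zero hgs0 hh0), hkey]
      exact rcn_smul_nonneg g hE
    -- one-dimensionality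
    have hone : Module.finrank K (riemannRochSpace Δ) = 1 := hj
    obtain ⟨c, hc⟩ := (finrank_eq_one_iff_of_nonzero' (⟨s, hsmem⟩ : riemannRochSpace Δ)
      (fun h => hs0 (congrArg Subtype.val h))).mp hone ⟨g • s * h, hmem⟩
    have hc' : algebraMap K F c * s = g • s * h := by
      have := congrArg Subtype.val hc
      simpa [Algebra.smul_def] using this
    have hc0 : c ≠ 0 := by
      rintro rfl
      rw [map_zero, zero_mul] at hc'
      exact mul_ne_zero hgs0 hh0 hc'.symm
    rw [← hkey, ← hc', rcn_divOf_const_mul hc0]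
  · have : Δ + divOf (K := K) s - j • Finsupp.single P (1 : ℤ) - D₀ = divOf (K := K) s := by
      rw [hΔ]; abel
    rw [this]
    exact co_divOf_mem_principal hs0

/-! ### CAN for functions -/

/-- **CAN, functions**: with a `G`-equivariant leading coefficient, a function with
`G`-invariant divisor has a `G`-fixed scalar multiple. -/
theorem rcn_exists_fixed [RRBase K F] (G : Set (SemilinearAut K F)) (lc : F → K)
    (hlc0 : ∀ x : F, x ≠ 0 → lc x ≠ 0)
    (hlcmul : ∀ (a : K) (x : F), lc (algebraMap K F a * x) = a * lc x)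
    (hlcG : ∀ g ∈ G, ∀ x : F, lc (g • x) = SemilinearAut.baseAut g (lc x))
    (f : F) (hf : f ≠ 0) (hD : ∀ g ∈ G, g • divOf (K := K) f = divOf (K := K) f) :
    ∃ c : K, c ≠ 0 ∧ ∀ g ∈ G, g • (algebraMap K F c * f) = algebraMap K F c * f := by
  have hl0 := hlc0 f hf
  refine ⟨(lc f)⁻¹, inv_ne_zero hl0, fun g hg => ?_⟩
  set f' : F := algebraMap K F (lc f)⁻¹ * f with hf'
  have hcF : algebraMap K F (lc f)⁻¹ ≠ 0 := fun h =>
    inv_ne_zero hl0 ((algebraMap K F).injective (by rw [h, map_zero]))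
  have hf'0 : f' ≠ 0 := mul_ne_zero hcF hf
  have hlc1 : lc f' = 1 := by rw [hf', hlcmul, inv_mul_cancel₀ hl0]
  have hgf'0 : g • f' ≠ 0 := by
    intro h0
    apply hf'0
    have := congrArg (fun x => g⁻¹ • x) h0
    simpa using this
  have hdiv : divOf (K := K) (g • f') = divOf (K := K) f' := by
    rw [rcn_divOf_smul, hf', rcn_divOf_const_mul (inv_ne_zero hl0), hD g hg]
  -- the quotient has no zeros and no poles
  have hconst : g • f' * f'⁻¹ ∈ Set.range (algebraMap K F) := by
    apply RRBase.const_of_forall_ord_nonneg (K := K)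
    intro v
    rw [v.ord_mul hgf'0 (inv_ne_zero hf'0), v.ord_inv, ← divOf_apply hgf'0, ← divOf_apply hf'0,
      hdiv]
    omega
  obtain ⟨c', hc'⟩ := hconst
  have heq : g • f' = algebraMap K F c' * f' := by
    rw [hc', mul_assoc, inv_mul_cancel₀ hf'0, mul_one]
  have h1 : lc (g • f') = 1 := by rw [hlcG g hg, hlc1, map_one]
  rw [heq, hlcmul, hlc1, mul_one] at h1
  rw [heq, h1, map_one, one_mul]

/-! ### The main statements -/

/-- **CAN** (divisor form): a class of degree `0`, fixed by `G` and killed by `p`, has a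
`G`-invariant representative `D` and a `G`-fixed Kummer function `f`, `div f = p D`. -/
theorem rcn_main [RRHyp K F] (G : Set (SemilinearAut K F)) (P : Place K F)
    (hP : ∀ g ∈ G, g • P = P) (lc : F → K)
    (hlc0 : ∀ x : F, x ≠ 0 → lc x ≠ 0)
    (hlcmul : ∀ (a : K) (x : F), lc (algebraMap K F a * x) = a * lc x)
    (hlcG : ∀ g ∈ G, ∀ x : F, lc (g • x) = SemilinearAut.baseAut g (lc x))
    (p : ℕ) (D₀ : Divisor K F) (hdeg : Divisor.degree D₀ = 0)
    (hfix : ∀ g ∈ G, g • D₀ - D₀ ∈ Divisor.principal (K := K) (F := F))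
    (hp : p • D₀ ∈ Divisor.principal (K := K) (F := F)) :
    ∃ (D : Divisor K F) (f : F), D - D₀ ∈ Divisor.principal (K := K) (F := F) ∧
      (∀ g ∈ G, g • D = D) ∧ f ≠ 0 ∧ (∀ g ∈ G, g • f = f) ∧ divOf (K := K) f = p • D := by
  obtain ⟨j, E, -, hEG, hE⟩ := rcn_exists_invariant G P hP D₀ hdeg hfix
  set D : Divisor K F := E - j • Finsupp.single P (1 : ℤ) with hDdef
  have hDG : ∀ g ∈ G, g • D = D := by
    intro g hg
    rw [hDdef, smul_sub, hEG g hg, rcn_smul_nsmul_single g (hP g hg)]
  have hpD : p • D ∈ Divisor.principal (K := K) (F := F) := by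
    have h1 : p • D = p • (D - D₀) + p • D₀ := by rw [← smul_add, sub_add_cancel]
    rw [h1]
    exact add_mem (nsmul_mem hE p) hp
  obtain ⟨f₀, hf₀, hdf₀⟩ := rcn_exists_divOf hpD
  have hinv : ∀ g ∈ G, g • divOf (K := K) f₀ = divOf (K := K) f₀ := by
    intro g hg
    rw [hdf₀, smul_comm, hDG g hg]
  obtain ⟨c, hc, hcG⟩ := rcn_exists_fixed G lc hlc0 hlcmul hlcG f₀ hf₀ hinv
  have hcF : algebraMap K F c ≠ 0 := fun h => hc ((algebraMap K F).injective (by rw [h, map_zero]))
  exact ⟨D, algebraMap K F c * f₀, hE, hDG, mul_ne_zero hcF hf₀, hcG,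
    by rw [rcn_divOf_const_mul hc, hdf₀]⟩

/-! ### The `Pic⁰` form -/

theorem rcn_mk_eq_zero_iff (D : Divisor.degZero (K := K) (F := F)) :
    Pic0.mk D = 0 ↔ (D : Divisor K F) ∈ Divisor.principal (K := K) (F := F) := by
  rw [Pic0.mk, QuotientAddGroup.eq_zero_iff, AddSubgroup.mem_addSubgroupOf]

theorem rcn_mk_eq_mk_iff (D E : Divisor.degZero (K := K) (F := F)) :
    Pic0.mk D = Pic0.mk E ↔
      (D : Divisor K F) - (E : Divisor K F) ∈ Divisor.principal (K := K) (F := F) := by
  have h : Pic0.mk (D - E) = Pic0.mk D - Pic0.mk E := rfl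
  rw [← sub_eq_zero, ← h, rcn_mk_eq_zero_iff, AddSubgroup.coe_sub]

/-- a divisor linearly equivalent to a divisor of degree `0` has degree `0` -/
theorem rcn_degree_of_sub_mem [RRBase K F] {D D₀ : Divisor K F}
    (h : D - D₀ ∈ Divisor.principal (K := K) (F := F)) (hdeg : Divisor.degree D₀ = 0) :
    Divisor.degree D = 0 := by
  obtain ⟨f, -, hf⟩ := rcn_exists_divOf h
  have h1 := degree_divOf (K := K) f
  rw [hf, map_sub, hdeg, sub_zero] at h1
  exact h1

/-- **CAN** (`Pic⁰` form): a class `x ∈ Pic⁰(F)` fixed by `G` and killed by `p` is the class of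
a `G`-invariant divisor `D` of degree `0`, with a `G`-fixed Kummer function `f`, `div f = p D`. -/
theorem rcn_pic0 [RRHyp K F] (G : Set (SemilinearAut K F)) (P : Place K F)
    (hP : ∀ g ∈ G, g • P = P) (lc : F → K)
    (hlc0 : ∀ x : F, x ≠ 0 → lc x ≠ 0)
    (hlcmul : ∀ (a : K) (x : F), lc (algebraMap K F a * x) = a * lc x)
    (hlcG : ∀ g ∈ G, ∀ x : F, lc (g • x) = SemilinearAut.baseAut g (lc x))
    (p : ℕ) (x : Pic0 K F) (hx : ∀ g ∈ G, g • x = x) (hpx : p • x = 0) :
    ∃ (D : Divisor.degZero (K := K) (F := F)) (f : F), Pic0.mk D = x ∧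
      (∀ g ∈ G, g • (D : Divisor K F) = (D : Divisor K F)) ∧ f ≠ 0 ∧ (∀ g ∈ G, g • f = f) ∧
      divOf (K := K) f = p • (D : Divisor K F) := by
  obtain ⟨D₀, rfl⟩ := Pic0.mk_surjective x
  have hdeg : Divisor.degree (D₀ : Divisor K F) = 0 := D₀.2
  have hfix : ∀ g ∈ G, g • (D₀ : Divisor K F) - (D₀ : Divisor K F) ∈
      Divisor.principal (K := K) (F := F) := by
    intro g hg
    have h := hx g hg
    rw [SemilinearAut.pic0_smul_mk, rcn_mk_eq_mk_iff, SemilinearAut.coe_degZeroSMulHom] at h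
    exact h
  have hp : p • (D₀ : Divisor K F) ∈ Divisor.principal (K := K) (F := F) := by
    have h : Pic0.mk (p • D₀) = 0 := hpx
    rw [rcn_mk_eq_zero_iff, AddSubgroup.coe_nsmul] at h
    exact h
  obtain ⟨D, f, hDD, hDG, hf, hfG, hdiv⟩ :=
    rcn_main G P hP lc hlc0 hlcmul hlcG p (D₀ : Divisor K F) hdeg hfix hp
  have hDdeg : D ∈ Divisor.degZero (K := K) (F := F) := rcn_degree_of_sub_mem hDD hdeg
  refine ⟨⟨D, hDdeg⟩, f, ?_, hDG, hf, hfG, hdiv⟩
  rw [rcn_mk_eq_mk_iff]
  exact hDD

end Fermat.Agent.S33lib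

end
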