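import Mathlib
import Fermat.Agent.S34lib.GalRR
import Fermat.Agent.RRlib.Modular
import Fermat.Agent.S36lib.Speed

/-!
# Item 86 (S33), block RAY, the concrete layer at level `L` (helper23).  Complete proofs.

`F = FF L` (the function field of `X₀(L)` over `ℚ̄`, inside the Laurent series in `q`),
`P = infPlaceBar L` (the cusp `∞`), a set `H` of automorphisms of `ℚ̄` (for the K1-lemma:
`rccI1 A ζ`, the elements of the inertia group at `A` fixing `ζ`), `G = rccG L H` its image in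
the semilinear automorphisms of `F`.

* `rccLc L x` : the leading coefficient of the `q`-expansion of `x`;
  `rcc_lc_ne_zero`, `rcc_lc_mul`, `rcc_lc_gal` : the three properties wanted by `rcn_exists_fixed`;
* `rcc_hP` : `G` fixes `P`;
* `rcc_hG` : the elements of `G` are inertial for every series reduction (for `H ⊆` inertia);
* `rcc_mem_F1_iff`, `rccF1` : the subfield of `G`-fixed functions.
-/

set_option autoImplicit false
set_option linter.unusedSectionVars false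
set_option linter.unusedVariables false
set_option linter.style.haveILetI false
set_option synthInstance.maxHeartbeats 400000

noncomputable section

namespace Fermat.Agent.S33lib

open AlgebraicCurve Fermat.Agent.GoodRed ModularCurve HahnSeries Fermat.Agent.S24lib
open Fermat.Agent.S34lib Fermat.Agent.RRlib

variable (L : ℕ) [NeZero L]

/-- the leading coefficient of the `q`-expansion at `∞` -/
def rccLc (x : FF L) : Kbar := (x : LaurentSeries Kbar).leadingCoeff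

theorem rcc_lc_ne_zero (x : FF L) (hx : x ≠ 0) : rccLc L x ≠ 0 := by
  unfold rccLc
  rw [HahnSeries.leadingCoeff_ne_zero]
  intro h
  exact hx (Subtype.ext h)

theorem rcc_coe_algebraMap (a : Kbar) :
    ((algebraMap Kbar (FF L) a : FF L) : LaurentSeries Kbar) = HahnSeries.C a := by
  show algebraMap Kbar (LaurentSeries Kbar) a = _
  rw [algebraMap_laurentSeries_eq_single]
  rfl

theorem rcc_lc_mul (a : Kbar) (x : FF L) :
    rccLc L (algebraMap Kbar (FF L) a * x) = a * rccLc L x := by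
  unfold rccLc
  have h : ((algebraMap Kbar (FF L) a * x : FF L) : LaurentSeries Kbar)
      = HahnSeries.C a * (x : LaurentSeries Kbar) := by
    rw [← rcc_coe_algebraMap L a]
    rfl
  rw [h, HahnSeries.leadingCoeff_mul]
  congr 1
  show (HahnSeries.single 0 a).leadingCoeff = a
  exact HahnSeries.leadingCoeff_of_single

theorem rcc_leadingCoeff_coeffMap {R S : Type*} [CommRing R] [CommRing S] (φ : R →+* S)
    (hφ : Function.Injective φ) (x : LaurentSeries R) :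
    (coeffMap φ x).leadingCoeff = φ x.leadingCoeff := by
  rw [HahnSeries.leadingCoeff_eq, HahnSeries.leadingCoeff_eq, galrr_order_coeffMap φ hφ,
    coeffMap_coeff]

theorem rcc_lc_gal (σ : Kbar ≃ₐ[ℚ] Kbar) (x : FF L) :
    rccLc L (galFF L σ • x) = SemilinearAut.baseAut (galFF L σ) (rccLc L x) := by
  unfold rccLc
  rw [coe_arithmeticGalois_smul, rcc_leadingCoeff_coeffMap _ σ.injective]
  rfl

/-- the image in the semilinear automorphisms of a set of automorphisms of `ℚ̄` -/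
def rccG (H : Set (Kbar ≃ₐ[ℚ] Kbar)) : Set (SemilinearAut Kbar (FF L)) :=
  {g | ∃ τ ∈ H, galFF L τ = g}

theorem rcc_mem_G {H : Set (Kbar ≃ₐ[ℚ] Kbar)} {τ : Kbar ≃ₐ[ℚ] Kbar} (hτ : τ ∈ H) :
    galFF L τ ∈ rccG L H := ⟨τ, hτ, rfl⟩

theorem rcc_forall_G {H : Set (Kbar ≃ₐ[ℚ] Kbar)} {C : SemilinearAut Kbar (FF L) → Prop} :
    (∀ g ∈ rccG L H, C g) ↔ ∀ τ ∈ H, C (galFF L τ) := by
  constructor
  · intro h τ hτ
    exact h _ (rcc_mem_G L hτ)
  · rintro h g ⟨τ, hτ, rfl⟩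
    exact h τ hτ

/-- `G` fixes the cusp `∞` -/
theorem rcc_hP (H : Set (Kbar ≃ₐ[ℚ] Kbar)) :
    ∀ g ∈ rccG L H, g • infPlaceBar L = infPlaceBar L := by
  rintro g ⟨τ, -, rfl⟩
  exact galFF_smul_infPlaceBar L τ

theorem rcc_hlcG (H : Set (Kbar ≃ₐ[ℚ] Kbar)) :
    ∀ g ∈ rccG L H, ∀ x : FF L, rccLc L (g • x) = SemilinearAut.baseAut g (rccLc L x) := by
  rintro g ⟨τ, -, rfl⟩ x
  exact rcc_lc_gal L τ x

/-- the elements of the inertia group at `A` fixing `ζ` -/
def rccI1 (A : ValuationSubring Kbar) (ζ : Kbar) : Set (Kbar ≃ₐ[ℚ] Kbar) :=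
  {τ | τ ∈ A.inertiaSubgroupIn ℚ ∧ τ ζ = ζ}

theorem rcc_I1_inertia {A : ValuationSubring Kbar} {ζ : Kbar} {τ : Kbar ≃ₐ[ℚ] Kbar}
    (h : τ ∈ rccI1 A ζ) : τ ∈ A.inertiaSubgroupIn ℚ := h.1

theorem rcc_I1_fix {A : ValuationSubring Kbar} {ζ : Kbar} {τ : Kbar ≃ₐ[ℚ] Kbar}
    (h : τ ∈ rccI1 A ζ) : τ ζ = ζ := h.2

theorem rcc_I1_mul {A : ValuationSubring Kbar} {ζ : Kbar} {σ τ : Kbar ≃ₐ[ℚ] Kbar}
    (hσ : σ ∈ rccI1 A ζ) (hτ : τ ∈ rccI1 A ζ) : σ * τ ∈ rccI1 A ζ := by
  refine ⟨(A.inertiaSubgroupIn ℚ).mul_mem hσ.1 hτ.1, ?_⟩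
  rw [AlgEquiv.mul_apply, hτ.2, hσ.2]

theorem rcc_I1_inv {A : ValuationSubring Kbar} {ζ : Kbar} {σ : Kbar ≃ₐ[ℚ] Kbar}
    (hσ : σ ∈ rccI1 A ζ) : σ⁻¹ ∈ rccI1 A ζ := by
  refine ⟨(A.inertiaSubgroupIn ℚ).inv_mem hσ.1, ?_⟩
  have := congrArg (σ⁻¹ : Kbar ≃ₐ[ℚ] Kbar) hσ.2
  rw [← AlgEquiv.mul_apply, inv_mul_cancel, AlgEquiv.one_apply] at this
  exact this.symm

theorem rcc_I1_one (A : ValuationSubring Kbar) (ζ : Kbar) : (1 : Kbar ≃ₐ[ℚ] Kbar) ∈ rccI1 A ζ :=
  ⟨(A.inertiaSubgroupIn ℚ).one_mem, rfl⟩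

/-- the subfield of functions fixed by `G` -/
def rccF1 (H : Set (Kbar ≃ₐ[ℚ] Kbar)) : Subfield (FF L) where
  carrier := {x | ∀ τ ∈ H, galFF L τ • x = x}
  mul_mem' := by
    intro x y hx hy τ hτ
    rw [smul_mul', hx τ hτ, hy τ hτ]
  one_mem' := by
    intro τ _
    exact smul_one _
  add_mem' := by
    intro x y hx hy τ hτ
    rw [smul_add, hx τ hτ, hy τ hτ]
  zero_mem' := by
    intro τ _
    exact smul_zero _
  neg_mem' := by
    intro x hx τ hτ
    rw [smul_neg, hx τ hτ]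
  inv_mem' := by
    intro x hx τ hτ
    rw [smul_inv'', hx τ hτ]

theorem rcc_mem_F1_iff (H : Set (Kbar ≃ₐ[ℚ] Kbar)) (x : FF L) :
    x ∈ rccF1 L H ↔ ∀ g ∈ rccG L H, g • x = x := by
  rw [rcc_forall_G]
  rfl

section Inertial

variable {A : ValuationSubring Kbar}
variable {Fk : IntermediateField (IsLocalRing.ResidueField A)
  (LaurentSeries (IsLocalRing.ResidueField A))}
variable {R : ConstRed A (IsLocalRing.residue A) (↥Fk) (FF L)}

/-- the elements of `G` are inertial for a series reduction, if `H` lies in the inertia group -/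
theorem rcc_hG (hR : IsSeriesRed R)
    (hfrac : HasPrimFrac A (laurentBaseChange Kbar (modularFunctionFieldFull L)))
    (H : Set (Kbar ≃ₐ[ℚ] Kbar)) (hH : ∀ τ ∈ H, τ ∈ A.inertiaSubgroupIn ℚ) :
    ∀ g ∈ rccG L H, IsInertial R g := by
  rintro g ⟨τ, hτ, rfl⟩
  exact inred_isInertial (modularFunctionFieldFull L) hR hfrac τ (hH τ hτ)

end Inertial

end Fermat.Agent.S33lib
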