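/-
Item 86 (S33), block RAY, piece DISC + RES1 (helper13).  Complete proofs.

`A` a valuation subring of `ℚ̄` over the prime `p`, `ζ` a primitive `p`-th root of unity,
`I1 = {τ ∈ I_A : τ ζ = ζ}`, `K1 = K0(ζ) = ℚ̄^{I1}` (`K0 = ℚ̄^I`), `F1 = (FF L)^{I1}`.

* `rdcI1 A ζ` (subgroup), `mem_rdcI1_iff`;
* `rdcK1 A ζ = K0 ⊔ ℚ(ζ)`, `rdcK1_fixingSubgroup`, `mem_rdcK1_iff` (Galois: `K1 = ℚ̄^{I1}`),
  `rdcK1_le_vdiscK1`, `rdc_vdDisc` (`K1` is discretely valued with uniformiser `ζ - 1`);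
* `RdcFixed L A ζ f`: `f ∈ FF L` is fixed by `I1`; `rdcFixedField` (the subfield `F1`);
* `rdcF1 L A ζ = F0(L)(ζ)`, `rdc_mem_rdcF1_of_fixed` (Galois descent `F1 ⊆ F0(L)(ζ)`),
  `rdcFixed_iff_mem_rdcF1`, `rdcFixed_iff_coeff`;
* **`rdc_disc`** (DISC): for every nonzero `f ∈ F1` some `(ζ - 1) ^ n · f`, `n : ℤ`, is a unit
  of `R.O`, `R` any `IsSeriesRed` constant reduction of `FF L`;
  `rdc_disc_comap`: the same for `inredComap R w`, `w` an isomorphism preserving `F1`;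
* **`rdc_res1`** (RES1): every element of the residue field of `A` is the residue of an `a ∈ A`
  whose constant function is fixed by the whole inertia group (`a ∈ K0`).
-/
import Mathlib
import Fermat.Agent.S36lib.VDisc
import Fermat.Agent.S36lib.FixedF0
import Fermat.Agent.S36lib.K0Field

set_option autoImplicit false
set_option linter.unusedSectionVars false
set_option linter.unusedVariables false
set_option linter.style.haveILetI false

noncomputable section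

namespace Fermat.Agent.S33lib

open ModularCurve HahnSeries AlgebraicCurve IntermediateField
open Fermat.Agent.GoodRed Fermat.Agent.S24lib Fermat.Agent.S34lib Fermat.Agent.S36lib
  Fermat.Agent.AJlib

section Galois

variable (A : ValuationSubring Kbar) (ζ : Kbar)

/-- `I1`: the inertia elements fixing `ζ` -/
def rdcI1 : Subgroup (Kbar ≃ₐ[ℚ] Kbar) :=
  A.inertiaSubgroupIn ℚ ⊓ (ℚ⟮ζ⟯ : IntermediateField ℚ Kbar).fixingSubgroup

theorem rdc_mem_fixingSubgroup_simple (τ : Kbar ≃ₐ[ℚ] Kbar) :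
    τ ∈ (ℚ⟮ζ⟯ : IntermediateField ℚ Kbar).fixingSubgroup ↔ τ ζ = ζ := by
  rw [IntermediateField.mem_fixingSubgroup_iff]
  constructor
  · intro h
    exact h ζ (IntermediateField.mem_adjoin_simple_self ℚ ζ)
  · intro h x hx
    have hle : (ℚ⟮ζ⟯ : IntermediateField ℚ Kbar)
        ≤ IntermediateField.fixedField (Subgroup.zpowers τ) := by
      rw [IntermediateField.adjoin_simple_le_iff, IntermediateField.mem_fixedField_iff]
      intro σ hσ
      obtain ⟨n, rfl⟩ := Subgroup.mem_zpowers_iff.mp hσ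
      have hfix : ∀ m : ℕ, (τ ^ m) ζ = ζ := by
        intro m
        induction m with
        | zero => simp
        | succ m ih =>
          rw [pow_succ, AlgEquiv.mul_apply, h, ih]
      have hinv : ∀ m : ℕ, ((τ ^ m)⁻¹) ζ = ζ := by
        intro m
        have h1 := hfix m
        have h2 : ((τ ^ m)⁻¹) ((τ ^ m) ζ) = ζ := by
          rw [← AlgEquiv.mul_apply, inv_mul_cancel, AlgEquiv.one_apply]
        rw [h1] at h2
        exact h2
      rcases Int.eq_nat_or_neg n with ⟨m, rfl | rfl⟩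
      · rw [zpow_natCast]
        exact hfix m
      · rw [zpow_neg, zpow_natCast]
        exact hinv m
    have := (IntermediateField.mem_fixedField_iff _ _).mp (hle hx) τ
      (Subgroup.mem_zpowers τ)
    exact this

theorem mem_rdcI1_iff (τ : Kbar ≃ₐ[ℚ] Kbar) :
    τ ∈ rdcI1 A ζ ↔ τ ∈ A.inertiaSubgroupIn ℚ ∧ τ ζ = ζ := by
  rw [rdcI1, Subgroup.mem_inf, rdc_mem_fixingSubgroup_simple]

/-- `K1 = K0(ζ)`, as an intermediate field of `ℚ̄ / ℚ` -/
def rdcK1 : IntermediateField ℚ Kbar := k0Field A ⊔ ℚ⟮ζ⟯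

theorem k0Field_le_rdcK1 : k0Field A ≤ rdcK1 A ζ := le_sup_left

theorem zeta_mem_rdcK1 : ζ ∈ rdcK1 A ζ :=
  (le_sup_right : (ℚ⟮ζ⟯ : IntermediateField ℚ Kbar) ≤ rdcK1 A ζ)
    (IntermediateField.mem_adjoin_simple_self ℚ ζ)

/-- `Gal(ℚ̄ / K1) = I1` -/
theorem rdcK1_fixingSubgroup : (rdcK1 A ζ).fixingSubgroup = rdcI1 A ζ := by
  rw [rdcK1, IntermediateField.fixingSubgroup_sup, k0Field_fixingSubgroup, rdcI1]

/-- **Galois**: `K1 = K0(ζ)` is the field of invariants of `I1`. -/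
theorem mem_rdcK1_iff (c : Kbar) :
    c ∈ rdcK1 A ζ ↔ ∀ τ ∈ rdcI1 A ζ, τ c = c := by
  have hgal : IsGalois ℚ (AlgebraicClosure ℚ) := Fermat.Agent.FrobLib.isGalois_QBar
  have h := InfiniteGalois.fixedField_fixingSubgroup (rdcK1 A ζ)
  rw [rdcK1_fixingSubgroup] at h
  rw [← IntermediateField.mem_fixedField_iff, h]

/-- `K1 ⊆ K0(ζ)` in the form of `VDisc.lean` -/
theorem rdcK1_le_vdiscK1 (c : Kbar) (hc : c ∈ rdcK1 A ζ) : c ∈ vdiscK1 A ζ := by
  have hle : rdcK1 A ζ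
      ≤ (IntermediateField.adjoin (k0Field A) {ζ}).restrictScalars ℚ := by
    refine sup_le ?_ ?_
    · intro x hx
      exact (IntermediateField.adjoin (k0Field A) {ζ}).algebraMap_mem (⟨x, hx⟩ : k0Field A)
    · rw [IntermediateField.adjoin_simple_le_iff]
      exact IntermediateField.mem_adjoin_simple_self _ ζ
  exact hle hc

variable {A ζ}

/-- `K1` is discretely valued, with uniformiser `ζ - 1` -/
theorem rdc_vdDisc {p : ℕ} (hp : p.Prime) (hA : A.LiesOverPrime p)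
    (hζ : IsPrimitiveRoot ζ p) : VdDisc A (rdcK1 A ζ).toSubfield (ζ - 1) := by
  haveI : NeZero p := ⟨hp.ne_zero⟩
  obtain ⟨-, h0, hlt, hd⟩ := vdisc_k0_zeta A hp hA hζ
  exact ⟨sub_mem (zeta_mem_rdcK1 A ζ) (one_mem _), h0, hlt,
    fun x hx hx0 => hd x (rdcK1_le_vdiscK1 A ζ x hx) hx0⟩

end Galois

section Fixed

variable (L : ℕ) (A : ValuationSubring Kbar) (ζ : Kbar)

/-- `f ∈ FF L` is fixed by `I1 = {τ ∈ I_A : τ ζ = ζ}` -/
def RdcFixed (f : FF L) : Prop :=
  ∀ τ ∈ A.inertiaSubgroupIn ℚ, τ ζ = ζ → galFF L τ • f = f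

theorem rdcFixed_iff_mem_fixedLBC (f : FF L) :
    RdcFixed L A ζ f
      ↔ f ∈ fixedLBC ((rdcI1 A ζ : Subgroup (Kbar ≃ₐ[ℚ] Kbar)) : Set (Kbar ≃ₐ[ℚ] Kbar))
          (modularFunctionFieldFull L) := by
  rw [mem_fixedLBC_iff]
  constructor
  · intro h τ hτ
    obtain ⟨h1, h2⟩ := (mem_rdcI1_iff A ζ τ).mp hτ
    exact h τ h1 h2
  · intro h τ h1 h2
    exact h τ ((mem_rdcI1_iff A ζ τ).mpr ⟨h1, h2⟩)

theorem rdc_hK1 : ∀ c : Kbar, c ∈ rdcK1 A ζ
    ↔ ∀ σ ∈ ((rdcI1 A ζ : Subgroup (Kbar ≃ₐ[ℚ] Kbar)) : Set (Kbar ≃ₐ[ℚ] Kbar)), σ c = c :=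
  fun c => mem_rdcK1_iff A ζ c

/-- `RdcFixed` ⇔ the coefficients of the `q`-expansion lie in `K1 = K0(ζ)` -/
theorem rdcFixed_iff_coeff (f : FF L) :
    RdcFixed L A ζ f ↔ ∀ n : ℤ, (f : LaurentSeries Kbar).coeff n ∈ rdcK1 A ζ := by
  rw [rdcFixed_iff_mem_fixedLBC]
  exact mem_fixedLBC_iff_coeff (modularFunctionFieldFull L) (rdc_hK1 A ζ)

/-- an inertia-fixed function is `I1`-fixed -/
theorem rdcFixed_of_isIFixed {f : FF L} (hf : IsIFixed L A f) : RdcFixed L A ζ f :=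
  fun τ hτ _ => hf τ hτ

/-- the `I1`-fixed functions, as a subfield -/
def rdcFixedField : Subfield (FF L) :=
  fixedLBC ((rdcI1 A ζ : Subgroup (Kbar ≃ₐ[ℚ] Kbar)) : Set (Kbar ≃ₐ[ℚ] Kbar))
    (modularFunctionFieldFull L)

theorem mem_rdcFixedField_iff (f : FF L) : f ∈ rdcFixedField L A ζ ↔ RdcFixed L A ζ f :=
  (rdcFixed_iff_mem_fixedLBC L A ζ f).symm

variable [NeZero L]

/-- `F0(L)(ζ)` -/
def rdcF1 : IntermediateField ↥(f0Field A L) (FF L) :=
  IntermediateField.adjoin ↥(f0Field A L) {algebraMap Kbar (FF L) ζ}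

theorem f0Field_le_rdcF1 {x : FF L} (hx : x ∈ f0Field A L) : x ∈ rdcF1 L A ζ :=
  (rdcF1 L A ζ).algebraMap_mem (⟨x, hx⟩ : ↥(f0Field A L))

theorem zeta_mem_rdcF1 : algebraMap Kbar (FF L) ζ ∈ rdcF1 L A ζ :=
  IntermediateField.mem_adjoin_simple_self _ _

/-- the constants of `K1` lie in `F0(L)(ζ)` -/
theorem rdc_const_mem {c : Kbar} (hc : c ∈ rdcK1 A ζ) :
    algebraMap Kbar (FF L) c ∈ rdcF1 L A ζ := by
  -- the intermediate field of the constants of `F0(L)(ζ)`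
  let S : IntermediateField ℚ Kbar :=
    { ((rdcF1 L A ζ).toSubfield.comap (algebraMap Kbar (FF L))) with
      algebraMap_mem' := fun r => by
        show algebraMap Kbar (FF L) (algebraMap ℚ Kbar r) ∈ rdcF1 L A ζ
        exact f0Field_le_rdcF1 L A ζ
          (const_mem_f0Field A L ⟨algebraMap ℚ Kbar r, (k0Field A).algebraMap_mem r⟩) }
  have hS : ∀ x : Kbar, x ∈ S ↔ algebraMap Kbar (FF L) x ∈ rdcF1 L A ζ := fun x => Iff.rfl
  have hle : rdcK1 A ζ ≤ S := by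
    refine sup_le ?_ ?_
    · intro x hx
      rw [hS]
      exact f0Field_le_rdcF1 L A ζ (const_mem_f0Field A L ⟨x, hx⟩)
    · rw [IntermediateField.adjoin_simple_le_iff, hS]
      exact zeta_mem_rdcF1 L A ζ
  exact (hS c).mp (hle hc)

/-- the base change of every element of the function field over `K1` lies in `F0(L)(ζ)` -/
theorem rdc_toLBC_mem
    (y : ↥(laurentBaseChange ↥(rdcK1 A ζ) (modularFunctionFieldFull L))) :
    toLBC (rdcK1 A ζ) (modularFunctionFieldFull L) y ∈ rdcF1 L A ζ := by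
  set T : Subfield (LaurentSeries Kbar) :=
    (rdcF1 L A ζ).toSubfield.map
      ((modularFunctionFieldBar L).val : FF L →+* LaurentSeries Kbar) with hT
  have hconst : ∀ c : ↥(rdcK1 A ζ), algebraMap Kbar (LaurentSeries Kbar) (c : Kbar) ∈ T :=
    fun c => ⟨algebraMap Kbar (FF L) (c : Kbar), rdc_const_mem L A ζ c.2, rfl⟩
  have hrat : ∀ z ∈ modularFunctionFieldFull L, coeffEmb Kbar z ∈ T := by
    intro z hz
    have h1 : (⟨coeffEmb Kbar z, coeffEmb_mem_laurentBaseChange Kbar hz⟩ : FF L)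
        ∈ f0Field A L :=
      (mem_f0Field_iff_isIFixed A L _).mpr
        ((isIFixed_iff_mem_fixedLBC A L _).mpr (coeffEmb_mem_fixedLBC _ hz))
    exact ⟨_, f0Field_le_rdcF1 L A ζ h1, rfl⟩
  have hle : (laurentBaseChange ↥(rdcK1 A ζ) (modularFunctionFieldFull L)).toSubfield
      ≤ T.comap (coeffMap (algebraMap ↥(rdcK1 A ζ) Kbar)) := by
    have h0 : (laurentBaseChange ↥(rdcK1 A ζ) (modularFunctionFieldFull L)).toSubfield
        = Subfield.closure
          (Set.range (algebraMap ↥(rdcK1 A ζ) (LaurentSeries ↥(rdcK1 A ζ))) ∪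
          (⇑(coeffEmb ↥(rdcK1 A ζ)) ''
            (modularFunctionFieldFull L : Set (LaurentSeries ℚ)))) :=
      rfl
    rw [h0, Subfield.closure_le]
    rintro w (⟨c, rfl⟩ | ⟨z, hz, rfl⟩)
    · show coeffMap (algebraMap ↥(rdcK1 A ζ) Kbar)
        (algebraMap ↥(rdcK1 A ζ) (LaurentSeries ↥(rdcK1 A ζ)) c) ∈ T
      have h1 : coeffMap (algebraMap ↥(rdcK1 A ζ) Kbar)
          (algebraMap ↥(rdcK1 A ζ) (LaurentSeries ↥(rdcK1 A ζ)) c)
          = algebraMap Kbar (LaurentSeries Kbar) (c : Kbar) := by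
        rw [algebraMap_laurentSeries_eq_single, coeffMap_single,
          ← algebraMap_laurentSeries_eq_single]
        rfl
      rw [h1]
      exact hconst c
    · show coeffMap (algebraMap ↥(rdcK1 A ζ) Kbar) (coeffEmb ↥(rdcK1 A ζ) z) ∈ T
      have h1 : coeffMap (algebraMap ↥(rdcK1 A ζ) Kbar) (coeffEmb ↥(rdcK1 A ζ) z)
          = coeffEmb Kbar z := by
        rw [coeffEmb, coeffMap_coeffMap]
        exact coeffMap_congr (Subsingleton.elim _ _) z
      rw [h1]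
      exact hrat z hz
  obtain ⟨x, hx, hxy⟩ := hle y.2
  have : x = toLBC (rdcK1 A ζ) (modularFunctionFieldFull L) y := Subtype.ext hxy
  rw [← this]
  exact hx

/-- **Galois descent**: an `I1`-fixed function lies in `F0(L)(ζ)`. -/
theorem rdc_mem_rdcF1_of_fixed {f : FF L} (hf : RdcFixed L A ζ f) : f ∈ rdcF1 L A ζ := by
  obtain ⟨y, rfl⟩ := (mem_fixedLBC_iff_range (modularFunctionFieldFull L) (rdc_hK1 A ζ)).mp
    ((rdcFixed_iff_mem_fixedLBC L A ζ f).mp hf)
  exact rdc_toLBC_mem L A ζ y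

/-- the elements of `F0(L)(ζ)` are `I1`-fixed -/
theorem rdcFixed_of_mem_rdcF1 {f : FF L} (hf : f ∈ rdcF1 L A ζ) : RdcFixed L A ζ f := by
  have hle : (rdcF1 L A ζ).toSubfield ≤ rdcFixedField L A ζ := by
    have h0 : (rdcF1 L A ζ).toSubfield
        = Subfield.closure (Set.range (algebraMap ↥(f0Field A L) (FF L)) ∪
            {algebraMap Kbar (FF L) ζ}) := by
      rw [rdcF1, IntermediateField.adjoin_toSubfield]
    rw [h0, Subfield.closure_le]
    rintro w (⟨x, rfl⟩ | hw)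
    · exact (mem_rdcFixedField_iff L A ζ _).mpr
        (rdcFixed_of_isIFixed L A ζ ((mem_f0Field_iff_isIFixed A L _).mp x.2))
    · rw [Set.mem_singleton_iff] at hw
      rw [hw]
      exact (algebraMap_mem_fixedLBC_iff (modularFunctionFieldFull L) (rdc_hK1 A ζ) ζ).mpr
        (zeta_mem_rdcK1 A ζ)
  exact (mem_rdcFixedField_iff L A ζ f).mp (hle hf)

theorem rdcFixed_iff_mem_rdcF1 (f : FF L) : RdcFixed L A ζ f ↔ f ∈ rdcF1 L A ζ :=
  ⟨rdc_mem_rdcF1_of_fixed L A ζ, rdcFixed_of_mem_rdcF1 L A ζ⟩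

end Fixed

section Disc

variable {L : ℕ} [NeZero L] {A : ValuationSubring Kbar} {ζ : Kbar} {p : ℕ}

/-- the value of a constant of `𝔪_A` in `R.O` is `< 1` -/
theorem rdc_val_const_lt_one
    {Fk : IntermediateField (IsLocalRing.ResidueField A)
      (LaurentSeries (IsLocalRing.ResidueField A))}
    (R : ConstRed A (IsLocalRing.residue A) (↥Fk) (FF L)) {c : Kbar}
    (hc : c ∈ A.nonunits) : R.O.valuation (algebraMap Kbar (FF L) c) < 1 := by
  have hcA : c ∈ A := A.nonunits_le hc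
  have hmem : algebraMap Kbar (FF L) c ∈ R.O := R.algebraMap_mem ⟨c, hcA⟩
  have hπ : IsLocalRing.residue A ⟨c, hcA⟩ = 0 := (R.π_eq_zero_iff ⟨c, hcA⟩).mpr hc
  have hred : R.red ⟨algebraMap Kbar (FF L) c, hmem⟩ = 0 := by
    have := R.red_algebraMap ⟨c, hcA⟩
    rw [this, hπ, map_zero]
  have hnu : algebraMap Kbar (FF L) c ∈ R.O.nonunits :=
    (R.red_eq_zero_iff ⟨algebraMap Kbar (FF L) c, hmem⟩).mp hred
  exact hnu

/-- **DISC**: for every nonzero `I1`-fixed `f ∈ FF L` some `(ζ - 1) ^ n · f`, `n : ℤ`, is a unit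
of `R.O`. -/
theorem rdc_disc (hp : p.Prime) (hA : A.LiesOverPrime p) (hζ : IsPrimitiveRoot ζ p)
    {Fk : IntermediateField (IsLocalRing.ResidueField A)
      (LaurentSeries (IsLocalRing.ResidueField A))}
    {R : ConstRed A (IsLocalRing.residue A) (↥Fk) (FF L)} (hR : IsSeriesRed R)
    {f : FF L} (hf : RdcFixed L A ζ f) (hf0 : f ≠ 0) :
    ∃ n : ℤ, algebraMap Kbar (FF L) ((ζ - 1) ^ n) * f ∈ R.O ∧
      (algebraMap Kbar (FF L) ((ζ - 1) ^ n) * f)⁻¹ ∈ R.O := by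
  have hmem : f ∈ rdcF1 L A ζ := rdc_mem_rdcF1_of_fixed L A ζ hf
  have hζF : IsPrimitiveRoot (algebraMap Kbar (FF L) ζ) p :=
    hζ.map_of_injective (algebraMap Kbar (FF L)).injective
  have hpcast : ((p : ℕ) : FF L) = algebraMap Kbar (FF L) ((p : ℕ) : Kbar) := by
    rw [map_natCast]
  have hvp : R.O.valuation ((p : ℕ) : FF L) < 1 := by
    rw [hpcast]
    exact rdc_val_const_lt_one R hA
  have hp0 : ((p : ℕ) : Kbar) ≠ 0 := Nat.cast_ne_zero.mpr hp.ne_zero
  have hvp0 : R.O.valuation ((p : ℕ) : FF L) ≠ 0 := by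
    rw [Ne, map_eq_zero, hpcast, map_eq_zero_iff _ (algebraMap Kbar (FF L)).injective]
    exact hp0
  have h0 : ∀ c : ↥(f0Field A L), c ≠ 0 →
      ∃ n : ℤ, R.O.valuation (algebraMap ↥(f0Field A L) (FF L) c)
        = R.O.valuation ((p : ℕ) : FF L) ^ n := by
    intro c hc
    have hc0 : (c : FF L) ≠ 0 := fun h => hc (Subtype.ext h)
    obtain ⟨n, h1, h2⟩ := vdisc_inf hp hA hR c.2 hc0
    have hne : algebraMap Kbar (FF L) (((p : ℕ) : Kbar) ^ n) * (c : FF L) ≠ 0 :=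
      mul_ne_zero (by
        rw [Ne, map_eq_zero_iff _ (algebraMap Kbar (FF L)).injective]
        exact zpow_ne_zero n hp0) hc0
    have hv1 : R.O.valuation (algebraMap Kbar (FF L) (((p : ℕ) : Kbar) ^ n) * (c : FF L)) = 1 := by
      refine le_antisymm ((R.O.valuation_le_one_iff _).mpr h1) ?_
      have h3 := (R.O.valuation_le_one_iff _).mpr h2
      rw [map_inv₀] at h3
      have hpos : 0 < R.O.valuation
          (algebraMap Kbar (FF L) (((p : ℕ) : Kbar) ^ n) * (c : FF L)) :=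
        zero_lt_iff.mpr ((Valuation.ne_zero_iff _).mpr hne)
      exact (inv_le_one₀ hpos).mp h3
    refine ⟨-n, ?_⟩
    have hcc : algebraMap ↥(f0Field A L) (FF L) c = (c : FF L) := rfl
    rw [hcc]
    rw [map_mul, map_zpow₀, map_zpow₀, ← hpcast] at hv1
    rw [zpow_neg]
    exact eq_inv_of_mul_eq_one_right hv1
  obtain ⟨n, hn⟩ := vdisc_adjoin_zeta R.O hp hvp hζF (F0 := ↥(f0Field A L)) h0 hmem hf0
  have hε0 : ζ - 1 ≠ 0 := zi_zeta_sub_one_ne_zero hp hζ
  have hεF : algebraMap Kbar (FF L) ζ - 1 = algebraMap Kbar (FF L) (ζ - 1) := by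
    rw [map_sub, map_one]
  rw [hεF] at hn
  have hvε0 : R.O.valuation (algebraMap Kbar (FF L) (ζ - 1)) ≠ 0 := by
    rw [Ne, map_eq_zero, map_eq_zero_iff _ (algebraMap Kbar (FF L)).injective]
    exact hε0
  have hv1 : R.O.valuation (algebraMap Kbar (FF L) ((ζ - 1) ^ (-n)) * f) = 1 := by
    rw [map_mul, map_zpow₀, map_zpow₀, hn, zpow_neg,
      inv_mul_cancel₀ (zpow_ne_zero n hvε0)]
  refine ⟨-n, (R.O.valuation_le_one_iff _).mp (le_of_eq hv1), ?_⟩
  rw [← R.O.valuation_le_one_iff, map_inv₀, hv1, inv_one]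

/-- **DISC** for a transported constant reduction `inredComap R w`, `w` an isomorphism mapping
`I1`-fixed functions to `I1`-fixed functions. -/
theorem rdc_disc_comap (hp : p.Prime) (hA : A.LiesOverPrime p) (hζ : IsPrimitiveRoot ζ p)
    {Fk : IntermediateField (IsLocalRing.ResidueField A)
      (LaurentSeries (IsLocalRing.ResidueField A))}
    {R : ConstRed A (IsLocalRing.residue A) (↥Fk) (FF L)} (hR : IsSeriesRed R)
    {L' : ℕ} [NeZero L'] (w : FF L' ≃ₐ[Kbar] FF L)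
    (hw : ∀ x : FF L', RdcFixed L' A ζ x → RdcFixed L A ζ (w x))
    {f : FF L'} (hf : RdcFixed L' A ζ f) (hf0 : f ≠ 0) :
    ∃ n : ℤ, algebraMap Kbar (FF L') ((ζ - 1) ^ n) * f ∈ (inredComap R w).O ∧
      (algebraMap Kbar (FF L') ((ζ - 1) ^ n) * f)⁻¹ ∈ (inredComap R w).O := by
  obtain ⟨n, h1, h2⟩ := rdc_disc hp hA hζ hR (hw f hf) ((map_ne_zero w).mpr hf0)
  refine ⟨n, (mem_inredComap_O R w _).mpr ?_, (mem_inredComap_O R w _).mpr ?_⟩
  · rw [map_mul, AlgEquiv.commutes]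
    exact h1
  · rw [map_inv₀, map_mul, AlgEquiv.commutes]
    exact h2

/-- **RES1**: every element of the residue field of `A` is the residue of an element `a ∈ A ∩ K0`;
the constant function `a` is fixed by the whole inertia group. -/
theorem rdc_res1 (hp : p.Prime) (hA : A.LiesOverPrime p) (c : IsLocalRing.ResidueField A) :
    ∃ a : A, IsLocalRing.residue A a = c ∧ (a : Kbar) ∈ k0Field A ∧
      IsIFixed L A (algebraMap Kbar (FF L) (a : Kbar)) ∧
      RdcFixed L A ζ (algebraMap Kbar (FF L) (a : Kbar)) := by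
  obtain ⟨a₀, rfl⟩ := IsLocalRing.residue_surjective c
  obtain ⟨b, hb⟩ := k0Val_residue_surj A p hp hA a₀
  have hbA : ((b : k0Field A) : Kbar) ∈ A := (mem_k0Val_iff A _).mp b.2
  refine ⟨⟨((b : k0Field A) : Kbar), hbA⟩, ?_, (b : k0Field A).2, ?_, ?_⟩
  · symm
    rw [← sub_eq_zero, ← map_sub, IsLocalRing.residue_eq_zero_iff]
    have hmem : (a₀ - ⟨((b : k0Field A) : Kbar), hbA⟩ : A) ∈ IsLocalRing.maximalIdeal A := by
      rw [IsLocalRing.mem_maximalIdeal, mem_nonunits_iff]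
      intro hu
      have h1 : ((a₀ - ⟨((b : k0Field A) : Kbar), hbA⟩ : A) : Kbar) ∈ A.nonunits := hb
      rw [ValuationSubring.mem_nonunits_iff_exists_mem_maximalIdeal] at h1
      obtain ⟨hmem', hmax⟩ := h1
      exact hmax hu
    exact hmem
  · exact isIFixed_const A L (b : k0Field A)
  · exact rdcFixed_of_isIFixed L A ζ (isIFixed_const A L (b : k0Field A))

end Disc

end Fermat.Agent.S33lib

end
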