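import Mathlib
import Fermat.Agent.S36lib.VDesc
import Fermat.Agent.S36lib.VDisc
import Fermat.Agent.S36lib.FixedFF

/-!
# Item 86 (S33), block RAY, piece LIFT1 (helper4): lifting with `I1`-fixed functions

`A | p` a valuation ring of `ℚ̄`, `ζ` a primitive `p`-th root of unity, `λ = ζ - 1`,
`I1 = {τ ∈ I_A : τ ζ = ζ}`, `K1 = K0(ζ) = ℚ̄^{I1}`, `F1 = FF(L)^{I1}`.

* `rlfI1`, `rlfK1`, `rlf_hK1` : `c ∈ K1 ↔ c` is fixed by `I1` (infinite Galois theory, `I` closed);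
* `rlfF1` : the subfield of `I1`-fixed functions; `mem_rlfF1_iff`, `mem_rlfF1_iff_coeff`;
* `rlfA1 = A ∩ K1` is a discrete valuation ring (`rlfA1_isDiscreteValuationRing`);
* `rlf_descent` : for an `I1`-stable divisor `D`, every `z ∈ L(D) ∩ O` has the same reduction as
  some `s ∈ L(D) ∩ F1 ∩ O` (given discreteness (DISC) of `O` on `F1`);
* `rlf_lift1` : the hypothesis (LIFT1) of the abstract K1-lemma, from (F3) and (DISC).
-/

set_option autoImplicit false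
set_option linter.style.haveILetI false
set_option linter.unusedSectionVars false
set_option synthInstance.maxHeartbeats 400000

noncomputable section

namespace Fermat.Agent.S33lib

open ModularCurve AlgebraicCurve HahnSeries
open Fermat.Agent.S24lib Fermat.Agent.S34lib Fermat.Agent.GoodRed Fermat.Agent.RRlib
  Fermat.Agent.S36lib

section Galois

variable (A : ValuationSubring Kbar) (ζ : Kbar)

/-- `I1`: the elements of the inertia group of `A` fixing `ζ` -/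
def rlfI1 : Set (Kbar ≃ₐ[ℚ] Kbar) := {τ | τ ∈ A.inertiaSubgroupIn ℚ ∧ τ ζ = ζ}

theorem mem_rlfI1_iff (τ : Kbar ≃ₐ[ℚ] Kbar) :
    τ ∈ rlfI1 A ζ ↔ τ ∈ A.inertiaSubgroupIn ℚ ∧ τ ζ = ζ := Iff.rfl

/-- `K1 = K0(ζ)`, as an intermediate field of `ℚ̄ / ℚ` -/
def rlfK1 : IntermediateField ℚ Kbar :=
  (IntermediateField.adjoin (k0Field A) {ζ}).restrictScalars ℚ

theorem mem_rlfK1_iff (x : Kbar) : x ∈ rlfK1 A ζ ↔ x ∈ vdiscK1 A ζ := Iff.rfl

theorem zeta_mem_rlfK1 : ζ ∈ rlfK1 A ζ := zeta_mem_vdiscK1 A ζ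

theorem k0_le_rlfK1 {c : Kbar} (hc : c ∈ k0Field A) : c ∈ rlfK1 A ζ := k0_le_vdiscK1 A ζ c hc

/-- the elements of `K1` are fixed by `I1` -/
theorem rlf_fixed_of_mem {τ : Kbar ≃ₐ[ℚ] Kbar} (hτ : τ ∈ rlfI1 A ζ) {x : Kbar}
    (hx : x ∈ rlfK1 A ζ) : τ x = x := by
  have key : ∀ y : Kbar, y ∈ IntermediateField.adjoin (k0Field A) {ζ} → τ y = y := by
    intro y hy
    induction hy using IntermediateField.adjoin_induction with
    | mem y hy =>
        rw [Set.mem_singleton_iff] at hy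
        rw [hy]
        exact hτ.2
    | algebraMap c => exact k0Field_fixed A c hτ.1
    | add x y _ _ ihx ihy => rw [map_add, ihx, ihy]
    | inv x _ ihx => rw [map_inv₀, ihx]
    | mul x y _ _ ihx ihy => rw [map_mul, ihx, ihy]
  exact key x hx

/-- **`ℚ̄^{I1} = K0(ζ)`** -/
theorem rlf_mem_of_fixed {x : Kbar} (hx : ∀ τ ∈ rlfI1 A ζ, τ x = x) : x ∈ rlfK1 A ζ := by
  haveI hgal : IsGalois ℚ Kbar := Fermat.Agent.FrobLib.isGalois_QBar
  rw [← InfiniteGalois.fixedField_fixingSubgroup (rlfK1 A ζ), IntermediateField.mem_fixedField_iff]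
  intro τ hτ
  rw [IntermediateField.mem_fixingSubgroup_iff] at hτ
  refine hx τ ⟨?_, hτ ζ (zeta_mem_rlfK1 A ζ)⟩
  rw [← k0Field_fixingSubgroup A, IntermediateField.mem_fixingSubgroup_iff]
  intro y hy
  exact hτ y (k0_le_rlfK1 A ζ hy)

theorem rlf_hK1 : ∀ c : Kbar, c ∈ rlfK1 A ζ ↔ ∀ σ ∈ rlfI1 A ζ, σ c = c :=
  fun _ => ⟨fun hc _ hσ => rlf_fixed_of_mem A ζ hσ hc, rlf_mem_of_fixed A ζ⟩

end Galois

section F1

variable (A : ValuationSubring Kbar) (ζ : Kbar) (L : ℕ)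

/-- `F1`: the `I1`-fixed functions of level `L`, as a subfield -/
def rlfF1 : Subfield (FF L) := fixedLBC (rlfI1 A ζ) (modularFunctionFieldFull L)

theorem mem_rlfF1_iff (x : FF L) :
    x ∈ rlfF1 A ζ L ↔ ∀ τ ∈ rlfI1 A ζ, galFF L τ • x = x := Iff.rfl

/-- `I1`-fixed ⇔ the coefficients of the `q`-expansion lie in `K1 = K0(ζ)` -/
theorem mem_rlfF1_iff_coeff (x : FF L) :
    x ∈ rlfF1 A ζ L ↔ ∀ n : ℤ, (x : LaurentSeries Kbar).coeff n ∈ rlfK1 A ζ :=
  mem_fixedLBC_iff_coeff (modularFunctionFieldFull L) (rlf_hK1 A ζ)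

theorem algebraMap_mem_rlfF1_iff (c : Kbar) :
    algebraMap Kbar (FF L) c ∈ rlfF1 A ζ L ↔ c ∈ rlfK1 A ζ :=
  algebraMap_mem_fixedLBC_iff (modularFunctionFieldFull L) (rlf_hK1 A ζ) c

/-- the inertia-fixed functions are `I1`-fixed -/
theorem f0Field_le_rlfF1 [NeZero L] {x : FF L} (hx : x ∈ f0Field A L) : x ∈ rlfF1 A ζ L :=
  fun τ hτ => (mem_f0Field_iff_isIFixed A L x).mp hx τ hτ.1

end F1

section DVR

variable {K1 Kb : Type*} [Field K1] [Field Kb] (ι : K1 →+* Kb) (A : ValuationSubring Kb)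

theorem rlf_comap_isUnit_iff (y : A.comap ι) : IsUnit y ↔ A.valuation (ι (y : K1)) = 1 := by
  have hle : ∀ z : A.comap ι, A.valuation (ι (z : K1)) ≤ 1 :=
    fun z => (A.valuation_le_one_iff _).mpr z.2
  constructor
  · rintro ⟨u, rfl⟩
    have h1 : A.valuation (ι ((u : A.comap ι) : K1)) *
        A.valuation (ι (((u⁻¹ : (A.comap ι)ˣ) : A.comap ι) : K1)) = 1 := by
      rw [← map_mul, ← map_mul]
      have : ((u : A.comap ι) : K1) * (((u⁻¹ : (A.comap ι)ˣ) : A.comap ι) : K1) = 1 := by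
        have := congrArg (Subtype.val : A.comap ι → K1) u.mul_inv
        exact this
      rw [this, map_one, map_one]
    refine le_antisymm (hle _) ?_
    calc (1 : ValuationSubring.ValueGroup A)
        = A.valuation (ι ((u : A.comap ι) : K1)) *
            A.valuation (ι (((u⁻¹ : (A.comap ι)ˣ) : A.comap ι) : K1)) := h1.symm
      _ ≤ A.valuation (ι ((u : A.comap ι) : K1)) * 1 := by gcongr; exact hle _
      _ = A.valuation (ι ((u : A.comap ι) : K1)) := mul_one _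
  · intro h
    have hy0 : (y : K1) ≠ 0 := by
      intro h0
      rw [h0, map_zero, map_zero] at h
      exact zero_ne_one h
    have hinv : (y : K1)⁻¹ ∈ A.comap ι := by
      show ι _ ∈ A
      rw [← A.valuation_le_one_iff, map_inv₀, map_inv₀, h, inv_one]
    exact ⟨⟨y, ⟨_, hinv⟩, Subtype.ext (mul_inv_cancel₀ hy0), Subtype.ext (inv_mul_cancel₀ hy0)⟩,
      rfl⟩

/-- a valuation ring whose values are the powers of the value of `ϖ` is a discrete valuation
ring -/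
theorem rlf_dvr_of_disc (ϖ : K1) (hϖ0 : ϖ ≠ 0) (hϖ1 : A.valuation (ι ϖ) < 1)
    (hd : ∀ x : K1, x ≠ 0 → ∃ n : ℤ, A.valuation (ι x) = A.valuation (ι ϖ) ^ n) :
    IsDiscreteValuationRing (A.comap ι) := by
  have hv0 : A.valuation (ι ϖ) ≠ 0 := by
    rw [Ne, map_eq_zero, map_eq_zero]
    exact hϖ0
  have hvpos : 0 < A.valuation (ι ϖ) := zero_lt_iff.mpr hv0
  have hϖB : ϖ ∈ A.comap ι := (A.valuation_le_one_iff _).mp hϖ1.le
  -- values of elements of the ring are natural powers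
  have hnat : ∀ x : A.comap ι, x ≠ 0 →
      ∃ n : ℕ, A.valuation (ι (x : K1)) = A.valuation (ι ϖ) ^ n := by
    intro x hx
    have hx0 : (x : K1) ≠ 0 := fun h => hx (Subtype.ext h)
    obtain ⟨n, hn⟩ := hd _ hx0
    have hle : A.valuation (ι (x : K1)) ≤ 1 := (A.valuation_le_one_iff _).mpr x.2
    have hn0 : 0 ≤ n := by
      by_contra hcon
      push Not at hcon
      have h1 : 1 < A.valuation (ι ϖ) ^ n := by
        have h2 : A.valuation (ι ϖ) ^ n = (A.valuation (ι ϖ) ^ (-n).toNat)⁻¹ := by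
          rw [← zpow_natCast, ← zpow_neg]
          congr 1
          have := Int.toNat_of_nonneg (show 0 ≤ -n by omega)
          omega
        rw [h2]
        have h3 : A.valuation (ι ϖ) ^ (-n).toNat < 1 := by
          refine pow_lt_one₀ (le_of_lt hvpos) hϖ1 ?_
          intro h0
          have := Int.toNat_of_nonneg (show 0 ≤ -n by omega)
          omega
        exact (one_lt_inv₀ (pow_pos hvpos _)).mpr h3
      rw [← hn] at h1
      exact absurd hle (not_le.mpr h1)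
    obtain ⟨m, rfl⟩ := Int.eq_ofNat_of_zero_le hn0
    exact ⟨m, by rw [hn, zpow_natCast]⟩
  have hinj : ∀ i j : ℕ, A.valuation (ι ϖ) ^ i = A.valuation (ι ϖ) ^ j → i = j := by
    intro i j hij
    rcases lt_trichotomy i j with h | h | h
    · exact absurd hij (ne_of_gt (pow_lt_pow_right_of_lt_one₀ hvpos hϖ1 h))
    · exact h
    · exact absurd hij (ne_of_lt (pow_lt_pow_right_of_lt_one₀ hvpos hϖ1 h))
  let ϖB : A.comap ι := ⟨ϖ, hϖB⟩
  have hassoc : ∀ x : A.comap ι, x ≠ 0 → ∃ n : ℕ, Associated (ϖB ^ n) x := by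
    intro x hx
    obtain ⟨n, hn⟩ := hnat x hx
    refine ⟨n, ?_⟩
    have huB : (x : K1) * (ϖ ^ n)⁻¹ ∈ A.comap ι := by
      show ι _ ∈ A
      rw [← A.valuation_le_one_iff, map_mul, map_mul, hn, map_inv₀, map_inv₀, map_pow, map_pow,
        mul_inv_cancel₀ (pow_ne_zero _ hv0)]
    have hu : IsUnit (⟨(x : K1) * (ϖ ^ n)⁻¹, huB⟩ : A.comap ι) := by
      rw [rlf_comap_isUnit_iff]
      show A.valuation (ι ((x : K1) * (ϖ ^ n)⁻¹)) = 1
      rw [map_mul, map_mul, hn, map_inv₀, map_inv₀, map_pow, map_pow,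
        mul_inv_cancel₀ (pow_ne_zero _ hv0)]
    refine ⟨hu.unit, ?_⟩
    apply Subtype.ext
    show (ϖ ^ n : K1) * ((x : K1) * (ϖ ^ n)⁻¹) = x
    field_simp
  have hirr : Irreducible ϖB := by
    have hϖB0 : ϖB ≠ 0 := fun h => hϖ0 (congrArg Subtype.val h)
    refine ⟨?_, ?_⟩
    · rw [rlf_comap_isUnit_iff]
      exact ne_of_lt hϖ1
    · intro a b hab
      have ha0 : a ≠ 0 := fun h => hϖB0 (by rw [hab, h, zero_mul])
      have hb0 : b ≠ 0 := fun h => hϖB0 (by rw [hab, h, mul_zero])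
      obtain ⟨i, hi⟩ := hnat a ha0
      obtain ⟨j, hj⟩ := hnat b hb0
      have hprod : A.valuation (ι ϖ) ^ (i + j) = A.valuation (ι ϖ) ^ 1 := by
        have h1 : (ϖ : K1) = (a : K1) * (b : K1) := congrArg Subtype.val hab
        rw [pow_one, _root_.pow_add, ← hi, ← hj, ← map_mul, ← map_mul, ← h1]
      have hij : i + j = 1 := hinj _ _ hprod
      rcases Nat.eq_zero_or_pos i with h0 | hpos
      · left
        rw [rlf_comap_isUnit_iff, hi, h0, pow_zero]
      · right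
        have hj0 : j = 0 := by omega
        rw [rlf_comap_isUnit_iff, hj, hj0, pow_zero]
  exact IsDiscreteValuationRing.ofHasUnitMulPowIrreducibleFactorization
    ⟨ϖB, hirr, fun {x} hx => hassoc x hx⟩

end DVR

section Disc

variable {K F : Type*} [Field K] [Field F] [Algebra K F] (A : ValuationSubring K)
  (O : ValuationSubring F) (hO : ∀ a : A, algebraMap K F (a : K) ∈ O) (ϖ : K)

include hO in
theorem rlf_pow_mem (hϖA : ϖ ∈ A) (n : ℕ) : algebraMap K F (ϖ ^ n) ∈ O :=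
  hO ⟨ϖ ^ n, pow_mem hϖA n⟩

include hO in
/-- discreteness (unit form) ⇒ the element is moved into `O` by a power of `ϖ` -/
theorem rlf_span_of_disc (hϖ0 : ϖ ≠ 0) (hϖA : ϖ ∈ A) {x : F}
    (hx : x ≠ 0 → ∃ n : ℤ, algebraMap K F (ϖ ^ n) * x ∈ O ∧ (algebraMap K F (ϖ ^ n) * x)⁻¹ ∈ O) :
    ∃ N : ℕ, ∀ N' : ℕ, N ≤ N' → algebraMap K F (ϖ ^ N') * x ∈ O := by
  by_cases hx0 : x = 0
  · exact ⟨0, fun N' _ => by rw [hx0, mul_zero]; exact O.zero_mem⟩
  obtain ⟨n, hn, -⟩ := hx hx0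
  refine ⟨n.toNat, fun N' hN' => ?_⟩
  have hd : 0 ≤ (N' : ℤ) - n := by
    have := Int.self_le_toNat n
    omega
  obtain ⟨d, hd'⟩ := Int.eq_ofNat_of_zero_le hd
  have h1 : ϖ ^ N' = ϖ ^ d * ϖ ^ n := by
    rw [← zpow_natCast, ← zpow_natCast, ← zpow_add₀ hϖ0, ← hd']
    congr 1
    ring
  rw [h1, map_mul, mul_assoc]
  exact O.mul_mem _ _ (rlf_pow_mem A O hO ϖ hϖA d) hn

include hO in
/-- discreteness (unit form) ⇒ a non-unit of `O` is divisible by `ϖ` in `O` -/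
theorem rlf_div_of_disc (hϖ0 : ϖ ≠ 0) (hϖA : ϖ ∈ A) {z : F}
    (hz : z ≠ 0 → ∃ n : ℤ, algebraMap K F (ϖ ^ n) * z ∈ O ∧ (algebraMap K F (ϖ ^ n) * z)⁻¹ ∈ O)
    (hzm : z ∈ O.nonunits) : algebraMap K F ϖ⁻¹ * z ∈ O := by
  by_cases hz0 : z = 0
  · rw [hz0, mul_zero]; exact O.zero_mem
  obtain ⟨n, hn, hn'⟩ := hz hz0
  have hneg : n < 0 := by
    by_contra hcon
    push Not at hcon
    obtain ⟨d, rfl⟩ := Int.eq_ofNat_of_zero_le hcon
    have h1 : algebraMap K F (ϖ ^ (d : ℤ)) * z ∈ O.nonunits := by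
      rw [mul_comm]
      refine ld_mul_mem_nonunits O hzm ?_
      rw [zpow_natCast]
      exact rlf_pow_mem A O hO ϖ hϖA d
    rw [ValuationSubring.mem_nonunits_iff_or] at h1
    rcases h1 with h | h
    · rw [h, inv_zero] at hn'
      have : algebraMap K F (ϖ ^ (d : ℤ)) ≠ 0 := by
        rw [Ne, map_eq_zero]
        exact zpow_ne_zero _ hϖ0
      exact (mul_ne_zero this hz0) h
    · exact h hn'
  have hd : 0 ≤ -n - 1 := by omega
  obtain ⟨d, hd'⟩ := Int.eq_ofNat_of_zero_le hd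
  have h1 : ϖ⁻¹ = ϖ ^ d * ϖ ^ n := by
    rw [← zpow_natCast, ← zpow_add₀ hϖ0, ← hd', ← zpow_neg_one]
    congr 1
    ring
  rw [h1, map_mul, mul_assoc]
  exact O.mul_mem _ _ (rlf_pow_mem A O hO ϖ hϖA d) hn

end Disc

section Main

variable (A : ValuationSubring Kbar) (ζ : Kbar) (L : ℕ) [NeZero L]

/-- `A1 = A ∩ K1`, as a valuation subring of `K1` -/
def rlfA1 : ValuationSubring (rlfK1 A ζ) := A.comap (algebraMap (rlfK1 A ζ) Kbar)

theorem mem_rlfA1_iff (x : rlfK1 A ζ) : x ∈ rlfA1 A ζ ↔ (x : Kbar) ∈ A := Iff.rfl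

/-- **`A1 = A ∩ K0(ζ)` is a discrete valuation ring** (uniformiser `ζ - 1`) -/
theorem rlfA1_isDiscreteValuationRing {p : ℕ} (hp : p.Prime) (hA : A.LiesOverPrime p)
    (hζ : IsPrimitiveRoot ζ p) : IsDiscreteValuationRing (rlfA1 A ζ) := by
  haveI : NeZero p := ⟨hp.ne_zero⟩
  obtain ⟨h1, h2, h3, h4⟩ := vdisc_k0_zeta A hp hA hζ
  refine rlf_dvr_of_disc (algebraMap (rlfK1 A ζ) Kbar) A ⟨ζ - 1, h1⟩ ?_ h3 ?_
  · intro h
    exact h2 (congrArg Subtype.val h)
  · intro x hx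
    exact h4 (x : Kbar) x.2 (fun h => hx (Subtype.ext h))

/-- the `K1`-space `L(D) ∩ F1` -/
def rlfV1 (D : Divisor Kbar (FF L)) : Submodule (rlfK1 A ζ) (FF L) where
  carrier := {x | x ∈ riemannRochSpace (K := Kbar) D ∧ x ∈ rlfF1 A ζ L}
  add_mem' := fun hx hy => ⟨Submodule.add_mem _ hx.1 hy.1, add_mem hx.2 hy.2⟩
  zero_mem' := ⟨Submodule.zero_mem _, zero_mem _⟩
  smul_mem' := fun c x hx => by
    refine ⟨?_, ?_⟩
    · have : c • x = (c : Kbar) • x := (algebraMap_smul Kbar c x).symm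
      rw [this]
      exact Submodule.smul_mem _ _ hx.1
    · rw [Algebra.smul_def]
      exact mul_mem ((algebraMap_mem_rlfF1_iff A ζ L _).mpr c.2) hx.2

theorem mem_rlfV1 (D : Divisor Kbar (FF L)) (x : FF L) :
    x ∈ rlfV1 A ζ L D ↔ x ∈ riemannRochSpace (K := Kbar) D ∧ x ∈ rlfF1 A ζ L := Iff.rfl

variable {A ζ L}

/-- `L(D)` is spanned over `ℚ̄` by its `I1`-fixed elements (`D` stable under `I1`) -/
theorem rlf_le_span [RRBase Kbar (FF L)] (D : Divisor Kbar (FF L))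
    (hD : ∀ σ ∈ rlfI1 A ζ, galFF L σ • D = D) {z : FF L}
    (hz : z ∈ riemannRochSpace (K := Kbar) D) :
    z ∈ Submodule.span Kbar ((rlfV1 A ζ L D : Submodule (rlfK1 A ζ) (FF L)) : Set (FF L)) := by
  classical
  obtain ⟨κ, hF, hDec, b, hb, -⟩ := dk_exists_basis_L L (rlfI1 A ζ) D hD
  have hbV : ∀ j, ((b j : riemannRochSpace (K := Kbar) D) : FF L) ∈ rlfV1 A ζ L D :=
    fun j => ⟨(b j).2, fun σ hσ => hb σ hσ j⟩
  have h1 : (⟨z, hz⟩ : riemannRochSpace (K := Kbar) D) = ∑ j, b.repr ⟨z, hz⟩ j • b j :=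
    (b.sum_repr _).symm
  have h2 : z = ∑ j, b.repr ⟨z, hz⟩ j • ((b j : riemannRochSpace (K := Kbar) D) : FF L) := by
    have := congrArg (Subtype.val : riemannRochSpace (K := Kbar) D → FF L) h1
    rw [Submodule.coe_sum] at this
    exact this
  rw [h2]
  exact Submodule.sum_mem _ fun j _ => Submodule.smul_mem _ _ (Submodule.subset_span (hbV j))

variable {k : Type*} [Field k] {π : A →+* k} {Fk : Type*} [Field Fk] [Algebra k Fk]

/-- **bounded coordinates**: finitely many Laurent coefficients, multiplied by a power of `p`,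
are injective on `L(D) ∩ F1` and integral on `L(D) ∩ F1 ∩ O`. -/
theorem rlf_bounded [RRBase Kbar (FF L)] {p : ℕ} (hp : p.Prime) (hA : A.LiesOverPrime p)
    (R : ConstRed A π Fk (FF L)) (D : Divisor Kbar (FF L)) :
    ∃ (m : ℕ) (ℓ : rlfV1 A ζ L D →ₗ[rlfK1 A ζ] (Fin m → rlfK1 A ζ)), Function.Injective ℓ ∧
      ∀ z : rlfV1 A ζ L D, (z : FF L) ∈ R.O → ∀ j, ℓ z j ∈ rlfA1 A ζ := by
  classical
  have hfin : Module.Finite Kbar (riemannRochSpace (K := Kbar) D) := finite_riemannRochSpace _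
  obtain ⟨κ, hF, hDec, b, piv, -, hrepr⟩ :=
    dk_exists_echelon (L := Kbar) ((dkCoeff L).comp (riemannRochSpace (K := Kbar) D).subtype)
      (fun x y h => Subtype.ext (dkCoeff_injective L h))
  have hq0 : (p : Kbar) ≠ 0 := Nat.cast_ne_zero.mpr hp.ne_zero
  have hqA : (p : Kbar) ∈ A := A.nonunits_subset hA
  have hN1 : ∀ y : Kbar, ∃ N : ℕ, ∀ N' : ℕ, N ≤ N' → (p : Kbar) ^ N' * y ∈ A := by
    intro y
    by_cases hy : y = 0
    · exact ⟨0, fun N' _ => by rw [hy, mul_zero]; exact A.zero_mem⟩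
    obtain ⟨N, hN⟩ := k0_exists_pow_lt A p hp hA y⁻¹ (inv_ne_zero hy)
    refine ⟨N, fun N' hN' => ?_⟩
    have h1 : (p : Kbar) ^ N * y ∈ A := by
      rw [← A.valuation_le_one_iff, map_mul, map_pow]
      rw [map_inv₀] at hN
      have hvy : 0 < A.valuation y := by
        rw [zero_lt_iff, Ne, map_eq_zero]; exact hy
      have := mul_lt_mul_of_pos_right hN hvy
      rw [inv_mul_cancel₀ hvy.ne'] at this
      exact this.le
    obtain ⟨d, rfl⟩ := Nat.exists_eq_add_of_le hN'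
    rw [_root_.pow_add, mul_comm ((p : Kbar) ^ N), mul_assoc]
    exact A.mul_mem _ _ (pow_mem hqA d) h1
  obtain ⟨N, hN⟩ := vdesc_forms_bounded R (riemannRochSpace (K := Kbar) D) hfin (p : Kbar) hN1
    (fun k : κ => (LinearMap.proj (piv k)).comp (dkCoeff L))
  let e : κ ≃ Fin (Fintype.card κ) := Fintype.equivFin κ
  have hcoeffK1 : ∀ (x : rlfV1 A ζ L D) (i : ℤ),
      (p : Kbar) ^ N * ((x : FF L) : LaurentSeries Kbar).coeff i ∈ rlfK1 A ζ := by
    intro x i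
    exact mul_mem (pow_mem (natCast_mem _ p) N) ((mem_rlfF1_iff_coeff A ζ L _).mp x.2.2 i)
  refine ⟨Fintype.card κ,
    { toFun := fun x j => ⟨(p : Kbar) ^ N *
        ((x : FF L) : LaurentSeries Kbar).coeff (piv (e.symm j)), hcoeffK1 x _⟩
      map_add' := fun x y => by
        funext j
        apply Subtype.ext
        show (p : Kbar) ^ N * (((x + y : rlfV1 A ζ L D) : FF L) : LaurentSeries Kbar).coeff _ = _
        have : (((x + y : rlfV1 A ζ L D) : FF L) : LaurentSeries Kbar) =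
            ((x : FF L) : LaurentSeries Kbar) + ((y : FF L) : LaurentSeries Kbar) := rfl
        rw [this, HahnSeries.coeff_add, mul_add]
        rfl
      map_smul' := fun a x => by
        funext j
        apply Subtype.ext
        show (p : Kbar) ^ N * (((a • x : rlfV1 A ζ L D) : FF L) : LaurentSeries Kbar).coeff _ = _
        have h1 : ((a • x : rlfV1 A ζ L D) : FF L) = (a : Kbar) • (x : FF L) :=
          (algebraMap_smul Kbar a (x : FF L)).symm
        have h2 := dkCoeff_apply L ((a : Kbar) • (x : FF L)) (piv (e.symm j))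
        rw [map_smul] at h2
        rw [h1, ← h2]
        show (p : Kbar) ^ N * ((a : Kbar) • dkCoeff L (x : FF L)) (piv (e.symm j)) = _
        rw [Pi.smul_apply, dkCoeff_apply, smul_eq_mul]
        show _ = (a : Kbar) * ((p : Kbar) ^ N * _)
        ring }, ?_, ?_⟩
  · intro x y hxy
    apply Subtype.ext
    have hx' : ∀ k : κ, ((x : FF L) : LaurentSeries Kbar).coeff (piv k) =
        ((y : FF L) : LaurentSeries Kbar).coeff (piv k) := by
      intro k
      have h1 := congrFun hxy (e k)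
      have h2 := congrArg Subtype.val h1
      simp only [LinearMap.coe_mk, AddHom.coe_mk, Equiv.symm_apply_apply] at h2
      exact mul_left_cancel₀ (pow_ne_zero N hq0) h2
    have hrx : b.repr ⟨(x : FF L), x.2.1⟩ = b.repr ⟨(y : FF L), y.2.1⟩ := by
      ext k
      rw [hrepr, hrepr]
      exact hx' k
    have := b.repr.injective hrx
    exact congrArg (fun t : riemannRochSpace (K := Kbar) D => (t : FF L)) this
  · intro z hzO j
    rw [mem_rlfA1_iff]
    exact hN (z : FF L) z.2.1 hzO (e.symm j)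

/-- **the lattice-descent data** of `L(D) ∩ F1` for the valuation ring of a constant reduction
which is discrete on `F1` (uniformiser `ζ - 1`). -/
theorem rlf_latDescData [RRBase Kbar (FF L)] {p : ℕ} (hp : p.Prime) (hA : A.LiesOverPrime p)
    (hζ : IsPrimitiveRoot ζ p) (R : ConstRed A π Fk (FF L))
    (hdisc : ∀ f ∈ rlfF1 A ζ L, f ≠ 0 → ∃ n : ℤ,
      algebraMap Kbar (FF L) ((ζ - 1) ^ n) * f ∈ R.O ∧
        (algebraMap Kbar (FF L) ((ζ - 1) ^ n) * f)⁻¹ ∈ R.O)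
    (D : Divisor Kbar (FF L)) :
    LatDescData A (rlfA1 A ζ) (⟨ζ - 1, sub_mem (zeta_mem_rlfK1 A ζ) (one_mem _)⟩ : rlfK1 A ζ)
      (fun _ : Unit => R.O) (rlfV1 A ζ L D) := by
  have hvq : A.valuation (p : Kbar) < 1 := k0_val_q_lt_one A p hA
  have hlam0 : ζ - 1 ≠ 0 := zi_zeta_sub_one_ne_zero hp hζ
  have hlam1 : A.valuation (ζ - 1) < 1 := zi_val_zeta_sub_one_lt_one A.valuation hp hvq hζ
  have hlamA : ζ - 1 ∈ A := (A.valuation_le_one_iff _).mp hlam1.le
  refine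
    { mem_A0 := fun _ => Iff.rfl
      res := ?_
      q_ne := fun h => hlam0 (congrArg Subtype.val h)
      q_mem := (A.mem_nonunits_iff).mpr hlam1
      mem_O := fun _ a ha => R.algebraMap_mem ⟨a, ha⟩
      mem_m := ?_
      bounded := ?_
      span := ?_
      disc := ?_ }
  · intro a ha
    obtain ⟨a0, ha0, haa⟩ := vdesc_res hp hA a ha
    exact ⟨⟨(a0 : Kbar), k0_le_rlfK1 A ζ a0.2⟩, ha0, haa⟩
  · intro _ a ha
    have haA : a ∈ A := A.nonunits_subset ha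
    have h1 := R.red_algebraMap ⟨a, haA⟩
    rw [(R.π_eq_zero_iff ⟨a, haA⟩).mpr ha, map_zero] at h1
    exact (R.red_eq_zero_iff _).mp h1
  · obtain ⟨m, ℓ, hℓ, hℓA⟩ := rlf_bounded (ζ := ζ) hp hA R D
    exact ⟨m, ℓ, hℓ, fun z hz => hℓA z (hz ())⟩
  · intro x hx
    obtain ⟨N, hN⟩ := rlf_span_of_disc A R.O R.algebraMap_mem (ζ - 1) hlam0 hlamA
      (fun hx0 => hdisc x hx.2 hx0)
    exact ⟨N, fun _ => hN N le_rfl⟩
  · intro z hz hzm _
    exact rlf_div_of_disc A R.O R.algebraMap_mem (ζ - 1) hlam0 hlamA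
      (fun hz0 => hdisc z hz.2 hz0) (hzm ())

/-- **descent of reductions `A → A1`**: for an `I1`-stable divisor `D`, an element of
`L(D) ∩ O` has the same reduction as an `I1`-fixed element of `L(D) ∩ O`. -/
theorem rlf_descent [RRBase Kbar (FF L)] {p : ℕ} (hp : p.Prime) (hA : A.LiesOverPrime p)
    (hζ : IsPrimitiveRoot ζ p) (R : ConstRed A π Fk (FF L))
    (hdisc : ∀ f ∈ rlfF1 A ζ L, f ≠ 0 → ∃ n : ℤ,
      algebraMap Kbar (FF L) ((ζ - 1) ^ n) * f ∈ R.O ∧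
        (algebraMap Kbar (FF L) ((ζ - 1) ^ n) * f)⁻¹ ∈ R.O)
    (D : Divisor Kbar (FF L)) (hD : ∀ σ ∈ rlfI1 A ζ, galFF L σ • D = D)
    (z : R.O) (hz : (z : FF L) ∈ riemannRochSpace (K := Kbar) D) :
    ∃ s : R.O, (s : FF L) ∈ rlfF1 A ζ L ∧ (s : FF L) ∈ riemannRochSpace (K := Kbar) D ∧
      R.red s = R.red z := by
  haveI : IsDiscreteValuationRing (rlfA1 A ζ) := rlfA1_isDiscreteValuationRing A ζ hp hA hζ
  have H := rlf_latDescData hp hA hζ R hdisc D
  obtain ⟨z₀, hz₀V, hz₀O, hcong⟩ := ld_descent H (z : FF L) (rlf_le_span D hD hz) (fun _ => z.2)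
  refine ⟨⟨z₀, hz₀O ()⟩, hz₀V.2, hz₀V.1, ?_⟩
  have h1 : R.red (z - ⟨z₀, hz₀O ()⟩) = 0 := (R.red_eq_zero_iff _).mpr (hcong ())
  rw [map_sub, sub_eq_zero] at h1
  exact h1.symm

/-- **(LIFT1)**, concrete: from the lifting property (F3) of the constant reduction `R` and the
discreteness of `R.O` on `F1`: for an `I1`-stable divisor `D` of degree `> 2g - 2`, every element
of `L̄(r_* D)` is the reduction of an `I1`-fixed element of `L(D) ∩ O`. -/
theorem rlf_lift1 [RRHyp Kbar (FF L)] [RRHyp k Fk] {p : ℕ} (hp : p.Prime)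
    (hA : A.LiesOverPrime p) (hζ : IsPrimitiveRoot ζ p) (R : ConstRed A π Fk (FF L))
    (r : Place Kbar (FF L) → Place k Fk)
    (hF3 : ∀ D : Divisor Kbar (FF L), 2 * (genusFF Kbar (FF L) : ℤ) - 2 < Divisor.degree D →
      R.W D = riemannRochSpace (K := k) (Finsupp.mapDomain r D))
    (hdisc : ∀ f ∈ rlfF1 A ζ L, f ≠ 0 → ∃ n : ℤ,
      algebraMap Kbar (FF L) ((ζ - 1) ^ n) * f ∈ R.O ∧
        (algebraMap Kbar (FF L) ((ζ - 1) ^ n) * f)⁻¹ ∈ R.O)
    (D : Divisor Kbar (FF L)) (hD : ∀ σ ∈ rlfI1 A ζ, galFF L σ • D = D)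
    (hdeg : 2 * (genusFF Kbar (FF L) : ℤ) - 2 < Divisor.degree D)
    (w : Fk) (hw : w ∈ riemannRochSpace (K := k) (Finsupp.mapDomain r D)) :
    ∃ s : R.O, (s : FF L) ∈ rlfF1 A ζ L ∧ (s : FF L) ∈ riemannRochSpace (K := Kbar) D ∧
      R.red s = w := by
  rw [← hF3 D hdeg, R.mem_W_iff] at hw
  obtain ⟨z, hz, rfl⟩ := hw
  exact rlf_descent hp hA hζ R hdisc D hD z hz

end Main

end Fermat.Agent.S33lib

end
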