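/-
Item 86 (S33), block RAY (helper13): the bridge between `RayDisc.lean` (DISC, RES1) and
`RayLift.lean` (LIFT1): the hypotheses `hdisc`, `hres1`, `hlam1`, `hlift` of the abstract K1-lemma
`ray_abs` for `F1 = rlfF1 A ζ L`, `lam = ζ - 1`, `R` an `IsSeriesRed` constant reduction of `FF L`.
Complete proofs.

* `rdl_mem_rlfF1_iff` : `x ∈ rlfF1 A ζ L ↔ RdcFixed L A ζ x`;
* `rdl_hF1`   : the elements of `rlfF1` are fixed by `galFF L τ`, `τ ∈ rlfI1`;
* `rdl_hdisc` : DISC on `rlfF1` (= hypothesis `hdisc` of `ray_abs` and of `rlf_lift1`);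
* `rdl_hres1` : RES1 on `rlfF1` (= hypothesis `hres1` of `ray_abs`, `π = residue`);
* `rdl_hlam1` : `ζ - 1 ∈ rlfF1`;  `rdl_hlam0`, `rdl_hlamA`;
* `rdl_hlift` : LIFT1 (= hypothesis `hlift` of `ray_abs`) from the lifting property (F3) alone.
-/
import Mathlib
import Fermat.Agent.S33lib.RayDisc
import Fermat.Agent.S33lib.RayLift

set_option autoImplicit false
set_option linter.unusedSectionVars false
set_option linter.unusedVariables false
set_option linter.style.haveILetI false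

noncomputable section

namespace Fermat.Agent.S33lib

open ModularCurve HahnSeries AlgebraicCurve
open Fermat.Agent.GoodRed Fermat.Agent.S24lib Fermat.Agent.S34lib Fermat.Agent.S36lib
  Fermat.Agent.RRlib

variable {A : ValuationSubring Kbar} {ζ : Kbar} {L : ℕ}

theorem rdl_mem_rlfF1_iff (x : FF L) : x ∈ rlfF1 A ζ L ↔ RdcFixed L A ζ x := by
  rw [mem_rlfF1_iff]
  constructor
  · intro h τ h1 h2
    exact h τ ((mem_rlfI1_iff A ζ τ).mpr ⟨h1, h2⟩)
  · intro h τ hτ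
    obtain ⟨h1, h2⟩ := (mem_rlfI1_iff A ζ τ).mp hτ
    exact h τ h1 h2

/-- the elements of `F1` are fixed by `I1` -/
theorem rdl_hF1 : ∀ x ∈ rlfF1 A ζ L, ∀ τ ∈ rlfI1 A ζ, galFF L τ • x = x :=
  fun x hx τ hτ => (mem_rlfF1_iff A ζ L x).mp hx τ hτ

variable [NeZero L] {p : ℕ}

/-- **DISC** on `rlfF1` -/
theorem rdl_hdisc (hp : p.Prime) (hA : A.LiesOverPrime p) (hζ : IsPrimitiveRoot ζ p)
    {Fk : IntermediateField (IsLocalRing.ResidueField A)
      (LaurentSeries (IsLocalRing.ResidueField A))}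
    {R : ConstRed A (IsLocalRing.residue A) (↥Fk) (FF L)} (hR : IsSeriesRed R) :
    ∀ f ∈ rlfF1 A ζ L, f ≠ 0 → ∃ n : ℤ,
      algebraMap Kbar (FF L) ((ζ - 1) ^ n) * f ∈ R.O ∧
        (algebraMap Kbar (FF L) ((ζ - 1) ^ n) * f)⁻¹ ∈ R.O :=
  fun f hf hf0 => rdc_disc hp hA hζ hR ((rdl_mem_rlfF1_iff f).mp hf) hf0

/-- **RES1** on `rlfF1` -/
theorem rdl_hres1 (hp : p.Prime) (hA : A.LiesOverPrime p) :
    ∀ c : IsLocalRing.ResidueField A, ∃ a : A, IsLocalRing.residue A a = c ∧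
      algebraMap Kbar (FF L) (a : Kbar) ∈ rlfF1 A ζ L := by
  intro c
  obtain ⟨a, ha, -, -, hfix⟩ := rdc_res1 (L := L) (ζ := ζ) hp hA c
  exact ⟨a, ha, (rdl_mem_rlfF1_iff _).mpr hfix⟩

omit [NeZero L] in
/-- `ζ - 1 ∈ F1` -/
theorem rdl_hlam1 : algebraMap Kbar (FF L) (ζ - 1) ∈ rlfF1 A ζ L :=
  (algebraMap_mem_rlfF1_iff A ζ L (ζ - 1)).mpr
    (sub_mem (zeta_mem_rlfK1 A ζ) (one_mem _))

omit [NeZero L] in
theorem rdl_hlam0 (hp : p.Prime) (hζ : IsPrimitiveRoot ζ p) : ζ - 1 ≠ 0 :=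
  zi_zeta_sub_one_ne_zero hp hζ

omit [NeZero L] in
theorem rdl_hlamA (hp : p.Prime) (hA : A.LiesOverPrime p) (hζ : IsPrimitiveRoot ζ p) :
    ζ - 1 ∈ A.nonunits := by
  haveI : NeZero p := ⟨hp.ne_zero⟩
  have hvq : A.valuation ((p : ℕ) : Kbar) < 1 := k0_val_q_lt_one A p hA
  exact zi_val_zeta_sub_one_lt_one A.valuation hp hvq hζ

/-- **LIFT1** in the shape of the hypothesis `hlift` of `ray_abs`, from (F3). -/
theorem rdl_hlift [RRHyp Kbar (FF L)] (hp : p.Prime) (hA : A.LiesOverPrime p)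
    (hζ : IsPrimitiveRoot ζ p)
    {Fk : IntermediateField (IsLocalRing.ResidueField A)
      (LaurentSeries (IsLocalRing.ResidueField A))} [RRHyp (IsLocalRing.ResidueField A) ↥Fk]
    {R : ConstRed A (IsLocalRing.residue A) (↥Fk) (FF L)} (hR : IsSeriesRed R)
    (r : Place Kbar (FF L) → Place (IsLocalRing.ResidueField A) ↥Fk)
    (hF3 : ∀ D : Divisor Kbar (FF L), 2 * (genusFF Kbar (FF L) : ℤ) - 2 < Divisor.degree D →
      R.W D = riemannRochSpace (K := IsLocalRing.ResidueField A) (Finsupp.mapDomain r D)) :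
    ∀ D : Divisor Kbar (FF L), (∀ σ ∈ rlfI1 A ζ, galFF L σ • D = D) →
      2 * (genusFF Kbar (FF L) : ℤ) - 2 < Divisor.degree D →
      ∀ w ∈ riemannRochSpace (K := IsLocalRing.ResidueField A) (Finsupp.mapDomain r D),
        ∃ s : R.O, (s : FF L) ∈ rlfF1 A ζ L ∧ (s : FF L) ∈ riemannRochSpace (K := Kbar) D ∧
          R.red s = w :=
  fun D hD hdeg w hw =>
    rlf_lift1 hp hA hζ R r hF3 (rdl_hdisc hp hA hζ hR) D hD hdeg w hw

end Fermat.Agent.S33lib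

end
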