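import Mathlib
import Fermat.Agent.S36lib.Speed
import Fermat.Agent.S36lib.ALGen
import Fermat.Agent.S36lib.FixedFF
import Fermat.Agent.S36lib.FixedF0
import Fermat.Agent.S34lib.GalRR
import Fermat.Agent.S34lib.InfPlaceAL
import Fermat.Agent.S34lib.LiftInfMain
import Fermat.Agent.GoodRed.DescZeros

/-!
# Item 86 (S33), block RAY (helper4): the SECOND PLACE `Q` of the abstract K1-lemma

`ray_abs` needs two places `P, Q` fixed by the Galois action with `r P ≠ r Q`.
`P = ∞` (`infPlaceBar L`), `Q = 0 = w_L • ∞` (`rqZero L`, `w_L` the Fricke involution `alQ L L`).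

* `rqW L`, `rqZero L`, `galFF_smul_rqZero` : the cusp `0` is fixed by the arithmetic Galois action;
* `rqZero_ord_jF` : `ord_0 j = -L`;  `rqZero_ne` : `0 ≠ ∞` for `1 < L`;
* `rq_ne_of_pole` : for a place reduction `r` of an `IsSeriesRed` constant reduction at a level
  prime to the residue characteristic, a pole `P' ≠ ∞` of `j` has `r P' ≠ r ∞`;
* `rq_hPQ` : `r ∞ ≠ r 0`.
-/

set_option autoImplicit false
set_option linter.style.haveILetI false
set_option linter.unusedSectionVars false
set_option synthInstance.maxHeartbeats 400000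

noncomputable section

namespace Fermat.Agent.S33lib

open AlgebraicCurve ModularCurve IntermediateField CongruenceSubgroup HahnSeries
open Fermat.Agent.S24lib Fermat.Agent.FFlib Fermat.Agent.RRlib Fermat.Agent.GoodRed
  Fermat.Agent.GM Fermat.Agent.S34lib Fermat.Agent.S36lib
open scoped MatrixGroups

section Cusp

variable (L : ℕ) [NeZero L]

theorem rq_coprime : Nat.Coprime L (L / L) := by
  rw [Nat.div_self (Nat.pos_of_ne_zero (NeZero.ne L))]
  exact Nat.coprime_one_right L

/-- the Fricke involution `w_L` as a semilinear automorphism of `FF L` -/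
def rqW : SemilinearAut Kbar (FF L) :=
  SemilinearAut.ofAlgAut (alQ L L dvd_rfl (rq_coprime L))

theorem rqW_smul (x : FF L) : rqW L • x = alQ L L dvd_rfl (rq_coprime L) x := rfl

theorem rqW_mul_self : rqW L * rqW L = 1 := by
  refine Subtype.ext (Prod.ext (RingEquiv.ext fun x => ?_) rfl)
  exact alQ_involutive L L dvd_rfl (rq_coprime L) x

theorem rqW_inv : (rqW L)⁻¹ = rqW L := inv_eq_of_mul_eq_one_left (rqW_mul_self L)

/-- the arithmetic Galois action fixes the generators `j_d` -/
theorem rq_galFF_jdF (σ : Kbar ≃ₐ[ℚ] Kbar) (d : ℕ) [NeZero d] (hd : d ∣ L) :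
    galFF L σ • jdF L d hd = jdF L d hd :=
  Subtype.ext (coeffMap_coeffEmb σ _)

/-- `w_L` commutes with the arithmetic Galois action -/
theorem rq_comm (σ : Kbar ≃ₐ[ℚ] Kbar) : galFF L σ * rqW L = rqW L * galFF L σ := by
  refine Subtype.ext (Prod.ext (RingEquiv.ext fun x => ?_) ?_)
  · show galFF L σ • (alQ L L dvd_rfl (rq_coprime L) x)
      = alQ L L dvd_rfl (rq_coprime L) (galFF L σ • x)
    have h := alQ_comm L L dvd_rfl (rq_coprime L)
      ((SemilinearAut.toRingAut (galFF L σ) : FF L ≃+* FF L) : FF L →+* FF L)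
      (fun c => ⟨σ c, arithmeticRingAut_algebraMap (modularFunctionFieldFull L) σ c⟩)
      (fun d _ hd => rq_galFF_jdF L σ d hd) x
    exact h.symm
  · show σ.toRingEquiv * 1 = 1 * σ.toRingEquiv
    rw [mul_one, one_mul]

/-- the cusp `0 := w_L • ∞` -/
def rqZero : Place Kbar (FF L) := rqW L • infPlaceBar L

theorem rqW_smul_rqZero : rqW L • rqZero L = infPlaceBar L := by
  rw [rqZero, ← mul_smul, rqW_mul_self, one_smul]

/-- the order at `0` is the order at `∞` of `w_L f` -/
theorem rqZero_ord (f : FF L) :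
    (rqZero L).ord f = (infPlaceBar L).ord (alQ L L dvd_rfl (rq_coprime L) f) := by
  rw [← rqW_smul, ← rqW_smul_rqZero L]
  exact (SemilinearAut.ord_smul (rqW L) (rqZero L) f).symm

/-- **the cusp `0` is fixed by the arithmetic Galois action** -/
theorem galFF_smul_rqZero (σ : Kbar ≃ₐ[ℚ] Kbar) : galFF L σ • rqZero L = rqZero L := by
  rw [rqZero, ← mul_smul, rq_comm, mul_smul, galFF_smul_infPlaceBar]

/-- `ord_0 j = -L` -/
theorem rqZero_ord_jF : (rqZero L).ord (jF L) = -(L : ℤ) := by
  rw [rqZero_ord, alQ_jF, infPlaceBar_ord_jdF]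

/-- `0 ≠ ∞` for `1 < L` -/
theorem rqZero_ne (hL : 1 < L) : rqZero L ≠ infPlaceBar L := by
  intro h
  have h1 := rqZero_ord_jF L
  rw [h, infPlaceBar_ord_jF] at h1
  have : (L : ℤ) = 1 := by omega
  have : L = 1 := by exact_mod_cast this
  omega

end Cusp

section Red

variable {M : ℕ} [NeZero M] {A : ValuationSubring Kbar}
variable {R : ConstRed A (IsLocalRing.residue A) (Fk (IsLocalRing.ResidueField A) M) (FF M)}
variable [IsAlgClosed (IsLocalRing.ResidueField A)]
variable [RRHyp Kbar (FF M)] [RRHyp (IsLocalRing.ResidueField A) (Fk (IsLocalRing.ResidueField A) M)]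
variable {r : Place Kbar (FF M) →
    Place (IsLocalRing.ResidueField A) (Fk (IsLocalRing.ResidueField A) M)}

/-- a pole `P' ≠ ∞` of `j` does not reduce to the reduction of `∞` -/
theorem rq_ne_of_pole (hR : IsSeriesRed R)
    (hD : Nonempty (FiberData (IsLocalRing.ResidueField A) (Fk (IsLocalRing.ResidueField A) M)
      (IsLocalRing.ResidueField A) ((jk (IsLocalRing.ResidueField A) M)⁻¹)
      (SL(2, ℤ) ⧸ Gamma0 M) ModularGroup.T))
    (hr : R.IsPlaceRed r) (hU : r (infPlaceBar M) = infPlaceC (IsLocalRing.ResidueField A) M)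
    {P' : Place Kbar (FF M)} (hP' : P'.ord (jF M) < 0) (hne : P' ≠ infPlaceBar M) :
    r P' ≠ r (infPlaceBar M) := by
  classical
  intro hcon
  set k := IsLocalRing.ResidueField A with hk
  set Q := infPlaceC k M with hQ
  obtain ⟨D, X, hD', hX', hdeg⟩ := liftInf_exists_poles hR hD
  have hnc : R.red ⟨jF M, dw_jF_mem hR⟩ ∉ Set.range (algebraMap k (Fk k M)) := by
    rw [dw_red_jF hR]
    exact dd_jk_nonconst M
  have hmap := hr.mapDomain_poles ⟨jF M, dw_jF_mem hR⟩ hnc hD' hX' hdeg
  have hXQ : X Q = 1 := by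
    rw [hX', dw_red_jF hR, hQ, infPlaceC_ord, coe_jk, inf_order_jqModC]
    norm_num
  have hDnn : ∀ v, 0 ≤ D v := fun v => by rw [hD']; exact le_max_left _ _
  have hDinf : D (infPlaceBar M) = 1 := by
    rw [hD']
    show max 0 (-((infPlaceBar M).ord (jF M))) = 1
    rw [infPlaceBar_ord_jF]
    norm_num
  have hDP' : 0 < D P' := by
    rw [hD']
    show 0 < max 0 (-(P'.ord (jF M)))
    exact lt_max_of_lt_right (by omega)
  set f : Place Kbar (FF M) → ℤ := fun P => if r P = Q then D P else 0 with hf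
  have hfnn : ∀ P, 0 ≤ f P := by
    intro P
    rw [hf]
    show 0 ≤ (if r P = Q then D P else 0)
    split_ifs
    · exact hDnn P
    · exact le_refl _
  have hsum : ∑ P ∈ D.support, f P = 1 := by
    have h := dz_mapDomain_apply r D Q
    rw [hmap, hXQ] at h
    exact h.symm
  have hinfS : infPlaceBar M ∈ D.support := by
    rw [Finsupp.mem_support_iff, hDinf]
    exact one_ne_zero
  have hP'S : P' ∈ D.support.erase (infPlaceBar M) := by
    rw [Finset.mem_erase, Finsupp.mem_support_iff]
    exact ⟨hne, hDP'.ne'⟩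
  have hfinf : f (infPlaceBar M) = 1 := by
    rw [hf]
    show (if r (infPlaceBar M) = Q then D (infPlaceBar M) else 0) = 1
    rw [if_pos hU, hDinf]
  have hfP' : f P' = D P' := by
    rw [hf]
    show (if r P' = Q then D P' else 0) = D P'
    rw [if_pos (hcon.trans hU)]
  have hsplit := Finset.add_sum_erase D.support f hinfS
  have hsplit2 := Finset.add_sum_erase (D.support.erase (infPlaceBar M)) f hP'S
  have hrest : 0 ≤ ∑ P ∈ (D.support.erase (infPlaceBar M)).erase P', f P :=
    Finset.sum_nonneg fun P _ => hfnn P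
  omega

/-- **(hPQ)**: at a level `M > 1` prime to the residue characteristic `q`, the reductions of the
cusps `∞` and `0` are different, for every place reduction of an `IsSeriesRed` constant
reduction. -/
theorem rq_hPQ (q : ℕ) [Fact q.Prime] (hqM : ¬ q ∣ M) (hM : 1 < M) (hA : A.LiesOverPrime q)
    (hR : IsSeriesRed R) (hr : R.IsPlaceRed r) :
    r (infPlaceBar M) ≠ r (rqZero M) := by
  have hD := exists_fiberData_modL' M hqM A hA
  have hU := liftInf_hrInf hR hD hr
  have hpole : (rqZero M).ord (jF M) < 0 := by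
    rw [rqZero_ord_jF]
    have : (0 : ℤ) < M := by exact_mod_cast Nat.pos_of_ne_zero (NeZero.ne M)
    omega
  exact fun h => rq_ne_of_pole hR hD hr hU hpole (rqZero_ne M hM) h.symm

end Red

end Fermat.Agent.S33lib

end
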