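import Mathlib
import Fermat.Agent.S36lib.Speed
import Fermat.Agent.S33lib.RayConc
import Fermat.Agent.S33lib.RayAbs
import Fermat.Agent.S33lib.RayDiscLift
import Fermat.Agent.S33lib.RayQ
import Fermat.Agent.S33lib.RayCan
import Fermat.Agent.S18lib.Normalise
import Fermat.Agent.HeckeBar.BaseChange
import Fermat.Agent.HeckeBar.ModDeg
import Fermat.Agent.GoodRed.ModRR
import Fermat.Agent.GoodRed.Echelon
import Fermat.Agent.RRlib.Modular

/-!
# Item 86 (S33), block RAY: the K1-lemma at the concrete level `M` (helper23).  Complete proofs.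

`M > 1` a level prime to the odd prime `p`, `A | p` a valuation ring of `ℚ̄`, `ζ` a primitive
`p`-th root of unity, `λ = ζ - 1`, `I1 = rlfI1 A ζ` (the inertia elements fixing `ζ`),
`F1 = rlfF1 A ζ M` (the `I1`-fixed functions), `R` an `IsSeriesRed` constant reduction of `FF M`
with a place reduction `r` with the lifting property (F3).

* `rin_ray_ff`  : the abstract K1-lemma `ray_abs` with all its hypotheses discharged
  (DISC, RES1, LIFT1 of helper13/helper4, the second place `Q` = the cusp `0` of helper4):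
  an `I1`-fixed Kummer function `f` (`div f = p D`) which is a constant times a `p`-th power
  modulo `𝔪_O` is of the form `c s ^ p (1 + λ ^ p g)`, `g ∈ O`;
* `rin_ray_pic0` : the same for classes: an `I1`-fixed class `x` with `p x = 0` which has a
  Kummer function of the first kind has a Kummer function `c s ^ p (1 + λ ^ p g)`.
-/

set_option autoImplicit false
set_option linter.unusedSectionVars false
set_option linter.unusedVariables false
set_option linter.style.haveILetI false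
set_option synthInstance.maxHeartbeats 400000

noncomputable section

namespace Fermat.Agent.S33lib

open AlgebraicCurve ModularCurve HahnSeries
open Fermat.Agent.GoodRed Fermat.Agent.S24lib Fermat.Agent.S34lib Fermat.Agent.S36lib
  Fermat.Agent.RRlib Fermat.Agent.FFlib Fermat.Agent.GM Fermat.Agent.HeckeBar Fermat.Agent.S18lib

/-- a root of unity lies in every valuation ring -/
theorem rin_zeta_mem {K : Type*} [Field K] (A : ValuationSubring K) {p : ℕ} (hp : p ≠ 0) {ζ : K}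
    (hζ : ζ ^ p = 1) : ζ ∈ A := by
  rcases A.mem_or_inv_mem ζ with h | h
  · exact h
  · have h1 : ζ = ζ⁻¹ ^ (p - 1) := by
      have hζ0 : ζ ≠ 0 := by
        rintro rfl
        rw [zero_pow hp] at hζ
        exact zero_ne_one hζ
      have h2 : ζ * ζ ^ (p - 1) = 1 := by
        rw [← pow_succ', Nat.sub_add_cancel (Nat.pos_of_ne_zero hp), hζ]
      rw [inv_pow]
      exact eq_inv_of_mul_eq_one_left h2
    rw [h1]
    exact pow_mem h _

section Main

variable {M : ℕ} [NeZero M] {A : ValuationSubring Kbar}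
variable {R : ConstRed A (IsLocalRing.residue A) (Fk (IsLocalRing.ResidueField A) M) (FF M)}
variable [IsAlgClosed (IsLocalRing.ResidueField A)]
variable [RRHyp Kbar (FF M)] [RRHyp (IsLocalRing.ResidueField A) (Fk (IsLocalRing.ResidueField A) M)]
variable {r : Place Kbar (FF M) →
    Place (IsLocalRing.ResidueField A) (Fk (IsLocalRing.ResidueField A) M)}

/-- **the K1-lemma at level `M`** (function form) -/
theorem rin_ray_ff (p : ℕ) [Fact p.Prime] (hpM : ¬ p ∣ M) (hM : 1 < M)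
    (hA : A.LiesOverPrime p) (hR : IsSeriesRed R) (hr : R.IsPlaceRed r)
    (hF3 : ∀ D : Divisor Kbar (FF M), 2 * (genusFF Kbar (FF M) : ℤ) - 2 < Divisor.degree D →
      R.W D = riemannRochSpace (K := IsLocalRing.ResidueField A) (Finsupp.mapDomain r D))
    {ζ : Kbar} (hζ : IsPrimitiveRoot ζ p)
    (f : FF M) (hf1 : f ∈ rlfF1 A ζ M) (hf0 : f ≠ 0) (D : Divisor Kbar (FF M))
    (hD : divOf (K := Kbar) f = p • D)
    (hW : ∃ (c : Kbar) (w : FF M), c ≠ 0 ∧ w ≠ 0 ∧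
      algebraMap Kbar (FF M) c * f * w ^ p - 1 ∈ R.O.nonunits) :
    ∃ (c : Kbar) (s g : FF M), c ≠ 0 ∧ s ≠ 0 ∧ g ∈ R.O ∧
      f = algebraMap Kbar (FF M) c * s ^ p * (1 + algebraMap Kbar (FF M) ((ζ - 1) ^ p) * g) := by
  have hp : p.Prime := Fact.out
  have hζA : ζ ∈ A := rin_zeta_mem A hp.ne_zero hζ.pow_eq_one
  refine ray_abs R (rlfF1 A ζ M) hr hp (rdl_hlam0 hp hζ) (rdl_hlamA hp hA hζ)
    (rpw_p_eq hp hζ A hζA) (rccG M (rlfI1 A ζ)) ?_ rdl_hlam1 (rdl_hdisc hp hA hζ hR)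
    (rdl_hres1 hp hA) ?_ (P := infPlaceBar M) (Q := rqZero M) (rcc_hP M _) ?_
    (rq_hPQ p hpM hM hA hR hr) f hf1 hf0 D hD hW
  · intro x hx
    rw [rcc_forall_G]
    exact rdl_hF1 x hx
  · intro D hDG
    rw [rcc_forall_G] at hDG
    exact rdl_hlift hp hA hζ hR r hF3 D hDG
  · rw [rcc_forall_G]
    intro τ _
    exact galFF_smul_rqZero M τ

end Main

section Aux

variable {M : ℕ} [NeZero M] {A : ValuationSubring Kbar}
variable {R : ConstRed A (IsLocalRing.residue A) (Fk (IsLocalRing.ResidueField A) M) (FF M)}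

theorem rin_one_lt_of_aux {p : ℕ} (haux : IsAuxLevel p M) : 1 < M := by
  have h1 : baseLevel p ∣ M := baseLevel_dvd haux
  have h2 : 4 ≤ baseLevel p := by
    unfold baseLevel
    split_ifs <;> norm_num
  have h3 : baseLevel p ≤ M := Nat.le_of_dvd (Nat.pos_of_ne_zero (NeZero.ne M)) h1
  omega

/-- a function whose orders are all divisible by `p` has a divisor divisible by `p` -/
theorem rin_exists_div {K F : Type*} [Field K] [Field F] [Algebra K F] [RRBase K F] (p : ℕ)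
    (f : F) (hD : ∀ v : Place K F, (p : ℤ) ∣ v.ord f) :
    ∃ D : Divisor K F, divOf (K := K) f = p • D := by
  refine ⟨(divOf (K := K) f).mapRange (fun n => n / (p : ℤ)) (by simp), ?_⟩
  ext v
  rw [Finsupp.smul_apply, Finsupp.mapRange_apply, nsmul_eq_mul, divOf_apply' f v]
  exact (Int.mul_ediv_cancel' (hD v)).symm

/-- **the K1-lemma at an auxiliary level `M`** (function form; the place reduction is provided by
`liftInf_exists_r`) -/
theorem rin_ray_aux (p : ℕ) [Fact p.Prime] (haux : IsAuxLevel p M)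
    (hA : A.LiesOverPrime p) (hR : IsSeriesRed R)
    {ζ : Kbar} (hζ : IsPrimitiveRoot ζ p)
    (f : FF M) (hf1 : f ∈ rlfF1 A ζ M) (hf0 : f ≠ 0)
    (hD : ∀ v : Place Kbar (FF M), (p : ℤ) ∣ v.ord f)
    (hW : ∃ (c : Kbar) (w : FF M), c ≠ 0 ∧ w ≠ 0 ∧
      algebraMap Kbar (FF M) c * f * w ^ p - 1 ∈ R.O.nonunits) :
    ∃ (c : Kbar) (s g : FF M), c ≠ 0 ∧ s ≠ 0 ∧ g ∈ R.O ∧
      f = algebraMap Kbar (FF M) c * s ^ p * (1 + algebraMap Kbar (FF M) ((ζ - 1) ^ p) * g) := by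
  haveI : IsAlgClosed (IsLocalRing.ResidueField A) := isAlgClosed_residueField A
  haveI : RRHyp Kbar (FF M) := mod_rrHyp M
  haveI : RRHyp (IsLocalRing.ResidueField A) (Fk (IsLocalRing.ResidueField A) M) :=
    mr_rrHyp (IsLocalRing.ResidueField A) M
  obtain ⟨r, hr, hF3, -, -⟩ := liftInf_exists_r p haux hA hR
  obtain ⟨D, hD'⟩ := rin_exists_div (K := Kbar) p f hD
  exact rin_ray_ff p haux.1 (rin_one_lt_of_aux haux) hA hR hr hF3 hζ f hf1 hf0 D hD' hW

end Aux

section Class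

variable {M' M : ℕ} [NeZero M'] [NeZero M] {A : ValuationSubring Kbar}
variable {R : ConstRed A (IsLocalRing.residue A) (Fk (IsLocalRing.ResidueField A) M) (FF M)}

/-- the inclusion `F_{M'} → F_M` preserves `I1`-fixed functions -/
theorem rin_inclBar_mem (hNM : M' ∣ M) (ζ : Kbar) {f : FF M'} (hf : f ∈ rlfF1 A ζ M') :
    inclBar M' M hNM f ∈ rlfF1 A ζ M := by
  rw [mem_rlfF1_iff_coeff] at hf ⊢
  intro n
  rw [coe_inclBar]
  exact hf n

/-- orders divisible by `p` stay divisible by `p` in an extension -/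
theorem rin_dvd_ord_inclBar (hNM : M' ∣ M) (p : ℕ) (D : Divisor Kbar (FF M')) {u : FF M'}
    (hD : ∀ v : Place Kbar (FF M'), (p : ℤ) * D v = v.ord u) (w : Place Kbar (FF M)) :
    (p : ℤ) ∣ w.ord (inclBar M' M hNM u) := by
  haveI : RRHyp Kbar (FF M) := mod_rrHyp M
  haveI : HasPrincipalDivisors Kbar (FF M) := ⟨RRBase.principal⟩
  have hint : (inclBar M' M hNM).toRingHom.IsIntegral := isIntegral_inclBar M' M hNM
  have h1 : ∀ v : Place Kbar (FF M'), (p • D) v = v.ord u := by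
    intro v
    rw [Finsupp.smul_apply, nsmul_eq_mul, hD v]
  have h2 := Fermat.Agent.HeckeBar.pullbackAlong_apply_eq_ord (inclBar M' M hNM) hint h1 w
  rw [map_nsmul, Finsupp.smul_apply, nsmul_eq_mul] at h2
  rw [← h2]
  exact dvd_mul_right _ _

/-- **(RAYJ), function form with mixed levels**: `x` a class of level `M'` killed by `p` and fixed
by `I1`, with a Kummer function `u` such that `ι u` is a constant times a `p`-th power modulo
`𝔪_O` at the auxiliary level `M` (`ι : F_{M'} → F_M`).  Then `x` has an `I1`-fixed Kummer function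
`u'` with `ι u' = c s ^ p (1 + λ ^ p g)`, `g ∈ O`. -/
theorem rin_rayj (hNM : M' ∣ M) (p : ℕ) [Fact p.Prime] (haux : IsAuxLevel p M)
    (hA : A.LiesOverPrime p) (hR : IsSeriesRed R)
    {ζ : Kbar} (hζ : IsPrimitiveRoot ζ p)
    (x : JZero M') (hx : ∀ τ ∈ rlfI1 A ζ, τ • x = x) (hpx : p • x = 0)
    (hker : ∃ (D : Divisor.degZero (K := Kbar) (F := FF M')) (u : FF M'), Pic0.mk D = x ∧ u ≠ 0 ∧
      (∀ v : Place Kbar (FF M'), (p : ℤ) * (D : Divisor Kbar (FF M')) v = v.ord u) ∧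
      ∃ (c : Kbar) (w : FF M), c ≠ 0 ∧ w ≠ 0 ∧
        algebraMap Kbar (FF M) c * inclBar M' M hNM u * w ^ p - 1 ∈ R.O.nonunits) :
    ∃ (D : Divisor.degZero (K := Kbar) (F := FF M')) (u : FF M'), Pic0.mk D = x ∧ u ≠ 0 ∧
      (∀ v : Place Kbar (FF M'), (p : ℤ) * (D : Divisor Kbar (FF M')) v = v.ord u) ∧
      (∀ τ ∈ rlfI1 A ζ, galFF M' τ • (D : Divisor Kbar (FF M')) = (D : Divisor Kbar (FF M'))) ∧
      u ∈ rlfF1 A ζ M' ∧
      ∃ (c : Kbar) (s g : FF M), c ≠ 0 ∧ s ≠ 0 ∧ g ∈ R.O ∧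
        inclBar M' M hNM u
          = algebraMap Kbar (FF M) c * s ^ p * (1 + algebraMap Kbar (FF M) ((ζ - 1) ^ p) * g) := by
  haveI : RRHyp Kbar (FF M') := mod_rrHyp M'
  have hp : p.Prime := Fact.out
  obtain ⟨D₀, u₀, hD₀, hu₀, hdiv₀, c₀, w₀, hc₀, hw₀, hW₀⟩ := hker
  -- CAN: an `I1`-fixed Kummer function
  have hxG : ∀ g ∈ rccG M' (rlfI1 A ζ), g • x = x := by
    rw [rcc_forall_G]
    intro τ hτ
    exact hx τ hτ
  obtain ⟨D₁, f₁, hD₁, hD₁G, hf₁0, hf₁G, hdiv₁⟩ :=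
    rcn_pic0 (rccG M' (rlfI1 A ζ)) (infPlaceBar M') (rcc_hP M' _) (rccLc M')
      (rcc_lc_ne_zero M') (rcc_lc_mul M') (rcc_hlcG M' _) p x hxG hpx
  rw [rcc_forall_G] at hD₁G hf₁G
  have hf₁1 : f₁ ∈ rlfF1 A ζ M' := (mem_rlfF1_iff A ζ M' f₁).mpr hf₁G
  have hdiv₁' : ∀ v : Place Kbar (FF M'), (p : ℤ) * (D₁ : Divisor Kbar (FF M')) v = v.ord f₁ := by
    intro v
    rw [← divOf_apply hf₁0 v, hdiv₁, Finsupp.smul_apply, nsmul_eq_mul]
  -- comparison of the two Kummer functions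
  have hpr : (D₁ : Divisor Kbar (FF M')) - (D₀ : Divisor Kbar (FF M'))
      ∈ Divisor.principal (K := Kbar) (F := FF M') := by
    rw [← rcn_mk_eq_mk_iff, hD₁, hD₀]
  obtain ⟨t, ht0, htdiv⟩ := rcn_exists_divOf hpr
  have hut0 : u₀ * t ^ p ≠ 0 := mul_ne_zero hu₀ (pow_ne_zero p ht0)
  have hord : ∀ v : Place Kbar (FF M'), v.ord (f₁ * (u₀ * t ^ p)⁻¹) = 0 := by
    intro v
    have ht := DFunLike.congr_fun htdiv v
    rw [divOf_apply ht0 v, Finsupp.sub_apply] at ht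
    rw [Place.ord_mul _ hf₁0 (inv_ne_zero hut0), Place.ord_inv,
      Place.ord_mul _ hu₀ (pow_ne_zero p ht0), ord_pow_nat, ← hdiv₁' v, ← hdiv₀ v, ht]
    ring
  obtain ⟨a, ha⟩ := RRBase.const_of_forall_ord_nonneg (K := Kbar)
    (f₁ * (u₀ * t ^ p)⁻¹) (fun v => (hord v).ge)
  have hf₁eq : f₁ = algebraMap Kbar (FF M') a * (u₀ * t ^ p) := by
    rw [ha, mul_assoc, inv_mul_cancel₀ hut0, mul_one]
  have ha0 : a ≠ 0 := by
    rintro rfl
    rw [map_zero, zero_mul] at hf₁eq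
    exact hf₁0 hf₁eq
  -- at the auxiliary level
  set ι := inclBar M' M hNM with hι
  have hιt0 : ι t ≠ 0 := (map_ne_zero ι).mpr ht0
  have hιf₁ : ι f₁ = algebraMap Kbar (FF M) a * (ι u₀ * ι t ^ p) := by
    rw [hf₁eq, map_mul, map_mul, map_pow, AlgHom.commutes]
  have hW₁ : ∃ (c : Kbar) (w : FF M), c ≠ 0 ∧ w ≠ 0 ∧
      algebraMap Kbar (FF M) c * ι f₁ * w ^ p - 1 ∈ R.O.nonunits := by
    refine ⟨c₀ * a⁻¹, w₀ * (ι t)⁻¹, mul_ne_zero hc₀ (inv_ne_zero ha0),
      mul_ne_zero hw₀ (inv_ne_zero hιt0), ?_⟩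
    have ha' : algebraMap Kbar (FF M) a ≠ 0 :=
      (map_ne_zero_iff _ (algebraMap Kbar (FF M)).injective).mpr ha0
    have hcalc : algebraMap Kbar (FF M) (c₀ * a⁻¹) * ι f₁ * (w₀ * (ι t)⁻¹) ^ p
        = algebraMap Kbar (FF M) c₀ * ι u₀ * w₀ ^ p := by
      rw [hιf₁, map_mul, map_inv₀, mul_pow, inv_pow]
      field_simp
    rw [hcalc]
    exact hW₀
  obtain ⟨c, s, g, hc, hs, hg, hfin⟩ := rin_ray_aux p haux hA hR hζ (ι f₁)
    (rin_inclBar_mem hNM ζ hf₁1) ((map_ne_zero ι).mpr hf₁0)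
    (rin_dvd_ord_inclBar hNM p (D₁ : Divisor Kbar (FF M')) hdiv₁') hW₁
  exact ⟨D₁, f₁, hD₁, hf₁0, hdiv₁', hD₁G, hf₁1, c, s, g, hc, hs, hg, hfin⟩

end Class

end Fermat.Agent.S33lib

end
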