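/-
Item 86 (S33), piece R3: the crux for `m = p`, the residue characteristic (helper8).
Complete proofs.  Imports Mathlib and the abstract sup-norm setting `SSRed` of S34lib/CruxSS.

Setting: `S : SSRed A π R F` (a subring `O ⊂ F` with a reduction `red : O → R` into a `k`-algebra
and orthonormal bases), `p` a prime with `p = 0` in `k`, `p ≠ 0` in `K`.

`cxp_crux`: the crux of S18/S34 for `m = p`: finite-dimensional `V₁, V₂, W₁, W₂ ⊂ F`,
`u = 1 + a g` with `g ∈ O` and `|a|^(p-1) < |p|^p` (LEVEL `> v* = v(p) p/(p-1)`), hypotheses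
(H1)–(H7)  ⟹  `V₁ ⊓ V₂ ≠ ⊥`.
Application: `V_i = L(D_i + E)`, `W_i = L(p D_i)`, `p E = div u`: then `L(E) = V₁ ⊓ V₂ ≠ 0`.

Proof: a bad `f` is normalised to `s₁ - s₂ = c f` (`SSRed.normalise`).
* linear regime `|c|^(p-1) < |p|`: `s₁^p - s₂^p = p c (f + small)`; the S18 argument;
* Frobenius / Artin–Schreier regime `|p| ≤ |c|^(p-1)`, `p = c^(p-1) b`:
  `s₁^p - s₂^p = c^p (f^p + b f + small)`, `u s_i^p = γ + c^p h_i` (`cxp_split`); the level of `u`
  gives `s_i^p = γ + c^p h_i'`, `red h_i' = red h_i`, and `cxp_decomp` shows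
  `red h_i = t_i^p + β t_i + const` (`β = π b`); with (H6), (H7): `red f ∈ red V₁ - red V₂`.
Declarations are prefixed `cxp_`.
-/
import Mathlib
import Fermat.Agent.S34lib.CruxSS

set_option autoImplicit false
set_option linter.unusedVariables false
set_option linter.unusedSectionVars false
set_option linter.style.haveILetI false

noncomputable section

namespace Fermat.Agent.S33lib

open Fermat.Agent.S34lib

/-- binomial expansion of a `p`-th power, with control of the reduction of the cofactor -/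
theorem cxp_expand {B R' : Type*} [CommRing B] [CommRing R'] (φ : B →+* R') {p : ℕ}
    (hp : p.Prime) (x y : B) (hx : φ x = 0) (hy : φ y = 1) :
    ∃ r : B, (x + y) ^ p = x ^ p + y ^ p + (p : B) * x * y * r ∧ φ r = 1 := by
  refine ⟨_, add_pow_prime_eq hp x y, ?_⟩
  rw [map_sum, Finset.sum_eq_single 1]
  · simp [hy, Nat.choose_one_right, Nat.div_self hp.pos]
  · intro j hj hj1
    obtain ⟨hj0, -⟩ := Finset.mem_Ioo.mp hj
    have h2 : j - 1 ≠ 0 := by omega
    simp [hx, h2]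
  · intro h
    exact absurd (Finset.mem_Ioo.mpr ⟨Nat.one_pos, hp.one_lt⟩) h

variable {K F k : Type*} [Field K] [Field F] [Algebra K F] [Field k]
variable {R : Type*} [CommRing R] [Algebra k R]
variable {A : ValuationSubring K} {π : A →+* k} (S : SSRed A π R F)

/-- a constant of `K` which lies in `O` lies in `A` -/
theorem cxp_mem_of_algebraMap_mem [Nontrivial R] (a : K) (h : algebraMap K F a ∈ S.O) : a ∈ A := by
  classical
  have hli : LinearIndependent k (fun _ : Unit => S.red (1 : S.O)) := by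
    rw [map_one]
    exact linearIndependent_unique_iff.mpr one_ne_zero
  refine S.coeff_mem_of_sum_mem (fun _ : Unit => (1 : S.O)) hli Finset.univ (fun _ => a) ?_ ()
    (Finset.mem_univ _)
  simpa [Algebra.smul_def] using h

/-- an element of `O` which is a constant of `K` is of the form `C κ` -/
theorem cxp_eq_C_of_coe_eq [Nontrivial R] (Y : S.O) (a : K) (h : (Y : F) = algebraMap K F a) :
    ∃ κ : A, Y = S.C κ := by
  have ha : a ∈ A := cxp_mem_of_algebraMap_mem S a (h ▸ Y.2)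
  exact ⟨⟨a, ha⟩, Subtype.ext h⟩

theorem cxp_C_mul (a b : A) : S.C (a * b) = S.C a * S.C b := by
  apply Subtype.ext
  show algebraMap K F ((a : K) * (b : K)) = algebraMap K F a * algebraMap K F b
  rw [map_mul]

theorem cxp_C_pow (a : A) (n : ℕ) : S.C (a ^ n) = S.C a ^ n := by
  apply Subtype.ext
  show algebraMap K F ((a : K) ^ n) = (algebraMap K F a) ^ n
  rw [map_pow]

theorem cxp_C_natCast (n : ℕ) : S.C ((n : ℕ) : A) = ((n : ℕ) : S.O) := by
  apply Subtype.ext
  show algebraMap K F (((n : ℕ) : A) : K) = (((n : ℕ) : S.O) : F)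
  simp

theorem cxp_C_sub (a b : A) : S.C (a - b) = S.C a - S.C b := by
  apply Subtype.ext
  show algebraMap K F ((a : K) - (b : K)) = algebraMap K F a - algebraMap K F b
  rw [map_sub]

theorem cxp_C_injective : Function.Injective (S.C : A → S.O) := by
  intro a b h
  have h1 : algebraMap K F (a : K) = algebraMap K F (b : K) := congrArg Subtype.val h
  exact Subtype.ext ((algebraMap K F).injective h1)

/-- cancellation of a nonzero constant -/
theorem cxp_C_mul_cancel {d : A} (hd : (d : K) ≠ 0) {x y : S.O} (h : S.C d * x = S.C d * y) :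
    x = y := by
  apply Subtype.ext
  have h1 : algebraMap K F (d : K) * (x : F) = algebraMap K F (d : K) * (y : F) :=
    congrArg Subtype.val h
  have h2 : algebraMap K F (d : K) ≠ 0 := by
    rw [Ne, map_eq_zero_iff _ (algebraMap K F).injective]
    exact hd
  exact mul_left_cancel₀ h2 h1

/-- **splitting**: if `f₁ ∈ W₁ ∩ O`, `f₂ ∈ W₂ ∩ O` differ by `d · G`, `G ∈ O`, then
`f_i = γ + d h_i` with a constant `γ` and `h_i ∈ W_i ∩ O`. -/
theorem cxp_split [Nontrivial R] (W₁ W₂ : Submodule K F) [Module.Finite K W₁]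
    (h1W : (1 : F) ∈ W₁ ∧ (1 : F) ∈ W₂)
    (h4 : ∀ x₁ x₂ : S.O, (x₁ : F) ∈ W₁ → (x₂ : F) ∈ W₂ → S.red x₁ = S.red x₂ →
      S.red x₁ ∈ Set.range (algebraMap k R))
    (f₁ f₂ G : S.O) (hf₁W : (f₁ : F) ∈ W₁) (hf₂W : (f₂ : F) ∈ W₂)
    (d : A) (hd0 : (d : K) ≠ 0) (hdiff : f₁ - f₂ = S.C d * G) :
    ∃ (γ : A) (h₁ h₂ : S.O), (h₁ : F) ∈ W₁ ∧ (h₂ : F) ∈ W₂ ∧
      f₁ = S.C γ + S.C d * h₁ ∧ f₂ = S.C γ + S.C d * h₂ ∧ h₁ - h₂ = G := by
  classical
  obtain ⟨h3c, h3d⟩ := h1W
  obtain ⟨nW, w, hws, hw⟩ := S.exists_orthonormal W₁ inferInstance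
  have hwW : ∀ j, ((w j : S.O) : F) ∈ W₁ := fun j => by
    rw [← hws]; exact Submodule.subset_span ⟨j, rfl⟩
  obtain ⟨o, ho, hored⟩ := S.coords w hw W₁ hws 1 (by simpa using h3c)
  rw [map_one] at hored
  obtain ⟨j₁, hj₁⟩ : ∃ j₁, π (o j₁) ≠ 0 := by
    by_contra hcon
    have hall : ∀ j, π (o j) = 0 := fun j => by
      by_contra h
      exact hcon ⟨j, h⟩
    rw [Finset.sum_eq_zero (fun j _ => by rw [hall j, zero_smul])] at hored
    exact one_ne_zero hored
  obtain ⟨y, hy, -⟩ := S.coords w hw W₁ hws f₁ hf₁W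
  obtain ⟨oinv, hoinv⟩ := S.exists_inv (o j₁) hj₁
  set γ : A := y j₁ * oinv with hγ
  set z : Fin nW → A := fun j => y j - γ * o j with hz
  have hz₁ : z j₁ = 0 := by
    show y j₁ - y j₁ * oinv * o j₁ = 0
    rw [mul_assoc, mul_comm oinv, hoinv, mul_one, sub_self]
  have hfz : ((f₁ : S.O) : F) - algebraMap K F (γ : K) =
      ∑ j, ((z j : A) : K) • ((w j : S.O) : F) := by
    have h1 : algebraMap K F (γ : K) = ∑ j, ((γ * o j : A) : K) • ((w j : S.O) : F) := by
      have : (1 : F) = ∑ j, ((o j : A) : K) • ((w j : S.O) : F) := by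
        rw [← ho]; rfl
      calc algebraMap K F (γ : K) = (γ : K) • (1 : F) := by rw [Algebra.smul_def, mul_one]
        _ = ∑ j, ((γ * o j : A) : K) • ((w j : S.O) : F) := by
          rw [this, Finset.smul_sum]
          refine Finset.sum_congr rfl fun j _ => ?_
          rw [smul_smul]
          rfl
    rw [hy, h1, ← Finset.sum_sub_distrib]
    refine Finset.sum_congr rfl fun j _ => ?_
    rw [← sub_smul]
    rfl
  have hγW₂ : algebraMap K F (γ : K) ∈ W₂ := by
    rw [Algebra.algebraMap_eq_smul_one]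
    exact W₂.smul_mem _ h3d
  have hgeom : ((f₁ : S.O) : F) - ((f₂ : S.O) : F) = algebraMap K F (d : K) * ((G : S.O) : F) :=
    congrArg Subtype.val hdiff
  -- KEY: every `z j` is divisible by `d`
  have hkey : ∀ j, A.valuation ((z j : A) : K) ≤ A.valuation (d : K) := by
    by_contra hcon
    rw [not_forall] at hcon
    obtain ⟨jb, hjb⟩ := hcon
    rw [not_le] at hjb
    obtain ⟨j₀, -, hmax⟩ := Finset.exists_max_image Finset.univ
      (fun j => A.valuation ((z j : A) : K)) ⟨jb, Finset.mem_univ _⟩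
    have hj₀ : A.valuation (d : K) < A.valuation ((z j₀ : A) : K) :=
      lt_of_lt_of_le hjb (hmax jb (Finset.mem_univ _))
    have hz₀ : ((z j₀ : A) : K) ≠ 0 := by
      intro h0
      rw [h0, map_zero] at hj₀
      exact not_lt_zero hj₀
    have hζ : ∀ j, ∃ ζ : A, z j = z j₀ * ζ := fun j =>
      SSRed.ss_dvd_of_val_le hz₀ (hmax j (Finset.mem_univ _))
    choose ζ hζ' using hζ
    obtain ⟨κ, hκ⟩ : ∃ κ : A, d = z j₀ * κ := SSRed.ss_dvd_of_val_le hz₀ hj₀.le
    have hπκ : π κ = 0 := by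
      rw [S.π_eq_zero_iff, ValuationSubring.mem_nonunits_iff]
      have h1 : (d : K) = (z j₀ : K) * (κ : K) := congrArg Subtype.val hκ
      have h2 : A.valuation (d : K) = A.valuation (z j₀ : K) * A.valuation (κ : K) := by
        rw [h1, map_mul]
      by_contra hge
      rw [not_lt] at hge
      have h3 : A.valuation (z j₀ : K) ≤ A.valuation (d : K) := by
        rw [h2]
        calc A.valuation (z j₀ : K) = A.valuation (z j₀ : K) * 1 := (mul_one _).symm
          _ ≤ A.valuation (z j₀ : K) * A.valuation (κ : K) := by gcongr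
      exact not_le.mpr hj₀ h3
    have hζ₀ : ζ j₀ = 1 := by
      have h1 := hζ' j₀
      have h2 : ((z j₀ : A) : K) * 1 = ((z j₀ : A) : K) * ((ζ j₀ : A) : K) := by
        rw [mul_one]
        exact congrArg Subtype.val h1
      exact Subtype.ext (mul_left_cancel₀ hz₀ h2).symm
    have hζ₁ : ζ j₁ = 0 := by
      have h1 := hζ' j₁
      rw [hz₁] at h1
      have h2 : ((z j₀ : A) : K) * ((ζ j₁ : A) : K) = 0 := (congrArg Subtype.val h1).symm
      rcases mul_eq_zero.mp h2 with h | h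
      · exact absurd h hz₀
      · exact Subtype.ext h
    set g₁ : S.O := S.lsum ζ w with hg₁
    have hg₁W : (g₁ : F) ∈ W₁ := S.lsum_mem ζ w W₁ hwW
    have hg₁eq : algebraMap K F (z j₀ : K) * (g₁ : F) =
        ((f₁ : S.O) : F) - algebraMap K F (γ : K) := by
      rw [hfz, hg₁, S.coe_lsum, Finset.mul_sum]
      refine Finset.sum_congr rfl fun j _ => ?_
      rw [hζ' j, ← Algebra.smul_def, smul_smul]
      rfl
    set g₂ : S.O := g₁ - S.C κ * G with hg₂
    have hg₂red : S.red g₂ = S.red g₁ := by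
      rw [hg₂, map_sub, map_mul, S.red_C, hπκ, map_zero, zero_mul, sub_zero]
    have hg₂eq : algebraMap K F (z j₀ : K) * (g₂ : F) =
        ((f₂ : S.O) : F) - algebraMap K F (γ : K) := by
      have h1 : ((g₂ : S.O) : F) = (g₁ : F) - algebraMap K F (κ : K) * ((G : S.O) : F) :=
        rfl
      have h3 : algebraMap K F (d : K) = algebraMap K F (z j₀ : K) * algebraMap K F (κ : K) := by
        rw [← map_mul]
        exact congrArg (algebraMap K F) (congrArg Subtype.val hκ)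
      rw [h1, mul_sub, hg₁eq, ← mul_assoc, ← h3, ← hgeom]
      ring
    have hg₂W : (g₂ : F) ∈ W₂ := by
      have h1 : (g₂ : F) = ((z j₀ : K))⁻¹ • (((f₂ : S.O) : F) - algebraMap K F (γ : K)) := by
        rw [← hg₂eq, Algebra.smul_def, ← mul_assoc, ← map_mul, inv_mul_cancel₀ hz₀, map_one,
          one_mul]
      rw [h1]
      exact W₂.smul_mem _ (W₂.sub_mem hf₂W hγW₂)
    obtain ⟨a, ha⟩ := h4 g₁ g₂ hg₁W hg₂W hg₂red.symm
    have hcmp : ∑ j, π (ζ j) • S.red (w j) = ∑ j, (a * π (o j)) • S.red (w j) := by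
      rw [← S.red_lsum, ← hg₁, ← ha, Algebra.algebraMap_eq_smul_one, hored, Finset.smul_sum]
      refine Finset.sum_congr rfl fun j _ => ?_
      rw [smul_smul]
    have hco := fun j => hw.eq_coords_of_eq hcmp j
    have ha0 : a = 0 := by
      have h1 := hco j₁
      rw [hζ₁, map_zero] at h1
      rcases mul_eq_zero.mp h1.symm with h | h
      · exact h
      · exact absurd h hj₁
    have h0 := hco j₀
    rw [hζ₀, map_one, ha0, zero_mul] at h0
    exact one_ne_zero h0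
  have hz' : ∀ j, ∃ z' : A, z j = d * z' := fun j => SSRed.ss_dvd_of_val_le hd0 (hkey j)
  choose z' hz'' using hz'
  set h₁ : S.O := S.lsum z' w with hh₁
  have hh₁W : (h₁ : F) ∈ W₁ := S.lsum_mem z' w W₁ hwW
  have hh₁eq : algebraMap K F (d : K) * (h₁ : F) =
      ((f₁ : S.O) : F) - algebraMap K F (γ : K) := by
    rw [hfz, hh₁, S.coe_lsum, Finset.mul_sum]
    refine Finset.sum_congr rfl fun j _ => ?_
    rw [hz'' j, ← Algebra.smul_def, smul_smul]
    rfl
  set h₂ : S.O := h₁ - G with hh₂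
  have hh₂eq : algebraMap K F (d : K) * (h₂ : F) =
      ((f₂ : S.O) : F) - algebraMap K F (γ : K) := by
    have h1 : ((h₂ : S.O) : F) = (h₁ : F) - ((G : S.O) : F) := rfl
    rw [h1, mul_sub, hh₁eq, ← hgeom]
    ring
  have hh₂W : (h₂ : F) ∈ W₂ := by
    have h1 : (h₂ : F) = ((d : K))⁻¹ • (((f₂ : S.O) : F) - algebraMap K F (γ : K)) := by
      rw [← hh₂eq, Algebra.smul_def, ← mul_assoc, ← map_mul, inv_mul_cancel₀ hd0, map_one,
        one_mul]
    rw [h1]
    exact W₂.smul_mem _ (W₂.sub_mem hf₂W hγW₂)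
  refine ⟨γ, h₁, h₂, hh₁W, hh₂W, ?_, ?_, ?_⟩
  · apply Subtype.ext
    show (f₁ : F) = algebraMap K F (γ : K) + algebraMap K F (d : K) * (h₁ : F)
    rw [hh₁eq]; ring
  · apply Subtype.ext
    show (f₂ : F) = algebraMap K F (γ : K) + algebraMap K F (d : K) * (h₂ : F)
    rw [hh₂eq]; ring
  · rw [hh₂]; ring

/-- the algebra behind `cxp_decomp`: if `s = e t + λ`, `c = e κ₀`, `p = c^(p-1) b` and
`s^p = γ + c^p h'`, then `t^p + κ₀^(p-1) b t λ r - κ₀^p h'` is a constant. -/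
theorem cxp_aux [Nontrivial R] {p : ℕ} (hp : p.Prime) (c b e κ₀ lam γ : A) (he0 : (e : K) ≠ 0)
    (hc : c = e * κ₀) (hpb : ((p : ℕ) : A) = c ^ (p - 1) * b)
    (s t h' r : S.O) (hr : s ^ p = (S.C e * t) ^ p + S.C lam ^ p
      + ((p : ℕ) : S.O) * (S.C e * t) * S.C lam * r)
    (hsp : s ^ p = S.C γ + S.C c ^ p * h') :
    ∃ κ₁ : A, t ^ p + S.C (κ₀ ^ (p - 1) * b) * t * S.C lam * r - S.C (κ₀ ^ p) * h' = S.C κ₁ := by
  have hp1 : p - 1 + 1 = p := Nat.sub_add_cancel hp.pos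
  have hPA : ((p : ℕ) : A) * e = e ^ p * (κ₀ ^ (p - 1) * b) := by
    rw [hpb, hc, mul_pow]
    calc e ^ (p - 1) * κ₀ ^ (p - 1) * b * e = e ^ (p - 1 + 1) * (κ₀ ^ (p - 1) * b) := by
          rw [pow_succ]; ring
      _ = e ^ p * (κ₀ ^ (p - 1) * b) := by rw [hp1]
  have hP : ((p : ℕ) : S.O) * S.C e = S.C e ^ p * S.C (κ₀ ^ (p - 1) * b) := by
    rw [← cxp_C_natCast S, ← cxp_C_mul, hPA, cxp_C_mul, cxp_C_pow]
  have hcp : S.C c ^ p = S.C e ^ p * S.C (κ₀ ^ p) := by
    rw [hc, cxp_C_mul, mul_pow, cxp_C_pow S κ₀]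
  set Y : S.O := t ^ p + S.C (κ₀ ^ (p - 1) * b) * t * S.C lam * r - S.C (κ₀ ^ p) * h' with hY
  have hmain : S.C e ^ p * Y = S.C (γ - lam ^ p) := by
    rw [cxp_C_sub, cxp_C_pow S lam, hY]
    have e1 : S.C e ^ p * (t ^ p + S.C (κ₀ ^ (p - 1) * b) * t * S.C lam * r
        - S.C (κ₀ ^ p) * h')
        = (S.C e * t) ^ p + (S.C e ^ p * S.C (κ₀ ^ (p - 1) * b)) * t * S.C lam * r
          - (S.C e ^ p * S.C (κ₀ ^ p)) * h' := by
      rw [mul_pow]; ring
    rw [e1, ← hP, ← hcp]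
    have e2 : (S.C e * t) ^ p + ((p : ℕ) : S.O) * S.C e * t * S.C lam * r
        = s ^ p - S.C lam ^ p := by
      rw [hr]; ring
    rw [e2, hsp]; ring
  have hep : ((e : K) ^ p) ≠ 0 := pow_ne_zero _ he0
  have hcoe : (Y : F) = algebraMap K F (((γ - lam ^ p : A) : K) / (e : K) ^ p) := by
    have h1 : algebraMap K F ((e : K) ^ p) * (Y : F) = algebraMap K F ((γ - lam ^ p : A) : K) := by
      have := congrArg Subtype.val hmain
      simpa [SSRed.coe_C, map_pow] using this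
    have h2 : algebraMap K F ((e : K) ^ p) ≠ 0 := by
      rw [Ne, map_eq_zero_iff _ (algebraMap K F).injective]
      exact hep
    rw [map_div₀, eq_div_iff h2, mul_comm]
    exact h1
  exact cxp_eq_C_of_coe_eq S Y _ hcoe

/-- **decomposition**: if `s ∈ O`, `red s = 1` and `s^p = γ + c^p h'` with `p = c^(p-1) b`, then
`red h' = t^p + β t + const` with `t ∈ red O`, `β = π b`. -/
theorem cxp_decomp [Nontrivial R] {p : ℕ} (hp : p.Prime)
    (h70 : ∀ (z : R) (κ : k), z ^ p = algebraMap k R κ → z ∈ Set.range (algebraMap k R))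
    (c b : A) (hc0 : (c : K) ≠ 0) (hπc : π c = 0) (hpb : ((p : ℕ) : A) = c ^ (p - 1) * b)
    (s h' : S.O) (hs : S.red s = 1) (γ : A) (hsp : s ^ p = S.C γ + S.C c ^ p * h') :
    ∃ (t : S.O) (κ : A),
      S.red h' = S.red t ^ p + algebraMap k R (π b) * S.red t + algebraMap k R (π κ) := by
  classical
  set U : Submodule K F := Submodule.span K {(1 : F), (s : F)} with hU
  have h1U : (1 : F) ∈ U := Submodule.subset_span (Set.mem_insert _ _)
  have hsU : (s : F) ∈ U := Submodule.subset_span (Set.mem_insert_of_mem _ rfl)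
  haveI : Module.Finite K U := FiniteDimensional.span_of_finite K (Set.toFinite _)
  obtain ⟨n, w, hws, hw⟩ := S.exists_orthonormal U inferInstance
  obtain ⟨o, ho, hored⟩ := S.coords w hw U hws 1 (by simpa using h1U)
  rw [map_one] at hored
  obtain ⟨j₁, hj₁⟩ : ∃ j₁, π (o j₁) ≠ 0 := by
    by_contra hcon
    have hall : ∀ j, π (o j) = 0 := fun j => by
      by_contra h
      exact hcon ⟨j, h⟩
    rw [Finset.sum_eq_zero (fun j _ => by rw [hall j, zero_smul])] at hored
    exact one_ne_zero hored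
  obtain ⟨y, hy, -⟩ := S.coords w hw U hws s hsU
  obtain ⟨oinv, hoinv⟩ := S.exists_inv (o j₁) hj₁
  set lam : A := y j₁ * oinv with hlam
  set z : Fin n → A := fun j => y j - lam * o j with hz
  have hz₁ : z j₁ = 0 := by
    show y j₁ - y j₁ * oinv * o j₁ = 0
    rw [mul_assoc, mul_comm oinv, hoinv, mul_one, sub_self]
  have hfz : ((s : S.O) : F) - algebraMap K F (lam : K) =
      ∑ j, ((z j : A) : K) • ((w j : S.O) : F) := by
    have h1 : algebraMap K F (lam : K) = ∑ j, ((lam * o j : A) : K) • ((w j : S.O) : F) := by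
      have : (1 : F) = ∑ j, ((o j : A) : K) • ((w j : S.O) : F) := by
        rw [← ho]; rfl
      calc algebraMap K F (lam : K) = (lam : K) • (1 : F) := by rw [Algebra.smul_def, mul_one]
        _ = ∑ j, ((lam * o j : A) : K) • ((w j : S.O) : F) := by
          rw [this, Finset.smul_sum]
          refine Finset.sum_congr rfl fun j _ => ?_
          rw [smul_smul]
          rfl
    rw [hy, h1, ← Finset.sum_sub_distrib]
    refine Finset.sum_congr rfl fun j _ => ?_
    rw [← sub_smul]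
    rfl
  have hform : ∀ (e : A) (ζ : Fin n → A), (∀ j, z j = e * ζ j) →
      s = S.C e * S.lsum ζ w + S.C lam := by
    intro e ζ hζ
    apply Subtype.ext
    show (s : F) = algebraMap K F (e : K) * ((S.lsum ζ w : S.O) : F) + algebraMap K F (lam : K)
    rw [S.coe_lsum, Finset.mul_sum, ← sub_eq_iff_eq_add, hfz]
    refine Finset.sum_congr rfl fun j _ => ?_
    rw [hζ j, ← Algebra.smul_def, smul_smul]
    rfl
  have hp1 : p - 1 ≠ 0 := by
    have := hp.two_le
    omega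
  -- KEY: every `z j` is divisible by `c`
  have hkey : ∀ j, A.valuation ((z j : A) : K) ≤ A.valuation (c : K) := by
    by_contra hcon
    rw [not_forall] at hcon
    obtain ⟨jb, hjb⟩ := hcon
    rw [not_le] at hjb
    obtain ⟨j₀, -, hmax⟩ := Finset.exists_max_image Finset.univ
      (fun j => A.valuation ((z j : A) : K)) ⟨jb, Finset.mem_univ _⟩
    have hj₀ : A.valuation (c : K) < A.valuation ((z j₀ : A) : K) :=
      lt_of_lt_of_le hjb (hmax jb (Finset.mem_univ _))
    have hz₀ : ((z j₀ : A) : K) ≠ 0 := by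
      intro h0
      rw [h0, map_zero] at hj₀
      exact not_lt_zero hj₀
    have hζ : ∀ j, ∃ ζ : A, z j = z j₀ * ζ := fun j =>
      SSRed.ss_dvd_of_val_le hz₀ (hmax j (Finset.mem_univ _))
    choose ζ hζ' using hζ
    obtain ⟨κ₀, hκ₀⟩ : ∃ κ₀ : A, c = z j₀ * κ₀ := SSRed.ss_dvd_of_val_le hz₀ hj₀.le
    have hπκ : π κ₀ = 0 := by
      rw [S.π_eq_zero_iff, ValuationSubring.mem_nonunits_iff]
      have h1 : (c : K) = (z j₀ : K) * (κ₀ : K) := congrArg Subtype.val hκ₀
      have h2 : A.valuation (c : K) = A.valuation (z j₀ : K) * A.valuation (κ₀ : K) := by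
        rw [h1, map_mul]
      by_contra hge
      rw [not_lt] at hge
      have h3 : A.valuation (z j₀ : K) ≤ A.valuation (c : K) := by
        rw [h2]
        calc A.valuation (z j₀ : K) = A.valuation (z j₀ : K) * 1 := (mul_one _).symm
          _ ≤ A.valuation (z j₀ : K) * A.valuation (κ₀ : K) := by gcongr
      exact not_le.mpr hj₀ h3
    have hζ₀ : ζ j₀ = 1 := by
      have h1 := hζ' j₀
      have h2 : ((z j₀ : A) : K) * 1 = ((z j₀ : A) : K) * ((ζ j₀ : A) : K) := by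
        rw [mul_one]
        exact congrArg Subtype.val h1
      exact Subtype.ext (mul_left_cancel₀ hz₀ h2).symm
    have hζ₁ : ζ j₁ = 0 := by
      have h1 := hζ' j₁
      rw [hz₁] at h1
      have h2 : ((z j₀ : A) : K) * ((ζ j₁ : A) : K) = 0 := (congrArg Subtype.val h1).symm
      rcases mul_eq_zero.mp h2 with h | h
      · exact absurd h hz₀
      · exact Subtype.ext h
    set t : S.O := S.lsum ζ w with ht
    have hst := hform (z j₀) ζ hζ'
    obtain ⟨r, hr⟩ := exists_add_pow_prime_eq hp (S.C (z j₀) * t) (S.C lam)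
    rw [← hst] at hr
    obtain ⟨κ₁, hκ₁⟩ := cxp_aux S hp c b (z j₀) κ₀ lam γ hz₀ hκ₀ hpb s t h' r hr hsp
    have hπ1 : π (κ₀ ^ (p - 1) * b) = 0 := by
      rw [map_mul, map_pow, hπκ, zero_pow hp1, zero_mul]
    have hπ2 : π (κ₀ ^ p) = 0 := by
      rw [map_pow, hπκ, zero_pow hp.ne_zero]
    have hred := congrArg S.red hκ₁
    rw [map_sub, map_add, map_mul, map_mul, map_mul, map_mul, map_pow, S.red_C, S.red_C,
      S.red_C, hπ1, hπ2, map_zero, zero_mul, zero_mul, zero_mul, zero_mul, add_zero, sub_zero,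
      S.red_C] at hred
    obtain ⟨κ', hκ'⟩ := h70 (S.red t) (π κ₁) hred
    have hcmp : ∑ j, π (ζ j) • S.red (w j) = ∑ j, (κ' * π (o j)) • S.red (w j) := by
      rw [← S.red_lsum, ← ht, ← hκ', Algebra.algebraMap_eq_smul_one, hored, Finset.smul_sum]
      refine Finset.sum_congr rfl fun j _ => ?_
      rw [smul_smul]
    have hco := fun j => hw.eq_coords_of_eq hcmp j
    have ha0 : κ' = 0 := by
      have h1 := hco j₁
      rw [hζ₁, map_zero] at h1
      rcases mul_eq_zero.mp h1.symm with h | h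
      · exact h
      · exact absurd h hj₁
    have h0 := hco j₀
    rw [hζ₀, map_one, ha0, zero_mul] at h0
    exact one_ne_zero h0
  have hz' : ∀ j, ∃ z' : A, z j = c * z' := fun j => SSRed.ss_dvd_of_val_le hc0 (hkey j)
  choose z' hz'' using hz'
  set t : S.O := S.lsum z' w with ht
  have hst := hform c z' hz''
  have hπlam : algebraMap k R (π lam) = 1 := by
    have := congrArg S.red hst
    rw [hs, map_add, map_mul, S.red_C, S.red_C, hπc, map_zero, zero_mul, zero_add] at this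
    exact this.symm
  obtain ⟨r, hr, hr1⟩ := cxp_expand S.red hp (S.C c * t) (S.C lam)
    (by rw [map_mul, S.red_C, hπc, map_zero, zero_mul]) (by rw [S.red_C]; exact hπlam)
  rw [← hst] at hr
  obtain ⟨κ₁, hκ₁⟩ := cxp_aux S hp c b c 1 lam γ hc0 (mul_one c).symm hpb s t h' r hr hsp
  refine ⟨t, -κ₁, ?_⟩
  have hred := congrArg S.red hκ₁
  rw [one_pow, one_pow, one_mul, map_sub, map_add, map_mul, map_mul, map_mul, map_mul, map_pow,
    S.red_C, S.red_C, S.red_C, S.red_C, hr1, hπlam, map_one, map_one, mul_one, mul_one,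
    one_mul] at hred
  rw [map_neg, map_neg]
  linear_combination -hred

/-- **the crux for `m = p`** (abstract lemma on a sup-norm): a Kummer function `u = 1 + a g` of
level `> v*` (`|a|^(p-1) < |p|^p`) gives `V₁ ⊓ V₂ ≠ ⊥`.  See the header of this file. -/
theorem cxp_crux [Nontrivial R] {p : ℕ} (hp : p.Prime) (hpK : ((p : ℕ) : K) ≠ 0)
    (hpk : ((p : ℕ) : k) = 0)
    (V₁ V₂ W₁ W₂ : Submodule K F)
    [Module.Finite K V₁] [Module.Finite K V₂] [Module.Finite K W₁]
    (u g : S.O) (a : A) (hu : u = 1 + S.C a * g)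
    (ha : A.valuation ((a : K) ^ (p - 1)) < A.valuation (((p : ℕ) : K) ^ p))
    (h1 : (∃ s : S.O, (s : F) ∈ V₁ ∧ S.red s = 1) ∧ ∃ s : S.O, (s : F) ∈ V₂ ∧ S.red s = 1)
    (h2 : ∀ x₁ x₂ : S.O, (x₁ : F) ∈ V₁ → (x₂ : F) ∈ V₂ → S.red x₁ = S.red x₂ →
      S.red x₁ ∈ Set.range (algebraMap k R))
    (h3 : (∀ s ∈ V₁, ((u : S.O) : F) * s ^ p ∈ W₁) ∧ (∀ s ∈ V₂, ((u : S.O) : F) * s ^ p ∈ W₂) ∧
      (1 : F) ∈ W₁ ∧ (1 : F) ∈ W₂)
    (h4 : ∀ x₁ x₂ : S.O, (x₁ : F) ∈ W₁ → (x₂ : F) ∈ W₂ → S.red x₁ = S.red x₂ →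
      S.red x₁ ∈ Set.range (algebraMap k R))
    (h5 : ∀ h₁ h₂ τ : S.O, (h₁ : F) ∈ W₁ → (h₂ : F) ∈ W₂ → (τ : F) ∈ V₁ ⊔ V₂ →
      S.red h₁ - S.red h₂ = S.red τ →
      ∃ a₁ a₂ : S.O, (a₁ : F) ∈ V₁ ∧ (a₂ : F) ∈ V₂ ∧ S.red τ = S.red a₁ - S.red a₂)
    (h6 : ∀ (h : S.O) (y : R) (β κ : k),
      S.red h = y ^ p + algebraMap k R β * y + algebraMap k R κ →
      ((h : F) ∈ W₁ → ∃ a₁ : S.O, (a₁ : F) ∈ V₁ ∧ S.red a₁ = y) ∧
      ((h : F) ∈ W₂ → ∃ a₂ : S.O, (a₂ : F) ∈ V₂ ∧ S.red a₂ = y))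
    (h70 : ∀ (z : R) (κ : k), z ^ p = algebraMap k R κ → z ∈ Set.range (algebraMap k R))
    (h7 : ∀ (z : R) (β κ : k), z ^ p + algebraMap k R β * z = algebraMap k R κ →
      ∃ e₁ e₂ : S.O, (e₁ : F) ∈ V₁ ∧ (e₂ : F) ∈ V₂ ∧ z = S.red e₁ - S.red e₂) :
    V₁ ⊓ V₂ ≠ ⊥ := by
  classical
  intro hinf
  obtain ⟨f, hfV, hfbad⟩ := S.exists_bad V₁ V₂ hinf h1
  obtain ⟨c, s₁, s₂, hc0, hπc, hs₁V, hs₂V, hs₁, hs₂, hdiff⟩ :=
    S.normalise V₁ V₂ h2 f hfV hfbad
  apply hfbad
  obtain ⟨h3a, h3b, h3c, h3d⟩ := h3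
  have hp1 : p - 1 ≠ 0 := by
    have := hp.two_le
    omega
  have hp1' : p - 1 + 1 = p := Nat.sub_add_cancel hp.pos
  have hvp : A.valuation (((p : ℕ) : K)) ≤ 1 := by
    rw [A.valuation_le_one_iff]
    exact natCast_mem A p
  -- `π a = 0`, `red u = 1`
  have hva : A.valuation (a : K) < 1 := by
    by_contra h
    rw [not_lt] at h
    have e1 : (1 : A.ValueGroup) ≤ A.valuation (a : K) ^ (p - 1) := one_le_pow₀ h
    have e2 : A.valuation (((p : ℕ) : K)) ^ p ≤ 1 := pow_le_one₀ zero_le hvp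
    rw [map_pow, map_pow] at ha
    exact absurd ha (not_lt.mpr (e2.trans e1))
  have hπa : π a = 0 := (S.π_eq_zero_iff a).mpr (A.mem_nonunits_iff.mpr hva)
  have hured : S.red u = 1 := by
    rw [hu, map_add, map_one, map_mul, S.red_C, hπa, map_zero, zero_mul, add_zero]
  set f₁ : S.O := u * s₁ ^ p with hf₁
  set f₂ : S.O := u * s₂ ^ p with hf₂
  have hf₁W : (f₁ : F) ∈ W₁ := h3a _ hs₁V
  have hf₂W : (f₂ : F) ∈ W₂ := h3b _ hs₂V
  have hs12 : s₁ = S.C c * f + s₂ := by rw [← hdiff]; ring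
  obtain ⟨r, hr, hr1⟩ := cxp_expand S.red hp (S.C c * f) s₂
    (by rw [map_mul, S.red_C, hπc, map_zero, zero_mul]) hs₂
  rw [← hs12] at hr
  set P : A := ((p : ℕ) : A) with hP
  have hPK : ((P : A) : K) = ((p : ℕ) : K) := by simp [hP]
  have hP0 : ((P : A) : K) ≠ 0 := by rw [hPK]; exact hpK
  have hCP : S.C P = ((p : ℕ) : S.O) := cxp_C_natCast S p
  have hcK : (((c ^ (p - 1) : A)) : K) = (c : K) ^ (p - 1) := by simp
  rcases lt_or_ge (A.valuation ((c : K) ^ (p - 1))) (A.valuation (((p : ℕ) : K))) with hlin | hfrob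
  · -- the linear regime
    obtain ⟨e, he⟩ : ∃ e : A, c ^ (p - 1) = P * e :=
      SSRed.ss_dvd_of_val_le hP0 (by rw [hcK, hPK]; exact hlin.le)
    have hπe : π e = 0 := by
      rw [S.π_eq_zero_iff, ValuationSubring.mem_nonunits_iff]
      have h1 : (c : K) ^ (p - 1) = (P : K) * (e : K) := by
        rw [← hcK, he]; rfl
      by_contra hge
      rw [not_lt] at hge
      have h3 : A.valuation (P : K) ≤ A.valuation ((c : K) ^ (p - 1)) := by
        rw [h1, map_mul]
        calc A.valuation (P : K) = A.valuation (P : K) * 1 := (mul_one _).symm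
          _ ≤ A.valuation (P : K) * A.valuation (e : K) := by gcongr
      rw [hPK] at h3
      exact not_le.mpr hlin h3
    have hcp : S.C c ^ p = S.C (P * c) * S.C e := by
      rw [← cxp_C_pow, ← cxp_C_mul]
      congr 1
      calc c ^ p = c ^ (p - 1) * c := by rw [← pow_succ, hp1']
        _ = P * c * e := by rw [he]; ring
    have hgeom : f₁ - f₂ = S.C (P * c) * (u * (S.C e * f ^ p + f * s₂ * r)) := by
      rw [hf₁, hf₂, hr, mul_pow, hcp, cxp_C_mul, hCP]
      ring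
    obtain ⟨γ, h₁, h₂, hh₁W, hh₂W, -, -, hh⟩ := cxp_split S W₁ W₂ ⟨h3c, h3d⟩ h4 f₁ f₂ _
      hf₁W hf₂W (P * c) (by
        show (P : K) * (c : K) ≠ 0
        exact mul_ne_zero hP0 hc0) hgeom
    have hred : S.red h₁ - S.red h₂ = S.red f := by
      rw [← map_sub, hh, map_mul, hured, one_mul, map_add, map_mul, S.red_C, hπe, map_zero,
        zero_mul, zero_add, map_mul, map_mul, hs₂, hr1, mul_one, mul_one]
    exact h5 h₁ h₂ f hh₁W hh₂W hfV hred
  · -- the Frobenius / Artin–Schreier regime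
    have hc1 : (((c ^ (p - 1) : A)) : K) ≠ 0 := by
      rw [hcK]
      exact pow_ne_zero _ hc0
    obtain ⟨b, hb⟩ : ∃ b : A, P = c ^ (p - 1) * b :=
      SSRed.ss_dvd_of_val_le hc1 (by rw [hcK, hPK]; exact hfrob)
    have hPc : S.C P * S.C c = S.C c ^ p * S.C b := by
      rw [← cxp_C_mul, ← cxp_C_pow, ← cxp_C_mul]
      congr 1
      calc P * c = c ^ (p - 1) * c * b := by rw [hb]; ring
        _ = c ^ p * b := by rw [← pow_succ, hp1']
    have hgeom : f₁ - f₂ = S.C (c ^ p) * (u * (f ^ p + S.C b * f * s₂ * r)) := by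
      have e1 : ((p : ℕ) : S.O) * (S.C c * f) * s₂ * r = (S.C P * S.C c) * (f * s₂ * r) := by
        rw [hCP]; ring
      rw [hf₁, hf₂, hr, mul_pow, e1, hPc, cxp_C_pow]
      ring
    -- `a = c^p a'`, `π a' = 0`
    have hac : A.valuation (a : K) < A.valuation ((c : K) ^ p) := by
      apply lt_of_pow_lt_pow_left₀ (p - 1) zero_le
      rw [map_pow, map_pow] at ha
      refine lt_of_lt_of_le ha ?_
      rw [map_pow] at hfrob
      calc A.valuation (((p : ℕ) : K)) ^ p ≤ (A.valuation (c : K) ^ (p - 1)) ^ p :=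
            pow_le_pow_left₀ zero_le hfrob p
        _ = A.valuation ((c : K) ^ p) ^ (p - 1) := by
            rw [map_pow, ← pow_mul, ← pow_mul, mul_comm]
    have hcpK : (((c ^ p : A)) : K) = (c : K) ^ p := by simp
    have hcp0 : (((c ^ p : A)) : K) ≠ 0 := by
      rw [hcpK]
      exact pow_ne_zero _ hc0
    obtain ⟨a', ha'⟩ : ∃ a' : A, a = c ^ p * a' :=
      SSRed.ss_dvd_of_val_le hcp0 (by rw [hcpK]; exact hac.le)
    have hπa' : π a' = 0 := by
      rw [S.π_eq_zero_iff, ValuationSubring.mem_nonunits_iff]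
      have h1 : (a : K) = (c : K) ^ p * (a' : K) := by
        rw [← hcpK, ha']; rfl
      by_contra hge
      rw [not_lt] at hge
      have h3 : A.valuation ((c : K) ^ p) ≤ A.valuation (a : K) := by
        rw [h1, map_mul]
        calc A.valuation ((c : K) ^ p) = A.valuation ((c : K) ^ p) * 1 := (mul_one _).symm
          _ ≤ A.valuation ((c : K) ^ p) * A.valuation (a' : K) := by gcongr
      exact not_le.mpr hac h3
    obtain ⟨γ, h₁, h₂, hh₁W, hh₂W, hf₁eq, hf₂eq, hh⟩ := cxp_split S W₁ W₂ ⟨h3c, h3d⟩ h4 f₁ f₂ _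
      hf₁W hf₂W (c ^ p) hcp0 hgeom
    have hua : u = 1 + S.C c ^ p * (S.C a' * g) := by
      rw [hu, ha', cxp_C_mul, cxp_C_pow]; ring
    have hsp : ∀ (s h : S.O), u * s ^ p = S.C γ + S.C (c ^ p) * h →
        s ^ p = S.C γ + S.C c ^ p * (h - S.C a' * g * s ^ p) := by
      intro s h hs
      rw [cxp_C_pow] at hs
      have e1 : u * s ^ p = s ^ p + S.C c ^ p * (S.C a' * g * s ^ p) := by
        rw [hua]; ring
      rw [e1] at hs
      linear_combination hs
    have hredh : ∀ (s h : S.O), S.red (h - S.C a' * g * s ^ p) = S.red h := by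
      intro s h
      rw [map_sub, map_mul, map_mul, S.red_C, hπa', map_zero, zero_mul, zero_mul, sub_zero]
    obtain ⟨t₁, κ₁, ht₁⟩ := cxp_decomp S hp h70 c b hc0 hπc hb s₁ _ hs₁ γ (hsp s₁ h₁ hf₁eq)
    obtain ⟨t₂, κ₂, ht₂⟩ := cxp_decomp S hp h70 c b hc0 hπc hb s₂ _ hs₂ γ (hsp s₂ h₂ hf₂eq)
    rw [hredh] at ht₁ ht₂
    obtain ⟨a₁, ha₁V, ha₁⟩ := (h6 h₁ (S.red t₁) (π b) (π κ₁) ht₁).1 hh₁W
    obtain ⟨a₂, ha₂V, ha₂⟩ := (h6 h₂ (S.red t₂) (π b) (π κ₂) ht₂).2 hh₂W
    have hG : S.red h₁ - S.red h₂ = S.red f ^ p + algebraMap k R (π b) * S.red f := by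
      rw [← map_sub, hh, map_mul, hured, one_mul, map_add, map_pow, map_mul, map_mul, map_mul,
        S.red_C, hs₂, hr1, mul_one, mul_one]
    have hpR : ((p : ℕ) : R) = 0 := by
      have := congrArg (algebraMap k R) hpk
      simpa using this
    have hfrobR : ∀ x y : R, (x + y) ^ p = x ^ p + y ^ p := fun x y => by
      obtain ⟨r, hr⟩ := exists_add_pow_prime_eq hp x y
      rw [hr, hpR]; ring
    have hsubR : ∀ x y : R, (x - y) ^ p = x ^ p - y ^ p := fun x y => by
      have := hfrobR (x - y) y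
      rw [sub_add_cancel] at this
      rw [this]; ring
    have hz : (S.red f - S.red t₁ + S.red t₂) ^ p
        + algebraMap k R (π b) * (S.red f - S.red t₁ + S.red t₂)
        = algebraMap k R (π κ₁ - π κ₂) := by
      rw [hfrobR, hsubR, map_sub]
      linear_combination ht₁ - ht₂ - hG
    obtain ⟨e₁, e₂, he₁V, he₂V, hze⟩ := h7 _ (π b) _ hz
    refine ⟨a₁ + e₁, a₂ + e₂, V₁.add_mem ha₁V he₁V, V₂.add_mem ha₂V he₂V, ?_⟩
    rw [map_add, map_add, ha₁, ha₂]
    linear_combination hze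

end Fermat.Agent.S33lib

end
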