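/-
Item 86 (S33), piece R3 (application): the crux for `m = p` for function fields with good
reduction (helper8).  Complete proofs.

`cxp_principal`: let `R` be a constant reduction of `F/K` to `Fk/k` with equal genus, `p` the
residue characteristic.  If `p E = div (1 + a g)` with `g ∈ O` and `|a|^(p-1) < |p|^p`
(a Kummer function of LEVEL `> v* = v(p) p/(p-1)`), then `E` is principal.
Uses the abstract lemma `cxp_crux` (S33lib/CruxP.lean) with `V_i = L(n P_i + E)`,
`W_i = L(p n P_i)`, as `S18lib.cxa_normalised` uses `S18lib.crux`.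
-/
import Mathlib
import Fermat.Agent.S18lib.Abstract
import Fermat.Agent.S33lib.CruxP

set_option autoImplicit false
set_option linter.unusedVariables false
set_option linter.unusedSectionVars false
set_option linter.style.haveILetI false

noncomputable section

namespace Fermat.Agent.S33lib

open AlgebraicCurve Fermat.Agent.RRlib Fermat.Agent.GoodRed Fermat.Agent.S34lib
open Fermat.Agent.S18lib

variable {K F k Fk : Type*} [Field K] [Field F] [Algebra K F] [Field k] [Field Fk] [Algebra k Fk]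
variable {A : ValuationSubring K} {π : A →+* k}

/-- a constant reduction as a sup-norm datum -/
def cxpSS (R : ConstRed A π Fk F) : SSRed A π Fk F where
  O := R.O.toSubring
  red := R.red
  π_surjective := R.π_surjective
  algebraMap_mem := R.algebraMap_mem
  red_algebraMap := R.red_algebraMap
  exists_orthonormal := R.exists_orthonormal

theorem cxpSS_red (R : ConstRed A π Fk F) (x : R.O) : (cxpSS R).red x = R.red x := rfl

theorem cxpSS_C (R : ConstRed A π Fk F) (c : A) :
    (((cxpSS R).C c : (cxpSS R).O) : F) = algebraMap K F (c : K) := rfl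

/-- the level hypothesis forces `|a| < 1` -/
theorem cxp_val_lt_one {p : ℕ} (hp : p.Prime) (a : A)
    (ha : A.valuation ((a : K) ^ (p - 1)) < A.valuation (((p : ℕ) : K) ^ p)) :
    A.valuation (a : K) < 1 := by
  have hvp : A.valuation (((p : ℕ) : K)) ≤ 1 := by
    rw [A.valuation_le_one_iff]
    exact natCast_mem A p
  by_contra h
  rw [not_lt] at h
  have e1 : (1 : A.ValueGroup) ≤ A.valuation (a : K) ^ (p - 1) := one_le_pow₀ h
  have e2 : A.valuation (((p : ℕ) : K)) ^ p ≤ 1 := pow_le_one₀ zero_le hvp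
  rw [map_pow, map_pow] at ha
  exact absurd ha (not_lt.mpr (e2.trans e1))

/-- pole orders: if `y^p + β y + κ ∈ L(p n Q)` then `y ∈ L(n Q)` -/
theorem cxp_root_mem {p : ℕ} (hp : 2 ≤ p) (n : ℕ) (Q : Place k Fk) (y : Fk) (β κ : k)
    (h : y ^ p + algebraMap k Fk β * y + algebraMap k Fk κ
      ∈ riemannRochSpace (K := k) ((p * n) • Finsupp.single Q (1 : ℤ))) :
    y ∈ riemannRochSpace (K := k) (n • Finsupp.single Q (1 : ℤ)) := by
  rw [cxa_mem_iff] at h ⊢
  intro v
  have hd : (0 : ℤ) ≤ (n • Finsupp.single Q (1 : ℤ) : Divisor k Fk) v := by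
    have := cxa_nsmul_single_nonneg n Q v
    simpa using this
  have hpd : ((p * n) • Finsupp.single Q (1 : ℤ) : Divisor k Fk) v
      = p • ((n • Finsupp.single Q (1 : ℤ) : Divisor k Fk) v) := by
    rw [mul_smul, Finsupp.smul_apply]
  rcases le_or_gt (v.adicValuation y) 1 with h1 | h1
  · refine h1.trans ?_
    rw [← WithZero.exp_zero, WithZero.exp_le_exp]
    exact hd
  · have hv := h v
    have e1 : v.adicValuation (algebraMap k Fk β * y) < v.adicValuation (y ^ p) := by
      rw [map_mul, map_pow]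
      calc v.adicValuation (algebraMap k Fk β) * v.adicValuation y
            ≤ 1 * v.adicValuation y :=
              mul_le_mul_left (v.adicValuation_algebraMap_le_one β) _
        _ = v.adicValuation y := one_mul _
        _ < v.adicValuation y ^ p := lt_self_pow₀ h1 (by omega)
    have e2 : v.adicValuation (algebraMap k Fk κ) < v.adicValuation (y ^ p) := by
      rw [map_pow]
      exact lt_of_le_of_lt (v.adicValuation_algebraMap_le_one κ) (one_lt_pow₀ h1 (by omega))
    have e3 : v.adicValuation (y ^ p + algebraMap k Fk β * y) = v.adicValuation (y ^ p) :=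
      Valuation.map_add_eq_of_lt_left _ e1
    have e4 : v.adicValuation (y ^ p + algebraMap k Fk β * y + algebraMap k Fk κ)
        = v.adicValuation (y ^ p) := by
      rw [Valuation.map_add_eq_of_lt_left _ (by rw [e3]; exact e2), e3]
    rw [e4, map_pow, hpd, WithZero.exp_nsmul] at hv
    exact le_of_pow_le_pow_left₀ (by omega) zero_le hv

section main

variable (R : ConstRed A π Fk F)

/-- the normalised case: `p E = div (1 + a g)` of level `> v*` and `r_* E = 0` -/
theorem cxp_normalised [RRHyp K F] [RRHyp k Fk] {r : Place K F → Place k Fk}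
    (hr : R.IsPlaceRed r) (hg : genusFF K F ≤ genusFF k Fk)
    {p : ℕ} (hp : p.Prime) (hpK : ((p : ℕ) : K) ≠ 0) (hpk : ((p : ℕ) : k) = 0)
    (hk : ∀ (z : Fk) (β κ : k), z ^ p + algebraMap k Fk β * z = algebraMap k Fk κ →
      z ∈ Set.range (algebraMap k Fk))
    (E : Divisor K F) (hE : Divisor.degree E = 0)
    (a : A) (ha : A.valuation ((a : K) ^ (p - 1)) < A.valuation (((p : ℕ) : K) ^ p))
    (g : R.O) (hmE : p • E = divOf (K := K) (1 + algebraMap K F (a : K) * (g : F)))
    (hrE : Finsupp.mapDomain r E = 0) :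
    ∃ s : F, s ≠ 0 ∧ E = divOf (K := K) s := by
  obtain ⟨P₁, P₂, hQ⟩ := cxa_exists_places R hr
  have hP : P₁ ≠ P₂ := fun h => hQ (congrArg r h)
  set n : ℕ := 2 * genusFF K F + 1 with hn
  set S : SSRed A π Fk F := cxpSS R with hS
  have hπa : π a = 0 :=
    (R.π_eq_zero_iff a).mpr (A.mem_nonunits_iff.mpr (cxp_val_lt_one hp a ha))
  set u : R.O := 1 + (⟨algebraMap K F (a : K), R.algebraMap_mem a⟩ : R.O) * g with hu
  have hucoe : ((u : R.O) : F) = 1 + algebraMap K F (a : K) * (g : F) := rfl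
  have hured : R.red u = 1 := by
    rw [hu, map_add, map_one, map_mul, R.red_algebraMap, hπa, map_zero, zero_mul, add_zero]
  have hu0 : ((u : R.O) : F) ≠ 0 := by
    intro h
    have : u = 0 := Subtype.ext h
    rw [this, map_zero] at hured
    exact zero_ne_one hured
  rw [← hucoe] at hmE
  -- the push-forwards
  have hrD : ∀ P : Place K F, Finsupp.mapDomain r (n • Finsupp.single P (1 : ℤ) + E)
      = n • Finsupp.single (r P) (1 : ℤ) := by
    intro P
    rw [Finsupp.mapDomain_add, hrE, add_zero, uq_mapDomain_nsmul_single]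
  have hdegD : ∀ P : Place K F,
      Divisor.degree (n • Finsupp.single P (1 : ℤ) + E) = (n : ℤ) := by
    intro P
    rw [map_add, hE, add_zero, map_nsmul, degree_single_one, nsmul_eq_mul, mul_one]
  have hWV : ∀ P : Place K F, R.W (n • Finsupp.single P (1 : ℤ) + E)
      = riemannRochSpace (K := k) (n • Finsupp.single (r P) (1 : ℤ)) := by
    intro P
    rw [hr.W_eq' hg, hrD]
    rw [hdegD, hn]
    push_cast
    linarith
  have hWW : ∀ P : Place K F, R.W ((p * n) • Finsupp.single P (1 : ℤ))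
      ≤ riemannRochSpace (K := k) ((p * n) • Finsupp.single (r P) (1 : ℤ)) := by
    intro P
    have := hr.W_le ((p * n) • Finsupp.single P (1 : ℤ))
    rwa [uq_mapDomain_nsmul_single] at this
  have hWsum : R.W (n • Finsupp.single P₁ (1 : ℤ) + n • Finsupp.single P₂ (1 : ℤ) + E)
      ≤ riemannRochSpace (K := k)
        (n • Finsupp.single (r P₁) (1 : ℤ) + n • Finsupp.single (r P₂) (1 : ℤ)) := by
    have := hr.W_le (n • Finsupp.single P₁ (1 : ℤ) + n • Finsupp.single P₂ (1 : ℤ) + E)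
    rwa [Finsupp.mapDomain_add, Finsupp.mapDomain_add, hrE, add_zero,
      uq_mapDomain_nsmul_single, uq_mapDomain_nsmul_single] at this
  have hsup : riemannRochSpace (K := K) (n • Finsupp.single P₁ (1 : ℤ) + E)
      ⊔ riemannRochSpace (K := K) (n • Finsupp.single P₂ (1 : ℤ) + E)
      ≤ riemannRochSpace (K := K)
        (n • Finsupp.single P₁ (1 : ℤ) + n • Finsupp.single P₂ (1 : ℤ) + E) := by
    apply sup_le
    · apply riemannRochSpace_mono
      have := cxa_nsmul_single_nonneg n P₂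
      intro v
      have hv := this v
      simp only [Finsupp.add_apply, Finsupp.zero_apply] at hv ⊢
      linarith
    · apply riemannRochSpace_mono
      have := cxa_nsmul_single_nonneg n P₁
      intro v
      have hv := this v
      simp only [Finsupp.add_apply, Finsupp.zero_apply] at hv ⊢
      linarith
  -- (H1)
  have h1 : ∀ P : Place K F, ∃ s : R.O,
      (s : F) ∈ riemannRochSpace (K := K) (n • Finsupp.single P (1 : ℤ) + E) ∧ R.red s = 1 := by
    intro P
    have : (1 : Fk) ∈ R.W (n • Finsupp.single P (1 : ℤ) + E) := by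
      rw [hWV]
      exact cxa_one_mem (cxa_nsmul_single_nonneg n (r P))
    exact (R.mem_W_iff _ _).mp this
  -- (H2)
  have h2 : ∀ x₁ x₂ : R.O,
      (x₁ : F) ∈ riemannRochSpace (K := K) (n • Finsupp.single P₁ (1 : ℤ) + E) →
      (x₂ : F) ∈ riemannRochSpace (K := K) (n • Finsupp.single P₂ (1 : ℤ) + E) →
      R.red x₁ = R.red x₂ → R.red x₁ ∈ Set.range (algebraMap k Fk) := by
    intro x₁ x₂ hx₁ hx₂ heq
    have e1 : R.red x₁ ∈ riemannRochSpace (K := k) (n • Finsupp.single (r P₁) (1 : ℤ)) := by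
      rw [← hWV]
      exact (R.mem_W_iff _ _).mpr ⟨x₁, hx₁, rfl⟩
    have e2 : R.red x₁ ∈ riemannRochSpace (K := k) (n • Finsupp.single (r P₂) (1 : ℤ)) := by
      rw [heq, ← hWV]
      exact (R.mem_W_iff _ _).mpr ⟨x₂, hx₂, rfl⟩
    exact cxa_inter_const hQ n n e1 e2
  -- (H4)
  have h4 : ∀ x₁ x₂ : R.O,
      (x₁ : F) ∈ riemannRochSpace (K := K) ((p * n) • Finsupp.single P₁ (1 : ℤ)) →
      (x₂ : F) ∈ riemannRochSpace (K := K) ((p * n) • Finsupp.single P₂ (1 : ℤ)) →
      R.red x₁ = R.red x₂ → R.red x₁ ∈ Set.range (algebraMap k Fk) := by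
    intro x₁ x₂ hx₁ hx₂ heq
    have e1 := hWW P₁ ((R.mem_W_iff _ _).mpr ⟨x₁, hx₁, rfl⟩)
    have e2 := hWW P₂ ((R.mem_W_iff _ _).mpr ⟨x₂, hx₂, rfl⟩)
    rw [← heq] at e2
    exact cxa_inter_const hQ (p * n) (p * n) e1 e2
  -- (H5)
  have h5 : ∀ h₁ h₂ τ : R.O,
      (h₁ : F) ∈ riemannRochSpace (K := K) ((p * n) • Finsupp.single P₁ (1 : ℤ)) →
      (h₂ : F) ∈ riemannRochSpace (K := K) ((p * n) • Finsupp.single P₂ (1 : ℤ)) →
      (τ : F) ∈ riemannRochSpace (K := K) (n • Finsupp.single P₁ (1 : ℤ) + E)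
        ⊔ riemannRochSpace (K := K) (n • Finsupp.single P₂ (1 : ℤ) + E) →
      R.red h₁ - R.red h₂ = R.red τ →
      ∃ a₁ a₂ : R.O,
        (a₁ : F) ∈ riemannRochSpace (K := K) (n • Finsupp.single P₁ (1 : ℤ) + E) ∧
        (a₂ : F) ∈ riemannRochSpace (K := K) (n • Finsupp.single P₂ (1 : ℤ) + E) ∧
        R.red τ = R.red a₁ - R.red a₂ := by
    intro h₁ h₂ τ hh₁ hh₂ hτ heq
    have e1 := hWW P₁ ((R.mem_W_iff _ _).mpr ⟨h₁, hh₁, rfl⟩)
    have e2 := hWW P₂ ((R.mem_W_iff _ _).mpr ⟨h₂, hh₂, rfl⟩)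
    have e3 := hWsum ((R.mem_W_iff _ _).mpr ⟨τ, hsup hτ, rfl⟩)
    have heq' : R.red h₁ - R.red h₂ = algebraMap k Fk (1 : k) * R.red τ := by
      rw [map_one, one_mul]
      exact heq
    have heq'' : R.red h₂ - R.red h₁ = algebraMap k Fk (-(1 : k)) * R.red τ := by
      rw [map_neg, map_one, neg_mul, one_mul, ← heq]
      ring
    have f1 := cxa_separate hQ (p * n) n (1 : k) e1 e2 e3 heq'
    have e3' : R.red τ ∈ riemannRochSpace (K := k)
        (n • Finsupp.single (r P₂) (1 : ℤ) + n • Finsupp.single (r P₁) (1 : ℤ)) := by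
      rw [add_comm]
      exact e3
    have f2 := cxa_separate hQ.symm (p * n) n (-(1 : k)) e2 e1 e3' heq''
    have g1 : R.red h₁ ∈ R.W (n • Finsupp.single P₁ (1 : ℤ) + E) := by
      rw [hWV]
      exact f1
    have g2 : R.red h₂ ∈ R.W (n • Finsupp.single P₂ (1 : ℤ) + E) := by
      rw [hWV]
      exact f2
    obtain ⟨a₁, ha₁, ha₁'⟩ := (R.mem_W_iff _ _).mp g1
    obtain ⟨a₂, ha₂, ha₂'⟩ := (R.mem_W_iff _ _).mp g2
    exact ⟨a₁, a₂, ha₁, ha₂, by rw [ha₁', ha₂', heq]⟩
  -- (H6)
  have h6 : ∀ (h : R.O) (y : Fk) (β κ : k),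
      R.red h = y ^ p + algebraMap k Fk β * y + algebraMap k Fk κ →
      ((h : F) ∈ riemannRochSpace (K := K) ((p * n) • Finsupp.single P₁ (1 : ℤ)) →
        ∃ a₁ : R.O, (a₁ : F) ∈ riemannRochSpace (K := K) (n • Finsupp.single P₁ (1 : ℤ) + E) ∧
          R.red a₁ = y) ∧
      ((h : F) ∈ riemannRochSpace (K := K) ((p * n) • Finsupp.single P₂ (1 : ℤ)) →
        ∃ a₂ : R.O, (a₂ : F) ∈ riemannRochSpace (K := K) (n • Finsupp.single P₂ (1 : ℤ) + E) ∧
          R.red a₂ = y) := by
    intro h y β κ hy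
    have key : ∀ P : Place K F,
        (h : F) ∈ riemannRochSpace (K := K) ((p * n) • Finsupp.single P (1 : ℤ)) →
        ∃ a₁ : R.O, (a₁ : F) ∈ riemannRochSpace (K := K) (n • Finsupp.single P (1 : ℤ) + E) ∧
          R.red a₁ = y := by
      intro P hh
      have e1 := hWW P ((R.mem_W_iff _ _).mpr ⟨h, hh, rfl⟩)
      rw [hy] at e1
      have e2 := cxp_root_mem hp.two_le n (r P) y β κ e1
      rw [← hWV] at e2
      exact (R.mem_W_iff _ _).mp e2
    exact ⟨key P₁, key P₂⟩
  -- (H7)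
  have h70 : ∀ (z : Fk) (κ : k), z ^ p = algebraMap k Fk κ → z ∈ Set.range (algebraMap k Fk) := by
    intro z κ hz
    apply hk z 0 κ
    rw [map_zero, zero_mul, add_zero, hz]
  have h7 : ∀ (z : Fk) (β κ : k), z ^ p + algebraMap k Fk β * z = algebraMap k Fk κ →
      ∃ e₁ e₂ : R.O,
        (e₁ : F) ∈ riemannRochSpace (K := K) (n • Finsupp.single P₁ (1 : ℤ) + E) ∧
        (e₂ : F) ∈ riemannRochSpace (K := K) (n • Finsupp.single P₂ (1 : ℤ) + E) ∧
        z = R.red e₁ - R.red e₂ := by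
    intro z β κ hz
    obtain ⟨ζ, hζ⟩ := hk z β κ hz
    obtain ⟨ζ', rfl⟩ := R.π_surjective ζ
    obtain ⟨s₁, hs₁V, hs₁⟩ := h1 P₁
    refine ⟨⟨algebraMap K F (ζ' : K), R.algebraMap_mem ζ'⟩ * s₁, 0, ?_, ?_, ?_⟩
    · show algebraMap K F (ζ' : K) * (s₁ : F) ∈ _
      rw [← Algebra.smul_def]
      exact Submodule.smul_mem _ _ hs₁V
    · exact Submodule.zero_mem _
    · rw [map_mul, R.red_algebraMap, hs₁, mul_one, map_zero, sub_zero, hζ]
  have hfin₁ : Module.Finite K
      (riemannRochSpace (K := K) (n • Finsupp.single P₁ (1 : ℤ) + E)) :=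
    finite_riemannRochSpace _
  have hfin₂ : Module.Finite K
      (riemannRochSpace (K := K) (n • Finsupp.single P₂ (1 : ℤ) + E)) :=
    finite_riemannRochSpace _
  have hfin₃ : Module.Finite K
      (riemannRochSpace (K := K) ((p * n) • Finsupp.single P₁ (1 : ℤ))) :=
    finite_riemannRochSpace _
  have hne := cxp_crux S hp hpK hpk
    (riemannRochSpace (K := K) (n • Finsupp.single P₁ (1 : ℤ) + E))
    (riemannRochSpace (K := K) (n • Finsupp.single P₂ (1 : ℤ) + E))
    (riemannRochSpace (K := K) ((p * n) • Finsupp.single P₁ (1 : ℤ)))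
    (riemannRochSpace (K := K) ((p * n) • Finsupp.single P₂ (1 : ℤ)))
    u g a rfl ha ⟨h1 P₁, h1 P₂⟩ h2
    ⟨fun s hs => cxa_h3 hu0 p hp.ne_zero hmE n P₁ hs,
      fun s hs => cxa_h3 hu0 p hp.ne_zero hmE n P₂ hs,
      cxa_one_mem (cxa_nsmul_single_nonneg (p * n) P₁),
      cxa_one_mem (cxa_nsmul_single_nonneg (p * n) P₂)⟩ h4 h5 h6 h70 h7
  obtain ⟨s, hs, hs0⟩ := Submodule.exists_mem_ne_zero_of_ne_bot hne
  have hsE := cxa_inf_le hP n E hs.1 hs.2
  exact ⟨s⁻¹, inv_ne_zero hs0, cxa_eq_divOf_of_mem hE hs0 hsE⟩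

/-- **crux III** with a given place reduction -/
theorem cxp_principal_of_isPlaceRed [RRHyp K F] [RRHyp k Fk] {r : Place K F → Place k Fk}
    (hr : R.IsPlaceRed r) (hg : genusFF K F ≤ genusFF k Fk)
    {p : ℕ} (hp : p.Prime) (hpK : ((p : ℕ) : K) ≠ 0) (hpk : ((p : ℕ) : k) = 0)
    (hk : ∀ (z : Fk) (β κ : k), z ^ p + algebraMap k Fk β * z = algebraMap k Fk κ →
      z ∈ Set.range (algebraMap k Fk))
    (a : A) (ha : A.valuation ((a : K) ^ (p - 1)) < A.valuation (((p : ℕ) : K) ^ p))
    (g : R.O) (E : Divisor K F)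
    (hE : p • E = divOf (K := K) (1 + algebraMap K F (a : K) * (g : F))) :
    E ∈ Divisor.principal (K := K) (F := F) := by
  have hπa : π a = 0 :=
    (R.π_eq_zero_iff a).mpr (A.mem_nonunits_iff.mpr (cxp_val_lt_one hp a ha))
  set u : R.O := 1 + (⟨algebraMap K F (a : K), R.algebraMap_mem a⟩ : R.O) * g with hu
  have hucoe : ((u : R.O) : F) = 1 + algebraMap K F (a : K) * (g : F) := rfl
  have hured : R.red u = 1 := by
    rw [hu, map_add, map_one, map_mul, R.red_algebraMap, hπa, map_zero, zero_mul, add_zero]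
  have hp0 : p ≠ 0 := hp.ne_zero
  have hdeg : Divisor.degree E = 0 := by
    have h := congrArg Divisor.degree hE
    rw [map_nsmul, degree_divOf, nsmul_eq_mul] at h
    rcases mul_eq_zero.mp h with h | h
    · exact absurd (by exact_mod_cast h) hp0
    · exact h
  have hrE : Finsupp.mapDomain r E = 0 := by
    have h1 : p • Finsupp.mapDomain r E = 0 := by
      have hu1 : R.red u ≠ 0 := by
        rw [hured]
        exact one_ne_zero
      rw [← Finsupp.mapDomain_smul, hE, ← hucoe, hr.mapDomain_divOf u hu1, hured,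
        ← map_one (algebraMap k Fk), cxa_divOf_const]
    ext Q
    have h2 := DFunLike.congr_fun h1 Q
    rw [Finsupp.smul_apply, Finsupp.zero_apply, nsmul_eq_mul] at h2
    rw [Finsupp.zero_apply]
    rcases mul_eq_zero.mp h2 with h | h
    · exact absurd (by exact_mod_cast h) hp0
    · exact h
  obtain ⟨s, hs, hEs⟩ := cxp_normalised R hr hg hp hpK hpk hk E hdeg a ha g hE hrE
  exact ⟨s, hs, fun v => by rw [hEs, divOf_apply hs]⟩

/-- **crux III** (regime III of S33): a Kummer function `1 + a g` of level `> v*` has a principal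
divisor class: `p E = div (1 + a g)`, `|a|^(p-1) < |p|^p`  ⟹  `E` principal. -/
theorem cxp_principal [RRHyp K F] [RRHyp k Fk] [Infinite k]
    (hg : genusFF K F ≤ genusFF k Fk)
    {p : ℕ} (hp : p.Prime) (hpK : ((p : ℕ) : K) ≠ 0) (hpk : ((p : ℕ) : k) = 0)
    (hk : ∀ (z : Fk) (β κ : k), z ^ p + algebraMap k Fk β * z = algebraMap k Fk κ →
      z ∈ Set.range (algebraMap k Fk))
    (a : A) (ha : A.valuation ((a : K) ^ (p - 1)) < A.valuation (((p : ℕ) : K) ^ p))
    (g : R.O) (E : Divisor K F)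
    (hE : p • E = divOf (K := K) (1 + algebraMap K F (a : K) * (g : F))) :
    E ∈ Divisor.principal (K := K) (F := F) := by
  obtain ⟨r, hr, -⟩ := R.exists_isPlaceRed hg
  exact cxp_principal_of_isPlaceRed R hr hg hp hpK hpk hk a ha g E hE

end main

end Fermat.Agent.S33lib

end
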