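/-
Item 86 (S33), REGIME II (helper28): the Artin–Schreier level `v* = v(lam ^ p)`, abstract part.

Setting: a constant reduction `R : ConstRed A π Fk F`, `lam ∈ 𝔪_A` (`lam = ζ_p − 1`),
`p = −lam ^ (p−1) (1 + lam ε)`.  A Kummer function of level `≥ v*` is
`u = c · s ^ p · (1 + lam ^ p · f)` with `f ∈ O`.

* `rg2_inertia` : an inertial `g` with `g (1 + lam) = (1 + lam) ^ e` maps `1 + lam ^ p f` to
  `1 + lam ^ p f'` with `red f' = e · red f` (the leading term is multiplied by `ω(g) = e`);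
* `rg2_ratio` : if `red f₁ = e · red f` then `1 + lam ^ p f₁ = (1 + lam ^ p f) ^ e · (1 + a t)`
  with `t ∈ O` and `v(a ^ (p−1)) < v(p ^ p)` (level `> v*`: the hypothesis of crux III,
  `cxp_principal` of `S33lib/CruxP.lean`);
* `rg2_tau_principal` : with crux III as a hypothesis, `p • E = div u`, `u` of level `≥ v*`
  ⇒ `g • E − e • E` is principal;
* `rg2_tau_pic0` : the same in `Pic⁰`: `g • x = e • x`;
* `rg2_tau_principal_good`, `rg2_tau_pic0_good` : the same with crux III = `cxp_principal`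
  plugged in (good reduction: `genusFF K F ≤ genusFF k Fk`, `k` closed under Artin–Schreier
  equations in `Fk`).
No sorry in this file.
-/
import Mathlib
import Fermat.Agent.S34lib.InertiaRed
import Fermat.Agent.S18lib.Crux
import Fermat.Agent.S33lib.CruxPApp

set_option autoImplicit false

noncomputable section

namespace Fermat.Agent.S33lib

open AlgebraicCurve Fermat.Agent.RRlib Fermat.Agent.GoodRed Fermat.Agent.S34lib
  Fermat.Agent.S18lib

/-- binomial expansion to first order in a commutative ring -/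
theorem rg2_binom {S : Type*} [CommRing S] (x : S) (e : ℕ) :
    ∃ d : S, (1 + x) ^ e = 1 + (e : S) * x + x ^ 2 * d := by
  induction e with
  | zero => exact ⟨0, by simp⟩
  | succ n ih =>
    obtain ⟨d, hd⟩ := ih
    refine ⟨(n : S) + d + x * d, ?_⟩
    rw [pow_succ, hd]
    push_cast
    ring

/-- in characteristic `p` the natural numbers are fixed by Frobenius -/
theorem rg2_natCast_pow {k : Type*} [Field k] {p : ℕ} (hp : p.Prime) (hpk : ((p : ℕ) : k) = 0)
    (e : ℕ) : ((e : ℕ) : k) ^ p = (e : k) := by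
  have hc : CharP k p := (CharP.charP_iff_prime_eq_zero hp).mpr hpk
  have hf : Fact p.Prime := ⟨hp⟩
  have h := map_natCast (frobenius k p) e
  rwa [frobenius_def] at h

variable {K F k Fk : Type*} [Field K] [Field F] [Algebra K F] [Field k] [Field Fk] [Algebra k Fk]
variable {A : ValuationSubring K} {π : A →+* k}

/-- the residue characteristic is `p` -/
theorem rg2_pi_p (R : ConstRed A π Fk F) {p : ℕ} (hp : p.Prime) {lam : K}
    (hlam : lam ∈ A.nonunits)
    (hplam : ∃ ε ∈ A, ((p : ℕ) : K) = -(lam ^ (p - 1)) * (1 + lam * ε)) :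
    ((p : ℕ) : k) = 0 := by
  obtain ⟨ε, hε, h⟩ := hplam
  have hlamA : lam ∈ A := A.nonunits_le hlam
  have h1 : ((p : ℕ) : A) = -((⟨lam, hlamA⟩ : A) ^ (p - 1)) * (1 + ⟨lam, hlamA⟩ * ⟨ε, hε⟩) := by
    apply Subtype.ext
    push_cast
    exact h
  have h2 : π ⟨lam, hlamA⟩ = 0 := (R.π_eq_zero_iff ⟨lam, hlamA⟩).mpr hlam
  have h3 := congrArg π h1
  rw [map_natCast, map_mul, map_neg, map_pow, h2, zero_pow, neg_zero, zero_mul] at h3
  · exact h3
  · have := hp.two_le
    omega

/-- `1 + lam ε` has valuation `1` -/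
theorem rg2_val_one_add {lam ε : K} (hlam : lam ∈ A.nonunits) (hε : ε ∈ A) :
    A.valuation (1 + lam * ε) = 1 := by
  have h1 : A.valuation (lam * ε) < 1 := by
    rw [map_mul]
    have h2 : A.valuation lam < 1 := (A.mem_nonunits_iff).mp hlam
    have h3 : A.valuation ε ≤ 1 := (A.valuation_le_one_iff ε).mpr hε
    calc A.valuation lam * A.valuation ε ≤ A.valuation lam * 1 := by gcongr
      _ = A.valuation lam := mul_one _
      _ < 1 := h2
  have h4 := Valuation.map_one_add_of_lt (v := A.valuation) h1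
  exact h4

/-- `p ≠ 0` in `K` -/
theorem rg2_p_ne_zero {p : ℕ} {lam : K} (hlam0 : lam ≠ 0) (hlam : lam ∈ A.nonunits)
    (hplam : ∃ ε ∈ A, ((p : ℕ) : K) = -(lam ^ (p - 1)) * (1 + lam * ε)) :
    ((p : ℕ) : K) ≠ 0 := by
  obtain ⟨ε, hε, h⟩ := hplam
  rw [h]
  refine mul_ne_zero (neg_ne_zero.mpr (pow_ne_zero _ hlam0)) ?_
  intro h0
  have h1 := rg2_val_one_add hlam hε
  rw [h0, map_zero] at h1
  exact zero_ne_one h1

/-- the level condition of crux III: `v((lam ^ p b) ^ (p−1)) < v(p ^ p)` for `b ∈ 𝔪_A` -/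
theorem rg2_val_lt {p : ℕ} (hp : p.Prime) {lam : K} (hlam0 : lam ≠ 0) (hlam : lam ∈ A.nonunits)
    (hplam : ∃ ε ∈ A, ((p : ℕ) : K) = -(lam ^ (p - 1)) * (1 + lam * ε))
    {b : K} (hb : b ∈ A.nonunits) :
    A.valuation ((lam ^ p * b) ^ (p - 1)) < A.valuation (((p : ℕ) : K) ^ p) := by
  obtain ⟨ε, hε, h⟩ := hplam
  have hp1 : p - 1 ≠ 0 := by
    have := hp.two_le
    omega
  have h1 := rg2_val_one_add hlam hε
  have hb1 : A.valuation b < 1 := (A.mem_nonunits_iff).mp hb
  have hl0 : A.valuation lam ≠ 0 := (Valuation.ne_zero_iff _).mpr hlam0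
  have e1 : A.valuation (((p : ℕ) : K) ^ p) = A.valuation lam ^ (p * (p - 1)) := by
    rw [h, map_pow, map_mul, Valuation.map_neg, map_pow, h1, mul_one, ← pow_mul, mul_comm]
  have e2 : A.valuation ((lam ^ p * b) ^ (p - 1))
      = A.valuation lam ^ (p * (p - 1)) * A.valuation b ^ (p - 1) := by
    rw [map_pow, map_mul, map_pow, mul_pow, ← pow_mul]
  rw [e1, e2]
  have hb2 : A.valuation b ^ (p - 1) < 1 := pow_lt_one₀ zero_le hb1 hp1
  have hpos : 0 < A.valuation lam ^ (p * (p - 1)) := by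
    rw [zero_lt_iff]
    exact pow_ne_zero _ hl0
  calc A.valuation lam ^ (p * (p - 1)) * A.valuation b ^ (p - 1)
      < A.valuation lam ^ (p * (p - 1)) * 1 := by
        exact (mul_lt_mul_iff_right₀ hpos).mpr hb2
    _ = _ := mul_one _

/-- `g lam = lam (e + lam d)` -/
theorem rg2_base_lam (g : SemilinearAut K F) {lam : K} (hlamA : lam ∈ A) (e : ℕ)
    (he : SemilinearAut.baseAut g (1 + lam) = (1 + lam) ^ e) :
    ∃ d ∈ A, SemilinearAut.baseAut g lam = lam * ((e : K) + lam * d) := by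
  obtain ⟨d, hd⟩ := rg2_binom (⟨lam, hlamA⟩ : A) e
  refine ⟨(d : K), d.2, ?_⟩
  have hd' : (1 + lam) ^ e = 1 + (e : K) * lam + lam ^ 2 * (d : K) := by
    have := congrArg (fun x : A => (x : K)) hd
    simpa using this
  have h1 : SemilinearAut.baseAut g lam = SemilinearAut.baseAut g (1 + lam) - 1 := by
    rw [map_add, map_one]
    ring
  rw [h1, he, hd']
  ring

/-- **regime II, inertia on the leading term**: an inertial `g` with `g ζ = ζ ^ e`
(`ζ = 1 + lam`) multiplies the leading term of `1 + lam ^ p f` by `e`. -/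
theorem rg2_inertia (R : ConstRed A π Fk F) {p : ℕ} (hp : p.Prime) {lam : K}
    (hlam : lam ∈ A.nonunits) (hpk : ((p : ℕ) : k) = 0)
    {g : SemilinearAut K F} (hg : IsInertial R g) (e : ℕ)
    (he : SemilinearAut.baseAut g (1 + lam) = (1 + lam) ^ e) (f : R.O) :
    ∃ f' : R.O, g • (1 + algebraMap K F (lam ^ p) * (f : F))
        = 1 + algebraMap K F (lam ^ p) * (f' : F) ∧
      R.red f' = (e : Fk) * R.red f := by
  have hlamA : lam ∈ A := A.nonunits_le hlam
  obtain ⟨d, hd, hgl⟩ := rg2_base_lam (A := A) g hlamA e he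
  set cA : A := ((e : A) + ⟨lam, hlamA⟩ * ⟨d, hd⟩) ^ p with hcA
  have hcK : (cA : K) = ((e : K) + lam * d) ^ p := by
    rw [hcA]
    push_cast
    rfl
  refine ⟨⟨algebraMap K F (cA : K), R.algebraMap_mem cA⟩ * ⟨g • (f : F), hg.smul_mem f.2⟩,
    ?_, ?_⟩
  · rw [smul_add, smul_one, smul_mul', SemilinearAut.smul_algebraMap, map_pow, hgl]
    show _ = 1 + algebraMap K F (lam ^ p) * (algebraMap K F (cA : K) * (g • (f : F)))
    rw [hcK, ← mul_assoc, ← map_mul, mul_pow]
  · rw [map_mul, R.red_algebraMap, hg.red_smul f.2]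
    have h2 : π ⟨lam, hlamA⟩ = 0 := (R.π_eq_zero_iff ⟨lam, hlamA⟩).mpr hlam
    have h3 : π cA = (e : k) := by
      rw [hcA, map_pow, map_add, map_mul, h2, zero_mul, add_zero, map_natCast]
      exact rg2_natCast_pow hp hpk e
    rw [h3, map_natCast]

/-- an element of `O` with reduction `0` is divisible by a nonunit of `A` -/
theorem rg2_exists_smul_of_red_eq_zero (R : ConstRed A π Fk F) (x : R.O) (hx : R.red x = 0) :
    ∃ (b : A) (t : R.O), (b : K) ∈ A.nonunits ∧ (x : F) = algebraMap K F (b : K) * (t : F) := by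
  rcases eq_or_ne (x : F) 0 with h0 | h0
  · exact ⟨0, 0, by simp, by simp [h0]⟩
  obtain ⟨c, hc, hy, hyinv⟩ := R.exists_unit_smul (x : F) h0
  have hcA : c ∉ A := by
    intro hcA
    have h1 : R.red (⟨algebraMap K F c * (x : F), hy⟩ : R.O) = 0 := by
      have : (⟨algebraMap K F c * (x : F), hy⟩ : R.O)
          = ⟨algebraMap K F c, R.algebraMap_mem ⟨c, hcA⟩⟩ * x := Subtype.ext rfl
      rw [this, map_mul, hx, mul_zero]
    have h2 : (⟨algebraMap K F c * (x : F), hy⟩ : R.O) * ⟨(algebraMap K F c * (x : F))⁻¹, hyinv⟩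
        = 1 := by
      apply Subtype.ext
      show algebraMap K F c * (x : F) * (algebraMap K F c * (x : F))⁻¹ = 1
      apply mul_inv_cancel₀
      exact mul_ne_zero ((map_ne_zero (algebraMap K F)).mpr hc) h0
    have h3 := congrArg R.red h2
    rw [map_mul, h1, zero_mul, map_one] at h3
    exact zero_ne_one h3
  have hcinv : c⁻¹ ∈ A := (A.mem_or_inv_mem c).resolve_left hcA
  refine ⟨⟨c⁻¹, hcinv⟩, ⟨algebraMap K F c * (x : F), hy⟩, ?_, ?_⟩
  · rw [ValuationSubring.mem_nonunits_iff_or]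
    right
    rwa [inv_inv]
  · show (x : F) = algebraMap K F c⁻¹ * (algebraMap K F c * (x : F))
    rw [← mul_assoc, ← map_mul, inv_mul_cancel₀ hc, map_one, one_mul]

/-- an element of `O` with nonzero reduction is a unit of `O` -/
theorem rg2_inv_mem (R : ConstRed A π Fk F) (x : R.O) (hx : R.red x ≠ 0) : (x : F)⁻¹ ∈ R.O := by
  have hnu : (x : F) ∉ R.O.nonunits := fun h => hx ((R.red_eq_zero_iff x).mpr h)
  rw [ValuationSubring.mem_nonunits_iff_or, not_or, not_not] at hnu
  exact hnu.2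

/-- **regime II, the ratio**: if `red f₁ = e · red f` then
`1 + a f₁ = (1 + a f) ^ e · (1 + a b t)` with `b ∈ 𝔪_A`, `t ∈ O` (any `a ∈ 𝔪_A`). -/
theorem rg2_ratio_gen (R : ConstRed A π Fk F) (a : A) (ha : (a : K) ∈ A.nonunits) (e : ℕ)
    (f f₁ : R.O) (hred : R.red f₁ = (e : Fk) * R.red f) :
    ∃ (b : A) (t : R.O), (b : K) ∈ A.nonunits ∧
      1 + algebraMap K F (a : K) * (f₁ : F)
        = (1 + algebraMap K F (a : K) * (f : F)) ^ e
          * (1 + algebraMap K F ((a : K) * (b : K)) * (t : F)) := by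
  set aO : R.O := ⟨algebraMap K F (a : K), R.algebraMap_mem a⟩ with haO
  have haO0 : R.red aO = 0 := by
    rw [haO, R.red_algebraMap, (R.π_eq_zero_iff a).mpr ha, map_zero]
  obtain ⟨d, hd⟩ := rg2_binom (aO * f) e
  -- `w₀ = (1 + a f) ^ e` is a unit of `O`
  have hw0 : R.red ((1 + aO * f) ^ e) = 1 := by
    rw [map_pow, map_add, map_one, map_mul, haO0, zero_mul, add_zero, one_pow]
  have hw0inv : (((1 + aO * f) ^ e : R.O) : F)⁻¹ ∈ R.O :=
    rg2_inv_mem R _ (by rw [hw0]; exact one_ne_zero)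
  have hw0ne : (((1 + aO * f) ^ e : R.O) : F) ≠ 0 := by
    intro h0
    have : ((1 + aO * f) ^ e : R.O) = 0 := Subtype.ext h0
    rw [this, map_zero] at hw0
    exact zero_ne_one hw0
  set y : R.O := (f₁ - (e : R.O) * f - aO * f ^ 2 * d) * ⟨_, hw0inv⟩ with hy
  have hyred : R.red y = 0 := by
    rw [hy]
    simp only [map_mul, map_sub, map_natCast, map_pow, haO0, hred]
    ring
  obtain ⟨b, t, hb, hbt⟩ := rg2_exists_smul_of_red_eq_zero R y hyred
  refine ⟨b, t, hb, ?_⟩
  have hdF : (1 + algebraMap K F (a : K) * (f : F)) ^ e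
      = 1 + (e : F) * (algebraMap K F (a : K) * (f : F))
        + (algebraMap K F (a : K) * (f : F)) ^ 2 * (d : F) := by
    have := congrArg (fun x : R.O => (x : F)) hd
    simpa [haO] using this
  have hw0F : (((1 + aO * f) ^ e : R.O) : F) = (1 + algebraMap K F (a : K) * (f : F)) ^ e := by
    simp [haO]
  have hyF : (y : F) = ((f₁ : F) - (e : F) * (f : F)
      - algebraMap K F (a : K) * (f : F) ^ 2 * (d : F))
        * ((1 + algebraMap K F (a : K) * (f : F)) ^ e)⁻¹ := by
    rw [hy, ← hw0F]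
    simp [haO]
  rw [hw0F] at hw0ne
  rw [map_mul, mul_assoc (algebraMap K F (a : K)), ← hbt, hyF]
  field_simp
  rw [hdF]
  ring

/-- **regime II, the ratio** at level `lam ^ p`, with the level condition of crux III -/
theorem rg2_ratio (R : ConstRed A π Fk F) {p : ℕ} (hp : p.Prime) {lam : K} (hlam0 : lam ≠ 0)
    (hlam : lam ∈ A.nonunits)
    (hplam : ∃ ε ∈ A, ((p : ℕ) : K) = -(lam ^ (p - 1)) * (1 + lam * ε)) (e : ℕ)
    (f f₁ : R.O) (hred : R.red f₁ = (e : Fk) * R.red f) :
    ∃ (a : A) (t : R.O), A.valuation ((a : K) ^ (p - 1)) < A.valuation (((p : ℕ) : K) ^ p) ∧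
      1 + algebraMap K F (lam ^ p) * (f₁ : F)
        = (1 + algebraMap K F (lam ^ p) * (f : F)) ^ e
          * (1 + algebraMap K F (a : K) * (t : F)) := by
  have hlamA : lam ∈ A := A.nonunits_le hlam
  have hp0 : p ≠ 0 := hp.ne_zero
  have hlp : ((⟨lam, hlamA⟩ ^ p : A) : K) ∈ A.nonunits := by
    rw [A.mem_nonunits_iff]
    push_cast
    rw [map_pow]
    exact pow_lt_one₀ zero_le ((A.mem_nonunits_iff).mp hlam) hp0
  obtain ⟨b, t, hb, h⟩ := rg2_ratio_gen R (⟨lam, hlamA⟩ ^ p : A) hlp e f f₁ hred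
  refine ⟨(⟨lam, hlamA⟩ ^ p : A) * b, t, ?_, ?_⟩
  · have := rg2_val_lt hp hlam0 hlam hplam hb
    simpa using this
  · simpa using h

section Divisors

variable [RRBase K F]

/-- the divisor of `g • f` is `g • div f` -/
theorem rg2_divOf_smul (g : SemilinearAut K F) (f : F) :
    divOf (K := K) (g • f) = g • divOf (K := K) f := by
  ext Q
  rw [SemilinearAut.divisor_smul_apply, divOf_apply', divOf_apply']
  have h := SemilinearAut.ord_smul g (g⁻¹ • Q) f
  rw [smul_inv_smul] at h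
  exact h

/-- `div f` is principal -/
theorem rg2_divOf_mem_principal {f : F} (hf : f ≠ 0) :
    divOf (K := K) f ∈ Divisor.principal (K := K) (F := F) :=
  ⟨f, hf, fun v => divOf_apply hf v⟩

/-- **regime II**: with crux III (`hcrux`, = `cxp_principal`) an inertial `g` with `g ζ = ζ ^ e`
acts by `e` on the classes with a Kummer function of level `≥ v*`:
`p • E = div (c · s ^ p · (1 + lam ^ p f))` ⇒ `g • E − e • E` is principal. -/
theorem rg2_tau_principal (R : ConstRed A π Fk F) {p : ℕ} (hp : p.Prime) {lam : K}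
    (hlam0 : lam ≠ 0) (hlam : lam ∈ A.nonunits)
    (hplam : ∃ ε ∈ A, ((p : ℕ) : K) = -(lam ^ (p - 1)) * (1 + lam * ε))
    (hcrux : ∀ a : A, A.valuation ((a : K) ^ (p - 1)) < A.valuation (((p : ℕ) : K) ^ p) →
      ∀ (t : R.O) (E : Divisor K F),
        p • E = divOf (K := K) (1 + algebraMap K F (a : K) * (t : F)) →
        E ∈ Divisor.principal (K := K) (F := F))
    {g : SemilinearAut K F} (hg : IsInertial R g) (e : ℕ)
    (he : SemilinearAut.baseAut g (1 + lam) = (1 + lam) ^ e)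
    (c : K) (hc : c ≠ 0) (s : F) (hs : s ≠ 0) (f : R.O) (E : Divisor K F)
    (hE : p • E = divOf (K := K)
      (algebraMap K F c * s ^ p * (1 + algebraMap K F (lam ^ p) * (f : F)))) :
    g • E - e • E ∈ Divisor.principal (K := K) (F := F) := by
  have hpk : ((p : ℕ) : k) = 0 := rg2_pi_p R hp hlam hplam
  obtain ⟨f', hgf, hred⟩ := rg2_inertia R hp hlam hpk hg e he f
  obtain ⟨a, t, hat, hrat⟩ := rg2_ratio R hp hlam0 hlam hplam e f f' hred
  set w : F := 1 + algebraMap K F (lam ^ p) * (f : F) with hw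
  set w' : F := 1 + algebraMap K F (lam ^ p) * (f' : F) with hw'
  set z : F := 1 + algebraMap K F (a : K) * (t : F) with hz
  have hlamA : lam ∈ A := A.nonunits_le hlam
  have hlpA : lam ^ p ∈ A := pow_mem hlamA p
  -- `w` is a unit of `O`
  have hwne : w ≠ 0 := by
    intro h0
    set aA : A := ⟨lam ^ p, hlpA⟩ with haA
    have h1 : R.red (1 + ⟨algebraMap K F (aA : K), R.algebraMap_mem aA⟩ * f) = 0 := by
      have : (1 + ⟨algebraMap K F (aA : K), R.algebraMap_mem aA⟩ * f : R.O) = 0 :=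
        Subtype.ext h0
      rw [this, map_zero]
    rw [map_add, map_one, map_mul, R.red_algebraMap] at h1
    have h2 : π aA = 0 := by
      rw [R.π_eq_zero_iff, A.mem_nonunits_iff]
      show A.valuation (lam ^ p) < 1
      rw [map_pow]
      exact pow_lt_one₀ zero_le ((A.mem_nonunits_iff).mp hlam) hp.ne_zero
    rw [h2, map_zero, zero_mul, add_zero] at h1
    exact one_ne_zero h1
  have hw'ne : w' ≠ 0 := by
    rw [← hgf]
    exact (smul_ne_zero_iff_ne g).mpr hwne
  have hzne : z ≠ 0 := by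
    intro h0
    rw [hrat, h0, mul_zero] at hw'ne
    exact hw'ne rfl
  have hcF : algebraMap K F c ≠ 0 := (map_ne_zero (algebraMap K F)).mpr hc
  have hgs : g • s ≠ 0 := (smul_ne_zero_iff_ne g).mpr hs
  have hgc : algebraMap K F (SemilinearAut.baseAut g c) ≠ 0 :=
    (map_ne_zero (algebraMap K F)).mpr (IsInertial.base_ne_zero g hc)
  -- the divisor of `u`
  have h1 : p • E = p • divOf (K := K) s + divOf (K := K) w := by
    rw [hE, cxa_divOf_mul (mul_ne_zero hcF (pow_ne_zero _ hs)) hwne,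
      cxa_divOf_mul hcF (pow_ne_zero _ hs), cxa_divOf_const, zero_add, cxa_divOf_pow]
  -- the divisor of `g • u`
  have h2 : p • (g • E) = p • divOf (K := K) (g • s) + (e • divOf (K := K) w + divOf (K := K) z) := by
    have h3 : g • (p • E) = divOf (K := K) (g • (algebraMap K F c * s ^ p * w)) := by
      rw [hE, rg2_divOf_smul]
    rw [smul_comm] at h3
    rw [h3, smul_mul', smul_mul', smul_pow', SemilinearAut.smul_algebraMap, hgf,
      cxa_divOf_mul (mul_ne_zero hgc (pow_ne_zero _ hgs)) hw'ne,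
      cxa_divOf_mul hgc (pow_ne_zero _ hgs), cxa_divOf_const, zero_add, cxa_divOf_pow, hrat,
      cxa_divOf_mul (pow_ne_zero _ hwne) hzne, cxa_divOf_pow]
  have h4 : p • (g • E - e • E - (divOf (K := K) (g • s) - e • divOf (K := K) s))
      = divOf (K := K) z := by
    rw [smul_sub, smul_sub, smul_sub, h2, smul_comm p e E, h1, smul_comm p e (divOf (K := K) s),
      smul_add]
    abel
  have h5 := hcrux a hat t _ h4
  have h6 : divOf (K := K) (g • s) - e • divOf (K := K) s
      ∈ Divisor.principal (K := K) (F := F) :=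
    sub_mem (rg2_divOf_mem_principal hgs) (nsmul_mem (rg2_divOf_mem_principal hs) e)
  have h7 := add_mem h5 h6
  rwa [sub_add_cancel] at h7

/-- **regime II in `Pic⁰`**: `g • x = e • x`. -/
theorem rg2_tau_pic0 (R : ConstRed A π Fk F) {p : ℕ} (hp : p.Prime) {lam : K}
    (hlam0 : lam ≠ 0) (hlam : lam ∈ A.nonunits)
    (hplam : ∃ ε ∈ A, ((p : ℕ) : K) = -(lam ^ (p - 1)) * (1 + lam * ε))
    (hcrux : ∀ a : A, A.valuation ((a : K) ^ (p - 1)) < A.valuation (((p : ℕ) : K) ^ p) →
      ∀ (t : R.O) (E : Divisor K F),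
        p • E = divOf (K := K) (1 + algebraMap K F (a : K) * (t : F)) →
        E ∈ Divisor.principal (K := K) (F := F))
    {g : SemilinearAut K F} (hg : IsInertial R g) (e : ℕ)
    (he : SemilinearAut.baseAut g (1 + lam) = (1 + lam) ^ e)
    (c : K) (hc : c ≠ 0) (s : F) (hs : s ≠ 0) (f : R.O)
    (D : Divisor.degZero (K := K) (F := F))
    (hD : p • (D : Divisor K F) = divOf (K := K)
      (algebraMap K F c * s ^ p * (1 + algebraMap K F (lam ^ p) * (f : F)))) :
    g • Pic0.mk D = e • Pic0.mk D := by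
  have h := rg2_tau_principal R hp hlam0 hlam hplam hcrux hg e he c hc s hs f (D : Divisor K F) hD
  rw [SemilinearAut.pic0_smul_mk]
  have h2 : e • Pic0.mk D = Pic0.mk (e • D) := rfl
  rw [h2]
  apply (QuotientAddGroup.eq_iff_sub_mem).mpr
  rw [AddSubgroup.mem_addSubgroupOf]
  simpa using h

end Divisors

section Good

variable [RRHyp K F] [RRHyp k Fk] [Infinite k]

/-- **regime II + crux III** (good reduction): an inertial `g` with `g ζ = ζ ^ e` acts by `e` on
the classes with a Kummer function of level `≥ v*`. -/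
theorem rg2_tau_principal_good (R : ConstRed A π Fk F) (hgen : genusFF K F ≤ genusFF k Fk)
    {p : ℕ} (hp : p.Prime) {lam : K} (hlam0 : lam ≠ 0) (hlam : lam ∈ A.nonunits)
    (hplam : ∃ ε ∈ A, ((p : ℕ) : K) = -(lam ^ (p - 1)) * (1 + lam * ε))
    (hk : ∀ (z : Fk) (β κ : k), z ^ p + algebraMap k Fk β * z = algebraMap k Fk κ →
      z ∈ Set.range (algebraMap k Fk))
    {g : SemilinearAut K F} (hg : IsInertial R g) (e : ℕ)
    (he : SemilinearAut.baseAut g (1 + lam) = (1 + lam) ^ e)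
    (c : K) (hc : c ≠ 0) (s : F) (hs : s ≠ 0) (f : R.O) (E : Divisor K F)
    (hE : p • E = divOf (K := K)
      (algebraMap K F c * s ^ p * (1 + algebraMap K F (lam ^ p) * (f : F)))) :
    g • E - e • E ∈ Divisor.principal (K := K) (F := F) :=
  rg2_tau_principal R hp hlam0 hlam hplam
    (fun a ha t E' hE' => cxp_principal R hgen hp (rg2_p_ne_zero hlam0 hlam hplam)
      (rg2_pi_p R hp hlam hplam) hk a ha t E' hE')
    hg e he c hc s hs f E hE

/-- **regime II + crux III in `Pic⁰`** (good reduction): `g • x = e • x`. -/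
theorem rg2_tau_pic0_good (R : ConstRed A π Fk F) (hgen : genusFF K F ≤ genusFF k Fk)
    {p : ℕ} (hp : p.Prime) {lam : K} (hlam0 : lam ≠ 0) (hlam : lam ∈ A.nonunits)
    (hplam : ∃ ε ∈ A, ((p : ℕ) : K) = -(lam ^ (p - 1)) * (1 + lam * ε))
    (hk : ∀ (z : Fk) (β κ : k), z ^ p + algebraMap k Fk β * z = algebraMap k Fk κ →
      z ∈ Set.range (algebraMap k Fk))
    {g : SemilinearAut K F} (hg : IsInertial R g) (e : ℕ)
    (he : SemilinearAut.baseAut g (1 + lam) = (1 + lam) ^ e)
    (c : K) (hc : c ≠ 0) (s : F) (hs : s ≠ 0) (f : R.O)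
    (D : Divisor.degZero (K := K) (F := F))
    (hD : p • (D : Divisor K F) = divOf (K := K)
      (algebraMap K F c * s ^ p * (1 + algebraMap K F (lam ^ p) * (f : F)))) :
    g • Pic0.mk D = e • Pic0.mk D :=
  rg2_tau_pic0 R hp hlam0 hlam hplam
    (fun a ha t E' hE' => cxp_principal R hgen hp (rg2_p_ne_zero hlam0 hlam hplam)
      (rg2_pi_p R hp hlam hplam) hk a ha t E' hE')
    hg e he c hc s hs f D hD

end Good



end Fermat.Agent.S33lib

end
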