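/-
Item 86 (S33), block REG2, the CONCRETE layer in FUNCTION FORM (helper5).  Complete proofs.

`F_L = FF L` the function field of `X₀(L)` over `ℚ̄`, `B` a valuation ring of `ℚ̄` over `p`,
`ζ` a primitive `p`-th root of unity, `λ = ζ − 1`, `χ₁ = cycChi p 1` the mod `p` cyclotomic
character, `I_B` the inertia group.

* `r2a_he`         : `τ ζ = ζ ^ χ₁(τ)`;
* `r2a_hk`         : over an algebraically closed `k`, a solution of `z^p + β z = κ` is constant;
* `r2a_kummer_aux` : **REG2 at an AUXILIARY level `M`** (where the genus inequality is known):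
                     `v ∈ F_M` with all orders divisible by `p` and `v = c s^p (1 + λ^p f)`,
                     `f ∈ R.O` (`R` a series reduction of `F_M` along `B`), `τ ∈ I_B`
                     ⇒ `τ v / v ^ χ₁(τ) = c' s'^p`;
* `r2a_main`       : **REG2 at level `M'`**, `M = M' e` auxiliary, `ψ(M) < 2 e ψ(M')`: the Kummer
                     function `u` lives in `F_{M'}`, its NORMAL FORM `ι u = c s^p (1 + λ^p f)` in
                     `F_M` ⇒ `τ u / u ^ χ₁(τ) = c₀ g₀^p` in `F_{M'}` (descent by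
                     `S18lib.exists_root_of_inclBar`);
* `r2a_pic0`       : the same in `J₀(M')`: `τ • [D] = χ₁(τ) • [D]` if `p D = div u`.
-/
import Mathlib
import Fermat.Agent.S33lib.RegimeTwo
import Fermat.Agent.S33lib.RayPow
import Fermat.Agent.S34lib.InertiaRedAL
import Fermat.Agent.S34lib.VRedInto
import Fermat.Agent.S34lib.UnipDesc
import Fermat.Agent.S34lib.UnipAux
import Fermat.Agent.S34lib.KummerU
import Fermat.Agent.S31lib.CycloMod
import Fermat.Agent.S18lib.Final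
import Fermat.Agent.GM.MainFinal
import Fermat.Agent.S36lib.ZetaIndep
import Fermat.Agent.S36lib.Speed

set_option autoImplicit false
set_option linter.unusedSectionVars false
set_option linter.unusedVariables false
set_option linter.style.haveILetI false
set_option synthInstance.maxHeartbeats 400000

noncomputable section

namespace Fermat.Agent.S33lib

open AlgebraicCurve ModularCurve
open Fermat.Agent.RRlib Fermat.Agent.GoodRed Fermat.Agent.S24lib Fermat.Agent.HeckeBar
  Fermat.Agent.GM Fermat.Agent.S34lib Fermat.Agent.S31lib Fermat.Agent.GalRep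
  Fermat.Agent.S18lib Fermat.Agent.S36lib

/-- `τ ζ = ζ ^ χ₁(τ)` for a `p`-th root of unity `ζ`. -/
theorem r2a_he (p : ℕ) [Fact p.Prime] (τ : Kbar ≃ₐ[ℚ] Kbar) {ζ : Kbar} (hζ : ζ ^ p = 1) :
    τ ζ = ζ ^ ((cycChi p 1 τ : (ZMod (p ^ 1))ˣ) : ZMod (p ^ 1)).val := by
  have h := cyclotomicCharacter.spec (L := Kbar) p (n := 1)
    (τ : Kbar ≃+* Kbar) ζ (by rwa [pow_one])
  rw [cyc_coe_cycChi]
  exact h

/-- over an algebraically closed field a solution of `z ^ p + β z = κ` is constant. -/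
theorem r2a_hk {k Fk : Type*} [Field k] [Field Fk] [Algebra k Fk] [IsAlgClosed k]
    {p : ℕ} (hp : 2 ≤ p) (z : Fk) (β κ : k)
    (h : z ^ p + algebraMap k Fk β * z = algebraMap k Fk κ) :
    z ∈ Set.range (algebraMap k Fk) := by
  have hdeg : (Polynomial.C β * Polynomial.X - Polynomial.C κ : Polynomial k).degree
      < (p : WithBot ℕ) := by
    refine lt_of_le_of_lt (Polynomial.degree_sub_le _ _) ?_
    refine max_lt ?_ ?_
    · refine lt_of_le_of_lt (Polynomial.degree_C_mul_X_le β) ?_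
      exact_mod_cast hp
    · refine lt_of_le_of_lt Polynomial.degree_C_le ?_
      exact_mod_cast (by omega : 0 < p)
  have hmonic : (Polynomial.X ^ p + (Polynomial.C β * Polynomial.X - Polynomial.C κ) :
      Polynomial k).Monic := Polynomial.monic_X_pow_add hdeg
  have hint : IsIntegral k z := by
    refine ⟨Polynomial.X ^ p + (Polynomial.C β * Polynomial.X - Polynomial.C κ), hmonic, ?_⟩
    rw [Polynomial.eval₂_add, Polynomial.eval₂_sub, Polynomial.eval₂_mul, Polynomial.eval₂_pow,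
      Polynomial.eval₂_X, Polynomial.eval₂_C, Polynomial.eval₂_C, ← add_sub_assoc, h, sub_self]
  exact minpoly.mem_range_of_degree_eq_one k z
    (IsAlgClosed.degree_eq_one_of_irreducible k (minpoly.irreducible hint))

section Aux

variable (M p : ℕ) [NeZero M] [Fact p.Prime]
variable (B : ValuationSubring Kbar) (hB : B.LiesOverPrime p)
variable {ζ : Kbar} (hζ : IsPrimitiveRoot ζ p)
variable (R : ConstRed B (IsLocalRing.residue B)
    (↥(modularFunctionFieldFullC (IsLocalRing.ResidueField B) M)) (FF M))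
  (hR : IsSeriesRed R)

set_option maxHeartbeats 1600000 in
include hB hζ hR in
/-- **REG2 at an auxiliary level, Kummer form.** -/
theorem r2a_kummer_aux (hAux : IsAuxLevel p M)
    (v : FF M) (hv : v ≠ 0) (hdiv : ∀ P : Place Kbar (FF M), (p : ℤ) ∣ P.ord v)
    (c : Kbar) (hc : c ≠ 0) (s : FF M) (hs : s ≠ 0) (f : R.O)
    (hnf : v = algebraMap Kbar (FF M) c * s ^ p *
      (1 + algebraMap Kbar (FF M) ((ζ - 1) ^ p) * (f : FF M)))
    (τ : Kbar ≃ₐ[ℚ] Kbar) (hτ : τ ∈ B.inertiaSubgroupIn ℚ) :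
    ∃ (c' : Kbar) (s' : FF M),
      galFF M τ • v / v ^ ((cycChi p 1 τ : (ZMod (p ^ 1))ˣ) : ZMod (p ^ 1)).val
        = algebraMap Kbar (FF M) c' * s' ^ p := by
  have hp : p.Prime := Fact.out
  haveI : IsAlgClosed (IsLocalRing.ResidueField B) := isAlgClosed_residueField B
  haveI : Infinite (IsLocalRing.ResidueField B) := IsAlgClosed.instInfinite
  haveI : RRHyp Kbar (FF M) := mod_rrHyp M
  haveI : RRHyp (IsLocalRing.ResidueField B)
      (↥(modularFunctionFieldFullC (IsLocalRing.ResidueField B) M)) := mr_rrHyp _ M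
  obtain ⟨E, hE⟩ := kummerU_exists_div (K := Kbar) hv hp.ne_zero hdiv
  have hpE : p • E = divOf (K := Kbar) (algebraMap Kbar (FF M) c * s ^ p *
      (1 + algebraMap Kbar (FF M) ((ζ - 1) ^ p) * (f : FF M))) := by
    rw [← hnf]
    ext w
    rw [Finsupp.smul_apply, divOf_apply hv, hE, nsmul_eq_mul]
  have hζp : ζ ^ p = 1 := hζ.pow_eq_one
  have hζB : ζ ∈ B := cyclo_mem_of_pow_eq_one B hp.ne_zero hζp
  have hlam0 : ζ - 1 ≠ 0 := sub_ne_zero.mpr (hζ.ne_one hp.one_lt)
  have hlam : ζ - 1 ∈ B.nonunits := by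
    rw [B.mem_nonunits_iff]
    exact zi_val_zeta_sub_one_lt_one B.valuation hp (B.mem_nonunits_iff.mp hB) hζ
  have hplam := rpw_p_eq hp hζ B hζB
  have hgen := genusFF_le_modL M hAux B hB
  have hg : IsInertial R (galFF M τ) := inred_isInertial_inf M hR (vri_hfrac M p hp B hB) τ hτ
  have he : SemilinearAut.baseAut (galFF M τ) (1 + (ζ - 1))
      = (1 + (ζ - 1)) ^ ((cycChi p 1 τ : (ZMod (p ^ 1))ˣ) : ZMod (p ^ 1)).val := by
    rw [add_sub_cancel]
    exact r2a_he p τ hζp
  have hprin := rg2_tau_principal_good R hgen hp hlam0 hlam hplam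
    (fun z β κ h => r2a_hk hp.two_le z β κ h) hg _ he c hc s hs f E hpE
  exact ua_kummer_of_principal p _ (galFF M τ) hv E hE hprin

end Aux

section Descent

variable (M' p : ℕ) [NeZero M'] [Fact p.Prime]
variable (M e : ℕ) [NeZero M] (hM : M = M' * e)
  (hdeg : dedekindPsi M < 2 * e * dedekindPsi M') (hAux : IsAuxLevel p M)
variable (B : ValuationSubring Kbar) (hB : B.LiesOverPrime p)
variable {ζ : Kbar} (hζ : IsPrimitiveRoot ζ p)
variable (R : ConstRed B (IsLocalRing.residue B)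
    (↥(modularFunctionFieldFullC (IsLocalRing.ResidueField B) M)) (FF M))
  (hR : IsSeriesRed R)

/-- divisibility of the orders passes to `τ u / u ^ e` -/
theorem r2a_dvd_ord (τ : Kbar ≃ₐ[ℚ] Kbar) (n : ℕ) (u : FF M') (hu : u ≠ 0)
    (hdiv : ∀ P : Place Kbar (FF M'), (p : ℤ) ∣ P.ord u) (P : Place Kbar (FF M')) :
    (p : ℤ) ∣ P.ord (galFF M' τ • u / u ^ n) := by
  haveI : RRHyp Kbar (FF M') := mod_rrHyp M'
  have hgu : galFF M' τ • u ≠ 0 := by simpa using hu
  rw [uk_ord_div P hgu (pow_ne_zero _ hu), uk_ord_smul' (galFF M' τ) P,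
    Fermat.Agent.S18lib.ord_pow_nat]
  exact dvd_sub (hdiv _) (Dvd.dvd.mul_left (hdiv _) _)

set_option maxHeartbeats 1600000 in
include hM hdeg hAux hB hζ hR in
/-- **REG2 at level `M'`, Kummer form**: the Kummer function `u ∈ F_{M'}` has a normal form of
level `≥ v*` in `F_M`, `M = M' e` an auxiliary level. -/
theorem r2a_main (hNM : M' ∣ M)
    (u : FF M') (hu : u ≠ 0) (hdiv : ∀ P : Place Kbar (FF M'), (p : ℤ) ∣ P.ord u)
    (c : Kbar) (hc : c ≠ 0) (s : FF M) (hs : s ≠ 0) (f : R.O)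
    (hnf : inclBar M' M hNM u = algebraMap Kbar (FF M) c * s ^ p *
      (1 + algebraMap Kbar (FF M) ((ζ - 1) ^ p) * (f : FF M)))
    (τ : Kbar ≃ₐ[ℚ] Kbar) (hτ : τ ∈ B.inertiaSubgroupIn ℚ) :
    ∃ (c₀ : Kbar) (g₀ : FF M'),
      galFF M' τ • u / u ^ ((cycChi p 1 τ : (ZMod (p ^ 1))ˣ) : ZMod (p ^ 1)).val
        = algebraMap Kbar (FF M') c₀ * g₀ ^ p := by
  have hp : p.Prime := Fact.out
  have hιu : inclBar M' M hNM u ≠ 0 := (_root_.map_ne_zero _).2 hu
  obtain ⟨c', s', h⟩ := r2a_kummer_aux M p B hB hζ R hR hAux (inclBar M' M hNM u) hιu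
    (ud_dvd_ord_incl M' M hNM p u hdiv) c hc s hs f hnf τ hτ
  have h' : inclBar M' M (hM ▸ dvd_mul_right M' e)
      (galFF M' τ • u / u ^ ((cycChi p 1 τ : (ZMod (p ^ 1))ˣ) : ZMod (p ^ 1)).val)
      = algebraMap Kbar (FF M) c' * s' ^ p := by
    rw [map_div₀, map_pow, ud_incl_smul]
    exact h
  have hgu : galFF M' τ • u ≠ 0 := by simpa using hu
  obtain ⟨g₀, c₀, h0⟩ := exists_root_of_inclBar M' M e hM hdeg p hp.pos
    (galFF M' τ • u / u ^ ((cycChi p 1 τ : (ZMod (p ^ 1))ˣ) : ZMod (p ^ 1)).val)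
    (div_ne_zero hgu (pow_ne_zero _ hu))
    (r2a_dvd_ord M' p τ _ u hu hdiv) s' c' h'
  exact ⟨c₀, g₀, h0⟩

set_option maxHeartbeats 1600000 in
include hM hdeg hAux hB hζ hR in
/-- **REG2 in `J₀(M')`**: a class with a Kummer function of level `≥ v*` (normal form at the
auxiliary level `M`) is an eigenclass of the inertia group for the mod `p` cyclotomic
character. -/
theorem r2a_pic0 (hNM : M' ∣ M)
    (D : Divisor.degZero (K := Kbar) (F := FF M')) (u : FF M') (hu : u ≠ 0)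
    (hD : ∀ P : Place Kbar (FF M'), P.ord u = (p : ℤ) * (D : Divisor Kbar (FF M')) P)
    (c : Kbar) (hc : c ≠ 0) (s : FF M) (hs : s ≠ 0) (f : R.O)
    (hnf : inclBar M' M hNM u = algebraMap Kbar (FF M) c * s ^ p *
      (1 + algebraMap Kbar (FF M) ((ζ - 1) ^ p) * (f : FF M)))
    (τ : Kbar ≃ₐ[ℚ] Kbar) (hτ : τ ∈ B.inertiaSubgroupIn ℚ) :
    τ • (Pic0.mk D : JZero M')
      = ((cycChi p 1 τ : (ZMod (p ^ 1))ˣ) : ZMod (p ^ 1)).val • (Pic0.mk D : JZero M') := by
  have hp : p.Prime := Fact.out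
  haveI : RRHyp Kbar (FF M') := mod_rrHyp M'
  have hordD : ∀ P : Place Kbar (FF M'), P.ord u = p * (D : Divisor Kbar (FF M')) P := hD
  have hdiv : ∀ P : Place Kbar (FF M'), (p : ℤ) ∣ P.ord u := fun P => ⟨_, hordD P⟩
  obtain ⟨c₀, g₀, h0⟩ := r2a_main M' p M e hM hdeg hAux B hB hζ R hR hNM u hu hdiv c hc s hs f
    hnf τ hτ
  set n : ℕ := ((cycChi p 1 τ : (ZMod (p ^ 1))ˣ) : ZMod (p ^ 1)).val with hn
  have hgu : galFF M' τ • u ≠ 0 := by simpa using hu
  have hw0 : galFF M' τ • u / u ^ n ≠ 0 := div_ne_zero hgu (pow_ne_zero _ hu)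
  have hc₀ : algebraMap Kbar (FF M') c₀ ≠ 0 := by
    intro h
    rw [h0, h, zero_mul] at hw0
    exact hw0 rfl
  have hg₀ : g₀ ≠ 0 := by
    intro h
    rw [h0, h, zero_pow hp.ne_zero, mul_zero] at hw0
    exact hw0 rfl
  -- the divisor `τ D − n D` is `div g₀`
  have hprin : galFF M' τ • (D : Divisor Kbar (FF M')) - n • (D : Divisor Kbar (FF M'))
      ∈ Divisor.principal (K := Kbar) (F := FF M') := by
    refine ⟨g₀, hg₀, fun P => ?_⟩
    have h1 : P.ord (galFF M' τ • u / u ^ n) = (p : ℤ) * P.ord g₀ := by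
      rw [h0, Place.ord_mul _ hc₀ (pow_ne_zero _ hg₀), uk_ord_const, zero_add,
        Fermat.Agent.S18lib.ord_pow_nat]
    rw [uk_ord_div P hgu (pow_ne_zero _ hu), uk_ord_smul' (galFF M' τ) P,
      Fermat.Agent.S18lib.ord_pow_nat, hordD, hordD] at h1
    have hp0 : (p : ℤ) ≠ 0 := by exact_mod_cast hp.ne_zero
    have h2 : (p : ℤ) * ((galFF M' τ • (D : Divisor Kbar (FF M'))
        - n • (D : Divisor Kbar (FF M'))) P) = (p : ℤ) * P.ord g₀ := by
      rw [← h1]
      simp only [Finsupp.sub_apply, Finsupp.smul_apply, SemilinearAut.divisor_smul_apply,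
        nsmul_eq_mul]
      ring
    exact mul_left_cancel₀ hp0 h2
  rw [galois_smul_pic0_def, SemilinearAut.pic0_smul_mk]
  have h2 : n • (Pic0.mk D : JZero M') = Pic0.mk (n • D) := rfl
  rw [h2]
  apply (QuotientAddGroup.eq_iff_sub_mem).mpr
  rw [AddSubgroup.mem_addSubgroupOf]
  simpa using hprin

end Descent

end Fermat.Agent.S33lib

end
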