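/-
Item 86 (S33), geometry block G1 (helper5): the MIXED predicates **Ker** / **Deep** on `J₀(M')`
and the statements (KSAT), (RAYJ), (REG2) for them; G1 from (TPINJ) and (LEV).  Complete proofs.

Good reduction (genus inequality, lifting (F3)) is known at the AUXILIARY levels only.  So the
Kummer function `u` of a class `x` of level `M'` lives in `F_{M'}`, but its NORMAL FORM is taken in
`F_M`, for every auxiliary multiple `M = M' e` of `M'` with `ψ(M) < 2 e ψ(M')`
(`S18lib.dedekindPsi_lcm_lt`: `M = lcm(M', baseLevel p)` is one), every series reduction `R` of `F_M`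
along `B`, and every primitive `p`-th root of unity `ζ`.

* `gaxKerAt`, `gaxDeepAt` : the normal forms at one `(M, R, ζ)` (the shapes of `rin_rayj`);
* `gaxKer M' p B x`, `gaxDeep M' p B x` : for all auxiliary data;
* `gaxI1 p B` : the inertia elements fixing `μ_p`;
* `gax_ksat_at`, `gax_rayj_at`, `gax_reg2_at` : (KSAT), (RAYJ), (REG2) at FIXED data;
* `gax_ksat`  : **(KSAT)**  `x ∈ s33hKI M' p B → p • x = 0 → gaxKer M' p B x`;
* `gax_rayj`  : **(RAYJ)**  `gaxKer M' p B x → (∀ τ ∈ gaxI1 p B, τ • x = x) → gaxDeep M' p B x`;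
* `gax_reg2`  : **(REG2)**  `gaxDeep M' p B x → ∀ τ ∈ I_B, τ • x = χ₁(τ) • x`;
* `s33_geom_good_mixed` : **G1** `S33ResJ M' p θ' → S33Geom M' p θ'` from (TPINJ) and (LEV) for
  `gaxKer`, `gaxDeep`.
-/
import Mathlib
import Fermat.Agent.S33lib.RegTwoAux
import Fermat.Agent.S33lib.RayInst
import Fermat.Agent.S33lib.KSatConc
import Fermat.Agent.S33lib.FitGood
import Fermat.Agent.GoodRed.DescTower
import Fermat.Agent.GoodRed.HredMain
import Fermat.Agent.S36lib.Speed

set_option autoImplicit false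
set_option linter.unusedSectionVars false
set_option linter.unusedVariables false
set_option linter.style.haveILetI false
set_option synthInstance.maxHeartbeats 400000

noncomputable section

namespace Fermat.Agent.S33lib

open AlgebraicCurve ModularCurve
open Fermat.Agent.RRlib Fermat.Agent.GoodRed Fermat.Agent.S24lib Fermat.Agent.HeckeBar
  Fermat.Agent.GM Fermat.Agent.S34lib Fermat.Agent.S31lib Fermat.Agent.GalRep
  Fermat.Agent.S18lib Fermat.Agent.S35lib

section Defs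

variable (M' M p : ℕ) [NeZero M'] [NeZero M] (hNM : M' ∣ M)
variable {B : ValuationSubring Kbar}
variable (R : ConstRed B (IsLocalRing.residue B)
    (↥(modularFunctionFieldFullC (IsLocalRing.ResidueField B) M)) (FF M))

/-- **Ker** at `(M, R)`: a Kummer function `u ∈ F_{M'}` of `x` with `c · ι u · w ^ p ≡ 1` modulo
the maximal ideal of `R.O` (`= hker` of `rin_rayj`). -/
def gaxKerAt (x : JZero M') : Prop :=
  ∃ (D : Divisor.degZero (K := Kbar) (F := FF M')) (u : FF M'), Pic0.mk D = x ∧ u ≠ 0 ∧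
    (∀ v : Place Kbar (FF M'), (p : ℤ) * (D : Divisor Kbar (FF M')) v = v.ord u) ∧
    ∃ (c : Kbar) (w : FF M), c ≠ 0 ∧ w ≠ 0 ∧
      algebraMap Kbar (FF M) c * inclBar M' M hNM u * w ^ p - 1 ∈ R.O.nonunits

/-- **Deep** at `(M, R, ζ)`: a Kummer function `u ∈ F_{M'}` of `x` with
`ι u = c s ^ p (1 + (ζ - 1) ^ p g)`, `g ∈ R.O`. -/
def gaxDeepAt (ζ : Kbar) (x : JZero M') : Prop :=
  ∃ (D : Divisor.degZero (K := Kbar) (F := FF M')) (u : FF M'), Pic0.mk D = x ∧ u ≠ 0 ∧
    (∀ v : Place Kbar (FF M'), (p : ℤ) * (D : Divisor Kbar (FF M')) v = v.ord u) ∧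
    ∃ (c : Kbar) (s g : FF M), c ≠ 0 ∧ s ≠ 0 ∧ g ∈ R.O ∧
      inclBar M' M hNM u
        = algebraMap Kbar (FF M) c * s ^ p * (1 + algebraMap Kbar (FF M) ((ζ - 1) ^ p) * g)

end Defs

section Preds

variable (M' p : ℕ) [NeZero M'] (B : ValuationSubring Kbar)

/-- **Ker**: the normal form at every auxiliary level. -/
def gaxKer (x : JZero M') : Prop :=
  ∀ (M e : ℕ) [NeZero M] (hNM : M' ∣ M), M = M' * e →
    dedekindPsi M < 2 * e * dedekindPsi M' → IsAuxLevel p M →
    ∀ R : ConstRed B (IsLocalRing.residue B)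
      (↥(modularFunctionFieldFullC (IsLocalRing.ResidueField B) M)) (FF M),
      IsSeriesRed R → gaxKerAt M' M p hNM R x

/-- **Deep**: the normal form of level `≥ v*` at every auxiliary level, for every primitive
`p`-th root of unity. -/
def gaxDeep (x : JZero M') : Prop :=
  ∀ (M e : ℕ) [NeZero M] (hNM : M' ∣ M), M = M' * e →
    dedekindPsi M < 2 * e * dedekindPsi M' → IsAuxLevel p M →
    ∀ R : ConstRed B (IsLocalRing.residue B)
      (↥(modularFunctionFieldFullC (IsLocalRing.ResidueField B) M)) (FF M),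
      IsSeriesRed R → ∀ ζ : Kbar, IsPrimitiveRoot ζ p → gaxDeepAt M' M p hNM R ζ x

/-- the inertia elements fixing `μ_p` -/
def gaxI1 : Set (Kbar ≃ₐ[ℚ] Kbar) :=
  {τ | τ ∈ B.inertiaSubgroupIn ℚ ∧ ∀ ζ : Kbar, ζ ^ p = 1 → τ ζ = ζ}

end Preds

section Exists

variable (M' p : ℕ) [NeZero M'] [Fact p.Prime] (hpM : ¬ p ∣ M')
variable (B : ValuationSubring Kbar) (hB : B.LiesOverPrime p)

/-- a primitive `p`-th root of unity in `ℚ̄` -/
theorem gax_exists_zeta : ∃ ζ : Kbar, IsPrimitiveRoot ζ p := by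
  have hp : p.Prime := Fact.out
  haveI : NeZero (p : Kbar) := ⟨by exact_mod_cast hp.ne_zero⟩
  exact HasEnoughRootsOfUnity.exists_primitiveRoot Kbar p

include hpM hB in
/-- auxiliary data exist -/
theorem gax_exists_aux :
    ∃ (M e : ℕ) (_ : NeZero M) (hNM : M' ∣ M), M = M' * e ∧
      dedekindPsi M < 2 * e * dedekindPsi M' ∧ IsAuxLevel p M ∧
      ∃ R : ConstRed B (IsLocalRing.residue B)
        (↥(modularFunctionFieldFullC (IsLocalRing.ResidueField B) M)) (FF M), IsSeriesRed R := by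
  have hp : p.Prime := Fact.out
  obtain ⟨e, hM, hdeg, hAux⟩ := dedekindPsi_lcm_lt M' p hp hpM
  have hM0 : Nat.lcm M' (baseLevel p) ≠ 0 := by
    intro h0
    rw [h0] at hAux
    exact hAux.1 (dvd_zero p)
  haveI : NeZero (Nat.lcm M' (baseLevel p)) := ⟨hM0⟩
  obtain ⟨R, hR⟩ := exists_modConstRed (Nat.lcm M' (baseLevel p)) B (w18_ne_top hB)
    (Fermat.Agent.GoodRed.hred_modL (Nat.lcm M' (baseLevel p)) hAux.1 B hB)
  exact ⟨Nat.lcm M' (baseLevel p), e, ⟨hM0⟩, Nat.dvd_lcm_left _ _, hM, hdeg, hAux, R, hR⟩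

end Exists

section Tower

variable {M' M : ℕ} [NeZero M'] [NeZero M] (hNM : M' ∣ M)
variable {p : ℕ} (hp : p.Prime) {B : ValuationSubring Kbar} (hB : B.LiesOverPrime p)
variable {R' : ConstRed B (IsLocalRing.residue B)
    (↥(modularFunctionFieldFullC (IsLocalRing.ResidueField B) M')) (FF M')}
variable {R : ConstRed B (IsLocalRing.residue B)
    (↥(modularFunctionFieldFullC (IsLocalRing.ResidueField B) M)) (FF M)}

include hp hB in
/-- the maximal ideals of two series reductions are compatible with `F_{M'} ⊆ F_M` -/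
theorem gax_nonunits_incl (hR' : IsSeriesRed R') (hR : IsSeriesRed R) {y : FF M'}
    (hy : y ∈ R'.O.nonunits) : inclBar M' M hNM y ∈ R.O.nonunits := by
  have hfrac : HasPrimFrac B (modularFunctionFieldBar M') := vri_hfrac M' p hp B hB
  have hyO : y ∈ R'.O := R'.O.nonunits_le hy
  obtain ⟨a, b, h⟩ := hR'.exists_isRep hfrac hyO
  have h' : IsRep B (modularFunctionFieldBar M)
      ((inclBar M' M hNM y : FF M) : LaurentSeries Kbar) a b := by
    rw [coe_inclBar]
    exact dw_isRep_mono (ffBar_mono hNM) h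
  have hmem : inclBar M' M hNM y ∈ R.O := hR.mem_of_isRep h'
  have hred' := hR'.red_of_isRep h hyO
  have hred := hR.red_of_isRep h' hmem
  have h0 : R'.red ⟨y, hyO⟩ = 0 := (R'.red_eq_zero_iff ⟨y, hyO⟩).mpr hy
  have h1 : R.red ⟨inclBar M' M hNM y, hmem⟩ = 0 := by
    apply Subtype.ext
    rw [hred, ← hred', h0]
    rfl
  exact (R.red_eq_zero_iff ⟨_, hmem⟩).mp h1

end Tower

section FiveAt

variable (M' M e p : ℕ) [NeZero M'] [NeZero M] [Fact p.Prime] (hNM : M' ∣ M)
variable (B : ValuationSubring Kbar) (hB : B.LiesOverPrime p)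
variable (R : ConstRed B (IsLocalRing.residue B)
    (↥(modularFunctionFieldFullC (IsLocalRing.ResidueField B) M)) (FF M))
  (hR : IsSeriesRed R)

set_option maxHeartbeats 1600000 in
include hB hR in
/-- **(KSAT)** at fixed data `(M, R)`, any level `M` with `M' ∣ M`, `p ∤ M'`. -/
theorem gax_ksat_at (hpM : ¬ p ∣ M') (x : JZero M') (hx : x ∈ s33hKI M' p B)
    (hpx : p • x = 0) : gaxKerAt M' M p hNM R x := by
  have hp : p.Prime := Fact.out
  haveI : IsAlgClosed (IsLocalRing.ResidueField B) := isAlgClosed_residueField B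
  haveI : RRHyp (IsLocalRing.ResidueField B)
      (↥(modularFunctionFieldFullC (IsLocalRing.ResidueField B) M')) := mr_rrHyp _ M'
  obtain ⟨R', hR'⟩ := exists_modConstRed M' B (w18_ne_top hB) (Fermat.Agent.GoodRed.hred_modL M' hpM B hB)
  obtain ⟨D, f, hD, hf, hord, h1⟩ := ksat_conc M' p hp B hB R' hR' x hx hpx
  refine ⟨D, f, hD, hf, hord, 1, 1, one_ne_zero, one_ne_zero, ?_⟩
  have h2 := gax_nonunits_incl hNM hp hB hR' hR h1
  rw [map_sub, map_one] at h2
  rw [map_one, one_mul, one_pow, mul_one]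
  exact h2

/-- a class of **Ker** (at any data) is killed by `p` -/
theorem gax_kerAt_torsion (x : JZero M') (hx : gaxKerAt M' M p hNM R x) : p • x = 0 := by
  haveI : RRHyp Kbar (FF M') := mod_rrHyp M'
  obtain ⟨D, u, hD, hu, hord, -⟩ := hx
  rw [← hD]
  have h2 : p • (Pic0.mk D : JZero M') = Pic0.mk (p • D) := rfl
  rw [h2]
  apply mk_eq_zero_of_mem_principal
  refine ⟨u, hu, fun v => ?_⟩
  rw [← hord v]
  simp

set_option maxHeartbeats 1600000 in
include hB hR in
/-- **(RAYJ)** at fixed data `(M, R, ζ)`, `M` auxiliary. -/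
theorem gax_rayj_at (hAux : IsAuxLevel p M) {ζ : Kbar} (hζ : IsPrimitiveRoot ζ p)
    (x : JZero M') (hx : gaxKerAt M' M p hNM R x)
    (hfix : ∀ τ ∈ gaxI1 p B, τ • x = x) : gaxDeepAt M' M p hNM R ζ x := by
  have hpx : p • x = 0 := gax_kerAt_torsion M' M p hNM B R x hx
  have hfix' : ∀ τ ∈ rlfI1 B ζ, τ • x = x := by
    intro τ hτ
    exact hfix τ ⟨hτ.1, fun t ht => fgd_fix_all_of_primitive p hζ τ hτ.2 t ht⟩
  obtain ⟨D, u, hD, hu, hord, -, -, c, s, g, hc, hs, hg, hnf⟩ :=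
    rin_rayj hNM p hAux hB hR hζ x hfix' hpx hx
  exact ⟨D, u, hD, hu, hord, c, s, g, hc, hs, hg, hnf⟩

set_option maxHeartbeats 1600000 in
include hB hR in
/-- **(REG2)** at fixed data `(M, e, R, ζ)`, `M = M' e` auxiliary with `ψ(M) < 2 e ψ(M')`. -/
theorem gax_reg2_at (hM : M = M' * e) (hdeg : dedekindPsi M < 2 * e * dedekindPsi M')
    (hAux : IsAuxLevel p M) {ζ : Kbar} (hζ : IsPrimitiveRoot ζ p)
    (x : JZero M') (hx : gaxDeepAt M' M p hNM R ζ x)
    (τ : Kbar ≃ₐ[ℚ] Kbar) (hτ : τ ∈ B.inertiaSubgroupIn ℚ) :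
    τ • x = ((cycChi p 1 τ : (ZMod (p ^ 1))ˣ) : ZMod (p ^ 1)).val • x := by
  obtain ⟨D, u, hD, hu, hord, c, s, g, hc, hs, hg, hnf⟩ := hx
  rw [← hD]
  exact r2a_pic0 M' p M e hM hdeg hAux B hB hζ R hR hNM D u hu (fun P => (hord P).symm)
    c hc s hs ⟨g, hg⟩ hnf τ hτ

end FiveAt

section Five

variable (M' p : ℕ) [NeZero M'] [Fact p.Prime] (hpM : ¬ p ∣ M')
variable (B : ValuationSubring Kbar) (hB : B.LiesOverPrime p)

set_option maxHeartbeats 1600000 in
include hpM hB in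
/-- **(KSAT)** for the mixed predicate. -/
theorem gax_ksat (x : JZero M') (hx : x ∈ s33hKI M' p B) (hpx : p • x = 0) :
    gaxKer M' p B x := by
  intro M e _ hNM hM hdeg hAux R hR
  exact gax_ksat_at M' M p hNM B hB R hR hpM x hx hpx

set_option maxHeartbeats 1600000 in
include hpM hB in
/-- a class of **Ker** is killed by `p` -/
theorem gax_ker_torsion (x : JZero M') (hx : gaxKer M' p B x) : p • x = 0 := by
  obtain ⟨M, e, _, hNM, hM, hdeg, hAux, R, hR⟩ := gax_exists_aux M' p hpM B hB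
  exact gax_kerAt_torsion M' M p hNM B R x (hx M e hNM hM hdeg hAux R hR)

set_option maxHeartbeats 1600000 in
include hpM hB in
/-- **(RAYJ)** for the mixed predicates. -/
theorem gax_rayj (x : JZero M') (hx : gaxKer M' p B x)
    (hfix : ∀ τ ∈ gaxI1 p B, τ • x = x) : gaxDeep M' p B x := by
  intro M e _ hNM hM hdeg hAux R hR ζ hζ
  exact gax_rayj_at M' M p hNM B hB R hR hAux hζ x (hx M e hNM hM hdeg hAux R hR) hfix

set_option maxHeartbeats 1600000 in
include hpM hB in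
/-- **(REG2)** for the mixed predicate. -/
theorem gax_reg2 (x : JZero M') (hx : gaxDeep M' p B x)
    (τ : Kbar ≃ₐ[ℚ] Kbar) (hτ : τ ∈ B.inertiaSubgroupIn ℚ) :
    τ • x = ((cycChi p 1 τ : (ZMod (p ^ 1))ˣ) : ZMod (p ^ 1)).val • x := by
  obtain ⟨M, e, _, hNM, hM, hdeg, hAux, R, hR⟩ := gax_exists_aux M' p hpM B hB
  obtain ⟨ζ, hζ⟩ := gax_exists_zeta p
  exact gax_reg2_at M' M e p hNM B hB R hR hM hdeg hAux hζ x
    (hx M e hNM hM hdeg hAux R hR ζ hζ) τ hτ

end Five

section G1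

variable (M' : ℕ) [NeZero M'] (p : ℕ) [Fact p.Prime] {N : ℕ} {S : Finset ℕ}
  {κ : Type*} [Semiring κ] (θ' : HPoly N S →+* κ)

set_option maxHeartbeats 1600000 in
/-- **G1 (good level)** from (TPINJ) and (LEV) for the mixed predicates. -/
theorem s33_geom_good_mixed (hpM : ¬ p ∣ M') (Jin : JacInput M' p)
    (TPINJ : ∀ B : ValuationSubring (AlgebraicClosure ℚ), B.LiesOverPrime p →
      ∀ x : JZero M', gaxDeep M' p B x → heckeOperatorBar M' ⟨p, Fact.out⟩ x = 0 → x = 0)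
    (LEV : ∀ B : ValuationSubring (AlgebraicClosure ℚ), B.LiesOverPrime p →
      ∀ X : AddSubgroup (JZero M'), (X : Set (JZero M')).Finite → (∀ x ∈ X, p • x = 0) →
        (∀ x ∈ X, gaxKer M' p B x) → (∀ τ ∈ B.inertiaSubgroupIn ℚ, ∀ x ∈ X, τ • x ∈ X) →
        (∀ x ∈ X, heckeOperatorBar M' ⟨p, Fact.out⟩ x ∈ X) →
        (∀ x ∈ X, heckeOperatorBar M' ⟨p, Fact.out⟩ x = 0 → x = 0) →
        ∀ x ∈ X, gaxDeep M' p B x)
    (hres : S33ResJ M' p θ') : S33Geom M' p θ' :=
  s33_geom_good_of M' p θ' Jin (gaxKer M' p) (gaxDeep M' p) (gaxI1 p)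
    (fun B hB τ hτ => hτ)
    (fun B hB x hx hpx => gax_ksat M' p hpM B hB x hx hpx)
    (fun B hB x hx hfix => gax_rayj M' p hpM B hB x hx hfix)
    (fun B hB x hx τ hτ => gax_reg2 M' p hpM B hB x hx τ hτ)
    TPINJ LEV hres

end G1

end Fermat.Agent.S33lib

end
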