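import Mathlib
import Fermat.Agent.S35lib.NormProd
import Fermat.Agent.S35lib.FrobE0
import Fermat.Agent.S36lib.Speed

/-!
# Item 86 (S33), piece (b) (helper24): the norms commute with the level maps `inclBar`

For `N ∣ M` and a prime `ℓ ∤ M` the inclusions `ι : F_N → F_M`, `ι : F_{Nℓ} → F_{Mℓ}` commute
with the two degeneracy maps and with the norms along them:

* `nic_alpha`, `nic_beta`: `ι (Nm_α x) = Nm_α (ι x)`, `ι (Nm_β x) = Nm_β (ι x)` for `x ∈ F_{Nℓ}`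
  (from the product formulas `normProd`: both sides have the same `q`-expansion);
* `nic_tp`: `ι (Nm_α (β Y)) = Nm_α (β (ι Y))` for `Y ∈ F_N` (the Kummer function of `T_ℓ`);
* `nic_incl_alpha`, `nic_incl_beta`: `ι ∘ α = α ∘ ι`, `ι ∘ β = β ∘ ι`;
* `nic_E0`: the second expansions agree, `E₀^M (ι x) = E₀^N x`.

So a normal form of a Kummer function found at an auxiliary level `M` can be pushed through
`T_ℓ`, `α_*`, `β_*` at the level `M` and compared with the level `N`.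
-/

set_option autoImplicit false
set_option linter.style.haveILetI false
set_option linter.unusedSectionVars false
set_option linter.unusedVariables false

noncomputable section

namespace Fermat.Agent.S33lib

open ModularCurve AlgebraicCurve HahnSeries
open Fermat.Agent.S24lib Fermat.Agent.HeckeBar Fermat.Agent.S37lib
open Fermat.Agent.S35lib

variable (N M ℓ : ℕ) [NeZero N] [NeZero M] [NeZero ℓ]

theorem nic_dvd (h : N ∣ M) : N * ℓ ∣ M * ℓ := Nat.mul_dvd_mul_right h ℓ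

/-- `ι ∘ α = α ∘ ι` -/
theorem nic_incl_alpha (h : N ∣ M) (Y : FF N) :
    inclBar (N * ℓ) (M * ℓ) (nic_dvd N M ℓ h) (heckeAlphaBar Kbar N ℓ Y)
      = heckeAlphaBar Kbar M ℓ (inclBar N M h Y) := by
  apply Subtype.ext
  rw [coe_inclBar, coe_heckeAlphaBar, coe_heckeAlphaBar, coe_inclBar]

/-- `ι ∘ β = β ∘ ι` -/
theorem nic_incl_beta (h : N ∣ M) (Y : FF N) :
    inclBar (N * ℓ) (M * ℓ) (nic_dvd N M ℓ h) (heckeBetaBar Kbar N ℓ Y)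
      = heckeBetaBar Kbar M ℓ (inclBar N M h Y) := by
  apply Subtype.ext
  rw [coe_inclBar, coe_heckeBetaBar, coe_heckeBetaBar, coe_inclBar]

/-- the second expansion at level `M ℓ` restricts to the second expansion at level `N ℓ` -/
theorem nic_E0 (hℓ : ℓ.Prime) (h : N ∣ M)
    (E₀ : FF (N * ℓ) →+* LaurentSeries Kbar)
    (hc : ∀ c : Kbar, E₀ (algebraMap Kbar (FF (N * ℓ)) c) = algebraMap Kbar (LaurentSeries Kbar) c)
    (hα : ∀ Y : FF N, E₀ (heckeAlphaBar Kbar N ℓ Y) = qExpand Kbar ℓ (Y : LaurentSeries Kbar))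
    (hβ : ∀ Y : FF N, E₀ (heckeBetaBar Kbar N ℓ Y) = (Y : LaurentSeries Kbar))
    (E₁ : FF (M * ℓ) →+* LaurentSeries Kbar)
    (hc₁ : ∀ c : Kbar, E₁ (algebraMap Kbar (FF (M * ℓ)) c)
      = algebraMap Kbar (LaurentSeries Kbar) c)
    (hα₁ : ∀ Y : FF M, E₁ (heckeAlphaBar Kbar M ℓ Y) = qExpand Kbar ℓ (Y : LaurentSeries Kbar))
    (hβ₁ : ∀ Y : FF M, E₁ (heckeBetaBar Kbar M ℓ Y) = (Y : LaurentSeries Kbar))
    (x : FF (N * ℓ)) :
    E₁ (inclBar (N * ℓ) (M * ℓ) (nic_dvd N M ℓ h) x) = E₀ x := by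
  set E' : FF (N * ℓ) →+* LaurentSeries Kbar :=
    E₁.comp ((inclBar (N * ℓ) (M * ℓ) (nic_dvd N M ℓ h) : FF (N * ℓ) →ₐ[Kbar] FF (M * ℓ)) :
      FF (N * ℓ) →+* FF (M * ℓ)) with hE'
  have hE'x : ∀ x, E' x = E₁ (inclBar (N * ℓ) (M * ℓ) (nic_dvd N M ℓ h) x) := fun x => rfl
  have h1 : E' = E₀ := by
    refine fe0_unique N ℓ hℓ E' E₀ ?_ ?_ ?_ hc hα hβ
    · intro c
      rw [hE'x, AlgHom.commutes, hc₁]
    · intro Y
      rw [hE'x, nic_incl_alpha N M ℓ h, hα₁, coe_inclBar]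
    · intro Y
      rw [hE'x, nic_incl_beta N M ℓ h, hβ₁, coe_inclBar]
  rw [← hE'x, h1]

variable {N M ℓ}

/-- **the `α`-norm commutes with the level maps** -/
theorem nic_alpha (hℓ : ℓ.Prime) (hℓM : ¬ ℓ ∣ M) (h : N ∣ M) (x : FF (N * ℓ)) :
    inclBar N M h (normAlong (heckeAlphaBar Kbar N ℓ) x)
      = normAlong (heckeAlphaBar Kbar M ℓ) (inclBar (N * ℓ) (M * ℓ) (nic_dvd N M ℓ h) x) := by
  have hℓN : ¬ ℓ ∣ N := fun hd => hℓM (hd.trans h)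
  obtain ⟨E₀, hc, hα, hβ, hA, -⟩ := normProd N ℓ hℓ hℓN
  obtain ⟨E₁, hc₁, hα₁, hβ₁, hA₁, -⟩ := normProd M ℓ hℓ hℓM
  have : NeZero ((ℓ : ℕ) : ℚ) := ⟨by exact_mod_cast NeZero.ne ℓ⟩
  obtain ⟨ζ0, hζ0⟩ := HasEnoughRootsOfUnity.exists_primitiveRoot (AlgebraicClosure ℚ) ℓ
  have hunit : IsUnit ζ0 := hζ0.isUnit (NeZero.ne ℓ)
  obtain ⟨ζ, rfl⟩ := hunit
  apply Subtype.ext
  apply qExpand_injective (R := Kbar) ℓ
  have e1 : qExpand Kbar ℓ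
        ((normAlong (heckeAlphaBar Kbar N ℓ) x : FF N) : LaurentSeries Kbar)
      = qExpand Kbar ℓ (x : LaurentSeries Kbar) * ∏ b ∈ Finset.range ℓ, twq (ζ ^ b) (E₀ x) :=
    hA ζ hζ0 x
  have e2 : qExpand Kbar ℓ
        ((normAlong (heckeAlphaBar Kbar M ℓ)
          (inclBar (N * ℓ) (M * ℓ) (nic_dvd N M ℓ h) x) : FF M) : LaurentSeries Kbar)
      = qExpand Kbar ℓ ((inclBar (N * ℓ) (M * ℓ) (nic_dvd N M ℓ h) x : FF (M * ℓ)) :
          LaurentSeries Kbar)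
        * ∏ b ∈ Finset.range ℓ, twq (ζ ^ b)
            (E₁ (inclBar (N * ℓ) (M * ℓ) (nic_dvd N M ℓ h) x)) :=
    hA₁ ζ hζ0 _
  rw [coe_inclBar, e1, e2, coe_inclBar]
  congr 1
  refine Finset.prod_congr rfl fun b _ => ?_
  rw [nic_E0 N M ℓ hℓ h E₀ hc hα hβ E₁ hc₁ hα₁ hβ₁ x]

/-- **the `β`-norm commutes with the level maps** -/
theorem nic_beta (hℓ : ℓ.Prime) (hℓM : ¬ ℓ ∣ M) (h : N ∣ M) (x : FF (N * ℓ)) :
    inclBar N M h (normAlong (heckeBetaBar Kbar N ℓ) x)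
      = normAlong (heckeBetaBar Kbar M ℓ) (inclBar (N * ℓ) (M * ℓ) (nic_dvd N M ℓ h) x) := by
  have hℓN : ¬ ℓ ∣ N := fun hd => hℓM (hd.trans h)
  obtain ⟨E₀, hc, hα, hβ, -, hB⟩ := normProd N ℓ hℓ hℓN
  obtain ⟨E₁, hc₁, hα₁, hβ₁, -, hB₁⟩ := normProd M ℓ hℓ hℓM
  have : NeZero ((ℓ : ℕ) : ℚ) := ⟨by exact_mod_cast NeZero.ne ℓ⟩
  obtain ⟨ζ0, hζ0⟩ := HasEnoughRootsOfUnity.exists_primitiveRoot (AlgebraicClosure ℚ) ℓ
  have hunit : IsUnit ζ0 := hζ0.isUnit (NeZero.ne ℓ)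
  obtain ⟨ζ, rfl⟩ := hunit
  apply Subtype.ext
  apply qExpand_injective (R := Kbar) ℓ
  have e1 : qExpand Kbar ℓ
        ((normAlong (heckeBetaBar Kbar N ℓ) x : FF N) : LaurentSeries Kbar)
      = qExpand Kbar ℓ (E₀ x) * ∏ b ∈ Finset.range ℓ, twq (ζ ^ b) (x : LaurentSeries Kbar) :=
    hB ζ hζ0 x
  have e2 : qExpand Kbar ℓ
        ((normAlong (heckeBetaBar Kbar M ℓ)
          (inclBar (N * ℓ) (M * ℓ) (nic_dvd N M ℓ h) x) : FF M) : LaurentSeries Kbar)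
      = qExpand Kbar ℓ (E₁ (inclBar (N * ℓ) (M * ℓ) (nic_dvd N M ℓ h) x))
        * ∏ b ∈ Finset.range ℓ, twq (ζ ^ b)
            ((inclBar (N * ℓ) (M * ℓ) (nic_dvd N M ℓ h) x : FF (M * ℓ)) :
              LaurentSeries Kbar) :=
    hB₁ ζ hζ0 _
  rw [coe_inclBar, e1, e2, nic_E0 N M ℓ hℓ h E₀ hc hα hβ E₁ hc₁ hα₁ hβ₁ x, coe_inclBar]

/-- **the Kummer function of `T_ℓ` commutes with the level maps**:
`ι (Nm_α (β Y)) = Nm_α (β (ι Y))` -/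
theorem nic_tp (hℓ : ℓ.Prime) (hℓM : ¬ ℓ ∣ M) (h : N ∣ M) (Y : FF N) :
    inclBar N M h (normAlong (heckeAlphaBar Kbar N ℓ) (heckeBetaBar Kbar N ℓ Y))
      = normAlong (heckeAlphaBar Kbar M ℓ) (heckeBetaBar Kbar M ℓ (inclBar N M h Y)) := by
  rw [nic_alpha hℓ hℓM h, nic_incl_beta N M ℓ h]

/-- `ι (Nm_β (α Y)) = Nm_β (α (ι Y))` -/
theorem nic_tp' (hℓ : ℓ.Prime) (hℓM : ¬ ℓ ∣ M) (h : N ∣ M) (Y : FF N) :
    inclBar N M h (normAlong (heckeBetaBar Kbar N ℓ) (heckeAlphaBar Kbar N ℓ Y))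
      = normAlong (heckeBetaBar Kbar M ℓ) (heckeAlphaBar Kbar M ℓ (inclBar N M h Y)) := by
  rw [nic_beta hℓ hℓM h, nic_incl_alpha N M ℓ h]

end Fermat.Agent.S33lib
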