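import Mathlib
import Fermat.Agent.S33lib.CruxPApp
import Fermat.Agent.S33lib.RayPow
import Fermat.Agent.S33lib.RegimeTwo
import Fermat.Agent.S36lib.Speed

/-!
# Item 86 (S33), piece TPINJ, abstract part (helper29)

`R : ConstRed A π Fk F` a constant reduction, `lam ∈ 𝔪_A`, `p = -lam^(p-1) (1 + lam ε)`.

* `tpj_normalise`: every `t ∈ O` is `e + a y` with `e, a ∈ A`, `y ∈ O` and (`a = 0` or `red y ∉ k`)
  (orthonormal basis of `span (1, t)`);
* `tpj_as_of_pow`: **a `p`-th power at level `v*` has trivial Artin–Schreier class**: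
  `G ∈ O`, `1 + lam^p G = c t^p`  ⟹  `red G = w^p - w + κ`;
* `tpj_level_up`: `red g = v^p - v + κ`  ⟹  `1 + lam^p g = c' s'^p (1 + a' g')` with
  `|a'|^(p-1) < |p|^p` (level `> v*`).
-/

set_option autoImplicit false
set_option linter.unusedSectionVars false
set_option linter.unusedVariables false

noncomputable section

namespace Fermat.Agent.S33lib

open AlgebraicCurve Fermat.Agent.RRlib Fermat.Agent.GoodRed Fermat.Agent.S34lib
  Fermat.Agent.S18lib

variable {K F k Fk : Type*} [Field K] [Field F] [Algebra K F] [Field k] [Field Fk] [Algebra k Fk]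
variable {A : ValuationSubring K} {π : A →+* k}

/-- the constant `a ∈ A` as an element of `O` -/
def tpjC (R : ConstRed A π Fk F) (a : A) : R.O := ⟨algebraMap K F (a : K), R.algebraMap_mem a⟩

theorem tpj_red_C (R : ConstRed A π Fk F) (a : A) :
    R.red (tpjC R a) = algebraMap k Fk (π a) := R.red_algebraMap a

theorem tpj_coe_C (R : ConstRed A π Fk F) (a : A) :
    ((tpjC R a : R.O) : F) = algebraMap K F (a : K) := rfl

/-- the reduction of a combination of elements of `O` with coefficients in `A` -/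
theorem tpj_red_sum (R : ConstRed A π Fk F) {n : ℕ} (b : Fin n → R.O) (c : Fin n → K)
    (hc : ∀ i, c i ∈ A) (x : R.O) (hx : ∑ i, c i • ((b i : R.O) : F) = (x : F)) :
    R.red x = ∑ i, π ⟨c i, hc i⟩ • R.red (b i) := by
  have h : x = ∑ i, tpjC R ⟨c i, hc i⟩ * b i := by
    apply Subtype.ext
    rw [← hx, AddSubmonoidClass.coe_finsetSum]
    refine Finset.sum_congr rfl fun i _ => ?_
    rw [Algebra.smul_def]
    rfl
  rw [h, map_sum]
  refine Finset.sum_congr rfl fun i _ => ?_
  rw [map_mul, tpj_red_C, Algebra.smul_def]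

/-- **normalisation**: `t = e + a y`, `e, a ∈ A`, `y ∈ O`, and `a = 0` or `red y` is not a
constant. -/
theorem tpj_normalise (R : ConstRed A π Fk F) (t : R.O) :
    ∃ (e a : A) (y : R.O), t = tpjC R e + tpjC R a * y ∧
      (a = 0 ∨ R.red y ∉ Set.range (algebraMap k Fk)) := by
  classical
  set V : Submodule K F := Submodule.span K {(1 : F), (t : F)} with hV
  have hfin : Module.Finite K V := FiniteDimensional.span_of_finite K (Set.toFinite _)
  obtain ⟨n, b, hspan, hli⟩ := R.exists_orthonormal V hfin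
  have h1V : (1 : F) ∈ V := Submodule.subset_span (by simp)
  have htV : (t : F) ∈ V := Submodule.subset_span (by simp)
  rw [← hspan] at h1V htV
  obtain ⟨α, hα⟩ := (Submodule.mem_span_range_iff_exists_fun K).mp h1V
  obtain ⟨τ, hτ⟩ := (Submodule.mem_span_range_iff_exists_fun K).mp htV
  have hαA : ∀ i, α i ∈ A := fun i =>
    (cxpSS R).coeff_mem_of_sum_mem b hli Finset.univ α (by rw [hα]; exact R.O.one_mem) i
      (Finset.mem_univ i)
  have hτA : ∀ i, τ i ∈ A := fun i =>
    (cxpSS R).coeff_mem_of_sum_mem b hli Finset.univ τ (by rw [hτ]; exact t.2) i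
      (Finset.mem_univ i)
  have hred1 : (1 : Fk) = ∑ i, π ⟨α i, hαA i⟩ • R.red (b i) := by
    rw [← tpj_red_sum R b α hαA 1 (by rw [hα]; rfl), map_one]
  -- an index with `α j` a unit
  obtain ⟨j, hj⟩ : ∃ j, π ⟨α j, hαA j⟩ ≠ 0 := by
    by_contra hcon
    simp only [not_exists, not_not] at hcon
    have : (1 : Fk) = 0 := by
      rw [hred1]
      exact Finset.sum_eq_zero fun i _ => by rw [hcon i, zero_smul]
    exact one_ne_zero this
  have hαj0 : α j ≠ 0 := by
    intro h0
    apply hj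
    have : (⟨α j, hαA j⟩ : A) = 0 := Subtype.ext h0
    rw [this, map_zero]
  have hαjinv : (α j)⁻¹ ∈ A := by
    have hnu : α j ∉ A.nonunits := fun h => hj ((R.π_eq_zero_iff ⟨α j, hαA j⟩).mpr h)
    rw [ValuationSubring.mem_nonunits_iff_or, not_or, not_not] at hnu
    exact hnu.2
  set e : A := ⟨τ j, hτA j⟩ * ⟨(α j)⁻¹, hαjinv⟩ with he
  set γ : Fin n → K := fun i => τ i - (e : K) * α i with hγ
  have hγA : ∀ i, γ i ∈ A := fun i => sub_mem (hτA i) (mul_mem e.2 (hαA i))
  have hγj : γ j = 0 := by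
    rw [hγ, he]
    show τ j - τ j * (α j)⁻¹ * α j = 0
    rw [mul_assoc, inv_mul_cancel₀ hαj0, mul_one, sub_self]
  have hsum : ∑ i, γ i • ((b i : R.O) : F) = (t : F) - algebraMap K F (e : K) := by
    rw [← hτ]
    have h1 : algebraMap K F (e : K) = ∑ i, ((e : K) * α i) • ((b i : R.O) : F) := by
      rw [Algebra.algebraMap_eq_smul_one, ← hα, Finset.smul_sum]
      exact Finset.sum_congr rfl fun i _ => by rw [smul_smul]
    rw [h1, ← Finset.sum_sub_distrib]
    exact Finset.sum_congr rfl fun i _ => by rw [hγ, sub_smul]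
  by_cases hall : ∀ i, γ i = 0
  · refine ⟨e, 0, 0, ?_, Or.inl rfl⟩
    apply Subtype.ext
    have : ∑ i, γ i • ((b i : R.O) : F) = 0 :=
      Finset.sum_eq_zero fun i _ => by rw [hall i, zero_smul]
    rw [this] at hsum
    simp only [mul_zero, add_zero]
    rw [tpj_coe_C]
    exact (sub_eq_zero.mp hsum.symm)
  · obtain ⟨i₀, hi₀⟩ := not_forall.mp hall
    obtain ⟨m, -, hmax⟩ := Finset.exists_max_image Finset.univ (fun i => A.valuation (γ i))
      ⟨i₀, Finset.mem_univ i₀⟩
    have hγm : γ m ≠ 0 := by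
      intro h0
      have h1 := hmax i₀ (Finset.mem_univ i₀)
      rw [h0, map_zero] at h1
      exact hi₀ ((A.valuation).zero_iff.mp (le_antisymm h1 zero_le))
    have hmj : m ≠ j := fun h => hγm (h ▸ hγj)
    -- the normalised coefficients
    have hδA : ∀ i, γ i / γ m ∈ A := by
      intro i
      rw [← A.valuation_le_one_iff, map_div₀]
      exact div_le_one_of_le₀ (hmax i (Finset.mem_univ i)) zero_le
    set y : R.O := ∑ i, tpjC R ⟨γ i / γ m, hδA i⟩ * b i with hy
    have hyF : ∑ i, (γ i / γ m) • ((b i : R.O) : F) = (y : F) := by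
      rw [hy, AddSubmonoidClass.coe_finsetSum]
      refine Finset.sum_congr rfl fun i _ => ?_
      rw [Algebra.smul_def]
      rfl
    have hyred := tpj_red_sum R b (fun i => γ i / γ m) hδA y hyF
    refine ⟨e, ⟨γ m, hγA m⟩, y, ?_, Or.inr ?_⟩
    · apply Subtype.ext
      show (t : F) = algebraMap K F (e : K) + algebraMap K F (γ m) * (y : F)
      rw [← hyF, Finset.mul_sum]
      have : ∑ i, algebraMap K F (γ m) * ((γ i / γ m) • ((b i : R.O) : F))
          = ∑ i, γ i • ((b i : R.O) : F) := by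
        refine Finset.sum_congr rfl fun i _ => ?_
        rw [Algebra.smul_def, Algebra.smul_def, ← mul_assoc, ← map_mul, mul_div_cancel₀ _ hγm]
      rw [this, hsum]
      ring
    · rintro ⟨κ, hκ⟩
      have h0 : ∑ i, (π ⟨γ i / γ m, hδA i⟩ - κ * π ⟨α i, hαA i⟩) • R.red (b i) = 0 := by
        simp only [sub_smul, Finset.sum_sub_distrib, mul_smul]
        rw [← hyred, ← Finset.smul_sum, ← hred1, ← hκ, Algebra.algebraMap_eq_smul_one, sub_self]
      have h1 := linearIndependent_iff'.mp hli Finset.univ _ h0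
      have hj' := h1 j (Finset.mem_univ j)
      have hm' := h1 m (Finset.mem_univ m)
      have e1 : (⟨γ j / γ m, hδA j⟩ : A) = 0 := Subtype.ext (by
        show γ j / γ m = 0
        rw [hγj, zero_div])
      have e2 : (⟨γ m / γ m, hδA m⟩ : A) = 1 := Subtype.ext (by
        show γ m / γ m = 1
        exact div_self hγm)
      rw [e1, map_zero, zero_sub, neg_eq_zero] at hj'
      have hκ0 : κ = 0 := (mul_eq_zero.mp hj').resolve_right hj
      rw [e2, map_one, hκ0, zero_mul, sub_zero] at hm'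
      exact one_ne_zero hm'

theorem tpjC_mul (R : ConstRed A π Fk F) (a b : A) : tpjC R (a * b) = tpjC R a * tpjC R b :=
  Subtype.ext (by
    show algebraMap K F ((a : K) * (b : K)) = algebraMap K F (a : K) * algebraMap K F (b : K)
    rw [map_mul])

theorem tpjC_pow (R : ConstRed A π Fk F) (a : A) (n : ℕ) : tpjC R (a ^ n) = tpjC R a ^ n :=
  Subtype.ext (by
    show algebraMap K F ((a : K) ^ n) = algebraMap K F (a : K) ^ n
    rw [map_pow])

/-- a unit of `A`: `π e ≠ 0` gives `e⁻¹ ∈ A` -/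
theorem tpj_inv_mem (R : ConstRed A π Fk F) (e : A) (he : π e ≠ 0) : (e : K)⁻¹ ∈ A := by
  have hnu : (e : K) ∉ A.nonunits := fun hh => he ((R.π_eq_zero_iff e).mpr hh)
  rw [ValuationSubring.mem_nonunits_iff_or, not_or, not_not] at hnu
  exact hnu.2

/-- the F-level identity of case B -/
theorem tpj_identB {F : Type*} [Field F] (p : ℕ) (L B C3 E G y s P : F) (hL : L ≠ 0)
    (hF : 1 + L ^ p * G = C3 * (1 + (L * B * y) ^ p + P * (L * B * y) * (1 + L * B * y * s)))
    (hPL : P * L = -(L ^ p) * (1 + L * E)) :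
    (C3 - 1) / L ^ p = G - C3 * (B ^ p * y ^ p - (1 + L * E) * B * y * (1 + L * B * y * s)) := by
  rw [div_eq_iff (pow_ne_zero p hL)]
  linear_combination (-1 : F) * hF - C3 * B * y * (1 + L * B * y * s) * hPL

/-- the F-level identity of case A -/
theorem tpj_identA {F : Type*} [Field F] (p : ℕ) (L A1 Rho C3 G y s P Nu : F) (hA1 : A1 ≠ 0)
    (hLA : L = Rho * A1)
    (hF : 1 + L ^ p * G = C3 * (1 + (A1 * y) ^ p + P * (A1 * y) * (1 + A1 * y * s)))
    (hNu : A1 ^ p * Nu = A1 * P) :
    (C3 - 1) / A1 ^ p = Rho ^ p * G - C3 * (y ^ p + Nu * y * (1 + A1 * y * s)) := by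
  rw [div_eq_iff (pow_ne_zero p hA1)]
  subst hLA
  linear_combination (-1 : F) * hF + C3 * y * (1 + A1 * y * s) * hNu

/-- **a `p`-th power at level `v*` has trivial Artin–Schreier class**: if `G ∈ O` and
`1 + lam^p G = c t^p` then `red G = w^p - w + κ`. -/
theorem tpj_as_of_pow (R : ConstRed A π Fk F) {p : ℕ} (hp : p.Prime) {lam : K} (hlam0 : lam ≠ 0)
    (hlam : lam ∈ A.nonunits)
    (hplam : ∃ ε ∈ A, ((p : ℕ) : K) = -(lam ^ (p - 1)) * (1 + lam * ε))
    (hk : ∀ z : Fk, z ^ p ∈ Set.range (algebraMap k Fk) → z ∈ Set.range (algebraMap k Fk))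
    (G : R.O) (c : K) (t : F)
    (h : 1 + algebraMap K F (lam ^ p) * (G : F) = algebraMap K F c * t ^ p) :
    ∃ (w : Fk) (κ : k), R.red G = w ^ p - w + algebraMap k Fk κ := by
  classical
  obtain ⟨ε, hε, hpe⟩ := hplam
  have hp0 : p ≠ 0 := hp.ne_zero
  have hp1 : p - 1 ≠ 0 := by have := hp.two_le; omega
  have hpp : p - 1 + 1 = p := Nat.sub_add_cancel hp.one_lt.le
  have hlamA : lam ∈ A := A.nonunits_le hlam
  set lamA : A := ⟨lam, hlamA⟩ with hlamAdef
  have hπlam : π lamA = 0 := (R.π_eq_zero_iff lamA).mpr hlam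
  have hL0 : algebraMap K F lam ≠ 0 := (map_ne_zero _).mpr hlam0
  -- the one-unit `U`
  set U : R.O := 1 + tpjC R (lamA ^ p) * G with hU
  have hUcoe : (U : F) = 1 + algebraMap K F (lam ^ p) * (G : F) := rfl
  have hUF : (U : F) = algebraMap K F c * t ^ p := by rw [hUcoe, h]
  have hUred : R.red U = 1 := by
    rw [hU, map_add, map_one, map_mul, tpj_red_C, map_pow, hπlam, zero_pow hp0, map_zero,
      zero_mul, add_zero]
  have hU0 : (U : F) ≠ 0 := by
    intro h0
    have : U = 0 := Subtype.ext h0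
    rw [this, map_zero] at hUred
    exact zero_ne_one hUred
  have ht0 : t ≠ 0 := by
    rintro rfl
    rw [zero_pow hp0, mul_zero] at hUF
    exact hU0 hUF
  -- normalise `t` to a unit of `O`
  obtain ⟨d, hd0, hdt, hdtinv⟩ := R.exists_unit_smul t ht0
  have hD0 : algebraMap K F d ≠ 0 := (map_ne_zero _).mpr hd0
  set t₁ : R.O := ⟨algebraMap K F d * t, hdt⟩ with ht₁
  set t₁i : R.O := ⟨(algebraMap K F d * t)⁻¹, hdtinv⟩ with ht₁i
  have ht₁0 : algebraMap K F d * t ≠ 0 := mul_ne_zero hD0 ht0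
  have hmul : t₁ * t₁i = 1 := Subtype.ext (mul_inv_cancel₀ ht₁0)
  have ht₁red : R.red t₁ ≠ 0 := by
    intro h0
    have := congrArg R.red hmul
    rw [map_mul, h0, zero_mul, map_one] at this
    exact zero_ne_one this
  -- `c₁ = c / d ^ p ∈ A`
  have hc₁F : algebraMap K F (c / d ^ p) = ((U * t₁i ^ p : R.O) : F) := by
    show _ = (U : F) * ((algebraMap K F d * t)⁻¹) ^ p
    rw [hUF, map_div₀, map_pow, inv_pow, mul_pow]
    have ht0p : t ^ p ≠ 0 := pow_ne_zero p ht0
    have hD0p : algebraMap K F d ^ p ≠ 0 := pow_ne_zero p hD0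
    field_simp
  have hc₁A : c / d ^ p ∈ A :=
    cxp_mem_of_algebraMap_mem (cxpSS R) (c / d ^ p) (by rw [hc₁F]; exact (U * t₁i ^ p).2)
  set c₁ : A := ⟨c / d ^ p, hc₁A⟩ with hc₁
  have hU1 : U = tpjC R c₁ * t₁ ^ p := by
    apply Subtype.ext
    show (U : F) = algebraMap K F (c / d ^ p) * (algebraMap K F d * t) ^ p
    rw [hUF, map_div₀, map_pow, mul_pow]
    have hD0p : algebraMap K F d ^ p ≠ 0 := pow_ne_zero p hD0
    field_simp
  have hred1 : algebraMap k Fk (π c₁) * R.red t₁ ^ p = 1 := by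
    rw [← hUred, hU1, map_mul, map_pow, tpj_red_C]
  -- `red t₁` is a constant
  have ht₁k : R.red t₁ ∈ Set.range (algebraMap k Fk) := by
    apply hk
    have hπc₁ : π c₁ ≠ 0 := by
      intro h0
      rw [h0, map_zero, zero_mul] at hred1
      exact zero_ne_one hred1
    refine ⟨(π c₁)⁻¹, ?_⟩
    rw [map_inv₀]
    exact (eq_inv_of_mul_eq_one_right hred1).symm
  obtain ⟨κ₁, hκ₁⟩ := ht₁k
  have hκ₁0 : κ₁ ≠ 0 := by
    rintro rfl
    rw [map_zero] at hκ₁
    exact ht₁red hκ₁.symm
  -- the normal form of `t₁`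
  obtain ⟨e, a, y, hty, hay⟩ := tpj_normalise R t₁
  have hπa : π a = 0 := by
    rcases hay with rfl | hy
    · exact map_zero π
    · by_contra hπa
      apply hy
      refine ⟨(κ₁ - π e) / π a, ?_⟩
      have h1 := congrArg R.red hty
      rw [map_add, map_mul, tpj_red_C, tpj_red_C, ← hκ₁] at h1
      have h2 : algebraMap k Fk (π a) ≠ 0 := (map_ne_zero _).mpr hπa
      rw [map_div₀, map_sub, h1, add_sub_cancel_left, mul_div_cancel_left₀ _ h2]
  have hπe : π e = κ₁ := by
    have h1 := congrArg R.red hty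
    rw [map_add, map_mul, tpj_red_C, tpj_red_C, hπa, map_zero, zero_mul, add_zero, ← hκ₁] at h1
    exact ((algebraMap k Fk).injective h1).symm
  have hπe0 : π e ≠ 0 := by rw [hπe]; exact hκ₁0
  have he0 : (e : K) ≠ 0 := by
    intro h0
    have : e = 0 := Subtype.ext h0
    rw [this, map_zero] at hπe0
    exact hπe0 rfl
  have heinv : (e : K)⁻¹ ∈ A := tpj_inv_mem R e hπe0
  -- `c₃ = c₁ e^p`
  set c₃ : A := c₁ * e ^ p with hc₃
  have hπc₃ : π c₃ = 1 := by
    have h1 : algebraMap k Fk (π c₁ * κ₁ ^ p) = 1 := by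
      rw [map_mul, map_pow, hκ₁]
      exact hred1
    rw [hc₃, map_mul, map_pow, hπe]
    exact (algebraMap k Fk).injective (by rw [h1, map_one])
  -- `a₁ = a / e`
  set a₁ : A := a * ⟨(e : K)⁻¹, heinv⟩ with ha₁
  have hπa₁ : π a₁ = 0 := by rw [ha₁, map_mul, hπa, zero_mul]
  have hty' : t₁ = tpjC R e * (1 + tpjC R a₁ * y) := by
    rw [hty]
    apply Subtype.ext
    show algebraMap K F (e : K) + algebraMap K F (a : K) * (y : F)
      = algebraMap K F (e : K) * (1 + algebraMap K F ((a : K) * (e : K)⁻¹) * (y : F))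
    rw [map_mul, map_inv₀]
    have : algebraMap K F (e : K) ≠ 0 := (map_ne_zero _).mpr he0
    field_simp
  obtain ⟨s, hs⟩ := asp_binom (O := R.O) p hp (tpjC R a₁ * y)
  have hU2 : U = tpjC R c₃ * (1 + (tpjC R a₁ * y) ^ p
      + (p : R.O) * (tpjC R a₁ * y) * (1 + tpjC R a₁ * y * s)) := by
    have hc₃C : tpjC R c₃ = tpjC R c₁ * tpjC R e ^ p := by
      rw [hc₃, tpjC_mul R c₁ (e ^ p), tpjC_pow]
    rw [hU1, hty', mul_pow, hs, hc₃C]
    ring
  have hFeq : 1 + algebraMap K F lam ^ p * (G : F)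
      = algebraMap K F (c₃ : K) * (1 + (algebraMap K F (a₁ : K) * (y : F)) ^ p
        + ((p : ℕ) : F) * (algebraMap K F (a₁ : K) * (y : F))
          * (1 + algebraMap K F (a₁ : K) * (y : F) * (s : F))) := by
    have := congrArg (fun z : R.O => (z : F)) hU2
    simp only [hUcoe, map_pow] at this
    rw [this]
    push_cast
    rfl
  have hPK : ((p : ℕ) : F) = algebraMap K F ((p : ℕ) : K) := (map_natCast _ p).symm
  rcases eq_or_ne a 0 with ha0 | ha0
  · -- `t₁` is a constant
    have ha₁0 : a₁ = 0 := by rw [ha₁, ha0, zero_mul]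
    have hG : algebraMap K F (((c₃ : K) - 1) / lam ^ p) = (G : F) := by
      rw [ha₁0] at hFeq
      simp only [ZeroMemClass.coe_zero, map_zero, zero_mul, zero_pow hp0, mul_zero, add_zero,
        mul_one] at hFeq
      rw [map_div₀, map_sub, map_one, map_pow, div_eq_iff (pow_ne_zero p hL0), ← hFeq]
      ring
    have hκA : ((c₃ : K) - 1) / lam ^ p ∈ A :=
      cxp_mem_of_algebraMap_mem (cxpSS R) _ (by rw [hG]; exact G.2)
    refine ⟨0, π ⟨_, hκA⟩, ?_⟩
    have : G = tpjC R ⟨_, hκA⟩ := Subtype.ext hG.symm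
    rw [this, tpj_red_C, zero_pow hp0, sub_zero, zero_add]
  · have hyk : R.red y ∉ Set.range (algebraMap k Fk) := hay.resolve_left ha0
    have ha₁0 : (a₁ : K) ≠ 0 := by
      show (a : K) * (e : K)⁻¹ ≠ 0
      exact mul_ne_zero (fun h0 => ha0 (Subtype.ext h0)) (inv_ne_zero he0)
    have hA10 : algebraMap K F (a₁ : K) ≠ 0 := (map_ne_zero _).mpr ha₁0
    by_cases hb : (a₁ : K) / lam ∈ A
    · -- case B: the Artin–Schreier form
      set b : A := ⟨(a₁ : K) / lam, hb⟩ with hbdef
      have hab : algebraMap K F (a₁ : K) = algebraMap K F lam * algebraMap K F (b : K) := by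
        rw [← map_mul]
        congr 1
        show (a₁ : K) = lam * ((a₁ : K) / lam)
        field_simp
      have hPL : ((p : ℕ) : F) * algebraMap K F lam
          = -(algebraMap K F lam ^ p) * (1 + algebraMap K F lam * algebraMap K F ε) := by
        rw [hPK, hpe, map_mul, map_neg, map_pow, map_add, map_one, map_mul]
        rw [← hpp, pow_succ]
        simp only [Nat.add_sub_cancel]
        ring
      have hident := tpj_identB p (algebraMap K F lam) (algebraMap K F (b : K))
        (algebraMap K F (c₃ : K)) (algebraMap K F ε) (G : F) (y : F) (s : F) ((p : ℕ) : F) hL0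
        (by rw [hFeq, hab]) hPL
      set εA : A := ⟨ε, hε⟩ with hεA
      set Z : R.O := G - tpjC R c₃ * (tpjC R b ^ p * y ^ p
        - (1 + tpjC R lamA * tpjC R εA) * tpjC R b * y
          * (1 + tpjC R lamA * tpjC R b * y * s)) with hZ
      have hZF : algebraMap K F (((c₃ : K) - 1) / lam ^ p) = (Z : F) := by
        rw [map_div₀, map_sub, map_one, map_pow, hident]
        rfl
      have hκA : ((c₃ : K) - 1) / lam ^ p ∈ A :=
        cxp_mem_of_algebraMap_mem (cxpSS R) _ (by rw [hZF]; exact Z.2)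
      have hGZ : G = tpjC R ⟨_, hκA⟩ + tpjC R c₃ * (tpjC R b ^ p * y ^ p
        - (1 + tpjC R lamA * tpjC R εA) * tpjC R b * y
          * (1 + tpjC R lamA * tpjC R b * y * s)) := by
        have : tpjC R ⟨_, hκA⟩ = Z := Subtype.ext hZF
        rw [this, hZ]
        ring
      refine ⟨algebraMap k Fk (π b) * R.red y, π ⟨_, hκA⟩, ?_⟩
      conv_lhs => rw [hGZ]
      simp only [map_add, map_mul, map_sub, map_pow, map_one, tpj_red_C, hπlam, hπc₃, map_zero,
        zero_mul, add_zero, one_mul, mul_one]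
      ring
    · -- case A: impossible
      exfalso
      have hρ : lam / (a₁ : K) ∈ A := by
        rcases A.mem_or_inv_mem ((a₁ : K) / lam) with h1 | h1
        · exact absurd h1 hb
        · rwa [inv_div] at h1
      have hρnu : lam / (a₁ : K) ∈ A.nonunits := by
        rw [ValuationSubring.mem_nonunits_iff_or]
        right
        rw [inv_div]
        exact hb
      set ρ : A := ⟨lam / (a₁ : K), hρ⟩ with hρdef
      have hπρ : π ρ = 0 := (R.π_eq_zero_iff ρ).mpr hρnu
      set εA : A := ⟨ε, hε⟩ with hεA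
      set ν : A := -(ρ ^ (p - 1)) * (1 + lamA * εA) with hν
      have hπν : π ν = 0 := by
        rw [hν, map_mul, map_neg, map_pow, hπρ, zero_pow hp1, neg_zero, zero_mul]
      have hLA : algebraMap K F lam = algebraMap K F (ρ : K) * algebraMap K F (a₁ : K) := by
        rw [← map_mul]
        congr 1
        show lam = lam / (a₁ : K) * (a₁ : K)
        field_simp
      have hNu : algebraMap K F (a₁ : K) ^ p * algebraMap K F (ν : K)
          = algebraMap K F (a₁ : K) * ((p : ℕ) : F) := by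
        rw [hPK, hpe]
        have e1 : (ν : K) = -((lam / (a₁ : K)) ^ (p - 1)) * (1 + lam * ε) := rfl
        rw [e1, ← map_pow, ← map_mul, ← map_mul]
        congr 1
        rw [div_pow]
        have : (a₁ : K) ^ p = (a₁ : K) ^ (p - 1) * (a₁ : K) := by
          rw [← pow_succ, hpp]
        rw [this]
        have h3 : (a₁ : K) ^ (p - 1) ≠ 0 := pow_ne_zero _ ha₁0
        field_simp
      have hident := tpj_identA p (algebraMap K F lam) (algebraMap K F (a₁ : K))
        (algebraMap K F (ρ : K)) (algebraMap K F (c₃ : K)) (G : F) (y : F) (s : F) ((p : ℕ) : F)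
        (algebraMap K F (ν : K)) hA10 hLA hFeq hNu
      set Z : R.O := tpjC R ρ ^ p * G - tpjC R c₃ * (y ^ p + tpjC R ν * y
        * (1 + tpjC R a₁ * y * s)) with hZ
      have hZF : algebraMap K F (((c₃ : K) - 1) / (a₁ : K) ^ p) = (Z : F) := by
        rw [map_div₀, map_sub, map_one, map_pow, hident]
        rfl
      have hκA : ((c₃ : K) - 1) / (a₁ : K) ^ p ∈ A :=
        cxp_mem_of_algebraMap_mem (cxpSS R) _ (by rw [hZF]; exact Z.2)
      have hCZ : tpjC R ⟨_, hκA⟩ = Z := Subtype.ext hZF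
      have hred := congrArg R.red hCZ
      rw [hZ] at hred
      simp only [map_add, map_mul, map_sub, map_pow, map_one, tpj_red_C, hπρ, hπν, hπc₃, hπa₁,
        map_zero, zero_mul, add_zero, one_mul, mul_one, zero_pow hp0, zero_sub] at hred
      apply hyk
      apply hk
      refine ⟨-π ⟨_, hκA⟩, ?_⟩
      rw [map_neg, hred, neg_neg]

/-- **level up**: if `red g = v^p - v + κ` then `1 + lam^p g = c' s'^p (1 + a' g')` with
`|a'|^(p-1) < |p|^p` (a Kummer function of level `> v*`). -/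
theorem tpj_level_up (R : ConstRed A π Fk F) {p : ℕ} (hp : p.Prime) {lam : K} (hlam0 : lam ≠ 0)
    (hlam : lam ∈ A.nonunits)
    (hplam : ∃ ε ∈ A, ((p : ℕ) : K) = -(lam ^ (p - 1)) * (1 + lam * ε))
    (g : R.O) (v : Fk) (κ : k) (hg : R.red g = v ^ p - v + algebraMap k Fk κ) :
    ∃ (c' : K) (s' : F) (a' : A) (g' : R.O), c' ≠ 0 ∧ s' ≠ 0 ∧
      A.valuation ((a' : K) ^ (p - 1)) < A.valuation (((p : ℕ) : K) ^ p) ∧
      1 + algebraMap K F (lam ^ p) * (g : F)
        = algebraMap K F c' * s' ^ p * (1 + algebraMap K F (a' : K) * (g' : F)) := by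
  classical
  have hplam' := hplam
  obtain ⟨ε, hε, hpe⟩ := hplam
  have hp0 : p ≠ 0 := hp.ne_zero
  have hlamA : lam ∈ A := A.nonunits_le hlam
  set lamA : A := ⟨lam, hlamA⟩ with hlamAdef
  have hπlam : π lamA = 0 := (R.π_eq_zero_iff lamA).mpr hlam
  obtain ⟨V, hV⟩ := R.red_surjective v
  obtain ⟨CA, hCA⟩ := R.π_surjective κ
  -- the `p`-th power of `1 + lam V`
  have hplamF : ∃ ε' ∈ R.O, ((p : ℕ) : F)
      = -(algebraMap K F lam ^ (p - 1)) * (1 + algebraMap K F lam * ε') := by
    refine ⟨algebraMap K F ε, R.algebraMap_mem ⟨ε, hε⟩, ?_⟩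
    rw [← map_natCast (algebraMap K F) p, hpe, map_mul, map_neg, map_pow, map_add, map_one,
      map_mul]
  obtain ⟨ρ, hρ, hpow⟩ := rpw_pow R.O p hp (algebraMap K F lam) (R.algebraMap_mem lamA) hplamF
    (V : F) V.2
  set ρO : R.O := ⟨ρ, hρ⟩ with hρO
  set cA : A := 1 + lamA ^ p * CA with hcA
  have hπc : π cA = 1 := by
    rw [hcA, map_add, map_one, map_mul, map_pow, hπlam, zero_pow hp0, zero_mul, add_zero]
  set Z : R.O := tpjC R CA + tpjC R cA * ((V ^ p - V) + tpjC R lamA * ρO) with hZ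
  have hZred : R.red Z = R.red g := by
    rw [hZ, hg]
    simp only [map_add, map_mul, map_sub, map_pow, tpj_red_C, hπlam, hπc, hV, hCA, map_zero,
      zero_mul, add_zero, map_one, one_mul]
    ring
  set P : R.O := 1 + tpjC R lamA ^ p * Z with hP
  have hPred : R.red P = 1 := by
    rw [hP, map_add, map_one, map_mul, map_pow, tpj_red_C, hπlam, map_zero, zero_pow hp0,
      zero_mul, add_zero]
  have hPinv : ((P : R.O) : F)⁻¹ ∈ R.O := rg2_inv_mem R P (by rw [hPred]; exact one_ne_zero)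
  have hP0 : ((P : R.O) : F) ≠ 0 := by
    intro h0
    have : P = 0 := Subtype.ext h0
    rw [this, map_zero] at hPred
    exact zero_ne_one hPred
  set x : R.O := (g - Z) * ⟨_, hPinv⟩ with hx
  have hxred : R.red x = 0 := by
    rw [hx, map_mul, map_sub, hZred, sub_self, zero_mul]
  obtain ⟨b, t, hb, hbt⟩ := rg2_exists_smul_of_red_eq_zero R x hxred
  -- the F-level identities
  have hPF : ((P : R.O) : F)
      = algebraMap K F (cA : K) * (1 + algebraMap K F lam * (V : F)) ^ p := by
    rw [hpow]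
    show 1 + algebraMap K F lam ^ p * (algebraMap K F (CA : K)
        + algebraMap K F (1 + lam ^ p * (CA : K)) * (((V : F) ^ p - (V : F))
          + algebraMap K F lam * ρ))
      = algebraMap K F (1 + lam ^ p * (CA : K)) * _
    rw [map_add, map_one, map_mul, map_pow]
    ring
  have hxF : (x : F) = ((g : F) - (Z : F)) * ((P : R.O) : F)⁻¹ := rfl
  have hs0 : (1 + algebraMap K F lam * (V : F)) ≠ 0 := by
    intro h0
    rw [h0, zero_pow hp0, mul_zero] at hPF
    exact hP0 hPF
  have hc0 : (cA : K) ≠ 0 := by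
    intro h0
    rw [h0, map_zero, zero_mul] at hPF
    exact hP0 hPF
  refine ⟨(cA : K), 1 + algebraMap K F lam * (V : F), lamA ^ p * b, t, hc0, hs0, ?_, ?_⟩
  · have := rg2_val_lt hp hlam0 hlam hplam' hb
    simpa using this
  · rw [← hPF]
    show _ = (P : F) * (1 + algebraMap K F (lam ^ p * (b : K)) * (t : F))
    rw [map_mul, mul_assoc (algebraMap K F (lam ^ p)), ← hbt, hxF]
    have hPZ : ((P : R.O) : F) = 1 + algebraMap K F (lam ^ p) * (Z : F) := by
      rw [map_pow]
      rfl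
    field_simp
    rw [hPZ]
    ring

end Fermat.Agent.S33lib
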