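import Mathlib
import Fermat.Agent.S37lib.KronF
import Fermat.Agent.GoodRed.DescTower

/-!
# Item 86 (S33), piece T (helper29): `T_p` on the leading terms of Kummer functions

Level `N`, `ℓ ∤ N` prime, `A` a valuation ring of `Qbar` of residue characteristic `ℓ`
(for S33: `ℓ = p`).  For `g = c / b` in the unit ball (`b`, `c` integral series, `b̄ ≠ 0`) and
`a ∈ m_A`, `a ≠ 0`:

  `Norm_α (β (1 + a g)) = 1 + a G`,  `G` in the unit ball,  `red G = (red g)(q^ℓ)`.

So `T_ℓ` sends a Kummer function `1 + a g` to `1 + a G` whose leading term `Ḡ = ḡ(q^ℓ)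
= (τ⁻¹ ḡ)^ℓ` is an `ℓ`-th power ("`T_p` raises the level"), resp. has the Artin–Schreier class
of the Frobenius twist of `ḡ`.

* `tpl_prod_expand`: first order expansion of `∏ (B_i + a C_i)`;
* `tpl_core`: the statement on series (from the conjugates formula `NormConjStatement`);
* `tpl_norm`: the statement in the function field, with a series reduction `R`.
-/

set_option autoImplicit false
set_option linter.unusedSectionVars false
set_option linter.unusedVariables false

noncomputable section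

namespace Fermat.Agent.S33lib

open ModularCurve AlgebraicCurve HahnSeries
open Fermat.Agent.S37lib Fermat.Agent.GoodRed

/-- first order expansion of a product `∏ (B_i + a C_i)`, with the value of the coefficient of
`a` under a ring homomorphism which is constant on the `B_i` and on the `C_i` -/
theorem tpl_prod_expand {S T : Type*} [CommRing S] [CommRing T] (ρ : S →+* T) (a : S)
    {ι : Type*} [DecidableEq ι] (s : Finset ι) (B C : ι → S) (β γ : T)
    (hB : ∀ i ∈ s, ρ (B i) = β) (hC : ∀ i ∈ s, ρ (C i) = γ) :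
    ∃ D R : S, ∏ i ∈ s, (B i + a * C i) = ∏ i ∈ s, B i + a * D + a ^ 2 * R ∧
      ρ D = (s.card : T) * (γ * β ^ (s.card - 1)) := by
  induction s using Finset.induction_on with
  | empty => exact ⟨0, 0, by simp, by simp⟩
  | insert i s hi ih =>
    obtain ⟨D, R, hD, hρ⟩ := ih (fun j hj => hB j (Finset.mem_insert_of_mem hj))
      (fun j hj => hC j (Finset.mem_insert_of_mem hj))
    refine ⟨C i * ∏ j ∈ s, B j + B i * D, B i * R + C i * D + a * (C i * R), ?_, ?_⟩
    · rw [Finset.prod_insert hi, Finset.prod_insert hi, hD]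
      ring
    · have hBi : ρ (B i) = β := hB i (Finset.mem_insert_self i s)
      have hCi : ρ (C i) = γ := hC i (Finset.mem_insert_self i s)
      have hprod : ρ (∏ j ∈ s, B j) = β ^ s.card := by
        rw [map_prod, Finset.prod_congr rfl (fun j hj => hB j (Finset.mem_insert_of_mem hj)),
          Finset.prod_const]
      rw [map_add, map_mul, map_mul, hBi, hCi, hprod, hρ, Finset.card_insert_of_notMem hi]
      rcases Nat.eq_zero_or_pos s.card with h0 | hpos
      · rw [h0]; simp
      · have e : β ^ s.card = β * β ^ (s.card - 1) := by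
          rw [← pow_succ', Nat.sub_add_cancel hpos]
        rw [Nat.add_sub_cancel, e]
        push_cast
        ring

theorem tpl_twq_C {R : Type*} [CommRing R] (u : Rˣ) (r : R) :
    twq u (HahnSeries.C r : LaurentSeries R) = HahnSeries.C r := by
  ext n
  rw [twq_coeff, HahnSeries.C_apply, HahnSeries.coeff_single]
  by_cases hn : n = 0
  · subst hn; simp
  · simp [hn]

theorem tpl_coeff_C_mul {R : Type*} [CommRing R] (r : R) (x : LaurentSeries R) (n : ℤ) :
    (HahnSeries.C r * x).coeff n = r * x.coeff n := by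
  rw [HahnSeries.C_mul_eq_smul, HahnSeries.coeff_smul, smul_eq_mul]

/-- **the algebraic core of piece T.**  If `Z₁`, `Z₀` are given in the variable `s = q^{1/ℓ}` by
the conjugates formula for `b + a c` and `b` (`b`, `c` series over `A`, `a ∈ m_A`, `a ≠ 0`), then
`Z₀ = d̂`, `Z₁ - Z₀ = a · n̂` with `d`, `n` series over `A`, `d̄ = b̄(q^ℓ) · τ b̄`,
`n̄ = c̄(q^ℓ) · τ b̄`. -/
theorem tpl_core {K : Type*} [Field K] (A : ValuationSubring K) (ℓ : ℕ) [NeZero ℓ]
    [ExpChar (IsLocalRing.ResidueField A) ℓ] (hℓ : ℓ.Prime)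
    (ζ : Kˣ) (hζ : (ζ : K) ^ ℓ = 1) (b c : LaurentSeries A) (a : A)
    (ha : IsLocalRing.residue A a = 0) (ha0 : a ≠ 0) (Z₁ Z₀ : LaurentSeries K)
    (hZ₁ : qExpand K ℓ Z₁ = qExpand K (ℓ * ℓ) (coeffMap A.subtype (b + HahnSeries.C a * c))
        * ∏ i ∈ Finset.range ℓ, twq (ζ ^ i) (coeffMap A.subtype (b + HahnSeries.C a * c)))
    (hZ₀ : qExpand K ℓ Z₀ = qExpand K (ℓ * ℓ) (coeffMap A.subtype b)
        * ∏ i ∈ Finset.range ℓ, twq (ζ ^ i) (coeffMap A.subtype b)) :
    ∃ n d : LaurentSeries A, coeffMap A.subtype d = Z₀ ∧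
      Z₁ - Z₀ = HahnSeries.C (a : K) * coeffMap A.subtype n ∧
      coeffMap (IsLocalRing.residue A) d
        = qExpand (IsLocalRing.ResidueField A) ℓ (coeffMap (IsLocalRing.residue A) b)
          * coeffMap (frobenius (IsLocalRing.ResidueField A) ℓ)
              (coeffMap (IsLocalRing.residue A) b) ∧
      coeffMap (IsLocalRing.residue A) n
        = qExpand (IsLocalRing.ResidueField A) ℓ (coeffMap (IsLocalRing.residue A) c)
          * coeffMap (frobenius (IsLocalRing.ResidueField A) ℓ)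
              (coeffMap (IsLocalRing.residue A) b) := by
  classical
  have : Fact ℓ.Prime := ⟨hℓ⟩
  have : CharP (IsLocalRing.ResidueField A) ℓ := kf_charP_of_expChar _ hℓ
  have : CharP (LaurentSeries (IsLocalRing.ResidueField A)) ℓ :=
    charP_of_injective_ringHom (HahnSeries.C_injective (Γ := ℤ)
      (R := IsLocalRing.ResidueField A)) ℓ
  -- `d` from KRON-F
  obtain ⟨d, hd, hdred⟩ := kf_core A ℓ hℓ ζ hζ b Z₀ hZ₀
  -- `ζ` as a unit of `A`
  have hmem : (ζ : K) ∈ A := kf_mem_of_pow_eq_one A (NeZero.ne ℓ) hζ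
  have hζA : (⟨(ζ : K), hmem⟩ : A) ^ ℓ = 1 := Subtype.ext (by simpa using hζ)
  let ζA : Aˣ := Units.ofPowEqOne (⟨(ζ : K), hmem⟩ : A) ℓ hζA (NeZero.ne ℓ)
  have hζA_map : Units.map (A.subtype : A →* K) ζA = ζ := Units.ext rfl
  have hζA_res : Units.map (IsLocalRing.residue A : A →* IsLocalRing.ResidueField A) ζA = 1 := by
    refine Units.ext ?_
    show IsLocalRing.residue A (⟨(ζ : K), hmem⟩ : A) = 1
    apply kf_eq_one_of_pow_eq_one (ℓ := ℓ)
    rw [← map_pow, hζA, map_one]
  set ρ : LaurentSeries A →+* LaurentSeries (IsLocalRing.ResidueField A) :=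
    coeffMap (IsLocalRing.residue A) with hρdef
  have hρa : ρ (HahnSeries.C a) = 0 := by
    rw [hρdef, coeffMap_C, ha, map_zero]
  have hρtw : ∀ (i : ℕ) (x : LaurentSeries A), ρ (twq (ζA ^ i) x) = ρ x := by
    intro i x
    rw [hρdef, coeffMap_twq, map_pow, hζA_res, one_pow, twq_one]
  -- the expansion of the product of the `ℓ` twisted factors
  obtain ⟨D, R, hDR, hρD⟩ := tpl_prod_expand ρ (HahnSeries.C a) (Finset.range ℓ)
    (fun i => twq (ζA ^ i) b) (fun i => twq (ζA ^ i) c) (ρ b) (ρ c)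
    (fun i _ => hρtw i b) (fun i _ => hρtw i c)
  have hρD0 : ρ D = 0 := by
    rw [hρD, Finset.card_range, CharP.cast_eq_zero, zero_mul]
  set P : LaurentSeries A := ∏ i ∈ Finset.range ℓ, twq (ζA ^ i) b with hP
  have hρP : ρ P = (ρ b) ^ ℓ := by
    rw [hP, map_prod, Finset.prod_congr rfl (fun i _ => hρtw i b), Finset.prod_const,
      Finset.card_range]
  set B₀ : LaurentSeries A := qExpand A (ℓ * ℓ) b with hB₀
  set C₀ : LaurentSeries A := qExpand A (ℓ * ℓ) c with hC₀
  set H : LaurentSeries A := B₀ * D + C₀ * P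
    + HahnSeries.C a * (B₀ * R + C₀ * D + HahnSeries.C a * (C₀ * R)) with hH
  set w₁ : LaurentSeries A := qExpand A (ℓ * ℓ) (b + HahnSeries.C a * c)
    * ∏ i ∈ Finset.range ℓ, twq (ζA ^ i) (b + HahnSeries.C a * c) with hw₁
  set w₀ : LaurentSeries A := qExpand A (ℓ * ℓ) b * ∏ i ∈ Finset.range ℓ, twq (ζA ^ i) b with hw₀
  have hw : w₁ - w₀ = HahnSeries.C a * H := by
    have e1 : ∏ i ∈ Finset.range ℓ, twq (ζA ^ i) (b + HahnSeries.C a * c)
        = ∏ i ∈ Finset.range ℓ, (twq (ζA ^ i) b + HahnSeries.C a * twq (ζA ^ i) c) :=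
      Finset.prod_congr rfl fun i _ => by rw [map_add, map_mul, tpl_twq_C]
    rw [hw₁, hw₀, e1, hDR, map_add, map_mul, qExpand_C, hH]
    ring
  have hw₁K : coeffMap A.subtype w₁ = qExpand K ℓ Z₁ := by
    rw [hZ₁, hw₁, map_mul, map_prod, coeffMap_qExpand]
    congr 1
    refine Finset.prod_congr rfl fun i _ => ?_
    rw [coeffMap_twq, map_pow, hζA_map]
  have hw₀K : coeffMap A.subtype w₀ = qExpand K ℓ Z₀ := by
    rw [hZ₀, hw₀, map_mul, map_prod, coeffMap_qExpand]
    congr 1
    refine Finset.prod_congr rfl fun i _ => ?_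
    rw [coeffMap_twq, map_pow, hζA_map]
  have hHK : qExpand K ℓ (Z₁ - Z₀) = HahnSeries.C (a : K) * coeffMap A.subtype H := by
    rw [map_sub, ← hw₁K, ← hw₀K, ← map_sub, hw, map_mul, coeffMap_C]
    rfl
  have hH0 : ∀ n : ℤ, ¬ (ℓ : ℤ) ∣ n → H.coeff n = 0 := by
    intro n hn
    have h1 : (qExpand K ℓ (Z₁ - Z₀)).coeff n
        = (HahnSeries.C (a : K) * coeffMap A.subtype H).coeff n := by rw [hHK]
    rw [qExpand_coeff_of_not_dvd ℓ _ hn, tpl_coeff_C_mul, coeffMap_coeff] at h1
    have ha0' : (a : K) ≠ 0 := fun h => ha0 (Subtype.ext h)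
    have h2 : A.subtype (H.coeff n) = 0 := by
      rcases mul_eq_zero.mp h1.symm with h | h
      · exact absurd h ha0'
      · exact h
    exact A.subtype_injective (by rw [h2, map_zero])
  refine ⟨Kron.qContract ℓ H, d, hd, ?_, hdred, ?_⟩
  · apply qExpand_injective (R := K) ℓ
    rw [hHK, map_mul, qExpand_C, ← coeffMap_qExpand, Kron.qExpand_qContract ℓ hH0]
  · apply qExpand_injective (R := IsLocalRing.ResidueField A) ℓ
    have hL : qExpand (IsLocalRing.ResidueField A) ℓ
        (coeffMap (IsLocalRing.residue A) (Kron.qContract ℓ H)) = ρ H := by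
      rw [← coeffMap_qExpand, Kron.qExpand_qContract ℓ hH0]
    have hρC₀ : ρ C₀ = qExpand (IsLocalRing.ResidueField A) (ℓ * ℓ) (ρ c) :=
      coeffMap_qExpand (IsLocalRing.residue A) (ℓ * ℓ) c
    have hρH : ρ H = qExpand (IsLocalRing.ResidueField A) (ℓ * ℓ) (ρ c) * (ρ b) ^ ℓ := by
      rw [hH, map_add, map_add, map_mul, map_mul, map_mul, hρa, hρD0, hρP, hρC₀]
      ring
    rw [hL, hρH, map_mul, qExpand_qExpand, ← Kron.kc_pow_char]

section Field

variable (N ℓ : ℕ) [NeZero N] [NeZero ℓ] (A : ValuationSubring (AlgebraicClosure ℚ))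
  [ExpChar (IsLocalRing.ResidueField A) ℓ]
variable {Fk : IntermediateField (IsLocalRing.ResidueField A)
  (LaurentSeries (IsLocalRing.ResidueField A))}

/-- **piece T in the function field**: for `g = c / b` in the unit ball of a series reduction `R`
of level `N` and `a ∈ m_A`, `a ≠ 0`:  `Norm_α (β (1 + a g)) = 1 + a G` with `G` in the unit ball
and `red G = (red g)(q^ℓ)`. -/
theorem tpl_norm (hℓ : ℓ.Prime) (hconj : NormConjStatement N ℓ)
    (R : ConstRed A (IsLocalRing.residue A) (↥Fk) (↥(modularFunctionFieldBar N)))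
    (hR : IsSeriesRed R) (a : A) (ha : IsLocalRing.residue A a = 0) (ha0 : a ≠ 0)
    (g : modularFunctionFieldBar N) (b c : LaurentSeries A)
    (hrep : IsRep A (modularFunctionFieldBar N) (g : LaurentSeries (AlgebraicClosure ℚ)) c b) :
    letI := algebraAlong (heckeAlphaBar (AlgebraicClosure ℚ) N ℓ)
    ∃ (G : modularFunctionFieldBar N) (hG : G ∈ R.O),
      Algebra.norm (modularFunctionFieldBar N)
          (heckeBetaBar (AlgebraicClosure ℚ) N ℓ
            (1 + algebraMap (AlgebraicClosure ℚ) (modularFunctionFieldBar N) (a : AlgebraicClosure ℚ)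
              * g))
        = 1 + algebraMap (AlgebraicClosure ℚ) (modularFunctionFieldBar N) (a : AlgebraicClosure ℚ)
              * G ∧
      ((R.red ⟨G, hG⟩ : ↥Fk) : LaurentSeries (IsLocalRing.ResidueField A))
        = qExpand (IsLocalRing.ResidueField A) ℓ
            ((R.red ⟨g, hR.mem_of_isRep hrep⟩ : ↥Fk) :
              LaurentSeries (IsLocalRing.ResidueField A)) := by
  classical
  let _ := algebraAlong (heckeAlphaBar (AlgebraicClosure ℚ) N ℓ)
  have : Fact ℓ.Prime := ⟨hℓ⟩
  have : CharP (IsLocalRing.ResidueField A) ℓ := kf_charP_of_expChar _ hℓ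
  have : NeZero ((ℓ : ℕ) : ℚ) := ⟨by exact_mod_cast NeZero.ne ℓ⟩
  obtain ⟨ζ0, hζ0⟩ := HasEnoughRootsOfUnity.exists_primitiveRoot (AlgebraicClosure ℚ) ℓ
  have hunit : IsUnit ζ0 := hζ0.isUnit (NeZero.ne ℓ)
  obtain ⟨ζ, rfl⟩ := hunit
  obtain ⟨hc, hb, hbred, hgb⟩ := hrep
  have ha0' : (a : AlgebraicClosure ℚ) ≠ 0 := fun h => ha0 (Subtype.ext h)
  -- the two series `b + a c`, `b` as elements of `F_N`
  have hy₁ : coeffMap A.subtype (b + HahnSeries.C a * c) ∈ modularFunctionFieldBar N := by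
    rw [map_add, map_mul, coeffMap_C]
    exact add_mem hb (mul_mem (C_mem_intermediateField _ _) hc)
  set Y₁ : modularFunctionFieldBar N := ⟨coeffMap A.subtype (b + HahnSeries.C a * c), hy₁⟩
    with hY₁
  set Y₀ : modularFunctionFieldBar N := ⟨coeffMap A.subtype b, hb⟩ with hY₀
  have hb0 : coeffMap A.subtype b ≠ 0 := by
    intro h0
    have : b = 0 := coeffMap_valSubtype_injective A (by rw [h0, map_zero])
    exact hbred (by rw [this, map_zero])
  have hY₀0 : Y₀ ≠ 0 := fun h => hb0 (congrArg Subtype.val h)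
  have hfrac : (1 + algebraMap (AlgebraicClosure ℚ) (modularFunctionFieldBar N)
      (a : AlgebraicClosure ℚ) * g) * Y₀ = Y₁ := by
    apply Subtype.ext
    rw [hY₁, hY₀]
    simp only [MulMemClass.coe_mul, AddMemClass.coe_add, OneMemClass.coe_one,
      coe_algebraMap_eq_C]
    rw [map_add, map_mul, coeffMap_C, add_mul, one_mul, mul_assoc, hgb]
    rfl
  set Z₁ : modularFunctionFieldBar N :=
    Algebra.norm (modularFunctionFieldBar N) (heckeBetaBar (AlgebraicClosure ℚ) N ℓ Y₁) with hZ₁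
  set Z₀ : modularFunctionFieldBar N :=
    Algebra.norm (modularFunctionFieldBar N) (heckeBetaBar (AlgebraicClosure ℚ) N ℓ Y₀) with hZ₀
  have hnorm : Algebra.norm (modularFunctionFieldBar N)
      (heckeBetaBar (AlgebraicClosure ℚ) N ℓ
        (1 + algebraMap (AlgebraicClosure ℚ) (modularFunctionFieldBar N)
          (a : AlgebraicClosure ℚ) * g)) * Z₀ = Z₁ := by
    rw [hZ₀, hZ₁, ← map_mul, ← map_mul, hfrac]
  obtain ⟨n, d, hd, hn, hdred, hnred⟩ := tpl_core A ℓ hℓ ζ hζ0.pow_eq_one b c a ha ha0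
    (Z₁ : LaurentSeries (AlgebraicClosure ℚ)) (Z₀ : LaurentSeries (AlgebraicClosure ℚ))
    (hconj ζ hζ0 Y₁) (hconj ζ hζ0 Y₀)
  have hdred0 : coeffMap (IsLocalRing.residue A) d ≠ 0 := by
    rw [hdred]
    refine mul_ne_zero ?_ ?_
    · intro h0
      exact hbred (qExpand_injective (R := IsLocalRing.ResidueField A) ℓ (by rw [h0, map_zero]))
    · intro h0
      apply hbred
      have h1 := Kron.kc_pow_char ℓ (coeffMap (IsLocalRing.residue A) b)
      rw [h0, map_zero] at h1
      exact pow_eq_zero_iff (NeZero.ne ℓ) |>.mp h1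
  have hZ₀0 : Z₀ ≠ 0 := by
    intro h0
    apply hdred0
    have h1 : coeffMap A.subtype d = 0 := by rw [hd, h0]; rfl
    have h2 : d = 0 := coeffMap_valSubtype_injective A (by rw [h1, map_zero])
    rw [h2, map_zero]
  -- `G = (Z₁ - Z₀) / (a Z₀)`
  set G : modularFunctionFieldBar N :=
    (Z₁ - Z₀) * (algebraMap (AlgebraicClosure ℚ) (modularFunctionFieldBar N)
      (a : AlgebraicClosure ℚ) * Z₀)⁻¹ with hGdef
  have hAa0 : algebraMap (AlgebraicClosure ℚ) (modularFunctionFieldBar N)
      (a : AlgebraicClosure ℚ) ≠ 0 := by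
    rw [Ne, map_eq_zero]; exact ha0'
  have hnmem : coeffMap A.subtype n ∈ modularFunctionFieldBar N := by
    have h1 : coeffMap A.subtype n
        = HahnSeries.C ((a : AlgebraicClosure ℚ)⁻¹) * ((Z₁ : LaurentSeries (AlgebraicClosure ℚ))
          - (Z₀ : LaurentSeries (AlgebraicClosure ℚ))) := by
      rw [hn, ← mul_assoc, ← map_mul, inv_mul_cancel₀ ha0', map_one, one_mul]
    rw [h1]
    exact mul_mem (C_mem_intermediateField _ _) (sub_mem Z₁.2 Z₀.2)
  have hdmem : coeffMap A.subtype d ∈ modularFunctionFieldBar N := by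
    rw [hd]; exact Z₀.2
  have hGrep : IsRep A (modularFunctionFieldBar N) (G : LaurentSeries (AlgebraicClosure ℚ))
      n d := by
    refine ⟨hnmem, hdmem, hdred0, ?_⟩
    have h1 : G * Z₀ * algebraMap (AlgebraicClosure ℚ) (modularFunctionFieldBar N)
        (a : AlgebraicClosure ℚ) = Z₁ - Z₀ := by
      rw [hGdef]
      field_simp
    have h2 := congrArg (Subtype.val) h1
    simp only [MulMemClass.coe_mul, coe_algebraMap_eq_C, AddSubgroupClass.coe_sub] at h2
    rw [hn] at h2
    rw [hd]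
    have h3 : ((G : LaurentSeries (AlgebraicClosure ℚ)) * (Z₀ : LaurentSeries (AlgebraicClosure ℚ))
        - coeffMap A.subtype n) * HahnSeries.C (a : AlgebraicClosure ℚ) = 0 := by
      rw [sub_mul, h2]; ring
    have hCa : (HahnSeries.C (a : AlgebraicClosure ℚ) : LaurentSeries (AlgebraicClosure ℚ)) ≠ 0 := by
      intro h
      exact ha0' (HahnSeries.C_injective (by rw [h, map_zero]))
    rcases mul_eq_zero.mp h3 with h | h
    · exact sub_eq_zero.mp h
    · exact absurd h hCa
  refine ⟨G, hR.mem_of_isRep hGrep, ?_, ?_⟩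
  · have h1 : Algebra.norm (modularFunctionFieldBar N)
        (heckeBetaBar (AlgebraicClosure ℚ) N ℓ
          (1 + algebraMap (AlgebraicClosure ℚ) (modularFunctionFieldBar N)
            (a : AlgebraicClosure ℚ) * g)) = Z₁ * Z₀⁻¹ := by
      rw [← hnorm, mul_assoc, mul_inv_cancel₀ hZ₀0, mul_one]
    rw [h1, hGdef]
    field_simp
    ring
  · rw [hR.red_of_isRep hGrep, hR.red_of_isRep ⟨hc, hb, hbred, hgb⟩, hdred, hnred, map_div₀]
    have hτ : coeffMap (frobenius (IsLocalRing.ResidueField A) ℓ)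
        (coeffMap (IsLocalRing.residue A) b) ≠ 0 := by
      intro h0
      apply hbred
      have h1 := Kron.kc_pow_char ℓ (coeffMap (IsLocalRing.residue A) b)
      rw [h0, map_zero] at h1
      exact pow_eq_zero_iff (NeZero.ne ℓ) |>.mp h1
    rw [mul_div_mul_right _ _ hτ]

end Field

end Fermat.Agent.S33lib
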