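import Mathlib
import Fermat.Agent.S33lib.TpLead
import Fermat.Agent.S37lib.NormConj
import Fermat.Agent.S37lib.FrobQ
import Fermat.Agent.GoodRed.Bounded

/-!
# Item 86 (S33), piece T, concrete form (helper29)

Level `N`, `ℓ ∤ N` prime, `A | ℓ`, `R` a series reduction of `F_N` (`IsSeriesRed`), `k = A/m_A`.

* `tpl_hasPrimFrac`: `HasPrimFrac A F_N`;
* `tpl_main`: for `g ∈ R.O`, `a ∈ m_A`, `a ≠ 0`:  `Norm_α (β (1 + a g)) = 1 + a G`, `G ∈ R.O`,
  `red G = ψ ^ ℓ`, `Frob ψ = red g` (`Frob = frobK` the coefficientwise Frobenius of `F_k`):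
  **the leading term of `T_ℓ` of a Kummer function is an `ℓ`-th power, the Frobenius twist of the
  leading term**;
* `tpl_kummer`: the same for a Kummer function in normal form `u = c · s^ℓ · (1 + a g)`:
  `Norm_α (β u) = c' · s'^ℓ · (1 + a G)`;
* `tpl_as`: **`T_ℓ` is injective on Artin–Schreier classes**: if `red G ∈ ℘(F_k) + k` then
  `red g ∈ ℘(F_k) + k` (`℘ w = w^ℓ - w`).
-/

set_option autoImplicit false
set_option linter.unusedSectionVars false
set_option linter.unusedVariables false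

noncomputable section

namespace Fermat.Agent.S33lib

open ModularCurve AlgebraicCurve HahnSeries
open Fermat.Agent.S37lib Fermat.Agent.GoodRed

variable (N ℓ : ℕ) [NeZero N] [NeZero ℓ] (A : ValuationSubring (AlgebraicClosure ℚ))

theorem tpl_hasPrimFrac (hℓ : ℓ.Prime) (hlt : A.valuation (ℓ : AlgebraicClosure ℚ) < 1) :
    HasPrimFrac A (modularFunctionFieldBar N) :=
  hasPrimFrac_of_isFracNF hℓ hlt fun _ hf =>
    isFracNF_of_mem (fun c => ((AlgebraicClosure.isAlgebraic ℚ).isAlgebraic c).isIntegral) hf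

variable [Fact ℓ.Prime] [CharP (IsLocalRing.ResidueField A) ℓ]
  [PerfectRing (IsLocalRing.ResidueField A) ℓ]

/-- **piece T**: `Norm_α (β (1 + a g)) = 1 + a G`, `red G = ψ ^ ℓ`, `Frob ψ = red g`. -/
theorem tpl_main (hℓN : ¬ ℓ ∣ N) (hlt : A.valuation (ℓ : AlgebraicClosure ℚ) < 1)
    (R : ConstRed A (IsLocalRing.residue A)
      (↥(modularFunctionFieldFullC (IsLocalRing.ResidueField A) N))
      (↥(modularFunctionFieldBar N)))
    (hR : IsSeriesRed R) (a : A) (ha : IsLocalRing.residue A a = 0) (ha0 : a ≠ 0)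
    (g : modularFunctionFieldBar N) (hg : g ∈ R.O) :
    letI := algebraAlong (heckeAlphaBar (AlgebraicClosure ℚ) N ℓ)
    ∃ (G : modularFunctionFieldBar N) (hG : G ∈ R.O)
      (ψ : modularFunctionFieldFullC (IsLocalRing.ResidueField A) N),
      Algebra.norm (modularFunctionFieldBar N)
          (heckeBetaBar (AlgebraicClosure ℚ) N ℓ
            (1 + algebraMap (AlgebraicClosure ℚ) (modularFunctionFieldBar N) (a : AlgebraicClosure ℚ)
              * g))
        = 1 + algebraMap (AlgebraicClosure ℚ) (modularFunctionFieldBar N) (a : AlgebraicClosure ℚ)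
              * G ∧
      R.red ⟨G, hG⟩ = ψ ^ ℓ ∧
      frobK (IsLocalRing.ResidueField A) ℓ N • ψ = R.red ⟨g, hg⟩ := by
  classical
  have hℓ : ℓ.Prime := Fact.out
  have : ExpChar (IsLocalRing.ResidueField A) ℓ := ExpChar.prime hℓ
  obtain ⟨c, b, hrep⟩ := hR.exists_isRep (tpl_hasPrimFrac N ℓ A hℓ hlt) hg
  obtain ⟨G, hG, hnorm, hred⟩ := tpl_norm N ℓ A hℓ (normConj N ℓ hℓ hℓN) R hR a ha ha0 g b c hrep
  -- `ψ := Frob⁻¹ (red g)`
  set y : modularFunctionFieldFullC (IsLocalRing.ResidueField A) N := R.red ⟨g, hg⟩ with hy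
  have hψmem : coeffMap ((frobeniusEquiv (IsLocalRing.ResidueField A) ℓ).symm :
      IsLocalRing.ResidueField A →+* IsLocalRing.ResidueField A)
        (y : LaurentSeries (IsLocalRing.ResidueField A))
      ∈ modularFunctionFieldFullC (IsLocalRing.ResidueField A) N :=
    coeffMap_mem_fullC _ N _ y.2
  have e : coeffMap (frobenius (IsLocalRing.ResidueField A) ℓ)
      (coeffMap ((frobeniusEquiv (IsLocalRing.ResidueField A) ℓ).symm :
        IsLocalRing.ResidueField A →+* IsLocalRing.ResidueField A)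
        (y : LaurentSeries (IsLocalRing.ResidueField A)))
      = (y : LaurentSeries (IsLocalRing.ResidueField A)) := by
    rw [coeffMap_coeffMap]
    have hid : (frobenius (IsLocalRing.ResidueField A) ℓ).comp
        ((frobeniusEquiv (IsLocalRing.ResidueField A) ℓ).symm :
          IsLocalRing.ResidueField A →+* IsLocalRing.ResidueField A)
        = RingHom.id _ :=
      RingHom.ext fun a => frobenius_apply_frobeniusEquiv_symm _ ℓ a
    rw [coeffMap_congr hid, coeffMap_id]
  refine ⟨G, hG, ⟨_, hψmem⟩, hnorm, ?_, ?_⟩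
  · apply Subtype.ext
    rw [hred]
    have h2 := Fermat.Agent.Kron.kc_pow_char ℓ
      (coeffMap ((frobeniusEquiv (IsLocalRing.ResidueField A) ℓ).symm :
        IsLocalRing.ResidueField A →+* IsLocalRing.ResidueField A)
        (y : LaurentSeries (IsLocalRing.ResidueField A)))
    rw [e] at h2
    rw [SubmonoidClass.coe_pow]
    exact h2.symm
  · apply Subtype.ext
    rw [coe_frobK_smul]
    exact e

/-- the norm of `β s` is nonzero for `s ≠ 0` (from the conjugates formula) -/
theorem tpl_norm_ne_zero (hℓN : ¬ ℓ ∣ N) (s : modularFunctionFieldBar N) (hs : s ≠ 0) :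
    letI := algebraAlong (heckeAlphaBar (AlgebraicClosure ℚ) N ℓ)
    Algebra.norm (modularFunctionFieldBar N) (heckeBetaBar (AlgebraicClosure ℚ) N ℓ s) ≠ 0 := by
  classical
  let _ := algebraAlong (heckeAlphaBar (AlgebraicClosure ℚ) N ℓ)
  have hℓ : ℓ.Prime := Fact.out
  have : NeZero ((ℓ : ℕ) : ℚ) := ⟨by exact_mod_cast NeZero.ne ℓ⟩
  obtain ⟨ζ0, hζ0⟩ := HasEnoughRootsOfUnity.exists_primitiveRoot (AlgebraicClosure ℚ) ℓ
  have hunit : IsUnit ζ0 := hζ0.isUnit (NeZero.ne ℓ)
  obtain ⟨ζ, rfl⟩ := hunit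
  have h := normConj N ℓ hℓ hℓN ζ hζ0 s
  intro h0
  rw [h0] at h
  have hs' : (s : LaurentSeries (AlgebraicClosure ℚ)) ≠ 0 := fun h => hs (Subtype.ext h)
  have h1 : qExpand (AlgebraicClosure ℚ) (ℓ * ℓ) (s : LaurentSeries (AlgebraicClosure ℚ))
      * ∏ b ∈ Finset.range ℓ, twq (ζ ^ b) (s : LaurentSeries (AlgebraicClosure ℚ)) ≠ 0 := by
    refine mul_ne_zero ?_ (Finset.prod_ne_zero_iff.mpr fun b _ => ?_)
    · exact fun h => hs' (qExpand_injective (R := AlgebraicClosure ℚ) (ℓ * ℓ)
        (by rw [h, map_zero]))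
    · exact fun h => hs' ((twq (ζ ^ b)).injective (by rw [h, map_zero]))
  apply h1
  rw [← h]
  simp

/-- **piece T for a Kummer function in normal form** `u = c · s^ℓ · (1 + a g)`. -/
theorem tpl_kummer (hℓN : ¬ ℓ ∣ N) (hlt : A.valuation (ℓ : AlgebraicClosure ℚ) < 1)
    (R : ConstRed A (IsLocalRing.residue A)
      (↥(modularFunctionFieldFullC (IsLocalRing.ResidueField A) N))
      (↥(modularFunctionFieldBar N)))
    (hR : IsSeriesRed R) (c₀ : AlgebraicClosure ℚ) (hc₀ : c₀ ≠ 0)
    (s : modularFunctionFieldBar N) (hs : s ≠ 0)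
    (a : A) (ha : IsLocalRing.residue A a = 0) (ha0 : a ≠ 0)
    (g : modularFunctionFieldBar N) (hg : g ∈ R.O) :
    letI := algebraAlong (heckeAlphaBar (AlgebraicClosure ℚ) N ℓ)
    ∃ (c₁ : AlgebraicClosure ℚ) (s₁ G : modularFunctionFieldBar N) (hG : G ∈ R.O)
      (ψ : modularFunctionFieldFullC (IsLocalRing.ResidueField A) N),
      c₁ ≠ 0 ∧ s₁ ≠ 0 ∧
      Algebra.norm (modularFunctionFieldBar N)
          (heckeBetaBar (AlgebraicClosure ℚ) N ℓ
            (algebraMap (AlgebraicClosure ℚ) (modularFunctionFieldBar N) c₀ * s ^ ℓ *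
              (1 + algebraMap (AlgebraicClosure ℚ) (modularFunctionFieldBar N)
                (a : AlgebraicClosure ℚ) * g)))
        = algebraMap (AlgebraicClosure ℚ) (modularFunctionFieldBar N) c₁ * s₁ ^ ℓ *
            (1 + algebraMap (AlgebraicClosure ℚ) (modularFunctionFieldBar N)
              (a : AlgebraicClosure ℚ) * G) ∧
      R.red ⟨G, hG⟩ = ψ ^ ℓ ∧
      frobK (IsLocalRing.ResidueField A) ℓ N • ψ = R.red ⟨g, hg⟩ := by
  classical
  let _ := algebraAlong (heckeAlphaBar (AlgebraicClosure ℚ) N ℓ)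
  obtain ⟨G, hG, ψ, hnorm, hred, hψ⟩ := tpl_main N ℓ A hℓN hlt R hR a ha ha0 g hg
  refine ⟨c₀ ^ Module.finrank (modularFunctionFieldBar N)
      (modularFunctionFieldBar (N * ℓ)),
    Algebra.norm (modularFunctionFieldBar N) (heckeBetaBar (AlgebraicClosure ℚ) N ℓ s),
    G, hG, ψ, pow_ne_zero _ hc₀, tpl_norm_ne_zero N ℓ hℓN s hs, ?_, hred, hψ⟩
  rw [map_mul, map_mul, map_mul, map_mul, map_pow, map_pow, hnorm]
  congr 2
  have h1 : heckeBetaBar (AlgebraicClosure ℚ) N ℓ
      (algebraMap (AlgebraicClosure ℚ) (modularFunctionFieldBar N) c₀)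
      = algebraMap (modularFunctionFieldBar N) (modularFunctionFieldBar (N * ℓ))
          (algebraMap (AlgebraicClosure ℚ) (modularFunctionFieldBar N) c₀) := by
    rw [AlgHom.commutes]
    exact ((heckeAlphaBar (AlgebraicClosure ℚ) N ℓ).commutes c₀).symm
  rw [h1, Algebra.norm_algebraMap, map_pow]

/-- **`T_ℓ` is injective on Artin–Schreier classes**: if `ψ^ℓ ∈ ℘(F_k) + k` and `Frob ψ = y`,
then `y ∈ ℘(F_k) + k`. -/
theorem tpl_as (ψ y w : modularFunctionFieldFullC (IsLocalRing.ResidueField A) N)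
    (c : IsLocalRing.ResidueField A)
    (hψ : frobK (IsLocalRing.ResidueField A) ℓ N • ψ = y)
    (h : ψ ^ ℓ = w ^ ℓ - w + algebraMap (IsLocalRing.ResidueField A)
      (modularFunctionFieldFullC (IsLocalRing.ResidueField A) N) c) :
    ∃ (v : modularFunctionFieldFullC (IsLocalRing.ResidueField A) N)
      (c' : IsLocalRing.ResidueField A),
      y = v ^ ℓ - v + algebraMap (IsLocalRing.ResidueField A)
        (modularFunctionFieldFullC (IsLocalRing.ResidueField A) N) c' := by
  classical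
  have hℓ : ℓ.Prime := Fact.out
  have : CharP (modularFunctionFieldFullC (IsLocalRing.ResidueField A) N) ℓ :=
    charP_of_injective_algebraMap (algebraMap (IsLocalRing.ResidueField A)
      (modularFunctionFieldFullC (IsLocalRing.ResidueField A) N)).injective ℓ
  -- `ψ = (w - ψ)^ℓ - (w - ψ) + c`
  have h1 : (w - ψ) ^ ℓ = w - algebraMap (IsLocalRing.ResidueField A)
      (modularFunctionFieldFullC (IsLocalRing.ResidueField A) N) c := by
    rw [sub_pow_char, h]; ring
  have h2 : ψ = (w - ψ) ^ ℓ - (w - ψ) + algebraMap (IsLocalRing.ResidueField A)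
      (modularFunctionFieldFullC (IsLocalRing.ResidueField A) N) c := by
    rw [h1]; ring
  refine ⟨frobK (IsLocalRing.ResidueField A) ℓ N • (w - ψ), c ^ ℓ, ?_⟩
  rw [← hψ]
  apply Subtype.ext
  have h3 : coeffMap (frobenius (IsLocalRing.ResidueField A) ℓ)
      (ψ : LaurentSeries (IsLocalRing.ResidueField A))
      = coeffMap (frobenius (IsLocalRing.ResidueField A) ℓ)
        (((w - ψ) ^ ℓ - (w - ψ) + algebraMap (IsLocalRing.ResidueField A)
          (modularFunctionFieldFullC (IsLocalRing.ResidueField A) N) c :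
            modularFunctionFieldFullC (IsLocalRing.ResidueField A) N) :
          LaurentSeries (IsLocalRing.ResidueField A)) := by
    rw [← h2]
  rw [coe_frobK_smul, h3]
  simp only [AddMemClass.coe_add, AddSubgroupClass.coe_sub, SubmonoidClass.coe_pow,
    coe_frobK_smul, map_add, map_sub, map_pow]
  congr 1
  rw [coe_algebraMap_eq_C, coeffMap_C, frobenius_def, map_pow]

end Fermat.Agent.S33lib
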