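import Mathlib
import Fermat.Agent.S33lib.TpInjAbs
import Fermat.Agent.S33lib.TpLeadConc
import Fermat.Agent.S33lib.NormIncl
import Fermat.Agent.S33lib.RegTwoAux
import Fermat.Agent.LatE.KummerHecke
import Fermat.Agent.S37lib.HeckeInputs
import Fermat.Agent.S36lib.Speed

/-!
# Item 86 (S33), piece TPINJ, the concrete layer in FUNCTION FORM (helper29).  Complete proofs.

`F_L = FF L` the function field of `X₀(L)` over `ℚ̄`, `B` a valuation ring of `ℚ̄` over `p`,
`ζ` a primitive `p`-th root of unity, `λ = ζ − 1`, `T_p = heckeOperatorBar M' p` (`p ∤ M'`).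

* `tpj_kummer_aux` : **TPINJ at an AUXILIARY level `M`**: `v ∈ F_M` with all orders divisible by
  `p`, `v = c s^p (1 + λ^p f)`, `f ∈ R.O`, and `Nm_α (β v) = c₂ t₂^p`  ⇒  `v = c' s'^p`;
* `tpj_kummer` : **TPINJ at level `M'`**, `M = M' e` auxiliary, `ψ(M) < 2 e ψ(M')`: the Kummer
  function `u` lives in `F_{M'}`, its normal form `ι u = c s^p (1 + λ^p f)` in `F_M`, and
  `Nm_α (β u) = c₂ t₂^p` in `F_{M'}`  ⇒  `u = c₀ g₀^p` in `F_{M'}`;
* `tpj_main` : the same in `J₀(M')`: `p D = div u`, `T_p [D] = 0`  ⇒  `[D] = 0`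
  (**`T_p` is injective on the classes of level `≥ v*`**).
-/

set_option autoImplicit false
set_option linter.unusedSectionVars false
set_option linter.unusedVariables false
set_option linter.style.haveILetI false
set_option synthInstance.maxHeartbeats 400000

noncomputable section

namespace Fermat.Agent.S33lib

open AlgebraicCurve ModularCurve
open Fermat.Agent.RRlib Fermat.Agent.GoodRed Fermat.Agent.S24lib Fermat.Agent.HeckeBar
  Fermat.Agent.GM Fermat.Agent.S34lib Fermat.Agent.S31lib Fermat.Agent.GalRep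
  Fermat.Agent.S18lib Fermat.Agent.S36lib Fermat.Agent.S37lib Fermat.Agent.LatE

/-- a function all of whose orders are `p` times the orders of `s` is a constant times `s ^ p` -/
theorem tpj_const_mul_pow {K F : Type*} [Field K] [Field F] [Algebra K F] [RRBase K F]
    (p : ℕ) {x s : F} (hx : x ≠ 0) (hs : s ≠ 0)
    (h : ∀ w : Place K F, w.ord x = (p : ℤ) * w.ord s) :
    ∃ c : K, x = algebraMap K F c * s ^ p := by
  have hsp : s ^ p ≠ 0 := pow_ne_zero _ hs
  have hw : ∀ w : Place K F, 0 ≤ w.ord (x / s ^ p) := by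
    intro w
    rw [uk_ord_div w hx hsp, Fermat.Agent.S18lib.ord_pow_nat, h w, sub_self]
  obtain ⟨c, hc⟩ := RRBase.const_of_forall_ord_nonneg (K := K) (x / s ^ p) hw
  exact ⟨c, by rw [hc, div_mul_cancel₀ _ hsp]⟩

section Aux

variable (M p : ℕ) [NeZero M] [NeZero p] [Fact p.Prime]
variable (B : ValuationSubring Kbar) (hB : B.LiesOverPrime p)
variable {ζ : Kbar} (hζ : IsPrimitiveRoot ζ p)
variable (R : ConstRed B (IsLocalRing.residue B)
    (↥(modularFunctionFieldFullC (IsLocalRing.ResidueField B) M)) (FF M))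
  (hR : IsSeriesRed R)

set_option maxHeartbeats 1600000 in
include hB hζ hR in
/-- **TPINJ at an auxiliary level, Kummer form.** -/
theorem tpj_kummer_aux (hAux : IsAuxLevel p M)
    (v : FF M) (hv : v ≠ 0) (hdiv : ∀ P : Place Kbar (FF M), (p : ℤ) ∣ P.ord v)
    (c : Kbar) (hc : c ≠ 0) (s : FF M) (hs : s ≠ 0) (f : R.O)
    (hnf : v = algebraMap Kbar (FF M) c * s ^ p *
      (1 + algebraMap Kbar (FF M) ((ζ - 1) ^ p) * (f : FF M)))
    (c₂ : Kbar) (t₂ : FF M)
    (hT : normAlong (heckeAlphaBar Kbar M p) (heckeBetaBar Kbar M p v)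
      = algebraMap Kbar (FF M) c₂ * t₂ ^ p) :
    ∃ (c' : Kbar) (s' : FF M), v = algebraMap Kbar (FF M) c' * s' ^ p := by
  classical
  have hp : p.Prime := Fact.out
  haveI : IsAlgClosed (IsLocalRing.ResidueField B) := isAlgClosed_residueField B
  haveI : Infinite (IsLocalRing.ResidueField B) := IsAlgClosed.instInfinite
  haveI : RRHyp Kbar (FF M) := mod_rrHyp M
  haveI : RRHyp (IsLocalRing.ResidueField B)
      (↥(modularFunctionFieldFullC (IsLocalRing.ResidueField B) M)) := mr_rrHyp _ M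
  haveI : CharP (IsLocalRing.ResidueField B) p := charP_residueField hB
  haveI : ExpChar (IsLocalRing.ResidueField B) p := ExpChar.prime hp
  haveI : PerfectRing (IsLocalRing.ResidueField B) p := inferInstance
  have hpM : ¬ p ∣ M := hAux.1
  have hζp : ζ ^ p = 1 := hζ.pow_eq_one
  have hζB : ζ ∈ B := cyclo_mem_of_pow_eq_one B hp.ne_zero hζp
  have hlam0 : ζ - 1 ≠ 0 := sub_ne_zero.mpr (hζ.ne_one hp.one_lt)
  have hlam : ζ - 1 ∈ B.nonunits := by
    rw [B.mem_nonunits_iff]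
    exact zi_val_zeta_sub_one_lt_one B.valuation hp (B.mem_nonunits_iff.mp hB) hζ
  have hplam := rpw_p_eq hp hζ B hζB
  have hgen := genusFF_le_modL M hAux B hB
  have hlamB : ζ - 1 ∈ B := B.nonunits_le hlam
  have hk : ∀ z : ↥(modularFunctionFieldFullC (IsLocalRing.ResidueField B) M),
      z ^ p ∈ Set.range (algebraMap (IsLocalRing.ResidueField B)
        (↥(modularFunctionFieldFullC (IsLocalRing.ResidueField B) M))) →
      z ∈ Set.range (algebraMap (IsLocalRing.ResidueField B)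
        (↥(modularFunctionFieldFullC (IsLocalRing.ResidueField B) M))) := by
    rintro z ⟨κ, hκ⟩
    exact r2a_hk hp.two_le z 0 κ (by rw [map_zero, zero_mul, add_zero, hκ])
  -- the level `λ ^ p` as an element of `B`
  set a : B := ⟨(ζ - 1) ^ p, pow_mem hlamB p⟩ with ha
  have haK : (a : Kbar) = (ζ - 1) ^ p := rfl
  have ha0 : a ≠ 0 := by
    intro h0
    have := congrArg (fun x : B => (x : Kbar)) h0
    exact pow_ne_zero p hlam0 this
  have hares : IsLocalRing.residue B a = 0 := by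
    rw [R.π_eq_zero_iff, haK, B.mem_nonunits_iff, map_pow]
    exact pow_lt_one₀ zero_le (B.mem_nonunits_iff.mp hlam) hp.ne_zero
  -- the Kummer function of `T_p`
  obtain ⟨c₁, s₁, G, hG, ψ, hc₁, hs₁, hnorm, hred, hψ⟩ :=
    tpl_kummer M p B hpM (B.mem_nonunits_iff.mp hB) R hR c hc s hs a hares ha0 (f : FF M) f.2
  have hnorm' : normAlong (heckeAlphaBar Kbar M p) (heckeBetaBar Kbar M p v)
      = algebraMap Kbar (FF M) c₁ * s₁ ^ p *
        (1 + algebraMap Kbar (FF M) ((ζ - 1) ^ p) * G) := by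
    rw [hnf]
    exact hnorm
  have hC₁ : algebraMap Kbar (FF M) c₁ ≠ 0 := (_root_.map_ne_zero _).mpr hc₁
  have hs₁p : s₁ ^ p ≠ 0 := pow_ne_zero _ hs₁
  have h4 : 1 + algebraMap Kbar (FF M) ((ζ - 1) ^ p) * ((⟨G, hG⟩ : R.O) : FF M)
      = algebraMap Kbar (FF M) (c₂ / c₁) * (t₂ / s₁) ^ p := by
    show 1 + algebraMap Kbar (FF M) ((ζ - 1) ^ p) * G = _
    have h5 : algebraMap Kbar (FF M) c₁ * s₁ ^ p *
        (1 + algebraMap Kbar (FF M) ((ζ - 1) ^ p) * G)
        = algebraMap Kbar (FF M) c₂ * t₂ ^ p := by rw [← hnorm', hT]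
    rw [map_div₀, div_pow]
    field_simp
    rw [← h5]
    ring
  obtain ⟨w, κ, hwκ⟩ := tpj_as_of_pow R hp hlam0 hlam hplam hk ⟨G, hG⟩ (c₂ / c₁) (t₂ / s₁) h4
  -- Artin–Schreier injectivity
  obtain ⟨v', κ', hv'⟩ := tpl_as M p B ψ (R.red ⟨(f : FF M), f.2⟩) w κ hψ (by rw [← hred, hwκ])
  have hv'' : R.red f = v' ^ p - v' + algebraMap _ _ κ' := hv'
  -- level up
  obtain ⟨c'', s'', a', g', hc'', hs'', hlev, hup⟩ :=
    tpj_level_up R hp hlam0 hlam hplam f v' κ' hv''
  -- crux III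
  have hv2 : v = algebraMap Kbar (FF M) (c * c'') * (s * s'') ^ p
      * (1 + algebraMap Kbar (FF M) (a' : Kbar) * (g' : FF M)) := by
    rw [hnf, hup, map_mul, mul_pow]
    ring
  have hone : 1 + algebraMap Kbar (FF M) (a' : Kbar) * (g' : FF M) ≠ 0 := by
    intro h0
    rw [h0, mul_zero] at hv2
    exact hv hv2
  have hss : s * s'' ≠ 0 := mul_ne_zero hs hs''
  have hcc : algebraMap Kbar (FF M) (c * c'') ≠ 0 :=
    (_root_.map_ne_zero _).mpr (mul_ne_zero hc hc'')
  obtain ⟨E, hE⟩ := kummerU_exists_div (K := Kbar) hv hp.ne_zero hdiv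
  have hordv : ∀ P : Place Kbar (FF M), P.ord v
      = (p : ℤ) * P.ord (s * s'')
        + P.ord (1 + algebraMap Kbar (FF M) (a' : Kbar) * (g' : FF M)) := by
    intro P
    rw [hv2, Place.ord_mul _ (mul_ne_zero hcc (pow_ne_zero _ hss)) hone,
      Place.ord_mul _ hcc (pow_ne_zero _ hss), uk_ord_const, zero_add,
      Fermat.Agent.S18lib.ord_pow_nat]
  have hE' : p • (E - divOf (K := Kbar) (s * s''))
      = divOf (K := Kbar) (1 + algebraMap Kbar (FF M) (a' : Kbar) * (g' : FF M)) := by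
    ext P
    rw [Finsupp.smul_apply, Finsupp.sub_apply, divOf_apply hss, divOf_apply hone, nsmul_eq_mul]
    have h1 := hE P
    rw [hordv P] at h1
    push_cast
    linarith
  have hpK : ((p : ℕ) : Kbar) ≠ 0 := by exact_mod_cast hp.ne_zero
  have hpk : ((p : ℕ) : IsLocalRing.ResidueField B) = 0 := CharP.cast_eq_zero _ p
  have hprin := cxp_principal R hgen hp hpK hpk (fun z β κ h => r2a_hk hp.two_le z β κ h)
    a' hlev g' _ hE'
  obtain ⟨s₃, hs₃, hs₃E⟩ := hprin
  refine tpj_const_mul_pow (K := Kbar) p hv (mul_ne_zero hss hs₃) ?_ |>.imp fun c' h => ⟨_, h⟩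
  intro P
  have h1 := hE P
  have h2 := hs₃E P
  rw [Finsupp.sub_apply, divOf_apply hss] at h2
  rw [h1, Place.ord_mul _ hss hs₃, ← h2]
  ring

end Aux

section Descent

variable (M' p : ℕ) [NeZero M'] [NeZero p] [Fact p.Prime]
variable (M e : ℕ) [NeZero M] (hM : M = M' * e)
  (hdeg : dedekindPsi M < 2 * e * dedekindPsi M') (hAux : IsAuxLevel p M)
variable (B : ValuationSubring Kbar) (hB : B.LiesOverPrime p)
variable {ζ : Kbar} (hζ : IsPrimitiveRoot ζ p)
variable (R : ConstRed B (IsLocalRing.residue B)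
    (↥(modularFunctionFieldFullC (IsLocalRing.ResidueField B) M)) (FF M))
  (hR : IsSeriesRed R)

set_option maxHeartbeats 1600000 in
include hM hdeg hAux hB hζ hR in
/-- **TPINJ at level `M'`, Kummer form**: the Kummer function `u ∈ F_{M'}` has a normal form of
level `≥ v*` in `F_M`, `M = M' e` an auxiliary level, and `Nm_α (β u)` is a constant times a
`p`-th power: then so is `u`. -/
theorem tpj_kummer (hNM : M' ∣ M)
    (u : FF M') (hu : u ≠ 0) (hdiv : ∀ P : Place Kbar (FF M'), (p : ℤ) ∣ P.ord u)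
    (c : Kbar) (hc : c ≠ 0) (s : FF M) (hs : s ≠ 0) (f : R.O)
    (hnf : inclBar M' M hNM u = algebraMap Kbar (FF M) c * s ^ p *
      (1 + algebraMap Kbar (FF M) ((ζ - 1) ^ p) * (f : FF M)))
    (c₂ : Kbar) (t₂ : FF M')
    (hT : normAlong (heckeAlphaBar Kbar M' p) (heckeBetaBar Kbar M' p u)
      = algebraMap Kbar (FF M') c₂ * t₂ ^ p) :
    ∃ (c₀ : Kbar) (g₀ : FF M'), u = algebraMap Kbar (FF M') c₀ * g₀ ^ p := by
  have hp : p.Prime := Fact.out
  have hpM : ¬ p ∣ M := hAux.1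
  have hιu : inclBar M' M hNM u ≠ 0 := (_root_.map_ne_zero _).2 hu
  have hT' : normAlong (heckeAlphaBar Kbar M p) (heckeBetaBar Kbar M p (inclBar M' M hNM u))
      = algebraMap Kbar (FF M) c₂ * (inclBar M' M hNM t₂) ^ p := by
    rw [← nic_tp hp hpM hNM u, hT, map_mul, map_pow, AlgHom.commutes]
  obtain ⟨c', s', h⟩ := tpj_kummer_aux M p B hB hζ R hR hAux (inclBar M' M hNM u) hιu
    (ud_dvd_ord_incl M' M hNM p u hdiv) c hc s hs f hnf c₂ (inclBar M' M hNM t₂) hT'
  have h' : inclBar M' M (hM ▸ dvd_mul_right M' e) u = algebraMap Kbar (FF M) c' * s' ^ p := h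
  obtain ⟨g₀, c₀, h0⟩ := exists_root_of_inclBar M' M e hM hdeg p hp.pos u hu hdiv s' c' h'
  exact ⟨c₀, g₀, h0⟩

set_option maxHeartbeats 1600000 in
include hM hdeg hAux hB hζ hR in
/-- **TPINJ in `J₀(M')`**: `T_p` is injective on the classes with a Kummer function of level
`≥ v*` (normal form at the auxiliary level `M`). -/
theorem tpj_main (hNM : M' ∣ M)
    (D : Divisor.degZero (K := Kbar) (F := FF M')) (u : FF M') (hu : u ≠ 0)
    (hD : ∀ P : Place Kbar (FF M'), P.ord u = (p : ℤ) * (D : Divisor Kbar (FF M')) P)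
    (c : Kbar) (hc : c ≠ 0) (s : FF M) (hs : s ≠ 0) (f : R.O)
    (hnf : inclBar M' M hNM u = algebraMap Kbar (FF M) c * s ^ p *
      (1 + algebraMap Kbar (FF M) ((ζ - 1) ^ p) * (f : FF M)))
    (hT : heckeOperatorBar M' ⟨p, Fact.out⟩ (Pic0.mk D : JZero M') = 0) :
    (Pic0.mk D : JZero M') = 0 := by
  have hp : p.Prime := Fact.out
  haveI : RRHyp Kbar (FF M') := mod_rrHyp M'
  have hdiv : ∀ P : Place Kbar (FF M'), (p : ℤ) ∣ P.ord u := fun P => ⟨_, hD P⟩
  -- the Kummer function of `T_p [D]`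
  obtain ⟨hN0, D', hD', hD'ord⟩ := kummer_hecke M' p (heckeInputsAlong_Qbar M' p) p D u hu
    (fun v => (hD v).symm)
  have hT0 : (Pic0.mk D' : JZero M') = 0 := by
    rw [← hD']
    exact hT
  obtain ⟨t₀, ht₀, ht₀D⟩ := Fermat.Agent.S18lib.mem_principal_of_mk_eq_zero D' hT0
  obtain ⟨c₂, hc₂⟩ := tpj_const_mul_pow (K := Kbar) p hN0 ht₀ (fun w => by
    rw [← hD'ord w, ht₀D w])
  obtain ⟨c₀, g₀, h0⟩ := tpj_kummer M' p M e hM hdeg hAux B hB hζ R hR hNM u hu hdiv c hc s hs f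
    hnf c₂ t₀ hc₂
  -- `D = div g₀`
  have hc₀ : algebraMap Kbar (FF M') c₀ ≠ 0 := by
    intro h
    rw [h0, h, zero_mul] at hu
    exact hu rfl
  have hg₀ : g₀ ≠ 0 := by
    intro h
    rw [h0, h, zero_pow hp.ne_zero, mul_zero] at hu
    exact hu rfl
  refine mk_eq_zero_of_mem_principal D ⟨g₀, hg₀, fun P => ?_⟩
  have h1 := hD P
  rw [h0, Place.ord_mul _ hc₀ (pow_ne_zero _ hg₀), uk_ord_const, zero_add,
    Fermat.Agent.S18lib.ord_pow_nat] at h1
  have hp0 : (p : ℤ) ≠ 0 := by exact_mod_cast hp.ne_zero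
  exact (mul_left_cancel₀ hp0 h1).symm

end Descent

end Fermat.Agent.S33lib
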