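/-
Item 86 (S33), piece G1 CONCRETE (helper10): the good-level geometry from (LEV) ALONE, with (LEV)
at FIXED DATA and in its WEAKEST form.

(KSAT) = `gax_ksat_at`, (RAYJ) = `gax_rayj_at`, (REG2) = `gax_reg2_at` (helper5, GeoAux),
(TPINJ) = `tpj_main` (helper29) are discharged.  The data `(M, e, R, ζ)` are chosen in the proof
for every `B ∣ p` (`gax_exists_aux`, `gax_exists_zeta`).

* `G1cLEV M' p θ'` : **(LEV)** at every fixed datum: a finite subgroup `X ≤ s33hKI` of `J₀(M')[p]`,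
  contained in `gaxKerAt`, stable under the DECOMPOSITION group of `B`, under `T_p` and under the
  Hecke polynomials in the kernel of `θ'`, on which `T_p` is injective, lies in `gaxDeepAt`;
* `g1c_tpinj_at` : (TPINJ) in predicate form;
* **`s33_geom_good_of_lev`** : `G1cLEV M' p θ' → S33ResJ M' p θ' → S33Geom M' p θ'`;
* `g1c_lev_of_mixed` : the (LEV) hypothesis of `s33_geom_good_mixed` (∀-aux form, fewer
  hypotheses) implies `G1cLEV`;
* **`s33_geom_good_hGood`** : the hypothesis `hGood` of `rnkf_main` from (LEV) at all levels.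
Declarations are prefixed `g1c`.  No sorry.
-/
import Mathlib
import Fermat.Agent.S33lib.FitGoodAt
import Fermat.Agent.S33lib.GeoAux
import Fermat.Agent.S33lib.TpInj
import Fermat.Agent.S31lib.Wiring
import Fermat.Agent.S37
import Fermat.Agent.S36lib.Speed

set_option autoImplicit false
set_option linter.unusedSectionVars false
set_option linter.unusedVariables false
set_option linter.style.haveILetI false
set_option synthInstance.maxHeartbeats 400000

noncomputable section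

namespace Fermat.Agent.S33lib

open AlgebraicCurve ModularCurve
open Fermat.Agent.RRlib Fermat.Agent.GoodRed Fermat.Agent.S24lib Fermat.Agent.HeckeBar
  Fermat.Agent.GM Fermat.Agent.S34lib Fermat.Agent.S31lib Fermat.Agent.GalRep
  Fermat.Agent.S18lib Fermat.Agent.S35lib

section At

variable (M' M e p : ℕ) [NeZero M'] [NeZero M] [Fact p.Prime] (hNM : M' ∣ M)
variable (B : ValuationSubring Kbar) (hB : B.LiesOverPrime p)
variable (R : ConstRed B (IsLocalRing.residue B)
    (↥(modularFunctionFieldFullC (IsLocalRing.ResidueField B) M)) (FF M))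
  (hR : IsSeriesRed R)

set_option maxHeartbeats 1600000 in
include hB hR in
/-- **(TPINJ)** at fixed data, in predicate form -/
theorem g1c_tpinj_at (hM : M = M' * e) (hdeg : dedekindPsi M < 2 * e * dedekindPsi M')
    (hAux : IsAuxLevel p M) {ζ : Kbar} (hζ : IsPrimitiveRoot ζ p)
    (x : JZero M') (hx : gaxDeepAt M' M p hNM R ζ x)
    (hT : heckeOperatorBar M' ⟨p, Fact.out⟩ x = 0) : x = 0 := by
  have hp : p.Prime := Fact.out
  haveI : NeZero p := ⟨hp.ne_zero⟩
  obtain ⟨D, u, hD, hu, hord, c, s, g, hc, hs, hg, hnf⟩ := hx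
  rw [← hD] at hT ⊢
  exact tpj_main M' p M e hM hdeg hAux B hB hζ R hR hNM D u hu (fun P => (hord P).symm)
    c hc s hs ⟨g, hg⟩ hnf hT

end At

section Final

variable (M' p : ℕ) [NeZero M'] [Fact p.Prime]
variable {N : ℕ} {S : Finset ℕ} {κ : Type*} [Semiring κ] (θ' : HPoly N S →+* κ)

/-- **(LEV)**, at every fixed datum `(M, e, R, ζ)`, weakest form. -/
def G1cLEV : Prop :=
  ∀ (M e : ℕ) [NeZero M] (hNM : M' ∣ M), M = M' * e →
    dedekindPsi M < 2 * e * dedekindPsi M' → IsAuxLevel p M →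
    ∀ (B : ValuationSubring Kbar), B.LiesOverPrime p →
    ∀ (R : ConstRed B (IsLocalRing.residue B)
      (↥(modularFunctionFieldFullC (IsLocalRing.ResidueField B) M)) (FF M)), IsSeriesRed R →
    ∀ (ζ : Kbar), IsPrimitiveRoot ζ p →
    ∀ X : AddSubgroup (JZero M'), X ≤ s33hKI M' p B →
      (X : Set (JZero M')).Finite → (∀ x ∈ X, p • x = 0) →
      (∀ x ∈ X, gaxKerAt M' M p hNM R x) →
      (∀ τ ∈ B.decompositionSubgroup ℚ, ∀ x ∈ X, τ • x ∈ X) →
      (∀ x ∈ X, heckeOperatorBar M' ⟨p, Fact.out⟩ x ∈ X) →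
      (∀ P : HPoly N S, θ' P = 0 → ∀ x ∈ X, evalJac N S M' P x ∈ X) →
      (∀ x ∈ X, heckeOperatorBar M' ⟨p, Fact.out⟩ x = 0 → x = 0) →
      ∀ x ∈ X, gaxDeepAt M' M p hNM R ζ x

set_option maxHeartbeats 1600000 in
/-- **G1 (good level)** from (LEV) alone. -/
theorem s33_geom_good_of_lev (hpM : ¬ p ∣ M') (Jin : JacInput M' p)
    (hLEV : G1cLEV M' p θ') (hres : S33ResJ M' p θ') : S33Geom M' p θ' := by
  intro B hB
  obtain ⟨M, e, _, hNM, hM, hdeg, hAux, R, hR⟩ := gax_exists_aux M' p hpM B hB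
  obtain ⟨ζ, hζ⟩ := gax_exists_zeta p
  exact s33_geom_good_at M' p θ' Jin B hB
    (gaxKerAt M' M p hNM R) (gaxDeepAt M' M p hNM R ζ) (gaxI1 p B)
    (fun τ hτ => hτ)
    (fun x hx hpx => gax_ksat_at M' M p hNM B hB R hR hpM x hx hpx)
    (fun x _ _ hker hfix => gax_rayj_at M' M p hNM B hB R hR hAux hζ x hker hfix)
    (fun x _ hdeep τ hτ => gax_reg2_at M' M e p hNM B hB R hR hM hdeg hAux hζ x hdeep τ hτ)
    (fun x _ hdeep hT => g1c_tpinj_at M' M e p hNM B hB R hR hM hdeg hAux hζ x hdeep hT)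
    (fun X hXKI hXfin hXp hXK hXD hXT hXPs hXinj x hx =>
      hLEV M e hNM hM hdeg hAux B hB R hR ζ hζ X hXKI hXfin hXp hXK hXD hXT hXPs hXinj x hx)
    hres

set_option maxHeartbeats 1600000 in
/-- the (LEV) hypothesis at fixed data with FEWER hypotheses (only: finite, `p`-torsion, Ker,
inertia-stable, `T_p`-stable, `T_p` injective) implies `G1cLEV`. -/
theorem g1c_lev_of_at
    (h : ∀ (M e : ℕ) [NeZero M] (hNM : M' ∣ M), M = M' * e →
      dedekindPsi M < 2 * e * dedekindPsi M' → IsAuxLevel p M →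
      ∀ (B : ValuationSubring Kbar), B.LiesOverPrime p →
      ∀ (R : ConstRed B (IsLocalRing.residue B)
        (↥(modularFunctionFieldFullC (IsLocalRing.ResidueField B) M)) (FF M)), IsSeriesRed R →
      ∀ (ζ : Kbar), IsPrimitiveRoot ζ p →
      ∀ X : AddSubgroup (JZero M'),
        (X : Set (JZero M')).Finite → (∀ x ∈ X, p • x = 0) →
        (∀ x ∈ X, gaxKerAt M' M p hNM R x) →
        (∀ τ ∈ B.inertiaSubgroupIn ℚ, ∀ x ∈ X, τ • x ∈ X) →
        (∀ x ∈ X, heckeOperatorBar M' ⟨p, Fact.out⟩ x ∈ X) →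
        (∀ x ∈ X, heckeOperatorBar M' ⟨p, Fact.out⟩ x = 0 → x = 0) →
        ∀ x ∈ X, gaxDeepAt M' M p hNM R ζ x) :
    G1cLEV M' p θ' := by
  intro M e _ hNM hM hdeg hAux B hB R hR ζ hζ X _ hXfin hXp hXK hXD hXT _ hXinj x hx
  exact h M e hNM hM hdeg hAux B hB R hR ζ hζ X hXfin hXp hXK
    (fun τ hτ y hy => hXD τ (fgd_inertia_le_decomp B hτ) y hy) hXT hXinj x hx

end Final

section HGood

/-- **`hGood` of `rnkf_main`** from (LEV) at all levels prime to `p`. -/
theorem s33_geom_good_hGood (p : ℕ) [Fact p.Prime] (S : Finset ℕ) {κ : Type*} [Semiring κ]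
    (hLEV : ∀ (M' : ℕ) [NeZero M'] [NeZero (M' * p)] (θ'' : HPoly (M' * p) S →+* κ),
      ¬ p ∣ M' → G1cLEV M' p θ'') :
    ∀ (M' : ℕ) [NeZero M'] [NeZero (M' * p)] (θ'' : HPoly (M' * p) S →+* κ),
      ¬ p ∣ M' → S33ResJ M' p θ'' → S33Geom M' p θ'' := by
  intro M' _ _ θ'' hpM hres
  obtain ⟨Jin, -⟩ := exists_jacInput_faithEmb
    (fun N' p' _ hcomm => Fermat.Agent.S37.result N' p' hcomm) M' p
  exact s33_geom_good_of_lev M' p θ'' hpM Jin (hLEV M' θ'' hpM) hres

end HGood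

end Fermat.Agent.S33lib

end
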