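/-
Item 86 (S33), block LEV, piece (b) (helper21): DISC' + RES' over a discretely valued field of
invariants `K'`.  Complete proofs.

`A` a valuation subring of `ℚ̄` over the prime `p`, `H` a set of automorphisms of `ℚ̄` with field
of invariants `K' ⊇ K0 = ℚ̄^I`, `K'` discretely valued by `A` with uniformiser `ϖ`
(`VdDisc A K' ϖ`, provided by `LevVal.lean`).  `F' = (FF L)^H`.

* `LvdFrac A K1 L f`: `f` is a quotient of two functions whose `q`-expansions have coefficients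
  in `K1 ∩ A`; closed under the field operations (`lvdFracField`);
* `lvd_frac_of_fixed`: every `H`-fixed function is such a quotient (descent `F' = K' · F0(L)`);
* **`lvd_disc`** (DISC'): for every nonzero `H`-fixed `f` some `ϖ ^ n · f`, `n : ℤ`, is a unit of
  `R.O`, `R` any `IsSeriesRed` constant reduction of `FF L`;
  `lvd_disc_comap`: the same for `inredComap R w`;
* **`lvd_res`** (RES'): every element of the residue field of `A` is the residue of an `a ∈ A`
  whose constant function is `H`-fixed (`a ∈ K0 ⊆ K'`);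
* `lvd_const_fixed`: the constants of `K'` are `H`-fixed functions.
-/
import Mathlib
import Fermat.Agent.S33lib.RayDisc

set_option autoImplicit false
set_option linter.unusedSectionVars false
set_option linter.unusedVariables false
set_option linter.style.haveILetI false
set_option synthInstance.maxHeartbeats 400000

noncomputable section

namespace Fermat.Agent.S33lib

open ModularCurve HahnSeries AlgebraicCurve IntermediateField
open Fermat.Agent.GoodRed Fermat.Agent.S24lib Fermat.Agent.S34lib Fermat.Agent.S36lib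
  Fermat.Agent.AJlib

section Frac

variable (A : ValuationSubring Kbar) (K1 : Subfield Kbar) (L : ℕ) [NeZero L]

/-- `f = x / y` with `x, y ∈ FF L` whose `q`-expansions have coefficients in `K1 ∩ A` -/
def LvdFrac (f : FF L) : Prop :=
  ∃ x y : FF L, y ≠ 0 ∧ f * y = x ∧
    VdInt A K1 (x : LaurentSeries Kbar) ∧ VdInt A K1 (y : LaurentSeries Kbar)

variable {A K1 L}

theorem LvdFrac.add {f g : FF L} (hf : LvdFrac A K1 L f) (hg : LvdFrac A K1 L g) :
    LvdFrac A K1 L (f + g) := by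
  obtain ⟨x, y, hy0, hxy, hix, hiy⟩ := hf
  obtain ⟨x', y', hy0', hxy', hix', hiy'⟩ := hg
  refine ⟨x * y' + x' * y, y * y', mul_ne_zero hy0 hy0', ?_, ?_, ?_⟩
  · rw [← hxy, ← hxy']; ring
  · have e : (((x * y' + x' * y : FF L)) : LaurentSeries Kbar)
        = (x : LaurentSeries Kbar) * (y' : LaurentSeries Kbar)
          + (x' : LaurentSeries Kbar) * (y : LaurentSeries Kbar) := rfl
    rw [e]
    exact (hix.mul hiy').add (hix'.mul hiy)
  · have e : (((y * y' : FF L)) : LaurentSeries Kbar)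
        = (y : LaurentSeries Kbar) * (y' : LaurentSeries Kbar) := rfl
    rw [e]
    exact hiy.mul hiy'

theorem LvdFrac.mul {f g : FF L} (hf : LvdFrac A K1 L f) (hg : LvdFrac A K1 L g) :
    LvdFrac A K1 L (f * g) := by
  obtain ⟨x, y, hy0, hxy, hix, hiy⟩ := hf
  obtain ⟨x', y', hy0', hxy', hix', hiy'⟩ := hg
  refine ⟨x * x', y * y', mul_ne_zero hy0 hy0', ?_, ?_, ?_⟩
  · rw [← hxy, ← hxy']; ring
  · have e : (((x * x' : FF L)) : LaurentSeries Kbar)
        = (x : LaurentSeries Kbar) * (x' : LaurentSeries Kbar) := rfl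
    rw [e]
    exact hix.mul hix'
  · have e : (((y * y' : FF L)) : LaurentSeries Kbar)
        = (y : LaurentSeries Kbar) * (y' : LaurentSeries Kbar) := rfl
    rw [e]
    exact hiy.mul hiy'

theorem lvdFrac_zero : LvdFrac A K1 L 0 :=
  ⟨0, 1, one_ne_zero, by simp, vdInt_zero, vdInt_one⟩

theorem lvdFrac_one : LvdFrac A K1 L 1 :=
  ⟨1, 1, one_ne_zero, by simp, vdInt_one, vdInt_one⟩

theorem LvdFrac.neg {f : FF L} (hf : LvdFrac A K1 L f) : LvdFrac A K1 L (-f) := by
  obtain ⟨x, y, hy0, hxy, hix, hiy⟩ := hf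
  refine ⟨-x, y, hy0, by rw [← hxy]; ring, ?_, hiy⟩
  have e : (((-x : FF L)) : LaurentSeries Kbar) = -(x : LaurentSeries Kbar) := rfl
  rw [e]
  exact hix.neg

theorem LvdFrac.inv {f : FF L} (hf : LvdFrac A K1 L f) : LvdFrac A K1 L f⁻¹ := by
  by_cases hf0 : f = 0
  · rw [hf0, inv_zero]
    exact lvdFrac_zero
  obtain ⟨x, y, hy0, hxy, hix, hiy⟩ := hf
  have hx0 : x ≠ 0 := by
    rw [← hxy]
    exact mul_ne_zero hf0 hy0
  refine ⟨y, x, hx0, ?_, hiy, hix⟩
  rw [← hxy, ← mul_assoc, inv_mul_cancel₀ hf0, one_mul]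

/-- a `VdFrac` of `VDisc.lean` (for the standard expansion) is an `LvdFrac` -/
theorem lvdFrac_of_vdFrac {f : FF L}
    (hf : VdFrac A K1 L (modularFunctionFieldBar L).toSubfield.subtype f) :
    LvdFrac A K1 L f := by
  obtain ⟨x, y, -, -, hy0, hxy, hix, hiy⟩ := hf
  exact ⟨x, y, hy0, hxy, hix, hiy⟩

/-- a constant of `K1` is an `LvdFrac` -/
theorem lvdFrac_const {c : Kbar} (hc : c ∈ K1) :
    LvdFrac A K1 L (algebraMap Kbar (FF L) c) := by
  rcases A.mem_or_inv_mem c with h | h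
  · refine ⟨algebraMap Kbar (FF L) c, 1, one_ne_zero, mul_one _, ?_, vdInt_one⟩
    rw [coe_algebraMap_eq_C (F := modularFunctionFieldBar L) c]
    exact vdInt_C hc h
  · by_cases hc0 : c = 0
    · rw [hc0, map_zero]
      exact lvdFrac_zero
    refine ⟨1, algebraMap Kbar (FF L) c⁻¹, ?_, ?_, vdInt_one, ?_⟩
    · rw [Ne, map_eq_zero_iff _ (algebraMap Kbar (FF L)).injective]
      exact inv_ne_zero hc0
    · rw [← map_mul, mul_inv_cancel₀ hc0, map_one]
    · rw [coe_algebraMap_eq_C (F := modularFunctionFieldBar L) c⁻¹]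
      exact vdInt_C (K1.inv_mem hc) h

variable (A K1 L)

/-- the functions which are quotients of two functions with `K1 ∩ A`-integral expansions, as a
subfield -/
def lvdFracField : Subfield (FF L) where
  carrier := {f | LvdFrac A K1 L f}
  mul_mem' := fun hx hy => hx.mul hy
  one_mem' := lvdFrac_one
  add_mem' := fun hx hy => hx.add hy
  zero_mem' := lvdFrac_zero
  neg_mem' := fun hx => hx.neg
  inv_mem' := fun _ hx => hx.inv

theorem mem_lvdFracField_iff (f : FF L) : f ∈ lvdFracField A K1 L ↔ LvdFrac A K1 L f := Iff.rfl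

end Frac

section Fixed

variable (L : ℕ) [NeZero L] (A : ValuationSubring Kbar) (H : Set (Kbar ≃ₐ[ℚ] Kbar))
  (K' : IntermediateField ℚ Kbar)

/-- the elements of `F0(L)` are quotients with `K' ∩ A`-integral expansions, `K' ⊇ K0` -/
theorem lvd_frac_of_f0 (hK0 : k0Field A ≤ K') {f : FF L} (hf : f ∈ f0Field A L) :
    LvdFrac A K'.toSubfield L f :=
  lvdFrac_of_vdFrac
    (vdFrac_of_mem (fun c => coe_algebraMap_eq_C (F := modularFunctionFieldBar L) c)
      (fun c hc => hK0 hc) (fun d _ hd => vdInt_jdF A L _ d hd) hf)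

/-- the base change of every element of the function field over `K'` is a quotient with
`K' ∩ A`-integral expansions -/
theorem lvd_toLBC_frac (hK0 : k0Field A ≤ K')
    (y : ↥(laurentBaseChange ↥K' (modularFunctionFieldFull L))) :
    LvdFrac A K'.toSubfield L (toLBC K' (modularFunctionFieldFull L) y) := by
  set T : Subfield (LaurentSeries Kbar) :=
    (lvdFracField A K'.toSubfield L).map
      ((modularFunctionFieldBar L).val : FF L →+* LaurentSeries Kbar) with hT
  have hconst : ∀ c : ↥K', algebraMap Kbar (LaurentSeries Kbar) (c : Kbar) ∈ T :=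
    fun c => ⟨algebraMap Kbar (FF L) (c : Kbar), lvdFrac_const c.2, rfl⟩
  have hrat : ∀ z ∈ modularFunctionFieldFull L, coeffEmb Kbar z ∈ T := by
    intro z hz
    have h1 : (⟨coeffEmb Kbar z, coeffEmb_mem_laurentBaseChange Kbar hz⟩ : FF L)
        ∈ f0Field A L :=
      (mem_f0Field_iff_isIFixed A L _).mpr
        ((isIFixed_iff_mem_fixedLBC A L _).mpr (coeffEmb_mem_fixedLBC _ hz))
    exact ⟨_, lvd_frac_of_f0 L A K' hK0 h1, rfl⟩
  have hle : (laurentBaseChange ↥K' (modularFunctionFieldFull L)).toSubfield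
      ≤ T.comap (coeffMap (algebraMap ↥K' Kbar)) := by
    have h0 : (laurentBaseChange ↥K' (modularFunctionFieldFull L)).toSubfield
        = Subfield.closure
          (Set.range (algebraMap ↥K' (LaurentSeries ↥K')) ∪
          (⇑(coeffEmb ↥K') ''
            (modularFunctionFieldFull L : Set (LaurentSeries ℚ)))) :=
      rfl
    rw [h0, Subfield.closure_le]
    rintro w (⟨c, rfl⟩ | ⟨z, hz, rfl⟩)
    · show coeffMap (algebraMap ↥K' Kbar)
        (algebraMap ↥K' (LaurentSeries ↥K') c) ∈ T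
      have h1 : coeffMap (algebraMap ↥K' Kbar)
          (algebraMap ↥K' (LaurentSeries ↥K') c)
          = algebraMap Kbar (LaurentSeries Kbar) (c : Kbar) := by
        rw [algebraMap_laurentSeries_eq_single, coeffMap_single,
          ← algebraMap_laurentSeries_eq_single]
        rfl
      rw [h1]
      exact hconst c
    · show coeffMap (algebraMap ↥K' Kbar) (coeffEmb ↥K' z) ∈ T
      have h1 : coeffMap (algebraMap ↥K' Kbar) (coeffEmb ↥K' z)
          = coeffEmb Kbar z := by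
        rw [coeffEmb, coeffMap_coeffMap]
        exact coeffMap_congr (Subsingleton.elim _ _) z
      rw [h1]
      exact hrat z hz
  obtain ⟨x, hx, hxy⟩ := hle y.2
  have : x = toLBC K' (modularFunctionFieldFull L) y := Subtype.ext hxy
  rw [← this]
  exact hx

variable {H K'}

/-- **Galois descent**: an `H`-fixed function is a quotient of two functions with
`K' ∩ A`-integral expansions (`K' = ℚ̄^H ⊇ K0`). -/
theorem lvd_frac_of_fixed (hK' : ∀ c : Kbar, c ∈ K' ↔ ∀ σ ∈ H, σ c = c)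
    (hK0 : k0Field A ≤ K') {f : FF L}
    (hf : f ∈ fixedLBC H (modularFunctionFieldFull L)) :
    LvdFrac A K'.toSubfield L f := by
  obtain ⟨y, rfl⟩ := (mem_fixedLBC_iff_range (modularFunctionFieldFull L) hK').mp hf
  exact lvd_toLBC_frac L A K' hK0 y

/-- the constants of `K'` are `H`-fixed functions -/
theorem lvd_const_fixed (hK' : ∀ c : Kbar, c ∈ K' ↔ ∀ σ ∈ H, σ c = c) {c : Kbar}
    (hc : c ∈ K') :
    algebraMap Kbar (FF L) c ∈ fixedLBC H (modularFunctionFieldFull L) :=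
  (algebraMap_mem_fixedLBC_iff (modularFunctionFieldFull L) hK' c).mpr hc

/-- the inertia-fixed functions are `H`-fixed, `H ⊆ I` -/
theorem lvd_fixed_of_isIFixed (hHI : ∀ σ ∈ H, σ ∈ A.inertiaSubgroupIn ℚ) {f : FF L}
    (hf : IsIFixed L A f) : f ∈ fixedLBC H (modularFunctionFieldFull L) :=
  fun σ hσ => hf σ (hHI σ hσ)

/-- membership in the `H`-fixed functions, in terms of `galFF` -/
theorem lvd_mem_fixed_iff (f : FF L) :
    f ∈ fixedLBC H (modularFunctionFieldFull L) ↔ ∀ σ ∈ H, galFF L σ • f = f :=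
  Iff.rfl

end Fixed

section Disc

variable {L : ℕ} [NeZero L] {A : ValuationSubring Kbar} {H : Set (Kbar ≃ₐ[ℚ] Kbar)}
  {K' : IntermediateField ℚ Kbar} {ϖ : Kbar}

/-- **discreteness, series form** for `LvdFrac`: a nonzero quotient of two functions with
`K' ∩ A`-integral expansions is `ϖ ^ n · x₁ / y₁` with PRIMITIVE expansions. -/
theorem lvd_exists_primitive {K1 : Subfield Kbar} (hd : VdDisc A K1 ϖ) {f : FF L}
    (hf : LvdFrac A K1 L f) (hf0 : f ≠ 0) :
    ∃ (n : ℤ) (x₁ y₁ : FF L) (a b : LaurentSeries A),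
      y₁ ≠ 0 ∧ f * y₁ = algebraMap Kbar (FF L) (ϖ ^ n) * x₁ ∧
      (x₁ : LaurentSeries Kbar) = coeffMap A.subtype a ∧
      (y₁ : LaurentSeries Kbar) = coeffMap A.subtype b ∧
      coeffMap (IsLocalRing.residue A) a ≠ 0 ∧ coeffMap (IsLocalRing.residue A) b ≠ 0 := by
  obtain ⟨x, y, hy0, hxy, hix, hiy⟩ := hf
  have hx0 : x ≠ 0 := by
    rw [← hxy]
    exact mul_ne_zero hf0 hy0
  have hEx0 : (x : LaurentSeries Kbar) ≠ 0 := fun h => hx0 (Subtype.ext h)
  have hEy0 : (y : LaurentSeries Kbar) ≠ 0 := fun h => hy0 (Subtype.ext h)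
  obtain ⟨m, a, hpa, hia, hea⟩ := hix.exists_primitive hd hEx0
  obtain ⟨m', b, hpb, hib, heb⟩ := hiy.exists_primitive hd hEy0
  have hϖ0 : ϖ ≠ 0 := hd.2.1
  have hcx : algebraMap Kbar (FF L) (ϖ ^ m) ≠ 0 := by
    rw [Ne, map_eq_zero_iff _ (algebraMap Kbar (FF L)).injective]
    exact pow_ne_zero _ hϖ0
  have hcy : algebraMap Kbar (FF L) (ϖ ^ m') ≠ 0 := by
    rw [Ne, map_eq_zero_iff _ (algebraMap Kbar (FF L)).injective]
    exact pow_ne_zero _ hϖ0
  have hCx : (HahnSeries.C (ϖ ^ m) : LaurentSeries Kbar) ≠ 0 := by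
    rw [Ne, ← map_zero (HahnSeries.C : Kbar →+* LaurentSeries Kbar)]
    exact fun h => pow_ne_zero _ hϖ0 (HahnSeries.C_injective h)
  have hCy : (HahnSeries.C (ϖ ^ m') : LaurentSeries Kbar) ≠ 0 := by
    rw [Ne, ← map_zero (HahnSeries.C : Kbar →+* LaurentSeries Kbar)]
    exact fun h => pow_ne_zero _ hϖ0 (HahnSeries.C_injective h)
  refine ⟨(m : ℤ) - (m' : ℤ), (algebraMap Kbar (FF L) (ϖ ^ m))⁻¹ * x,
    (algebraMap Kbar (FF L) (ϖ ^ m'))⁻¹ * y, a, b, mul_ne_zero (inv_ne_zero hcy) hy0, ?_, ?_, ?_,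
    hpa, hpb⟩
  · rw [zpow_sub₀ hϖ0, zpow_natCast, zpow_natCast, map_div₀, ← hxy]
    field_simp
  · have e : ((((algebraMap Kbar (FF L) (ϖ ^ m))⁻¹ * x : FF L)) : LaurentSeries Kbar)
        = (HahnSeries.C (ϖ ^ m) : LaurentSeries Kbar)⁻¹ * (x : LaurentSeries Kbar) := by
      rw [← coe_algebraMap_eq_C (F := modularFunctionFieldBar L) (ϖ ^ m)]
      rfl
    rw [e, hea, inv_mul_cancel_left₀ hCx]
  · have e : ((((algebraMap Kbar (FF L) (ϖ ^ m'))⁻¹ * y : FF L)) : LaurentSeries Kbar)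
        = (HahnSeries.C (ϖ ^ m') : LaurentSeries Kbar)⁻¹ * (y : LaurentSeries Kbar) := by
      rw [← coe_algebraMap_eq_C (F := modularFunctionFieldBar L) (ϖ ^ m')]
      rfl
    rw [e, heb, inv_mul_cancel_left₀ hCy]

/-- **DISC' for `LvdFrac`** -/
theorem lvd_disc_frac {K1 : Subfield Kbar} (hd : VdDisc A K1 ϖ)
    {Fk : IntermediateField (IsLocalRing.ResidueField A)
      (LaurentSeries (IsLocalRing.ResidueField A))}
    {R : ConstRed A (IsLocalRing.residue A) (↥Fk) (FF L)} (hR : IsSeriesRed R)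
    {f : FF L} (hf : LvdFrac A K1 L f) (hf0 : f ≠ 0) :
    ∃ n : ℤ, algebraMap Kbar (FF L) (ϖ ^ n) * f ∈ R.O ∧
      (algebraMap Kbar (FF L) (ϖ ^ n) * f)⁻¹ ∈ R.O := by
  obtain ⟨n, x₁, y₁, a, b, hy0, hxy, hEx, hEy, hpa, hpb⟩ := lvd_exists_primitive hd hf hf0
  obtain ⟨hx, hx'⟩ := vdGauss_of_isSeriesRed hR x₁ a hEx hpa
  obtain ⟨hy, hy'⟩ := vdGauss_of_isSeriesRed hR y₁ b hEy hpb
  have hϖ0 : ϖ ≠ 0 := hd.2.1
  have key : algebraMap Kbar (FF L) (ϖ ^ (-n)) * f = x₁ * y₁⁻¹ := by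
    rw [eq_mul_inv_iff_mul_eq₀ hy0, mul_assoc, hxy, ← mul_assoc, ← map_mul, ← zpow_add₀ hϖ0,
      neg_add_cancel, zpow_zero, map_one, one_mul]
  refine ⟨-n, ?_, ?_⟩
  · rw [key]
    exact R.O.mul_mem _ _ hx hy'
  · rw [key, mul_inv, inv_inv]
    exact R.O.mul_mem _ _ hx' hy

/-- **DISC'**: for every nonzero `H`-fixed `f ∈ FF L` some `ϖ ^ n · f`, `n : ℤ`, is a unit of
`R.O`  (`K' = ℚ̄^H ⊇ K0` discretely valued with uniformiser `ϖ`). -/
theorem lvd_disc (hK' : ∀ c : Kbar, c ∈ K' ↔ ∀ σ ∈ H, σ c = c) (hK0 : k0Field A ≤ K')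
    (hd : VdDisc A K'.toSubfield ϖ)
    {Fk : IntermediateField (IsLocalRing.ResidueField A)
      (LaurentSeries (IsLocalRing.ResidueField A))}
    {R : ConstRed A (IsLocalRing.residue A) (↥Fk) (FF L)} (hR : IsSeriesRed R)
    {f : FF L} (hf : f ∈ fixedLBC H (modularFunctionFieldFull L)) (hf0 : f ≠ 0) :
    ∃ n : ℤ, algebraMap Kbar (FF L) (ϖ ^ n) * f ∈ R.O ∧
      (algebraMap Kbar (FF L) (ϖ ^ n) * f)⁻¹ ∈ R.O :=
  lvd_disc_frac hd hR (lvd_frac_of_fixed L A hK' hK0 hf) hf0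

/-- **DISC'** for a transported constant reduction `inredComap R w`, `w` an isomorphism mapping
`H`-fixed functions to `H`-fixed functions. -/
theorem lvd_disc_comap (hK' : ∀ c : Kbar, c ∈ K' ↔ ∀ σ ∈ H, σ c = c) (hK0 : k0Field A ≤ K')
    (hd : VdDisc A K'.toSubfield ϖ)
    {Fk : IntermediateField (IsLocalRing.ResidueField A)
      (LaurentSeries (IsLocalRing.ResidueField A))}
    {R : ConstRed A (IsLocalRing.residue A) (↥Fk) (FF L)} (hR : IsSeriesRed R)
    {L' : ℕ} [NeZero L'] (w : FF L' ≃ₐ[Kbar] FF L)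
    (hw : ∀ x : FF L', x ∈ fixedLBC H (modularFunctionFieldFull L') →
      w x ∈ fixedLBC H (modularFunctionFieldFull L))
    {f : FF L'} (hf : f ∈ fixedLBC H (modularFunctionFieldFull L')) (hf0 : f ≠ 0) :
    ∃ n : ℤ, algebraMap Kbar (FF L') (ϖ ^ n) * f ∈ (inredComap R w).O ∧
      (algebraMap Kbar (FF L') (ϖ ^ n) * f)⁻¹ ∈ (inredComap R w).O := by
  obtain ⟨n, h1, h2⟩ := lvd_disc hK' hK0 hd hR (hw f hf) ((map_ne_zero w).mpr hf0)
  refine ⟨n, (mem_inredComap_O R w _).mpr ?_, (mem_inredComap_O R w _).mpr ?_⟩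
  · rw [map_mul, AlgEquiv.commutes]
    exact h1
  · rw [map_inv₀, map_mul, AlgEquiv.commutes]
    exact h2

/-- **DISC', valuation form**: the value of a nonzero `H`-fixed function is a power of the value
of `ϖ`. -/
theorem lvd_disc_val (hK' : ∀ c : Kbar, c ∈ K' ↔ ∀ σ ∈ H, σ c = c) (hK0 : k0Field A ≤ K')
    (hd : VdDisc A K'.toSubfield ϖ)
    {Fk : IntermediateField (IsLocalRing.ResidueField A)
      (LaurentSeries (IsLocalRing.ResidueField A))}
    {R : ConstRed A (IsLocalRing.residue A) (↥Fk) (FF L)} (hR : IsSeriesRed R)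
    {f : FF L} (hf : f ∈ fixedLBC H (modularFunctionFieldFull L)) (hf0 : f ≠ 0) :
    ∃ n : ℤ, R.O.valuation f = R.O.valuation (algebraMap Kbar (FF L) ϖ) ^ n := by
  obtain ⟨n, h1, h2⟩ := lvd_disc hK' hK0 hd hR hf hf0
  have hϖ0 : ϖ ≠ 0 := hd.2.1
  have hvϖ0 : R.O.valuation (algebraMap Kbar (FF L) ϖ) ≠ 0 := by
    rw [Ne, map_eq_zero, map_eq_zero_iff _ (algebraMap Kbar (FF L)).injective]
    exact hϖ0
  have hne : algebraMap Kbar (FF L) (ϖ ^ n) * f ≠ 0 :=
    mul_ne_zero (by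
      rw [Ne, map_eq_zero_iff _ (algebraMap Kbar (FF L)).injective]
      exact zpow_ne_zero n hϖ0) hf0
  have hv1 : R.O.valuation (algebraMap Kbar (FF L) (ϖ ^ n) * f) = 1 := by
    refine le_antisymm ((R.O.valuation_le_one_iff _).mpr h1) ?_
    have h3 := (R.O.valuation_le_one_iff _).mpr h2
    rw [map_inv₀] at h3
    have hpos : 0 < R.O.valuation (algebraMap Kbar (FF L) (ϖ ^ n) * f) :=
      zero_lt_iff.mpr ((Valuation.ne_zero_iff _).mpr hne)
    exact (inv_le_one₀ hpos).mp h3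
  refine ⟨-n, ?_⟩
  rw [map_mul, map_zpow₀, map_zpow₀] at hv1
  rw [zpow_neg]
  exact eq_inv_of_mul_eq_one_right hv1

/-- **RES'**: every element of the residue field of `A` is the residue of an element
`a ∈ A ∩ K0`; the constant function `a` is `H`-fixed (`H ⊆ I`). -/
theorem lvd_res {p : ℕ} (hp : p.Prime) (hA : A.LiesOverPrime p)
    (hHI : ∀ σ ∈ H, σ ∈ A.inertiaSubgroupIn ℚ) (c : IsLocalRing.ResidueField A) :
    ∃ a : A, IsLocalRing.residue A a = c ∧ (a : Kbar) ∈ k0Field A ∧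
      algebraMap Kbar (FF L) (a : Kbar) ∈ fixedLBC H (modularFunctionFieldFull L) := by
  obtain ⟨a, ha, haK, hfix, -⟩ := rdc_res1 (L := L) (ζ := (1 : Kbar)) hp hA c
  exact ⟨a, ha, haK, lvd_fixed_of_isIFixed L A hHI hfix⟩

end Disc

end Fermat.Agent.S33lib
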