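import Mathlib
import Fermat.Agent.GoodRed.Unique
import Fermat.Agent.GoodRed.Growth
import Fermat.Agent.RRlib.Cor
import Fermat.Agent.S18lib.Crux

/-!
# Item 86 (S33), piece LOCGEN (helper18): level improvement for `K'`-rational Kummer functions

Abstract setting (the one of `ray_abs`, `NOTES/S33_RAY_blueprint_helper2.md`, with the
uniformizer `λ = ζ_p - 1` of `K1` replaced by a uniformizer `ϖ` of an arbitrary discretely valued
subfield `K'`, `p ∈ ϖ ^ e A`): `R` a constant reduction of `F / K` with place reduction `r`,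
`F1` the subfield of the `K'`-rational functions (value group `ϖ ^ ℤ` on `F1`: `disc`),
`Rat` the rational divisors (lifting `lift` inside `F1`).

A Kummer function of level `i` is `f = c s ^ p (1 + ϖ ^ i g)` with `g` integral.

* `lcg_improve` (L1): if `(p - 1) i < p e` (level below `v* = v(p) + v(p) / (p - 1)`) and
  `p ∤ i`, a rational Kummer function of level `i` has level `i + 1`;
* `lcg_absorb` (L3): if `p ∣ i`, `(p - 1) i < p e` and the leading term `red g` lies in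
  `κ ^ p + k`, the level is `i + 1`;
* `lcg_level` (L4): the finiteness argument.
-/

set_option autoImplicit false
set_option linter.unusedSectionVars false
set_option linter.unusedVariables false

noncomputable section

namespace Fermat.Agent.S33lib

open AlgebraicCurve Fermat.Agent.RRlib Fermat.Agent.GoodRed Fermat.Agent.S18lib

/-- `(1 + x) ^ p = 1 + x ^ p + p x r` -/
theorem lcg_one_add_pow {S : Type*} [CommRing S] {p : ℕ} (hp : p.Prime) (x : S) :
    ∃ r : S, (1 + x) ^ p = 1 + x ^ p + (p : S) * x * r := by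
  obtain ⟨r, hr⟩ := exists_add_pow_prime_eq hp (1 : S) x
  exact ⟨r, by rw [hr]; ring⟩

variable {K F k Fk : Type*} [Field K] [Field F] [Algebra K F] [Field k] [Field Fk] [Algebra k Fk]
variable {A : ValuationSubring K} {π : A →+* k}

/-! ### constants in the unit ball -/

/-- a constant of `A` as an element of the unit ball -/
def lcgC (R : ConstRed A π Fk F) : A →+* R.O where
  toFun a := ⟨algebraMap K F (a : K), R.algebraMap_mem a⟩
  map_one' := Subtype.ext (by simp)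
  map_mul' a b := Subtype.ext (by simp)
  map_zero' := Subtype.ext (by simp)
  map_add' a b := Subtype.ext (by simp)

@[simp]
theorem coe_lcgC (R : ConstRed A π Fk F) (a : A) :
    ((lcgC R a : R.O) : F) = algebraMap K F (a : K) := rfl

theorem red_lcgC (R : ConstRed A π Fk F) (a : A) :
    R.red (lcgC R a) = algebraMap k Fk (π a) := R.red_algebraMap a

theorem red_lcgC_of_nonunit (R : ConstRed A π Fk F) (a : A) (ha : (a : K) ∈ A.nonunits) :
    R.red (lcgC R a) = 0 := by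
  rw [red_lcgC, (R.π_eq_zero_iff a).mpr ha, map_zero]


/-! ### the hypotheses -/

/-- the hypotheses of the abstract level calculus: place reduction, uniformizer `ϖ` with
`p ∈ ϖ ^ e A`, the rational functions `F1` with value group `ϖ ^ ℤ` (`disc`), rational
constants (`res1`) and the lifting of functions for the rational divisors `Rat` (`lift`) -/
structure LcgHyp [RRHyp K F] [RRHyp k Fk] (R : ConstRed A π Fk F) (r : Place K F → Place k Fk)
    (p : ℕ) (ϖ : A) (e : ℕ) (F1 : Subfield F) (Rat : Divisor K F → Prop) : Prop where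
  isPlaceRed : R.IsPlaceRed r
  prime : p.Prime
  ϖ_ne : (ϖ : K) ≠ 0
  ϖ_mem : (ϖ : K) ∈ A.nonunits
  p_eq : ∃ ε : A, ((p : ℕ) : A) = ϖ ^ e * ε
  ϖ_mem_F1 : algebraMap K F (ϖ : K) ∈ F1
  disc : ∀ f ∈ F1, f ≠ 0 → ∃ n : ℤ, algebraMap K F ((ϖ : K) ^ n) * f ∈ R.O ∧
    (algebraMap K F ((ϖ : K) ^ n) * f)⁻¹ ∈ R.O
  res1 : ∀ c : k, ∃ a : A, π a = c ∧ algebraMap K F (a : K) ∈ F1
  lift : ∀ D : Divisor K F, Rat D → 2 * (genusFF K F : ℤ) - 2 < Divisor.degree D →
    ∀ w ∈ riemannRochSpace (K := k) (Finsupp.mapDomain r D),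
      ∃ s : R.O, (s : F) ∈ F1 ∧ (s : F) ∈ riemannRochSpace (K := K) D ∧ R.red s = w

/-- the rationality of the divisors built on a place `P` -/
structure LcgPlace [RRBase K F] (p : ℕ) (F1 : Subfield F) (Rat : Divisor K F → Prop)
    (P : Place K F) : Prop where
  rat_single : ∀ n : ℕ, Rat (n • Finsupp.single P (1 : ℤ))
  rat_div : ∀ f ∈ F1, f ≠ 0 → ∀ D : Divisor K F, divOf (K := K) f = p • D →
    ∀ n : ℕ, Rat (D + n • Finsupp.single P (1 : ℤ))

section Hyp

variable [RRHyp K F] [RRHyp k Fk] {R : ConstRed A π Fk F} {r : Place K F → Place k Fk}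
  {p : ℕ} {ϖ : A} {e : ℕ} {F1 : Subfield F} {Rat : Divisor K F → Prop}

theorem LcgHyp.red_ϖ (H : LcgHyp R r p ϖ e F1 Rat) : R.red (lcgC R ϖ) = 0 :=
  red_lcgC_of_nonunit R ϖ H.ϖ_mem

theorem LcgHyp.coe_ϖ_ne (H : LcgHyp R r p ϖ e F1 Rat) : algebraMap K F (ϖ : K) ≠ 0 := by
  rw [Ne, map_eq_zero_iff _ (algebraMap K F).injective]
  exact H.ϖ_ne

/-- **(DISC)** in the unit ball: a rational function with reduction `0` is divisible by `ϖ` -/
theorem LcgHyp.exists_eq_mul (H : LcgHyp R r p ϖ e F1 Rat) (x : R.O) (hx1 : (x : F) ∈ F1)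
    (hx : R.red x = 0) : ∃ y : R.O, (y : F) ∈ F1 ∧ x = lcgC R ϖ * y := by
  by_cases hx0 : x = 0
  · exact ⟨0, F1.zero_mem, by rw [hx0, mul_zero]⟩
  have hxF : (x : F) ≠ 0 := fun h => hx0 (Subtype.ext h)
  obtain ⟨n, hn1, hn2⟩ := H.disc (x : F) hx1 hxF
  have hϖF := H.coe_ϖ_ne
  have hxnu : (x : F) ∈ R.O.nonunits := (R.red_eq_zero_iff x).mp hx
  have hxv : R.O.valuation (x : F) < 1 := (R.O.mem_nonunits_iff).mp hxnu
  have hϖO : algebraMap K F (ϖ : K) ∈ R.O := R.algebraMap_mem ϖ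
  have hϖv : R.O.valuation (algebraMap K F (ϖ : K)) ≤ 1 :=
    (ValuationSubring.valuation_le_one_iff _ _).mpr hϖO
  set u : F := algebraMap K F ((ϖ : K) ^ n) * (x : F) with hu
  have hu0 : u ≠ 0 := by
    rw [hu, map_zpow₀]
    exact mul_ne_zero (zpow_ne_zero _ hϖF) hxF
  have huv : R.O.valuation u = 1 := by
    have h1 : R.O.valuation u ≤ 1 := (ValuationSubring.valuation_le_one_iff _ _).mpr hn1
    have h2 : R.O.valuation u⁻¹ ≤ 1 := (ValuationSubring.valuation_le_one_iff _ _).mpr hn2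
    rw [map_inv₀] at h2
    have h3 : R.O.valuation u ≠ 0 := (Valuation.ne_zero_iff _).mpr hu0
    exact le_antisymm h1 ((inv_le_one₀ (zero_lt_iff.mpr h3)).mp h2)
  have hneg : n < 0 := by
    by_contra hge
    have hge' : 0 ≤ n := not_lt.mp hge
    obtain ⟨m, rfl⟩ := Int.eq_ofNat_of_zero_le hge'
    have h1 : R.O.valuation (algebraMap K F ((ϖ : K) ^ (m : ℤ))) ≤ 1 := by
      rw [zpow_natCast, map_pow, map_pow]
      exact pow_le_one₀ zero_le hϖv
    have h2 : R.O.valuation u < 1 := by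
      rw [hu, map_mul]
      calc R.O.valuation (algebraMap K F ((ϖ : K) ^ (m : ℤ))) * R.O.valuation (x : F)
          ≤ 1 * R.O.valuation (x : F) := mul_le_mul_left h1 _
        _ = R.O.valuation (x : F) := one_mul _
        _ < 1 := hxv
    rw [huv] at h2
    exact lt_irrefl _ h2
  obtain ⟨m, hm⟩ : ∃ m : ℕ, n = -((m : ℤ) + 1) := ⟨(-n - 1).toNat, by omega⟩
  have hux : (x : F) = algebraMap K F (ϖ : K) * (algebraMap K F (ϖ : K) ^ m * u) := by
    rw [hu, hm, map_zpow₀, zpow_neg, ← mul_assoc, ← mul_assoc, ← pow_succ']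
    rw [show ((m : ℤ) + 1) = ((m + 1 : ℕ) : ℤ) by push_cast; ring, zpow_natCast]
    rw [mul_inv_cancel₀ (pow_ne_zero _ hϖF), one_mul]
  have hymem : algebraMap K F (ϖ : K) ^ m * u ∈ R.O :=
    R.O.mul_mem _ _ (pow_mem hϖO m) hn1
  refine ⟨⟨_, hymem⟩, ?_, Subtype.ext hux⟩
  show algebraMap K F (ϖ : K) ^ m * u ∈ F1
  refine F1.mul_mem (F1.pow_mem H.ϖ_mem_F1 m) ?_
  rw [hu, map_zpow₀]
  exact F1.mul_mem (F1.zpow_mem H.ϖ_mem_F1 n) hx1

end Hyp


/-! ### the pole invariant -/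

section Pole

variable [RRBase K F] [RRBase k Fk]

/-- `x ∈ L(Z)` for some `Z ≥ 0` whose reduction is a multiple of `r P`: "the poles of `x` reduce
to `r P`" -/
def LcgPole (r : Place K F → Place k Fk) (P : Place K F) (x : F) : Prop :=
  ∃ Z : Divisor K F, 0 ≤ Z ∧
    (∃ m : ℕ, Finsupp.mapDomain r Z = m • Finsupp.single (r P) (1 : ℤ)) ∧
      x ∈ riemannRochSpace (K := K) Z

variable {r : Place K F → Place k Fk} {P : Place K F}

theorem lcgPole_one : LcgPole r P (1 : F) :=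
  ⟨0, le_refl _, ⟨0, by simp⟩, one_mem_riemannRochSpace_zero⟩

theorem lcgPole_zero : LcgPole r P (0 : F) :=
  ⟨0, le_refl _, ⟨0, by simp⟩, Submodule.zero_mem _⟩

theorem lcgPole_mul {x y : F} (hx : LcgPole r P x) (hy : LcgPole r P y) :
    LcgPole r P (x * y) := by
  obtain ⟨Z, hZ, ⟨m, hm⟩, hxZ⟩ := hx
  obtain ⟨Z', hZ', ⟨m', hm'⟩, hyZ⟩ := hy
  refine ⟨Z + Z', add_nonneg hZ hZ', ⟨m + m', ?_⟩, gr_mul_mem hxZ hyZ⟩
  rw [Finsupp.mapDomain_add, hm, hm', add_smul]

theorem lcgPole_add {x y : F} (hx : LcgPole r P x) (hy : LcgPole r P y) :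
    LcgPole r P (x + y) := by
  obtain ⟨Z, hZ, ⟨m, hm⟩, hxZ⟩ := hx
  obtain ⟨Z', hZ', ⟨m', hm'⟩, hyZ⟩ := hy
  refine ⟨Z + Z', add_nonneg hZ hZ', ⟨m + m', ?_⟩, Submodule.add_mem _
    (riemannRochSpace_mono (le_add_of_nonneg_right hZ') hxZ)
    (riemannRochSpace_mono (le_add_of_nonneg_left hZ) hyZ)⟩
  rw [Finsupp.mapDomain_add, hm, hm', add_smul]

theorem lcgPole_neg {x : F} (hx : LcgPole r P x) : LcgPole r P (-x) := by
  obtain ⟨Z, hZ, hm, hxZ⟩ := hx
  exact ⟨Z, hZ, hm, Submodule.neg_mem _ hxZ⟩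

theorem lcgPole_sub {x y : F} (hx : LcgPole r P x) (hy : LcgPole r P y) :
    LcgPole r P (x - y) := by
  rw [sub_eq_add_neg]
  exact lcgPole_add hx (lcgPole_neg hy)

theorem lcgPole_pow {x : F} (hx : LcgPole r P x) (n : ℕ) : LcgPole r P (x ^ n) := by
  induction n with
  | zero => rw [pow_zero]; exact lcgPole_one
  | succ n ih => rw [pow_succ]; exact lcgPole_mul ih hx

theorem lcgPole_const_mul {x : F} (c : K) (hx : LcgPole r P x) :
    LcgPole r P (algebraMap K F c * x) := by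
  obtain ⟨Z, hZ, hm, hxZ⟩ := hx
  refine ⟨Z, hZ, hm, ?_⟩
  rw [← Algebra.smul_def]
  exact Submodule.smul_mem _ c hxZ

theorem lcgPole_const (c : K) : LcgPole r P (algebraMap K F c) := by
  have := lcgPole_const_mul (r := r) (P := P) c lcgPole_one
  rwa [mul_one] at this

theorem lcgPole_of_mem {x : F} (n : ℕ)
    (hx : x ∈ riemannRochSpace (K := K) (n • Finsupp.single P (1 : ℤ))) : LcgPole r P x := by
  refine ⟨n • Finsupp.single P (1 : ℤ), cxa_nsmul_single_nonneg n P, ⟨n, ?_⟩, hx⟩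
  rw [Finsupp.mapDomain_smul, Finsupp.mapDomain_single]

variable {R : ConstRed A π Fk F}

/-- the inverse of a function with reduction `1` -/
theorem lcgPole_inv (hr : R.IsPlaceRed r) (y : R.O) (hy : R.red y = 1)
    (hx : LcgPole r P (y : F)) : LcgPole r P ((y : F)⁻¹) := by
  obtain ⟨Z, hZ, ⟨m, hm⟩, hyZ⟩ := hx
  have hy0 : R.red y ≠ 0 := by rw [hy]; exact one_ne_zero
  have hyF : (y : F) ≠ 0 := fun h => hy0 (by rw [show y = 0 from Subtype.ext h, map_zero])
  have h1 : 0 ≤ Z + divOf (K := K) (y : F) := (mem_riemannRochSpace_iff_divOf hyF Z).mp hyZ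
  refine ⟨Z + divOf (K := K) (y : F), h1, ⟨m, ?_⟩, ?_⟩
  · rw [Finsupp.mapDomain_add, hm, hr.mapDomain_divOf y hy0, hy]
    have : divOf (K := k) (1 : Fk) = 0 := by
      have := cxa_divOf_const (K := k) (F := Fk) (1 : k)
      rwa [map_one] at this
    rw [this, add_zero]
  · rw [mem_riemannRochSpace_iff_divOf (inv_ne_zero hyF), cxa_divOf_inv]
    have : Z + divOf (K := K) (y : F) + -divOf (K := K) (y : F) = Z := by abel
    rw [this]
    exact hZ

/-- pole control: the reduction has its poles at `r P` only -/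
theorem lcgPole_red (hr : R.IsPlaceRed r) (x : R.O) (hx : LcgPole r P (x : F)) :
    ∃ m : ℕ, R.red x ∈ riemannRochSpace (K := k) (m • Finsupp.single (r P) (1 : ℤ)) := by
  obtain ⟨Z, hZ, ⟨m, hm⟩, hxZ⟩ := hx
  refine ⟨m, ?_⟩
  have := hr.W_le Z ((R.mem_W_iff Z _).mpr ⟨x, hxZ, rfl⟩)
  rwa [hm] at this

/-- a `p`-th root of a function with poles at `Q` only has poles at `Q` only -/
theorem lcg_root_mem {Q : Place k Fk} {p : ℕ} (hp : 0 < p) {w : Fk} (m : ℕ)
    (hw : w ^ p ∈ riemannRochSpace (K := k) (m • Finsupp.single Q (1 : ℤ))) :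
    w ∈ riemannRochSpace (K := k) (m • Finsupp.single Q (1 : ℤ)) := by
  rw [mem_riemannRochSpace_iff] at hw ⊢
  intro v
  by_cases hw0 : w = 0
  · exact Or.inl hw0
  right
  have h := (hw v).resolve_left (pow_ne_zero p hw0)
  rw [← zpow_natCast, v.ord_zpow] at h
  by_cases hv : v = Q
  · rw [hv, cxa_nsmul_single_self] at h ⊢
    have hp' : (1 : ℤ) ≤ (p : ℤ) := by exact_mod_cast hp
    by_contra hlt
    have hlt' : v.ord w < -(m : ℤ) := by rw [hv]; exact not_le.mp hlt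
    rw [hv] at hlt'
    nlinarith
  · rw [cxa_nsmul_single_ne m hv] at h ⊢
    have hp' : (0 : ℤ) < (p : ℤ) := by exact_mod_cast hp
    by_contra hlt
    have hlt' : v.ord w < 0 := by simpa using hlt
    nlinarith

end Pole


/-! ### the `p`-th power of a one-unit -/

section Ring

variable {S : Type*} [CommRing S] {p : ℕ}

/-- high exponents: `(1 + W ^ s G) ^ p ∈ 1 + W ^ (i + 1) S` if `i < p s` and `i < e + s` -/
theorem lcg_ring_high (hp : p.Prime) (W ε : S) (e : ℕ) (hpe : ((p : ℕ) : S) = W ^ e * ε)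
    (s i : ℕ) (h1 : i + 1 ≤ p * s) (h2 : i + 1 ≤ e + s) (G : S) :
    ∃ ρ : S, (1 + W ^ s * G) ^ p = 1 + W ^ (i + 1) * ρ := by
  obtain ⟨r, hr⟩ := lcg_one_add_pow hp (W ^ s * G)
  obtain ⟨a, ha⟩ : ∃ a : ℕ, p * s = i + 1 + a := ⟨p * s - (i + 1), by omega⟩
  obtain ⟨b, hb⟩ : ∃ b : ℕ, e + s = i + 1 + b := ⟨e + s - (i + 1), by omega⟩
  refine ⟨W ^ a * G ^ p + W ^ b * (ε * G * r), ?_⟩
  have e1 : (W ^ s * G) ^ p = W ^ (i + 1) * (W ^ a * G ^ p) := by
    rw [mul_pow, ← pow_mul, mul_comm s p, ha, pow_add]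
    ring
  have e2 : ((p : ℕ) : S) * (W ^ s * G) * r = W ^ (i + 1) * (W ^ b * (ε * G * r)) := by
    have : W ^ e * W ^ s = W ^ (i + 1) * W ^ b := by rw [← pow_add, ← pow_add, hb]
    rw [hpe]
    calc W ^ e * ε * (W ^ s * G) * r = (W ^ e * W ^ s) * (ε * G * r) := by ring
      _ = W ^ (i + 1) * W ^ b * (ε * G * r) := by rw [this]
      _ = W ^ (i + 1) * (W ^ b * (ε * G * r)) := by ring
  rw [hr, e1, e2]
  ring

/-- low exponents: the leading term of `(1 + W ^ i g) (1 + W ^ s G) ^ p` is `W ^ (p s) G ^ p`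
if `p s < i` and `p s < e + s` -/
theorem lcg_ring_low (hp : p.Prime) (W ε : S) (e : ℕ) (hpe : ((p : ℕ) : S) = W ^ e * ε)
    (s i : ℕ) (h1 : p * s + 1 ≤ i) (h2 : p * s + 1 ≤ e + s) (G g : S) :
    ∃ ρ : S, (1 + W ^ i * g) * (1 + W ^ s * G) ^ p = 1 + W ^ (p * s) * (G ^ p + W * ρ) := by
  obtain ⟨r, hr⟩ := lcg_one_add_pow hp (W ^ s * G)
  obtain ⟨a, ha⟩ : ∃ a : ℕ, i = p * s + 1 + a := ⟨i - (p * s + 1), by omega⟩
  obtain ⟨b, hb⟩ : ∃ b : ℕ, e + s = p * s + 1 + b := ⟨e + s - (p * s + 1), by omega⟩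
  refine ⟨W ^ b * (ε * G * r) + W ^ a * (g * (1 + W ^ s * G) ^ p), ?_⟩
  have e1 : (W ^ s * G) ^ p = W ^ (p * s) * G ^ p := by
    rw [mul_pow, ← pow_mul, mul_comm s p]
  have e2 : ((p : ℕ) : S) * (W ^ s * G) * r = W ^ (p * s) * (W * (W ^ b * (ε * G * r))) := by
    have : W ^ e * W ^ s = W ^ (p * s) * W * W ^ b := by
      rw [← pow_add, ← pow_succ, ← pow_add, hb]
    rw [hpe]
    calc W ^ e * ε * (W ^ s * G) * r = (W ^ e * W ^ s) * (ε * G * r) := by ring
      _ = W ^ (p * s) * W * W ^ b * (ε * G * r) := by rw [this]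
      _ = W ^ (p * s) * (W * (W ^ b * (ε * G * r))) := by ring
  have e3 : W ^ i = W ^ (p * s) * W * W ^ a := by
    rw [← pow_succ, ← pow_add, ← ha]
  have e4 : (1 + W ^ s * G) ^ p = 1 + W ^ (p * s) * (G ^ p + W * (W ^ b * (ε * G * r))) := by
    rw [hr, e1, e2]
    ring
  calc (1 + W ^ i * g) * (1 + W ^ s * G) ^ p
      = (1 + W ^ s * G) ^ p + W ^ i * (g * (1 + W ^ s * G) ^ p) := by ring
    _ = 1 + W ^ (p * s) * (G ^ p + W * (W ^ b * (ε * G * r)))
          + W ^ (p * s) * W * W ^ a * (g * (1 + W ^ s * G) ^ p) := by rw [e3, e4]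
    _ = _ := by ring

/-- arithmetic of the regimes, low case -/
theorem lcg_arith_low {p e s i : ℕ} (hp : p.Prime) (hi : (p - 1) * i < p * e) (hpi : ¬ p ∣ i)
    (hps : p * s ≤ i) : p * s + 1 ≤ i ∧ p * s + 1 ≤ e + s := by
  obtain ⟨q, rfl⟩ : ∃ q : ℕ, p = q + 1 := ⟨p - 1, by have := hp.one_lt; omega⟩
  have h1 : (q + 1) * s ≠ i := fun h => hpi ⟨s, h.symm⟩
  refine ⟨by omega, ?_⟩
  rw [Nat.add_sub_cancel] at hi
  by_contra hcon
  have h2 : e ≤ q * s := by
    have : (q + 1) * s = q * s + s := by ring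
    omega
  have h3 : (q + 1) * e ≤ (q + 1) * (q * s) := Nat.mul_le_mul_left _ h2
  have h4 : q * ((q + 1) * s) ≤ q * i := Nat.mul_le_mul_left _ hps
  have h5 : (q + 1) * (q * s) = q * ((q + 1) * s) := by ring
  omega

/-- arithmetic of the regimes, high case -/
theorem lcg_arith_high {p e s i : ℕ} (hp : p.Prime) (hi : (p - 1) * i < p * e)
    (hps : i < p * s) : i + 1 ≤ e + s := by
  obtain ⟨q, rfl⟩ : ∃ q : ℕ, p = q + 1 := ⟨p - 1, by have := hp.one_lt; omega⟩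
  rw [Nat.add_sub_cancel] at hi
  by_contra hcon
  have h1 : e + s ≤ i := by omega
  have h2 : q * (e + s) ≤ q * i := Nat.mul_le_mul_left _ h1
  have h3 : q * (e + s) = q * e + q * s := by ring
  have h4 : (q + 1) * e = q * e + e := by ring
  have h5 : q * s < e := by omega
  have h6 : (q + 1) * s = q * s + s := by ring
  omega

end Ring


/-! ### the loop: improving the auxiliary function `h` -/

section Loop

variable [RRHyp K F] [RRHyp k Fk] {R : ConstRed A π Fk F} {r : Place K F → Place k Fk}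
  {p : ℕ} {ϖ : A} {e : ℕ} {F1 : Subfield F} {Rat : Divisor K F → Prop} {P : Place K F}

theorem LcgHyp.natCast_eq (H : LcgHyp R r p ϖ e F1 Rat) :
    ∃ ε : R.O, ((p : ℕ) : R.O) = lcgC R ϖ ^ e * ε := by
  obtain ⟨ε, hε⟩ := H.p_eq
  refine ⟨lcgC R ε, ?_⟩
  have := congrArg (lcgC R) hε
  rwa [map_natCast, map_mul, map_pow] at this

omit [RRHyp K F] [RRHyp k Fk] in
/-- an element of the ball with reduction `1` is a unit of the ball -/
theorem lcg_exists_inv (R : ConstRed A π Fk F) (u : R.O) (hu : R.red u = 1) :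
    ∃ v : R.O, v * u = 1 ∧ (v : F) = (u : F)⁻¹ := by
  have h1 : (u : F) ∉ R.O.nonunits := by
    intro h
    have := (R.red_eq_zero_iff u).mpr h
    rw [hu] at this
    exact one_ne_zero this
  rw [ValuationSubring.mem_nonunits_iff_or, not_or, not_not] at h1
  refine ⟨⟨(u : F)⁻¹, h1.2⟩, Subtype.ext ?_, rfl⟩
  show (u : F)⁻¹ * (u : F) = 1
  exact inv_mul_cancel₀ h1.1

omit [RRHyp K F] [RRHyp k Fk] in
theorem lcg_coe_one_add (R : ConstRed A π Fk F) (ϖ : A) (s : ℕ) (Y : R.O) :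
    ((1 + lcgC R ϖ ^ s * Y : R.O) : F) = 1 + algebraMap K F ((ϖ : K) ^ s) * (Y : F) := by
  rw [map_pow]
  rfl

theorem lcg_red_one_add (H : LcgHyp R r p ϖ e F1 Rat) {s : ℕ} (hs : 1 ≤ s) (Y : R.O) :
    R.red (1 + lcgC R ϖ ^ s * Y) = 1 := by
  rw [map_add, map_one, map_mul, map_pow, H.red_ϖ, zero_pow (by omega), zero_mul, add_zero]

set_option maxHeartbeats 1600000 in
/-- **the loop**: an auxiliary function `h ≡ 1` can be improved until `h ^ p ≡ 1` modulo
`ϖ ^ (i + 1)`, keeping the poles of `(1 + ϖ ^ i g) h ^ p` above `r P` -/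
theorem lcg_loop (H : LcgHyp R r p ϖ e F1 Rat) (HP : LcgPlace p F1 Rat P) {i : ℕ}
    (hi : (p - 1) * i < p * e) (hpi : ¬ p ∣ i) (g : R.O) :
    ∀ t s : ℕ, 1 ≤ s → i + 1 ≤ s + t → ∀ h G : R.O, (h : F) ∈ F1 → (G : F) ∈ F1 →
      h = 1 + lcgC R ϖ ^ s * G →
      LcgPole r P (((1 + lcgC R ϖ ^ i * g) * h ^ p : R.O) : F) →
      ∃ h' ρ : R.O, (h' : F) ∈ F1 ∧ R.red h' = 1 ∧ h' ^ p = 1 + lcgC R ϖ ^ (i + 1) * ρ ∧
        LcgPole r P (((1 + lcgC R ϖ ^ i * g) * h' ^ p : R.O) : F) := by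
  obtain ⟨ε, hε⟩ := H.natCast_eq
  have hp := H.prime
  have high : ∀ s : ℕ, 1 ≤ s → i < p * s → ∀ h G : R.O, (h : F) ∈ F1 →
      h = 1 + lcgC R ϖ ^ s * G →
      LcgPole r P (((1 + lcgC R ϖ ^ i * g) * h ^ p : R.O) : F) →
      ∃ h' ρ : R.O, (h' : F) ∈ F1 ∧ R.red h' = 1 ∧ h' ^ p = 1 + lcgC R ϖ ^ (i + 1) * ρ ∧
        LcgPole r P (((1 + lcgC R ϖ ^ i * g) * h' ^ p : R.O) : F) := by
    intro s hs hps h G hh1 hhG hpole
    obtain ⟨ρ, hρ⟩ := lcg_ring_high hp (lcgC R ϖ) ε e hε s i (by omega)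
      (lcg_arith_high hp hi hps) G
    refine ⟨h, ρ, hh1, ?_, by rw [hhG, hρ], hpole⟩
    rw [hhG]
    exact lcg_red_one_add H hs G
  intro t
  induction t with
  | zero =>
    intro s hs hst h G hh1 hG1 hhG hpole
    have hps : i < p * s := by
      have : s ≤ p * s := Nat.le_mul_of_pos_left s hp.pos
      omega
    exact high s hs hps h G hh1 hhG hpole
  | succ t ih =>
    intro s hs hst h G hh1 hG1 hhG hpole
    by_cases hps : i < p * s
    · exact high s hs hps h G hh1 hhG hpole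
    have hps' : p * s ≤ i := not_lt.mp hps
    obtain ⟨hlow1, hlow2⟩ := lcg_arith_low hp hi hpi hps'
    obtain ⟨ρ, hρ⟩ := lcg_ring_low hp (lcgC R ϖ) ε e hε s i hlow1 hlow2 G g
    have hyred : R.red (G ^ p + lcgC R ϖ * ρ) = R.red G ^ p := by
      rw [map_add, map_pow, map_mul, H.red_ϖ, zero_mul, add_zero]
    have hypole : LcgPole r P ((G ^ p + lcgC R ϖ * ρ : R.O) : F) := by
      have h1 : ((1 + lcgC R ϖ ^ i * g) * h ^ p : R.O)
          = 1 + lcgC R ϖ ^ (p * s) * (G ^ p + lcgC R ϖ * ρ) := by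
        rw [hhG, hρ]
      have h2 : ((G ^ p + lcgC R ϖ * ρ : R.O) : F) = algebraMap K F (((ϖ : K) ^ (p * s))⁻¹) *
          ((((1 + lcgC R ϖ ^ i * g) * h ^ p : R.O) : F) - 1) := by
        rw [h1, lcg_coe_one_add, add_sub_cancel_left, ← mul_assoc, ← map_mul,
          inv_mul_cancel₀ (pow_ne_zero _ H.ϖ_ne), map_one, one_mul]
      rw [h2]
      exact lcgPole_const_mul _ (lcgPole_sub hpole lcgPole_one)
    obtain ⟨m, hm⟩ := lcgPole_red H.isPlaceRed _ hypole
    rw [hyred] at hm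
    have hGm := lcg_root_mem hp.pos m hm
    have hdeg : 2 * (genusFF K F : ℤ) - 2 <
        Divisor.degree ((m + 2 * genusFF K F) • Finsupp.single P (1 : ℤ)) := by
      rw [map_nsmul, degree_single_one]
      simp only [nsmul_eq_mul, mul_one]
      push_cast
      omega
    have hGmem : R.red G ∈ riemannRochSpace (K := k)
        (Finsupp.mapDomain r ((m + 2 * genusFF K F) • Finsupp.single P (1 : ℤ))) := by
      rw [Finsupp.mapDomain_smul, Finsupp.mapDomain_single]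
      refine riemannRochSpace_mono ?_ hGm
      rw [add_smul]
      exact le_add_of_nonneg_right (cxa_nsmul_single_nonneg _ _)
    obtain ⟨Y, hY1, hYmem, hYred⟩ := H.lift _ (HP.rat_single (m + 2 * genusFF K F)) hdeg _ hGmem
    have hured : R.red (1 + lcgC R ϖ ^ s * Y) = 1 := lcg_red_one_add H hs Y
    obtain ⟨v, hvu, hvF⟩ := lcg_exists_inv R (1 + lcgC R ϖ ^ s * Y) hured
    have hGY1 : ((G - Y : R.O) : F) ∈ F1 := F1.sub_mem hG1 hY1
    have hGYred : R.red (G - Y) = 0 := by rw [map_sub, hYred, sub_self]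
    obtain ⟨G'', hG''1, hG''⟩ := H.exists_eq_mul (G - Y) hGY1 hGYred
    have hu1 : ((1 + lcgC R ϖ ^ s * Y : R.O) : F) ∈ F1 := by
      rw [lcg_coe_one_add, map_pow]
      exact F1.add_mem F1.one_mem (F1.mul_mem (F1.pow_mem H.ϖ_mem_F1 s) hY1)
    have hv1 : (v : F) ∈ F1 := by rw [hvF]; exact F1.inv_mem hu1
    have hh' : h * v = 1 + lcgC R ϖ ^ (s + 1) * (G'' * v) := by
      have e1 : h = (1 + lcgC R ϖ ^ s * Y) + lcgC R ϖ ^ (s + 1) * G'' := by
        have : G = Y + lcgC R ϖ * G'' := by rw [← hG'']; ring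
        rw [hhG, this]
        ring
      calc h * v = (1 + lcgC R ϖ ^ s * Y) * v + lcgC R ϖ ^ (s + 1) * G'' * v := by
            rw [← add_mul, ← e1]
        _ = v * (1 + lcgC R ϖ ^ s * Y) + lcgC R ϖ ^ (s + 1) * (G'' * v) := by ring
        _ = 1 + lcgC R ϖ ^ (s + 1) * (G'' * v) := by rw [hvu]
    have hpole' : LcgPole r P (((1 + lcgC R ϖ ^ i * g) * (h * v) ^ p : R.O) : F) := by
      have e1 : ((1 + lcgC R ϖ ^ i * g) * (h * v) ^ p : R.O)
          = ((1 + lcgC R ϖ ^ i * g) * h ^ p) * v ^ p := by ring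
      rw [e1]
      have hupole : LcgPole r P ((1 + lcgC R ϖ ^ s * Y : R.O) : F) := by
        rw [lcg_coe_one_add]
        exact lcgPole_add lcgPole_one (lcgPole_const_mul _ (lcgPole_of_mem _ hYmem))
      have hvpole : LcgPole r P (v : F) := by
        rw [hvF]
        exact lcgPole_inv H.isPlaceRed _ hured hupole
      exact lcgPole_mul hpole (lcgPole_pow hvpole p)
    exact ih (s + 1) (by omega) (by omega) (h * v) (G'' * v) (F1.mul_mem hh1 hv1)
      (F1.mul_mem hG''1 hv1) hh' hpole'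

end Loop


/-! ### (L1): the leading term at a level prime to `p` is constant -/

section Improve

variable [RRHyp K F] [RRHyp k Fk] {R : ConstRed A π Fk F} {r : Place K F → Place k Fk}
  {p : ℕ} {ϖ : A} {e : ℕ} {F1 : Subfield F} {Rat : Divisor K F → Prop} {P Q : Place K F}

set_option maxHeartbeats 1600000 in
/-- **pole control**: at a level `i` prime to `p` below `v*`, the leading term `red g` of a
rational function `1 + ϖ ^ i g` whose divisor is divisible by `p` has its poles at `r P` only,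
for every place `P` with rational multiples -/
theorem lcg_pole (H : LcgHyp R r p ϖ e F1 Rat) (HP : LcgPlace p F1 Rat P) {i : ℕ}
    (hi : (p - 1) * i < p * e) (hpi : ¬ p ∣ i) (g : R.O) (hg1 : (g : F) ∈ F1)
    (D₀ : Divisor K F)
    (hD₀ : divOf (K := K) ((1 + lcgC R ϖ ^ i * g : R.O) : F) = p • D₀) :
    ∃ m : ℕ, R.red g ∈ riemannRochSpace (K := k) (m • Finsupp.single (r P) (1 : ℤ)) := by
  have hp := H.prime
  have hi1 : 1 ≤ i := by
    rcases Nat.eq_zero_or_pos i with h | h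
    · exact absurd (h ▸ dvd_zero p) hpi
    · exact h
  have hfred : R.red (1 + lcgC R ϖ ^ i * g) = 1 := lcg_red_one_add H hi1 g
  have hf0 : ((1 + lcgC R ϖ ^ i * g : R.O) : F) ≠ 0 := by
    intro h
    have h' : (1 + lcgC R ϖ ^ i * g : R.O) = 0 := Subtype.ext h
    rw [h', map_zero] at hfred
    exact zero_ne_one hfred
  have hf1 : ((1 + lcgC R ϖ ^ i * g : R.O) : F) ∈ F1 := by
    rw [lcg_coe_one_add, map_pow]
    exact F1.add_mem F1.one_mem (F1.mul_mem (F1.pow_mem H.ϖ_mem_F1 i) hg1)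
  have hdiv1 : divOf (K := k) (1 : Fk) = 0 := by
    have := cxa_divOf_const (K := k) (F := Fk) (1 : k)
    rwa [map_one] at this
  -- `deg D₀ = 0` and `r_* D₀ = 0`
  have hdeg0 : Divisor.degree D₀ = 0 := by
    have h1 : Divisor.degree (p • D₀) = 0 := by rw [← hD₀, degree_divOf]
    rw [map_nsmul, smul_eq_zero] at h1
    exact h1.resolve_left hp.ne_zero
  have hr0 : Finsupp.mapDomain r D₀ = 0 := by
    have h1 : Finsupp.mapDomain r (p • D₀) = 0 := by
      rw [← hD₀, H.isPlaceRed.mapDomain_divOf _ (by rw [hfred]; exact one_ne_zero), hfred,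
        hdiv1]
    rw [Finsupp.mapDomain_smul, smul_eq_zero] at h1
    exact h1.resolve_left hp.ne_zero
  -- the first auxiliary function
  have hdeg : 2 * (genusFF K F : ℤ) - 2 <
      Divisor.degree (D₀ + (2 * genusFF K F) • Finsupp.single P (1 : ℤ)) := by
    rw [map_add, hdeg0, map_nsmul, degree_single_one]
    simp only [nsmul_eq_mul, mul_one]
    push_cast
    omega
  have h1mem : (1 : Fk) ∈ riemannRochSpace (K := k)
      (Finsupp.mapDomain r (D₀ + (2 * genusFF K F) • Finsupp.single P (1 : ℤ))) := by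
    rw [Finsupp.mapDomain_add, hr0, zero_add, Finsupp.mapDomain_smul, Finsupp.mapDomain_single]
    exact cxa_one_mem (cxa_nsmul_single_nonneg _ _)
  obtain ⟨s₁, hs1, hsmem, hsred⟩ := H.lift _ (HP.rat_div _ hf1 hf0 D₀ hD₀ (2 * genusFF K F))
    hdeg _ h1mem
  have hs0 : (s₁ : F) ≠ 0 := by
    intro h
    have h' : s₁ = 0 := Subtype.ext h
    rw [h', map_zero] at hsred
    exact zero_ne_one hsred
  obtain ⟨G₀, hG₀1, hG₀⟩ := H.exists_eq_mul (s₁ - 1) (F1.sub_mem hs1 F1.one_mem)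
    (by rw [map_sub, hsred, map_one, sub_self])
  have hsG : s₁ = 1 + lcgC R ϖ ^ 1 * G₀ := by
    rw [pow_one, ← hG₀]
    ring
  have hpole0 : LcgPole r P (((1 + lcgC R ϖ ^ i * g) * s₁ ^ p : R.O) : F) := by
    refine lcgPole_of_mem (p * (2 * genusFF K F)) ?_
    have hne : (((1 + lcgC R ϖ ^ i * g) * s₁ ^ p : R.O) : F) ≠ 0 :=
      mul_ne_zero hf0 (pow_ne_zero p hs0)
    rw [mem_riemannRochSpace_iff_divOf hne]
    have h1 : 0 ≤ (D₀ + (2 * genusFF K F) • Finsupp.single P (1 : ℤ)) + divOf (K := K) (s₁ : F) :=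
      (mem_riemannRochSpace_iff_divOf hs0 _).mp hsmem
    have h2 : divOf (K := K) (((1 + lcgC R ϖ ^ i * g) * s₁ ^ p : R.O) : F)
        = p • D₀ + p • divOf (K := K) (s₁ : F) := by
      show divOf (K := K) (((1 + lcgC R ϖ ^ i * g : R.O) : F) * (s₁ : F) ^ p) = _
      rw [cxa_divOf_mul hf0 (pow_ne_zero p hs0), hD₀, cxa_divOf_pow]
    rw [h2]
    have h3 : (p * (2 * genusFF K F)) • Finsupp.single P (1 : ℤ) + (p • D₀ + p • divOf (K := K) (s₁ : F))
        = p • ((D₀ + (2 * genusFF K F) • Finsupp.single P (1 : ℤ)) + divOf (K := K) (s₁ : F)) := by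
      rw [smul_add, smul_add, mul_smul]
      abel
    rw [h3]
    exact nsmul_nonneg h1 p
  obtain ⟨h', ρ, hh'1, hh'red, hh'pow, hh'pole⟩ :=
    lcg_loop H HP hi hpi g i 1 le_rfl (by omega) s₁ G₀ hs1 hG₀1 hsG hpole0
  -- the leading term
  have e1 : ((1 + lcgC R ϖ ^ i * g) * h' ^ p : R.O)
      = 1 + lcgC R ϖ ^ i * (g + lcgC R ϖ * (ρ * (1 + lcgC R ϖ ^ i * g))) := by
    rw [hh'pow, pow_succ]
    ring
  have hpoleg : LcgPole r P ((g + lcgC R ϖ * (ρ * (1 + lcgC R ϖ ^ i * g)) : R.O) : F) := by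
    have e2 : ((g + lcgC R ϖ * (ρ * (1 + lcgC R ϖ ^ i * g)) : R.O) : F)
        = algebraMap K F (((ϖ : K) ^ i)⁻¹) *
          ((((1 + lcgC R ϖ ^ i * g) * h' ^ p : R.O) : F) - 1) := by
      have key : ∀ x : F, x = algebraMap K F (((ϖ : K) ^ i)⁻¹) *
          (algebraMap K F ((ϖ : K) ^ i) * x) := fun x => by
        rw [← mul_assoc, ← map_mul, inv_mul_cancel₀ (pow_ne_zero _ H.ϖ_ne), map_one, one_mul]
      rw [e1, lcg_coe_one_add, add_sub_cancel_left]
      exact key _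
    rw [e2]
    exact lcgPole_const_mul _ (lcgPole_sub hh'pole lcgPole_one)
  obtain ⟨m, hm⟩ := lcgPole_red H.isPlaceRed _ hpoleg
  refine ⟨m, ?_⟩
  rwa [map_add, map_mul, H.red_ϖ, zero_mul, add_zero] at hm

set_option maxHeartbeats 1600000 in
/-- **(L1), in the unit ball**: at a level `i` prime to `p` below `v*` the leading term is a
constant, which can be absorbed: the level is `i + 1` -/
theorem lcg_improve_core (H : LcgHyp R r p ϖ e F1 Rat) (HP : LcgPlace p F1 Rat P)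
    (HQ : LcgPlace p F1 Rat Q) (hPQ : r P ≠ r Q) {i : ℕ}
    (hi : (p - 1) * i < p * e) (hpi : ¬ p ∣ i) (g : R.O) (hg1 : (g : F) ∈ F1)
    (D₀ : Divisor K F)
    (hD₀ : divOf (K := K) ((1 + lcgC R ϖ ^ i * g : R.O) : F) = p • D₀) :
    ∃ (a : A) (g' : R.O), algebraMap K F (a : K) ∈ F1 ∧ (g' : F) ∈ F1 ∧
      1 + lcgC R ϖ ^ i * g = (1 + lcgC R ϖ ^ i * lcgC R a) * (1 + lcgC R ϖ ^ (i + 1) * g') := by
  have hi1 : 1 ≤ i := by
    rcases Nat.eq_zero_or_pos i with h | h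
    · exact absurd (h ▸ dvd_zero p) hpi
    · exact h
  obtain ⟨m, hm⟩ := lcg_pole H HP hi hpi g hg1 D₀ hD₀
  obtain ⟨m', hm'⟩ := lcg_pole H HQ hi hpi g hg1 D₀ hD₀
  obtain ⟨c, hc⟩ := cxa_inter_const hPQ m m' hm hm'
  obtain ⟨a, ha, ha1⟩ := H.res1 c
  have hred : R.red (g - lcgC R a) = 0 := by
    rw [map_sub, red_lcgC, ha, hc, sub_self]
  obtain ⟨g₁, hg₁1, hg₁⟩ := H.exists_eq_mul (g - lcgC R a) (F1.sub_mem hg1 ha1) hred
  have hured : R.red (1 + lcgC R ϖ ^ i * lcgC R a) = 1 := lcg_red_one_add H hi1 _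
  obtain ⟨v, hvu, hvF⟩ := lcg_exists_inv R _ hured
  have hu1 : ((1 + lcgC R ϖ ^ i * lcgC R a : R.O) : F) ∈ F1 := by
    rw [lcg_coe_one_add, map_pow]
    exact F1.add_mem F1.one_mem (F1.mul_mem (F1.pow_mem H.ϖ_mem_F1 i) ha1)
  have hv1 : (v : F) ∈ F1 := by rw [hvF]; exact F1.inv_mem hu1
  refine ⟨a, g₁ * v, ha1, F1.mul_mem hg₁1 hv1, ?_⟩
  have e1 : g = lcgC R a + lcgC R ϖ * g₁ := by rw [← hg₁]; ring
  calc 1 + lcgC R ϖ ^ i * g
      = (1 + lcgC R ϖ ^ i * lcgC R a) + lcgC R ϖ ^ (i + 1) * g₁ := by rw [e1, pow_succ]; ring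
    _ = (1 + lcgC R ϖ ^ i * lcgC R a) + lcgC R ϖ ^ (i + 1) * g₁ *
          (v * (1 + lcgC R ϖ ^ i * lcgC R a)) := by rw [hvu, mul_one]
    _ = _ := by ring

end Improve

end Fermat.Agent.S33lib

end
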