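import Mathlib
import Fermat.Agent.S33lib.LocGen

/-!
# Item 86 (S33), piece LOCGEN, part 2 (helper18): absorbing a `p`-th power leading term

Setting of `Fermat/Agent/S33lib/LocGen.lean` (`LcgHyp`, `LcgPlace`, `LcgPole`).

* `lcg_absorb_core` (L2): at a level `i = p s₀ ≥ 1` below `v*` (`(p - 1) i < p e`), a rational
  function `1 + ϖ ^ i g` whose divisor is divisible by `p` and whose leading term `red g` lies
  in `Fk ^ p + k` is, up to the `p`-th power of a rational one-unit `h` and a rational constant,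
  of level `i + 1`.  NO lift of the `p`-th root is asked for: the root is made liftable by the
  pole normalisation (the loop of `LocGen.lean`, run up to the stage `s₀`).
* `lcg_step` : (L1) and (L2) in one statement.
-/

set_option autoImplicit false
set_option linter.unusedSectionVars false
set_option linter.unusedVariables false

noncomputable section

namespace Fermat.Agent.S33lib

open AlgebraicCurve Fermat.Agent.RRlib Fermat.Agent.GoodRed Fermat.Agent.S18lib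

variable {K F k Fk : Type*} [Field K] [Field F] [Algebra K F] [Field k] [Field Fk] [Algebra k Fk]
variable {A : ValuationSubring K} {π : A →+* k}

/-! ### ring identities -/

section Ring2

variable {S : Type*} [CommRing S] {p : ℕ}

/-- the `p`-th power of a one-unit of level `s`: `(1 + W ^ s G) ^ p = 1 + W ^ (p s) (G ^ p + W ρ)`
if `p s < e + s` -/
theorem lcg_ring_mid (hp : p.Prime) (W ε : S) (e : ℕ) (hpe : ((p : ℕ) : S) = W ^ e * ε)
    (s : ℕ) (h2 : p * s + 1 ≤ e + s) (G : S) :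
    ∃ ρ : S, (1 + W ^ s * G) ^ p = 1 + W ^ (p * s) * (G ^ p + W * ρ) := by
  obtain ⟨r, hr⟩ := lcg_one_add_pow hp (W ^ s * G)
  obtain ⟨b, hb⟩ : ∃ b : ℕ, e + s = p * s + 1 + b := ⟨e + s - (p * s + 1), by omega⟩
  refine ⟨W ^ b * (ε * G * r), ?_⟩
  have e1 : (W ^ s * G) ^ p = W ^ (p * s) * G ^ p := by
    rw [mul_pow, ← pow_mul, mul_comm s p]
  have e2 : ((p : ℕ) : S) * (W ^ s * G) * r = W ^ (p * s) * (W * (W ^ b * (ε * G * r))) := by
    have : W ^ e * W ^ s = W ^ (p * s) * W * W ^ b := by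
      rw [← pow_add, ← pow_succ, ← pow_add, hb]
    rw [hpe]
    calc W ^ e * ε * (W ^ s * G) * r = (W ^ e * W ^ s) * (ε * G * r) := by ring
      _ = W ^ (p * s) * W * W ^ b * (ε * G * r) := by rw [this]
      _ = W ^ (p * s) * (W * (W ^ b * (ε * G * r))) := by ring
  rw [hr, e1, e2]
  ring

/-- arithmetic of the regimes: below `v*` the `p`-th power of a one-unit of level `s` with
`p s ≤ i` has leading term `G ^ p` -/
theorem lcg_arith_mid {p e s i : ℕ} (hp : p.Prime) (hi : (p - 1) * i < p * e)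
    (hps : p * s ≤ i) : p * s + 1 ≤ e + s := by
  obtain ⟨q, rfl⟩ : ∃ q : ℕ, p = q + 1 := ⟨p - 1, by have := hp.one_lt; omega⟩
  rw [Nat.add_sub_cancel] at hi
  by_contra hcon
  have h2 : e ≤ q * s := by
    have : (q + 1) * s = q * s + s := by ring
    omega
  have h3 : (q + 1) * e ≤ (q + 1) * (q * s) := Nat.mul_le_mul_left _ h2
  have h4 : q * ((q + 1) * s) ≤ q * i := Nat.mul_le_mul_left _ hps
  have h5 : (q + 1) * (q * s) = q * ((q + 1) * s) := by ring
  omega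

end Ring2

/-! ### the low loop -/

section Loop2

variable [RRHyp K F] [RRHyp k Fk] {R : ConstRed A π Fk F} {r : Place K F → Place k Fk}
  {p : ℕ} {ϖ : A} {e : ℕ} {F1 : Subfield F} {Rat : Divisor K F → Prop} {P : Place K F}

/-- the residue characteristic is `p` as soon as `1 ≤ e` -/
theorem LcgHyp.natCast_Fk (H : LcgHyp R r p ϖ e F1 Rat) (he : 1 ≤ e) : ((p : ℕ) : Fk) = 0 := by
  obtain ⟨ε, hε⟩ := H.natCast_eq
  have h1 := congrArg R.red hε
  rw [map_natCast, map_mul, map_pow, H.red_ϖ, zero_pow (by omega), zero_mul] at h1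
  exact h1

/-- Frobenius is additive on the residue function field -/
theorem LcgHyp.add_pow_Fk (H : LcgHyp R r p ϖ e F1 Rat) (he : 1 ≤ e) (x y : Fk) :
    (x + y) ^ p = x ^ p + y ^ p := by
  obtain ⟨r', hr'⟩ := exists_add_pow_prime_eq H.prime x y
  rw [hr', H.natCast_Fk he, zero_mul, zero_mul, zero_mul, add_zero]

set_option maxHeartbeats 1600000 in
/-- **the low loop**: an auxiliary one-unit `h` of level `s` is improved up to a level `s₁`
with `p s₁ ≤ i`, keeping the poles of `(1 + ϖ ^ i g) h ^ p` above `r P` -/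
theorem lcg_loop_low (H : LcgHyp R r p ϖ e F1 Rat) (HP : LcgPlace p F1 Rat P) {i : ℕ}
    (hi : (p - 1) * i < p * e) (g : R.O) (s₁ : ℕ) (hs₁ : p * s₁ ≤ i) :
    ∀ t s : ℕ, 1 ≤ s → s ≤ s₁ → s₁ ≤ s + t → ∀ h G : R.O, (h : F) ∈ F1 → (G : F) ∈ F1 →
      h = 1 + lcgC R ϖ ^ s * G →
      LcgPole r P (((1 + lcgC R ϖ ^ i * g) * h ^ p : R.O) : F) →
      ∃ h' G' : R.O, (h' : F) ∈ F1 ∧ (G' : F) ∈ F1 ∧ h' = 1 + lcgC R ϖ ^ s₁ * G' ∧
        LcgPole r P (((1 + lcgC R ϖ ^ i * g) * h' ^ p : R.O) : F) := by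
  obtain ⟨ε, hε⟩ := H.natCast_eq
  have hp := H.prime
  intro t
  induction t with
  | zero =>
    intro s hs hss₁ hst h G hh1 hG1 hhG hpole
    have : s = s₁ := by omega
    subst this
    exact ⟨h, G, hh1, hG1, hhG, hpole⟩
  | succ t ih =>
    intro s hs hss₁ hst h G hh1 hG1 hhG hpole
    by_cases hs1 : s = s₁
    · subst hs1
      exact ⟨h, G, hh1, hG1, hhG, hpole⟩
    have hlt : s < s₁ := lt_of_le_of_ne hss₁ hs1
    have hps' : p * s + 1 ≤ i := by
      have h1 : p * (s + 1) ≤ p * s₁ := Nat.mul_le_mul_left _ hlt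
      have h2 : p * (s + 1) = p * s + p := by ring
      have := hp.one_lt
      omega
    have hlow2 : p * s + 1 ≤ e + s := lcg_arith_mid hp hi (by omega)
    obtain ⟨ρ, hρ⟩ := lcg_ring_low hp (lcgC R ϖ) ε e hε s i hps' hlow2 G g
    have hyred : R.red (G ^ p + lcgC R ϖ * ρ) = R.red G ^ p := by
      rw [map_add, map_pow, map_mul, H.red_ϖ, zero_mul, add_zero]
    have hypole : LcgPole r P ((G ^ p + lcgC R ϖ * ρ : R.O) : F) := by
      have h1 : ((1 + lcgC R ϖ ^ i * g) * h ^ p : R.O)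
          = 1 + lcgC R ϖ ^ (p * s) * (G ^ p + lcgC R ϖ * ρ) := by
        rw [hhG, hρ]
      have h2 : ((G ^ p + lcgC R ϖ * ρ : R.O) : F) = algebraMap K F (((ϖ : K) ^ (p * s))⁻¹) *
          ((((1 + lcgC R ϖ ^ i * g) * h ^ p : R.O) : F) - 1) := by
        rw [h1, lcg_coe_one_add, add_sub_cancel_left, ← mul_assoc, ← map_mul,
          inv_mul_cancel₀ (pow_ne_zero _ H.ϖ_ne), map_one, one_mul]
      rw [h2]
      exact lcgPole_const_mul _ (lcgPole_sub hpole lcgPole_one)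
    obtain ⟨m, hm⟩ := lcgPole_red H.isPlaceRed _ hypole
    rw [hyred] at hm
    have hGm := lcg_root_mem hp.pos m hm
    have hdeg : 2 * (genusFF K F : ℤ) - 2 <
        Divisor.degree ((m + 2 * genusFF K F) • Finsupp.single P (1 : ℤ)) := by
      rw [map_nsmul, degree_single_one]
      simp only [nsmul_eq_mul, mul_one]
      push_cast
      omega
    have hGmem : R.red G ∈ riemannRochSpace (K := k)
        (Finsupp.mapDomain r ((m + 2 * genusFF K F) • Finsupp.single P (1 : ℤ))) := by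
      rw [Finsupp.mapDomain_smul, Finsupp.mapDomain_single]
      refine riemannRochSpace_mono ?_ hGm
      rw [add_smul]
      exact le_add_of_nonneg_right (cxa_nsmul_single_nonneg _ _)
    obtain ⟨Y, hY1, hYmem, hYred⟩ := H.lift _ (HP.rat_single (m + 2 * genusFF K F)) hdeg _ hGmem
    have hured : R.red (1 + lcgC R ϖ ^ s * Y) = 1 := lcg_red_one_add H hs Y
    obtain ⟨v, hvu, hvF⟩ := lcg_exists_inv R (1 + lcgC R ϖ ^ s * Y) hured
    have hGY1 : ((G - Y : R.O) : F) ∈ F1 := F1.sub_mem hG1 hY1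
    have hGYred : R.red (G - Y) = 0 := by rw [map_sub, hYred, sub_self]
    obtain ⟨G'', hG''1, hG''⟩ := H.exists_eq_mul (G - Y) hGY1 hGYred
    have hu1 : ((1 + lcgC R ϖ ^ s * Y : R.O) : F) ∈ F1 := by
      rw [lcg_coe_one_add, map_pow]
      exact F1.add_mem F1.one_mem (F1.mul_mem (F1.pow_mem H.ϖ_mem_F1 s) hY1)
    have hv1 : (v : F) ∈ F1 := by rw [hvF]; exact F1.inv_mem hu1
    have hh' : h * v = 1 + lcgC R ϖ ^ (s + 1) * (G'' * v) := by
      have e1 : h = (1 + lcgC R ϖ ^ s * Y) + lcgC R ϖ ^ (s + 1) * G'' := by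
        have : G = Y + lcgC R ϖ * G'' := by rw [← hG'']; ring
        rw [hhG, this]
        ring
      calc h * v = (1 + lcgC R ϖ ^ s * Y) * v + lcgC R ϖ ^ (s + 1) * G'' * v := by
            rw [← add_mul, ← e1]
        _ = v * (1 + lcgC R ϖ ^ s * Y) + lcgC R ϖ ^ (s + 1) * (G'' * v) := by ring
        _ = 1 + lcgC R ϖ ^ (s + 1) * (G'' * v) := by rw [hvu]
    have hpole' : LcgPole r P (((1 + lcgC R ϖ ^ i * g) * (h * v) ^ p : R.O) : F) := by
      have e1 : ((1 + lcgC R ϖ ^ i * g) * (h * v) ^ p : R.O)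
          = ((1 + lcgC R ϖ ^ i * g) * h ^ p) * v ^ p := by ring
      rw [e1]
      have hupole : LcgPole r P ((1 + lcgC R ϖ ^ s * Y : R.O) : F) := by
        rw [lcg_coe_one_add]
        exact lcgPole_add lcgPole_one (lcgPole_const_mul _ (lcgPole_of_mem _ hYmem))
      have hvpole : LcgPole r P (v : F) := by
        rw [hvF]
        exact lcgPole_inv H.isPlaceRed _ hured hupole
      exact lcgPole_mul hpole (lcgPole_pow hvpole p)
    exact ih (s + 1) (by omega) (by omega) (by omega) (h * v) (G'' * v) (F1.mul_mem hh1 hv1)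
      (F1.mul_mem hG''1 hv1) hh' hpole'

/-- the first auxiliary function: a rational one-unit `s₁` with `(1 + ϖ ^ i g) s₁ ^ p` regular
outside `P` -/
theorem lcg_first (H : LcgHyp R r p ϖ e F1 Rat) (HP : LcgPlace p F1 Rat P) {i : ℕ}
    (hi1 : 1 ≤ i) (g : R.O) (hg1 : (g : F) ∈ F1) (D₀ : Divisor K F)
    (hD₀ : divOf (K := K) ((1 + lcgC R ϖ ^ i * g : R.O) : F) = p • D₀) :
    ∃ s₁ G₀ : R.O, (s₁ : F) ∈ F1 ∧ (G₀ : F) ∈ F1 ∧ s₁ = 1 + lcgC R ϖ ^ 1 * G₀ ∧
      LcgPole r P (((1 + lcgC R ϖ ^ i * g) * s₁ ^ p : R.O) : F) := by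
  have hp := H.prime
  have hfred : R.red (1 + lcgC R ϖ ^ i * g) = 1 := lcg_red_one_add H hi1 g
  have hf0 : ((1 + lcgC R ϖ ^ i * g : R.O) : F) ≠ 0 := by
    intro h
    have h' : (1 + lcgC R ϖ ^ i * g : R.O) = 0 := Subtype.ext h
    rw [h', map_zero] at hfred
    exact zero_ne_one hfred
  have hf1 : ((1 + lcgC R ϖ ^ i * g : R.O) : F) ∈ F1 := by
    rw [lcg_coe_one_add, map_pow]
    exact F1.add_mem F1.one_mem (F1.mul_mem (F1.pow_mem H.ϖ_mem_F1 i) hg1)
  have hdiv1 : divOf (K := k) (1 : Fk) = 0 := by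
    have := cxa_divOf_const (K := k) (F := Fk) (1 : k)
    rwa [map_one] at this
  have hdeg0 : Divisor.degree D₀ = 0 := by
    have h1 : Divisor.degree (p • D₀) = 0 := by rw [← hD₀, degree_divOf]
    rw [map_nsmul, smul_eq_zero] at h1
    exact h1.resolve_left hp.ne_zero
  have hr0 : Finsupp.mapDomain r D₀ = 0 := by
    have h1 : Finsupp.mapDomain r (p • D₀) = 0 := by
      rw [← hD₀, H.isPlaceRed.mapDomain_divOf _ (by rw [hfred]; exact one_ne_zero), hfred,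
        hdiv1]
    rw [Finsupp.mapDomain_smul, smul_eq_zero] at h1
    exact h1.resolve_left hp.ne_zero
  have hdeg : 2 * (genusFF K F : ℤ) - 2 <
      Divisor.degree (D₀ + (2 * genusFF K F) • Finsupp.single P (1 : ℤ)) := by
    rw [map_add, hdeg0, map_nsmul, degree_single_one]
    simp only [nsmul_eq_mul, mul_one]
    push_cast
    omega
  have h1mem : (1 : Fk) ∈ riemannRochSpace (K := k)
      (Finsupp.mapDomain r (D₀ + (2 * genusFF K F) • Finsupp.single P (1 : ℤ))) := by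
    rw [Finsupp.mapDomain_add, hr0, zero_add, Finsupp.mapDomain_smul, Finsupp.mapDomain_single]
    exact cxa_one_mem (cxa_nsmul_single_nonneg _ _)
  obtain ⟨s₁, hs1, hsmem, hsred⟩ := H.lift _ (HP.rat_div _ hf1 hf0 D₀ hD₀ (2 * genusFF K F))
    hdeg _ h1mem
  have hs0 : (s₁ : F) ≠ 0 := by
    intro h
    have h' : s₁ = 0 := Subtype.ext h
    rw [h', map_zero] at hsred
    exact zero_ne_one hsred
  obtain ⟨G₀, hG₀1, hG₀⟩ := H.exists_eq_mul (s₁ - 1) (F1.sub_mem hs1 F1.one_mem)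
    (by rw [map_sub, hsred, map_one, sub_self])
  have hsG : s₁ = 1 + lcgC R ϖ ^ 1 * G₀ := by
    rw [pow_one, ← hG₀]
    ring
  refine ⟨s₁, G₀, hs1, hG₀1, hsG, ?_⟩
  refine lcgPole_of_mem (p * (2 * genusFF K F)) ?_
  have hne : (((1 + lcgC R ϖ ^ i * g) * s₁ ^ p : R.O) : F) ≠ 0 :=
    mul_ne_zero hf0 (pow_ne_zero p hs0)
  rw [mem_riemannRochSpace_iff_divOf hne]
  have h1 : 0 ≤ (D₀ + (2 * genusFF K F) • Finsupp.single P (1 : ℤ)) + divOf (K := K) (s₁ : F) :=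
    (mem_riemannRochSpace_iff_divOf hs0 _).mp hsmem
  have h2 : divOf (K := K) (((1 + lcgC R ϖ ^ i * g) * s₁ ^ p : R.O) : F)
      = p • D₀ + p • divOf (K := K) (s₁ : F) := by
    show divOf (K := K) (((1 + lcgC R ϖ ^ i * g : R.O) : F) * (s₁ : F) ^ p) = _
    rw [cxa_divOf_mul hf0 (pow_ne_zero p hs0), hD₀, cxa_divOf_pow]
  rw [h2]
  have h3 : (p * (2 * genusFF K F)) • Finsupp.single P (1 : ℤ)
      + (p • D₀ + p • divOf (K := K) (s₁ : F))
      = p • ((D₀ + (2 * genusFF K F) • Finsupp.single P (1 : ℤ)) + divOf (K := K) (s₁ : F)) := by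
    rw [smul_add, smul_add, mul_smul]
    abel
  rw [h3]
  exact nsmul_nonneg h1 p


/-- constants lie in every `L(m Q)` -/
theorem lcg_const_mem {Q : Place k Fk} (m : ℕ) (c : k) :
    algebraMap k Fk c ∈ riemannRochSpace (K := k) (m • Finsupp.single Q (1 : ℤ)) := by
  have h1 : (1 : Fk) ∈ riemannRochSpace (K := k) (m • Finsupp.single Q (1 : ℤ)) :=
    cxa_one_mem (cxa_nsmul_single_nonneg _ _)
  have h2 := Submodule.smul_mem _ c h1
  rwa [Algebra.smul_def, mul_one] at h2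

set_option maxHeartbeats 1600000 in
/-- **(L2), in the unit ball**: at a level `i = p s₀ ≥ 1` below `v*`, a leading term in
`Fk ^ p + k` is absorbed by the `p`-th power of a rational one-unit: the level is `i + 1` -/
theorem lcg_absorb_core (H : LcgHyp R r p ϖ e F1 Rat) (HP : LcgPlace p F1 Rat P) {i s₀ : ℕ}
    (hs₀ : 1 ≤ s₀) (his : i = p * s₀) (hi : (p - 1) * i < p * e) (g : R.O)
    (hg1 : (g : F) ∈ F1) (D₀ : Divisor K F)
    (hD₀ : divOf (K := K) ((1 + lcgC R ϖ ^ i * g : R.O) : F) = p • D₀)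
    (ψ : Fk) (c : k) (hψ : R.red g = ψ ^ p + algebraMap k Fk c) :
    ∃ (a : A) (h g' : R.O), algebraMap K F (a : K) ∈ F1 ∧ (h : F) ∈ F1 ∧ R.red h = 1 ∧
      (g' : F) ∈ F1 ∧
      (1 + lcgC R ϖ ^ i * g) * h ^ p
        = (1 + lcgC R ϖ ^ i * lcgC R a) * (1 + lcgC R ϖ ^ (i + 1) * g') := by
  have hp := H.prime
  obtain ⟨ε, hε⟩ := H.natCast_eq
  have hi1 : 1 ≤ i := by
    rw [his]
    exact Nat.one_le_iff_ne_zero.mpr (Nat.mul_ne_zero hp.ne_zero (by omega))
  have he : 1 ≤ e := by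
    rcases Nat.eq_zero_or_pos e with h | h
    · rw [h, mul_zero] at hi
      exact absurd hi (Nat.not_lt_zero _)
    · exact h
  have hmid : p * s₀ + 1 ≤ e + s₀ := lcg_arith_mid hp hi (le_of_eq his.symm)
  -- the normalised auxiliary function of level `s₀`
  obtain ⟨s₁, G₀, hs₁1, hG₀1, hs₁G, hpole0⟩ := lcg_first H HP hi1 g hg1 D₀ hD₀
  obtain ⟨h, G, hh1, hG1, hhG, hpole⟩ := lcg_loop_low H HP hi g s₀ (le_of_eq his.symm)
    s₀ 1 le_rfl hs₀ (by omega) s₁ G₀ hs₁1 hG₀1 hs₁G hpole0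
  -- the leading term of `f h ^ p`
  obtain ⟨ρ₁, hρ₁⟩ := lcg_ring_mid hp (lcgC R ϖ) ε e hε s₀ hmid G
  rw [← his] at hρ₁
  set g₁ : R.O := g + (G ^ p + lcgC R ϖ * ρ₁) * (1 + lcgC R ϖ ^ i * g) with hg₁
  have hfh : (1 + lcgC R ϖ ^ i * g) * h ^ p = 1 + lcgC R ϖ ^ i * g₁ := by
    rw [hhG, hρ₁, hg₁]
    ring
  have hg₁red : R.red g₁ = R.red g + R.red G ^ p := by
    rw [hg₁, map_add, map_mul, map_add, map_pow, map_mul, H.red_ϖ, zero_mul, add_zero,
      lcg_red_one_add H hi1 g, mul_one]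
  have key : ∀ x : F, x = algebraMap K F (((ϖ : K) ^ i)⁻¹) *
      (algebraMap K F ((ϖ : K) ^ i) * x) := fun x => by
    rw [← mul_assoc, ← map_mul, inv_mul_cancel₀ (pow_ne_zero _ H.ϖ_ne), map_one, one_mul]
  have hg₁pole : LcgPole r P (g₁ : F) := by
    have e2 : (g₁ : F) = algebraMap K F (((ϖ : K) ^ i)⁻¹) *
        ((((1 + lcgC R ϖ ^ i * g) * h ^ p : R.O) : F) - 1) := by
      rw [hfh, lcg_coe_one_add, add_sub_cancel_left]
      exact key _
    rw [e2]
    exact lcgPole_const_mul _ (lcgPole_sub hpole lcgPole_one)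
  obtain ⟨m, hm⟩ := lcgPole_red H.isPlaceRed _ hg₁pole
  -- the `p`-th root `ψ + red G` has its poles at `r P`
  have hroot : (ψ + R.red G) ^ p = R.red g₁ - algebraMap k Fk c := by
    rw [H.add_pow_Fk he, hg₁red, hψ]
    ring
  have hrootmem : ψ + R.red G ∈ riemannRochSpace (K := k) (m • Finsupp.single (r P) (1 : ℤ)) := by
    apply lcg_root_mem hp.pos m
    rw [hroot]
    exact Submodule.sub_mem _ hm (lcg_const_mem m c)
  have hdeg : 2 * (genusFF K F : ℤ) - 2 <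
      Divisor.degree ((m + 2 * genusFF K F) • Finsupp.single P (1 : ℤ)) := by
    rw [map_nsmul, degree_single_one]
    simp only [nsmul_eq_mul, mul_one]
    push_cast
    omega
  have hYmem' : ψ + R.red G ∈ riemannRochSpace (K := k)
      (Finsupp.mapDomain r ((m + 2 * genusFF K F) • Finsupp.single P (1 : ℤ))) := by
    rw [Finsupp.mapDomain_smul, Finsupp.mapDomain_single]
    refine riemannRochSpace_mono ?_ hrootmem
    rw [add_smul]
    exact le_add_of_nonneg_right (cxa_nsmul_single_nonneg _ _)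
  obtain ⟨Y, hY1, hYmem, hYred⟩ := H.lift _ (HP.rat_single (m + 2 * genusFF K F)) hdeg _ hYmem'
  -- divide by `(1 + ϖ ^ s₀ Y) ^ p`
  have hured : R.red (1 + lcgC R ϖ ^ s₀ * Y) = 1 := lcg_red_one_add H hs₀ Y
  obtain ⟨v, hvu, hvF⟩ := lcg_exists_inv R (1 + lcgC R ϖ ^ s₀ * Y) hured
  have hvred : R.red v = 1 := by
    have := congrArg R.red hvu
    rwa [map_mul, hured, mul_one, map_one] at this
  have hu1 : ((1 + lcgC R ϖ ^ s₀ * Y : R.O) : F) ∈ F1 := by
    rw [lcg_coe_one_add, map_pow]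
    exact F1.add_mem F1.one_mem (F1.mul_mem (F1.pow_mem H.ϖ_mem_F1 s₀) hY1)
  have hv1 : (v : F) ∈ F1 := by rw [hvF]; exact F1.inv_mem hu1
  obtain ⟨ρ₂, hρ₂⟩ := lcg_ring_mid hp (lcgC R ϖ) ε e hε s₀ hmid Y
  rw [← his] at hρ₂
  set g₂ : R.O := (g₁ - Y ^ p - lcgC R ϖ * ρ₂) * v ^ p with hg₂
  have hvp : v ^ p * (1 + lcgC R ϖ ^ i * (Y ^ p + lcgC R ϖ * ρ₂)) = 1 := by
    rw [← hρ₂, ← mul_pow, hvu, one_pow]
  have hfh₂ : (1 + lcgC R ϖ ^ i * g) * (h * v) ^ p = 1 + lcgC R ϖ ^ i * g₂ := by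
    have e1 : (1 + lcgC R ϖ ^ i * g) * (h * v) ^ p
        = ((1 + lcgC R ϖ ^ i * g) * h ^ p) * v ^ p := by ring
    rw [e1, hfh, hg₂]
    calc (1 + lcgC R ϖ ^ i * g₁) * v ^ p
        = v ^ p * (1 + lcgC R ϖ ^ i * (Y ^ p + lcgC R ϖ * ρ₂))
          + lcgC R ϖ ^ i * ((g₁ - Y ^ p - lcgC R ϖ * ρ₂) * v ^ p) := by ring
      _ = 1 + lcgC R ϖ ^ i * ((g₁ - Y ^ p - lcgC R ϖ * ρ₂) * v ^ p) := by rw [hvp]
  have hg₂red : R.red g₂ = algebraMap k Fk c := by
    rw [hg₂, map_mul, map_pow, hvred, one_pow, mul_one, map_sub, map_sub, map_mul, H.red_ϖ,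
      zero_mul, sub_zero, map_pow, hYred, hroot]
    ring
  have hhv1 : ((h * v : R.O) : F) ∈ F1 := F1.mul_mem hh1 hv1
  have hg₂1 : (g₂ : F) ∈ F1 := by
    have e2 : (g₂ : F) = algebraMap K F (((ϖ : K) ^ i)⁻¹) *
        ((((1 + lcgC R ϖ ^ i * g) * (h * v) ^ p : R.O) : F) - 1) := by
      rw [hfh₂, lcg_coe_one_add, add_sub_cancel_left]
      exact key _
    rw [e2]
    refine F1.mul_mem ?_ (F1.sub_mem ?_ F1.one_mem)
    · rw [map_inv₀, map_pow]
      exact F1.inv_mem (F1.pow_mem H.ϖ_mem_F1 i)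
    · show ((1 + lcgC R ϖ ^ i * g : R.O) : F) * ((h * v : R.O) : F) ^ p ∈ F1
      refine F1.mul_mem ?_ (F1.pow_mem hhv1 p)
      rw [lcg_coe_one_add, map_pow]
      exact F1.add_mem F1.one_mem (F1.mul_mem (F1.pow_mem H.ϖ_mem_F1 i) hg1)
  -- absorb the constant
  obtain ⟨a, ha, ha1⟩ := H.res1 c
  have hred : R.red (g₂ - lcgC R a) = 0 := by
    rw [map_sub, red_lcgC, ha, hg₂red, sub_self]
  obtain ⟨g₃, hg₃1, hg₃⟩ := H.exists_eq_mul (g₂ - lcgC R a) (F1.sub_mem hg₂1 ha1) hred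
  have hwred : R.red (1 + lcgC R ϖ ^ i * lcgC R a) = 1 := lcg_red_one_add H hi1 _
  obtain ⟨v', hv'u, hv'F⟩ := lcg_exists_inv R _ hwred
  have hw1 : ((1 + lcgC R ϖ ^ i * lcgC R a : R.O) : F) ∈ F1 := by
    rw [lcg_coe_one_add, map_pow]
    exact F1.add_mem F1.one_mem (F1.mul_mem (F1.pow_mem H.ϖ_mem_F1 i) ha1)
  have hv'1 : (v' : F) ∈ F1 := by rw [hv'F]; exact F1.inv_mem hw1
  have hhvred : R.red (h * v) = 1 := by
    rw [map_mul, hvred, mul_one, hhG]
    exact lcg_red_one_add H hs₀ G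
  refine ⟨a, h * v, g₃ * v', ha1, hhv1, hhvred, F1.mul_mem hg₃1 hv'1, ?_⟩
  have e1 : g₂ = lcgC R a + lcgC R ϖ * g₃ := by rw [← hg₃]; ring
  rw [hfh₂]
  calc 1 + lcgC R ϖ ^ i * g₂
      = (1 + lcgC R ϖ ^ i * lcgC R a) + lcgC R ϖ ^ (i + 1) * g₃ := by rw [e1, pow_succ]; ring
    _ = (1 + lcgC R ϖ ^ i * lcgC R a) + lcgC R ϖ ^ (i + 1) * g₃ *
          (v' * (1 + lcgC R ϖ ^ i * lcgC R a)) := by rw [hv'u, mul_one]
    _ = _ := by ring

end Loop2

end Fermat.Agent.S33lib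

end
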