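import Mathlib
import Fermat.Agent.S33lib.LocGen2
import Fermat.Agent.S33lib.RayAbs

/-!
# Item 86 (S33), piece LOCGEN, part 3 (helper18): wrappers and the abstract level induction (LEV)

* `lcgPlace_of_fixed`, `lcgHyp_of_ray` : the structures `LcgPlace`, `LcgHyp` of `LocGen.lean` from
  hypotheses in the shape of `ray_abs` (rationality = invariance under a set `G` of semilinear
  automorphisms);
* `LcgKum`, `lcgLev` : abstract Kummer functions of classes and the rational level of a class;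
* `lcgLev_succ_of_not_dvd` (L1), `lcgLev_succ_of_pow` (L2), `lcgLev_succ` (both);
* `lcg_lev_induction`, `lcg_lev_main` (L4): if `T` is surjective on `X`, every class of `X` has
  level `≥ 1`, and `T` maps a level-`j` Kummer function to a level-`j` Kummer function with
  leading term in `Fk ^ p + k`, then every class of `X` has level `≥ v*`.
-/

set_option autoImplicit false
set_option linter.unusedSectionVars false
set_option linter.unusedVariables false

noncomputable section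

namespace Fermat.Agent.S33lib

open AlgebraicCurve Fermat.Agent.RRlib Fermat.Agent.GoodRed Fermat.Agent.S18lib

variable {K F k Fk : Type*} [Field K] [Field F] [Algebra K F] [Field k] [Field Fk] [Algebra k Fk]
variable {A : ValuationSubring K} {π : A →+* k}

/-! ### wrappers -/

section Wrap

/-- a place fixed by `G` is rational for the `G`-invariant divisors -/
theorem lcgPlace_of_fixed [RRBase K F] {p : ℕ} (hp : p ≠ 0) {F1 : Subfield F}
    (G : Set (SemilinearAut K F)) (hF1 : ∀ x ∈ F1, ∀ g ∈ G, g • x = x)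
    {P : Place K F} (hP : ∀ g ∈ G, g • P = P) :
    LcgPlace p F1 (fun D : Divisor K F => ∀ g ∈ G, g • D = D) P where
  rat_single n g hg := by
    rw [ray_smul_nsmul, SemilinearAut.smul_single, hP g hg]
  rat_div f hf1 hf0 D hD n g hg := by
    have h1 : p • (g • D) = p • D := by
      rw [← ray_smul_nsmul, ← hD, ← ray_divOf_smul, hF1 f hf1 g hg]
    rw [smul_add, ray_nsmul_cancel hp h1, ray_smul_nsmul, SemilinearAut.smul_single, hP g hg]

/-- `LcgHyp` from hypotheses in the shape of `ray_abs` -/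
theorem lcgHyp_of_ray [RRHyp K F] [RRHyp k Fk] (R : ConstRed A π Fk F)
    {r : Place K F → Place k Fk} (hr : R.IsPlaceRed r) {p : ℕ} (hp : p.Prime)
    {lam : K} (hlam0 : lam ≠ 0) (hlamA : lam ∈ A.nonunits) {e : ℕ}
    (hpe : ∃ ε ∈ A, (p : K) = lam ^ e * ε) (F1 : Subfield F)
    (G : Set (SemilinearAut K F)) (hlam1 : algebraMap K F lam ∈ F1)
    (hdisc : ∀ f ∈ F1, f ≠ 0 → ∃ n : ℤ,
      algebraMap K F (lam ^ n) * f ∈ R.O ∧ (algebraMap K F (lam ^ n) * f)⁻¹ ∈ R.O)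
    (hres1 : ∀ c : k, ∃ a : A, π a = c ∧ algebraMap K F (a : K) ∈ F1)
    (hlift : ∀ D : Divisor K F, (∀ g ∈ G, g • D = D) →
      2 * (genusFF K F : ℤ) - 2 < Divisor.degree D →
      ∀ w ∈ riemannRochSpace (K := k) (Finsupp.mapDomain r D),
        ∃ s : R.O, (s : F) ∈ F1 ∧ (s : F) ∈ riemannRochSpace (K := K) D ∧ R.red s = w) :
    LcgHyp R r p (⟨lam, A.nonunits_subset hlamA⟩ : A) e F1
      (fun D : Divisor K F => ∀ g ∈ G, g • D = D) where
  isPlaceRed := hr
  prime := hp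
  ϖ_ne := hlam0
  ϖ_mem := hlamA
  p_eq := by
    obtain ⟨ε, hε, h⟩ := hpe
    refine ⟨⟨ε, hε⟩, Subtype.ext ?_⟩
    simpa using h
  ϖ_mem_F1 := hlam1
  disc := hdisc
  res1 := hres1
  lift := hlift

end Wrap

/-! ### abstract Kummer functions and levels -/

section Lev

variable {α : Type*}

/-- abstract Kummer functions: `Kum x f` is "`f` is a Kummer function of the class `x`".
The divisor of a Kummer function is divisible by `p`, and Kummer functions may be changed by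
rational constants and by `p`-th powers of rational functions. -/
structure LcgKum [RRBase K F] (p : ℕ) (F1 : Subfield F) (Kum : α → F → Prop) : Prop where
  div : ∀ x f, Kum x f → ∃ D : Divisor K F, divOf (K := K) f = p • D
  mul : ∀ x f, Kum x f → ∀ (c : K) (s : F), c ≠ 0 → algebraMap K F c ∈ F1 → s ≠ 0 → s ∈ F1 →
    Kum x (algebraMap K F c * s ^ p * f)

/-- the class `x` has rational level `≥ j`: it has a Kummer function `1 + ϖ ^ j g` with
`g` rational and integral -/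
def lcgLev (R : ConstRed A π Fk F) (ϖ : A) (F1 : Subfield F) (Kum : α → F → Prop) (j : ℕ)
    (x : α) : Prop :=
  ∃ g : R.O, (g : F) ∈ F1 ∧ Kum x ((1 + lcgC R ϖ ^ j * g : R.O) : F)

variable [RRHyp K F] [RRHyp k Fk] {R : ConstRed A π Fk F} {r : Place K F → Place k Fk}
  {p : ℕ} {ϖ : A} {e : ℕ} {F1 : Subfield F} {Rat : Divisor K F → Prop} {P Q : Place K F}
  {Kum : α → F → Prop}

/-- a function with reduction `1` is not zero -/
theorem lcg_ne_zero_of_red (R : ConstRed A π Fk F) (u : R.O) (hu : R.red u = 1) :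
    (u : F) ≠ 0 := by
  intro h
  have h' : u = 0 := Subtype.ext h
  rw [h', map_zero] at hu
  exact zero_ne_one hu

/-- the transfer of a Kummer function along a factorisation
`f h ^ p = (1 + ϖ ^ i a) (1 + ϖ ^ (i + 1) g')` -/
theorem lcg_kum_of_factor (H : LcgHyp R r p ϖ e F1 Rat) (HK : LcgKum (K := K) p F1 Kum)
    {i : ℕ} (hi1 : 1 ≤ i) (x : α) (f h g' : R.O) (a : A) (hf : Kum x (f : F))
    (ha1 : algebraMap K F (a : K) ∈ F1) (hh1 : (h : F) ∈ F1) (hhred : R.red h = 1)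
    (hfac : f * h ^ p = (1 + lcgC R ϖ ^ i * lcgC R a) * (1 + lcgC R ϖ ^ (i + 1) * g')) :
    Kum x ((1 + lcgC R ϖ ^ (i + 1) * g' : R.O) : F) := by
  have hh0 : (h : F) ≠ 0 := lcg_ne_zero_of_red R h hhred
  -- the constant `1 + ϖ ^ i a`
  set c : K := 1 + (ϖ : K) ^ i * (a : K) with hc
  have hcF : algebraMap K F c = ((1 + lcgC R ϖ ^ i * lcgC R a : R.O) : F) := by
    rw [lcg_coe_one_add, hc, map_add, map_one, map_mul, coe_lcgC]
  have hcred : R.red (1 + lcgC R ϖ ^ i * lcgC R a) = 1 := lcg_red_one_add H hi1 _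
  have hcF0 : algebraMap K F c ≠ 0 := by
    rw [hcF]
    exact lcg_ne_zero_of_red R _ hcred
  have hc0 : c ≠ 0 := by
    intro h0
    rw [h0, map_zero] at hcF0
    exact hcF0 rfl
  have hc1 : algebraMap K F c ∈ F1 := by
    rw [hc, map_add, map_one, map_mul, map_pow]
    exact F1.add_mem F1.one_mem (F1.mul_mem (F1.pow_mem H.ϖ_mem_F1 i) ha1)
  have hcinv1 : algebraMap K F c⁻¹ ∈ F1 := by
    rw [map_inv₀]
    exact F1.inv_mem hc1
  have h1 := HK.mul x (f : F) hf c⁻¹ (h : F) (inv_ne_zero hc0) hcinv1 hh0 hh1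
  have h2 : algebraMap K F c⁻¹ * (h : F) ^ p * (f : F)
      = ((1 + lcgC R ϖ ^ (i + 1) * g' : R.O) : F) := by
    have h3 : (f : F) * (h : F) ^ p
        = algebraMap K F c * ((1 + lcgC R ϖ ^ (i + 1) * g' : R.O) : F) := by
      rw [hcF]
      exact congrArg (fun z : R.O => (z : F)) hfac
    rw [map_inv₀]
    calc (algebraMap K F c)⁻¹ * (h : F) ^ p * (f : F)
        = (algebraMap K F c)⁻¹ * ((f : F) * (h : F) ^ p) := by ring
      _ = _ := by rw [h3, inv_mul_cancel_left₀ hcF0]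
  rwa [h2] at h1

/-- **(L1)** for classes: below `v*`, a level prime to `p` is improved -/
theorem lcgLev_succ_of_not_dvd (H : LcgHyp R r p ϖ e F1 Rat) (HP : LcgPlace p F1 Rat P)
    (HQ : LcgPlace p F1 Rat Q) (hPQ : r P ≠ r Q) (HK : LcgKum (K := K) p F1 Kum) {i : ℕ}
    (hi : (p - 1) * i < p * e) (hpi : ¬ p ∣ i) {x : α}
    (hx : lcgLev R ϖ F1 Kum i x) : lcgLev R ϖ F1 Kum (i + 1) x := by
  obtain ⟨g, hg1, hK⟩ := hx
  have hi1 : 1 ≤ i := by
    rcases Nat.eq_zero_or_pos i with h | h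
    · exact absurd (h ▸ dvd_zero p) hpi
    · exact h
  obtain ⟨D₀, hD₀⟩ := HK.div x _ hK
  obtain ⟨a, g', ha1, hg'1, hfac⟩ := lcg_improve_core H HP HQ hPQ hi hpi g hg1 D₀ hD₀
  refine ⟨g', hg'1, ?_⟩
  refine lcg_kum_of_factor H HK hi1 x (1 + lcgC R ϖ ^ i * g) 1 g' a hK ha1 F1.one_mem
    (map_one _) ?_
  rw [one_pow, mul_one, hfac]

/-- **(L2)** for classes: below `v*`, a Kummer function of level `i ≥ 1` divisible by `p` with
leading term in `Fk ^ p + k` is improved -/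
theorem lcgLev_succ_of_pow (H : LcgHyp R r p ϖ e F1 Rat) (HP : LcgPlace p F1 Rat P)
    (HK : LcgKum (K := K) p F1 Kum) {i : ℕ} (hi1 : 1 ≤ i)
    (hi : (p - 1) * i < p * e) (hpi : p ∣ i) {x : α} (g : R.O) (hg1 : (g : F) ∈ F1)
    (hK : Kum x ((1 + lcgC R ϖ ^ i * g : R.O) : F))
    (ψ : Fk) (c : k) (hψ : R.red g = ψ ^ p + algebraMap k Fk c) :
    lcgLev R ϖ F1 Kum (i + 1) x := by
  obtain ⟨s₀, hs₀⟩ := hpi
  have hs1 : 1 ≤ s₀ := by
    rcases Nat.eq_zero_or_pos s₀ with h | h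
    · rw [h, mul_zero] at hs₀
      omega
    · exact h
  obtain ⟨D₀, hD₀⟩ := HK.div x _ hK
  obtain ⟨a, h, g', ha1, hh1, hhred, hg'1, hfac⟩ :=
    lcg_absorb_core H HP hs1 hs₀ hi g hg1 D₀ hD₀ ψ c hψ
  exact ⟨g', hg'1, lcg_kum_of_factor H HK hi1 x _ h g' a hK ha1 hh1 hhred hfac⟩

/-- **(L1) + (L2)**: below `v*`, a Kummer function of level `i ≥ 1` with leading term in
`Fk ^ p + k` is improved (the hypothesis on the leading term is not used if `p ∤ i`) -/
theorem lcgLev_succ (H : LcgHyp R r p ϖ e F1 Rat) (HP : LcgPlace p F1 Rat P)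
    (HQ : LcgPlace p F1 Rat Q) (hPQ : r P ≠ r Q) (HK : LcgKum (K := K) p F1 Kum) {i : ℕ}
    (hi1 : 1 ≤ i) (hi : (p - 1) * i < p * e) {x : α} (g : R.O) (hg1 : (g : F) ∈ F1)
    (hK : Kum x ((1 + lcgC R ϖ ^ i * g : R.O) : F))
    (hψ : p ∣ i → ∃ (ψ : Fk) (c : k), R.red g = ψ ^ p + algebraMap k Fk c) :
    lcgLev R ϖ F1 Kum (i + 1) x := by
  by_cases hpi : p ∣ i
  · obtain ⟨ψ, c, h⟩ := hψ hpi
    exact lcgLev_succ_of_pow H HP HK hi1 hi hpi g hg1 hK ψ c h
  · exact lcgLev_succ_of_not_dvd H HP HQ hPQ HK hi hpi ⟨g, hg1, hK⟩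

/-- **(L4), the level induction**: if `T` is surjective on `X`, every class of `X` has level
`≥ 1`, and `T` maps a Kummer function of level `j` below `v*` of a class of `X` to a Kummer
function of level `j` whose leading term lies in `Fk ^ p + k` (only asked for if `p ∣ j`), then
every class of `X` has every level `N` with `(p - 1) (N - 1) < p e`. -/
theorem lcg_lev_induction (H : LcgHyp R r p ϖ e F1 Rat) (HP : LcgPlace p F1 Rat P)
    (HQ : LcgPlace p F1 Rat Q) (hPQ : r P ≠ r Q) (HK : LcgKum (K := K) p F1 Kum)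
    (X : Set α) (T : α → α) (hsurj : ∀ x ∈ X, ∃ y ∈ X, T y = x)
    (hbase : ∀ x ∈ X, lcgLev R ϖ F1 Kum 1 x)
    (hT : ∀ j : ℕ, 1 ≤ j → (p - 1) * j < p * e → ∀ y ∈ X, ∀ g : R.O, (g : F) ∈ F1 →
      Kum y ((1 + lcgC R ϖ ^ j * g : R.O) : F) →
      ∃ G : R.O, (G : F) ∈ F1 ∧ Kum (T y) ((1 + lcgC R ϖ ^ j * G : R.O) : F) ∧
        (p ∣ j → ∃ (ψ : Fk) (c : k), R.red G = ψ ^ p + algebraMap k Fk c)) :
    ∀ N : ℕ, (p - 1) * N < p * e → ∀ x ∈ X, lcgLev R ϖ F1 Kum (N + 1) x := by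
  have hp := H.prime
  have step : ∀ j : ℕ, 1 ≤ j → (p - 1) * j < p * e → (∀ x ∈ X, lcgLev R ϖ F1 Kum j x) →
      ∀ x ∈ X, lcgLev R ϖ F1 Kum (j + 1) x := by
    intro j hj1 hj hall x hx
    obtain ⟨y, hy, rfl⟩ := hsurj x hx
    obtain ⟨g, hg1, hK⟩ := hall y hy
    obtain ⟨G, hG1, hKT, hψ⟩ := hT j hj1 hj y hy g hg1 hK
    exact lcgLev_succ H HP HQ hPQ HK hj1 hj G hG1 hKT hψ
  intro N
  induction N with
  | zero => intro _ x hx; exact hbase x hx
  | succ N ih =>
    intro hN x hx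
    have hN' : (p - 1) * N < p * e := by
      have : (p - 1) * N ≤ (p - 1) * (N + 1) := Nat.mul_le_mul_left _ (Nat.le_succ N)
      omega
    exact step (N + 1) (by omega) hN (ih hN') x hx

/-- **(L4)**: every class of `X` has a rational Kummer function of a level `N ≥ v*`
(`p e ≤ (p - 1) N`) -/
theorem lcg_lev_main (H : LcgHyp R r p ϖ e F1 Rat) (HP : LcgPlace p F1 Rat P)
    (HQ : LcgPlace p F1 Rat Q) (hPQ : r P ≠ r Q) (HK : LcgKum (K := K) p F1 Kum)
    (X : Set α) (T : α → α) (hsurj : ∀ x ∈ X, ∃ y ∈ X, T y = x)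
    (hbase : ∀ x ∈ X, lcgLev R ϖ F1 Kum 1 x)
    (hT : ∀ j : ℕ, 1 ≤ j → (p - 1) * j < p * e → ∀ y ∈ X, ∀ g : R.O, (g : F) ∈ F1 →
      Kum y ((1 + lcgC R ϖ ^ j * g : R.O) : F) →
      ∃ G : R.O, (G : F) ∈ F1 ∧ Kum (T y) ((1 + lcgC R ϖ ^ j * G : R.O) : F) ∧
        (p ∣ j → ∃ (ψ : Fk) (c : k), R.red G = ψ ^ p + algebraMap k Fk c)) :
    ∃ N : ℕ, p * e ≤ (p - 1) * N ∧ ∀ x ∈ X, lcgLev R ϖ F1 Kum N x := by
  have hp := H.prime
  have hp1 : 1 ≤ p - 1 := by have := hp.two_le; omega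
  -- the least `N` with `p e ≤ (p - 1) N`
  have hex : ∃ N : ℕ, p * e ≤ (p - 1) * N :=
    ⟨p * e, Nat.le_mul_of_pos_left _ (by omega)⟩
  classical
  refine ⟨Nat.find hex, Nat.find_spec hex, ?_⟩
  rcases Nat.eq_zero_or_pos (Nat.find hex) with h0 | hpos
  · -- `e = 0`: level `0 ≤ 1`
    intro x hx
    obtain ⟨g, hg1, hK⟩ := hbase x hx
    rw [h0]
    refine ⟨lcgC R ϖ ^ 1 * g, ?_, ?_⟩
    · show ((lcgC R ϖ ^ 1 * g : R.O) : F) ∈ F1
      have : ((lcgC R ϖ ^ 1 * g : R.O) : F) = algebraMap K F (ϖ : K) ^ 1 * (g : F) := by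
        rw [pow_one, pow_one]
        rfl
      rw [this]
      exact F1.mul_mem (F1.pow_mem H.ϖ_mem_F1 1) hg1
    · have : (1 + lcgC R ϖ ^ 0 * (lcgC R ϖ ^ 1 * g) : R.O) = 1 + lcgC R ϖ ^ 1 * g := by
        rw [pow_zero, one_mul]
      rw [this]
      exact hK
  · obtain ⟨M, hM⟩ : ∃ M : ℕ, Nat.find hex = M + 1 := ⟨Nat.find hex - 1, by omega⟩
    have hlt : (p - 1) * M < p * e := by
      have := Nat.find_min hex (show M < Nat.find hex by omega)
      omega
    rw [hM]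
    exact lcg_lev_induction H HP HQ hPQ HK X T hsurj hbase hT M hlt


/-! ### complements for the assembly -/

omit [RRHyp K F] [RRHyp k Fk] in
/-- an injective self-map of a finite set is surjective on it -/
theorem lcg_surj_of_inj {X : Set α} (hX : X.Finite) (T : α → α) (hTX : ∀ x ∈ X, T x ∈ X)
    (hinj : ∀ x ∈ X, ∀ y ∈ X, T x = T y → x = y) : ∀ x ∈ X, ∃ y ∈ X, T y = x := by
  classical
  have hmaps : Set.MapsTo T (hX.toFinset : Set α) (hX.toFinset : Set α) := by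
    intro x hx
    rw [Set.Finite.coe_toFinset] at hx ⊢
    exact hTX x hx
  have hinjOn : Set.InjOn T (hX.toFinset : Set α) := by
    intro x hx y hy h
    rw [Set.Finite.coe_toFinset] at hx hy
    exact hinj x hx y hy h
  have hsurj := Finset.surjOn_of_injOn_of_card_le T hmaps hinjOn le_rfl
  intro x hx
  have hx' : x ∈ (hX.toFinset : Set α) := by rw [Set.Finite.coe_toFinset]; exact hx
  obtain ⟨y, hy, hyx⟩ := hsurj hx'
  rw [Set.Finite.coe_toFinset] at hy
  exact ⟨y, hy, hyx⟩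

end Lev

end Fermat.Agent.S33lib

end
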