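import Mathlib
import Fermat.Agent.S33lib.LocGen3

/-!
# Item 86 (S33), piece LOCGEN, part 4 (helper18): from the level `N ≥ v*` to `Deep`

* `lcg_dvd_of_le` : if `p = - lam ^ (p - 1) (1 + lam ε)` (`lam = ζ_p - 1`), `p = u ϖ ^ e` with a
  unit `u` and `p e ≤ (p - 1) N`, then `ϖ ^ N = lam ^ p b` with `b ∈ A`;
* `lcg_deep_of_lev` : a one-unit `1 + ϖ ^ N g` of such a level is `1 + lam ^ p g'`, `g' ∈ O`;
* `lcg_lev_one_of_red` : a rational function of the ball with reduction `1` is `1 + ϖ g` with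
  `g` rational and integral (the base of the level induction).
-/

set_option autoImplicit false
set_option linter.unusedSectionVars false
set_option linter.unusedVariables false

noncomputable section

namespace Fermat.Agent.S33lib

open AlgebraicCurve Fermat.Agent.RRlib Fermat.Agent.GoodRed Fermat.Agent.S18lib

variable {K F k Fk : Type*} [Field K] [Field F] [Algebra K F] [Field k] [Field Fk] [Algebra k Fk]
variable {A : ValuationSubring K} {π : A →+* k}

/-- the valuation of `1 + x` for `x` in the maximal ideal -/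
theorem lcg_val_one_add {x : K} (hx : x ∈ A.nonunits) : A.valuation (1 + x) = 1 := by
  have h1 : A.valuation x < 1 := (A.mem_nonunits_iff).mp hx
  have h2 := Valuation.map_one_add_of_lt (v := A.valuation) h1
  exact h2

/-- `ϖ ^ N ∈ lam ^ p A` if `p e ≤ (p - 1) N`, where `v(p) = v(lam ^ (p - 1)) = v(ϖ ^ e)` -/
theorem lcg_dvd_of_le {p : ℕ} (hp : p.Prime) {lam ϖ : K} (hlam0 : lam ≠ 0)
    (hlamA : lam ∈ A.nonunits) (hϖA : ϖ ∈ A)
    (hplam : ∃ ε ∈ A, (p : K) = -(lam ^ (p - 1)) * (1 + lam * ε))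
    {e : ℕ} (hpe : ∃ u : K, u ∈ A ∧ u⁻¹ ∈ A ∧ (p : K) = u * ϖ ^ e)
    {N : ℕ} (hN : p * e ≤ (p - 1) * N) :
    ∃ b ∈ A, ϖ ^ N = lam ^ p * b := by
  obtain ⟨ε, hε, h1⟩ := hplam
  obtain ⟨u, hu, hui, h2⟩ := hpe
  have hp1 : p - 1 ≠ 0 := by have := hp.two_le; omega
  set v := A.valuation with hv
  -- `v p = v lam ^ (p - 1)`
  have hlamε : lam * ε ∈ A.nonunits := by
    rw [A.mem_nonunits_iff, map_mul]
    have h3 : A.valuation lam < 1 := (A.mem_nonunits_iff).mp hlamA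
    have h4 : A.valuation ε ≤ 1 := (A.valuation_le_one_iff ε).mpr hε
    calc A.valuation lam * A.valuation ε ≤ A.valuation lam * 1 := mul_le_mul_right h4 _
      _ = A.valuation lam := mul_one _
      _ < 1 := h3
  have hvp1 : v (p : K) = v lam ^ (p - 1) := by
    rw [h1, map_mul, Valuation.map_neg, map_pow, hv, lcg_val_one_add hlamε, mul_one]
  -- `v u = 1`
  have hvu : v u = 1 := by
    have h3 : v u ≤ 1 := (A.valuation_le_one_iff u).mpr hu
    have h4 : v u⁻¹ ≤ 1 := (A.valuation_le_one_iff u⁻¹).mpr hui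
    have hu0 : u ≠ 0 := by
      rintro rfl
      rw [zero_mul] at h2
      have hp0 : (p : K) ≠ 0 := by
        rw [h1]
        refine mul_ne_zero (neg_ne_zero.mpr (pow_ne_zero _ hlam0)) ?_
        intro h0
        have := lcg_val_one_add hlamε
        rw [h0, map_zero] at this
        exact zero_ne_one this
      exact hp0 h2
    rw [map_inv₀] at h4
    have h5 : v u ≠ 0 := (Valuation.ne_zero_iff _).mpr hu0
    exact le_antisymm h3 ((inv_le_one₀ (zero_lt_iff.mpr h5)).mp h4)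
  have hvp2 : v (p : K) = v ϖ ^ e := by
    rw [h2, map_mul, hvu, one_mul, map_pow]
  have hϖ1 : v ϖ ≤ 1 := (A.valuation_le_one_iff ϖ).mpr hϖA
  -- comparison of the `(p - 1)`-th powers
  have hcmp : (v ϖ ^ N) ^ (p - 1) ≤ (v lam ^ p) ^ (p - 1) := by
    calc (v ϖ ^ N) ^ (p - 1) = v ϖ ^ ((p - 1) * N) := by rw [← pow_mul, mul_comm]
      _ ≤ v ϖ ^ (p * e) := pow_le_pow_of_le_one zero_le hϖ1 hN
      _ = (v ϖ ^ e) ^ p := by rw [← pow_mul, mul_comm]
      _ = (v lam ^ (p - 1)) ^ p := by rw [← hvp2, hvp1]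
      _ = (v lam ^ p) ^ (p - 1) := by rw [← pow_mul, ← pow_mul, mul_comm]
  have hle : v ϖ ^ N ≤ v lam ^ p :=
    (pow_le_pow_iff_left₀ zero_le zero_le hp1).mp hcmp
  have hlamp0 : lam ^ p ≠ 0 := pow_ne_zero _ hlam0
  refine ⟨ϖ ^ N / lam ^ p, ?_, ?_⟩
  · rw [← A.valuation_le_one_iff, map_div₀, map_pow, map_pow]
    have h0 : 0 < A.valuation lam ^ p :=
      zero_lt_iff.mpr (pow_ne_zero _ ((Valuation.ne_zero_iff _).mpr hlam0))
    exact (div_le_one₀ h0).mpr hle
  · rw [mul_div_cancel₀ _ hlamp0]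

/-- a one-unit of level `ϖ ^ N` is a one-unit of level `lam ^ p` if `ϖ ^ N ∈ lam ^ p A` -/
theorem lcg_deep_of_lev (R : ConstRed A π Fk F) (ϖ : A) {lam : K} {p N : ℕ}
    (hb : ∃ b ∈ A, (ϖ : K) ^ N = lam ^ p * b) (g : R.O) :
    ∃ g' : F, g' ∈ R.O ∧
      ((1 + lcgC R ϖ ^ N * g : R.O) : F) = 1 + algebraMap K F (lam ^ p) * g' := by
  obtain ⟨b, hbA, hb⟩ := hb
  refine ⟨algebraMap K F b * (g : F), R.O.mul_mem _ _ (R.algebraMap_mem ⟨b, hbA⟩) g.2, ?_⟩
  rw [lcg_coe_one_add, hb, map_mul, mul_assoc]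

section Base

variable [RRHyp K F] [RRHyp k Fk] {R : ConstRed A π Fk F} {r : Place K F → Place k Fk}
  {p : ℕ} {ϖ : A} {e : ℕ} {F1 : Subfield F} {Rat : Divisor K F → Prop}

/-- the base of the level induction: a rational function of the ball with reduction `1` is
`1 + ϖ g` with `g` rational and integral -/
theorem lcg_lev_one_of_red (H : LcgHyp R r p ϖ e F1 Rat) (f : R.O) (hf1 : (f : F) ∈ F1)
    (hfred : R.red f = 1) :
    ∃ g : R.O, (g : F) ∈ F1 ∧ f = 1 + lcgC R ϖ ^ 1 * g := by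
  obtain ⟨g, hg1, hg⟩ := H.exists_eq_mul (f - 1) (F1.sub_mem hf1 F1.one_mem)
    (by rw [map_sub, hfred, map_one, sub_self])
  refine ⟨g, hg1, ?_⟩
  rw [pow_one, ← hg]
  ring

end Base

end Fermat.Agent.S33lib

end
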