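import Mathlib
import Fermat.Agent.S36lib.Speed
import Fermat.Agent.S33lib.RayInst
import Fermat.Agent.S33lib.LocGen4

/-!
# Item 86 (S33), block LEV, the concrete Kummer predicate (helper18)

Mixed form (helper10's G1 decision): classes `x : JZero M'`, functions at an auxiliary level `M`
(`M' ∣ M`, `ι = inclBar M' M`), `R` a constant reduction of `FF M`.

* `lvkKum hNM p x f` : `ι u = c s ^ p f` for a Kummer function `u` of `x` (`p D = div u`,
  `[D] = x`), `c ≠ 0`, `s ≠ 0`;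
* `lvk_kum` : `LcgKum p F1 (lvkKum hNM p)` for every subfield `F1` (the hypothesis of the abstract
  level induction `lcg_lev_main`);
* `lvk_of_ker`, `lvk_ker_of` : the predicate `Ker` in terms of `lvkKum`;
* `lvk_deep`, `lvk_deep_of_lev`, `lvk_deep_of_main` : a class of level `N` with
  `ϖ ^ N ∈ (ζ - 1) ^ p A` is `Deep` (the shape of `rin_rayj` / `r2a_pic0`).
-/

set_option autoImplicit false
set_option linter.unusedSectionVars false
set_option linter.unusedVariables false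
set_option linter.style.haveILetI false
set_option synthInstance.maxHeartbeats 400000

noncomputable section

namespace Fermat.Agent.S33lib

open AlgebraicCurve ModularCurve
open Fermat.Agent.GoodRed Fermat.Agent.S24lib Fermat.Agent.S34lib Fermat.Agent.S36lib
  Fermat.Agent.RRlib Fermat.Agent.FFlib Fermat.Agent.GM Fermat.Agent.HeckeBar Fermat.Agent.S18lib

variable {M' M : ℕ} [NeZero M'] [NeZero M] {A : ValuationSubring Kbar}
variable {R : ConstRed A (IsLocalRing.residue A) (Fk (IsLocalRing.ResidueField A) M) (FF M)}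

/-- **mixed Kummer functions** (the definition fixed by helper21 for the block LEV):
`ι u = c s ^ p f` for a Kummer function `u` of the class `x` -/
def lvkKum (hNM : M' ∣ M) (p : ℕ) (x : JZero M') (f : FF M) : Prop :=
  ∃ (D : Divisor.degZero (K := Kbar) (F := FF M')) (u : FF M') (c : Kbar) (s : FF M),
    Pic0.mk D = x ∧ u ≠ 0 ∧
    (∀ v : Place Kbar (FF M'), (p : ℤ) * (D : Divisor Kbar (FF M')) v = v.ord u) ∧
    c ≠ 0 ∧ s ≠ 0 ∧ inclBar M' M hNM u = algebraMap Kbar (FF M) c * s ^ p * f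

theorem lvkKum_ne_zero (hNM : M' ∣ M) {p : ℕ} {x : JZero M'} {f : FF M}
    (h : lvkKum hNM p x f) : f ≠ 0 := by
  obtain ⟨D, u, c, s, -, hu, -, hc, hs, hf⟩ := h
  rintro rfl
  rw [mul_zero] at hf
  exact (map_ne_zero (inclBar M' M hNM)).mpr hu hf

/-- Kummer functions may be changed by constants and `p`-th powers -/
theorem lvkKum_mul (hNM : M' ∣ M) {p : ℕ} {x : JZero M'} {f : FF M}
    (h : lvkKum hNM p x f) {c : Kbar} (hc : c ≠ 0) {s : FF M} (hs : s ≠ 0) :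
    lvkKum hNM p x (algebraMap Kbar (FF M) c * s ^ p * f) := by
  obtain ⟨D, u, c₁, s₁, hD, hu, hdiv, hc₁, hs₁, hf⟩ := h
  have hc' : algebraMap Kbar (FF M) c ≠ 0 :=
    (map_ne_zero_iff _ (algebraMap Kbar (FF M)).injective).mpr hc
  have hsp : s ^ p ≠ 0 := pow_ne_zero p hs
  refine ⟨D, u, c₁ * c⁻¹, s₁ * s⁻¹, hD, hu, hdiv, mul_ne_zero hc₁ (inv_ne_zero hc),
    mul_ne_zero hs₁ (inv_ne_zero hs), ?_⟩
  rw [hf, map_mul, map_inv₀, mul_pow, inv_pow]
  field_simp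

/-- the orders of a mixed Kummer function are divisible by `p` -/
theorem lvkKum_dvd_ord (hNM : M' ∣ M) {p : ℕ} {x : JZero M'} {f : FF M}
    (h : lvkKum hNM p x f) (w : Place Kbar (FF M)) : (p : ℤ) ∣ w.ord f := by
  haveI : RRHyp Kbar (FF M) := mod_rrHyp M
  have hf0 := lvkKum_ne_zero hNM h
  obtain ⟨D, u, c, s, -, hu, hdiv, hc, hs, hf⟩ := h
  have hc' : algebraMap Kbar (FF M) c ≠ 0 :=
    (map_ne_zero_iff _ (algebraMap Kbar (FF M)).injective).mpr hc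
  have h1 := rin_dvd_ord_inclBar hNM p (D : Divisor Kbar (FF M')) hdiv w
  rw [hf, Place.ord_mul _ (mul_ne_zero hc' (pow_ne_zero p hs)) hf0,
    Place.ord_mul _ hc' (pow_ne_zero p hs), ord_pow_nat, cxa_ord_const, zero_add] at h1
  exact (Int.dvd_add_right (dvd_mul_right _ _)).mp h1

/-- **the hypothesis `LcgKum` of the abstract level induction** -/
theorem lvk_kum (hNM : M' ∣ M) (p : ℕ) (F1 : Subfield (FF M)) :
    haveI : RRHyp Kbar (FF M) := mod_rrHyp M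
    LcgKum (K := Kbar) p F1 (lvkKum hNM p) := by
  haveI : RRHyp Kbar (FF M) := mod_rrHyp M
  exact
    { div := fun x f h => rin_exists_div (K := Kbar) p f (lvkKum_dvd_ord hNM h)
      mul := fun x f h c s hc _ hs _ => lvkKum_mul hNM h hc hs }

/-- `ι u` is a mixed Kummer function -/
theorem lvkKum_incl (hNM : M' ∣ M) (p : ℕ) (x : JZero M')
    (D : Divisor.degZero (K := Kbar) (F := FF M')) (u : FF M') (hD : Pic0.mk D = x) (hu : u ≠ 0)
    (hdiv : ∀ v : Place Kbar (FF M'), (p : ℤ) * (D : Divisor Kbar (FF M')) v = v.ord u) :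
    lvkKum hNM p x (inclBar M' M hNM u) :=
  ⟨D, u, 1, 1, hD, hu, hdiv, one_ne_zero, one_ne_zero, by rw [map_one, one_pow, one_mul, one_mul]⟩

/-- **Ker** (the shape `hker` of `rin_rayj`) gives a mixed Kummer function in `1 + 𝔪_O` -/
theorem lvk_of_ker (hNM : M' ∣ M) (p : ℕ) (x : JZero M')
    (hker : ∃ (D : Divisor.degZero (K := Kbar) (F := FF M')) (u : FF M'), Pic0.mk D = x ∧ u ≠ 0 ∧
      (∀ v : Place Kbar (FF M'), (p : ℤ) * (D : Divisor Kbar (FF M')) v = v.ord u) ∧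
      ∃ (c : Kbar) (w : FF M), c ≠ 0 ∧ w ≠ 0 ∧
        algebraMap Kbar (FF M) c * inclBar M' M hNM u * w ^ p - 1 ∈ R.O.nonunits) :
    ∃ f : FF M, lvkKum hNM p x f ∧ f - 1 ∈ R.O.nonunits := by
  obtain ⟨D, u, hD, hu, hdiv, c, w, hc, hw, h⟩ := hker
  have hc' : algebraMap Kbar (FF M) c ≠ 0 :=
    (map_ne_zero_iff _ (algebraMap Kbar (FF M)).injective).mpr hc
  have hwp : w ^ p ≠ 0 := pow_ne_zero p hw
  refine ⟨algebraMap Kbar (FF M) c * inclBar M' M hNM u * w ^ p,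
    ⟨D, u, c⁻¹, w⁻¹, hD, hu, hdiv, inv_ne_zero hc, inv_ne_zero hw, ?_⟩, h⟩
  rw [map_inv₀, inv_pow]
  field_simp

/-- a mixed Kummer function in `1 + 𝔪_O` gives **Ker** (the shape `hker` of `rin_rayj`) -/
theorem lvk_ker_of (hNM : M' ∣ M) (p : ℕ) (x : JZero M') (f : FF M)
    (h : lvkKum hNM p x f) (hf : f - 1 ∈ R.O.nonunits) :
    ∃ (D : Divisor.degZero (K := Kbar) (F := FF M')) (u : FF M'), Pic0.mk D = x ∧ u ≠ 0 ∧
      (∀ v : Place Kbar (FF M'), (p : ℤ) * (D : Divisor Kbar (FF M')) v = v.ord u) ∧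
      ∃ (c : Kbar) (w : FF M), c ≠ 0 ∧ w ≠ 0 ∧
        algebraMap Kbar (FF M) c * inclBar M' M hNM u * w ^ p - 1 ∈ R.O.nonunits := by
  obtain ⟨D, u, c, s, hD, hu, hdiv, hc, hs, hfu⟩ := h
  have hc' : algebraMap Kbar (FF M) c ≠ 0 :=
    (map_ne_zero_iff _ (algebraMap Kbar (FF M)).injective).mpr hc
  have hsp : s ^ p ≠ 0 := pow_ne_zero p hs
  refine ⟨D, u, hD, hu, hdiv, c⁻¹, s⁻¹, inv_ne_zero hc, inv_ne_zero hs, ?_⟩
  have : algebraMap Kbar (FF M) c⁻¹ * inclBar M' M hNM u * s⁻¹ ^ p = f := by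
    rw [hfu, map_inv₀, inv_pow]
    field_simp
  rw [this]
  exact hf

/-- **Deep** (the shape of `rin_rayj`, `r2a_pic0`) from a mixed Kummer function `1 + lam ^ p g` -/
theorem lvk_deep (hNM : M' ∣ M) (p : ℕ) (x : JZero M') (lam : Kbar) (g' : FF M)
    (hg' : g' ∈ R.O)
    (h : lvkKum hNM p x (1 + algebraMap Kbar (FF M) (lam ^ p) * g')) :
    ∃ (D : Divisor.degZero (K := Kbar) (F := FF M')) (u : FF M'), Pic0.mk D = x ∧ u ≠ 0 ∧
      (∀ v : Place Kbar (FF M'), (p : ℤ) * (D : Divisor Kbar (FF M')) v = v.ord u) ∧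
      ∃ (c : Kbar) (s g : FF M), c ≠ 0 ∧ s ≠ 0 ∧ g ∈ R.O ∧
        inclBar M' M hNM u
          = algebraMap Kbar (FF M) c * s ^ p * (1 + algebraMap Kbar (FF M) (lam ^ p) * g) := by
  obtain ⟨D, u, c, s, hD, hu, hdiv, hc, hs, hf⟩ := h
  exact ⟨D, u, hD, hu, hdiv, c, s, g', hc, hs, hg', hf⟩

/-- **Deep** from the rational level `N` with `ϖ ^ N ∈ lam ^ p A` -/
theorem lvk_deep_of_lev (hNM : M' ∣ M) (p : ℕ) (F1 : Subfield (FF M)) (ϖ : A) (lam : Kbar)
    {N : ℕ} (hb : ∃ b ∈ A, (ϖ : Kbar) ^ N = lam ^ p * b) (x : JZero M')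
    (h : lcgLev R ϖ F1 (lvkKum hNM p) N x) :
    ∃ (D : Divisor.degZero (K := Kbar) (F := FF M')) (u : FF M'), Pic0.mk D = x ∧ u ≠ 0 ∧
      (∀ v : Place Kbar (FF M'), (p : ℤ) * (D : Divisor Kbar (FF M')) v = v.ord u) ∧
      ∃ (c : Kbar) (s g : FF M), c ≠ 0 ∧ s ≠ 0 ∧ g ∈ R.O ∧
        inclBar M' M hNM u
          = algebraMap Kbar (FF M) c * s ^ p * (1 + algebraMap Kbar (FF M) (lam ^ p) * g) := by
  obtain ⟨g, -, hK⟩ := h
  obtain ⟨g', hg', hgg'⟩ := lcg_deep_of_lev R ϖ hb g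
  rw [hgg'] at hK
  exact lvk_deep hNM p x lam g' hg' hK

/-- **Deep** from the conclusion of `lcg_lev_main`: a rational level `N` with
`p e ≤ (p - 1) N`, where `p = u ϖ ^ e` (`u` a unit) and `p = - lam ^ (p - 1) (1 + lam ε)` -/
theorem lvk_deep_of_main (hNM : M' ∣ M) {p : ℕ} (hp : p.Prime) (F1 : Subfield (FF M)) (ϖ : A)
    {lam : Kbar} (hlam0 : lam ≠ 0) (hlamA : lam ∈ A.nonunits)
    (hplam : ∃ ε ∈ A, (p : Kbar) = -(lam ^ (p - 1)) * (1 + lam * ε))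
    {e : ℕ} (hpe : ∃ u : Kbar, u ∈ A ∧ u⁻¹ ∈ A ∧ (p : Kbar) = u * (ϖ : Kbar) ^ e)
    {N : ℕ} (hN : p * e ≤ (p - 1) * N) (x : JZero M')
    (h : lcgLev R ϖ F1 (lvkKum hNM p) N x) :
    ∃ (D : Divisor.degZero (K := Kbar) (F := FF M')) (u : FF M'), Pic0.mk D = x ∧ u ≠ 0 ∧
      (∀ v : Place Kbar (FF M'), (p : ℤ) * (D : Divisor Kbar (FF M')) v = v.ord u) ∧
      ∃ (c : Kbar) (s g : FF M), c ≠ 0 ∧ s ≠ 0 ∧ g ∈ R.O ∧
        inclBar M' M hNM u
          = algebraMap Kbar (FF M) c * s ^ p * (1 + algebraMap Kbar (FF M) (lam ^ p) * g) :=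
  lvk_deep_of_lev hNM p F1 ϖ lam (lcg_dvd_of_le hp hlam0 hlamA ϖ.2 hplam hpe hN) x h

end Fermat.Agent.S33lib

end
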