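/-
Item 86 (S33), block LEV, piece (L3) (helper15): `T_p` RAISES the `K'`-level below `v*`.

Level `N`, `p ∤ N` prime, `A | p`, `R` a series reduction of `F_N` (`IsSeriesRed`),
`H` a set of Galois automorphisms, `F1 = fixedLBC H` the `H`-fixed (`K'`-rational) functions,
`ϖ ∈ m_A` fixed by `H` with `p = u ϖ ^ e`, `u ∈ A`.

* `ltp_exists_frob` : every valuation subring `A` of `ℚ̄` over `p` has a Frobenius lift `φ`;
* `ltp_core` : the ring identity `1 + ϖ^(p j') G = (1 + ϖ^j' Ψ)^p (1 + ϖ^(p j' + 1) G')` from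
  `G - Ψ^p = ϖ t`, `(p - 1) j' < e`;
* `ltp_div_of_disc` : DISC' ⟹ an `H`-fixed element of `m_O` is `ϖ ·` an `H`-fixed element of `O`;
* `ltp_norm_fixed` : `Nm_α (β u)` is `H`-fixed if `u` is;
* `ltp_keep` : `Nm_α (β (1 + a g)) = 1 + a G` with `G ∈ O ∩ F1` (`T_p` does not lower the level);
* **`ltp_raise`** : for `g ∈ O ∩ F1`, `1 ≤ j'`, `(p - 1) j' < e` and a Frobenius lift `φ` normalising
  `H`:  `Nm_α (β (1 + ϖ^(p j') g)) = (1 + ϖ^j' Ψ)^p (1 + ϖ^(p j' + 1) G')`, `Ψ, G' ∈ O ∩ F1`,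
  `Ψ = φ⁻¹ • g` (the rational lift of the Frobenius twist of the leading term).
-/
import Mathlib
import Fermat.Agent.S33lib.TpLeadConc
import Fermat.Agent.S34lib.InertiaRedFrob
import Fermat.Agent.S36lib.KummerDescN
import Fermat.Agent.S36lib.MidExpGal
import Fermat.Agent.S36lib.FixedFF
import Fermat.Agent.S36lib.Speed
import Fermat.Agent.S13lib.InertiaLift
import Fermat.Agent.FrobProfinite
import Fermat.Agent.LatE.Defs

set_option autoImplicit false
set_option linter.unusedSectionVars false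
set_option linter.unusedVariables false
set_option linter.style.haveILetI false

noncomputable section

namespace Fermat.Agent.S33lib

open ModularCurve AlgebraicCurve HahnSeries
open Fermat.Agent.S24lib Fermat.Agent.S34lib Fermat.Agent.S36lib Fermat.Agent.S37lib
  Fermat.Agent.GoodRed Fermat.Agent.HeckeBar Fermat.Agent.FrobLib Fermat.Agent.S13lib

/-! ### Frobenius lifts -/

/-- every valuation subring of `ℚ̄` over `p` has a Frobenius lift -/
theorem ltp_exists_frob (A : ValuationSubring Kbar) {p : ℕ} (hp : p.Prime)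
    (hA : A.LiesOverPrime p) : ∃ φ : Kbar ≃ₐ[ℚ] Kbar, A.IsFrobeniusAt φ p := by
  have hpQ : (p : ZBar) ∈ primeOfVal A := by
    rw [mem_primeOfVal_iff]
    have : (((p : ZBar) : ZBar) : AlgebraicClosure ℚ) = (p : AlgebraicClosure ℚ) := by
      simp
    rw [this]
    exact hA
  obtain ⟨σ, hσ⟩ := exists_frob_congr p hp (primeOfVal A) hpQ
  have h := isFrobeniusAt_valuationSubringOfPrime (primeOfVal A) p hp.ne_zero σ
    (fun b => ⟨σ • b - b ^ p, hσ b, rfl⟩)
  rw [valuationSubringOfPrime_primeOfVal] at h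
  exact ⟨σ, h⟩

/-! ### the ring identity -/

/-- **the absorption identity**: if `p = u ϖ ^ e`, `(p - 1) j' < e` and `G - Ψ ^ p = ϖ t`, then
`1 + ϖ^(p j') G = (1 + ϖ^j' Ψ)^p (1 + ϖ^(p j' + 1) G')`. -/
theorem ltp_core {T : Type*} [CommRing T] {p : ℕ} (hp : p.Prime) (ϖ u G Ψ t S' : T) (e j' : ℕ)
    (hpe : ((p : ℕ) : T) = u * ϖ ^ e) (he : (p - 1) * j' < e) (ht : G - Ψ ^ p = ϖ * t)
    (hS : S' * (1 + ϖ ^ j' * Ψ) = 1) :
    ∃ G' : T, 1 + ϖ ^ (p * j') * G = (1 + ϖ ^ j' * Ψ) ^ p * (1 + ϖ ^ (p * j' + 1) * G') := by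
  obtain ⟨r, hr⟩ := exists_add_pow_prime_eq hp (1 : T) (ϖ ^ j' * Ψ)
  obtain ⟨d, hd⟩ : ∃ d : ℕ, e = (p - 1) * j' + 1 + d := ⟨e - ((p - 1) * j' + 1), by omega⟩
  have hp1 : p - 1 + 1 = p := Nat.sub_add_cancel hp.one_le
  -- `p ϖ^j' = u ϖ^(p j' + 1) ϖ^d`
  have hpa : ((p : ℕ) : T) * ϖ ^ j' = u * (ϖ ^ (p * j') * ϖ) * ϖ ^ d := by
    rw [hpe, hd]
    have e1 : (p - 1) * j' + 1 + d + j' = p * j' + 1 + d := by
      have : (p - 1) * j' + j' = p * j' := by
        conv_rhs => rw [← hp1]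
        ring
      omega
    calc u * ϖ ^ ((p - 1) * j' + 1 + d) * ϖ ^ j'
        = u * ϖ ^ ((p - 1) * j' + 1 + d + j') := by rw [mul_assoc, ← _root_.pow_add]
      _ = u * ϖ ^ (p * j' + 1 + d) := by rw [e1]
      _ = u * (ϖ ^ (p * j') * ϖ) * ϖ ^ d := by rw [_root_.pow_add, pow_succ]; ring
  have hkey : (1 + ϖ ^ j' * Ψ) ^ p * S' ^ p = 1 := by
    rw [← mul_pow, mul_comm, hS, one_pow]
  have hG : G = Ψ ^ p + ϖ * t := by rw [← ht]; ring
  refine ⟨(t - u * ϖ ^ d * Ψ * r) * S' ^ p, ?_⟩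
  have hpow : ϖ ^ (p * j') = (ϖ ^ j') ^ p := by rw [mul_comm, pow_mul]
  have e2 : (1 + ϖ ^ j' * Ψ) ^ p * (1 + ϖ ^ (p * j' + 1) * ((t - u * ϖ ^ d * Ψ * r) * S' ^ p))
      = (1 + ϖ ^ j' * Ψ) ^ p
        + ϖ ^ (p * j' + 1) * (t - u * ϖ ^ d * Ψ * r) * ((1 + ϖ ^ j' * Ψ) ^ p * S' ^ p) := by
    ring
  rw [e2, hkey, mul_one, hr, hG, pow_succ, hpow]
  rw [hpow] at hpa
  linear_combination (-(Ψ * r)) * hpa

/-! ### DISC' in the unit ball -/

section Abs

variable {K F k Fk : Type*} [Field K] [Field F] [Algebra K F] [Field k] [Field Fk] [Algebra k Fk]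
variable {A : ValuationSubring K} {π : A →+* k}

/-- **DISC' in the unit ball**: a rational function with reduction `0` is `ϖ ·` a rational
function of the unit ball. -/
theorem ltp_div_of_disc (R : ConstRed A π Fk F) (F1 : Subfield F) (ϖ : K) (hϖ0 : ϖ ≠ 0)
    (hϖA : ϖ ∈ A) (hϖ1 : algebraMap K F ϖ ∈ F1)
    (hdisc : ∀ f ∈ F1, f ≠ 0 → ∃ n : ℤ, algebraMap K F (ϖ ^ n) * f ∈ R.O ∧
      (algebraMap K F (ϖ ^ n) * f)⁻¹ ∈ R.O)
    (x : R.O) (hx1 : (x : F) ∈ F1) (hx : R.red x = 0) :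
    ∃ y : R.O, (y : F) ∈ F1 ∧ (x : F) = algebraMap K F ϖ * (y : F) := by
  by_cases hx0 : x = 0
  · exact ⟨0, F1.zero_mem, by rw [hx0]; simp⟩
  have hxF : (x : F) ≠ 0 := fun h => hx0 (Subtype.ext h)
  obtain ⟨n, hn1, hn2⟩ := hdisc (x : F) hx1 hxF
  have hϖF : algebraMap K F ϖ ≠ 0 := by
    rw [Ne, map_eq_zero_iff _ (algebraMap K F).injective]
    exact hϖ0
  have hxnu : (x : F) ∈ R.O.nonunits := (R.red_eq_zero_iff x).mp hx
  have hxv : R.O.valuation (x : F) < 1 := (R.O.mem_nonunits_iff).mp hxnu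
  have hϖO : algebraMap K F ϖ ∈ R.O := R.algebraMap_mem ⟨ϖ, hϖA⟩
  have hϖv : R.O.valuation (algebraMap K F ϖ) ≤ 1 :=
    (ValuationSubring.valuation_le_one_iff _ _).mpr hϖO
  set u : F := algebraMap K F (ϖ ^ n) * (x : F) with hu
  have hu0 : u ≠ 0 := by
    rw [hu, map_zpow₀]
    exact mul_ne_zero (zpow_ne_zero _ hϖF) hxF
  have huv : R.O.valuation u = 1 := by
    have h1 : R.O.valuation u ≤ 1 := (ValuationSubring.valuation_le_one_iff _ _).mpr hn1
    have h2 : R.O.valuation u⁻¹ ≤ 1 := (ValuationSubring.valuation_le_one_iff _ _).mpr hn2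
    rw [map_inv₀] at h2
    have h3 : R.O.valuation u ≠ 0 := (Valuation.ne_zero_iff _).mpr hu0
    exact le_antisymm h1 ((inv_le_one₀ (zero_lt_iff.mpr h3)).mp h2)
  have hneg : n < 0 := by
    by_contra hge
    have hge' : 0 ≤ n := not_lt.mp hge
    obtain ⟨m, rfl⟩ := Int.eq_ofNat_of_zero_le hge'
    have h1 : R.O.valuation (algebraMap K F (ϖ ^ (m : ℤ))) ≤ 1 := by
      rw [zpow_natCast, map_pow, map_pow]
      exact pow_le_one₀ zero_le hϖv
    have h2 : R.O.valuation u < 1 := by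
      rw [hu, map_mul]
      calc R.O.valuation (algebraMap K F (ϖ ^ (m : ℤ))) * R.O.valuation (x : F)
          ≤ 1 * R.O.valuation (x : F) := mul_le_mul_left h1 _
        _ = R.O.valuation (x : F) := one_mul _
        _ < 1 := hxv
    rw [huv] at h2
    exact lt_irrefl _ h2
  obtain ⟨m, hm⟩ : ∃ m : ℕ, n = -((m : ℤ) + 1) := ⟨(-n - 1).toNat, by omega⟩
  have hux : (x : F) = algebraMap K F ϖ * (algebraMap K F ϖ ^ m * u) := by
    rw [hu, hm, map_zpow₀, zpow_neg, ← mul_assoc, ← mul_assoc, ← pow_succ']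
    rw [show ((m : ℤ) + 1) = ((m + 1 : ℕ) : ℤ) by push_cast; ring, zpow_natCast]
    rw [mul_inv_cancel₀ (pow_ne_zero _ hϖF), one_mul]
  have hymem : algebraMap K F ϖ ^ m * u ∈ R.O :=
    R.O.mul_mem _ _ (pow_mem hϖO m) hn1
  refine ⟨⟨_, hymem⟩, ?_, hux⟩
  show algebraMap K F ϖ ^ m * u ∈ F1
  refine F1.mul_mem (F1.pow_mem hϖ1 m) ?_
  rw [hu, map_zpow₀]
  exact F1.mul_mem (F1.zpow_mem hϖ1 n) hx1

/-- an element of the ball with reduction `1` is a unit of the ball -/
theorem ltp_exists_inv (R : ConstRed A π Fk F) (u : R.O) (hu : R.red u = 1) :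
    (u : F) ≠ 0 ∧ (u : F)⁻¹ ∈ R.O := by
  have h1 : (u : F) ∉ R.O.nonunits := by
    intro h
    have := (R.red_eq_zero_iff u).mpr h
    rw [hu] at this
    exact one_ne_zero this
  rw [ValuationSubring.mem_nonunits_iff_or, not_or, not_not] at h1
  exact h1

end Abs

/-! ### rationality of `T_p` on functions -/

section Conc

variable (N p : ℕ) [NeZero N] [NeZero p] (A : ValuationSubring Kbar)
  (H : Set (Kbar ≃ₐ[ℚ] Kbar))

/-- `Nm_α (β u)` is `H`-fixed if `u` is. -/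
theorem ltp_norm_fixed {u : FF N} (hu : u ∈ fixedLBC H (modularFunctionFieldFull N)) :
    normAlong (heckeAlphaBar Kbar N p) (heckeBetaBar Kbar N p u)
      ∈ fixedLBC H (modularFunctionFieldFull N) := by
  intro σ hσ
  have h1 := kdn_galFF_normAlong_alpha (N := N) (ℓ := p) σ (heckeBetaBar Kbar N p u)
  have h2 := mx_gal_beta N p σ u
  have h3 : arithmeticGalois (modularFunctionFieldFull N) σ • u = u := hu σ hσ
  show galFF N σ • normAlong (heckeAlphaBar Kbar N p) (heckeBetaBar Kbar N p u) = _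
  rw [h1]
  show normAlong (heckeAlphaBar Kbar N p)
    (arithmeticGalois (modularFunctionFieldFull (N * p)) σ • heckeBetaBar Kbar N p u) = _
  rw [h2, h3]

/-- a constant fixed by `H` is an `H`-fixed function -/
theorem ltp_const_fixed {a : Kbar} (ha : ∀ σ ∈ H, σ a = a) :
    algebraMap Kbar (FF N) a ∈ fixedLBC H (modularFunctionFieldFull N) := by
  intro σ hσ
  rw [SemilinearAut.smul_algebraMap]
  exact congrArg _ (ha σ hσ)

variable [Fact p.Prime] [CharP (IsLocalRing.ResidueField A) p]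
  [PerfectRing (IsLocalRing.ResidueField A) p]

/-- **the rational form of `tpl_main`** (`T_p` does not lower the `K'`-level, and the leading term
becomes a `p`-th power): for `a ∈ m_A` nonzero and fixed by `H`, `g ∈ O` `H`-fixed,
`Nm_α (β (1 + a g)) = 1 + a G` with `G ∈ O` `H`-fixed, `red G = ψ ^ p`, `Frob ψ = red g`. -/
theorem ltp_main' (hpN : ¬ p ∣ N) (hlt : A.valuation (p : Kbar) < 1)
    (R : ConstRed A (IsLocalRing.residue A)
      (↥(modularFunctionFieldFullC (IsLocalRing.ResidueField A) N)) (FF N))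
    (hR : IsSeriesRed R) (a : A) (ha : IsLocalRing.residue A a = 0) (ha0 : a ≠ 0)
    (haK : ∀ σ ∈ H, σ (a : Kbar) = a)
    (g : FF N) (hgO : g ∈ R.O) (hg1 : g ∈ fixedLBC H (modularFunctionFieldFull N)) :
    ∃ (G : FF N) (hG : G ∈ R.O)
      (ψ : modularFunctionFieldFullC (IsLocalRing.ResidueField A) N),
      G ∈ fixedLBC H (modularFunctionFieldFull N) ∧
      normAlong (heckeAlphaBar Kbar N p)
          (heckeBetaBar Kbar N p (1 + algebraMap Kbar (FF N) (a : Kbar) * g))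
        = 1 + algebraMap Kbar (FF N) (a : Kbar) * G ∧
      R.red ⟨G, hG⟩ = ψ ^ p ∧
      frobK (IsLocalRing.ResidueField A) p N • ψ = R.red ⟨g, hgO⟩ := by
  obtain ⟨G, hG, ψ, hnorm, hred, hψ⟩ := tpl_main N p A hpN hlt R hR a ha ha0 g hgO
  have hnorm' : normAlong (heckeAlphaBar Kbar N p)
      (heckeBetaBar Kbar N p (1 + algebraMap Kbar (FF N) (a : Kbar) * g))
      = 1 + algebraMap Kbar (FF N) (a : Kbar) * G := hnorm
  refine ⟨G, hG, ψ, ?_, hnorm', hred, hψ⟩
  -- rationality of `G`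
  have ha1 : algebraMap Kbar (FF N) (a : Kbar) ∈ fixedLBC H (modularFunctionFieldFull N) :=
    ltp_const_fixed N H haK
  have hu1 : (1 + algebraMap Kbar (FF N) (a : Kbar) * g)
      ∈ fixedLBC H (modularFunctionFieldFull N) :=
    (fixedLBC H _).add_mem (fixedLBC H _).one_mem ((fixedLBC H _).mul_mem ha1 hg1)
  have h1 := ltp_norm_fixed N p H hu1
  rw [hnorm'] at h1
  have ha0' : algebraMap Kbar (FF N) (a : Kbar) ≠ 0 := by
    rw [Ne, map_eq_zero_iff _ (algebraMap Kbar (FF N)).injective]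
    exact fun h => ha0 (Subtype.ext h)
  have h2 : algebraMap Kbar (FF N) (a : Kbar) * G
      ∈ fixedLBC H (modularFunctionFieldFull N) := by
    have := (fixedLBC H _).sub_mem h1 (fixedLBC H (modularFunctionFieldFull N)).one_mem
    rwa [add_sub_cancel_left] at this
  have h3 : G = (algebraMap Kbar (FF N) (a : Kbar))⁻¹
      * (algebraMap Kbar (FF N) (a : Kbar) * G) := by
    rw [← mul_assoc, inv_mul_cancel₀ ha0', one_mul]
  rw [h3]
  exact (fixedLBC H _).mul_mem ((fixedLBC H _).inv_mem ha1) h2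

/-- `normBeta` is `Nm_α ∘ β` -/
theorem ltp_normBeta_eq (u : FF N) :
    Fermat.Agent.LatE.normBeta N p u
      = normAlong (heckeAlphaBar Kbar N p) (heckeBetaBar Kbar N p u) := rfl

/-- **the rational form of `tpl_main`**, with `normBeta` (the Kummer function of `T_p x`,
`LatE.kummer_hecke`). -/
theorem ltp_main (hpN : ¬ p ∣ N) (hlt : A.valuation (p : Kbar) < 1)
    (R : ConstRed A (IsLocalRing.residue A)
      (↥(modularFunctionFieldFullC (IsLocalRing.ResidueField A) N)) (FF N))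
    (hR : IsSeriesRed R) (a : A) (ha : IsLocalRing.residue A a = 0) (ha0 : a ≠ 0)
    (haK : ∀ σ ∈ H, σ (a : Kbar) = a)
    (g : FF N) (hgO : g ∈ R.O) (hg1 : g ∈ fixedLBC H (modularFunctionFieldFull N)) :
    ∃ (G : FF N) (hG : G ∈ R.O)
      (ψ : modularFunctionFieldFullC (IsLocalRing.ResidueField A) N),
      G ∈ fixedLBC H (modularFunctionFieldFull N) ∧
      Fermat.Agent.LatE.normBeta N p (1 + algebraMap Kbar (FF N) (a : Kbar) * g)
        = 1 + algebraMap Kbar (FF N) (a : Kbar) * G ∧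
      R.red ⟨G, hG⟩ = ψ ^ p ∧
      frobK (IsLocalRing.ResidueField A) p N • ψ = R.red ⟨g, hgO⟩ :=
  ltp_main' N p A H hpN hlt R hR a ha ha0 haK g hgO hg1

/-- `normBeta` of an `H`-fixed function is `H`-fixed -/
theorem ltp_normBeta_fixed {u : FF N} (hu : u ∈ fixedLBC H (modularFunctionFieldFull N)) :
    Fermat.Agent.LatE.normBeta N p u ∈ fixedLBC H (modularFunctionFieldFull N) :=
  ltp_norm_fixed N p H hu

/-- `normBeta` is multiplicative -/
theorem ltp_normBeta_mul (u v : FF N) :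
    Fermat.Agent.LatE.normBeta N p (u * v)
      = Fermat.Agent.LatE.normBeta N p u * Fermat.Agent.LatE.normBeta N p v := by
  rw [ltp_normBeta_eq, ltp_normBeta_eq, ltp_normBeta_eq, map_mul, map_mul]

theorem ltp_normBeta_pow (u : FF N) (n : ℕ) :
    Fermat.Agent.LatE.normBeta N p (u ^ n) = Fermat.Agent.LatE.normBeta N p u ^ n := by
  rw [ltp_normBeta_eq, ltp_normBeta_eq, map_pow, map_pow]

/-- `normBeta` of a constant is a constant (a power of it) -/
theorem ltp_normBeta_const :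
    ∃ d : ℕ, ∀ c : Kbar, Fermat.Agent.LatE.normBeta N p (algebraMap Kbar (FF N) c)
      = algebraMap Kbar (FF N) (c ^ d) := by
  letI := algebraAlong (heckeAlphaBar (AlgebraicClosure ℚ) N p)
  refine ⟨Module.finrank (modularFunctionFieldBar N) (modularFunctionFieldBar (N * p)),
    fun c => ?_⟩
  have h1 : heckeBetaBar (AlgebraicClosure ℚ) N p
      (algebraMap (AlgebraicClosure ℚ) (modularFunctionFieldBar N) c)
      = algebraMap (modularFunctionFieldBar N) (modularFunctionFieldBar (N * p))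
          (algebraMap (AlgebraicClosure ℚ) (modularFunctionFieldBar N) c) := by
    rw [AlgHom.commutes]
    exact ((heckeAlphaBar (AlgebraicClosure ℚ) N p).commutes c).symm
  show Algebra.norm (modularFunctionFieldBar N) (heckeBetaBar (AlgebraicClosure ℚ) N p
      (algebraMap (AlgebraicClosure ℚ) (modularFunctionFieldBar N) c)) = _
  rw [h1, Algebra.norm_algebraMap, map_pow]

/-- **the rational form of `tpl_kummer`**: for a rational normal form `c s^p (1 + a g)`:
`normBeta (c s^p (1 + a g)) = c^d (normBeta s)^p (1 + a G)` with `G ∈ O` rational,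
`red G = ψ ^ p`. -/
theorem ltp_kummer (hpN : ¬ p ∣ N) (hlt : A.valuation (p : Kbar) < 1)
    (R : ConstRed A (IsLocalRing.residue A)
      (↥(modularFunctionFieldFullC (IsLocalRing.ResidueField A) N)) (FF N))
    (hR : IsSeriesRed R) (c : Kbar) (s : FF N)
    (a : A) (ha : IsLocalRing.residue A a = 0) (ha0 : a ≠ 0)
    (haK : ∀ σ ∈ H, σ (a : Kbar) = a)
    (g : FF N) (hgO : g ∈ R.O) (hg1 : g ∈ fixedLBC H (modularFunctionFieldFull N)) :
    ∃ (d : ℕ) (G : FF N) (hG : G ∈ R.O)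
      (ψ : modularFunctionFieldFullC (IsLocalRing.ResidueField A) N),
      G ∈ fixedLBC H (modularFunctionFieldFull N) ∧
      Fermat.Agent.LatE.normBeta N p
          (algebraMap Kbar (FF N) c * s ^ p * (1 + algebraMap Kbar (FF N) (a : Kbar) * g))
        = algebraMap Kbar (FF N) (c ^ d) * Fermat.Agent.LatE.normBeta N p s ^ p
          * (1 + algebraMap Kbar (FF N) (a : Kbar) * G) ∧
      R.red ⟨G, hG⟩ = ψ ^ p ∧
      frobK (IsLocalRing.ResidueField A) p N • ψ = R.red ⟨g, hgO⟩ := by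
  obtain ⟨G, hG, ψ, hG1, hnorm, hred, hψ⟩ :=
    ltp_main N p A H hpN hlt R hR a ha ha0 haK g hgO hg1
  obtain ⟨d, hd⟩ := ltp_normBeta_const N p
  refine ⟨d, G, hG, ψ, hG1, ?_, hred, hψ⟩
  rw [ltp_normBeta_mul, ltp_normBeta_mul, ltp_normBeta_pow, hd, hnorm]

end Conc

end Fermat.Agent.S33lib

end
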