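/-
Item 86 (S33), block LEV, the step `hT` of the level induction (helper21).

`M'` the level, `M` an auxiliary level (`p ∤ M`, `M' ∣ M`), `R` a series reduction of `F_M` along
`A | p`, `H` a set of Galois automorphisms, `a ∈ m_A` nonzero and fixed by `H`.

* `lva_step` : if the class `y` of level `M'` has a Kummer function `u` with
  `ι u = c s ^ p (1 + a g)`, `g ∈ O` fixed by `H`, then `T_p y` has a Kummer function `u'` with
  `ι u' = c' s' ^ p (1 + a G)`, `G ∈ O` fixed by `H` and `red G` a `p`-th power.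
-/
import Mathlib
import Fermat.Agent.S33lib.LevTp
import Fermat.Agent.S33lib.NormIncl
import Fermat.Agent.S33lib.TpLeadConc
import Fermat.Agent.LatE.KummerHecke
import Fermat.Agent.S37lib.HeckeInputs
import Fermat.Agent.S36lib.Speed
import Fermat.Agent.GM.RedInstDefs
import Fermat.Agent.GoodRed.Echelon

set_option autoImplicit false
set_option linter.unusedSectionVars false
set_option linter.unusedVariables false
set_option linter.style.haveILetI false
set_option synthInstance.maxHeartbeats 400000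

noncomputable section

namespace Fermat.Agent.S33lib

open AlgebraicCurve ModularCurve
open Fermat.Agent.RRlib Fermat.Agent.GoodRed Fermat.Agent.S24lib Fermat.Agent.HeckeBar
  Fermat.Agent.GM Fermat.Agent.S34lib Fermat.Agent.S18lib Fermat.Agent.S36lib
  Fermat.Agent.S37lib Fermat.Agent.LatE

section Step

variable {M' M : ℕ} [NeZero M'] [NeZero M] {A : ValuationSubring Kbar}

set_option maxHeartbeats 1600000 in
/-- **the step of the level induction**: `T_p` keeps the rational level and makes the leading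
term a `p`-th power -/
theorem lva_step (hNM : M' ∣ M) (p : ℕ) [Fact p.Prime] (hpM : ¬ p ∣ M)
    (hA : A.LiesOverPrime p)
    (R : ConstRed A (IsLocalRing.residue A)
      (↥(modularFunctionFieldFullC (IsLocalRing.ResidueField A) M)) (FF M))
    (hR : IsSeriesRed R) (H : Set (Kbar ≃ₐ[ℚ] Kbar))
    (a : A) (ha : (a : Kbar) ∈ A.nonunits) (ha0 : a ≠ 0)
    (haK : ∀ σ ∈ H, σ (a : Kbar) = a)
    (y : JZero M') (g : FF M) (hgO : g ∈ R.O)
    (hg1 : g ∈ fixedLBC H (modularFunctionFieldFull M))
    (hK : ∃ (D : Divisor.degZero (K := Kbar) (F := FF M')) (u : FF M') (c : Kbar) (s : FF M),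
      Pic0.mk D = y ∧ u ≠ 0 ∧
      (∀ v : Place Kbar (FF M'), (p : ℤ) * (D : Divisor Kbar (FF M')) v = v.ord u) ∧
      c ≠ 0 ∧ s ≠ 0 ∧
      inclBar M' M hNM u = algebraMap Kbar (FF M) c * s ^ p *
        (1 + algebraMap Kbar (FF M) (a : Kbar) * g)) :
    ∃ (G : FF M) (hG : G ∈ R.O)
      (ψ : modularFunctionFieldFullC (IsLocalRing.ResidueField A) M),
      G ∈ fixedLBC H (modularFunctionFieldFull M) ∧
      (∃ (D : Divisor.degZero (K := Kbar) (F := FF M')) (u : FF M') (c : Kbar) (s : FF M),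
        Pic0.mk D = heckeOperatorBar M' ⟨p, Fact.out⟩ y ∧ u ≠ 0 ∧
        (∀ v : Place Kbar (FF M'), (p : ℤ) * (D : Divisor Kbar (FF M')) v = v.ord u) ∧
        c ≠ 0 ∧ s ≠ 0 ∧
        inclBar M' M hNM u = algebraMap Kbar (FF M) c * s ^ p *
          (1 + algebraMap Kbar (FF M) (a : Kbar) * G)) ∧
      R.red ⟨G, hG⟩ = ψ ^ p := by
  classical
  have hp : p.Prime := Fact.out
  haveI : NeZero p := ⟨hp.ne_zero⟩
  haveI : IsAlgClosed (IsLocalRing.ResidueField A) := isAlgClosed_residueField A
  haveI : CharP (IsLocalRing.ResidueField A) p := charP_residueField hA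
  haveI : ExpChar (IsLocalRing.ResidueField A) p := ExpChar.prime hp
  haveI : PerfectRing (IsLocalRing.ResidueField A) p := inferInstance
  obtain ⟨D, u, c, s, hD, hu, hdiv, hc, hs, hnf⟩ := hK
  have hares : IsLocalRing.residue A a = 0 := by
    rw [R.π_eq_zero_iff]
    exact ha
  -- the Kummer function of `T_p y`
  obtain ⟨hN0, D', hD', hD'ord⟩ := kummer_hecke M' p (heckeInputsAlong_Qbar M' p) p D u hu hdiv
  obtain ⟨d, G, hG, ψ, hG1, hnorm, hred, -⟩ :=
    ltp_kummer M p A H hpM (A.mem_nonunits_iff.mp hA) R hR c s a hares ha0 haK g hgO hg1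
  have hs' : Fermat.Agent.LatE.normBeta M p s ≠ 0 := tpl_norm_ne_zero M p hpM s hs
  refine ⟨G, hG, ψ, hG1, ⟨D', Fermat.Agent.LatE.normBeta M' p u, c ^ d,
    Fermat.Agent.LatE.normBeta M p s, ?_, hN0, hD'ord, pow_ne_zero _ hc, hs', ?_⟩, hred⟩
  · rw [← hD]
    exact hD'.symm
  · have h1 : inclBar M' M hNM (Fermat.Agent.LatE.normBeta M' p u)
        = Fermat.Agent.LatE.normBeta M p (inclBar M' M hNM u) := nic_tp hp hpM hNM u
    rw [h1, hnf]
    exact hnorm

end Step

end Fermat.Agent.S33lib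

end
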