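/-
Item 86 (S33), block LEV, piece (V-a) (helper15): VALUATION THEORY over `K' = ℚ̄^H`.

`A` a valuation subring of `ℚ̄` over the prime `p`, `I = I_A` its inertia group, `K0 = ℚ̄^I`
(discretely valued with uniformiser `p`: `S36lib.vdisc_k0`).  For a subgroup `H` with
`H ∩ I` of finite index `d` in `I` and a subfield `K'` of `ℚ̄` all of whose elements are fixed by
`H ∩ I`:

* `lvv_exists_norm` : the coset norm `N x = ∏_{σ ∈ I / (H ∩ I)} σ x` lies in `K0` and has the value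
  `v(x) ^ d`;
* `lvv_val_pow` : `v(x) ^ d ∈ v(p) ^ ℤ` for every nonzero `x ∈ K'`;
* **`lvv_vdDisc`** : `K'` is discretely valued: `∃ ϖ, VdDisc A K' ϖ`, and `v(p) = v(ϖ) ^ e`,
  `0 < e`;
* `lvv_vdDisc_fixedField` : the same for `K' = fixedField H`, `H ≤ I`;
* `lvv_unit_mul_pow` : `p = u · ϖ ^ e` with `u ∈ K'` a unit of `A`;
* `lvv_finiteIndex_stab` : the pointwise stabiliser of a finite `I`-stable set has finite index.
-/
import Mathlib
import Fermat.Agent.S13lib.DecompVal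
import Fermat.Agent.S36lib.VDisc

set_option autoImplicit false
set_option linter.unusedSectionVars false
set_option linter.unusedVariables false
set_option linter.style.haveILetI false

noncomputable section

namespace Fermat.Agent.S33lib

open Fermat.Agent.S24lib Fermat.Agent.S36lib

section Norm

variable (A : ValuationSubring Kbar)

/-- **the coset norm**: for `x` fixed by `H ∩ I`, `H ∩ I` of finite index `d` in `I`, there is an
element of `K0` of value `v(x) ^ d`. -/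
theorem lvv_exists_norm (H : Subgroup (Kbar ≃ₐ[ℚ] Kbar))
    (hfin : (H.subgroupOf (A.inertiaSubgroupIn ℚ)).FiniteIndex)
    (x : Kbar) (hx : ∀ σ ∈ H, σ ∈ A.inertiaSubgroupIn ℚ → σ x = x) :
    ∃ N : Kbar, N ∈ k0Field A ∧
      A.valuation N = A.valuation x ^ (H.subgroupOf (A.inertiaSubgroupIn ℚ)).index := by
  classical
  haveI : Algebra.IsAlgebraic ℚ Kbar := AlgebraicClosure.isAlgebraic ℚ
  haveI : Finite (↥(A.inertiaSubgroupIn ℚ) ⧸ H.subgroupOf (A.inertiaSubgroupIn ℚ)) :=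
    Subgroup.finite_quotient_of_finiteIndex
  letI : Fintype (↥(A.inertiaSubgroupIn ℚ) ⧸ H.subgroupOf (A.inertiaSubgroupIn ℚ)) :=
    Fintype.ofFinite _
  -- the orbit map on cosets
  have hwd : ∀ a b : ↥(A.inertiaSubgroupIn ℚ),
      (QuotientGroup.leftRel (H.subgroupOf (A.inertiaSubgroupIn ℚ))) a b →
      (a : Kbar ≃ₐ[ℚ] Kbar) x = (b : Kbar ≃ₐ[ℚ] Kbar) x := by
    intro a b hab
    rw [QuotientGroup.leftRel_apply] at hab
    have h1 : ((a⁻¹ * b : ↥(A.inertiaSubgroupIn ℚ)) : Kbar ≃ₐ[ℚ] Kbar) ∈ H :=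
      Subgroup.mem_subgroupOf.mp hab
    have h2 := hx _ h1 (a⁻¹ * b).2
    have h3 : ((a⁻¹ * b : ↥(A.inertiaSubgroupIn ℚ)) : Kbar ≃ₐ[ℚ] Kbar) x
        = (a : Kbar ≃ₐ[ℚ] Kbar)⁻¹ ((b : Kbar ≃ₐ[ℚ] Kbar) x) := rfl
    rw [h3] at h2
    have h4 : (a : Kbar ≃ₐ[ℚ] Kbar) ((a : Kbar ≃ₐ[ℚ] Kbar)⁻¹ ((b : Kbar ≃ₐ[ℚ] Kbar) x))
        = (a : Kbar ≃ₐ[ℚ] Kbar) x := congrArg (fun y => (a : Kbar ≃ₐ[ℚ] Kbar) y) h2
    rw [← AlgEquiv.mul_apply, mul_inv_cancel, AlgEquiv.one_apply] at h4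
    exact h4.symm
  let f : ↥(A.inertiaSubgroupIn ℚ) ⧸ H.subgroupOf (A.inertiaSubgroupIn ℚ) → Kbar :=
    fun q => Quotient.liftOn' q (fun σ : ↥(A.inertiaSubgroupIn ℚ) => (σ : Kbar ≃ₐ[ℚ] Kbar) x) hwd
  have hf_mk : ∀ σ : ↥(A.inertiaSubgroupIn ℚ),
      f (QuotientGroup.mk σ) = (σ : Kbar ≃ₐ[ℚ] Kbar) x := fun σ => rfl
  have hf_smul : ∀ (τ : ↥(A.inertiaSubgroupIn ℚ))
      (q : ↥(A.inertiaSubgroupIn ℚ) ⧸ H.subgroupOf (A.inertiaSubgroupIn ℚ)),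
      (τ : Kbar ≃ₐ[ℚ] Kbar) (f q) = f (τ • q) := by
    intro τ q
    induction q using QuotientGroup.induction_on with
    | H σ =>
      rw [MulAction.Quotient.smul_mk, hf_mk, hf_mk]
      rfl
  have hf_val : ∀ q, A.valuation (f q) = A.valuation x := by
    intro q
    induction q using QuotientGroup.induction_on with
    | H σ =>
      rw [hf_mk]
      exact Fermat.Agent.S13lib.val_map_of_mem_inertiaSubgroupIn A σ.2 x
  refine ⟨∏ q, f q, ?_, ?_⟩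
  · rw [mem_k0Field_iff]
    intro τ hτ
    rw [map_prod]
    have h1 : ∀ q, τ (f q) = f ((⟨τ, hτ⟩ : ↥(A.inertiaSubgroupIn ℚ)) • q) :=
      fun q => hf_smul ⟨τ, hτ⟩ q
    simp_rw [h1]
    exact Fintype.prod_equiv (MulAction.toPerm (⟨τ, hτ⟩ : ↥(A.inertiaSubgroupIn ℚ))) _ _
      (fun q => rfl)
  · rw [map_prod, Finset.prod_congr rfl (fun q _ => hf_val q), Finset.prod_const,
      Finset.card_univ, Subgroup.index_eq_card, Nat.card_eq_fintype_card]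

/-- `v(x) ^ d ∈ v(p) ^ ℤ` for every nonzero `x` fixed by `H ∩ I` -/
theorem lvv_val_pow {p : ℕ} (hp : p.Prime) (hA : A.LiesOverPrime p)
    (H : Subgroup (Kbar ≃ₐ[ℚ] Kbar))
    (hfin : (H.subgroupOf (A.inertiaSubgroupIn ℚ)).FiniteIndex)
    (x : Kbar) (hx0 : x ≠ 0) (hx : ∀ σ ∈ H, σ ∈ A.inertiaSubgroupIn ℚ → σ x = x) :
    ∃ n : ℤ, A.valuation x ^ (H.subgroupOf (A.inertiaSubgroupIn ℚ)).index
      = A.valuation (p : Kbar) ^ n := by
  obtain ⟨N, hN, hv⟩ := lvv_exists_norm A H hfin x hx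
  have hvx : A.valuation x ≠ 0 := by rwa [Ne, map_eq_zero]
  have hN0 : N ≠ 0 := by
    intro h
    rw [h, map_zero] at hv
    exact pow_ne_zero _ hvx hv.symm
  obtain ⟨n, hn⟩ := k0_val_eq_zpow A p hp hA N ((mem_k0Field_iff A N).mp hN) hN0
  exact ⟨n, by rw [← hv, hn]⟩

end Norm

section Disc

variable (A : ValuationSubring Kbar) {p : ℕ}

/-- **discreteness of `K'`**: a subfield `K'` of `ℚ̄` whose elements are fixed by `H ∩ I`,
`H ∩ I` of finite index in the inertia group `I` of `A`, is discretely valued by `A`; and `p` has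
a positive exponent. -/
theorem lvv_vdDisc (hp : p.Prime) (hA : A.LiesOverPrime p) (H : Subgroup (Kbar ≃ₐ[ℚ] Kbar))
    (hfin : (H.subgroupOf (A.inertiaSubgroupIn ℚ)).FiniteIndex)
    (K' : Subfield Kbar)
    (hK' : ∀ c ∈ K', ∀ σ ∈ H, σ ∈ A.inertiaSubgroupIn ℚ → σ c = c) :
    ∃ ϖ : Kbar, VdDisc A K' ϖ ∧
      ∃ e : ℕ, 0 < e ∧ A.valuation (p : Kbar) = A.valuation ϖ ^ e := by
  classical
  have hd0 : (H.subgroupOf (A.inertiaSubgroupIn ℚ)).index ≠ 0 := hfin.index_ne_zero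
  generalize hd : (H.subgroupOf (A.inertiaSubgroupIn ℚ)).index = d at hd0
  have hπlt : A.valuation (p : Kbar) < 1 := k0_val_q_lt_one A p hA
  have hπne : A.valuation (p : Kbar) ≠ 0 := k0_val_q_ne_zero A p hp
  have hπpos : 0 < A.valuation (p : Kbar) := zero_lt_iff.mpr hπne
  have hpow : ∀ x ∈ K', x ≠ 0 → ∃ n : ℤ, A.valuation x ^ d = A.valuation (p : Kbar) ^ n := by
    intro x hx hx0
    obtain ⟨n, hn⟩ := lvv_val_pow A hp hA H hfin x hx0 (hK' x hx)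
    exact ⟨n, by rw [← hd, hn]⟩
  -- the subgroup of exponents
  let S : AddSubgroup ℤ :=
    { carrier := {n | ∃ x ∈ K', x ≠ 0 ∧ A.valuation x ^ d = A.valuation (p : Kbar) ^ n}
      zero_mem' := ⟨1, K'.one_mem, one_ne_zero, by simp⟩
      add_mem' := by
        rintro a b ⟨x, hx, hx0, hxa⟩ ⟨y, hy, hy0, hyb⟩
        exact ⟨x * y, K'.mul_mem hx hy, mul_ne_zero hx0 hy0, by
          rw [map_mul, mul_pow, hxa, hyb, zpow_add₀ hπne]⟩
      neg_mem' := by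
        rintro a ⟨x, hx, hx0, hxa⟩
        exact ⟨x⁻¹, K'.inv_mem hx, inv_ne_zero hx0, by
          rw [map_inv₀, inv_pow, hxa, zpow_neg]⟩ }
  have hS : ∀ n : ℤ, n ∈ S ↔
      ∃ x ∈ K', x ≠ 0 ∧ A.valuation x ^ d = A.valuation (p : Kbar) ^ n := fun n => Iff.rfl
  have hdS : (d : ℤ) ∈ S :=
    ⟨(p : Kbar), natCast_mem K' p, Nat.cast_ne_zero.mpr hp.ne_zero, by rw [zpow_natCast]⟩
  obtain ⟨m, hm⟩ := Int.subgroup_cyclic S
  have hmS : m ∈ S := by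
    rw [hm]
    exact AddSubgroup.mem_closure_singleton_self m
  have hm0 : m ≠ 0 := by
    intro h0
    rw [hm, h0] at hdS
    obtain ⟨k, hk⟩ := AddSubgroup.mem_closure_singleton.mp hdS
    rw [smul_zero] at hk
    exact hd0 (by exact_mod_cast hk.symm)
  -- a generator with positive exponent
  obtain ⟨m', hm'pos, hm'S, hgen⟩ : ∃ m' : ℤ, 0 < m' ∧ m' ∈ S ∧ ∀ n ∈ S, ∃ k : ℤ, n = k * m' := by
    rcases lt_or_gt_of_ne hm0 with h | h
    · refine ⟨-m, by omega, S.neg_mem hmS, ?_⟩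
      intro n hn
      rw [hm] at hn
      obtain ⟨k, hk⟩ := AddSubgroup.mem_closure_singleton.mp hn
      exact ⟨-k, by rw [← hk, smul_eq_mul]; ring⟩
    · refine ⟨m, h, hmS, ?_⟩
      intro n hn
      rw [hm] at hn
      obtain ⟨k, hk⟩ := AddSubgroup.mem_closure_singleton.mp hn
      exact ⟨k, by rw [← hk, smul_eq_mul]⟩
  obtain ⟨ϖ, hϖK, hϖ0, hϖv⟩ := (hS m').mp hm'S
  have hvϖ0 : A.valuation ϖ ≠ 0 := by rwa [Ne, map_eq_zero]
  have hvϖpos : 0 < A.valuation ϖ := zero_lt_iff.mpr hvϖ0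
  -- `v(ϖ) < 1`
  have hϖlt : A.valuation ϖ < 1 := by
    by_contra hge
    rw [not_lt] at hge
    have h1 : 1 ≤ A.valuation ϖ ^ d := one_le_pow₀ hge
    rw [hϖv] at h1
    have h2 : A.valuation (p : Kbar) ^ m' < 1 := by
      obtain ⟨k, hk⟩ := Int.eq_ofNat_of_zero_le (le_of_lt hm'pos)
      rw [hk, zpow_natCast]
      exact pow_lt_one₀ (le_of_lt hπpos) hπlt (by
        intro h0
        rw [h0] at hk
        simp at hk
        omega)
    exact absurd h1 (not_le.mpr h2)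
  have hdisc : ∀ x ∈ K', x ≠ 0 → ∃ n : ℤ, A.valuation x = A.valuation ϖ ^ n := by
    intro x hx hx0
    obtain ⟨n, hn⟩ := hpow x hx hx0
    obtain ⟨k, hk⟩ := hgen n ((hS n).mpr ⟨x, hx, hx0, hn⟩)
    refine ⟨k, ?_⟩
    have h1 : A.valuation x ^ d = (A.valuation ϖ ^ k) ^ d := by
      rw [hn, hk, mul_comm k m', zpow_mul, ← hϖv, ← zpow_natCast (A.valuation ϖ ^ k) d,
        ← zpow_natCast (A.valuation ϖ) d, ← zpow_mul, ← zpow_mul, mul_comm]
    exact (pow_left_inj₀ zero_le zero_le hd0).mp h1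
  have hd' : VdDisc A K' ϖ := ⟨hϖK, hϖ0, hϖlt, hdisc⟩
  refine ⟨ϖ, hd', ?_⟩
  have hpA : (p : Kbar) ∈ A := (A.valuation_le_one_iff _).mp (le_of_lt hπlt)
  obtain ⟨e, he⟩ := hd'.exists_pow (natCast_mem K' p) hpA (Nat.cast_ne_zero.mpr hp.ne_zero)
  refine ⟨e, Nat.pos_of_ne_zero ?_, he⟩
  intro h0
  rw [h0, pow_zero] at he
  exact absurd he (ne_of_lt hπlt)

/-- `p = u · ϖ ^ e` with `u ∈ K'` a unit of `A` -/
theorem lvv_unit_mul_pow (hp : p.Prime) {K' : Subfield Kbar} {ϖ : Kbar} (hd : VdDisc A K' ϖ)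
    {e : ℕ} (he : A.valuation (p : Kbar) = A.valuation ϖ ^ e) :
    ∃ u : Kbar, u ∈ K' ∧ u ∈ A ∧ u⁻¹ ∈ A ∧ (p : Kbar) = u * ϖ ^ e := by
  obtain ⟨hϖK, hϖ0, -, -⟩ := hd
  have hp0 : (p : Kbar) ≠ 0 := Nat.cast_ne_zero.mpr hp.ne_zero
  have hv0 : A.valuation ϖ ^ e ≠ 0 := pow_ne_zero _ (by rwa [Ne, map_eq_zero])
  have hu : A.valuation ((p : Kbar) * (ϖ ^ e)⁻¹) = 1 := by
    rw [map_mul, map_inv₀, map_pow, he, mul_inv_cancel₀ hv0]
  refine ⟨(p : Kbar) * (ϖ ^ e)⁻¹, K'.mul_mem (natCast_mem K' p) (K'.inv_mem (K'.pow_mem hϖK e)),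
    (A.valuation_le_one_iff _).mp (le_of_eq hu), ?_, ?_⟩
  · rw [← A.valuation_le_one_iff, map_inv₀, hu, inv_one]
  · rw [mul_assoc, inv_mul_cancel₀ (pow_ne_zero _ hϖ0), mul_one]

/-- **discreteness of the field of invariants** of a subgroup `H ≤ I` of finite index, in the
form used by the concrete layer (`K' : IntermediateField ℚ ℚ̄`). -/
theorem lvv_vdDisc_fixedField (hp : p.Prime) (hA : A.LiesOverPrime p)
    (H : Subgroup (Kbar ≃ₐ[ℚ] Kbar))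
    (hfin : (H.subgroupOf (A.inertiaSubgroupIn ℚ)).FiniteIndex) :
    ∃ ϖ : Kbar, VdDisc A (IntermediateField.fixedField H).toSubfield ϖ ∧
      ∃ e : ℕ, 0 < e ∧ A.valuation (p : Kbar) = A.valuation ϖ ^ e :=
  lvv_vdDisc A hp hA H hfin (IntermediateField.fixedField H).toSubfield
    (fun c hc σ hσ _ => (IntermediateField.mem_fixedField_iff H c).mp hc σ hσ)

/-- the field of invariants of `H ≤ I` contains `K0` -/
theorem lvv_k0Field_le (H : Subgroup (Kbar ≃ₐ[ℚ] Kbar)) (hH : H ≤ A.inertiaSubgroupIn ℚ) :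
    k0Field A ≤ IntermediateField.fixedField H := by
  intro c hc
  rw [IntermediateField.mem_fixedField_iff]
  intro σ hσ
  exact (mem_k0Field_iff A c).mp hc σ (hH hσ)

end Disc

section Stab

variable {G : Type*} [Group G] {α : Type*} [MulAction G α]

/-- the pointwise stabiliser of a finite set stable under the subgroup `I` has finite index in
`I`. -/
theorem lvv_finiteIndex_fixing (I : Subgroup G) (X : Set α) (hX : X.Finite)
    (hst : ∀ σ ∈ I, ∀ x ∈ X, σ • x ∈ X) :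
    ((fixingSubgroup G X).subgroupOf I).FiniteIndex := by
  classical
  haveI : Finite ↥X := hX
  letI act : MulAction ↥I ↥X :=
    { smul := fun σ x => ⟨(σ : G) • (x : α), hst σ σ.2 x x.2⟩
      one_smul := fun x => Subtype.ext (one_smul G (x : α))
      mul_smul := fun σ τ x => Subtype.ext (mul_smul (σ : G) (τ : G) (x : α)) }
  have hker : (MulAction.toPermHom ↥I ↥X).ker = (fixingSubgroup G X).subgroupOf I := by
    ext σ
    rw [MonoidHom.mem_ker, Subgroup.mem_subgroupOf, mem_fixingSubgroup_iff]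
    constructor
    · intro h x hx
      have h1 := congrArg (fun e : Equiv.Perm ↥X => ((e ⟨x, hx⟩ : ↥X) : α)) h
      exact h1
    · intro h
      ext x
      exact h x x.2
  rw [← hker]
  exact Subgroup.finiteIndex_ker _

/-- the pointwise stabiliser of an `I`-stable set is normalised by `I` -/
theorem lvv_conj_mem_fixing (I : Subgroup G) (X : Set α)
    (hst : ∀ σ ∈ I, ∀ x ∈ X, σ • x ∈ X) {τ σ : G} (hτ : τ ∈ I)
    (hσ : σ ∈ fixingSubgroup G X) : τ * σ * τ⁻¹ ∈ fixingSubgroup G X := by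
  rw [mem_fixingSubgroup_iff] at hσ ⊢
  intro x hx
  have h1 : τ⁻¹ • x ∈ X := hst _ (I.inv_mem hτ) x hx
  rw [mul_smul, mul_smul, hσ _ h1, smul_inv_smul]

end Stab

section Pack

variable (A : ValuationSubring Kbar) (ζ : Kbar) {α : Type*} [MulAction (Kbar ≃ₐ[ℚ] Kbar) α]
  (X : Set α)

/-- `H`: the elements of the inertia group of `A` which fix `ζ` and every element of `X` -/
def lvvH : Subgroup (Kbar ≃ₐ[ℚ] Kbar) :=
  fixingSubgroup (Kbar ≃ₐ[ℚ] Kbar) X ⊓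
    (A.inertiaSubgroupIn ℚ ⊓ (IntermediateField.adjoin ℚ {ζ}).fixingSubgroup)

theorem mem_lvvH_iff (σ : Kbar ≃ₐ[ℚ] Kbar) :
    σ ∈ lvvH A ζ X ↔ (∀ x ∈ X, σ • x = x) ∧ σ ∈ A.inertiaSubgroupIn ℚ ∧ σ ζ = ζ := by
  rw [lvvH, Subgroup.mem_inf, Subgroup.mem_inf, mem_fixingSubgroup_iff]
  constructor
  · rintro ⟨h1, h2, h3⟩
    refine ⟨h1, h2, ?_⟩
    exact (IntermediateField.mem_fixingSubgroup_iff _ _).mp h3 ζ
      (IntermediateField.mem_adjoin_simple_self ℚ ζ)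
  · rintro ⟨h1, h2, h3⟩
    refine ⟨h1, h2, ?_⟩
    rw [IntermediateField.mem_fixingSubgroup_iff]
    intro x hx
    have hle : (IntermediateField.adjoin ℚ {ζ} : IntermediateField ℚ Kbar)
        ≤ IntermediateField.fixedField (Subgroup.zpowers σ) := by
      rw [IntermediateField.adjoin_simple_le_iff, IntermediateField.mem_fixedField_iff]
      intro τ hτ
      obtain ⟨n, rfl⟩ := Subgroup.mem_zpowers_iff.mp hτ
      have hstab : σ ∈ MulAction.stabilizer (Kbar ≃ₐ[ℚ] Kbar) ζ := h3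
      exact (MulAction.stabilizer (Kbar ≃ₐ[ℚ] Kbar) ζ).zpow_mem hstab n
    exact (IntermediateField.mem_fixedField_iff _ _).mp (hle hx) σ (Subgroup.mem_zpowers σ)

theorem lvvH_le_inertia : lvvH A ζ X ≤ A.inertiaSubgroupIn ℚ :=
  fun σ hσ => ((mem_lvvH_iff A ζ X σ).mp hσ).2.1

theorem lvvH_smul {σ : Kbar ≃ₐ[ℚ] Kbar} (hσ : σ ∈ lvvH A ζ X) {x : α} (hx : x ∈ X) :
    σ • x = x :=
  ((mem_lvvH_iff A ζ X σ).mp hσ).1 x hx

theorem lvvH_zeta {σ : Kbar ≃ₐ[ℚ] Kbar} (hσ : σ ∈ lvvH A ζ X) : σ ζ = ζ :=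
  ((mem_lvvH_iff A ζ X σ).mp hσ).2.2

/-- the roots of unity of order dividing `n` -/
theorem lvv_finite_roots {n : ℕ} (hn : n ≠ 0) : {y : Kbar | y ^ n = 1}.Finite := by
  classical
  have h1 : {y : Kbar | y ^ n = 1} ⊆ ((Polynomial.nthRoots n (1 : Kbar)).toFinset : Set Kbar) := by
    intro y hy
    rw [Finset.mem_coe, Multiset.mem_toFinset, Polynomial.mem_nthRoots (Nat.pos_of_ne_zero hn)]
    exact hy
  exact (Finset.finite_toSet _).subset h1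

/-- `H` has finite index in the inertia group, for `X` finite and stable under inertia and `ζ`
a root of unity. -/
theorem lvvH_finiteIndex {n : ℕ} (hn : n ≠ 0) (hζ : ζ ^ n = 1) (hX : X.Finite)
    (hst : ∀ σ ∈ A.inertiaSubgroupIn ℚ, ∀ x ∈ X, σ • x ∈ X) :
    ((lvvH A ζ X).subgroupOf (A.inertiaSubgroupIn ℚ)).FiniteIndex := by
  haveI h1 := lvv_finiteIndex_fixing (A.inertiaSubgroupIn ℚ) X hX hst
  haveI h2 := lvv_finiteIndex_fixing (α := Kbar) (A.inertiaSubgroupIn ℚ) {y : Kbar | y ^ n = 1}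
    (lvv_finite_roots hn) (fun σ _ y hy => by
      show (σ y) ^ n = 1
      rw [← map_pow, show y ^ n = 1 from hy, map_one])
  have h3 : ((fixingSubgroup (Kbar ≃ₐ[ℚ] Kbar) X).subgroupOf (A.inertiaSubgroupIn ℚ) ⊓
      (fixingSubgroup (Kbar ≃ₐ[ℚ] Kbar) {y : Kbar | y ^ n = 1}).subgroupOf
        (A.inertiaSubgroupIn ℚ)).FiniteIndex := inferInstance
  refine @Subgroup.finiteIndex_of_le _ _ _ _ h3 (fun σ hσ => ?_)
  rw [Subgroup.mem_inf, Subgroup.mem_subgroupOf, Subgroup.mem_subgroupOf] at hσ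
  rw [Subgroup.mem_subgroupOf, mem_lvvH_iff]
  refine ⟨(mem_fixingSubgroup_iff _).mp hσ.1, σ.2, ?_⟩
  exact (mem_fixingSubgroup_iff _).mp hσ.2 ζ hζ

/-- `H` is normalised by the inertia group -/
theorem lvvH_conj {n : ℕ} (hn : n ≠ 0) (hζ : IsPrimitiveRoot ζ n)
    (hst : ∀ σ ∈ A.inertiaSubgroupIn ℚ, ∀ x ∈ X, σ • x ∈ X)
    {τ σ : Kbar ≃ₐ[ℚ] Kbar} (hτ : τ ∈ A.inertiaSubgroupIn ℚ) (hσ : σ ∈ lvvH A ζ X) :
    τ * σ * τ⁻¹ ∈ lvvH A ζ X := by
  obtain ⟨h1, h2, h3⟩ := (mem_lvvH_iff A ζ X σ).mp hσ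
  rw [mem_lvvH_iff]
  refine ⟨?_, ?_, ?_⟩
  · have := lvv_conj_mem_fixing (A.inertiaSubgroupIn ℚ) X hst hτ
      ((mem_fixingSubgroup_iff _).mpr h1)
    exact (mem_fixingSubgroup_iff _).mp this
  · exact (A.inertiaSubgroupIn ℚ).mul_mem ((A.inertiaSubgroupIn ℚ).mul_mem hτ h2)
      ((A.inertiaSubgroupIn ℚ).inv_mem hτ)
  · -- `τ⁻¹ ζ` is a power of `ζ`
    have hτζ : (τ⁻¹ ζ) ^ n = 1 := by rw [← map_pow, hζ.pow_eq_one, map_one]
    haveI : NeZero n := ⟨hn⟩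
    obtain ⟨i, -, hi⟩ := hζ.eq_pow_of_pow_eq_one hτζ
    show τ (σ (τ⁻¹ ζ)) = ζ
    rw [← hi, map_pow, h3, hi]
    show τ (τ⁻¹ ζ) = ζ
    rw [← AlgEquiv.mul_apply, mul_inv_cancel, AlgEquiv.one_apply]

/-- `K' = ℚ̄^H` -/
def lvvK : IntermediateField ℚ Kbar := IntermediateField.fixedField (lvvH A ζ X)

theorem mem_lvvK_iff (c : Kbar) : c ∈ lvvK A ζ X ↔ ∀ σ ∈ lvvH A ζ X, σ c = c :=
  IntermediateField.mem_fixedField_iff _ _

/-- the form of `hK'` used by `rlg_lift1` (helper4) -/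
theorem lvv_hK' : ∀ c : Kbar, c ∈ lvvK A ζ X
    ↔ ∀ σ ∈ ((lvvH A ζ X : Subgroup (Kbar ≃ₐ[ℚ] Kbar)) : Set (Kbar ≃ₐ[ℚ] Kbar)), σ c = c :=
  fun c => mem_lvvK_iff A ζ X c

theorem k0Field_le_lvvK : k0Field A ≤ lvvK A ζ X :=
  lvv_k0Field_le A _ (lvvH_le_inertia A ζ X)

theorem zeta_mem_lvvK : ζ ∈ lvvK A ζ X :=
  (mem_lvvK_iff A ζ X ζ).mpr fun _ hσ => lvvH_zeta A ζ X hσ

/-- **the base of the `K'`-layer**: `K' = ℚ̄^H` is discretely valued, and `p = u ϖ ^ e`. -/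
theorem lvv_main {p : ℕ} (hp : p.Prime) (hA : A.LiesOverPrime p) (hζ : ζ ^ p = 1)
    (hX : X.Finite) (hst : ∀ σ ∈ A.inertiaSubgroupIn ℚ, ∀ x ∈ X, σ • x ∈ X) :
    ∃ ϖ : Kbar, VdDisc A (lvvK A ζ X).toSubfield ϖ ∧
      ∃ e : ℕ, 0 < e ∧ A.valuation (p : Kbar) = A.valuation ϖ ^ e ∧
        ∃ u : Kbar, u ∈ lvvK A ζ X ∧ u ∈ A ∧ u⁻¹ ∈ A ∧ (p : Kbar) = u * ϖ ^ e := by
  obtain ⟨ϖ, hd, e, he0, he⟩ := lvv_vdDisc_fixedField A hp hA (lvvH A ζ X)
    (lvvH_finiteIndex A ζ X hp.ne_zero hζ hX hst)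
  exact ⟨ϖ, hd, e, he0, he, lvv_unit_mul_pow A hp hd he⟩

end Pack

end Fermat.Agent.S33lib

end
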