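import Mathlib
import Fermat.Agent.S36lib.Speed
import Fermat.Agent.S33lib.RayLift

/-!
# Item 86 (S33), block LEV, piece LIFT' (helper4): lifting with `H`-fixed functions, generic

The generalisation of `RayLift.lean` from `(I1, K0(ζ), ζ - 1)` to `(H, K', ϖ)`:
`H` a set of automorphisms of `ℚ̄` with field of invariants `K'` (`hK'`), `K0 = ℚ̄^I ⊆ K'` (`hK0`),
`K'` discretely valued by `A` with uniformiser `ϖ` (`VdDisc A K'.toSubfield ϖ`),
`F' = fixedLBC H (modularFunctionFieldFull L)` the subfield of `H`-fixed functions of level `L`.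

* `rlgA1 A K'` = `A ∩ K'` is a discrete valuation ring (`rlgA1_isDiscreteValuationRing`);
* `rlg_descent` : for an `H`-stable divisor `D`, every `z ∈ L(D) ∩ O` has the same reduction as
  some `s ∈ L(D) ∩ F' ∩ O` (given discreteness (DISC') of `O` on `F'`);
* `rlg_lift1` : (LIFT') from (F3) and (DISC').
-/

set_option autoImplicit false
set_option linter.style.haveILetI false
set_option linter.unusedSectionVars false
set_option synthInstance.maxHeartbeats 400000

noncomputable section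

namespace Fermat.Agent.S33lib

open ModularCurve AlgebraicCurve HahnSeries
open Fermat.Agent.S24lib Fermat.Agent.S34lib Fermat.Agent.GoodRed Fermat.Agent.RRlib
  Fermat.Agent.S36lib

section Main

variable (A : ValuationSubring Kbar) (H : Set (Kbar ≃ₐ[ℚ] Kbar))
  (K' : IntermediateField ℚ Kbar) (L : ℕ) [NeZero L]

/-- `A' = A ∩ K'`, as a valuation subring of `K'` -/
def rlgA1 : ValuationSubring K' := A.comap (algebraMap K' Kbar)

theorem mem_rlgA1_iff (x : K') : x ∈ rlgA1 A K' ↔ (x : Kbar) ∈ A := Iff.rfl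

/-- **`A ∩ K'` is a discrete valuation ring** (uniformiser `ϖ`) -/
theorem rlgA1_isDiscreteValuationRing {ϖ : Kbar} (hd : VdDisc A K'.toSubfield ϖ) :
    IsDiscreteValuationRing (rlgA1 A K') := by
  obtain ⟨h1, h2, h3, h4⟩ := hd
  refine rlf_dvr_of_disc (algebraMap K' Kbar) A ⟨ϖ, h1⟩ ?_ h3 ?_
  · intro h
    exact h2 (congrArg Subtype.val h)
  · intro x hx
    exact h4 (x : Kbar) x.2 (fun h => hx (Subtype.ext h))

/-- the `K'`-space `L(D) ∩ F'` -/
def rlgV (hK' : ∀ c : Kbar, c ∈ K' ↔ ∀ σ ∈ H, σ c = c) (D : Divisor Kbar (FF L)) :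
    Submodule K' (FF L) where
  carrier := {x | x ∈ riemannRochSpace (K := Kbar) D ∧
    x ∈ fixedLBC H (modularFunctionFieldFull L)}
  add_mem' := fun hx hy => ⟨Submodule.add_mem _ hx.1 hy.1, add_mem hx.2 hy.2⟩
  zero_mem' := ⟨Submodule.zero_mem _, zero_mem _⟩
  smul_mem' := fun c x hx => by
    refine ⟨?_, ?_⟩
    · have : c • x = (c : Kbar) • x := (algebraMap_smul Kbar c x).symm
      rw [this]
      exact Submodule.smul_mem _ _ hx.1
    · rw [Algebra.smul_def]
      exact mul_mem ((algebraMap_mem_fixedLBC_iff (modularFunctionFieldFull L) hK' _).mpr c.2)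
        hx.2

theorem mem_rlgV (hK' : ∀ c : Kbar, c ∈ K' ↔ ∀ σ ∈ H, σ c = c) (D : Divisor Kbar (FF L))
    (x : FF L) :
    x ∈ rlgV H K' L hK' D ↔ x ∈ riemannRochSpace (K := Kbar) D ∧
      x ∈ fixedLBC H (modularFunctionFieldFull L) := Iff.rfl

variable {A H K' L}

/-- `L(D)` is spanned over `ℚ̄` by its `H`-fixed elements (`D` stable under `H`) -/
theorem rlg_le_span [RRBase Kbar (FF L)] (hK' : ∀ c : Kbar, c ∈ K' ↔ ∀ σ ∈ H, σ c = c)
    (D : Divisor Kbar (FF L))
    (hD : ∀ σ ∈ H, galFF L σ • D = D) {z : FF L}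
    (hz : z ∈ riemannRochSpace (K := Kbar) D) :
    z ∈ Submodule.span Kbar ((rlgV H K' L hK' D : Submodule K' (FF L)) : Set (FF L)) := by
  classical
  obtain ⟨κ, hF, hDec, b, hb, -⟩ := dk_exists_basis_L L H D hD
  have hbV : ∀ j, ((b j : riemannRochSpace (K := Kbar) D) : FF L) ∈ rlgV H K' L hK' D :=
    fun j => ⟨(b j).2, fun σ hσ => hb σ hσ j⟩
  have h1 : (⟨z, hz⟩ : riemannRochSpace (K := Kbar) D) = ∑ j, b.repr ⟨z, hz⟩ j • b j :=
    (b.sum_repr _).symm
  have h2 : z = ∑ j, b.repr ⟨z, hz⟩ j • ((b j : riemannRochSpace (K := Kbar) D) : FF L) := by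
    have := congrArg (Subtype.val : riemannRochSpace (K := Kbar) D → FF L) h1
    rw [Submodule.coe_sum] at this
    exact this
  rw [h2]
  exact Submodule.sum_mem _ fun j _ => Submodule.smul_mem _ _ (Submodule.subset_span (hbV j))

variable {k : Type*} [Field k] {π : A →+* k} {Fk : Type*} [Field Fk] [Algebra k Fk]

/-- **bounded coordinates**: finitely many Laurent coefficients, multiplied by a power of `p`,
are injective on `L(D) ∩ F'` and integral on `L(D) ∩ F' ∩ O`. -/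
theorem rlg_bounded [RRBase Kbar (FF L)] (hK' : ∀ c : Kbar, c ∈ K' ↔ ∀ σ ∈ H, σ c = c)
    {p : ℕ} (hp : p.Prime) (hA : A.LiesOverPrime p)
    (R : ConstRed A π Fk (FF L)) (D : Divisor Kbar (FF L)) :
    ∃ (m : ℕ) (ℓ : rlgV H K' L hK' D →ₗ[K'] (Fin m → K')), Function.Injective ℓ ∧
      ∀ z : rlgV H K' L hK' D, (z : FF L) ∈ R.O → ∀ j, ℓ z j ∈ rlgA1 A K' := by
  classical
  have hfin : Module.Finite Kbar (riemannRochSpace (K := Kbar) D) := finite_riemannRochSpace _
  obtain ⟨κ, hF, hDec, b, piv, -, hrepr⟩ :=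
    dk_exists_echelon (L := Kbar) ((dkCoeff L).comp (riemannRochSpace (K := Kbar) D).subtype)
      (fun x y h => Subtype.ext (dkCoeff_injective L h))
  have hq0 : (p : Kbar) ≠ 0 := Nat.cast_ne_zero.mpr hp.ne_zero
  have hqA : (p : Kbar) ∈ A := A.nonunits_subset hA
  have hN1 : ∀ y : Kbar, ∃ N : ℕ, ∀ N' : ℕ, N ≤ N' → (p : Kbar) ^ N' * y ∈ A := by
    intro y
    by_cases hy : y = 0
    · exact ⟨0, fun N' _ => by rw [hy, mul_zero]; exact A.zero_mem⟩
    obtain ⟨N, hN⟩ := k0_exists_pow_lt A p hp hA y⁻¹ (inv_ne_zero hy)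
    refine ⟨N, fun N' hN' => ?_⟩
    have h1 : (p : Kbar) ^ N * y ∈ A := by
      rw [← A.valuation_le_one_iff, map_mul, map_pow]
      rw [map_inv₀] at hN
      have hvy : 0 < A.valuation y := by
        rw [zero_lt_iff, Ne, map_eq_zero]; exact hy
      have := mul_lt_mul_of_pos_right hN hvy
      rw [inv_mul_cancel₀ hvy.ne'] at this
      exact this.le
    obtain ⟨d, rfl⟩ := Nat.exists_eq_add_of_le hN'
    rw [_root_.pow_add, mul_comm ((p : Kbar) ^ N), mul_assoc]
    exact A.mul_mem _ _ (pow_mem hqA d) h1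
  obtain ⟨N, hN⟩ := vdesc_forms_bounded R (riemannRochSpace (K := Kbar) D) hfin (p : Kbar) hN1
    (fun k : κ => (LinearMap.proj (piv k)).comp (dkCoeff L))
  let e : κ ≃ Fin (Fintype.card κ) := Fintype.equivFin κ
  have hcoeffK1 : ∀ (x : rlgV H K' L hK' D) (i : ℤ),
      (p : Kbar) ^ N * ((x : FF L) : LaurentSeries Kbar).coeff i ∈ K' := by
    intro x i
    exact mul_mem (pow_mem (natCast_mem _ p) N)
      ((mem_fixedLBC_iff_coeff (modularFunctionFieldFull L) hK').mp x.2.2 i)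
  refine ⟨Fintype.card κ,
    { toFun := fun x j => ⟨(p : Kbar) ^ N *
        ((x : FF L) : LaurentSeries Kbar).coeff (piv (e.symm j)), hcoeffK1 x _⟩
      map_add' := fun x y => by
        funext j
        apply Subtype.ext
        show (p : Kbar) ^ N *
          (((x + y : rlgV H K' L hK' D) : FF L) : LaurentSeries Kbar).coeff _ = _
        have : (((x + y : rlgV H K' L hK' D) : FF L) : LaurentSeries Kbar) =
            ((x : FF L) : LaurentSeries Kbar) + ((y : FF L) : LaurentSeries Kbar) := rfl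
        rw [this, HahnSeries.coeff_add, mul_add]
        rfl
      map_smul' := fun a x => by
        funext j
        apply Subtype.ext
        show (p : Kbar) ^ N *
          (((a • x : rlgV H K' L hK' D) : FF L) : LaurentSeries Kbar).coeff _ = _
        have h1 : ((a • x : rlgV H K' L hK' D) : FF L) = (a : Kbar) • (x : FF L) :=
          (algebraMap_smul Kbar a (x : FF L)).symm
        have h2 := dkCoeff_apply L ((a : Kbar) • (x : FF L)) (piv (e.symm j))
        rw [map_smul] at h2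
        rw [h1, ← h2]
        show (p : Kbar) ^ N * ((a : Kbar) • dkCoeff L (x : FF L)) (piv (e.symm j)) = _
        rw [Pi.smul_apply, dkCoeff_apply, smul_eq_mul]
        show _ = (a : Kbar) * ((p : Kbar) ^ N * _)
        ring }, ?_, ?_⟩
  · intro x y hxy
    apply Subtype.ext
    have hx' : ∀ k : κ, ((x : FF L) : LaurentSeries Kbar).coeff (piv k) =
        ((y : FF L) : LaurentSeries Kbar).coeff (piv k) := by
      intro k
      have h1 := congrFun hxy (e k)
      have h2 := congrArg Subtype.val h1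
      simp only [LinearMap.coe_mk, AddHom.coe_mk, Equiv.symm_apply_apply] at h2
      exact mul_left_cancel₀ (pow_ne_zero N hq0) h2
    have hrx : b.repr ⟨(x : FF L), x.2.1⟩ = b.repr ⟨(y : FF L), y.2.1⟩ := by
      ext k
      rw [hrepr, hrepr]
      exact hx' k
    have := b.repr.injective hrx
    exact congrArg (fun t : riemannRochSpace (K := Kbar) D => (t : FF L)) this
  · intro z hzO j
    rw [mem_rlgA1_iff]
    exact hN (z : FF L) z.2.1 hzO (e.symm j)

/-- **the lattice-descent data** of `L(D) ∩ F'` for the valuation ring of a constant reduction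
which is discrete on `F'` (uniformiser `ϖ`). -/
theorem rlg_latDescData [RRBase Kbar (FF L)] (hK' : ∀ c : Kbar, c ∈ K' ↔ ∀ σ ∈ H, σ c = c)
    (hK0 : k0Field A ≤ K') {ϖ : Kbar} (hd : VdDisc A K'.toSubfield ϖ)
    {p : ℕ} (hp : p.Prime) (hA : A.LiesOverPrime p) (R : ConstRed A π Fk (FF L))
    (hdisc : ∀ f ∈ fixedLBC H (modularFunctionFieldFull L), f ≠ 0 → ∃ n : ℤ,
      algebraMap Kbar (FF L) (ϖ ^ n) * f ∈ R.O ∧
        (algebraMap Kbar (FF L) (ϖ ^ n) * f)⁻¹ ∈ R.O)
    (D : Divisor Kbar (FF L)) :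
    LatDescData A (rlgA1 A K') (⟨ϖ, hd.1⟩ : K')
      (fun _ : Unit => R.O) (rlgV H K' L hK' D) := by
  have hlam0 : ϖ ≠ 0 := hd.2.1
  have hlam1 : A.valuation ϖ < 1 := hd.2.2.1
  have hlamA : ϖ ∈ A := (A.valuation_le_one_iff _).mp hlam1.le
  refine
    { mem_A0 := fun _ => Iff.rfl
      res := ?_
      q_ne := fun h => hlam0 (congrArg Subtype.val h)
      q_mem := (A.mem_nonunits_iff).mpr hlam1
      mem_O := fun _ a ha => R.algebraMap_mem ⟨a, ha⟩
      mem_m := ?_
      bounded := ?_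
      span := ?_
      disc := ?_ }
  · intro a ha
    obtain ⟨a0, ha0, haa⟩ := vdesc_res hp hA a ha
    exact ⟨⟨(a0 : Kbar), hK0 a0.2⟩, ha0, haa⟩
  · intro _ a ha
    have haA : a ∈ A := A.nonunits_subset ha
    have h1 := R.red_algebraMap ⟨a, haA⟩
    rw [(R.π_eq_zero_iff ⟨a, haA⟩).mpr ha, map_zero] at h1
    exact (R.red_eq_zero_iff _).mp h1
  · obtain ⟨m, ℓ, hℓ, hℓA⟩ := rlg_bounded (H := H) (K' := K') hK' hp hA R D
    exact ⟨m, ℓ, hℓ, fun z hz => hℓA z (hz ())⟩
  · intro x hx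
    obtain ⟨N, hN⟩ := rlf_span_of_disc A R.O R.algebraMap_mem ϖ hlam0 hlamA
      (fun hx0 => hdisc x hx.2 hx0)
    exact ⟨N, fun _ => hN N le_rfl⟩
  · intro z hz hzm _
    exact rlf_div_of_disc A R.O R.algebraMap_mem ϖ hlam0 hlamA
      (fun hz0 => hdisc z hz.2 hz0) (hzm ())

/-- **descent of reductions `A → A ∩ K'`**: for an `H`-stable divisor `D`, an element of
`L(D) ∩ O` has the same reduction as an `H`-fixed element of `L(D) ∩ O`. -/
theorem rlg_descent [RRBase Kbar (FF L)] (hK' : ∀ c : Kbar, c ∈ K' ↔ ∀ σ ∈ H, σ c = c)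
    (hK0 : k0Field A ≤ K') {ϖ : Kbar} (hd : VdDisc A K'.toSubfield ϖ)
    {p : ℕ} (hp : p.Prime) (hA : A.LiesOverPrime p) (R : ConstRed A π Fk (FF L))
    (hdisc : ∀ f ∈ fixedLBC H (modularFunctionFieldFull L), f ≠ 0 → ∃ n : ℤ,
      algebraMap Kbar (FF L) (ϖ ^ n) * f ∈ R.O ∧
        (algebraMap Kbar (FF L) (ϖ ^ n) * f)⁻¹ ∈ R.O)
    (D : Divisor Kbar (FF L)) (hD : ∀ σ ∈ H, galFF L σ • D = D)
    (z : R.O) (hz : (z : FF L) ∈ riemannRochSpace (K := Kbar) D) :
    ∃ s : R.O, (s : FF L) ∈ fixedLBC H (modularFunctionFieldFull L) ∧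
      (s : FF L) ∈ riemannRochSpace (K := Kbar) D ∧ R.red s = R.red z := by
  haveI : IsDiscreteValuationRing (rlgA1 A K') := rlgA1_isDiscreteValuationRing A K' hd
  have HD := rlg_latDescData hK' hK0 hd hp hA R hdisc D
  obtain ⟨z₀, hz₀V, hz₀O, hcong⟩ :=
    ld_descent HD (z : FF L) (rlg_le_span hK' D hD hz) (fun _ => z.2)
  refine ⟨⟨z₀, hz₀O ()⟩, hz₀V.2, hz₀V.1, ?_⟩
  have h1 : R.red (z - ⟨z₀, hz₀O ()⟩) = 0 := (R.red_eq_zero_iff _).mpr (hcong ())
  rw [map_sub, sub_eq_zero] at h1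
  exact h1.symm

/-- **(LIFT')**, concrete and generic in `(H, K', ϖ)`: from the lifting property (F3) of the
constant reduction `R` and the discreteness of `R.O` on `F' = F^H`: for an `H`-stable divisor `D`
of degree `> 2g - 2`, every element of `L̄(r_* D)` is the reduction of an `H`-fixed element of
`L(D) ∩ O`. -/
theorem rlg_lift1 [RRHyp Kbar (FF L)] [RRHyp k Fk]
    (hK' : ∀ c : Kbar, c ∈ K' ↔ ∀ σ ∈ H, σ c = c)
    (hK0 : k0Field A ≤ K') {ϖ : Kbar} (hd : VdDisc A K'.toSubfield ϖ)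
    {p : ℕ} (hp : p.Prime) (hA : A.LiesOverPrime p) (R : ConstRed A π Fk (FF L))
    (r : Place Kbar (FF L) → Place k Fk)
    (hF3 : ∀ D : Divisor Kbar (FF L), 2 * (genusFF Kbar (FF L) : ℤ) - 2 < Divisor.degree D →
      R.W D = riemannRochSpace (K := k) (Finsupp.mapDomain r D))
    (hdisc : ∀ f ∈ fixedLBC H (modularFunctionFieldFull L), f ≠ 0 → ∃ n : ℤ,
      algebraMap Kbar (FF L) (ϖ ^ n) * f ∈ R.O ∧
        (algebraMap Kbar (FF L) (ϖ ^ n) * f)⁻¹ ∈ R.O)
    (D : Divisor Kbar (FF L)) (hD : ∀ σ ∈ H, galFF L σ • D = D)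
    (hdeg : 2 * (genusFF Kbar (FF L) : ℤ) - 2 < Divisor.degree D)
    (w : Fk) (hw : w ∈ riemannRochSpace (K := k) (Finsupp.mapDomain r D)) :
    ∃ s : R.O, (s : FF L) ∈ fixedLBC H (modularFunctionFieldFull L) ∧
      (s : FF L) ∈ riemannRochSpace (K := Kbar) D ∧ R.red s = w := by
  rw [← hF3 D hdeg, R.mem_W_iff] at hw
  obtain ⟨z, hz, rfl⟩ := hw
  exact rlg_descent hK' hK0 hd hp hA R hdisc D hD z hz

end Main

end Fermat.Agent.S33lib

end
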