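/-
Item 86 (S33), block LEV, the ASSEMBLY (helper21).

Function form with fixed data (helper10's G1 decision): `M'` the level, `M` an auxiliary level
(`IsAuxLevel p M`, `M' ∣ M`), `R` a series reduction of `F_M` along `A | p`, `ζ` a primitive
`p`-th root of unity, `ι = inclBar M' M`.

* `lva_surj`  : an additive map which is injective on a finite subgroup `X` and maps `X` to
                `X` is onto `X`;
* `lva_hyp`   : the hypotheses `LcgHyp`, `LcgPlace` (at `∞` and `0`) of the abstract level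
                induction, for the functions fixed by `H` and a uniformiser `ϖ` of the fixed
                field `K'` of `H`;
* `lva_base`  : the base of the induction: a class of `Ker` killed by `p` and fixed by `H` has
                rational level `1`;
* `lva_core`  : (LEV) for `H`, `K'`, `ϖ` given, from the base of the induction (the classes of
                `X` have rational level `1`);
* **`lva_main`** : (LEV), function form with fixed data.
-/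
import Mathlib
import Fermat.Agent.S33lib.LevStep
import Fermat.Agent.S33lib.LevKum
import Fermat.Agent.S33lib.LevVal
import Fermat.Agent.S33lib.LevDisc
import Fermat.Agent.S33lib.RayLiftGen
import Fermat.Agent.S33lib.RayInst
import Fermat.Agent.S33lib.LocGen4

set_option autoImplicit false
set_option linter.unusedSectionVars false
set_option linter.unusedVariables false
set_option linter.style.haveILetI false
set_option synthInstance.maxHeartbeats 400000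

noncomputable section

namespace Fermat.Agent.S33lib

open AlgebraicCurve ModularCurve HahnSeries
open Fermat.Agent.GoodRed Fermat.Agent.S24lib Fermat.Agent.S34lib Fermat.Agent.S36lib
  Fermat.Agent.RRlib Fermat.Agent.FFlib Fermat.Agent.GM Fermat.Agent.HeckeBar Fermat.Agent.S18lib
  Fermat.Agent.LatE Fermat.Agent.S37lib

/-! ### surjectivity -/

section Abstract

variable {U : Type*} [AddCommGroup U]

/-- an additive map which is injective on a finite subgroup `X` and maps `X` into `X` is onto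
`X` -/
theorem lva_surj (X : AddSubgroup U) (hfin : (X : Set U).Finite) (T : U →+ U)
    (hTX : ∀ x ∈ X, T x ∈ X) (hinj : ∀ x ∈ X, T x = 0 → x = 0) :
    ∀ x ∈ X, ∃ y ∈ X, T y = x := by
  classical
  haveI : Finite ↥X := hfin.to_subtype
  let f : ↥X → ↥X := fun x => ⟨T x.1, hTX x.1 x.2⟩
  have hf : Function.Injective f := by
    intro x y hxy
    have h1 : T x.1 = T y.1 := congrArg Subtype.val hxy
    have h2 : T (x.1 - y.1) = 0 := by rw [map_sub, h1, sub_self]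
    have h3 := hinj (x.1 - y.1) (X.sub_mem x.2 y.2) h2
    exact Subtype.ext (sub_eq_zero.mp h3)
  have hs : Function.Surjective f := Finite.surjective_of_injective hf
  intro x hx
  obtain ⟨y, hy⟩ := hs ⟨x, hx⟩
  exact ⟨y.1, y.2, congrArg Subtype.val hy⟩

end Abstract

/-! ### the hypotheses of the abstract level induction -/

section Hyp

variable {M : ℕ} [NeZero M] {A : ValuationSubring Kbar}
variable {R : ConstRed A (IsLocalRing.residue A) (Fk (IsLocalRing.ResidueField A) M) (FF M)}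

/-- the uniformiser lies in the maximal ideal -/
theorem lva_nonunit {K1 : Subfield Kbar} {ϖ : Kbar} (hd : VdDisc A K1 ϖ) : ϖ ∈ A.nonunits :=
  (A.mem_nonunits_iff).mpr hd.2.2.1

set_option maxHeartbeats 1600000 in
/-- **the hypotheses of `lcg_lev_main`** at an auxiliary level, for the functions fixed by `H` -/
theorem lva_hyp (p : ℕ) [Fact p.Prime] (haux : IsAuxLevel p M) (hA : A.LiesOverPrime p)
    (hR : IsSeriesRed R) {H : Set (Kbar ≃ₐ[ℚ] Kbar)} {K' : IntermediateField ℚ Kbar}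
    (hK' : ∀ c : Kbar, c ∈ K' ↔ ∀ σ ∈ H, σ c = c) (hK0 : k0Field A ≤ K')
    (hHI : ∀ σ ∈ H, σ ∈ A.inertiaSubgroupIn ℚ)
    {ϖ : Kbar} (hd : VdDisc A K'.toSubfield ϖ) {e : ℕ}
    (hpe : ∃ ε ∈ A, (p : Kbar) = ϖ ^ e * ε) :
    haveI : IsAlgClosed (IsLocalRing.ResidueField A) := isAlgClosed_residueField A
    haveI : RRHyp Kbar (FF M) := mod_rrHyp M
    haveI : RRHyp (IsLocalRing.ResidueField A) (Fk (IsLocalRing.ResidueField A) M) :=
      mr_rrHyp (IsLocalRing.ResidueField A) M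
    ∃ r : Place Kbar (FF M) →
        Place (IsLocalRing.ResidueField A) (Fk (IsLocalRing.ResidueField A) M),
      LcgHyp R r p (⟨ϖ, A.nonunits_subset (lva_nonunit hd)⟩ : A) e
        (fixedLBC H (modularFunctionFieldFull M))
        (fun D : Divisor Kbar (FF M) => ∀ g ∈ rccG M H, g • D = D) ∧
      LcgPlace p (fixedLBC H (modularFunctionFieldFull M))
        (fun D : Divisor Kbar (FF M) => ∀ g ∈ rccG M H, g • D = D) (infPlaceBar M) ∧
      LcgPlace p (fixedLBC H (modularFunctionFieldFull M))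
        (fun D : Divisor Kbar (FF M) => ∀ g ∈ rccG M H, g • D = D) (rqZero M) ∧
      r (infPlaceBar M) ≠ r (rqZero M) := by
  have hp : p.Prime := Fact.out
  haveI : IsAlgClosed (IsLocalRing.ResidueField A) := isAlgClosed_residueField A
  haveI : RRHyp Kbar (FF M) := mod_rrHyp M
  haveI : RRHyp (IsLocalRing.ResidueField A) (Fk (IsLocalRing.ResidueField A) M) :=
    mr_rrHyp (IsLocalRing.ResidueField A) M
  obtain ⟨r, hr, hF3, -, -⟩ := liftInf_exists_r p haux hA hR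
  have hF1 : ∀ x ∈ fixedLBC H (modularFunctionFieldFull M), ∀ g ∈ rccG M H, g • x = x := by
    intro x hx
    rw [rcc_forall_G]
    exact hx
  have hdisc : ∀ f ∈ fixedLBC H (modularFunctionFieldFull M), f ≠ 0 → ∃ n : ℤ,
      algebraMap Kbar (FF M) (ϖ ^ n) * f ∈ R.O ∧
        (algebraMap Kbar (FF M) (ϖ ^ n) * f)⁻¹ ∈ R.O :=
    fun f hf hf0 => lvd_disc hK' hK0 hd hR hf hf0
  refine ⟨r, lcgHyp_of_ray R hr hp hd.2.1 (lva_nonunit hd) hpe
      (fixedLBC H (modularFunctionFieldFull M)) (rccG M H)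
      (lvd_const_fixed M hK' hd.1) hdisc ?_ ?_,
    lcgPlace_of_fixed hp.ne_zero (rccG M H) hF1 (rcc_hP M _),
    lcgPlace_of_fixed hp.ne_zero (rccG M H) hF1 ?_,
    rq_hPQ p haux.1 (rin_one_lt_of_aux haux) hA hR hr⟩
  · intro c
    obtain ⟨a, ha, -, hfix⟩ := lvd_res (L := M) (H := H) hp hA hHI c
    exact ⟨a, ha, hfix⟩
  · intro D hDG hdeg w hw
    rw [rcc_forall_G] at hDG
    exact rlg_lift1 hK' hK0 hd hp hA R r hF3 hdisc D hDG hdeg w hw
  · rw [rcc_forall_G]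
    intro τ _
    exact galFF_smul_rqZero M τ

end Hyp

/-! ### the base of the induction -/

section Base

variable {M' M : ℕ} [NeZero M'] [NeZero M] {A : ValuationSubring Kbar}
variable {R : ConstRed A (IsLocalRing.residue A) (Fk (IsLocalRing.ResidueField A) M) (FF M)}

/-- the inclusion `F_{M'} → F_M` preserves `H`-fixed functions -/
theorem lva_inclBar_mem (hNM : M' ∣ M) {H : Set (Kbar ≃ₐ[ℚ] Kbar)}
    {K' : IntermediateField ℚ Kbar} (hK' : ∀ c : Kbar, c ∈ K' ↔ ∀ σ ∈ H, σ c = c)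
    {f : FF M'} (hf : f ∈ fixedLBC H (modularFunctionFieldFull M')) :
    inclBar M' M hNM f ∈ fixedLBC H (modularFunctionFieldFull M) := by
  rw [mem_fixedLBC_iff_coeff (modularFunctionFieldFull M') hK'] at hf
  rw [mem_fixedLBC_iff_coeff (modularFunctionFieldFull M) hK']
  intro n
  rw [coe_inclBar]
  exact hf n

set_option maxHeartbeats 1600000 in
/-- **the base of the level induction**: a class of `Ker` killed by `p` and fixed by `H` has
rational level `1` -/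
theorem lva_base (hNM : M' ∣ M) (p : ℕ) [Fact p.Prime] (haux : IsAuxLevel p M)
    (hA : A.LiesOverPrime p) (hR : IsSeriesRed R)
    {H : Set (Kbar ≃ₐ[ℚ] Kbar)} {K' : IntermediateField ℚ Kbar}
    (hK' : ∀ c : Kbar, c ∈ K' ↔ ∀ σ ∈ H, σ c = c) (hK0 : k0Field A ≤ K')
    (hHI : ∀ σ ∈ H, σ ∈ A.inertiaSubgroupIn ℚ)
    {ϖ : Kbar} (hd : VdDisc A K'.toSubfield ϖ) {e : ℕ}
    (hpe : ∃ ε ∈ A, (p : Kbar) = ϖ ^ e * ε)
    (x : JZero M') (hxH : ∀ σ ∈ H, σ • x = x) (hpx : p • x = 0)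
    (hker : ∃ (D : Divisor.degZero (K := Kbar) (F := FF M')) (u : FF M'), Pic0.mk D = x ∧ u ≠ 0 ∧
      (∀ v : Place Kbar (FF M'), (p : ℤ) * (D : Divisor Kbar (FF M')) v = v.ord u) ∧
      ∃ (c : Kbar) (w : FF M), c ≠ 0 ∧ w ≠ 0 ∧
        algebraMap Kbar (FF M) c * inclBar M' M hNM u * w ^ p - 1 ∈ R.O.nonunits) :
    lcgLev R (⟨ϖ, A.nonunits_subset (lva_nonunit hd)⟩ : A)
      (fixedLBC H (modularFunctionFieldFull M)) (lvkKum hNM p) 1 x := by
  classical
  haveI : RRHyp Kbar (FF M') := mod_rrHyp M'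
  haveI : IsAlgClosed (IsLocalRing.ResidueField A) := isAlgClosed_residueField A
  haveI : RRHyp Kbar (FF M) := mod_rrHyp M
  haveI : RRHyp (IsLocalRing.ResidueField A) (Fk (IsLocalRing.ResidueField A) M) :=
    mr_rrHyp (IsLocalRing.ResidueField A) M
  have hp : p.Prime := Fact.out
  obtain ⟨r, HH, -, -, -⟩ := lva_hyp (R := R) p haux hA hR hK' hK0 hHI hd hpe
  obtain ⟨D₀, u₀, hD₀, hu₀, hdiv₀, c₀, w₀, hc₀, hw₀, hW₀⟩ := hker
  -- CAN: an `H`-fixed Kummer function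
  have hxG : ∀ g ∈ rccG M' H, g • x = x := by
    rw [rcc_forall_G]
    intro τ hτ
    exact hxH τ hτ
  obtain ⟨D₁, f₁, hD₁, hD₁G, hf₁0, hf₁G, hdiv₁⟩ :=
    rcn_pic0 (rccG M' H) (infPlaceBar M') (rcc_hP M' _) (rccLc M')
      (rcc_lc_ne_zero M') (rcc_lc_mul M') (rcc_hlcG M' _) p x hxG hpx
  rw [rcc_forall_G] at hD₁G hf₁G
  have hf₁1 : f₁ ∈ fixedLBC H (modularFunctionFieldFull M') := hf₁G
  have hdiv₁' : ∀ v : Place Kbar (FF M'), (p : ℤ) * (D₁ : Divisor Kbar (FF M')) v = v.ord f₁ := by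
    intro v
    rw [← divOf_apply hf₁0 v, hdiv₁, Finsupp.smul_apply, nsmul_eq_mul]
  -- comparison of the two Kummer functions
  have hpr : (D₁ : Divisor Kbar (FF M')) - (D₀ : Divisor Kbar (FF M'))
      ∈ Divisor.principal (K := Kbar) (F := FF M') := by
    rw [← rcn_mk_eq_mk_iff, hD₁, hD₀]
  obtain ⟨t, ht0, htdiv⟩ := rcn_exists_divOf hpr
  have hut0 : u₀ * t ^ p ≠ 0 := mul_ne_zero hu₀ (pow_ne_zero p ht0)
  have hord : ∀ v : Place Kbar (FF M'), v.ord (f₁ * (u₀ * t ^ p)⁻¹) = 0 := by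
    intro v
    have ht := DFunLike.congr_fun htdiv v
    rw [divOf_apply ht0 v, Finsupp.sub_apply] at ht
    rw [Place.ord_mul _ hf₁0 (inv_ne_zero hut0), Place.ord_inv,
      Place.ord_mul _ hu₀ (pow_ne_zero p ht0), ord_pow_nat, ← hdiv₁' v, ← hdiv₀ v, ht]
    ring
  obtain ⟨a, ha⟩ := RRBase.const_of_forall_ord_nonneg (K := Kbar)
    (f₁ * (u₀ * t ^ p)⁻¹) (fun v => (hord v).ge)
  have hf₁eq : f₁ = algebraMap Kbar (FF M') a * (u₀ * t ^ p) := by
    rw [ha, mul_assoc, inv_mul_cancel₀ hut0, mul_one]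
  have ha0 : a ≠ 0 := by
    rintro rfl
    rw [map_zero, zero_mul] at hf₁eq
    exact hf₁0 hf₁eq
  -- at the auxiliary level
  set ι := inclBar M' M hNM with hι
  have hιt0 : ι t ≠ 0 := (map_ne_zero ι).mpr ht0
  have hιf₁ : ι f₁ = algebraMap Kbar (FF M) a * (ι u₀ * ι t ^ p) := by
    rw [hf₁eq, map_mul, map_mul, map_pow, AlgHom.commutes]
  have hW₁ : ∃ (c : Kbar) (w : FF M), c ≠ 0 ∧ w ≠ 0 ∧
      algebraMap Kbar (FF M) c * ι f₁ * w ^ p - 1 ∈ R.O.nonunits := by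
    refine ⟨c₀ * a⁻¹, w₀ * (ι t)⁻¹, mul_ne_zero hc₀ (inv_ne_zero ha0),
      mul_ne_zero hw₀ (inv_ne_zero hιt0), ?_⟩
    have ha' : algebraMap Kbar (FF M) a ≠ 0 :=
      (map_ne_zero_iff _ (algebraMap Kbar (FF M)).injective).mpr ha0
    have hcalc : algebraMap Kbar (FF M) (c₀ * a⁻¹) * ι f₁ * (w₀ * (ι t)⁻¹) ^ p
        = algebraMap Kbar (FF M) c₀ * ι u₀ * w₀ ^ p := by
      rw [hιf₁, map_mul, map_inv₀, mul_pow, inv_pow]
      field_simp
    rw [hcalc]
    exact hW₀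
  have hιf₁1 : ι f₁ ∈ fixedLBC H (modularFunctionFieldFull M) := lva_inclBar_mem hNM hK' hf₁1
  have hιf₁0 : ι f₁ ≠ 0 := (map_ne_zero ι).mpr hf₁0
  obtain ⟨Dι, hDι⟩ := rin_exists_div (K := Kbar) p (ι f₁)
    (rin_dvd_ord_inclBar hNM p (D₁ : Divisor Kbar (FF M')) hdiv₁')
  -- normalisation
  have hF1 : ∀ x ∈ fixedLBC H (modularFunctionFieldFull M), ∀ g ∈ rccG M H, g • x = x := by
    intro x hx
    rw [rcc_forall_G]
    exact hx
  obtain ⟨c₁, s₁, f₂, n, E, hc₁, hs₁, hfeq, hf₂1, ⟨hf₂O, hf₂red⟩, -, -, -, -⟩ :=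
    ray_normalise (R := R) (F1 := fixedLBC H (modularFunctionFieldFull M)) (lam := ϖ)
      HH.isPlaceRed hp.ne_zero hd.2.1 (rccG M H) hF1 HH.ϖ_mem_F1 HH.disc HH.res1 HH.lift
      (rcc_hP M _) (ι f₁) hιf₁1 hιf₁0 Dι hDι hW₁
  -- level `1`
  obtain ⟨g, hg1, hg⟩ := lcg_lev_one_of_red HH ⟨f₂, hf₂O⟩ hf₂1 hf₂red
  refine ⟨g, hg1, ?_⟩
  rw [← hg]
  exact ⟨D₁, f₁, c₁, s₁, hD₁, hf₁0, hdiv₁', hc₁, hs₁, hfeq⟩

end Base

/-! ### the assembly -/

section Core

variable {M' M : ℕ} [NeZero M'] [NeZero M] {A : ValuationSubring Kbar}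
variable {R : ConstRed A (IsLocalRing.residue A) (Fk (IsLocalRing.ResidueField A) M) (FF M)}

set_option maxHeartbeats 1600000 in
/-- **(LEV), core**: `H` a set of inertia elements with fixed field `K' ⊇ K₀`, discretely valued
with uniformiser `ϖ`, `p = u ϖ ^ e`; `X` a finite subgroup of `J₀(M')` stable under `T_p`, on
which `T_p` is injective, and whose classes have rational level `1`.  Then the classes of `X` are
deep. -/
theorem lva_core (hNM : M' ∣ M) (p : ℕ) [Fact p.Prime] (haux : IsAuxLevel p M)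
    (hA : A.LiesOverPrime p) (hR : IsSeriesRed R) {ζ : Kbar} (hζ : IsPrimitiveRoot ζ p)
    {H : Set (Kbar ≃ₐ[ℚ] Kbar)} {K' : IntermediateField ℚ Kbar}
    (hK' : ∀ c : Kbar, c ∈ K' ↔ ∀ σ ∈ H, σ c = c) (hK0 : k0Field A ≤ K')
    (hHI : ∀ σ ∈ H, σ ∈ A.inertiaSubgroupIn ℚ)
    {ϖ : Kbar} (hd : VdDisc A K'.toSubfield ϖ) {e : ℕ}
    (hpu : ∃ u : Kbar, u ∈ A ∧ u⁻¹ ∈ A ∧ (p : Kbar) = u * ϖ ^ e)
    (X : AddSubgroup (JZero M')) (hXfin : (X : Set (JZero M')).Finite)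
    (hXT : ∀ x ∈ X, heckeOperatorBar M' ⟨p, Fact.out⟩ x ∈ X)
    (hXinj : ∀ x ∈ X, heckeOperatorBar M' ⟨p, Fact.out⟩ x = 0 → x = 0)
    (BASE : ∀ x ∈ X, lcgLev R (⟨ϖ, A.nonunits_subset (lva_nonunit hd)⟩ : A)
      (fixedLBC H (modularFunctionFieldFull M)) (lvkKum hNM p) 1 x) :
    ∀ x ∈ X, ∃ (D : Divisor.degZero (K := Kbar) (F := FF M')) (u : FF M'),
      Pic0.mk D = x ∧ u ≠ 0 ∧
      (∀ v : Place Kbar (FF M'), (p : ℤ) * (D : Divisor Kbar (FF M')) v = v.ord u) ∧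
      ∃ (c : Kbar) (s g : FF M), c ≠ 0 ∧ s ≠ 0 ∧ g ∈ R.O ∧
        inclBar M' M hNM u
          = algebraMap Kbar (FF M) c * s ^ p
            * (1 + algebraMap Kbar (FF M) ((ζ - 1) ^ p) * g) := by
  classical
  have hp : p.Prime := Fact.out
  haveI : IsAlgClosed (IsLocalRing.ResidueField A) := isAlgClosed_residueField A
  haveI : RRHyp Kbar (FF M) := mod_rrHyp M
  haveI : RRHyp (IsLocalRing.ResidueField A) (Fk (IsLocalRing.ResidueField A) M) :=
    mr_rrHyp (IsLocalRing.ResidueField A) M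
  have hϖA : ϖ ∈ A := A.nonunits_subset (lva_nonunit hd)
  have hpe : ∃ ε ∈ A, (p : Kbar) = ϖ ^ e * ε := by
    obtain ⟨u, hu, -, h⟩ := hpu
    exact ⟨u, hu, by rw [h, mul_comm]⟩
  obtain ⟨r, HH, HP, HQ, hPQ⟩ := lva_hyp (R := R) p haux hA hR hK' hK0 hHI hd hpe
  have HK := lvk_kum hNM p (fixedLBC H (modularFunctionFieldFull M))
  -- the constants `ϖ ^ j`
  have hϖK : ∀ σ ∈ H, σ ϖ = ϖ := (hK' ϖ).mp hd.1
  -- the step
  have hT : ∀ j : ℕ, 1 ≤ j → (p - 1) * j < p * e → ∀ y ∈ (X : Set (JZero M')),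
      ∀ g : R.O, (g : FF M) ∈ fixedLBC H (modularFunctionFieldFull M) →
      lvkKum hNM p y ((1 + lcgC R (⟨ϖ, hϖA⟩ : A) ^ j * g : R.O) : FF M) →
      ∃ G : R.O, (G : FF M) ∈ fixedLBC H (modularFunctionFieldFull M) ∧
        lvkKum hNM p (heckeOperatorBar M' ⟨p, Fact.out⟩ y)
          ((1 + lcgC R (⟨ϖ, hϖA⟩ : A) ^ j * G : R.O) : FF M) ∧
        (p ∣ j → ∃ (ψ : Fk (IsLocalRing.ResidueField A) M) (c : IsLocalRing.ResidueField A),
          R.red G = ψ ^ p + algebraMap (IsLocalRing.ResidueField A)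
            (Fk (IsLocalRing.ResidueField A) M) c) := by
    intro j hj1 _ y _ g hg1 hK
    have haj : ((⟨ϖ, hϖA⟩ : A) ^ j : A) = ⟨ϖ ^ j, pow_mem hϖA j⟩ := Subtype.ext (by simp)
    have hajn : ((⟨ϖ ^ j, pow_mem hϖA j⟩ : A) : Kbar) ∈ A.nonunits := by
      rw [A.mem_nonunits_iff, map_pow]
      exact pow_lt_one₀ zero_le hd.2.2.1 (by omega)
    have haj0 : (⟨ϖ ^ j, pow_mem hϖA j⟩ : A) ≠ 0 := by
      intro h0
      exact pow_ne_zero j hd.2.1 (congrArg Subtype.val h0)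
    have hajK : ∀ σ ∈ H, σ ((⟨ϖ ^ j, pow_mem hϖA j⟩ : A) : Kbar)
        = ((⟨ϖ ^ j, pow_mem hϖA j⟩ : A) : Kbar) := by
      intro σ hσ
      show σ (ϖ ^ j) = ϖ ^ j
      rw [map_pow, hϖK σ hσ]
    rw [lcg_coe_one_add] at hK
    obtain ⟨G, hG, ψ, hG1, hKT, hred⟩ := lva_step hNM p haux.1 hA R hR H
      ⟨ϖ ^ j, pow_mem hϖA j⟩ hajn haj0 hajK y (g : FF M) g.2 hg1 hK
    refine ⟨⟨G, hG⟩, hG1, ?_, fun _ => ⟨ψ, 0, ?_⟩⟩
    · rw [lcg_coe_one_add]
      exact hKT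
    · rw [hred, map_zero, add_zero]
  -- surjectivity of `T_p` on `X`
  have hsurj : ∀ x ∈ (X : Set (JZero M')), ∃ y ∈ (X : Set (JZero M')),
      heckeOperatorBar M' ⟨p, Fact.out⟩ y = x :=
    lva_surj X hXfin (heckeOperatorBar M' ⟨p, Fact.out⟩).toAddMonoidHom hXT hXinj
  -- the level induction
  obtain ⟨N, hN, hlev⟩ := lcg_lev_main HH HP HQ hPQ HK (X : Set (JZero M'))
    (fun y => heckeOperatorBar M' ⟨p, Fact.out⟩ y) hsurj BASE hT
  -- deep
  have hζA : ζ ∈ A := rin_zeta_mem A hp.ne_zero hζ.pow_eq_one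
  intro x hx
  exact lvk_deep_of_main hNM hp (fixedLBC H (modularFunctionFieldFull M)) (⟨ϖ, hϖA⟩ : A)
    (rdl_hlam0 hp hζ) (rdl_hlamA hp hA hζ) (rpw_p_eq hp hζ A hζA) hpu hN x (hlev x hx)

end Core

/-! ### (LEV) -/

section Main

variable {M' M : ℕ} [NeZero M'] [NeZero M] {A : ValuationSubring Kbar}
variable {R : ConstRed A (IsLocalRing.residue A) (Fk (IsLocalRing.ResidueField A) M) (FF M)}

set_option maxHeartbeats 1600000 in
/-- **(LEV)**, function form with fixed data: `X` a finite subgroup of `J₀(M')[p]` contained in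
`Ker`, stable under the inertia group of `A` and under `T_p`, on which `T_p` is injective.  Then
the classes of `X` are deep. -/
theorem lva_main (hNM : M' ∣ M) (p : ℕ) [Fact p.Prime] (haux : IsAuxLevel p M)
    (hA : A.LiesOverPrime p) (hR : IsSeriesRed R) {ζ : Kbar} (hζ : IsPrimitiveRoot ζ p)
    (X : AddSubgroup (JZero M')) (hXfin : (X : Set (JZero M')).Finite)
    (hXp : ∀ x ∈ X, p • x = 0)
    (hXker : ∀ x ∈ X, ∃ (D : Divisor.degZero (K := Kbar) (F := FF M')) (u : FF M'),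
      Pic0.mk D = x ∧ u ≠ 0 ∧
      (∀ v : Place Kbar (FF M'), (p : ℤ) * (D : Divisor Kbar (FF M')) v = v.ord u) ∧
      ∃ (c : Kbar) (w : FF M), c ≠ 0 ∧ w ≠ 0 ∧
        algebraMap Kbar (FF M) c * inclBar M' M hNM u * w ^ p - 1 ∈ R.O.nonunits)
    (hXI : ∀ τ ∈ A.inertiaSubgroupIn ℚ, ∀ x ∈ X, τ • x ∈ X)
    (hXT : ∀ x ∈ X, heckeOperatorBar M' ⟨p, Fact.out⟩ x ∈ X)
    (hXinj : ∀ x ∈ X, heckeOperatorBar M' ⟨p, Fact.out⟩ x = 0 → x = 0) :
    ∀ x ∈ X, ∃ (D : Divisor.degZero (K := Kbar) (F := FF M')) (u : FF M'),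
      Pic0.mk D = x ∧ u ≠ 0 ∧
      (∀ v : Place Kbar (FF M'), (p : ℤ) * (D : Divisor Kbar (FF M')) v = v.ord u) ∧
      ∃ (c : Kbar) (s g : FF M), c ≠ 0 ∧ s ≠ 0 ∧ g ∈ R.O ∧
        inclBar M' M hNM u
          = algebraMap Kbar (FF M) c * s ^ p
            * (1 + algebraMap Kbar (FF M) ((ζ - 1) ^ p) * g) := by
  have hp : p.Prime := Fact.out
  obtain ⟨ϖ, hd, e, he, hve, u, huK, huA, huiA, hpu⟩ :=
    lvv_main A ζ (X : Set (JZero M')) hp hA hζ.pow_eq_one hXfin hXI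
  have hK' := lvv_hK' A ζ (X : Set (JZero M'))
  have hK0 := k0Field_le_lvvK A ζ (X : Set (JZero M'))
  have hHI : ∀ σ ∈ ((lvvH A ζ (X : Set (JZero M')) : Subgroup (Kbar ≃ₐ[ℚ] Kbar)) :
      Set (Kbar ≃ₐ[ℚ] Kbar)), σ ∈ A.inertiaSubgroupIn ℚ :=
    fun σ hσ => lvvH_le_inertia A ζ (X : Set (JZero M')) hσ
  have hpe : ∃ ε ∈ A, (p : Kbar) = ϖ ^ e * ε := ⟨u, huA, by rw [hpu, mul_comm]⟩
  exact lva_core hNM p haux hA hR hζ hK' hK0 hHI hd ⟨u, huA, huiA, hpu⟩ X hXfin hXT hXinj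
    (fun x hx => lva_base hNM p haux hA hR hK' hK0 hHI hd hpe x
      (fun σ hσ => lvvH_smul A ζ (X : Set (JZero M')) hσ hx) (hXp x hx) (hXker x hx))

end Main

end Fermat.Agent.S33lib

end
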