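/-
Item 86 (S33), block LEV wired into G1 (helper21): the good-level geometry, UNCONDITIONAL.

* `lva_G1cLEV`  : `G1cLEV M' p θ'` ((LEV) at every fixed datum, `lva_main`);
* `lva_geom_good` : `S33ResJ M' p θ' → S33Geom M' p θ'` for `p ∤ M'`;
* **`lva_hGood`** : the hypothesis `hGood` of `rnkf_main`.
-/
import Mathlib
import Fermat.Agent.S33lib.LevAsm
import Fermat.Agent.S33lib.G1Conc

set_option autoImplicit false
set_option linter.unusedSectionVars false
set_option linter.unusedVariables false
set_option linter.style.haveILetI false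
set_option synthInstance.maxHeartbeats 400000

noncomputable section

namespace Fermat.Agent.S33lib

open AlgebraicCurve ModularCurve
open Fermat.Agent.RRlib Fermat.Agent.GoodRed Fermat.Agent.S24lib Fermat.Agent.HeckeBar
  Fermat.Agent.GM Fermat.Agent.S34lib Fermat.Agent.S31lib Fermat.Agent.GalRep
  Fermat.Agent.S18lib Fermat.Agent.S35lib

section Final

variable (M' p : ℕ) [NeZero M'] [Fact p.Prime]
variable {N : ℕ} {S : Finset ℕ} {κ : Type*} [Semiring κ] (θ' : HPoly N S →+* κ)

set_option maxHeartbeats 1600000 in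
/-- **(LEV)** at every fixed datum -/
theorem lva_G1cLEV : G1cLEV M' p θ' :=
  g1c_lev_of_at M' p θ'
    (fun M e _ hNM _ _ hAux B hB R hR ζ hζ X hXfin hXp hXK hXI hXT hXinj x hx =>
      lva_main hNM p hAux hB hR hζ X hXfin hXp hXK hXI hXT hXinj x hx)

set_option maxHeartbeats 1600000 in
/-- **G1 (good level)**, unconditional -/
theorem lva_geom_good (hpM : ¬ p ∣ M') (Jin : JacInput M' p) (hres : S33ResJ M' p θ') :
    S33Geom M' p θ' :=
  s33_geom_good_of_lev M' p θ' hpM Jin (lva_G1cLEV M' p θ') hres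

end Final

section HGood

/-- **`hGood` of `rnkf_main`**, unconditional -/
theorem lva_hGood (p : ℕ) [Fact p.Prime] (S : Finset ℕ) {κ : Type*} [Semiring κ] :
    ∀ (M' : ℕ) [NeZero M'] [NeZero (M' * p)] (θ'' : HPoly (M' * p) S →+* κ),
      ¬ p ∣ M' → S33ResJ M' p θ'' → S33Geom M' p θ'' :=
  s33_geom_good_hGood p S (fun M' _ _ θ'' _ => lva_G1cLEV M' p θ'')

end HGood

end Fermat.Agent.S33lib

end
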