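/-
Item 86 (S33), piece G0 (helper13): GEOM at the semistable level `M' p` from GEOM at the good
level `M'` and (TOR_p).  Complete proofs.

* `gss_degJAlpha_pow`, `gss_degJBeta_pow`: `α_*`, `β_*` intertwine the powers of the evaluations
  of a Hecke polynomial;
* `gss_hPart_alpha`, `gss_hPart_beta`: `α_* x`, `β_* x` lie in the `θ'`-part if `x` does;
* `gss_mem_hKI_alpha`, `gss_mem_hKI_beta`: `α_*`, `β_*` map `s33hKI (M' p)` into `s33hKI M'`;
* **`s33_geom_ss`** : `S33Geom M' p θ' → S33TorP M' p → S33Geom (M' * p) p θ'`.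
-/
import Mathlib
import Fermat.Agent.S33lib.Hub

set_option autoImplicit false
set_option linter.unusedSectionVars false
set_option linter.unusedVariables false
set_option linter.style.haveILetI false

noncomputable section

namespace Fermat.Agent.S33lib

open Fermat.Agent.GalRep ModularCurve Fermat.Agent.S31lib Fermat.Agent.S35lib

variable (M' : ℕ) [NeZero M'] {p : ℕ} [NeZero p] [NeZero (M' * p)] (hp : p.Prime)
variable (S : Finset ℕ)

include hp in
/-- `α_*` intertwines the powers of the evaluations of a Hecke polynomial -/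
theorem gss_degJAlpha_pow (P : HPoly (M' * p) S) (k : ℕ) (x : JZero (M' * p)) :
    degJAlpha M' p (((evalJac (M' * p) S (M' * p) P) ^ k) x) =
      ((evalJac (M' * p) S M' P) ^ k) (degJAlpha M' p x) := by
  rw [← map_pow, ← map_pow]
  exact degJAlpha_evalJac M' hp S (P ^ k) x

include hp in
/-- `β_*` intertwines the powers of the evaluations of a Hecke polynomial -/
theorem gss_degJBeta_pow (hpM : ¬ p ∣ M') (P : HPoly (M' * p) S) (k : ℕ)
    (x : JZero (M' * p)) :
    degJBeta M' p (((evalJac (M' * p) S (M' * p) P) ^ k) x) =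
      ((evalJac (M' * p) S M' P) ^ k) (degJBeta M' p x) := by
  rw [← map_pow, ← map_pow]
  exact degJBeta_evalJac M' hp S hpM (P ^ k) x

variable {S}
variable {κ : Type*} [Semiring κ] (θ' : HPoly (M' * p) S →+* κ)

include hp in
theorem gss_hPart_alpha {x : JZero (M' * p)} (hx : S33hPart (M' * p) θ' x) :
    S33hPart M' θ' (degJAlpha M' p x) := by
  intro P hP
  obtain ⟨k, hk⟩ := hx P hP
  refine ⟨k, ?_⟩
  rw [← gss_degJAlpha_pow M' hp S P k x, hk, map_zero]

include hp in
theorem gss_hPart_beta (hpM : ¬ p ∣ M') {x : JZero (M' * p)}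
    (hx : S33hPart (M' * p) θ' x) : S33hPart M' θ' (degJBeta M' p x) := by
  intro P hP
  obtain ⟨k, hk⟩ := hx P hP
  refine ⟨k, ?_⟩
  rw [← gss_degJBeta_pow M' hp S hpM P k x, hk, map_zero]

/-- a Galois-equivariant additive map `J₀(M' p) → J₀(M')` maps `s33hKI` into `s33hKI` -/
theorem gss_mem_hKI_of_equivariant (f : JZero (M' * p) →+ JZero M')
    (hf : ∀ (σ : AlgebraicClosure ℚ ≃ₐ[ℚ] AlgebraicClosure ℚ) (x : JZero (M' * p)),
      f (σ • x) = σ • f x)
    (B : ValuationSubring (AlgebraicClosure ℚ)) {x : JZero (M' * p)}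
    (hx : x ∈ s33hKI (M' * p) p B) : f x ∈ s33hKI M' p B := by
  have hle : s33hKI (M' * p) p B ≤ (s33hKI M' p B).comap f := by
    rw [s33hKI, AddSubgroup.closure_le]
    rintro z ⟨τ, hτ, y, ⟨n, hn⟩, rfl⟩
    show f (τ • y - y) ∈ s33hKI M' p B
    rw [map_sub, hf]
    refine AddSubgroup.subset_closure ⟨τ, hτ, f y, ⟨n, ?_⟩, rfl⟩
    rw [← map_nsmul, hn, map_zero]
  exact hle hx

theorem gss_mem_hKI_alpha (B : ValuationSubring (AlgebraicClosure ℚ)) {x : JZero (M' * p)}
    (hx : x ∈ s33hKI (M' * p) p B) : degJAlpha M' p x ∈ s33hKI M' p B :=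
  gss_mem_hKI_of_equivariant M' (degJAlpha M' p) (degJAlpha_smul M' p) B hx

theorem gss_mem_hKI_beta (B : ValuationSubring (AlgebraicClosure ℚ)) {x : JZero (M' * p)}
    (hx : x ∈ s33hKI (M' * p) p B) : degJBeta M' p x ∈ s33hKI M' p B :=
  gss_mem_hKI_of_equivariant M' (degJBeta M' p) (degJBeta_smul M' p) B hx

include hp in
/-- **G0**: GEOM at the semistable level `M' p` from GEOM at the good level `M'` and (TOR_p). -/
theorem s33_geom_ss (hpM : ¬ p ∣ M') (hgood : S33Geom M' p θ') (htor : S33TorP M' p) :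
    S33Geom (M' * p) p θ' := by
  intro B hB x hpx hpart hKI τ₀ hτ₀ hmoves hfix
  have ha : degJAlpha M' p x = 0 := by
    refine hgood B hB (degJAlpha M' p x) ?_ (gss_hPart_alpha M' hp θ' hpart)
      (gss_mem_hKI_alpha M' B hKI) τ₀ hτ₀ hmoves ?_
    · rw [← map_nsmul, hpx, map_zero]
    · rw [← degJAlpha_smul, hfix]
  have hb : degJBeta M' p x = 0 := by
    refine hgood B hB (degJBeta M' p x) ?_ (gss_hPart_beta M' hp θ' hpM hpart)
      (gss_mem_hKI_beta M' B hKI) τ₀ hτ₀ hmoves ?_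
    · rw [← map_nsmul, hpx, map_zero]
    · rw [← degJBeta_smul, hfix]
  exact htor B hB x hpx hKI ha hb τ₀ hτ₀ hmoves hfix

end Fermat.Agent.S33lib

end
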