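/-
Item 86 (S33), piece ORD-ALG (helper3): the final algebra of S33.

`T` a local ring, `V` free of rank `2`, `ρ : G → Aut_T(V)`, `I ⊆ D ⊆ G` with `I` normalised by `D`,
`τ₀ ∈ I` with `ε₀ - 1` a unit, `ε₀ = det ρ(τ₀)`, and the relation

  (O1)   `(ρ τ₀ - ε₀) (ρ τ - 1) = 0`   for all `τ ∈ I`.

Then `L = im (ρ τ₀ - 1)` is a line `T · b₀` (`b` a basis of `V`), stable under `D`, and `I` acts
trivially on `V / L`: this is `GaloisRepAdic.IsOrdinaryAt`.

* `oal_idem_tr_det`  : an idempotent `M` of `M₂(T)` with `det (1 + u M) = 1 + u` has trace `1`,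
                       determinant `0`;
* `oal_basis_of_unit`, `oal_exists_basis` : the image of such an idempotent is spanned by a basis
                       vector (`T` local);
* `oal_line`         : the abstract statement;
* `oal_conj_mem_inertia` : the inertia group is normalised by the decomposition group;
* `oal_isOrdinaryAt` : `ρ.IsOrdinaryAt p` from (O1) at every place over `p`.
(complete proofs, standard axioms only)
-/
import Mathlib
import Fermat.Prelude.Def_GaloisRep_LocalConditions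

set_option autoImplicit false
set_option linter.style.haveILetI false

namespace Fermat.Agent.S33lib

open Module

section Mat

variable {T : Type*} [CommRing T]

/-- an idempotent `M` of `M₂(T)` with `det (1 + u M) = 1 + u`, `u` and `1 + u` units, has trace
`1` and determinant `0`. -/
theorem oal_idem_tr_det (M : Matrix (Fin 2) (Fin 2) T) (hM : M * M = M) (u : T)
    (hu : IsUnit u) (hunit : IsUnit (1 + u)) (hdet : (1 + u • M).det = 1 + u) :
    M 0 0 + M 1 1 = 1 ∧ M 0 0 * M 1 1 = M 0 1 * M 1 0 := by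
  obtain ⟨u', hu'u⟩ := hu.exists_left_inv
  obtain ⟨w', hw'w⟩ := hunit.exists_left_inv
  have e1 : M 0 0 * M 0 0 + M 0 1 * M 1 0 = M 0 0 := by
    have := congrFun (congrFun hM 0) 0
    rwa [Matrix.mul_apply, Fin.sum_univ_two] at this
  have e2 : M 0 0 * M 0 1 + M 0 1 * M 1 1 = M 0 1 := by
    have := congrFun (congrFun hM 0) 1
    rwa [Matrix.mul_apply, Fin.sum_univ_two] at this
  have e4 : M 1 0 * M 0 1 + M 1 1 * M 1 1 = M 1 1 := by
    have := congrFun (congrFun hM 1) 1
    rwa [Matrix.mul_apply, Fin.sum_univ_two] at this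
  have hD : (1 + u * M 0 0) * (1 + u * M 1 1) - (u * M 0 1) * (u * M 1 0) = 1 + u := by
    have := hdet
    rw [Matrix.det_fin_two] at this
    simpa [Matrix.add_apply, Matrix.smul_apply] using this
  have h1 : M 0 0 + M 1 1 + u * (M 0 0 * M 1 1 - M 0 1 * M 1 0) = 1 := by
    linear_combination u' * hD + (1 - (M 0 0 + M 1 1) - u * (M 0 0 * M 1 1 - M 0 1 * M 1 0)) * hu'u
  have hd0 : (M 0 0 * M 1 1 - M 0 1 * M 1 0) * (1 + u * M 0 0) = 0 := by
    linear_combination (-1) * e1 + M 0 0 * h1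
  have hd01 : (M 0 0 * M 1 1 - M 0 1 * M 1 0) * M 0 1 = 0 := by
    linear_combination u' * M 0 1 * h1 - u' * e2
      - ((M 0 0 * M 1 1 - M 0 1 * M 1 0) * M 0 1) * hu'u
  have hfin : (M 0 0 * M 1 1 - M 0 1 * M 1 0) * (1 + u) = 0 := by
    linear_combination (-(M 0 0 * M 1 1 - M 0 1 * M 1 0)) * hD + (1 + u * M 1 1) * hd0
      - u ^ 2 * M 1 0 * hd01
  have hd : M 0 0 * M 1 1 - M 0 1 * M 1 0 = 0 := by
    linear_combination w' * hfin - (M 0 0 * M 1 1 - M 0 1 * M 1 0) * hw'w
  constructor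
  · linear_combination h1 - u * hd
  · linear_combination hd

end Mat

section BasisLine

variable {T : Type*} [CommRing T] {V : Type*} [AddCommGroup V] [Module T V]

/-- if the `(0,0)` coefficient of `e` is a unit and `e` has determinant `0`, then `e c₀` is the
first vector of a basis and spans the image of `e`. -/
theorem oal_basis_of_unit (c : Basis (Fin 2) T V) (e : Module.End T V)
    (hu : IsUnit (c.repr (e (c 0)) 0))
    (hdet0 : c.repr (e (c 0)) 0 * c.repr (e (c 1)) 1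
      = c.repr (e (c 1)) 0 * c.repr (e (c 0)) 1) :
    ∃ b : Basis (Fin 2) T V, b 0 = e (c 0) ∧ ∀ w, e w ∈ Submodule.span T {b 0} := by
  classical
  obtain ⟨v, hv⟩ := hu.exists_left_inv
  have h0 : e (c 0) = c.repr (e (c 0)) 0 • c 0 + c.repr (e (c 0)) 1 • c 1 := by
    conv_lhs => rw [← c.sum_repr (e (c 0)), Fin.sum_univ_two]
  have h1 : e (c 1) = c.repr (e (c 1)) 0 • c 0 + c.repr (e (c 1)) 1 • c 1 := by
    conv_lhs => rw [← c.sum_repr (e (c 1)), Fin.sum_univ_two]
  set P : Matrix (Fin 2) (Fin 2) T :=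
    Matrix.of ![![c.repr (e (c 0)) 0, 0], ![c.repr (e (c 0)) 1, 1]] with hP
  have hPdet : P.det = c.repr (e (c 0)) 0 := by
    rw [Matrix.det_fin_two, hP]
    simp
  have hunit : IsUnit (LinearMap.toMatrix c c (Matrix.toLin c c P)).det := by
    rw [LinearMap.toMatrix_toLin, hPdet]
    exact hu
  set φ : V ≃ₗ[T] V := LinearEquiv.ofIsUnitDet hunit with hφ
  have hφ0 : φ (c 0) = e (c 0) := by
    rw [hφ, LinearEquiv.ofIsUnitDet_apply, Matrix.toLin_self, Fin.sum_univ_two, h0, hP]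
    simp
  refine ⟨c.map φ, ?_, ?_⟩
  · rw [Basis.map_apply, hφ0]
  · intro w
    rw [Basis.map_apply, hφ0]
    have hw : e w = c.repr w 0 • e (c 0) + c.repr w 1 • e (c 1) := by
      conv_lhs => rw [← c.sum_repr w, Fin.sum_univ_two, map_add, map_smul, map_smul]
    have h2 : e (c 1) = (c.repr (e (c 1)) 0 * v) • e (c 0) := by
      conv_lhs => rw [h1]
      conv_rhs => rw [h0]
      rw [smul_add, smul_smul, smul_smul]
      congr 2
      · linear_combination (-(c.repr (e (c 1)) 0)) * hv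
      · linear_combination v * hdet0 - c.repr (e (c 1)) 1 * hv
    rw [hw, h2, smul_smul, ← add_smul]
    exact Submodule.smul_mem _ _ (Submodule.mem_span_singleton_self _)

/-- over a local ring: an endomorphism of a free module of rank `2` with trace `1` and
determinant `0` (in a basis) has its image spanned by a basis vector `b 0 = e x`. -/
theorem oal_exists_basis [IsLocalRing T] (c : Basis (Fin 2) T V) (e : Module.End T V)
    (htr : c.repr (e (c 0)) 0 + c.repr (e (c 1)) 1 = 1)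
    (hdet0 : c.repr (e (c 0)) 0 * c.repr (e (c 1)) 1
      = c.repr (e (c 1)) 0 * c.repr (e (c 0)) 1) :
    ∃ b : Basis (Fin 2) T V, (∃ x, b 0 = e x) ∧ ∀ w, e w ∈ Submodule.span T {b 0} := by
  rcases IsLocalRing.isUnit_or_isUnit_of_add_one htr with h | h
  · obtain ⟨b, hb, hw⟩ := oal_basis_of_unit c e h hdet0
    exact ⟨b, ⟨c 0, hb⟩, hw⟩
  · have h01 : (Equiv.swap (0 : Fin 2) 1).symm 0 = 1 := by decide
    have h10 : (Equiv.swap (0 : Fin 2) 1).symm 1 = 0 := by decide
    have hc0 : (c.reindex (Equiv.swap (0 : Fin 2) 1)) 0 = c 1 := by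
      rw [Basis.reindex_apply, h01]
    have hc1 : (c.reindex (Equiv.swap (0 : Fin 2) 1)) 1 = c 0 := by
      rw [Basis.reindex_apply, h10]
    have hr0 : ∀ x, (c.reindex (Equiv.swap (0 : Fin 2) 1)).repr x 0 = c.repr x 1 := by
      intro x
      rw [Basis.repr_reindex_apply, h01]
    have hr1 : ∀ x, (c.reindex (Equiv.swap (0 : Fin 2) 1)).repr x 1 = c.repr x 0 := by
      intro x
      rw [Basis.repr_reindex_apply, h10]
    obtain ⟨b, hb, hw⟩ := oal_basis_of_unit (c.reindex (Equiv.swap (0 : Fin 2) 1)) e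
      (by rw [hc0, hr0]; exact h)
      (by rw [hc0, hc1, hr0, hr1, hr0, hr1]; linear_combination hdet0)
    exact ⟨b, ⟨c 1, by rw [hb, hc0]⟩, hw⟩

end BasisLine

section Line

variable {T : Type*} [CommRing T] [IsLocalRing T] {V : Type*} [AddCommGroup V] [Module T V]
  [Module.Free T V] [Module.Finite T V]

/-- **the ordinary line** from the relation (O1). -/
theorem oal_line (hV : finrank T V = 2) {G : Type*} [Group G] (ρ : G →* Module.End T V)
    (D I : Subgroup G) (hID : ∀ s ∈ D, ∀ τ ∈ I, s * τ * s⁻¹ ∈ I)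
    (τ₀ : G) (hτ₀ : τ₀ ∈ I) (hunit : IsUnit (LinearMap.det (ρ τ₀) - 1))
    (hO1 : ∀ τ ∈ I, (ρ τ₀ - (LinearMap.det (ρ τ₀)) • (1 : Module.End T V)) * (ρ τ - 1) = 0) :
    ∃ L : Submodule T V, (∃ b : Basis (Fin 2) T V, L = Submodule.span T {b 0}) ∧
      (∀ σ ∈ D, ∀ v ∈ L, ρ σ v ∈ L) ∧ (∀ σ ∈ I, ∀ v : V, ρ σ v - v ∈ L) := by
  classical
  obtain ⟨u', hu'u⟩ := hunit.exists_left_inv
  set ε₀ : T := LinearMap.det (ρ τ₀) with hε₀
  set u : T := ε₀ - 1 with hu
  set e : Module.End T V := u' • (ρ τ₀ - 1) with he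
  -- pointwise forms
  have hpt : ∀ τ ∈ I, ∀ v : V, ρ τ₀ (ρ τ v - v) = ε₀ • (ρ τ v - v) := by
    intro τ hτ v
    have h := congrArg (fun f : Module.End T V => f v) (hO1 τ hτ)
    simp only [Module.End.mul_apply, LinearMap.sub_apply, LinearMap.smul_apply,
      Module.End.one_apply, LinearMap.zero_apply] at h
    exact sub_eq_zero.1 h
  have he_apply : ∀ x : V, e x = u' • (ρ τ₀ x - x) := by
    intro x
    simp only [he, LinearMap.smul_apply, LinearMap.sub_apply, Module.End.one_apply]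
  have hfix : ∀ τ ∈ I, ∀ v : V, e (ρ τ v - v) = ρ τ v - v := by
    intro τ hτ v
    have h1 : ε₀ • (ρ τ v - v) - (ρ τ v - v) = (ε₀ - 1) • (ρ τ v - v) := by
      rw [sub_smul, one_smul]
    rw [he_apply, hpt τ hτ v, h1, smul_smul]
    have : u' * (ε₀ - 1) = 1 := hu'u
    rw [this, one_smul]
  have hee : e * e = e := by
    apply LinearMap.ext
    intro x
    rw [Module.End.mul_apply]
    conv_lhs => rw [he_apply x, map_smul, hfix τ₀ hτ₀ x]
    rw [he_apply]
  have hρe : ρ τ₀ = 1 + u • e := by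
    apply LinearMap.ext
    intro x
    simp only [LinearMap.add_apply, Module.End.one_apply, LinearMap.smul_apply]
    rw [he_apply, smul_smul]
    have : u * u' = 1 := by rw [mul_comm]; exact hu'u
    rw [this, one_smul]
    abel
  have hεunit : IsUnit ε₀ := by
    have h1 : ρ τ₀ * ρ τ₀⁻¹ = 1 := by rw [← map_mul, mul_inv_cancel, map_one]
    have h2 : LinearMap.det (ρ τ₀) * LinearMap.det (ρ τ₀⁻¹) = 1 := by
      rw [← map_mul, h1, map_one]
    exact IsUnit.of_mul_eq_one _ h2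
  -- the matrix of `e`
  set c : Basis (Fin 2) T V := Module.finBasisOfFinrankEq T V hV with hc
  set M : Matrix (Fin 2) (Fin 2) T := LinearMap.toMatrix c c e with hMdef
  have hMM : M * M = M := by
    rw [hMdef, ← LinearMap.toMatrix_mul, hee]
  have hMdet : (1 + u • M).det = 1 + u := by
    have h1 : (1 + u • M) = LinearMap.toMatrix c c (ρ τ₀) := by
      rw [hρe, map_add, map_smul, LinearMap.toMatrix_one]
    rw [h1, LinearMap.det_toMatrix]
    simp only [hu]
    ring
  have h1u : IsUnit (1 + u) := by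
    have : 1 + u = ε₀ := by simp only [hu]; ring
    rw [this]
    exact hεunit
  obtain ⟨htr, hdet0⟩ := oal_idem_tr_det M hMM u hunit h1u hMdet
  simp only [hMdef, LinearMap.toMatrix_apply] at htr hdet0
  obtain ⟨b, ⟨x, hbx⟩, hspan⟩ := oal_exists_basis c e htr hdet0
  have hI : ∀ σ ∈ I, ∀ v : V, ρ σ v - v ∈ Submodule.span T {b 0} := by
    intro σ hσ v
    rw [← hfix σ hσ v]
    exact hspan _
  refine ⟨Submodule.span T {b 0}, ⟨b, rfl⟩, ?_, hI⟩
  intro s hs v hv
  obtain ⟨a, ha⟩ := Submodule.mem_span_singleton.1 hv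
  have hv' : v = a • (u' • (ρ τ₀ x - x)) := by
    rw [← he_apply, ← hbx]
    exact ha.symm
  rw [hv', map_smul, map_smul]
  refine Submodule.smul_mem _ _ (Submodule.smul_mem _ _ ?_)
  have hconj := hI (s * τ₀ * s⁻¹) (hID s hs τ₀ hτ₀) (ρ s x)
  have h3 : ρ (s * τ₀ * s⁻¹) (ρ s x) = ρ s (ρ τ₀ x) := by
    rw [← Module.End.mul_apply, ← map_mul, inv_mul_cancel_right, map_mul, Module.End.mul_apply]
  rw [h3] at hconj
  rw [map_sub]
  exact hconj

end Line

section Adic

/-- the inertia group is normalised by the decomposition group -/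
theorem oal_conj_mem_inertia {K L : Type*} [Field K] [Field L] [Algebra K L]
    (A : ValuationSubring L) (s : L ≃ₐ[K] L) (hs : s ∈ A.decompositionSubgroup K)
    (τ : L ≃ₐ[K] L) (hτ : τ ∈ A.inertiaSubgroupIn K) :
    s * τ * s⁻¹ ∈ A.inertiaSubgroupIn K := by
  obtain ⟨g, hg, rfl⟩ := hτ
  refine ⟨(⟨s, hs⟩ : A.decompositionSubgroup K) * g * (⟨s, hs⟩ : A.decompositionSubgroup K)⁻¹,
    ?_, rfl⟩
  have hn : (A.inertiaSubgroup K).Normal := by
    unfold ValuationSubring.inertiaSubgroup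
    exact MonoidHom.normal_ker _
  exact hn.conj_mem g hg _

variable {A : Type} [CommRing A] [IsLocalRing A]

/-- **`IsOrdinaryAt` from (O1)**: if at every place `P` over `p` there is `τ₀` in the inertia group
with `det ρ(τ₀) - 1` a unit and `(ρ τ₀ - det ρ(τ₀)) (ρ τ - 1) = 0` for all `τ` in the inertia
group, then `ρ` is ordinary at `p`. -/
theorem oal_isOrdinaryAt (ρ : GaloisRepAdic A) (p : ℕ)
    (h : ∀ P : ValuationSubring (AlgebraicClosure ℚ), P.LiesOverPrime p →
      ∃ τ₀ ∈ P.inertiaSubgroupIn ℚ, IsUnit (LinearMap.det (ρ.ρ τ₀) - 1) ∧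
        ∀ τ ∈ P.inertiaSubgroupIn ℚ,
          (ρ.ρ τ₀ - (LinearMap.det (ρ.ρ τ₀)) • (1 : Module.End A ρ.V)) * (ρ.ρ τ - 1) = 0) :
    ρ.IsOrdinaryAt p := by
  intro P hP
  obtain ⟨τ₀, hτ₀, hunit, hO1⟩ := h P hP
  obtain ⟨L, ⟨b, hb⟩, hD, hI⟩ := oal_line ρ.finrank_eq ρ.ρ (P.decompositionSubgroup ℚ)
    (P.inertiaSubgroupIn ℚ) (fun s hs τ hτ => oal_conj_mem_inertia P s hs τ hτ) τ₀ hτ₀ hunit hO1
  exact ⟨L, ⟨b, hb⟩, hD, hI⟩

end Adic

end Fermat.Agent.S33lib
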