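/-
Item 86 (S33), piece ORD-UNIT (helper3): S33 from the relation (O1) for the datum.

* `oun_det_of_cyclo` : for a representation `r` of finite level over a ring `k` with `p = 0`,
  with `det r(Frob_ℓ) = ℓ` for `ℓ ∉ S` (`p ∈ S`): `det r(σ) = e` if `σ` acts by `t ↦ t ^ e` on the
  `p`-th roots of unity (weak Chebotarev);
* `oun_isUnit`       : `det ρ(τ) - 1` is a unit of `T` if `τ` acts by `t ↦ t ^ 2` on `μ_p`
  (`ρ` the representation of a Hecke–Galois datum, `p ∈ S`);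
* `s33_of_O1`        : **S33 from (O1)**: if `(ρ τ₀ - det ρ τ₀) (ρ τ - 1) = 0` for all `τ₀, τ` in the
  inertia groups over `p`, then `H.ρ.IsOrdinaryAt p`.
(complete proofs, standard axioms only)
-/
import Mathlib
import Fermat.Agent.S33lib.OrdAlg
import Fermat.Agent.S33lib.InertiaCyclo
import Fermat.Agent.S58lib.HRes
import Fermat.Prelude.Def_CuspForm_HeckeGaloisRepDatum

set_option autoImplicit false
set_option linter.style.haveILetI false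
set_option linter.unusedSectionVars false

open Polynomial TensorProduct
open Fermat.Agent.GalRep

namespace Fermat.Agent.S33lib

open Fermat.Agent.S58lib

section Det

/-- **the determinant is the cyclotomic character mod `p`** (general coefficients). -/
theorem oun_det_of_cyclo {p : ℕ} [Fact p.Prime] {k : Type} [CommRing k] (hpk : (p : k) = 0)
    {V : Type} [AddCommGroup V] [Module k V]
    (r : GQ →* Module.End k V) (hlev : GaloisFactorsThroughFiniteLevel r)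
    (S : Finset ℕ) (hpS : p ∈ S)
    (hr : ∀ ℓ : ℕ, ℓ.Prime → ℓ ∉ S → ∀ A : ValuationSubring (AlgebraicClosure ℚ),
      A.LiesOverPrime ℓ → ∀ σ : GQ, A.IsFrobeniusAt σ ℓ → LinearMap.det (r σ) = (ℓ : k))
    (σ : GQ) (e : ℕ) (hσ : ∀ t : AlgebraicClosure ℚ, t ^ p = 1 → σ t = t ^ e) :
    LinearMap.det (r σ) = (e : k) := by
  have hpp : p.Prime := Fact.out
  haveI : NeZero p := ⟨hpp.ne_zero⟩
  obtain ⟨L₁, hL₁, k₁⟩ := hlev
  haveI := hL₁
  obtain ⟨ζ, hζ⟩ := HasEnoughRootsOfUnity.exists_primitiveRoot (AlgebraicClosure ℚ) p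
  have hint : IsIntegral ℚ ζ := (hζ.isIntegral hpp.pos).tower_top
  haveI hL₂ : FiniteDimensional ℚ (IntermediateField.adjoin ℚ {ζ}) :=
    IntermediateField.adjoin.finiteDimensional hint
  have hL : FiniteDimensional ℚ ↥(L₁ ⊔ IntermediateField.adjoin ℚ {ζ}) :=
    IntermediateField.finiteDimensional_sup L₁ (IntermediateField.adjoin ℚ {ζ})
  obtain ⟨ℓ, A, τ, j, j', hℓ, hℓS, hA, hτ, hτg, hgτ⟩ :=
    weakCheb (L₁ ⊔ IntermediateField.adjoin ℚ {ζ}) hL S σ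
  have hfix : ∀ x ∈ L₁ ⊔ IntermediateField.adjoin ℚ {ζ}, ((τ ^ j')⁻¹ * σ) x = x := by
    intro x hx
    rw [AlgEquiv.mul_apply, hgτ x hx]
    exact (τ ^ j').symm_apply_apply x
  have hσ' : σ = τ ^ j' * ((τ ^ j')⁻¹ * σ) := (mul_inv_cancel_left _ _).symm
  have e₁ : r σ = r τ ^ j' := by
    have h := k₁ ((τ ^ j')⁻¹ * σ) (fun x hx => hfix x
      ((le_sup_left : L₁ ≤ L₁ ⊔ IntermediateField.adjoin ℚ {ζ}) hx))
    conv_lhs => rw [hσ']
    rw [map_mul, h, mul_one, map_pow]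
  have hdetτ : LinearMap.det (r τ) = (ℓ : k) := hr ℓ hℓ hℓS A hA τ hτ
  have hℓp : ℓ ≠ p := fun h => hℓS (h ▸ hpS)
  have hcop : Nat.Coprime p ℓ := (Nat.coprime_primes hpp hℓ).mpr (Ne.symm hℓp)
  obtain ⟨hτd, hfrob⟩ := hτ
  have hτact : ∀ t : AlgebraicClosure ℚ, t ^ p = 1 → τ t = t ^ ℓ := fun t ht =>
    cyclo_map_root_of_residue p A hA hcop τ hτd ℓ hfrob 1 t (by rwa [pow_one])
  have hζL : ζ ∈ L₁ ⊔ IntermediateField.adjoin ℚ {ζ} :=
    (le_sup_right : IntermediateField.adjoin ℚ {ζ} ≤ L₁ ⊔ IntermediateField.adjoin ℚ {ζ})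
      (IntermediateField.mem_adjoin_simple_self ℚ ζ)
  have h1 : σ ζ = ζ ^ (ℓ ^ j') := by
    rw [hgτ ζ hζL]
    exact hrs_pow_act p τ ℓ hτact j' ζ hζ.pow_eq_one
  have h2 : ζ ^ e = ζ ^ (ℓ ^ j') := by rw [← hσ ζ hζ.pow_eq_one, h1]
  have hζ0 : ζ ≠ 0 := hζ.ne_zero hpp.ne_zero
  have h3 : ζ ^ ((e : ℤ) - ((ℓ ^ j' : ℕ) : ℤ)) = 1 := by
    rw [zpow_sub₀ hζ0, zpow_natCast, zpow_natCast, h2]
    exact div_self (pow_ne_zero _ hζ0)
  obtain ⟨c, hc⟩ : (p : ℤ) ∣ (e : ℤ) - ((ℓ ^ j' : ℕ) : ℤ) := (hζ.zpow_eq_one_iff_dvd _).1 h3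
  have h5 : (e : k) = ((ℓ ^ j' : ℕ) : k) := by
    have h6 := congrArg (Int.cast : ℤ → k) hc
    push_cast at h6
    rw [hpk, zero_mul] at h6
    push_cast
    exact sub_eq_zero.1 h6
  rw [e₁, map_pow, hdetτ, h5]
  push_cast
  rfl

end Det

section Datum

variable {p : ℕ} {N : ℕ} [NeZero N] {S : Finset ℕ}
  {𝒪 : Type} [CommRing 𝒪] [IsDomain 𝒪] [IsDiscreteValuationRing 𝒪]
  [IsAdicComplete (IsLocalRing.maximalIdeal 𝒪) 𝒪]
  {θ : CuspForm.heckeAlgebra N 2 (↑S : Set ℕ) →+* IsLocalRing.ResidueField 𝒪}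
  {T : Type} [CommRing T] [IsLocalRing T] [IsNoetherianRing T]
  [IsAdicComplete (IsLocalRing.maximalIdeal T) T] [Algebra 𝒪 T] [IsLocalHom (algebraMap 𝒪 T)]
  [Module.Finite 𝒪 T] [Module.Free 𝒪 T]

/-- `p` lies in the maximal ideal of `T` -/
theorem oun_p_mem (hp𝒪 : (p : 𝒪) ∈ IsLocalRing.maximalIdeal 𝒪) :
    (p : T) ∈ IsLocalRing.maximalIdeal T := by
  have h1 : (p : T) = algebraMap 𝒪 T (p : 𝒪) := (map_natCast _ p).symm
  rw [h1]
  exact ((IsLocalRing.mem_maximalIdeal _).2 fun hu =>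
    ((IsLocalRing.mem_maximalIdeal _).1 hp𝒪) (isUnit_of_map_unit (algebraMap 𝒪 T) _ hu))

/-- the determinant of the datum at a Frobenius element -/
theorem oun_det_frob (hNS : ∀ q : ℕ, q.Prime → q ∣ N → q ∈ S)
    (H : CuspForm.HeckeGaloisRepDatum N (↑S : Set ℕ) 𝒪 θ T)
    (ℓ : ℕ) (hℓ : ℓ.Prime) (hℓS : ℓ ∉ S) (A : ValuationSubring (AlgebraicClosure ℚ))
    (hA : A.LiesOverPrime ℓ) (σ : GQ) (hσ : A.IsFrobeniusAt σ ℓ) :
    LinearMap.det (H.ρ.ρ σ) = (ℓ : T) := by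
  have hℓN : ¬ ℓ ∣ N := fun h => hℓS (hNS ℓ hℓ h)
  have hℓS' : ℓ ∉ (↑S : Set ℕ) := fun h => hℓS (Finset.mem_coe.1 h)
  have h := H.charpoly_frob ℓ hℓ hℓN hℓS' A hA σ hσ
  exact (chl_trace_det H.ρ.finrank_eq _ h).2

/-- `det ρ(τ) - 1` is a unit if `τ` acts by `t ↦ t ^ 2` on the `p`-th roots of unity -/
theorem oun_isUnit [Fact p.Prime] (hp𝒪 : (p : 𝒪) ∈ IsLocalRing.maximalIdeal 𝒪)
    (hpS : p ∈ S) (hNS : ∀ q : ℕ, q.Prime → q ∣ N → q ∈ S)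
    (H : CuspForm.HeckeGaloisRepDatum N (↑S : Set ℕ) 𝒪 θ T)
    (τ : GQ) (hτ : ∀ t : AlgebraicClosure ℚ, t ^ p = 1 → τ t = t ^ 2) :
    IsUnit (LinearMap.det (H.ρ.ρ τ) - 1) := by
  have hpT : (p : T) ∈ IsLocalRing.maximalIdeal T := oun_p_mem (T := T) hp𝒪
  have hpk : ((p : ℕ) : IsLocalRing.ResidueField T) = 0 := by
    rw [← map_natCast (IsLocalRing.residue T) p]
    exact (IsLocalRing.residue_eq_zero_iff _).2 hpT
  have hdet : LinearMap.det (H.ρ.residual.ρ τ) = ((2 : ℕ) : IsLocalRing.ResidueField T) := by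
    refine oun_det_of_cyclo hpk H.ρ.residual.ρ H.ρ.residual.factorsThroughFiniteLevel S hpS
      (fun ℓ hℓ hℓS A hA σ hσ => ?_) τ 2 hτ
    have h1 := oun_det_frob hNS H ℓ hℓ hℓS A hA σ hσ
    have h2 := LinearMap.det_baseChange (A := IsLocalRing.ResidueField T) (H.ρ.ρ σ)
    refine Eq.trans h2 ?_
    rw [h1, map_natCast]
  have h2 := LinearMap.det_baseChange (A := IsLocalRing.ResidueField T) (H.ρ.ρ τ)
  have h3 : IsLocalRing.residue T (LinearMap.det (H.ρ.ρ τ) - 1) = 1 := by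
    rw [map_sub, map_one]
    have h4 : IsLocalRing.residue T (LinearMap.det (H.ρ.ρ τ))
        = ((2 : ℕ) : IsLocalRing.ResidueField T) := by
      rw [← hdet]
      exact h2.symm
    rw [h4]
    push_cast
    ring
  by_contra hnu
  have h4 : LinearMap.det (H.ρ.ρ τ) - 1 ∈ IsLocalRing.maximalIdeal T :=
    (IsLocalRing.mem_maximalIdeal _).2 hnu
  rw [← IsLocalRing.residue_eq_zero_iff, h3] at h4
  exact one_ne_zero h4

/-- **S33 from (O1)**: the representation of a Hecke–Galois datum of level `N`, `p ∣ N`, `p` odd,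
is ordinary at `p` as soon as `(ρ τ₀ - det ρ τ₀) (ρ τ - 1) = 0` for all `τ₀`, `τ` in the inertia
groups of the places over `p`. -/
theorem s33_of_O1 (hp : p.Prime) (hp2 : p ≠ 2)
    (hp𝒪 : (p : 𝒪) ∈ IsLocalRing.maximalIdeal 𝒪) (hpN : p ∣ N)
    (hNS : ∀ q : ℕ, q.Prime → q ∣ N → q ∈ S)
    (H : CuspForm.HeckeGaloisRepDatum N (↑S : Set ℕ) 𝒪 θ T)
    (hO1 : ∀ P : ValuationSubring (AlgebraicClosure ℚ), P.LiesOverPrime p →
      ∀ τ₀ ∈ P.inertiaSubgroupIn ℚ, ∀ τ ∈ P.inertiaSubgroupIn ℚ,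
        (H.ρ.ρ τ₀ - (LinearMap.det (H.ρ.ρ τ₀)) • (1 : Module.End T H.ρ.V)) * (H.ρ.ρ τ - 1) = 0) :
    H.ρ.IsOrdinaryAt p := by
  haveI : Fact p.Prime := ⟨hp⟩
  have hpS : p ∈ S := hNS p hp hpN
  refine oal_isOrdinaryAt H.ρ p fun P hP => ?_
  obtain ⟨τ₀, hτ₀, hact⟩ := icy_exists p hp2 P hP
  exact ⟨τ₀, hτ₀, oun_isUnit hp𝒪 hpS hNS H τ₀ hact, fun τ hτ => hO1 P hP τ₀ hτ₀ τ hτ⟩

end Datum

end Fermat.Agent.S33lib
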