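/-
Item 86 (S33), piece TRF (helper19): TRANSFER of the ordinarity relation (O1) from the torsion of
`J₀(N)` to the representation of a Hecke–Galois datum.  Complete proofs.

The analogue for S33 of `S34lib/Algebra.lean` (trace method of `S31lib`).

* `otrEvalJ`: evaluation of a Hecke polynomial on `J₀(N)`; `otr_e_evalLat`, `otr_gal_comm`.
* `otrC p n h`: the natural number `< pⁿ` representing the value at `h` of the mod-`pⁿ`
  cyclotomic character.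
* `OrdJ θ τ₀ τ n`: the relation (O1) at level `n`, on the image of a Hecke element `E` which is a
  unit at `θ`:  `(τ₀ - χ(τ₀)) (τ - 1) = 0` and `(τ - χ(τ)) (τ₀ - 1) = 0` on `E · J₀(N)[pⁿ]`.
* `otr_exists_frobPoly`: for `h : G_ℚ` and `n`, a Hecke polynomial `P` with
  `tr ρ(h) ≡ π(P)`, `det ρ(h) ≡ χ(h)` modulo `𝔪ⁿ` and `P = h + χ(h) h⁻¹` on `J₀(N)[pⁿ]`.
* `otr_trace_mem`, `otr_trace_eq_zero`: `tr (ρ(g) (ρ(τ₀) - det ρ(τ₀)) (ρ(τ) - 1)) = 0`.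
* `otr_main`: `(ρ(τ₀) - det ρ(τ₀)) (ρ(τ) - 1) = 0`.
-/
import Mathlib
import Fermat.Agent.S31lib.Main
import Fermat.Agent.S34lib.Algebra

set_option autoImplicit false
set_option linter.style.longLine false
set_option linter.unusedSectionVars false
set_option linter.unusedVariables false

open scoped TensorProduct
open Polynomial

namespace Fermat.Agent.S33lib

open Fermat.Agent.GalRep ModularCurve Fermat.Agent.S31lib Fermat.Agent.S34lib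
  Fermat.Agent.S53lib IsLocalRing

/-! ### Hecke polynomials on `J₀(N)` -/

section EvalJ

variable {N p : ℕ} [NeZero N] (S : Finset ℕ)

/-- Evaluation of a polynomial at the Hecke operators on `J₀(N)`. -/
noncomputable def otrEvalJ (N : ℕ) [NeZero N] (S : Finset ℕ) :
    HPoly N S →ₐ[ℤ] Module.End ℤ (JZero N) :=
  FreeAlgebra.lift ℤ fun ℓ => heckeOperatorBar N ℓ.1

theorem otrEvalJ_ι (ℓ : GoodPrime N S) :
    otrEvalJ N S (FreeAlgebra.ι ℤ ℓ) = heckeOperatorBar N ℓ.1 := by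
  simp [otrEvalJ]

/-- the level structures intertwine the Hecke polynomials -/
theorem otr_e_evalLat (J : JacInput N p) (n : ℕ) (P : HPoly N S) (l : J.Λ) :
    J.e n (evalLat S J P l) = otrEvalJ N S P (J.e n l) := by
  induction P using FreeAlgebra.induction generalizing l with
  | grade0 r =>
    rw [AlgHom.commutes, AlgHom.commutes]
    have h1 : (algebraMap ℤ (Module.End ℤ J.Λ) r) = r • (1 : Module.End ℤ J.Λ) :=
      Algebra.algebraMap_eq_smul_one r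
    have h2 : (algebraMap ℤ (Module.End ℤ (JZero N)) r) = r • (1 : Module.End ℤ (JZero N)) :=
      Algebra.algebraMap_eq_smul_one r
    rw [h1, h2, LinearMap.smul_apply, LinearMap.smul_apply, Module.End.one_apply,
      Module.End.one_apply, map_zsmul]
  | grade1 ℓ =>
    have h2 : evalLat S J (FreeAlgebra.ι ℤ ℓ) = J.T ℓ.1 := by
      simp [evalLat]
    rw [h2, otrEvalJ_ι, J.e_hecke]
  | mul a b ha hb =>
    rw [map_mul, map_mul, Module.End.mul_apply, Module.End.mul_apply, ha, hb]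
  | add a b ha hb =>
    rw [map_add, map_add, LinearMap.add_apply, LinearMap.add_apply, map_add, ha, hb]

/-- the Galois action commutes with the Hecke polynomials -/
theorem otr_gal_comm (J : JacInput N p) (P : HPoly N S) (σ : GQ) (x : JZero N) :
    σ • otrEvalJ N S P x = otrEvalJ N S P (σ • x) := by
  induction P using FreeAlgebra.induction generalizing x with
  | grade0 r =>
    rw [AlgHom.commutes]
    have h2 : (algebraMap ℤ (Module.End ℤ (JZero N)) r) = r • (1 : Module.End ℤ (JZero N)) :=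
      Algebra.algebraMap_eq_smul_one r
    rw [h2, LinearMap.smul_apply, LinearMap.smul_apply, Module.End.one_apply,
      Module.End.one_apply]
    exact map_zsmul (DistribSMul.toAddMonoidHom (JZero N) σ) r x
  | grade1 ℓ =>
    rw [otrEvalJ_ι, J.galComm]
  | mul a b ha hb =>
    rw [map_mul, Module.End.mul_apply, Module.End.mul_apply, ha, hb]
  | add a b ha hb =>
    rw [map_add, LinearMap.add_apply, LinearMap.add_apply, smul_add, ha, hb]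

theorem otrEvalJ_frobPoly (ℓ : GoodPrime N S) (k : ℕ) :
    otrEvalJ N S (frobPoly N S ℓ k) =
      powTr (heckeOperatorBar N ℓ.1) ((((ℓ.1 : ℕ)) : ℤ) • (1 : Module.End ℤ (JZero N))) k := by
  have h := map_powTr (otrEvalJ N S).toRingHom (FreeAlgebra.ι ℤ ℓ)
    ((((ℓ.1 : ℕ)) : ℤ) • (1 : HPoly N S)) k
  simp only [AlgHom.toRingHom_eq_coe, RingHom.coe_coe, map_zsmul, map_one] at h
  rw [frobPoly, h]
  congr 1
  exact FreeAlgebra.lift_ι_apply _ _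

/-- Hecke polynomials preserve the `pⁿ`-torsion -/
theorem otr_torsion (P : HPoly N S) (n : ℕ) (x : JZero N) (hx : p ^ n • x = 0) :
    p ^ n • otrEvalJ N S P x = 0 := by
  rw [← map_nsmul, hx, map_zero]

omit [NeZero N] in
/-- the Galois action preserves the `pⁿ`-torsion -/
theorem otr_torsion_smul (σ : GQ) (n : ℕ) (x : JZero N) (hx : p ^ n • x = 0) :
    p ^ n • (σ • x) = 0 := by
  have h := map_nsmul (DistribSMul.toAddMonoidHom (JZero N) σ) (p ^ n) x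
  rw [hx, map_zero] at h
  exact h.symm

omit [NeZero N] in
/-- congruent integers act in the same way on the `pⁿ`-torsion -/
theorem otr_zsmul_congr (n : ℕ) (a b : ℤ) (hab : ((p ^ n : ℕ) : ℤ) ∣ a - b) (x : JZero N)
    (hx : p ^ n • x = 0) : a • x = b • x := by
  obtain ⟨z, hz⟩ := hab
  have e : a = b + ((p ^ n : ℕ) : ℤ) * z := by rw [← hz]; ring
  rw [e, add_zsmul, mul_comm, mul_smul, natCast_zsmul, hx, smul_zero, add_zero]

end EvalJ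

/-! ### The cyclotomic character in natural numbers -/

section Cyc

variable (p : ℕ) [Fact p.Prime]

/-- the representative in `[0, pⁿ)` of the value of the mod-`pⁿ` cyclotomic character -/
noncomputable def otrC (n : ℕ) (h : GQ) : ℕ :=
  ((cycChi p n h : (ZMod (p ^ n))ˣ) : ZMod (p ^ n)).val

theorem otrC_cast (n : ℕ) (h : GQ) :
    ((otrC p n h : ℕ) : ZMod (p ^ n)) = ((cycChi p n h : (ZMod (p ^ n))ˣ) : ZMod (p ^ n)) := by
  have : NeZero (p ^ n) := ⟨pow_ne_zero _ (Fact.out : p.Prime).ne_zero⟩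
  rw [otrC, ZMod.natCast_val, ZMod.cast_id', id]

theorem otrC_mul (n : ℕ) (g h : GQ) :
    ((p ^ n : ℕ) : ℤ) ∣ ((otrC p n (g * h) : ℕ) : ℤ) - (otrC p n g : ℕ) * (otrC p n h : ℕ) := by
  rw [← ZMod.intCast_zmod_eq_zero_iff_dvd]
  push_cast
  rw [otrC_cast, otrC_cast, otrC_cast, map_mul, Units.val_mul, sub_self]

/-- the mod-`pⁿ` cyclotomic character is trivial on an open subgroup -/
theorem otr_cyc_level (n : ℕ) :
    ∃ L : IntermediateField ℚ (AlgebraicClosure ℚ), FiniteDimensional ℚ L ∧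
      ∀ u : GQ, (∀ a ∈ L, u a = a) → cycChi p n u = 1 := by
  have hp : p.Prime := Fact.out
  obtain ⟨ζ, hζ⟩ := HasEnoughRootsOfUnity.exists_primitiveRoot (AlgebraicClosure ℚ) (p ^ n)
  have hN : p ^ n ≠ 0 := pow_ne_zero _ hp.ne_zero
  have hint : IsIntegral ℚ ζ := (hζ.isIntegral (Nat.pos_of_ne_zero hN)).tower_top
  refine ⟨IntermediateField.adjoin ℚ {ζ}, IntermediateField.adjoin.finiteDimensional hint,
    fun σ hσ => ?_⟩
  have hσζ : σ ζ = ζ := hσ ζ (IntermediateField.mem_adjoin_simple_self ℚ ζ)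
  have hall : ∀ t : AlgebraicClosure ℚ, t ^ p ^ n = 1 → σ t = t ^ 1 := by
    intro t ht
    have : NeZero (p ^ n) := ⟨hN⟩
    obtain ⟨i, -, rfl⟩ := hζ.eq_pow_of_pow_eq_one ht
    rw [map_pow, hσζ, pow_one]
  have h1 := cyclo_toZModPow_eq p σ 1 n hall
  rw [Nat.cast_one] at h1
  apply Units.ext
  rw [cyc_coe_cycChi, h1]
  rfl

/-- the mod-`pⁿ` cyclotomic character at a Frobenius element at `ℓ ≠ p` -/
theorem otr_cyc_frob (n : ℕ) (ℓ : ℕ) (hℓ : ℓ.Prime) (hℓp : ℓ ≠ p)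
    (A : ValuationSubring (AlgebraicClosure ℚ)) (hA : A.LiesOverPrime ℓ) (σ : GQ)
    (hσ : A.IsFrobeniusAt σ ℓ) :
    ((cycChi p n σ : (ZMod (p ^ n))ˣ) : ZMod (p ^ n)) = (ℓ : ZMod (p ^ n)) := by
  have hp : p.Prime := Fact.out
  obtain ⟨hσd, hfrob⟩ := hσ
  have hcop : Nat.Coprime p ℓ := (Nat.coprime_primes hp hℓ).mpr (Ne.symm hℓp)
  have h1 := cyclo_chi_eq_natCast p σ ℓ
    (fun m t ht => cyclo_map_root_of_residue p A hA hcop σ hσd ℓ hfrob m t ht)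
  rw [cyc_coe_cycChi, h1, map_natCast]

end Cyc

/-! ### The relation (O1) on `J₀(N)` and the computation -/

section Comp

variable {N : ℕ} [NeZero N] {S : Finset ℕ} {p : ℕ} [Fact p.Prime]

/-- **(O1) at level `n`**, on the image of a Hecke element `E` which is a unit at `θ`:
`(τ₀ - χ(τ₀)) (τ - 1) = 0` and `(τ - χ(τ)) (τ₀ - 1) = 0` on `E · J₀(N)[pⁿ]`. -/
def OrdJ {k : Type} [Field k] (θ : CuspForm.heckeAlgebra N 2 (↑S : Set ℕ) →+* k)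
    (p : ℕ) [Fact p.Prime] (τ₀ τ : GQ) (n : ℕ) : Prop :=
  ∃ E : HPoly N S, θ (evalForms N S E) ≠ 0 ∧ ∀ x : JZero N, p ^ n • x = 0 →
    ∀ y : JZero N, y = otrEvalJ N S E x →
      τ₀ • (τ • y - y) = (otrC p n τ₀ : ℤ) • (τ • y - y) ∧
      τ • (τ₀ • y - y) = (otrC p n τ : ℤ) • (τ₀ • y - y)

omit [NeZero N] in
/-- the Galois action commutes with integer multiples -/
theorem otr_smul_zsmul (σ : GQ) (a : ℤ) (x : JZero N) : σ • (a • x) = a • (σ • x) :=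
  map_zsmul (DistribSMul.toAddMonoidHom (JZero N) σ) a x

omit [NeZero N] in
/-- **the computation**: the combination of the four Frobenius polynomials vanishes at a point
where (O1) holds. -/
theorem otr_comb (n : ℕ) (g τ₀ τ : GQ) (y : JZero N) (hy : p ^ n • y = 0)
    (h1 : τ₀ • (τ • y - y) = (otrC p n τ₀ : ℤ) • (τ • y - y))
    (h2 : τ • (τ₀ • (τ₀⁻¹ • g⁻¹ • y) - τ₀⁻¹ • g⁻¹ • y) =
      (otrC p n τ : ℤ) • (τ₀ • (τ₀⁻¹ • g⁻¹ • y) - τ₀⁻¹ • g⁻¹ • y)) :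
    ((g * τ₀ * τ) • y + (otrC p n (g * τ₀ * τ) : ℤ) • (g * τ₀ * τ)⁻¹ • y)
      - ((g * τ₀) • y + (otrC p n (g * τ₀) : ℤ) • (g * τ₀)⁻¹ • y)
      - (otrC p n τ₀ : ℤ) • ((g * τ) • y + (otrC p n (g * τ) : ℤ) • (g * τ)⁻¹ • y)
      + (otrC p n τ₀ : ℤ) • (g • y + (otrC p n g : ℤ) • g⁻¹ • y) = 0 := by
  set z : JZero N := g⁻¹ • y with hz
  set w : JZero N := τ₀⁻¹ • z with hw
  have hzt : p ^ n • z = 0 := otr_torsion_smul _ n y hy
  have hwt : p ^ n • w = 0 := otr_torsion_smul _ n z hzt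
  have hτw : p ^ n • (τ⁻¹ • w) = 0 := otr_torsion_smul _ n w hwt
  have hτz : p ^ n • (τ⁻¹ • z) = 0 := otr_torsion_smul _ n z hzt
  have hτ₀w : τ₀ • w = z := by rw [hw, smul_inv_smul]
  rw [hτ₀w] at h2
  -- the inverses
  have i1 : (g * τ₀ * τ)⁻¹ • y = τ⁻¹ • w := by
    rw [mul_inv_rev, mul_inv_rev, mul_smul, mul_smul]
  have i2 : (g * τ₀)⁻¹ • y = w := by
    rw [mul_inv_rev, mul_smul]
  have i3 : (g * τ)⁻¹ • y = τ⁻¹ • z := by
    rw [mul_inv_rev, mul_smul]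
  -- the characters
  have c2 : (otrC p n (g * τ₀) : ℤ) • w = ((otrC p n g : ℤ) * (otrC p n τ₀ : ℤ)) • w :=
    otr_zsmul_congr n _ _ (otrC_mul p n g τ₀) w hwt
  have c3 : (otrC p n (g * τ) : ℤ) • (τ⁻¹ • z) =
      ((otrC p n g : ℤ) * (otrC p n τ : ℤ)) • (τ⁻¹ • z) :=
    otr_zsmul_congr n _ _ (otrC_mul p n g τ) _ hτz
  have c1 : (otrC p n (g * τ₀ * τ) : ℤ) • (τ⁻¹ • w) =
      ((otrC p n g : ℤ) * (otrC p n τ₀ : ℤ) * (otrC p n τ : ℤ)) • (τ⁻¹ • w) := by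
    have h := otrC_mul p n (g * τ₀) τ
    have h' := otrC_mul p n g τ₀
    have h'' : ((p ^ n : ℕ) : ℤ) ∣ (otrC p n (g * τ₀ * τ) : ℤ) -
        (otrC p n g : ℤ) * (otrC p n τ₀ : ℤ) * (otrC p n τ : ℤ) := by
      have e : (otrC p n (g * τ₀ * τ) : ℤ) -
          (otrC p n g : ℤ) * (otrC p n τ₀ : ℤ) * (otrC p n τ : ℤ) =
          ((otrC p n (g * τ₀ * τ) : ℤ) - (otrC p n (g * τ₀) : ℤ) * (otrC p n τ : ℤ)) +
          ((otrC p n (g * τ₀) : ℤ) - (otrC p n g : ℤ) * (otrC p n τ₀ : ℤ)) * (otrC p n τ : ℤ) := by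
        ring
      rw [e]
      exact dvd_add h (Dvd.dvd.mul_right h' _)
    exact otr_zsmul_congr n _ _ h'' _ hτw
  -- part A
  have hA : (g * τ₀ * τ) • y - (g * τ₀) • y - (otrC p n τ₀ : ℤ) • ((g * τ) • y)
      + (otrC p n τ₀ : ℤ) • (g • y) = 0 := by
    have e0 : g • (τ₀ • (τ • y - y) - (otrC p n τ₀ : ℤ) • (τ • y - y)) = 0 := by
      rw [h1, sub_self, smul_zero]
    have e1 : g • (τ₀ • (τ • y - y) - (otrC p n τ₀ : ℤ) • (τ • y - y)) =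
        g • (τ₀ • (τ • y - y)) - (otrC p n τ₀ : ℤ) • (g • (τ • y - y)) := by
      rw [smul_sub g, otr_smul_zsmul]
    have e2 : g • (τ₀ • (τ • y - y)) = (g * τ₀ * τ) • y - (g * τ₀) • y := by
      rw [smul_sub τ₀, smul_sub g, mul_smul, mul_smul, mul_smul]
    have e3 : g • (τ • y - y) = (g * τ) • y - g • y := by
      rw [smul_sub g, mul_smul]
    rw [e1, e2, e3] at e0
    rw [← e0]
    generalize (g * τ₀ * τ) • y = Y1
    generalize (g * τ₀) • y = Y2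
    generalize (g * τ) • y = Y3
    generalize g • y = Y4
    module
  -- part B: `u = z - w`, `τ u = c u`
  have hu : (otrC p n τ : ℤ) • (τ⁻¹ • (z - w)) = z - w := by
    rw [← otr_smul_zsmul, ← h2, inv_smul_smul]
  have e4 : τ⁻¹ • (z - w) = τ⁻¹ • z - τ⁻¹ • w := smul_sub _ _ _
  rw [e4] at hu
  have hu' : (otrC p n τ : ℤ) • (τ⁻¹ • z) - (otrC p n τ : ℤ) • (τ⁻¹ • w) = z - w := by
    rw [← hu]
    generalize τ⁻¹ • w = W1
    generalize τ⁻¹ • z = Z1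
    module
  have hB : (otrC p n (g * τ₀ * τ) : ℤ) • (τ⁻¹ • w) - (otrC p n (g * τ₀) : ℤ) • w
      - (otrC p n τ₀ : ℤ) • ((otrC p n (g * τ) : ℤ) • (τ⁻¹ • z))
      + (otrC p n τ₀ : ℤ) • ((otrC p n g : ℤ) • z) = 0 := by
    rw [c1, c2, c3]
    have e : ((otrC p n g : ℤ) * (otrC p n τ₀ : ℤ) * (otrC p n τ : ℤ)) • (τ⁻¹ • w)
        - ((otrC p n g : ℤ) * (otrC p n τ₀ : ℤ)) • w
        - (otrC p n τ₀ : ℤ) • (((otrC p n g : ℤ) * (otrC p n τ : ℤ)) • (τ⁻¹ • z))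
        + (otrC p n τ₀ : ℤ) • ((otrC p n g : ℤ) • z) =
        ((otrC p n g : ℤ) * (otrC p n τ₀ : ℤ)) •
          ((z - w) - ((otrC p n τ : ℤ) • (τ⁻¹ • z) - (otrC p n τ : ℤ) • (τ⁻¹ • w))) := by
      generalize τ⁻¹ • w = W1
      generalize τ⁻¹ • z = Z1
      clear_value w z
      module
    rw [e, hu', sub_self, smul_zero]
  rw [i1, i2, i3]
  have e : (g * τ₀ * τ) • y + (otrC p n (g * τ₀ * τ) : ℤ) • (τ⁻¹ • w)
      - ((g * τ₀) • y + (otrC p n (g * τ₀) : ℤ) • w)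
      - (otrC p n τ₀ : ℤ) • ((g * τ) • y + (otrC p n (g * τ) : ℤ) • (τ⁻¹ • z))
      + (otrC p n τ₀ : ℤ) • (g • y + (otrC p n g : ℤ) • z) =
      ((g * τ₀ * τ) • y - (g * τ₀) • y - (otrC p n τ₀ : ℤ) • ((g * τ) • y)
        + (otrC p n τ₀ : ℤ) • (g • y)) +
      ((otrC p n (g * τ₀ * τ) : ℤ) • (τ⁻¹ • w) - (otrC p n (g * τ₀) : ℤ) • w
        - (otrC p n τ₀ : ℤ) • ((otrC p n (g * τ) : ℤ) • (τ⁻¹ • z))
        + (otrC p n τ₀ : ℤ) • ((otrC p n g : ℤ) • z)) := by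
    generalize (g * τ₀ * τ) • y = Y1
    generalize (g * τ₀) • y = Y2
    generalize (g * τ) • y = Y3
    generalize g • y = Y4
    generalize τ⁻¹ • w = W1
    generalize τ⁻¹ • z = Z1
    clear_value w z
    module
  rw [e, hA, hB, add_zero]

end Comp

/-! ### The transfer to the datum -/

section Datum

variable {p : ℕ} [Fact p.Prime] {N : ℕ} [NeZero N] {S : Finset ℕ}
  {𝒪 : Type} [CommRing 𝒪] [IsDomain 𝒪] [IsDiscreteValuationRing 𝒪]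
  [IsAdicComplete (IsLocalRing.maximalIdeal 𝒪) 𝒪]
  {θ : CuspForm.heckeAlgebra N 2 (↑S : Set ℕ) →+* IsLocalRing.ResidueField 𝒪}
  {T : Type} [CommRing T] [IsLocalRing T] [IsNoetherianRing T]
  [IsAdicComplete (IsLocalRing.maximalIdeal T) T] [Algebra 𝒪 T] [IsLocalHom (algebraMap 𝒪 T)]
  [Module.Finite 𝒪 T] [Module.Free 𝒪 T]

/-- **the Frobenius polynomial of an element**: for `h : G_ℚ` and `n` there is a Hecke polynomial
`P` with `tr ρ(h) ≡ π(P)` and `det ρ(h) ≡ χ(h)` modulo `𝔪ⁿ`, acting as `h + χ(h) h⁻¹` on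
`J₀(N)[pⁿ]`. -/
theorem otr_exists_frobPoly
    (hcheb : WeakCheb) (J : JacInput N p)
    (hp𝒪 : (p : 𝒪) ∈ IsLocalRing.maximalIdeal 𝒪) (hpS : p ∈ S)
    (hNS : ∀ q : ℕ, q.Prime → q ∣ N → q ∈ S)
    (H : CuspForm.HeckeGaloisRepDatum N (↑S : Set ℕ) 𝒪 θ T) (h : GQ) (n : ℕ) :
    ∃ P : HPoly N S,
      H.ρ.trace h - H.π (evalForms N S P) ∈ IsLocalRing.maximalIdeal T ^ n ∧
      LinearMap.det (H.ρ.ρ h) - ((otrC p n h : ℕ) : T) ∈ IsLocalRing.maximalIdeal T ^ n ∧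
      ∀ x : JZero N, p ^ n • x = 0 →
        otrEvalJ N S P x = h • x + (otrC p n h : ℤ) • h⁻¹ • x := by
  have hp : p.Prime := Fact.out
  obtain ⟨Lρ, hLρfin, hLρ⟩ := trcong H.ρ n
  obtain ⟨Ld, hLdfin, hLd⟩ := detcong H.ρ n
  obtain ⟨LJ, hLJfin, hLJ⟩ := exists_level_torsion J n
  obtain ⟨Lχ, hLχfin, hLχ⟩ := otr_cyc_level p n
  have hLfin : FiniteDimensional ℚ
      (Lρ ⊔ Ld ⊔ LJ ⊔ Lχ : IntermediateField ℚ (AlgebraicClosure ℚ)) := inferInstance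
  have hLρle : Lρ ≤ Lρ ⊔ Ld ⊔ LJ ⊔ Lχ := le_sup_of_le_left (le_sup_of_le_left le_sup_left)
  have hLdle : Ld ≤ Lρ ⊔ Ld ⊔ LJ ⊔ Lχ := le_sup_of_le_left (le_sup_of_le_left le_sup_right)
  have hLJle : LJ ≤ Lρ ⊔ Ld ⊔ LJ ⊔ Lχ := le_sup_of_le_left le_sup_right
  have hLχle : Lχ ≤ Lρ ⊔ Ld ⊔ LJ ⊔ Lχ := le_sup_right
  obtain ⟨ℓ, A, σ, -, k, hℓ, hℓS, hA, hσ, -, hgσ⟩ := hcheb _ hLfin S h
  have hℓN : ¬ ℓ ∣ N := fun h => hℓS (hNS ℓ hℓ h)
  have hℓp : ℓ ≠ p := fun h => hℓS (h ▸ hpS)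
  have hℓNp : ¬ ℓ ∣ N * p := fun h =>
    (hℓ.dvd_mul.mp h).elim hℓN fun h' => hℓp ((Nat.prime_dvd_prime_iff_eq hℓ hp).mp h')
  have hu : ∀ x ∈ (Lρ ⊔ Ld ⊔ LJ ⊔ Lχ : IntermediateField ℚ (AlgebraicClosure ℚ)),
      ((σ ^ k)⁻¹ * h) x = x := asm_fix _ h (σ ^ k) hgσ
  have hgu : σ ^ k * ((σ ^ k)⁻¹ * h) = h := mul_inv_cancel_left _ _
  -- the cyclotomic congruence
  have hχu : cycChi p n ((σ ^ k)⁻¹ * h) = 1 := hLχ _ fun a ha => hu a (hLχle ha)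
  have hχ : cycChi p n h = cycChi p n σ ^ k := by
    conv_lhs => rw [← hgu]
    rw [map_mul, hχu, mul_one, map_pow]
  have hcong : ((otrC p n h : ℕ) : ZMod (p ^ n)) = (ℓ : ZMod (p ^ n)) ^ k := by
    rw [otrC_cast, hχ, Units.val_pow_eq_pow_val, otr_cyc_frob p n ℓ hℓ hℓp A hA σ hσ]
  have hdvd : ((p ^ n : ℕ) : ℤ) ∣ ((ℓ : ℕ) : ℤ) ^ k - ((otrC p n h : ℕ) : ℤ) := by
    rw [← ZMod.intCast_zmod_eq_zero_iff_dvd]
    push_cast
    rw [hcong, sub_self]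
  have hpmem : ((p ^ n : ℕ) : T) ∈ IsLocalRing.maximalIdeal T ^ n := by
    push_cast
    exact Ideal.pow_mem_pow (asm_natCast_mem hp𝒪) _
  refine ⟨frobPoly N S ⟨⟨ℓ, hℓ⟩, hℓN, hℓS⟩ k, ?_, ?_, ?_⟩
  · have t1 : H.ρ.trace (σ ^ k) - H.ρ.trace h ∈ IsLocalRing.maximalIdeal T ^ n :=
      hLρ h (σ ^ k) fun x hx => hgσ x (hLρle hx)
    rw [← asm_trace_frob_pow H ⟨⟨ℓ, hℓ⟩, hℓN, hℓS⟩ A hA σ hσ k]
    have e : H.ρ.trace h - H.ρ.trace (σ ^ k) = -(H.ρ.trace (σ ^ k) - H.ρ.trace h) := by ring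
    rw [e]
    exact Ideal.neg_mem_iff _ |>.mpr t1
  · have d1 : LinearMap.det (H.ρ.ρ (σ ^ k)) - LinearMap.det (H.ρ.ρ h) ∈
        IsLocalRing.maximalIdeal T ^ n :=
      hLd h (σ ^ k) fun x hx => hgσ x (hLdle hx)
    have hch := H.charpoly_frob ℓ hℓ hℓN hℓS A hA σ hσ
    have hdetσ : LinearMap.det (H.ρ.ρ σ) = (ℓ : T) := det_of_charpoly H.ρ.finrank_eq _ _ _ hch
    have hdetk : LinearMap.det (H.ρ.ρ (σ ^ k)) = (ℓ : T) ^ k := by
      rw [map_pow, map_pow, hdetσ]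
    have d3 : (ℓ : T) ^ k - ((otrC p n h : ℕ) : T) ∈ IsLocalRing.maximalIdeal T ^ n := by
      obtain ⟨z, hz⟩ := hdvd
      have e : ((ℓ : T) ^ k - ((otrC p n h : ℕ) : T)) = ((p ^ n : ℕ) : T) * (z : T) := by
        have := congrArg (Int.cast : ℤ → T) hz
        push_cast at this ⊢
        exact this
      rw [e]
      exact Ideal.mul_mem_right _ _ hpmem
    have e : LinearMap.det (H.ρ.ρ h) - ((otrC p n h : ℕ) : T) =
        ((ℓ : T) ^ k - ((otrC p n h : ℕ) : T)) -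
          (LinearMap.det (H.ρ.ρ (σ ^ k)) - LinearMap.det (H.ρ.ρ h)) := by
      rw [hdetk]; ring
    rw [e]
    exact Ideal.sub_mem _ d3 d1
  · intro x hx
    have hJu := hLJ _ fun a ha => hu a (hLJle ha)
    have hact := asm_smul_eq (N := N) n _ (σ ^ k) hJu x hx
    rw [hgu] at hact
    have hx' : p ^ n • (h⁻¹ • x) = 0 := otr_torsion_smul _ n x hx
    rw [otrEvalJ_frobPoly, powTr_heckeBar_apply J ℓ hℓ hℓNp A hA σ hσ k x ⟨n, hx⟩, ← hact.1,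
      ← hact.2]
    congr 1
    refine otr_zsmul_congr n _ _ ?_ _ hx'
    have e : (((ℓ : ℕ) ^ k : ℕ) : ℤ) = ((ℓ : ℕ) : ℤ) ^ k := by push_cast; rfl
    simpa using hdvd

/-- the image of a Hecke element which is a unit at `θ` is a unit of `T` -/
theorem otr_isUnit_π (H : CuspForm.HeckeGaloisRepDatum N (↑S : Set ℕ) 𝒪 θ T)
    (t : CuspForm.heckeAlgebra N 2 (↑S : Set ℕ)) (ht : θ t ≠ 0) : IsUnit (H.π t) := by
  by_contra hnu
  have hmem : H.π t ∈ IsLocalRing.maximalIdeal T := (IsLocalRing.mem_maximalIdeal _).mpr hnu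
  have h0 : IsLocalRing.residue T (H.π t) = 0 := (IsLocalRing.residue_eq_zero_iff _).mpr hmem
  rw [H.residue_π] at h0
  exact ht ((map_eq_zero _).mp h0)

set_option maxHeartbeats 1600000 in
/-- the combination of four Hecke polynomials acting as `h + χ(h) h⁻¹` kills `E · J₀(N)[pⁿ]`,
if (O1) holds there. -/
theorem otr_kill (J : JacInput N p) (n : ℕ) (g τ₀ τ : GQ) (P₁ P₂ P₃ P₄ E : HPoly N S)
    (ha₁ : ∀ x : JZero N, p ^ n • x = 0 →
      otrEvalJ N S P₁ x = (g * τ₀ * τ) • x + (otrC p n (g * τ₀ * τ) : ℤ) • (g * τ₀ * τ)⁻¹ • x)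
    (ha₂ : ∀ x : JZero N, p ^ n • x = 0 →
      otrEvalJ N S P₂ x = (g * τ₀) • x + (otrC p n (g * τ₀) : ℤ) • (g * τ₀)⁻¹ • x)
    (ha₃ : ∀ x : JZero N, p ^ n • x = 0 →
      otrEvalJ N S P₃ x = (g * τ) • x + (otrC p n (g * τ) : ℤ) • (g * τ)⁻¹ • x)
    (ha₄ : ∀ x : JZero N, p ^ n • x = 0 →
      otrEvalJ N S P₄ x = g • x + (otrC p n g : ℤ) • g⁻¹ • x)
    (hE : ∀ x : JZero N, p ^ n • x = 0 → ∀ y : JZero N, y = otrEvalJ N S E x →
      τ₀ • (τ • y - y) = (otrC p n τ₀ : ℤ) • (τ • y - y) ∧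
      τ • (τ₀ • y - y) = (otrC p n τ : ℤ) • (τ₀ • y - y))
    (x : JZero N) (hx : p ^ n • x = 0) :
    otrEvalJ N S ((P₁ - P₂ - ((otrC p n τ₀ : ℤ) : HPoly N S) * P₃
      + ((otrC p n τ₀ : ℤ) : HPoly N S) * P₄) * E) x = 0 := by
  have hy : p ^ n • otrEvalJ N S E x = 0 := otr_torsion S E _ x hx
  have hx' : p ^ n • (τ₀⁻¹ • g⁻¹ • x) = 0 :=
    otr_torsion_smul _ _ _ (otr_torsion_smul _ _ x hx)
  have h1 := (hE x hx _ rfl).1
  have h2 := (hE (τ₀⁻¹ • g⁻¹ • x) hx' _ rfl).2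
  rw [← otr_gal_comm S J E, ← otr_gal_comm S J E] at h2
  have hcomb := otr_comb (p := p) n g τ₀ τ (otrEvalJ N S E x) hy h1 h2
  have e1 : otrEvalJ N S ((P₁ - P₂ - ((otrC p n τ₀ : ℤ) : HPoly N S) * P₃
      + ((otrC p n τ₀ : ℤ) : HPoly N S) * P₄) * E) =
      (otrEvalJ N S P₁ - otrEvalJ N S P₂ - (otrC p n τ₀ : ℤ) • otrEvalJ N S P₃
        + (otrC p n τ₀ : ℤ) • otrEvalJ N S P₄) * otrEvalJ N S E := by
    rw [map_mul, map_add, map_sub, map_sub, map_mul, map_mul, map_intCast, zsmul_eq_mul,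
      zsmul_eq_mul]
  rw [e1, Module.End.mul_apply, LinearMap.add_apply, LinearMap.sub_apply, LinearMap.sub_apply,
    LinearMap.smul_apply, LinearMap.smul_apply, ha₁ _ hy, ha₂ _ hy, ha₃ _ hy, ha₄ _ hy]
  exact hcomb

/-- **the trace congruence**: `tr (ρ(g) (ρ(τ₀) - det ρ(τ₀)) (ρ(τ) - 1)) ∈ 𝔪ⁿ` for all `n`. -/
theorem otr_trace_mem
    (hcheb : WeakCheb) (J : JacInput N p) (hF : Faith J S)
    (hp𝒪 : (p : 𝒪) ∈ IsLocalRing.maximalIdeal 𝒪) (hpS : p ∈ S)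
    (hNS : ∀ q : ℕ, q.Prime → q ∣ N → q ∈ S)
    (H : CuspForm.HeckeGaloisRepDatum N (↑S : Set ℕ) 𝒪 θ T) (τ₀ τ g : GQ)
    (hO1 : ∀ n : ℕ, OrdJ θ p τ₀ τ n) (n₀ : ℕ) :
    H.ρ.trace (g * τ₀ * τ) - H.ρ.trace (g * τ₀) - LinearMap.det (H.ρ.ρ τ₀) * H.ρ.trace (g * τ)
      + LinearMap.det (H.ρ.ρ τ₀) * H.ρ.trace g ∈ IsLocalRing.maximalIdeal T ^ n₀ := by
  have hp : p.Prime := Fact.out
  obtain ⟨c, hc⟩ := exists_sat_const hp S J hF
  obtain ⟨P₁, ht₁, -, ha₁⟩ := otr_exists_frobPoly hcheb J hp𝒪 hpS hNS H (g * τ₀ * τ) (n₀ + c)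
  obtain ⟨P₂, ht₂, -, ha₂⟩ := otr_exists_frobPoly hcheb J hp𝒪 hpS hNS H (g * τ₀) (n₀ + c)
  obtain ⟨P₃, ht₃, -, ha₃⟩ := otr_exists_frobPoly hcheb J hp𝒪 hpS hNS H (g * τ) (n₀ + c)
  obtain ⟨P₄, ht₄, -, ha₄⟩ := otr_exists_frobPoly hcheb J hp𝒪 hpS hNS H g (n₀ + c)
  obtain ⟨-, -, hd₀, -⟩ := otr_exists_frobPoly hcheb J hp𝒪 hpS hNS H τ₀ (n₀ + c)
  obtain ⟨E, hEθ, hE⟩ := hO1 (n₀ + c)
  have hlat : ∀ l : J.Λ, ∃ m : J.Λ, evalLat S J ((P₁ - P₂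
      - ((otrC p (n₀ + c) τ₀ : ℤ) : HPoly N S) * P₃
      + ((otrC p (n₀ + c) τ₀ : ℤ) : HPoly N S) * P₄) * E) l = (p ^ (n₀ + c) : ℤ) • m := by
    intro l
    have key : J.e (n₀ + c) (evalLat S J ((P₁ - P₂
        - ((otrC p (n₀ + c) τ₀ : ℤ) : HPoly N S) * P₃
        + ((otrC p (n₀ + c) τ₀ : ℤ) : HPoly N S) * P₄) * E) l) = 0 := by
      rw [otr_e_evalLat]
      exact otr_kill J (n₀ + c) g τ₀ τ P₁ P₂ P₃ P₄ E ha₁ ha₂ ha₃ ha₄ hE _
        (lev_pow_smul_e J _ l)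
    obtain ⟨m, hm⟩ := (J.e_ker (n₀ + c) _).mp key
    exact ⟨m, by rw [hm, ← natCast_zsmul, Nat.cast_pow]⟩
  obtain ⟨t, ht⟩ := hc (n₀ + c) _ hlat
  rw [Nat.add_sub_cancel] at ht
  have hle : IsLocalRing.maximalIdeal T ^ (n₀ + c) ≤ IsLocalRing.maximalIdeal T ^ n₀ :=
    Ideal.pow_le_pow_right (Nat.le_add_right _ _)
  have ht' := congrArg H.π ht
  rw [map_mul, map_mul, map_add, map_sub, map_sub, map_mul, map_mul, map_intCast, map_add,
    map_sub, map_sub, map_mul, map_mul, map_intCast, map_zsmul, zsmul_eq_mul] at ht'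
  -- `π(Q) ∈ 𝔪^n₀`
  have hQE : (H.π (evalForms N S P₁) - H.π (evalForms N S P₂)
      - ((otrC p (n₀ + c) τ₀ : ℤ) : T) * H.π (evalForms N S P₃)
      + ((otrC p (n₀ + c) τ₀ : ℤ) : T) * H.π (evalForms N S P₄)) * H.π (evalForms N S E)
      ∈ IsLocalRing.maximalIdeal T ^ n₀ := by
    rw [ht']
    apply Ideal.mul_mem_right
    push_cast
    exact Ideal.pow_mem_pow (asm_natCast_mem hp𝒪) n₀
  have hQm : (H.π (evalForms N S P₁) - H.π (evalForms N S P₂)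
      - ((otrC p (n₀ + c) τ₀ : ℤ) : T) * H.π (evalForms N S P₃)
      + ((otrC p (n₀ + c) τ₀ : ℤ) : T) * H.π (evalForms N S P₄))
      ∈ IsLocalRing.maximalIdeal T ^ n₀ := by
    obtain ⟨u, hu⟩ := otr_isUnit_π H _ hEθ
    rw [← hu] at hQE
    have := Ideal.mul_mem_right ((u⁻¹ : Tˣ) : T) _ hQE
    rwa [mul_assoc, Units.mul_inv, mul_one] at this
  have hd₀' : LinearMap.det (H.ρ.ρ τ₀) - ((otrC p (n₀ + c) τ₀ : ℤ) : T)
      ∈ IsLocalRing.maximalIdeal T ^ n₀ := by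
    have : ((otrC p (n₀ + c) τ₀ : ℕ) : T) = ((otrC p (n₀ + c) τ₀ : ℤ) : T) := by push_cast; rfl
    rw [← this]
    exact hle hd₀
  have e : H.ρ.trace (g * τ₀ * τ) - H.ρ.trace (g * τ₀)
      - LinearMap.det (H.ρ.ρ τ₀) * H.ρ.trace (g * τ) + LinearMap.det (H.ρ.ρ τ₀) * H.ρ.trace g =
      (H.π (evalForms N S P₁) - H.π (evalForms N S P₂)
        - ((otrC p (n₀ + c) τ₀ : ℤ) : T) * H.π (evalForms N S P₃)
        + ((otrC p (n₀ + c) τ₀ : ℤ) : T) * H.π (evalForms N S P₄))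
      + (H.ρ.trace (g * τ₀ * τ) - H.π (evalForms N S P₁))
      - (H.ρ.trace (g * τ₀) - H.π (evalForms N S P₂))
      - LinearMap.det (H.ρ.ρ τ₀) * (H.ρ.trace (g * τ) - H.π (evalForms N S P₃))
      - (LinearMap.det (H.ρ.ρ τ₀) - ((otrC p (n₀ + c) τ₀ : ℤ) : T)) * H.π (evalForms N S P₃)
      + LinearMap.det (H.ρ.ρ τ₀) * (H.ρ.trace g - H.π (evalForms N S P₄))
      + (LinearMap.det (H.ρ.ρ τ₀) - ((otrC p (n₀ + c) τ₀ : ℤ) : T)) * H.π (evalForms N S P₄) := by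
    ring
  rw [e]
  refine Ideal.add_mem _ (Ideal.add_mem _ (Ideal.sub_mem _ (Ideal.sub_mem _ (Ideal.sub_mem _
    (Ideal.add_mem _ hQm (hle ht₁)) (hle ht₂)) ?_) ?_) ?_) ?_
  · exact Ideal.mul_mem_left _ _ (hle ht₃)
  · exact Ideal.mul_mem_right _ _ hd₀'
  · exact Ideal.mul_mem_left _ _ (hle ht₄)
  · exact Ideal.mul_mem_right _ _ hd₀'

/-- **the trace identity** -/
theorem otr_trace_eq_zero
    (hcheb : WeakCheb) (J : JacInput N p) (hF : Faith J S)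
    (hp𝒪 : (p : 𝒪) ∈ IsLocalRing.maximalIdeal 𝒪) (hpS : p ∈ S)
    (hNS : ∀ q : ℕ, q.Prime → q ∣ N → q ∈ S)
    (H : CuspForm.HeckeGaloisRepDatum N (↑S : Set ℕ) 𝒪 θ T) (τ₀ τ g : GQ)
    (hO1 : ∀ n : ℕ, OrdJ θ p τ₀ τ n) :
    H.ρ.trace (g * τ₀ * τ) - H.ρ.trace (g * τ₀) - LinearMap.det (H.ρ.ρ τ₀) * H.ρ.trace (g * τ)
      + LinearMap.det (H.ρ.ρ τ₀) * H.ρ.trace g = 0 :=
  trcong_eq_of_forall_mem fun n => by
    rw [sub_zero]
    exact otr_trace_mem hcheb J hF hp𝒪 hpS hNS H τ₀ τ g hO1 n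

/-- **TRANSFER**: the relation (O1) on the torsion of `J₀(N)` gives
`(ρ(τ₀) - det ρ(τ₀)) (ρ(τ) - 1) = 0` for the representation of the datum. -/
theorem otr_main
    (hcheb : WeakCheb) (J : JacInput N p) (hF : Faith J S)
    (hp𝒪 : (p : 𝒪) ∈ IsLocalRing.maximalIdeal 𝒪) (hpS : p ∈ S)
    (hNS : ∀ q : ℕ, q.Prime → q ∣ N → q ∈ S)
    (H : CuspForm.HeckeGaloisRepDatum N (↑S : Set ℕ) 𝒪 θ T) (τ₀ τ : GQ)
    (hO1 : ∀ n : ℕ, OrdJ θ p τ₀ τ n) :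
    (H.ρ.ρ τ₀ - (LinearMap.det (H.ρ.ρ τ₀)) • (1 : Module.End T H.ρ.V)) * (H.ρ.ρ τ - 1) = 0 := by
  classical
  let b : Module.Basis (Fin 2) T H.ρ.V := Module.finBasisOfFinrankEq T H.ρ.V H.ρ.finrank_eq
  set r := matOfBasis H.ρ b with hr
  have htr : ∀ g, H.ρ.trace g = (r g).trace := by
    intro g
    rw [GaloisRepAdic.trace, LinearMap.trace_eq_matrix_trace T b, hr, matOfBasis_apply]
  have hdet : LinearMap.det (H.ρ.ρ τ₀) = (r τ₀).det := by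
    rw [hr, matOfBasis_apply, LinearMap.det_toMatrix]
  have hspan := ker_span_eq_top H.ρ H.residual_absIrr b
  set X : M2 T := (r τ₀ - (r τ₀).det • (1 : M2 T)) * (r τ - 1) with hX
  have hXg : ∀ g : GQ, (r g * X).trace = 0 := by
    intro g
    have h0 := otr_trace_eq_zero hcheb J hF hp𝒪 hpS hNS H τ₀ τ g hO1
    rw [htr, htr, htr, htr, hdet] at h0
    have e : r g * X = r (g * τ₀ * τ) - r (g * τ₀) - (r τ₀).det • r (g * τ)
        + (r τ₀).det • r g := by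
      rw [hX, map_mul, map_mul, map_mul]
      simp only [mul_sub, sub_mul, mul_one, one_mul, Matrix.mul_smul, Matrix.smul_mul, mul_assoc]
      abel
    rw [e, Matrix.trace_add, Matrix.trace_sub, Matrix.trace_sub, Matrix.trace_smul,
      Matrix.trace_smul, smul_eq_mul, smul_eq_mul]
    exact h0
  have hXY : ∀ Y : M2 T, (X * Y).trace = 0 := by
    intro Y
    have hYs : Y ∈ Submodule.span T (Set.range r) := by rw [hspan]; trivial
    induction hYs using Submodule.span_induction with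
    | mem Y hY =>
      obtain ⟨g, rfl⟩ := hY
      rw [Matrix.trace_mul_comm]
      exact hXg g
    | zero => simp
    | add Y Z _ _ hY hZ => rw [mul_add, Matrix.trace_add, hY, hZ, add_zero]
    | smul c Y _ hY => rw [Matrix.mul_smul, Matrix.trace_smul, hY, smul_zero]
  have hX0 : X = 0 := by
    rw [Matrix.ext_iff_trace_mul_right]
    intro Y
    rw [hXY Y, zero_mul, Matrix.trace_zero]
  apply (LinearMap.toMatrixAlgEquiv b).injective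
  rw [map_zero, map_mul, map_sub, map_sub, map_smul, map_one]
  have e1 : LinearMap.toMatrixAlgEquiv b (H.ρ.ρ τ₀) = r τ₀ := rfl
  have e2 : LinearMap.toMatrixAlgEquiv b (H.ρ.ρ τ) = r τ := rfl
  rw [e1, e2, hdet]
  exact hX0

end Datum

end Fermat.Agent.S33lib
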