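/-
Item 86 (S33), piece A2 (helper19), second file: the `θ`-LOCALISATION.  Complete proofs.

`S33OrdJ N p S θ'` (Hub: the relation (O1) on the `θ'`-part of `J₀(N)[p^∞]`) gives the relation
(O1) for the representation of every Hecke–Galois datum `H` with residual eigensystem `θ`
(`θ' = θ ∘ evalForms`).

* `thp_commute`: the Hecke polynomials commute on `J₀(N)`.
* `thp_finite`: `J₀(N)[pⁿ]` is finite (from a `JacInput`).
* `thp_exists_pow`: on `J₀(N)[pⁿ]` the powers of a Hecke polynomial are eventually periodic.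
* `thp_exists_proj`: a Hecke polynomial `E` with `θ' E = 1` mapping `J₀(N)[pⁿ]` into the
  `θ'`-part (no idempotents: `E = ∏ (1 - Q ^ d_Q)` over representatives `Q` of the kernel of `θ'`).
* `thp_ordJ`: `S33OrdJ ⇒ OrdJ` (the input of `otr_main`).
* `thp_O1`: `S33OrdJ ⇒` (O1) for `H.ρ`, in the shape of `s33_of_O1` (`OrdUnit.lean`).
-/
import Mathlib
import Fermat.Agent.S33lib.Hub
import Fermat.Agent.S33lib.OrdTransfer
import Fermat.Agent.HeckeBar.Final

set_option autoImplicit false
set_option linter.style.longLine false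
set_option linter.unusedSectionVars false
set_option linter.unusedVariables false

namespace Fermat.Agent.S33lib

open Fermat.Agent.GalRep ModularCurve Fermat.Agent.S31lib Fermat.Agent.S34lib
  Fermat.Agent.S35lib Fermat.Agent.S53lib IsLocalRing

section Basic

variable {N p : ℕ} [NeZero N] {S : Finset ℕ}

/-- the two evaluation maps agree -/
theorem thp_evalJ_eq : otrEvalJ N S = evalJac N S N := rfl

/-- the Hecke polynomials commute on `J₀(N)` -/
theorem thp_commute (P Q : HPoly N S) :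
    Commute (evalJac N S N P) (evalJac N S N Q) := by
  have hgen : ∀ (ℓ : GoodPrime N S) (Q : HPoly N S),
      Commute (heckeOperatorBar N ℓ.1) (evalJac N S N Q) := by
    intro ℓ Q
    induction Q using FreeAlgebra.induction with
    | grade0 r =>
      rw [AlgHom.commutes]
      exact Algebra.commute_algebraMap_right r _
    | grade1 ℓ' =>
      rw [evalJac_ι]
      exact Fermat.Agent.HeckeBar.heckeOperatorsCommuteBar N ℓ.1 ℓ'.1
    | mul a b ha hb =>
      rw [map_mul]
      exact ha.mul_right hb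
    | add a b ha hb =>
      rw [map_add]
      exact ha.add_right hb
  induction P using FreeAlgebra.induction with
  | grade0 r =>
    rw [AlgHom.commutes]
    exact Algebra.commute_algebraMap_left r _
  | grade1 ℓ =>
    rw [evalJac_ι]
    exact hgen ℓ Q
  | mul a b ha hb =>
    rw [map_mul]
    exact ha.mul_left hb
  | add a b ha hb =>
    rw [map_add]
    exact ha.add_left hb

/-- Hecke polynomials preserve the `pⁿ`-torsion -/
theorem thp_torsion (P : HPoly N S) (n : ℕ) (x : JZero N) (hx : p ^ n • x = 0) :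
    p ^ n • evalJac N S N P x = 0 := by
  rw [← map_nsmul, hx, map_zero]

/-- `J₀(N)[pⁿ]` is finite -/
theorem thp_finite (J : JacInput N p) (hp : p.Prime) (n : ℕ) :
    Finite {x : JZero N // p ^ n • x = 0} := by
  classical
  let b := Module.Free.chooseBasis ℤ J.Λ
  have : NeZero (p ^ n) := ⟨pow_ne_zero _ hp.ne_zero⟩
  let f : (Module.Free.ChooseBasisIndex ℤ J.Λ → ZMod (p ^ n)) → {x : JZero N // p ^ n • x = 0} :=
    fun c => ⟨J.e n (∑ i, ((c i).val : ℤ) • b i), lev_pow_smul_e J n _⟩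
  refine Finite.of_surjective f ?_
  rintro ⟨x, hx⟩
  obtain ⟨l, rfl⟩ := J.e_range n x hx
  refine ⟨fun i => ((b.repr l i : ℤ) : ZMod (p ^ n)), ?_⟩
  apply Subtype.ext
  show J.e n (∑ i, ((((b.repr l i : ℤ) : ZMod (p ^ n))).val : ℤ) • b i) = J.e n l
  have hdiff : ∃ m : J.Λ, l - ∑ i, ((((b.repr l i : ℤ) : ZMod (p ^ n))).val : ℤ) • b i
      = p ^ n • m := by
    have hdvd : ∀ i, ∃ q : ℤ, b.repr l i - ((((b.repr l i : ℤ) : ZMod (p ^ n))).val : ℤ)
        = ((p ^ n : ℕ) : ℤ) * q := by
      intro i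
      have h : ((p ^ n : ℕ) : ℤ) ∣ b.repr l i - ((((b.repr l i : ℤ) : ZMod (p ^ n))).val : ℤ) := by
        rw [← ZMod.intCast_zmod_eq_zero_iff_dvd]
        push_cast
        rw [ZMod.natCast_val, ZMod.cast_id', id, sub_self]
      exact h
    choose q hq using hdvd
    refine ⟨∑ i, q i • b i, ?_⟩
    have hl : ∑ i, (b.repr l i) • b i = l := b.sum_repr l
    have key : (∑ i, (b.repr l i) • b i)
        - ∑ i, ((((b.repr l i : ℤ) : ZMod (p ^ n))).val : ℤ) • b i = p ^ n • ∑ i, q i • b i := by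
      rw [← Finset.sum_sub_distrib, Finset.smul_sum]
      refine Finset.sum_congr rfl fun i _ => ?_
      rw [← sub_smul, hq i, mul_smul, natCast_zsmul]
    rw [hl] at key
    exact key
  obtain ⟨m, hm⟩ := hdiff
  have h0 : J.e n (l - ∑ i, ((((b.repr l i : ℤ) : ZMod (p ^ n))).val : ℤ) • b i) = 0 :=
    (J.e_ker n _).mpr ⟨m, hm⟩
  rw [map_sub, sub_eq_zero] at h0
  exact h0.symm

/-- on `J₀(N)[pⁿ]` the powers of an endomorphism are eventually periodic -/
theorem thp_exists_pow (J : JacInput N p) (hp : p.Prime) (n : ℕ) (f : Module.End ℤ (JZero N)) :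
    ∃ i d : ℕ, 0 < d ∧ ∀ x : JZero N, p ^ n • x = 0 → (f ^ (i + d)) x = (f ^ i) x := by
  classical
  have := thp_finite J hp n
  let g : ℕ → ({x : JZero N // p ^ n • x = 0} → {x : JZero N // p ^ n • x = 0}) :=
    fun k x => ⟨(f ^ k) x.1, by rw [← map_nsmul, x.2, map_zero]⟩
  obtain ⟨k₁, k₂, hne, heq⟩ := Finite.exists_ne_map_eq_of_infinite g
  have key : ∀ a b : ℕ, a < b → g a = g b →
      ∃ i d : ℕ, 0 < d ∧ ∀ x : JZero N, p ^ n • x = 0 → (f ^ (i + d)) x = (f ^ i) x := by
    intro a b hab h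
    refine ⟨a, b - a, by omega, fun x hx => ?_⟩
    have h1 := congrArg Subtype.val (congrFun h ⟨x, hx⟩)
    have e : a + (b - a) = b := by omega
    rw [e]
    exact h1.symm
  rcases lt_or_gt_of_ne hne with h | h
  · exact key k₁ k₂ h heq
  · exact key k₂ k₁ h heq.symm

/-- if two endomorphisms preserving `J₀(N)[pⁿ]` agree there, so do their powers -/
theorem thp_pow_congr (n : ℕ) (f g : Module.End ℤ (JZero N))
    (h : ∀ x : JZero N, p ^ n • x = 0 → f x = g x) (k : ℕ) (x : JZero N) (hx : p ^ n • x = 0) :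
    (f ^ k) x = (g ^ k) x := by
  induction k generalizing x with
  | zero => rfl
  | succ k ih =>
    have hgx : p ^ n • g x = 0 := by rw [← map_nsmul, hx, map_zero]
    rw [pow_succ, pow_succ, Module.End.mul_apply, Module.End.mul_apply, h x hx, ih _ hgx]

end Basic

/-! ### The projector -/

section Proj

variable {N p : ℕ} [NeZero N] {S : Finset ℕ}

/-- the factor `1 - Q ^ d` kills `Q ^ i` on `J₀(N)[pⁿ]`, and so does every product of factors
containing it. -/
theorem thp_list_kill (n : ℕ) (d i : HPoly N S → ℕ)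
    (hid : ∀ (Q : HPoly N S) (x : JZero N), p ^ n • x = 0 →
      (evalJac N S N Q ^ (i Q + d Q)) x = (evalJac N S N Q ^ i Q) x)
    (Q : HPoly N S) (l : List (HPoly N S)) (hQ : Q ∈ l) (x : JZero N) (hx : p ^ n • x = 0) :
    (evalJac N S N Q ^ i Q) (evalJac N S N (l.map fun R => 1 - R ^ d R).prod x) = 0 := by
  induction l with
  | nil => simp at hQ
  | cons a l ih =>
    have hzt : p ^ n • evalJac N S N (l.map fun R => 1 - R ^ d R).prod x = 0 :=
      thp_torsion _ n x hx
    have hprod : evalJac N S N ((a :: l).map fun R => 1 - R ^ d R).prod x =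
        evalJac N S N (1 - a ^ d a) (evalJac N S N (l.map fun R => 1 - R ^ d R).prod x) := by
      rw [List.map_cons, List.prod_cons, map_mul]
      rfl
    rw [hprod]
    generalize evalJac N S N (l.map fun R => 1 - R ^ d R).prod x = z at hzt ih ⊢
    by_cases hQa : Q = a
    · subst hQa
      have e1 : evalJac N S N (1 - Q ^ d Q) z = z - (evalJac N S N Q ^ d Q) z := by
        rw [map_sub, map_one, map_pow]
        rfl
      have e2 : (evalJac N S N Q ^ i Q) ((evalJac N S N Q ^ d Q) z) =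
          (evalJac N S N Q ^ (i Q + d Q)) z := by
        rw [pow_add]
        rfl
      rw [e1, map_sub, e2, hid Q z hzt, sub_self]
    · have hQl : Q ∈ l := by
        rcases List.mem_cons.mp hQ with h | h
        · exact absurd h hQa
        · exact h
      have hc : Commute (evalJac N S N Q) (evalJac N S N (1 - a ^ d a)) := thp_commute Q _
      have hc' := hc.pow_left (i Q)
      have e : (evalJac N S N Q ^ i Q) (evalJac N S N (1 - a ^ d a) z) =
          evalJac N S N (1 - a ^ d a) ((evalJac N S N Q ^ i Q) z) :=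
        LinearMap.congr_fun hc'.eq z
      rw [e, ih hQl, map_zero]

/-- **the projector**: a Hecke polynomial `E` with `θ' E = 1` which maps `J₀(N)[pⁿ]` into the
`θ'`-part. -/
theorem thp_exists_proj (J : JacInput N p) (hp : p.Prime) (n : ℕ) {κ : Type} [Field κ]
    (θ' : HPoly N S →+* κ) :
    ∃ E : HPoly N S, θ' E = 1 ∧ ∀ x : JZero N, p ^ n • x = 0 →
      S33hPart N θ' (evalJac N S N E x) := by
  classical
  have := thp_finite J hp n
  -- the restriction to `J₀(N)[pⁿ]`
  let res : HPoly N S → ({x : JZero N // p ^ n • x = 0} → {x : JZero N // p ^ n • x = 0}) :=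
    fun P x => ⟨evalJac N S N P x.1, thp_torsion P n x.1 x.2⟩
  -- the exponents
  have hex := fun P : HPoly N S => thp_exists_pow J hp n (evalJac N S N P)
  choose i d hd hid using hex
  -- representatives of the kernel of `θ'`
  let Φ : Set ({x : JZero N // p ^ n • x = 0} → {x : JZero N // p ^ n • x = 0}) :=
    res '' {P | θ' P = 0}
  have hΦ : Φ.Finite := Set.toFinite Φ
  have hrep : ∀ φ ∈ Φ, ∃ P : HPoly N S, θ' P = 0 ∧ res P = φ := fun φ hφ => hφ
  let g : ({x : JZero N // p ^ n • x = 0} → {x : JZero N // p ^ n • x = 0}) → HPoly N S :=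
    fun φ => if h : φ ∈ Φ then (hrep φ h).choose else 0
  have hg0 : ∀ φ, θ' (g φ) = 0 := by
    intro φ
    by_cases h : φ ∈ Φ
    · simp only [g, h, dif_pos]
      exact (hrep φ h).choose_spec.1
    · simp only [g, h, dif_neg, not_false_eq_true, map_zero]
  have hgres : ∀ φ ∈ Φ, res (g φ) = φ := by
    intro φ h
    simp only [g, h, dif_pos]
    exact (hrep φ h).choose_spec.2
  let L : List (HPoly N S) := hΦ.toFinset.toList.map g
  refine ⟨(L.map fun R => 1 - R ^ d R).prod, ?_, ?_⟩
  · rw [map_list_prod]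
    apply List.prod_eq_one
    intro a ha
    rw [List.map_map] at ha
    obtain ⟨Q, hQL, rfl⟩ := List.mem_map.mp ha
    obtain ⟨φ, -, rfl⟩ := List.mem_map.mp hQL
    show θ' (1 - g φ ^ d (g φ)) = 1
    rw [map_sub, map_one, map_pow, hg0 φ, zero_pow (hd _).ne', sub_zero]
  · intro x hx P hP
    have hφ : res P ∈ Φ := ⟨P, hP, rfl⟩
    have hQL : g (res P) ∈ L := by
      refine List.mem_map.mpr ⟨res P, ?_, rfl⟩
      rw [Finset.mem_toList, Set.Finite.mem_toFinset]
      exact hφ
    have hres : ∀ y : JZero N, p ^ n • y = 0 →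
        evalJac N S N P y = evalJac N S N (g (res P)) y := by
      intro y hy
      have h := congrArg Subtype.val (congrFun (hgres (res P) hφ) ⟨y, hy⟩)
      exact h.symm
    refine ⟨i (g (res P)), ?_⟩
    have hy : p ^ n • evalJac N S N (L.map fun R => 1 - R ^ d R).prod x = 0 :=
      thp_torsion _ n x hx
    rw [thp_pow_congr n _ _ hres _ _ hy]
    exact thp_list_kill n d i hid (g (res P)) L hQL x hx

end Proj

/-! ### From the Hub statement `S33OrdJ` to the datum -/

section Datum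

variable {p : ℕ} [Fact p.Prime] {N : ℕ} [NeZero N] {S : Finset ℕ}
  {𝒪 : Type} [CommRing 𝒪] [IsDomain 𝒪] [IsDiscreteValuationRing 𝒪]
  [IsAdicComplete (IsLocalRing.maximalIdeal 𝒪) 𝒪]
  {θ : CuspForm.heckeAlgebra N 2 (↑S : Set ℕ) →+* IsLocalRing.ResidueField 𝒪}
  {T : Type} [CommRing T] [IsLocalRing T] [IsNoetherianRing T]
  [IsAdicComplete (IsLocalRing.maximalIdeal T) T] [Algebra 𝒪 T] [IsLocalHom (algebraMap 𝒪 T)]
  [Module.Finite 𝒪 T] [Module.Free 𝒪 T]

/-- `S33OrdJ ⇒ OrdJ`: the relation (O1) on the `θ'`-part gives the input of `otr_main`. -/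
theorem thp_ordJ (J : JacInput N p)
    {θ' : HPoly N S →+* IsLocalRing.ResidueField 𝒪}
    (hθ : ∀ P : HPoly N S, θ' P = θ (evalForms N S P))
    (hO : S33OrdJ N p S θ')
    (B : ValuationSubring (AlgebraicClosure ℚ)) (hB : B.LiesOverPrime p)
    (τ₀ : GQ) (hτ₀ : τ₀ ∈ B.inertiaSubgroupIn ℚ) (τ : GQ) (hτ : τ ∈ B.inertiaSubgroupIn ℚ)
    (n : ℕ) : OrdJ θ p τ₀ τ n := by
  have hp : p.Prime := Fact.out
  obtain ⟨E, hE1, hE⟩ := thp_exists_proj (S := S) J hp n θ'
  refine ⟨E, ?_, ?_⟩
  · rw [← hθ E, hE1]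
    exact one_ne_zero
  · intro x hx y hy
    have hyE : y = evalJac N S N E x := hy
    have hyt : p ^ n • y = 0 := by rw [hyE]; exact thp_torsion E n x hx
    have hpart : S33hPart N θ' y := by rw [hyE]; exact hE x hx
    have h1 := hO B hB τ₀ hτ₀ τ hτ n y hyt hpart
    have h2 := hO B hB τ hτ τ₀ hτ₀ n y hyt hpart
    constructor
    · rw [natCast_zsmul]
      exact h1
    · rw [natCast_zsmul]
      exact h2

/-- **A2 of the blueprint**: `S33OrdJ` (the relation (O1) on the `θ'`-part of `J₀(N)[p^∞]`) gives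
the relation (O1) for the representation of the datum, in the shape of `s33_of_O1`. -/
theorem thp_O1
    (hcheb : WeakCheb) (J : JacInput N p) (hF : Faith J S)
    (hp𝒪 : (p : 𝒪) ∈ IsLocalRing.maximalIdeal 𝒪) (hpS : p ∈ S)
    (hNS : ∀ q : ℕ, q.Prime → q ∣ N → q ∈ S)
    (H : CuspForm.HeckeGaloisRepDatum N (↑S : Set ℕ) 𝒪 θ T)
    {θ' : HPoly N S →+* IsLocalRing.ResidueField 𝒪}
    (hθ : ∀ P : HPoly N S, θ' P = θ (evalForms N S P))
    (hO : S33OrdJ N p S θ') :
    ∀ P : ValuationSubring (AlgebraicClosure ℚ), P.LiesOverPrime p →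
      ∀ τ₀ ∈ P.inertiaSubgroupIn ℚ, ∀ τ ∈ P.inertiaSubgroupIn ℚ,
        (H.ρ.ρ τ₀ - (LinearMap.det (H.ρ.ρ τ₀)) • (1 : Module.End T H.ρ.V)) * (H.ρ.ρ τ - 1) = 0 :=
  fun P hP τ₀ hτ₀ τ hτ =>
    otr_main hcheb J hF hp𝒪 hpS hNS H τ₀ τ fun n => thp_ordJ J hθ hO P hP τ₀ hτ₀ τ hτ n

end Datum

end Fermat.Agent.S33lib
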