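import Mathlib
import Fermat.Agent.S33lib.OrdUnit
import Fermat.Agent.S33lib.ThetaProj
import Fermat.Agent.S33lib.GeomSS
import Fermat.Agent.S31lib.Wiring
import Fermat.Agent.S37

/-!
# Item 86 (S33): the final wiring

* `s33f_theta`: the character `θ' = θ ∘ evalForms` of the Hecke polynomials.
* `s33f_of_ordJ`: S33 (hypotheses of the frozen statement, without `hres`) from `S33OrdJ`.
* `s33f_geom_transport`: `S33Geom N p θ'` for `p ‖ N` from the statement at the levels `M' * p`.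
* `s33f_main`: S33 from the RANK step and the two geometric inputs (good level, `p`-new classes).
-/

set_option autoImplicit false

noncomputable section

namespace Fermat.Agent.S33lib

open Fermat.Agent.GalRep ModularCurve Fermat.Agent.S31lib Fermat.Agent.S35lib IsLocalRing

section

variable {p : ℕ} {N : ℕ} [NeZero N] {S : Finset ℕ}
  {𝒪 : Type} [CommRing 𝒪] [IsDomain 𝒪] [IsDiscreteValuationRing 𝒪]
  [IsAdicComplete (IsLocalRing.maximalIdeal 𝒪) 𝒪]
  {θ : CuspForm.heckeAlgebra N 2 (↑S : Set ℕ) →+* IsLocalRing.ResidueField 𝒪}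
  {T : Type} [CommRing T] [IsLocalRing T] [IsNoetherianRing T]
  [IsAdicComplete (IsLocalRing.maximalIdeal T) T] [Algebra 𝒪 T] [IsLocalHom (algebraMap 𝒪 T)]
  [Module.Finite 𝒪 T] [Module.Free 𝒪 T]

/-- the character `θ' = θ ∘ evalForms` of the Hecke polynomials -/
def s33fTheta (θ : CuspForm.heckeAlgebra N 2 (↑S : Set ℕ) →+* IsLocalRing.ResidueField 𝒪) :
    HPoly N S →+* IsLocalRing.ResidueField 𝒪 :=
  θ.comp (evalForms N S : HPoly N S →+* CuspForm.heckeAlgebra N 2 (↑S : Set ℕ))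

theorem s33fTheta_apply (P : HPoly N S) : s33fTheta θ P = θ (evalForms N S P) := rfl

/-- **S33 from `S33OrdJ`** (the relation (O1) on the `θ'`-part of `J₀(N)[p^∞]`). -/
theorem s33f_of_ordJ (hp : p.Prime) (hp2 : p ≠ 2)
    (hp𝒪 : (p : 𝒪) ∈ IsLocalRing.maximalIdeal 𝒪) (hpN : p ∣ N)
    (hNS : ∀ q : ℕ, q.Prime → q ∣ N → q ∈ S)
    (H : CuspForm.HeckeGaloisRepDatum N (↑S : Set ℕ) 𝒪 θ T)
    (hO : haveI : Fact p.Prime := ⟨hp⟩; S33OrdJ N p S (s33fTheta θ)) :
    H.ρ.IsOrdinaryAt p := by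
  haveI : Fact p.Prime := ⟨hp⟩
  have hpS : p ∈ S := hNS p hp hpN
  obtain ⟨J, hJ⟩ := exists_jacInput_faithEmb
    (fun N' p' _ hcomm => Fermat.Agent.S37.result N' p' hcomm) N p
  exact s33_of_O1 hp hp2 hp𝒪 hpN hNS H
    (thp_O1 weakCheb J (faith_of_faithEmb J S hJ) hp𝒪 hpS hNS H
      (fun P => s33fTheta_apply P) hO)

end

section Transport

/-- `S33Geom N p θ'` for `p ‖ N` from the statement at the levels `M' * p`, `p ∤ M'`. -/
theorem s33f_geom_transport {p : ℕ} (hp : p.Prime) {N : ℕ} [NeZero N] (hpN : p ∣ N)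
    (hp2N : ¬ p ^ 2 ∣ N) {S : Finset ℕ} {κ : Type*} [Semiring κ] (θ' : HPoly N S →+* κ)
    (h : ∀ (M' : ℕ) [NeZero M'] [NeZero (M' * p)] (θ'' : HPoly (M' * p) S →+* κ),
      ¬ p ∣ M' → S33Geom (M' * p) p θ'') :
    S33Geom N p θ' := by
  obtain ⟨M', hM'⟩ : ∃ M', N = M' * p := ⟨N / p, (Nat.div_mul_cancel hpN).symm⟩
  subst hM'
  have hM0 : M' ≠ 0 := fun h0 => NeZero.ne (M' * p) (by rw [h0, zero_mul])
  haveI : NeZero M' := ⟨hM0⟩
  have hpM : ¬ p ∣ M' := by
    intro hd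
    apply hp2N
    rw [pow_two]
    exact Nat.mul_dvd_mul hd (dvd_refl p)
  exact h M' θ' hpM

end Transport

end Fermat.Agent.S33lib
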