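/-
Item 86 (S33), TRANSFER block, piece T1 (helper7): the Cayley–Hamilton kernel lemma.

`E` a ring (endomorphisms of a module `M`), `ρ : G →* E` a representation, `d : G → E` a central
multiplicative function ("determinant").  Put `t(g) = ρ(g) + d(g) ρ(g⁻¹)` ("trace"; then
`ρ(g)² − t(g) ρ(g) + d(g) = 0`), and assume that all `t(g)` commute with all `ρ(h)`.

* `s33t_pol`  : the polarised Cayley–Hamilton identity
  `ρ(g)ρ(h) + ρ(h)ρ(g) − t(g)ρ(h) − t(h)ρ(g) + t(g)t(h) − t(gh) = 0`;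
* `s33t_class`: `t(gh) = t(hg)`;
* `s33t_comm_kills`: if `a = Σ cᵢ ρ(gᵢ)` has `Σ cᵢ t(gᵢ h) = 0` for all `h` ("`a` is in the kernel
  of the pseudo-character"), then `[ρ(h), ρ(g)] a = 0`;
* `s33t_ker`: if moreover `2 (t(g₀h₀g₀h₀) − t(h₀²g₀²))` is left-cancellable for some `g₀, h₀`
  (`= −2 det [ρ̄(g₀), ρ̄(h₀)]`, a unit when `ρ̄` is absolutely irreducible), then `a = 0`.
* `s33t_not_comm`: under the same non-degeneracy, `ρ(G)` is not commutative (if `E` is nontrivial).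
-/
import Mathlib

set_option autoImplicit false

namespace Fermat.Agent.S33lib

section CHKer

variable {E : Type*} [Ring E] {G : Type*} [Group G]

/-- the "trace" `t(g) = ρ(g) + d(g) ρ(g⁻¹)` -/
def s33tT (ρ : G →* E) (d : G → E) (g : G) : E := ρ g + d g * ρ g⁻¹

variable (ρ : G →* E) (d : G → E)

theorem s33t_T_sub (g : G) : s33tT ρ d g - ρ g = d g * ρ g⁻¹ := by
  unfold s33tT; abel

theorem s33t_rho_inv_mul (g : G) : ρ g⁻¹ * ρ g = 1 := by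
  rw [← map_mul, inv_mul_cancel, map_one]

theorem s33t_rho_mul_inv (g : G) : ρ g * ρ g⁻¹ = 1 := by
  rw [← map_mul, mul_inv_cancel, map_one]

variable (hdm : ∀ g h, d (g * h) = d g * d h) (hdc : ∀ g (e : E), d g * e = e * d g)
  (htc : ∀ g h, s33tT ρ d g * ρ h = ρ h * s33tT ρ d g)

include hdm hdc in
/-- `(t(h) − ρ(h)) (t(g) − ρ(g)) = t(gh) − ρ(gh)` -/
theorem s33t_adj_mul (g h : G) :
    (s33tT ρ d h - ρ h) * (s33tT ρ d g - ρ g) = s33tT ρ d (g * h) - ρ (g * h) := by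
  rw [s33t_T_sub, s33t_T_sub, s33t_T_sub, mul_inv_rev, map_mul, hdm]
  have e1 : d h * ρ h⁻¹ * (d g * ρ g⁻¹) = d h * (ρ h⁻¹ * d g) * ρ g⁻¹ := by
    simp only [mul_assoc]
  rw [e1, ← hdc g (ρ h⁻¹)]
  have e2 : d h * d g = d g * d h := hdc h (d g)
  simp only [← mul_assoc]
  rw [e2]

include hdm hdc htc in
/-- the class-function property `t(gh) = t(hg)` -/
theorem s33t_class (g h : G) : s33tT ρ d (g * h) = s33tT ρ d (h * g) := by
  have h1 : ρ h * s33tT ρ d (g * h) = s33tT ρ d (h * g) * ρ h := by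
    have ed : d (g * h) = d (h * g) := by rw [hdm, hdm, hdc g (d h)]
    have eL : ρ h * (d (g * h) * ρ (g * h)⁻¹) = d (g * h) * ρ g⁻¹ := by
      rw [← mul_assoc, ← hdc (g * h) (ρ h), mul_assoc, ← map_mul, mul_inv_rev, ← mul_assoc,
        mul_inv_cancel, one_mul]
    have eR : d (h * g) * ρ (h * g)⁻¹ * ρ h = d (h * g) * ρ g⁻¹ := by
      rw [mul_assoc, ← map_mul, mul_inv_rev, mul_assoc, inv_mul_cancel, mul_one]
    unfold s33tT
    rw [mul_add, add_mul, eL, eR, ed, ← map_mul, ← map_mul, mul_assoc]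
  have h2 : ρ h * s33tT ρ d (g * h) = ρ h * s33tT ρ d (h * g) := by
    rw [h1, htc]
  have h3 := congrArg (fun x => ρ h⁻¹ * x) h2
  simp only [← mul_assoc, s33t_rho_inv_mul, one_mul] at h3
  exact h3

include hdm hdc htc in
/-- the polarised Cayley–Hamilton identity -/
theorem s33t_pol (g h : G) :
    ρ g * ρ h + ρ h * ρ g
      = s33tT ρ d g * ρ h + s33tT ρ d h * ρ g - s33tT ρ d g * s33tT ρ d h + s33tT ρ d (g * h) := by
  have h1 := s33t_adj_mul ρ d hdm hdc g h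
  have h2 : (s33tT ρ d h - ρ h) * (s33tT ρ d g - ρ g)
      = s33tT ρ d h * s33tT ρ d g - s33tT ρ d h * ρ g - ρ h * s33tT ρ d g + ρ h * ρ g := by
    noncomm_ring
  rw [h2, map_mul, ← htc g h] at h1
  -- `t(h) t(g) = t(g) t(h)`
  have h3 : s33tT ρ d h * s33tT ρ d g = s33tT ρ d g * s33tT ρ d h := by
    have : s33tT ρ d g * s33tT ρ d h = s33tT ρ d g * (ρ h + d h * ρ h⁻¹) := rfl
    rw [this, mul_add, htc g h, ← mul_assoc, ← hdc h (s33tT ρ d g), mul_assoc, htc g h⁻¹,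
      ← mul_assoc, ← add_mul]
    rfl
  rw [h3] at h1
  have h4 : ρ g * ρ h + ρ h * ρ g
      = (s33tT ρ d g * s33tT ρ d h - s33tT ρ d h * ρ g - s33tT ρ d g * ρ h + ρ h * ρ g)
        + (s33tT ρ d g * ρ h + s33tT ρ d h * ρ g - s33tT ρ d g * s33tT ρ d h) + ρ g * ρ h := by
    abel
  rw [h4, h1]
  abel

include hdc htc in
/-- the `t(g)` commute with each other -/
theorem s33t_T_comm (g h : G) :
    s33tT ρ d h * s33tT ρ d g = s33tT ρ d g * s33tT ρ d h := by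
  have : s33tT ρ d g * s33tT ρ d h = s33tT ρ d g * (ρ h + d h * ρ h⁻¹) := rfl
  rw [this, mul_add, htc g h, ← mul_assoc, ← hdc h (s33tT ρ d g), mul_assoc, htc g h⁻¹,
    ← mul_assoc, ← add_mul]
  rfl

section Ker

variable {ι : Type*} [Fintype ι] (c : ι → ℤ) (γ : ι → G)
  (hT : ∀ h, ∑ i, c i • s33tT ρ d (γ i * h) = 0)

include hdm hdc htc hT in
/-- `a ρ(h) + ρ(h) a = t(h) a` for `a` in the kernel of the pseudo-character -/
theorem s33t_anti (h : G) :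
    (∑ i, c i • ρ (γ i)) * ρ h + ρ h * (∑ i, c i • ρ (γ i))
      = s33tT ρ d h * (∑ i, c i • ρ (γ i)) := by
  have h1 : ∑ i, c i • s33tT ρ d (γ i) = 0 := by
    have := hT 1
    simpa using this
  have e : ∀ i, c i • (ρ (γ i) * ρ h + ρ h * ρ (γ i))
      = (c i • s33tT ρ d (γ i)) * ρ h + s33tT ρ d h * (c i • ρ (γ i))
        - (c i • s33tT ρ d (γ i)) * s33tT ρ d h + c i • s33tT ρ d (γ i * h) := by
    intro i
    rw [s33t_pol ρ d hdm hdc htc (γ i) h]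
    simp only [smul_add, smul_sub, smul_mul_assoc, mul_smul_comm]
  have e2 := Finset.sum_congr (rfl : (Finset.univ : Finset ι) = Finset.univ) (fun i _ => e i)
  simp only [Finset.sum_add_distrib, Finset.sum_sub_distrib, ← Finset.sum_mul,
    ← Finset.mul_sum, smul_add] at e2
  rw [h1, hT h, zero_mul, zero_mul, zero_add, sub_zero, add_zero] at e2
  rw [← e2]
  simp only [Finset.sum_mul, Finset.mul_sum, smul_mul_assoc, mul_smul_comm]

include hdm hdc htc hT in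
/-- `a ρ(h) = (t(h) − ρ(h)) a` -/
theorem s33t_swap (h : G) :
    (∑ i, c i • ρ (γ i)) * ρ h = (s33tT ρ d h - ρ h) * (∑ i, c i • ρ (γ i)) := by
  have := s33t_anti ρ d hdm hdc htc c γ hT h
  rw [sub_mul, ← this]
  abel

include hdm hdc htc hT in
/-- commutators kill the kernel of the pseudo-character -/
theorem s33t_comm_kills (h h' : G) :
    (ρ h * ρ h' - ρ h' * ρ h) * (∑ i, c i • ρ (γ i)) = 0 := by
  set a := ∑ i, c i • ρ (γ i) with ha
  have h1 : a * ρ (h * h') = (s33tT ρ d (h * h') - ρ (h * h')) * a :=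
    s33t_swap ρ d hdm hdc htc c γ hT (h * h')
  have h2 : a * ρ (h * h') = (s33tT ρ d (h' * h) - ρ (h' * h)) * a := by
    rw [map_mul, ← mul_assoc, s33t_swap ρ d hdm hdc htc c γ hT h, mul_assoc,
      s33t_swap ρ d hdm hdc htc c γ hT h', ← mul_assoc, s33t_adj_mul ρ d hdm hdc h' h]
  rw [h1, s33t_class ρ d hdm hdc htc h h'] at h2
  have h3 : (ρ (h * h') - ρ (h' * h)) * a = 0 := by
    have e : (ρ (h * h') - ρ (h' * h)) * a
        = (s33tT ρ d (h' * h) - ρ (h' * h)) * a - (s33tT ρ d (h' * h) - ρ (h * h')) * a := by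
      noncomm_ring
    rw [e, h2, sub_self]
  rwa [map_mul, map_mul] at h3

end Ker

include hdm hdc htc in
/-- `2 [ρ(g₀), ρ(h₀)]² = 2 (t(g₀h₀g₀h₀) − t(g₀h₀h₀g₀))` -/
theorem s33t_comm_sq (g₀ h₀ : G) :
    (2 : ℤ) • ((ρ g₀ * ρ h₀ - ρ h₀ * ρ g₀) * (ρ g₀ * ρ h₀ - ρ h₀ * ρ g₀))
      = (2 : ℤ) • (s33tT ρ d (g₀ * h₀ * (g₀ * h₀)) - s33tT ρ d (g₀ * h₀ * (h₀ * g₀))) := by
  set A := g₀ * h₀ with hA
  set B := h₀ * g₀ with hB
  have tAB : s33tT ρ d B = s33tT ρ d A := s33t_class ρ d hdm hdc htc h₀ g₀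
  have pAA := s33t_pol ρ d hdm hdc htc A A
  have pBB := s33t_pol ρ d hdm hdc htc B B
  have pAB := s33t_pol ρ d hdm hdc htc A B
  have tBB : s33tT ρ d (B * B) = s33tT ρ d (A * A) := by
    have : B * B = h₀ * (g₀ * h₀ * g₀) := by rw [hB]; group
    rw [this, ← s33t_class ρ d hdm hdc htc (g₀ * h₀ * g₀) h₀]
    congr 1
    rw [hA]; group
  rw [tAB] at pBB pAB
  rw [tBB] at pBB
  have e : (ρ g₀ * ρ h₀ - ρ h₀ * ρ g₀) * (ρ g₀ * ρ h₀ - ρ h₀ * ρ g₀)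
      = ρ A * ρ A - (ρ A * ρ B + ρ B * ρ A) + ρ B * ρ B := by
    rw [hA, hB, map_mul, map_mul]
    noncomm_ring
  have e2 : (2 : ℤ) • (ρ A * ρ A - (ρ A * ρ B + ρ B * ρ A) + ρ B * ρ B)
      = (ρ A * ρ A + ρ A * ρ A) - (2 : ℤ) • (ρ A * ρ B + ρ B * ρ A)
        + (ρ B * ρ B + ρ B * ρ B) := by
    rw [two_smul, two_smul]
    abel
  rw [e, e2, pAA, pBB, pAB, two_smul, two_smul]
  abel

include hdm hdc htc in
/-- **the Cayley–Hamilton kernel lemma** -/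
theorem s33t_ker (g₀ h₀ : G)
    (hδ : ∀ e : E, ((2 : ℤ) • (s33tT ρ d (g₀ * h₀ * (g₀ * h₀))
      - s33tT ρ d (g₀ * h₀ * (h₀ * g₀)))) * e = 0 → e = 0)
    {ι : Type*} [Fintype ι] (c : ι → ℤ) (γ : ι → G)
    (hT : ∀ h, ∑ i, c i • s33tT ρ d (γ i * h) = 0) :
    ∑ i, c i • ρ (γ i) = 0 := by
  apply hδ
  rw [← s33t_comm_sq ρ d hdm hdc htc g₀ h₀, smul_mul_assoc, mul_assoc,
    s33t_comm_kills ρ d hdm hdc htc c γ hT g₀ h₀, mul_zero, smul_zero]

include hdm hdc htc in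
/-- under the non-degeneracy, `ρ(g₀)` and `ρ(h₀)` do not commute -/
theorem s33t_not_comm [Nontrivial E] (g₀ h₀ : G)
    (hδ : ∀ e : E, ((2 : ℤ) • (s33tT ρ d (g₀ * h₀ * (g₀ * h₀))
      - s33tT ρ d (g₀ * h₀ * (h₀ * g₀)))) * e = 0 → e = 0) :
    ρ g₀ * ρ h₀ ≠ ρ h₀ * ρ g₀ := by
  intro hc
  have h1 := s33t_comm_sq ρ d hdm hdc htc g₀ h₀
  rw [hc, sub_self, zero_mul, smul_zero] at h1
  have h2 := hδ 1 (by rw [← h1, zero_mul])
  exact one_ne_zero h2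

include hdm hdc htc in
/-- if some `s` with `d(s) − 1` left-cancellable acts trivially, then `ρ(G)` is commutative -/
theorem s33t_comm_of_trivial (hd1 : d 1 = 1) (s : G) (hs : ρ s = 1)
    (hds : ∀ e : E, (d s - 1) * e = 0 → e = 0) (g h : G) :
    ρ g * ρ h = ρ h * ρ g := by
  -- `t(g⁻¹ s) − t(g⁻¹) = d(g⁻¹) (d(s) − 1) ρ(g)`
  have hs' : ρ s⁻¹ = 1 := by
    have := s33t_rho_inv_mul ρ s
    rwa [hs, mul_one] at this
  have e1 : s33tT ρ d (g⁻¹ * s) - s33tT ρ d g⁻¹ = d g⁻¹ * ((d s - 1) * ρ g) := by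
    unfold s33tT
    rw [mul_inv_rev, inv_inv, map_mul, map_mul, hs, hs', hdm]
    noncomm_ring
  have e2 : (s33tT ρ d (g⁻¹ * s) - s33tT ρ d g⁻¹) * ρ h
      = ρ h * (s33tT ρ d (g⁻¹ * s) - s33tT ρ d g⁻¹) := by
    rw [sub_mul, mul_sub, htc, htc]
  rw [e1] at e2
  have e3 : d g * (d g⁻¹ * ((d s - 1) * ρ g) * ρ h) = d g * (ρ h * (d g⁻¹ * ((d s - 1) * ρ g))) :=
    congrArg (fun x => d g * x) e2
  have hdd : d g * d g⁻¹ = 1 := by rw [← hdm, mul_inv_cancel, hd1]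
  have e4 : d g * (d g⁻¹ * ((d s - 1) * ρ g) * ρ h) = (d s - 1) * (ρ g * ρ h) := by
    simp only [← mul_assoc]
    rw [hdd, one_mul]
  have e5 : d g * (ρ h * (d g⁻¹ * ((d s - 1) * ρ g))) = (d s - 1) * (ρ h * ρ g) := by
    have c1 : ρ h * (d g⁻¹ * ((d s - 1) * ρ g)) = d g⁻¹ * (ρ h * ((d s - 1) * ρ g)) := by
      rw [← mul_assoc, ← hdc g⁻¹ (ρ h), mul_assoc]
    have c2 : ρ h * ((d s - 1) * ρ g) = (d s - 1) * (ρ h * ρ g) := by
      rw [← mul_assoc, mul_sub, sub_mul, ← hdc s (ρ h), mul_one, sub_mul, one_mul, mul_assoc]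
    rw [c1, c2, ← mul_assoc, hdd, one_mul]
  rw [e4, e5] at e3
  have e6 : (d s - 1) * (ρ g * ρ h - ρ h * ρ g) = 0 := by
    rw [mul_sub, e3, sub_self]
  exact sub_eq_zero.mp (hds _ e6)

end CHKer

end Fermat.Agent.S33lib
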