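/-
Item 86 (S33), TRANSFER block, piece T1' (helper7): the Cayley–Hamilton kernel lemma with a
four-element non-degeneracy witness.

Notation of `CHKer.lean`.  For `a, b, c, e ∈ G` put
`D₄ = t(ab·ce) − t(ab·ec) − t(ba·ce) + t(ba·ec)` (`= tr([ρ̄a, ρ̄b][ρ̄c, ρ̄e])`).

* `s33t_anti4` : `[ρa, ρb][ρc, ρe] + [ρc, ρe][ρa, ρb] = D₄`;
* `s33t_ker4`  : if `D₄` is left-cancellable, every `Σ cᵢ ρ(gᵢ)` in the kernel of the
  pseudo-character is `0`;
* `s33t_not_comm4` : if `D₄` is left-cancellable and `E` is nontrivial, `ρ(G)` is not commutative.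
-/
import Mathlib
import Fermat.Agent.S33lib.CHKer

set_option autoImplicit false

namespace Fermat.Agent.S33lib

section CHKer4

variable {E : Type*} [Ring E] {G : Type*} [Group G]

variable (ρ : G →* E) (d : G → E)
  (hdm : ∀ g h, d (g * h) = d g * d h) (hdc : ∀ g (e : E), d g * e = e * d g)
  (htc : ∀ g h, s33tT ρ d g * ρ h = ρ h * s33tT ρ d g)

/-- the four-element discriminant -/
def s33tD4 (a b c e : G) : E :=
  s33tT ρ d (a * b * (c * e)) - s33tT ρ d (a * b * (e * c))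
    - s33tT ρ d (b * a * (c * e)) + s33tT ρ d (b * a * (e * c))

include hdm hdc htc in
theorem s33t_anti4 (a b c e : G) :
    (ρ a * ρ b - ρ b * ρ a) * (ρ c * ρ e - ρ e * ρ c)
      + (ρ c * ρ e - ρ e * ρ c) * (ρ a * ρ b - ρ b * ρ a) = s33tD4 ρ d a b c e := by
  have tX : s33tT ρ d (b * a) = s33tT ρ d (a * b) := s33t_class ρ d hdm hdc htc b a
  have tY : s33tT ρ d (e * c) = s33tT ρ d (c * e) := s33t_class ρ d hdm hdc htc e c
  have p1 := s33t_pol ρ d hdm hdc htc (a * b) (c * e)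
  have p2 := s33t_pol ρ d hdm hdc htc (a * b) (e * c)
  have p3 := s33t_pol ρ d hdm hdc htc (b * a) (c * e)
  have p4 := s33t_pol ρ d hdm hdc htc (b * a) (e * c)
  rw [tY] at p2
  rw [tX] at p3
  rw [tX, tY] at p4
  have e0 : (ρ a * ρ b - ρ b * ρ a) * (ρ c * ρ e - ρ e * ρ c)
      + (ρ c * ρ e - ρ e * ρ c) * (ρ a * ρ b - ρ b * ρ a)
      = (ρ (a * b) * ρ (c * e) + ρ (c * e) * ρ (a * b))
        - (ρ (a * b) * ρ (e * c) + ρ (e * c) * ρ (a * b))
        - (ρ (b * a) * ρ (c * e) + ρ (c * e) * ρ (b * a))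
        + (ρ (b * a) * ρ (e * c) + ρ (e * c) * ρ (b * a)) := by
    simp only [map_mul]
    noncomm_ring
  rw [e0, p1, p2, p3, p4]
  unfold s33tD4
  abel

include hdm hdc htc in
/-- **the Cayley–Hamilton kernel lemma**, four-element witness -/
theorem s33t_ker4 (a b c e : G)
    (hδ : ∀ x : E, s33tD4 ρ d a b c e * x = 0 → x = 0)
    {ι : Type*} [Fintype ι] (k : ι → ℤ) (γ : ι → G)
    (hT : ∀ h, ∑ i, k i • s33tT ρ d (γ i * h) = 0) :
    ∑ i, k i • ρ (γ i) = 0 := by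
  apply hδ
  rw [← s33t_anti4 ρ d hdm hdc htc a b c e, add_mul, mul_assoc, mul_assoc,
    s33t_comm_kills ρ d hdm hdc htc k γ hT a b, s33t_comm_kills ρ d hdm hdc htc k γ hT c e,
    mul_zero, mul_zero, add_zero]

include hdm hdc htc in
/-- under the non-degeneracy, `ρ(G)` is not commutative -/
theorem s33t_not_comm4 [Nontrivial E] (a b c e : G)
    (hδ : ∀ x : E, s33tD4 ρ d a b c e * x = 0 → x = 0)
    (hcomm : ∀ g h : G, ρ g * ρ h = ρ h * ρ g) : False := by
  have h1 := s33t_anti4 ρ d hdm hdc htc a b c e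
  rw [hcomm a b, sub_self, zero_mul, mul_zero, add_zero] at h1
  have h2 := hδ 1 (by rw [← h1, zero_mul])
  exact one_ne_zero h2

end CHKer4

end Fermat.Agent.S33lib
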