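/-
Item 86 (S33), piece RES-BAR (helper10), pure algebra on a `GaloisRepAdic`.

* `rsb_trace_O1`: the trace form of (O1) modulo `m`, from residual ordinarity:
  `tr ρ(τ s h) − tr ρ(τ h) − det ρ(τ) (tr ρ(s h) − tr ρ(h)) ∈ m` for `τ, s` in the inertia group.
* `rsb_witness`: a non-degeneracy witness: `tr([ρa,ρb][ρc,ρd])` is a unit for suitable
  `a b c d` (residually absolutely irreducible, `2` a unit).
Declarations are prefixed `rsb`.  No sorry.
-/
import Mathlib
import Fermat.Prelude.Def_GaloisRep_LocalConditions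
import Fermat.Agent.S31lib.Ker

set_option autoImplicit false

open scoped TensorProduct

namespace Fermat.Agent.S33lib

open Fermat.Agent.S53lib IsLocalRing

/-! ### (B1) the trace form of (O1) modulo `m` -/

section B1

variable {k : Type} [Field k]

/-- linear algebra over a field: if `f v − v ∈ k b₀` and `g v − v ∈ k b₀` for all `v`
(`b` a basis of a plane), then `(f − det f)(g − 1) = 0`. -/
theorem rsb_field_O1 {V : Type} [AddCommGroup V] [Module k V]
    (b : Module.Basis (Fin 2) k V) (f g : Module.End k V)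
    (hf : ∀ v : V, f v - v ∈ Submodule.span k {b 0})
    (hg : ∀ v : V, g v - v ∈ Submodule.span k {b 0}) :
    f * g - f - LinearMap.det f • g + LinearMap.det f • (1 : Module.End k V) = 0 := by
  classical
  obtain ⟨y, hy⟩ := Submodule.mem_span_singleton.mp (hf (b 0))
  obtain ⟨x, hx⟩ := Submodule.mem_span_singleton.mp (hf (b 1))
  have hf0 : f (b 0) = (1 + y) • b 0 := by
    rw [add_smul, one_smul, hy]; abel
  have hf1 : f (b 1) = b 1 + x • b 0 := by
    rw [hx]; abel
  -- the determinant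
  have hdet : LinearMap.det f = 1 + y := by
    rw [← LinearMap.det_toMatrix b, Matrix.det_fin_two]
    have e00 : LinearMap.toMatrix b b f 0 0 = 1 + y := by
      rw [LinearMap.toMatrix_apply, hf0, map_smul, Finsupp.smul_apply, Module.Basis.repr_self,
        Finsupp.single_eq_same, smul_eq_mul, mul_one]
    have e10 : LinearMap.toMatrix b b f 1 0 = 0 := by
      rw [LinearMap.toMatrix_apply, hf0, map_smul, Finsupp.smul_apply, Module.Basis.repr_self,
        Finsupp.single_eq_of_ne (by decide), smul_zero]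
    have e11 : LinearMap.toMatrix b b f 1 1 = 1 := by
      rw [LinearMap.toMatrix_apply, hf1, map_add, map_smul, Finsupp.add_apply, Finsupp.smul_apply,
        Module.Basis.repr_self, Module.Basis.repr_self, Finsupp.single_eq_same,
        Finsupp.single_eq_of_ne (by decide), smul_zero, add_zero]
    rw [e00, e10, e11, mul_one, mul_zero, sub_zero]
  refine LinearMap.ext fun v => ?_
  obtain ⟨μ, hμ⟩ := Submodule.mem_span_singleton.mp (hg v)
  have hgv : g v = v + μ • b 0 := by rw [hμ]; abel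
  simp only [LinearMap.sub_apply, LinearMap.add_apply, Module.End.mul_apply, LinearMap.smul_apply,
    Module.End.one_apply, LinearMap.zero_apply]
  rw [hgv, map_add, map_smul, hf0, hdet, smul_add, smul_smul, smul_smul]
  have : μ * (1 + y) = (1 + y) * μ := mul_comm _ _
  rw [this]
  abel

end B1

set_option linter.unusedSectionVars false

variable {T : Type} [CommRing T] [IsLocalRing T]

theorem rsb_residual_apply (ρ : GaloisRepAdic T)
    (σ : AlgebraicClosure ℚ ≃ₐ[ℚ] AlgebraicClosure ℚ) :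
    ρ.residual.ρ σ = (ρ.ρ σ).baseChange (ResidueField T) := rfl

theorem rsb_residual_trace (ρ : GaloisRepAdic T)
    (σ : AlgebraicClosure ℚ ≃ₐ[ℚ] AlgebraicClosure ℚ) :
    LinearMap.trace (ResidueField T) ρ.residual.V (ρ.residual.ρ σ) = residue T (ρ.trace σ) := by
  rw [rsb_residual_apply]
  exact LinearMap.trace_baseChange (ρ.ρ σ) (ResidueField T)

theorem rsb_residual_det (ρ : GaloisRepAdic T)
    (σ : AlgebraicClosure ℚ ≃ₐ[ℚ] AlgebraicClosure ℚ) :
    LinearMap.det (ρ.residual.ρ σ) = residue T (LinearMap.det (ρ.ρ σ)) := by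
  rw [rsb_residual_apply]
  exact LinearMap.det_baseChange (ρ.ρ σ)

/-- **(B1)** the trace form of (O1) modulo `m`, from residual ordinarity. -/
theorem rsb_trace_O1 (ρ : GaloisRepAdic T) (p : ℕ)
    (hres : (GaloisRepAdic.ofResidualGaloisRep ρ.residual).IsOrdinaryAt p)
    (B : ValuationSubring (AlgebraicClosure ℚ)) (hB : B.LiesOverPrime p)
    (τ s : AlgebraicClosure ℚ ≃ₐ[ℚ] AlgebraicClosure ℚ)
    (hτ : τ ∈ B.inertiaSubgroupIn ℚ) (hs : s ∈ B.inertiaSubgroupIn ℚ)
    (h : AlgebraicClosure ℚ ≃ₐ[ℚ] AlgebraicClosure ℚ) :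
    ρ.trace (τ * s * h) - ρ.trace (τ * h) - LinearMap.det (ρ.ρ τ) * (ρ.trace (s * h) - ρ.trace h)
      ∈ IsLocalRing.maximalIdeal T := by
  obtain ⟨L, ⟨b, hL⟩, -, hI⟩ := hres B hB
  have hb : ∃ b' : Module.Basis (Fin 2) (ResidueField T) ρ.residual.V,
      (∀ v : ρ.residual.V, ρ.residual.ρ τ v - v ∈ Submodule.span (ResidueField T) {b' 0}) ∧
      (∀ v : ρ.residual.V, ρ.residual.ρ s v - v ∈ Submodule.span (ResidueField T) {b' 0}) := by
    refine ⟨b, fun v => ?_, fun v => ?_⟩
    · have := hI τ hτ v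
      rw [hL] at this
      exact this
    · have := hI s hs v
      rw [hL] at this
      exact this
  obtain ⟨b', hfτ, hfs⟩ := hb
  have key := rsb_field_O1 (V := ρ.residual.V) b' (ρ.residual.ρ τ) (ρ.residual.ρ s) hfτ hfs
  -- multiply by `ρbar h` and take the trace
  have key3 := congrArg (fun e : Module.End (ResidueField T) ρ.residual.V =>
    LinearMap.trace (ResidueField T) ρ.residual.V (e * ρ.residual.ρ h)) key
  beta_reduce at key3
  rw [add_mul, sub_mul, sub_mul, smul_mul_assoc, smul_mul_assoc, one_mul, zero_mul, map_zero,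
    map_add, map_sub, map_sub, map_smul, map_smul, ← map_mul, ← map_mul, ← map_mul, ← map_mul,
    rsb_residual_trace, rsb_residual_trace, rsb_residual_trace, rsb_residual_trace,
    rsb_residual_det, smul_eq_mul, smul_eq_mul] at key3
  rw [← residue_eq_zero_iff, map_sub, map_sub, map_mul, map_sub]
  rw [← key3]
  ring

/-! ### (B2) the non-degeneracy witness -/

/-- `Ψ(X,Y,Z,W) = tr([X,Y][Z,W])` -/
def rsbPsi (X Y Z W : M2 T) : T := Matrix.trace ((X * Y - Y * X) * (Z * W - W * Z))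

theorem rsbPsi_lin1 (Y Z W : M2 T) : ∃ L : M2 T →ₗ[T] T, ∀ X, L X = rsbPsi X Y Z W :=
  ⟨(Matrix.traceLinearMap (Fin 2) T T) ∘ₗ (LinearMap.mulRight T (Z * W - W * Z)) ∘ₗ
    (LinearMap.mulRight T Y - LinearMap.mulLeft T Y), fun X => by
      simp [rsbPsi]⟩

theorem rsbPsi_lin2 (X Z W : M2 T) : ∃ L : M2 T →ₗ[T] T, ∀ Y, L Y = rsbPsi X Y Z W :=
  ⟨(Matrix.traceLinearMap (Fin 2) T T) ∘ₗ (LinearMap.mulRight T (Z * W - W * Z)) ∘ₗ
    (LinearMap.mulLeft T X - LinearMap.mulRight T X), fun Y => by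
      simp [rsbPsi]⟩

theorem rsbPsi_lin3 (X Y W : M2 T) : ∃ L : M2 T →ₗ[T] T, ∀ Z, L Z = rsbPsi X Y Z W :=
  ⟨(Matrix.traceLinearMap (Fin 2) T T) ∘ₗ (LinearMap.mulLeft T (X * Y - Y * X)) ∘ₗ
    (LinearMap.mulRight T W - LinearMap.mulLeft T W), fun Z => by
      simp [rsbPsi]⟩

theorem rsbPsi_lin4 (X Y Z : M2 T) : ∃ L : M2 T →ₗ[T] T, ∀ W, L W = rsbPsi X Y Z W :=
  ⟨(Matrix.traceLinearMap (Fin 2) T T) ∘ₗ (LinearMap.mulLeft T (X * Y - Y * X)) ∘ₗ
    (LinearMap.mulLeft T Z - LinearMap.mulRight T Z), fun W => by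
      simp [rsbPsi]⟩

/-- a linear form with values in an ideal on a spanning set has all its values there -/
theorem rsb_lin_mem {ι : Type} (r : ι → M2 T) (hspan : Submodule.span T (Set.range r) = ⊤)
    (I : Ideal T) (L : M2 T →ₗ[T] T) (h : ∀ g, L (r g) ∈ I) (X : M2 T) : L X ∈ I := by
  have hX : X ∈ Submodule.span T (Set.range r) := by rw [hspan]; trivial
  induction hX using Submodule.span_induction with
  | mem X hX =>
    obtain ⟨g, rfl⟩ := hX
    exact h g
  | zero => rw [map_zero]; exact I.zero_mem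
  | add X Y _ _ hX hY => rw [map_add]; exact I.add_mem hX hY
  | smul c X _ hX => rw [map_smul, smul_eq_mul]; exact I.mul_mem_left c hX

/-- 4-linearity: `Ψ` has values in `I` as soon as it has on a spanning set -/
theorem rsbPsi_mem {ι : Type} (r : ι → M2 T) (hspan : Submodule.span T (Set.range r) = ⊤)
    (I : Ideal T) (h : ∀ a b c d, rsbPsi (r a) (r b) (r c) (r d) ∈ I) (X Y Z W : M2 T) :
    rsbPsi X Y Z W ∈ I := by
  have h1 : ∀ X b c d, rsbPsi X (r b) (r c) (r d) ∈ I := by
    intro X b c d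
    obtain ⟨L, hL⟩ := rsbPsi_lin1 (r b) (r c) (r d)
    rw [← hL]
    exact rsb_lin_mem r hspan I L (fun a => by rw [hL]; exact h a b c d) X
  have h2 : ∀ X Y c d, rsbPsi X Y (r c) (r d) ∈ I := by
    intro X Y c d
    obtain ⟨L, hL⟩ := rsbPsi_lin2 X (r c) (r d)
    rw [← hL]
    exact rsb_lin_mem r hspan I L (fun b => by rw [hL]; exact h1 X b c d) Y
  have h3 : ∀ X Y Z d, rsbPsi X Y Z (r d) ∈ I := by
    intro X Y Z d
    obtain ⟨L, hL⟩ := rsbPsi_lin3 X Y (r d)
    rw [← hL]
    exact rsb_lin_mem r hspan I L (fun c => by rw [hL]; exact h2 X Y c d) Z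
  obtain ⟨L, hL⟩ := rsbPsi_lin4 X Y Z
  rw [← hL]
  exact rsb_lin_mem r hspan I L (fun d => by rw [hL]; exact h3 X Y Z d) W

theorem rsbPsi_std : rsbPsi (T := T) !![0, 1; 0, 0] !![0, 0; 1, 0] !![0, 1; 0, 0] !![0, 0; 1, 0]
    = 2 := by
  simp [rsbPsi, Matrix.trace_fin_two]
  norm_num

/-- **(B2)** the non-degeneracy witness. -/
theorem rsb_witness (ρ : GaloisRepAdic T) (habs : ρ.residual.IsAbsolutelyIrreducible)
    (h2 : IsUnit (2 : T)) :
    ∃ a b c d : AlgebraicClosure ℚ ≃ₐ[ℚ] AlgebraicClosure ℚ,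
      IsUnit (ρ.trace (a * b * (c * d)) - ρ.trace (a * b * (d * c))
        - ρ.trace (b * a * (c * d)) + ρ.trace (b * a * (d * c))) := by
  classical
  by_contra hno
  have hno' : ∀ a b c d : AlgebraicClosure ℚ ≃ₐ[ℚ] AlgebraicClosure ℚ,
      ρ.trace (a * b * (c * d)) - ρ.trace (a * b * (d * c))
        - ρ.trace (b * a * (c * d)) + ρ.trace (b * a * (d * c)) ∈ maximalIdeal T := by
    intro a b c d
    rw [mem_maximalIdeal, mem_nonunits_iff]
    intro hu
    exact hno ⟨a, b, c, d, hu⟩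
  let bas : Module.Basis (Fin 2) T ρ.V := Module.finBasisOfFinrankEq T ρ.V ρ.finrank_eq
  set r := matOfBasis ρ bas with hr
  have htr : ∀ g, ρ.trace g = (r g).trace := by
    intro g
    rw [GaloisRepAdic.trace, LinearMap.trace_eq_matrix_trace T bas, hr, matOfBasis_apply]
  have hspan := Fermat.Agent.S31lib.ker_span_eq_top ρ habs bas
  have hgrp : ∀ a b c d, rsbPsi (r a) (r b) (r c) (r d) ∈ maximalIdeal T := by
    intro a b c d
    have e : rsbPsi (r a) (r b) (r c) (r d) =
        ρ.trace (a * b * (c * d)) - ρ.trace (a * b * (d * c))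
        - ρ.trace (b * a * (c * d)) + ρ.trace (b * a * (d * c)) := by
      rw [htr, htr, htr, htr, rsbPsi]
      simp only [map_mul, mul_sub, sub_mul, Matrix.trace_sub]
      ring
    rw [e]
    exact hno' a b c d
  have hall := rsbPsi_mem (fun g => r g) hspan (maximalIdeal T) hgrp
    !![0, 1; 0, 0] !![0, 0; 1, 0] !![0, 1; 0, 0] !![0, 0; 1, 0]
  rw [rsbPsi_std] at hall
  exact (mem_maximalIdeal _).mp hall h2

end Fermat.Agent.S33lib
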