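/-
Item 86 (S33), TRANSFER block, piece T4a (helper7): the dictionary between Galois elements and
Hecke polynomials on `J₀(N')[p]`.

`N' ∣ N` a level (`N' = N` or `N / p`), `H` a Hecke–Galois datum of level `N` away from `S`.
For every `g ∈ G_ℚ` there is a Hecke polynomial `P ∈ HPoly N S` with
* `P x = g x + χ(g) g⁻¹ x` for all `x ∈ J₀(N')[p]`  (`χ` the mod-`p` cyclotomic character),
* `residue (π P) = residue (tr ρ(g))`,
* `residue (det ρ(g)) = χ(g)`.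
(weak Chebotarev + Eichler–Shimura on `J₀(N')[p]` + continuity of `ρ`.)
-/
import Mathlib
import Fermat.Agent.S31lib.Main
import Fermat.Agent.S34lib.Algebra

set_option autoImplicit false

open scoped TensorProduct
open Polynomial

namespace Fermat.Agent.S33lib

open Fermat.Agent.GalRep ModularCurve Fermat.Agent.S31lib Fermat.Agent.S34lib IsLocalRing

/-- evaluation of the Hecke polynomials of level `(N, S)` on `J₀(N')` -/
noncomputable def s33EvalJ (N : ℕ) (S : Finset ℕ) (N' : ℕ) [NeZero N'] :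
    HPoly N S →ₐ[ℤ] Module.End ℤ (JZero N') :=
  FreeAlgebra.lift ℤ fun ℓ => heckeOperatorBar N' ℓ.1

theorem s33r_evalJ_ι (N : ℕ) (S : Finset ℕ) (N' : ℕ) [NeZero N'] (ℓ : GoodPrime N S) :
    s33EvalJ N S N' (FreeAlgebra.ι ℤ ℓ) = heckeOperatorBar N' ℓ.1 :=
  FreeAlgebra.lift_ι_apply _ _

theorem s33r_evalJ_frobPoly (N : ℕ) (S : Finset ℕ) (N' : ℕ) [NeZero N'] (ℓ : GoodPrime N S)
    (k : ℕ) :
    s33EvalJ N S N' (frobPoly N S ℓ k) =
      powTr (heckeOperatorBar N' ℓ.1) ((((ℓ.1 : ℕ)) : ℤ) • (1 : Module.End ℤ (JZero N'))) k := by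
  have h := map_powTr (s33EvalJ N S N').toRingHom (FreeAlgebra.ι ℤ ℓ)
    ((((ℓ.1 : ℕ)) : ℤ) • (1 : HPoly N S)) k
  simp only [AlgHom.toRingHom_eq_coe, RingHom.coe_coe, map_zsmul, map_one] at h
  rw [frobPoly, h]
  congr 1
  exact FreeAlgebra.lift_ι_apply _ _

/-- the Galois action commutes with the Hecke polynomials -/
theorem s33r_gal_comm {N p : ℕ} {S : Finset ℕ} {N' : ℕ} [NeZero N'] (J' : JacInput N' p)
    (P : HPoly N S) (σ : GQ) (x : JZero N') :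
    σ • s33EvalJ N S N' P x = s33EvalJ N S N' P (σ • x) := by
  induction P using FreeAlgebra.induction generalizing x with
  | grade0 r =>
    rw [AlgHom.commutes]
    simp only [Module.algebraMap_end_apply]
    exact map_zsmul (DistribSMul.toAddMonoidHom (JZero N') σ) r x
  | grade1 ℓ => rw [s33r_evalJ_ι]; exact J'.galComm σ ℓ.1 x
  | mul a b ha hb => rw [map_mul, Module.End.mul_apply, Module.End.mul_apply, ha, hb]
  | add a b ha hb => rw [map_add, LinearMap.add_apply, LinearMap.add_apply, smul_add, ha, hb]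

/-- integers congruent mod `p` act in the same way on `p`-torsion -/
theorem s33r_zsmul_eq {M : Type*} [AddCommGroup M] {p : ℕ} (x : M) (hx : p • x = 0) (m : ℤ)
    (a : ZMod (p ^ 1)) (hma : (m : ZMod (p ^ 1)) = a) [NeZero p] : m • x = a.val • x := by
  have h1 : ((m - (a.val : ℤ) : ℤ) : ZMod (p ^ 1)) = 0 := by
    push_cast
    rw [hma, ZMod.natCast_val, ZMod.cast_id', id, sub_self]
  rw [ZMod.intCast_zmod_eq_zero_iff_dvd] at h1
  obtain ⟨z, hz⟩ := h1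
  have h2 : (m - (a.val : ℤ)) • x = 0 := by
    rw [hz, pow_one, mul_comm, mul_smul, natCast_zsmul, hx, smul_zero]
  rw [sub_smul, sub_eq_zero, natCast_zsmul] at h2
  exact h2

/-- the mod-`pⁿ` cyclotomic character has finite level -/
theorem s33r_cyc_level (p : ℕ) [Fact p.Prime] (n : ℕ) :
    ∃ L : IntermediateField ℚ (AlgebraicClosure ℚ), FiniteDimensional ℚ L ∧
      ∀ u : GQ, (∀ a ∈ L, u a = a) → cycChi p n u = 1 := by
  have hp : p.Prime := Fact.out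
  obtain ⟨ζ, hζ⟩ := HasEnoughRootsOfUnity.exists_primitiveRoot (AlgebraicClosure ℚ) (p ^ n)
  have hN : p ^ n ≠ 0 := pow_ne_zero _ hp.ne_zero
  have hint : IsIntegral ℚ ζ := (hζ.isIntegral (Nat.pos_of_ne_zero hN)).tower_top
  refine ⟨IntermediateField.adjoin ℚ {ζ}, IntermediateField.adjoin.finiteDimensional hint,
    fun σ hσ => ?_⟩
  have hσζ : σ ζ = ζ := hσ ζ (IntermediateField.mem_adjoin_simple_self ℚ ζ)
  have hall : ∀ t : AlgebraicClosure ℚ, t ^ p ^ n = 1 → σ t = t ^ 1 := by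
    intro t ht
    have : NeZero (p ^ n) := ⟨hN⟩
    obtain ⟨i, -, rfl⟩ := hζ.eq_pow_of_pow_eq_one ht
    rw [map_pow, hσζ, pow_one]
  have h1 := cyclo_toZModPow_eq p σ 1 n hall
  rw [Nat.cast_one] at h1
  apply Units.ext
  rw [cyc_coe_cycChi, h1]
  rfl

/-- the value of the mod-`pⁿ` cyclotomic character at a Frobenius at `ℓ ≠ p` -/
theorem s33r_cyc_frob (p : ℕ) [Fact p.Prime] (n : ℕ) (ℓ : ℕ) (hℓ : ℓ.Prime) (hℓp : ℓ ≠ p)
    (A : ValuationSubring (AlgebraicClosure ℚ)) (hA : A.LiesOverPrime ℓ) (σ : GQ)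
    (hσ : A.IsFrobeniusAt σ ℓ) :
    ((cycChi p n σ : (ZMod (p ^ n))ˣ) : ZMod (p ^ n)) = (ℓ : ZMod (p ^ n)) := by
  have hp : p.Prime := Fact.out
  obtain ⟨hσd, hfrob⟩ := hσ
  have hcop : Nat.Coprime p ℓ := (Nat.coprime_primes hp hℓ).mpr (Ne.symm hℓp)
  have h1 := cyclo_chi_eq_natCast p σ ℓ
    (fun m t ht => cyclo_map_root_of_residue p A hA hcop σ hσd ℓ hfrob m t ht)
  rw [cyc_coe_cycChi, h1, map_natCast]

/-- the integer representative of the mod-`p` cyclotomic character -/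
noncomputable def s33W (p : ℕ) [Fact p.Prime] (g : GQ) : ℕ :=
  ((cycChi p 1 g : (ZMod (p ^ 1))ˣ) : ZMod (p ^ 1)).val

section Dict

variable {p : ℕ} {N : ℕ} [NeZero N] {S : Finset ℕ}
  {𝒪 : Type} [CommRing 𝒪] [IsDomain 𝒪] [IsDiscreteValuationRing 𝒪]
  [IsAdicComplete (IsLocalRing.maximalIdeal 𝒪) 𝒪]
  {θ : CuspForm.heckeAlgebra N 2 (↑S : Set ℕ) →+* IsLocalRing.ResidueField 𝒪}
  {T : Type} [CommRing T] [IsLocalRing T] [IsNoetherianRing T]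
  [IsAdicComplete (IsLocalRing.maximalIdeal T) T] [Algebra 𝒪 T] [IsLocalHom (algebraMap 𝒪 T)]
  [Module.Finite 𝒪 T] [Module.Free 𝒪 T]

/-- **the dictionary**: every `g ∈ G_ℚ` is, on `J₀(N')[p]` and modulo `𝔪_T`, a Hecke polynomial -/
theorem s33r_dict [Fact p.Prime] (hcheb : WeakCheb) {N' : ℕ} [NeZero N'] (hN' : N' ∣ N)
    (J' : JacInput N' p)
    (hp𝒪 : (p : 𝒪) ∈ IsLocalRing.maximalIdeal 𝒪) (hpS : p ∈ S)
    (hNS : ∀ q : ℕ, q.Prime → q ∣ N → q ∈ S)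
    (H : CuspForm.HeckeGaloisRepDatum N (↑S : Set ℕ) 𝒪 θ T) (g : GQ) :
    ∃ P : HPoly N S,
      (∀ x : JZero N', p • x = 0 →
        s33EvalJ N S N' P x = g • x + s33W p g • g⁻¹ • x) ∧
      H.π (evalForms N S P) - H.ρ.trace g ∈ maximalIdeal T ∧
      LinearMap.det (H.ρ.ρ g) - ((s33W p g : ℕ) : T) ∈ maximalIdeal T := by
  have hp : p.Prime := Fact.out
  obtain ⟨Lρ, hLρfin, hLρ⟩ := trcong H.ρ 1
  obtain ⟨Ld, hLdfin, hLd⟩ := detcong H.ρ 1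
  obtain ⟨LJ, hLJfin, hLJ⟩ := exists_level_torsion J' 1
  obtain ⟨Lχ, hLχfin, hLχ⟩ := s33r_cyc_level p 1
  have hLfin : FiniteDimensional ℚ
      (Lρ ⊔ Ld ⊔ LJ ⊔ Lχ : IntermediateField ℚ (AlgebraicClosure ℚ)) := inferInstance
  have hLρle : Lρ ≤ Lρ ⊔ Ld ⊔ LJ ⊔ Lχ := le_sup_of_le_left (le_sup_of_le_left le_sup_left)
  have hLdle : Ld ≤ Lρ ⊔ Ld ⊔ LJ ⊔ Lχ := le_sup_of_le_left (le_sup_of_le_left le_sup_right)
  have hLJle : LJ ≤ Lρ ⊔ Ld ⊔ LJ ⊔ Lχ := le_sup_of_le_left le_sup_right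
  have hLχle : Lχ ≤ Lρ ⊔ Ld ⊔ LJ ⊔ Lχ := le_sup_right
  obtain ⟨ℓ, A, σ, -, k, hℓ, hℓS, hA, hσ, -, hgσ⟩ := hcheb _ hLfin S g
  have hℓN : ¬ ℓ ∣ N := fun h => hℓS (hNS ℓ hℓ h)
  have hℓp : ℓ ≠ p := fun h => hℓS (h ▸ hpS)
  have hℓN' : ¬ ℓ ∣ N' := fun h => hℓN (h.trans hN')
  have hℓNp : ¬ ℓ ∣ N' * p := fun h =>
    (hℓ.dvd_mul.mp h).elim hℓN' fun h' => hℓp ((Nat.prime_dvd_prime_iff_eq hℓ hp).mp h')
  have hu : ∀ x ∈ (Lρ ⊔ Ld ⊔ LJ ⊔ Lχ : IntermediateField ℚ (AlgebraicClosure ℚ)),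
      ((σ ^ k)⁻¹ * g) x = x := asm_fix _ g (σ ^ k) hgσ
  have hgu : σ ^ k * ((σ ^ k)⁻¹ * g) = g := mul_inv_cancel_left _ _
  -- the cyclotomic character
  have hχu : cycChi p 1 ((σ ^ k)⁻¹ * g) = 1 := hLχ _ fun a ha => hu a (hLχle ha)
  have hχg : cycChi p 1 g = cycChi p 1 σ ^ k := by
    conv_lhs => rw [← hgu]
    rw [map_mul, hχu, mul_one, map_pow]
  have hcong : (((ℓ : ℤ) ^ k : ℤ) : ZMod (p ^ 1))
      = ((cycChi p 1 g : (ZMod (p ^ 1))ˣ) : ZMod (p ^ 1)) := by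
    rw [hχg, Units.val_pow_eq_pow_val, s33r_cyc_frob p 1 ℓ hℓ hℓp A hA σ hσ]
    push_cast
    rfl
  have hpmem : (p : T) ∈ IsLocalRing.maximalIdeal T := asm_natCast_mem hp𝒪
  refine ⟨frobPoly N S ⟨⟨ℓ, hℓ⟩, hℓN, hℓS⟩ k, ?_, ?_, ?_⟩
  · intro x hx
    have hx1 : p ^ 1 • x = 0 := by rwa [pow_one]
    have hJu := hLJ _ fun a ha => hu a (hLJle ha)
    have hsm := asm_smul_eq (N := N') 1 _ (σ ^ k) hJu x hx1
    rw [hgu] at hsm
    rw [s33r_evalJ_frobPoly]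
    have q := powTr_heckeBar_apply J' ℓ hℓ hℓNp A hA σ hσ k x ⟨1, hx1⟩
    rw [q, ← hsm.1, ← hsm.2]
    congr 1
    have hx2 : p • (g⁻¹ • x) = 0 := by
      have h := map_nsmul (DistribSMul.toAddMonoidHom (JZero N') g⁻¹) p x
      rw [hx, map_zero] at h
      exact h.symm
    have : NeZero p := ⟨hp.ne_zero⟩
    exact s33r_zsmul_eq (g⁻¹ • x) hx2 _ _ hcong
  · have t1 : H.ρ.trace (σ ^ k) - H.ρ.trace g ∈ IsLocalRing.maximalIdeal T ^ 1 :=
      hLρ g (σ ^ k) fun x hx => hgσ x (hLρle hx)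
    rw [pow_one] at t1
    rw [← asm_trace_frob_pow H ⟨⟨ℓ, hℓ⟩, hℓN, hℓS⟩ A hA σ hσ k]
    exact t1
  · have d1 : LinearMap.det (H.ρ.ρ (σ ^ k)) - LinearMap.det (H.ρ.ρ g) ∈
        IsLocalRing.maximalIdeal T ^ 1 :=
      hLd g (σ ^ k) fun x hx => hgσ x (hLdle hx)
    rw [pow_one] at d1
    have hch := H.charpoly_frob ℓ hℓ hℓN hℓS A hA σ hσ
    have hdetσ : LinearMap.det (H.ρ.ρ σ) = (ℓ : T) := det_of_charpoly H.ρ.finrank_eq _ _ _ hch
    have hdetk : LinearMap.det (H.ρ.ρ (σ ^ k)) = (ℓ : T) ^ k := by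
      rw [map_pow, map_pow, hdetσ]
    rw [hdetk] at d1
    -- `ℓ ^ k ≡ w` modulo `p`
    have h1 : ((((ℓ : ℤ) ^ k : ℤ) - (s33W p g : ℤ) : ℤ) : ZMod (p ^ 1)) = 0 := by
      push_cast
      have := hcong
      push_cast at this
      rw [this]
      unfold s33W
      rw [ZMod.natCast_val, ZMod.cast_id', id, sub_self]
    rw [ZMod.intCast_zmod_eq_zero_iff_dvd] at h1
    obtain ⟨z, hz⟩ := h1
    have h2 : ((ℓ : T) ^ k - ((s33W p g : ℕ) : T)) = (p : T) * (z : T) := by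
      have := congrArg (Int.cast : ℤ → T) hz
      push_cast at this
      rw [pow_one] at this
      exact this
    have h3 : ((ℓ : T) ^ k - ((s33W p g : ℕ) : T)) ∈ IsLocalRing.maximalIdeal T := by
      rw [h2]
      exact Ideal.mul_mem_right _ _ hpmem
    have : LinearMap.det (H.ρ.ρ g) - ((s33W p g : ℕ) : T)
        = ((ℓ : T) ^ k - ((s33W p g : ℕ) : T)) - ((ℓ : T) ^ k - LinearMap.det (H.ρ.ρ g)) := by
      ring
    rw [this]
    exact Ideal.sub_mem _ h3 d1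

end Dict

end Fermat.Agent.S33lib
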