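/-
Item 86 (S33), TRANSFER block, piece T4 (helper7): what the geometry may use from `hres`.

`H` a Hecke–Galois datum of level `N` away from `S`, `N' ∣ N` (`N' = N` or `N / p`),
`U ⊂ J₀(N')[p]` a `G_ℚ`-stable subgroup killed by the maximal ideal of the Hecke polynomials
(`P ∈ HPoly N S` with `π(P) ∈ 𝔪_T`).  From the trace form of (O1) modulo `𝔪_T` (`hO1`, from `hres`:
`ResBar.rsb_trace_O1`) and a non-degeneracy witness (`hwit`, from absolute irreducibility:
`ResBar.rsb_witness`):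

* `s33r_O1U` : `τ (s x − x) = χ(τ) (s x − x)` for `τ, s` in the inertia group, `x ∈ U`;
* `s33r_exists_omega` : if `U ≠ 0` and `χ(s₀) ≠ 1`, some `z = s₀ x − x ≠ 0`, `x ∈ U`
  (an `ω`-eigenvector of the inertia group);
* `s33r_exists_fixed` : if `U ≠ 0` and `χ(τ₀) ≠ 1`, some `z ≠ 0` in `U` with `τ₀ z = z`.
-/
import Mathlib
import Fermat.Agent.S33lib.CHKer2
import Fermat.Agent.S33lib.ResDict
import Fermat.Agent.S33lib.ResBar

set_option autoImplicit false
set_option linter.unusedSectionVars false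

open scoped TensorProduct
open Polynomial

namespace Fermat.Agent.S33lib

open Fermat.Agent.GalRep ModularCurve Fermat.Agent.S31lib Fermat.Agent.S34lib IsLocalRing

section Abstract

variable {E : Type*} [Ring E] {G : Type*} [Group G]
variable (ρ : G →* E) (d : G → E)
  (hdm : ∀ g h, d (g * h) = d g * d h) (hdc : ∀ g (e : E), d g * e = e * d g)
  (htc : ∀ g h, s33tT ρ d g * ρ h = ρ h * s33tT ρ d g)

include hdm hdc htc in
/-- if some `s` with `d(s) − 1` left-cancellable acts as the scalar `d(s)`, then `ρ(G)` is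
commutative -/
theorem s33t_comm_of_scalar (s : G) (hs : ρ s = d s)
    (hds : ∀ e : E, (d s - 1) * e = 0 → e = 0) (g h : G) :
    ρ g * ρ h = ρ h * ρ g := by
  have hs' : d s * ρ s⁻¹ = 1 := by
    rw [← hs]
    exact s33t_rho_mul_inv ρ s
  have e1 : s33tT ρ d (g * s) - s33tT ρ d g = (d s - 1) * ρ g := by
    unfold s33tT
    rw [mul_inv_rev, map_mul, map_mul, hs, hdm]
    have c1 : d g * d s * (ρ s⁻¹ * ρ g⁻¹) = d g * ρ g⁻¹ := by
      rw [mul_assoc, ← mul_assoc (d s), hs', one_mul]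
    rw [c1, hdc s (ρ g) |>.symm]
    noncomm_ring
  have e2 : (s33tT ρ d (g * s) - s33tT ρ d g) * ρ h
      = ρ h * (s33tT ρ d (g * s) - s33tT ρ d g) := by
    rw [sub_mul, mul_sub, htc, htc]
  rw [e1] at e2
  have e3 : ρ h * ((d s - 1) * ρ g) = (d s - 1) * (ρ h * ρ g) := by
    rw [← mul_assoc, mul_sub, sub_mul, ← hdc s (ρ h), mul_one, sub_mul, one_mul, mul_assoc]
  rw [e3, mul_assoc] at e2
  have e6 : (d s - 1) * (ρ g * ρ h - ρ h * ρ g) = 0 := by
    rw [mul_sub, e2, sub_self]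
  exact sub_eq_zero.mp (hds _ e6)

end Abstract

section Concrete

variable {p : ℕ} {N' : ℕ} [NeZero N']

/-- the Galois action as a `ℤ`-linear map -/
noncomputable def s33rGal (N' : ℕ) (g : GQ) : JZero N' →ₗ[ℤ] JZero N' :=
  (DistribSMul.toAddMonoidHom (JZero N') g).toIntLinearMap

theorem s33rGal_apply (g : GQ) (x : JZero N') : s33rGal N' g x = g • x := rfl

variable (U : Submodule ℤ (JZero N')) (hUG : ∀ (σ : GQ), ∀ x ∈ U, σ • x ∈ U)

/-- the representation of `G_ℚ` on a Galois-stable subgroup -/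
noncomputable def s33rRho : GQ →* Module.End ℤ ↥U where
  toFun g := (s33rGal N' g).restrict (fun x hx => hUG g x hx)
  map_one' := by
    apply LinearMap.ext
    intro x
    apply Subtype.ext
    show (1 : GQ) • (x : JZero N') = x
    rw [one_smul]
  map_mul' g h := by
    apply LinearMap.ext
    intro x
    apply Subtype.ext
    show (g * h) • (x : JZero N') = g • h • (x : JZero N')
    rw [mul_smul]

theorem s33rRho_coe (g : GQ) (x : ↥U) : ((s33rRho U hUG g x : ↥U) : JZero N') = g • (x : JZero N') :=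
  rfl

/-- the determinant on `U`: the integer representative of the cyclotomic character -/
noncomputable def s33rDet (p : ℕ) [Fact p.Prime] (g : GQ) : Module.End ℤ ↥U :=
  ((s33W p g : ℕ) : Module.End ℤ ↥U)

theorem s33rDet_coe [Fact p.Prime] (g : GQ) (x : ↥U) :
    ((s33rDet U p g x : ↥U) : JZero N') = s33W p g • (x : JZero N') := by
  unfold s33rDet
  rw [Module.End.natCast_apply]
  rfl

theorem s33rT_coe [Fact p.Prime] (g : GQ) (x : ↥U) :
    ((s33tT (s33rRho U hUG) (s33rDet U p) g x : ↥U) : JZero N')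
      = g • (x : JZero N') + s33W p g • g⁻¹ • (x : JZero N') := by
  unfold s33tT
  rw [LinearMap.add_apply, Module.End.mul_apply, Submodule.coe_add, s33rDet_coe, s33rRho_coe,
    s33rRho_coe]

end Concrete

section Main

variable {p : ℕ} {N : ℕ} [NeZero N] {S : Finset ℕ}
  {𝒪 : Type} [CommRing 𝒪] [IsDomain 𝒪] [IsDiscreteValuationRing 𝒪]
  [IsAdicComplete (IsLocalRing.maximalIdeal 𝒪) 𝒪]
  {θ : CuspForm.heckeAlgebra N 2 (↑S : Set ℕ) →+* IsLocalRing.ResidueField 𝒪}
  {T : Type} [CommRing T] [IsLocalRing T] [IsNoetherianRing T]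
  [IsAdicComplete (IsLocalRing.maximalIdeal T) T] [Algebra 𝒪 T] [IsLocalHom (algebraMap 𝒪 T)]
  [Module.Finite 𝒪 T] [Module.Free 𝒪 T]

/-- natural numbers congruent mod `p` act in the same way on `p`-torsion -/
theorem s33r_nsmul_eq {M : Type*} [AddCommGroup M] {p : ℕ} [NeZero p] (x : M) (hx : p • x = 0)
    (m₁ m₂ : ℕ) (h : (m₁ : ZMod (p ^ 1)) = (m₂ : ZMod (p ^ 1))) : m₁ • x = m₂ • x := by
  have h1 := s33r_zsmul_eq x hx (m₁ : ℤ) (m₂ : ZMod (p ^ 1)) (by push_cast; exact h)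
  have h2 := s33r_zsmul_eq x hx (m₂ : ℤ) (m₂ : ZMod (p ^ 1)) (by push_cast; rfl)
  rw [natCast_zsmul] at h1 h2
  rw [h1, h2]

theorem s33W_cast [Fact p.Prime] (g : GQ) :
    ((s33W p g : ℕ) : ZMod (p ^ 1)) = ((cycChi p 1 g : (ZMod (p ^ 1))ˣ) : ZMod (p ^ 1)) := by
  have hp : p.Prime := Fact.out
  have : NeZero (p ^ 1) := ⟨pow_ne_zero _ hp.ne_zero⟩
  unfold s33W
  rw [ZMod.natCast_val, ZMod.cast_id', id]

variable [Fact p.Prime] {N' : ℕ} [NeZero N']
  (U : Submodule ℤ (JZero N')) (hUG : ∀ (σ : GQ), ∀ x ∈ U, σ • x ∈ U)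
  (hUp : ∀ x ∈ U, p • x = 0)

include hUp in
theorem s33r_hdm (g h : GQ) : s33rDet U p (g * h) = s33rDet U p g * s33rDet U p h := by
  have hp : p.Prime := Fact.out
  have : NeZero p := ⟨hp.ne_zero⟩
  apply LinearMap.ext
  intro x
  apply Subtype.ext
  rw [Module.End.mul_apply, s33rDet_coe, s33rDet_coe, s33rDet_coe, smul_smul]
  apply s33r_nsmul_eq (x : JZero N') (hUp x x.2)
  push_cast
  rw [s33W_cast, s33W_cast, s33W_cast, map_mul, Units.val_mul]

theorem s33r_hdc (g : GQ) (e : Module.End ℤ ↥U) : s33rDet U p g * e = e * s33rDet U p g :=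
  Nat.cast_comm _ _

variable (hcheb : WeakCheb) (hN' : N' ∣ N) (J' : JacInput N' p)
  (hp𝒪 : (p : 𝒪) ∈ IsLocalRing.maximalIdeal 𝒪) (hpS : p ∈ S)
  (hNS : ∀ q : ℕ, q.Prime → q ∣ N → q ∈ S)
  (H : CuspForm.HeckeGaloisRepDatum N (↑S : Set ℕ) 𝒪 θ T)
  (hUm : ∀ P : HPoly N S, H.π (evalForms N S P) ∈ maximalIdeal T →
    ∀ x ∈ U, s33EvalJ N S N' P x = 0)

include hUp hcheb hN' J' hp𝒪 hpS hNS H in
/-- the traces `t(g)` on `U` are Hecke polynomials -/
theorem s33r_T_eq (g : GQ) : ∃ P : HPoly N S,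
    (∀ x : ↥U, ((s33tT (s33rRho U hUG) (s33rDet U p) g x : ↥U) : JZero N')
      = s33EvalJ N S N' P (x : JZero N')) ∧
    H.π (evalForms N S P) - H.ρ.trace g ∈ maximalIdeal T := by
  obtain ⟨P, h1, h2, -⟩ := s33r_dict hcheb hN' J' hp𝒪 hpS hNS H g
  refine ⟨P, fun x => ?_, h2⟩
  rw [s33rT_coe, h1 _ (hUp x x.2)]

set_option maxHeartbeats 1600000 in
include hUp hcheb hN' J' hp𝒪 hpS hNS H in
theorem s33r_htc (g h : GQ) :
    s33tT (s33rRho U hUG) (s33rDet U p) g * s33rRho U hUG h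
      = s33rRho U hUG h * s33tT (s33rRho U hUG) (s33rDet U p) g := by
  obtain ⟨P, hP, -⟩ := s33r_T_eq U hUG hUp hcheb hN' J' hp𝒪 hpS hNS H g
  apply LinearMap.ext
  intro x
  apply Subtype.ext
  have e1 : (((s33tT (s33rRho U hUG) (s33rDet U p) g * s33rRho U hUG h) x : ↥U) : JZero N')
      = s33EvalJ N S N' P (h • (x : JZero N')) := by
    rw [Module.End.mul_apply, hP]
    congr 1
  have e2 : (((s33rRho U hUG h * s33tT (s33rRho U hUG) (s33rDet U p) g) x : ↥U) : JZero N')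
      = h • s33EvalJ N S N' P (x : JZero N') := by
    rw [Module.End.mul_apply, ← hP x]
    rfl
  rw [e1, e2, s33r_gal_comm J']

include hUp hcheb hN' J' hp𝒪 hpS hNS H in
/-- integer combinations of traces on `U` are Hecke polynomials -/
theorem s33r_sum_T_eq {ι : Type*} [Fintype ι] (k : ι → ℤ) (γ : ι → GQ) :
    ∃ P : HPoly N S,
      (∀ x : ↥U, (((∑ i, k i • s33tT (s33rRho U hUG) (s33rDet U p) (γ i)) x : ↥U) : JZero N')
        = s33EvalJ N S N' P (x : JZero N')) ∧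
      H.π (evalForms N S P) - ∑ i, k i • H.ρ.trace (γ i) ∈ maximalIdeal T := by
  classical
  choose P hP1 hP2 using fun i => s33r_T_eq U hUG hUp hcheb hN' J' hp𝒪 hpS hNS H (γ i)
  refine ⟨∑ i, k i • P i, fun x => ?_, ?_⟩
  · rw [LinearMap.sum_apply, Submodule.coe_sum, map_sum, LinearMap.sum_apply]
    refine Finset.sum_congr rfl fun i _ => ?_
    rw [LinearMap.smul_apply, Submodule.coe_smul, hP1, map_zsmul, LinearMap.smul_apply]
  · have e : H.π (evalForms N S (∑ i, k i • P i)) - ∑ i, k i • H.ρ.trace (γ i)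
        = ∑ i, k i • (H.π (evalForms N S (P i)) - H.ρ.trace (γ i)) := by
      rw [map_sum, map_sum, ← Finset.sum_sub_distrib]
      refine Finset.sum_congr rfl fun i _ => ?_
      rw [map_zsmul, map_zsmul, smul_sub]
    rw [e]
    refine Ideal.sum_mem _ fun i _ => ?_
    rw [zsmul_eq_mul]
    exact Ideal.mul_mem_left _ _ (hP2 i)

include hUp hcheb hN' J' hp𝒪 hpS hNS H hUm in
/-- integer combinations of traces which vanish modulo `𝔪_T` vanish on `U` -/
theorem s33r_sum_T {ι : Type*} [Fintype ι] (k : ι → ℤ) (γ : ι → GQ)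
    (hk : ∑ i, k i • H.ρ.trace (γ i) ∈ maximalIdeal T) :
    ∑ i, k i • s33tT (s33rRho U hUG) (s33rDet U p) (γ i) = 0 := by
  obtain ⟨P, hP1, hP2⟩ := s33r_sum_T_eq U hUG hUp hcheb hN' J' hp𝒪 hpS hNS H k γ
  have hmem : H.π (evalForms N S P) ∈ maximalIdeal T := by
    have := Ideal.add_mem _ hP2 hk
    rwa [sub_add_cancel] at this
  apply LinearMap.ext
  intro x
  apply Subtype.ext
  rw [hP1, hUm P hmem _ x.2]
  rfl

include hUp hUm in
/-- a Hecke polynomial which is a unit at `𝔪_T` is injective on `U` -/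
theorem s33r_unit_inj [Finite (ResidueField T)] (P : HPoly N S)
    (hP : IsUnit (H.π (evalForms N S P))) (y : JZero N') (hy : y ∈ U)
    (h0 : s33EvalJ N S N' P y = 0) : y = 0 := by
  classical
  have : Fintype (ResidueField T) := Fintype.ofFinite _
  set q := Fintype.card (ResidueField T) with hq
  have hq2 : 2 ≤ q := Fintype.one_lt_card
  have hres : residue T (H.π (evalForms N S P)) ≠ 0 := by
    intro h
    rw [residue_eq_zero_iff] at h
    exact (mem_nonunits_iff.mp ((mem_maximalIdeal _).mp h)) hP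
  have h1 := FiniteField.pow_card_sub_one_eq_one _ hres
  have hmem : H.π (evalForms N S (P ^ (q - 1) - 1)) ∈ maximalIdeal T := by
    rw [← residue_eq_zero_iff, map_sub, map_sub, map_sub, map_pow, map_pow, map_pow, map_one,
      map_one, map_one, h1, sub_self]
  have h2 := hUm _ hmem y hy
  rw [map_sub, map_pow, map_one, LinearMap.sub_apply, Module.End.one_apply, sub_eq_zero] at h2
  have e : q - 1 = (q - 2) + 1 := by omega
  rw [← h2, e, pow_succ, Module.End.mul_apply, h0, map_zero]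

include hUp hcheb hN' J' hp𝒪 hpS hNS H hUm in
/-- the non-degeneracy of the four-element discriminant on `U` -/
theorem s33r_hδ [Finite (ResidueField T)] (a b c e : GQ)
    (hunit : IsUnit (H.ρ.trace (a * b * (c * e)) - H.ρ.trace (a * b * (e * c))
        - H.ρ.trace (b * a * (c * e)) + H.ρ.trace (b * a * (e * c))))
    (X : Module.End ℤ ↥U)
    (hX : s33tD4 (s33rRho U hUG) (s33rDet U p) a b c e * X = 0) : X = 0 := by
  let k : Fin 4 → ℤ := fun i => if i = 0 then 1 else if i = 1 then -1 else if i = 2 then -1 else 1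
  let γ : Fin 4 → GQ := fun i => if i = 0 then a * b * (c * e) else if i = 1 then a * b * (e * c)
    else if i = 2 then b * a * (c * e) else b * a * (e * c)
  obtain ⟨P, hP1, hP2⟩ := s33r_sum_T_eq U hUG hUp hcheb hN' J' hp𝒪 hpS hNS H k γ
  have e1 : ∑ i, k i • s33tT (s33rRho U hUG) (s33rDet U p) (γ i)
      = s33tD4 (s33rRho U hUG) (s33rDet U p) a b c e := by
    rw [Fin.sum_univ_four]
    simp only [k, γ]
    unfold s33tD4
    simp only [Fin.isValue, ↓reduceIte, one_smul, neg_smul, Fin.reduceEq]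
    abel
  have e2 : ∑ i, k i • H.ρ.trace (γ i)
      = H.ρ.trace (a * b * (c * e)) - H.ρ.trace (a * b * (e * c))
        - H.ρ.trace (b * a * (c * e)) + H.ρ.trace (b * a * (e * c)) := by
    rw [Fin.sum_univ_four]
    simp only [k, γ]
    simp only [Fin.isValue, ↓reduceIte, one_smul, neg_smul, Fin.reduceEq]
    abel
  rw [e2] at hP2
  rw [e1] at hP1
  have hPu : IsUnit (H.π (evalForms N S P)) := by
    by_contra hn
    have hm : H.π (evalForms N S P) ∈ maximalIdeal T := (mem_maximalIdeal _).mpr hn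
    have := Ideal.sub_mem _ hm hP2
    rw [sub_sub_cancel] at this
    exact (mem_nonunits_iff.mp ((mem_maximalIdeal _).mp this)) hunit
  apply LinearMap.ext
  intro x
  apply Subtype.ext
  have h0 : s33EvalJ N S N' P ((X x : ↥U) : JZero N') = 0 := by
    rw [← hP1 (X x), ← Module.End.mul_apply, hX]
    rfl
  exact s33r_unit_inj U hUp H hUm P hPu _ (X x).2 h0

include hUG hUp hcheb hN' J' hp𝒪 hpS hNS H hUm in
/-- **(O1) on `U`**: `τ (s x − x) = χ(τ) (s x − x)` for `τ, s` in the inertia group at `p` -/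
theorem s33r_O1U [Finite (ResidueField T)] (h2 : IsUnit (2 : T))
    (hres : (GaloisRepAdic.ofResidualGaloisRep H.ρ.residual).IsOrdinaryAt p)
    (B : ValuationSubring (AlgebraicClosure ℚ)) (hB : B.LiesOverPrime p)
    (τ s : GQ) (hτ : τ ∈ B.inertiaSubgroupIn ℚ) (hs : s ∈ B.inertiaSubgroupIn ℚ)
    (x : JZero N') (hx : x ∈ U) :
    τ • (s • x - x) = s33W p τ • (s • x - x) := by
  obtain ⟨a, b, c, e, hunit⟩ := rsb_witness H.ρ H.residual_absIrr h2
  let k : Fin 4 → ℤ := fun i => if i = 0 then 1 else if i = 1 then -1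
    else if i = 2 then -(s33W p τ : ℤ) else (s33W p τ : ℤ)
  let γ : Fin 4 → GQ := fun i => if i = 0 then τ * s else if i = 1 then τ
    else if i = 2 then s else 1
  have hT : ∀ h : GQ, ∑ i, k i • s33tT (s33rRho U hUG) (s33rDet U p) (γ i * h) = 0 := by
    intro h
    apply s33r_sum_T U hUG hUp hcheb hN' J' hp𝒪 hpS hNS H hUm k (fun i => γ i * h)
    rw [Fin.sum_univ_four]
    simp only [k, γ]
    simp only [Fin.isValue, ↓reduceIte, one_smul, neg_smul, Fin.reduceEq, one_mul]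
    obtain ⟨-, -, -, h3⟩ := s33r_dict hcheb hN' J' hp𝒪 hpS hNS H τ
    have h1 := rsb_trace_O1 H.ρ p hres B hB τ s hτ hs h
    have e : H.ρ.trace (τ * s * h) + -H.ρ.trace (τ * h) + -((s33W p τ : ℤ) • H.ρ.trace (s * h))
        + (s33W p τ : ℤ) • H.ρ.trace h
        = (H.ρ.trace (τ * s * h) - H.ρ.trace (τ * h)
            - LinearMap.det (H.ρ.ρ τ) * (H.ρ.trace (s * h) - H.ρ.trace h))
          + (LinearMap.det (H.ρ.ρ τ) - ((s33W p τ : ℕ) : T))
            * (H.ρ.trace (s * h) - H.ρ.trace h) := by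
      simp only [zsmul_eq_mul, Int.cast_natCast]
      ring
    rw [e]
    exact Ideal.add_mem _ h1 (Ideal.mul_mem_right _ _ h3)
  have hker := s33t_ker4 (s33rRho U hUG) (s33rDet U p) (s33r_hdm U hUp) (s33r_hdc U)
    (s33r_htc U hUG hUp hcheb hN' J' hp𝒪 hpS hNS H) a b c e
    (s33r_hδ U hUG hUp hcheb hN' J' hp𝒪 hpS hNS H hUm a b c e hunit) k γ hT
  rw [Fin.sum_univ_four] at hker
  simp only [k, γ] at hker
  simp only [Fin.isValue, ↓reduceIte, one_smul, neg_smul, Fin.reduceEq, map_one] at hker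
  have h4 := congrArg (fun f : Module.End ℤ ↥U => ((f ⟨x, hx⟩ : ↥U) : JZero N')) hker
  simp only [LinearMap.add_apply, LinearMap.neg_apply, LinearMap.smul_apply,
    Module.End.one_apply, LinearMap.zero_apply, Submodule.coe_add, Submodule.coe_neg,
    Submodule.coe_smul, Submodule.coe_zero, map_mul, Module.End.mul_apply, s33rRho_coe] at h4
  simp only [natCast_zsmul] at h4
  have h5 : τ • (s • x - x) - s33W p τ • (s • x - x) = 0 := by
    rw [smul_sub, nsmul_sub, ← h4]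
    abel
  exact sub_eq_zero.mp h5

omit [NeZero N'] in
/-- `χ(1) = 1` -/
theorem s33W_one : s33W p (1 : GQ) = 1 := by
  have hp : p.Prime := Fact.out
  unfold s33W
  rw [map_one, Units.val_one]
  have : Fact (1 < p ^ 1) := ⟨by rw [pow_one]; exact hp.one_lt⟩
  exact ZMod.val_one _

omit [NeZero N'] in
theorem s33W_lt (g : GQ) : s33W p g < p := by
  have hp : p.Prime := Fact.out
  have : NeZero (p ^ 1) := ⟨pow_ne_zero _ hp.ne_zero⟩
  have h := ZMod.val_lt ((cycChi p 1 g : (ZMod (p ^ 1))ˣ) : ZMod (p ^ 1))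
  exact lt_of_lt_of_eq h (pow_one p)

omit [NeZero N'] in
theorem s33W_ne_zero (g : GQ) : s33W p g ≠ 0 := by
  have hp : p.Prime := Fact.out
  have : NeZero (p ^ 1) := ⟨pow_ne_zero _ hp.ne_zero⟩
  have : Fact (1 < p ^ 1) := ⟨by rw [pow_one]; exact hp.one_lt⟩
  intro h
  unfold s33W at h
  rw [ZMod.val_eq_zero] at h
  exact (cycChi p 1 g).ne_zero h

include hUp in
/-- `χ(s) − 1` is injective on `U` if `χ(s) ≠ 1` -/
theorem s33r_hds (s : GQ) (hs : s33W p s ≠ 1) (e : Module.End ℤ ↥U)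
    (he : (s33rDet U p s - 1) * e = 0) : e = 0 := by
  have hp : p.Prime := Fact.out
  apply LinearMap.ext
  intro x
  apply Subtype.ext
  have h1 := congrArg (fun f : Module.End ℤ ↥U => ((f x : ↥U) : JZero N')) he
  simp only [Module.End.mul_apply, LinearMap.sub_apply, Module.End.one_apply,
    LinearMap.zero_apply, Submodule.coe_sub, Submodule.coe_zero, s33rDet_coe] at h1
  set y : JZero N' := ((e x : ↥U) : JZero N') with hy
  have hpy : p • y = 0 := hUp y (e x).2
  have hw1 : 1 < s33W p s := by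
    have := s33W_ne_zero (p := p) s
    omega
  have hwy : (s33W p s - 1) • y = 0 := by
    have e1 : s33W p s = (s33W p s - 1) + 1 := by omega
    rw [e1, add_smul, one_smul, add_sub_cancel_right] at h1
    exact h1
  have hcop : Nat.Coprime (s33W p s - 1) p := by
    rw [Nat.coprime_comm, Nat.Prime.coprime_iff_not_dvd hp]
    intro hd
    have := Nat.le_of_dvd (by omega) hd
    have := s33W_lt (p := p) s
    omega
  have h2 : addOrderOf y ∣ 1 := by
    rw [← Nat.Coprime.gcd_eq_one hcop]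
    exact Nat.dvd_gcd (addOrderOf_dvd_of_nsmul_eq_zero hwy) (addOrderOf_dvd_of_nsmul_eq_zero hpy)
  rw [Nat.dvd_one, AddMonoid.addOrderOf_eq_one_iff] at h2
  exact h2

include hUp in
theorem s33r_hd1 : s33rDet U p (1 : GQ) = 1 := by
  unfold s33rDet
  rw [s33W_one, Nat.cast_one]

include hUG hUp hcheb hN' J' hp𝒪 hpS hNS H hUm in
/-- the image of `G_ℚ` in `End U` is not commutative if `U ≠ 0` -/
theorem s33r_not_comm [Finite (ResidueField T)] (h2 : IsUnit (2 : T)) (hU0 : U ≠ ⊥)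
    (hcomm : ∀ g h : GQ, s33rRho U hUG g * s33rRho U hUG h = s33rRho U hUG h * s33rRho U hUG g) :
    False := by
  obtain ⟨a, b, c, e, hunit⟩ := rsb_witness H.ρ H.residual_absIrr h2
  have hnt : Nontrivial (Module.End ℤ ↥U) := by
    obtain ⟨x, hx, hx0⟩ := (Submodule.ne_bot_iff U).mp hU0
    refine ⟨1, 0, fun h => hx0 ?_⟩
    have := congrArg (fun f : Module.End ℤ ↥U => ((f ⟨x, hx⟩ : ↥U) : JZero N')) h
    simpa using this
  exact s33t_not_comm4 (s33rRho U hUG) (s33rDet U p) (s33r_hdm U hUp) (s33r_hdc U)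
    (s33r_htc U hUG hUp hcheb hN' J' hp𝒪 hpS hNS H) a b c e
    (s33r_hδ U hUG hUp hcheb hN' J' hp𝒪 hpS hNS H hUm a b c e hunit) hcomm

include hUG hUp hcheb hN' J' hp𝒪 hpS hNS H hUm in
/-- **an `ω`-eigenvector**: if `U ≠ 0` and `χ(s₀) ≠ 1`, then `s₀ x − x ≠ 0` for some `x ∈ U`
(and the inertia group acts on `s₀ x − x` by `χ`, `s33r_O1U`) -/
theorem s33r_exists_omega [Finite (ResidueField T)] (h2 : IsUnit (2 : T)) (hU0 : U ≠ ⊥)
    (s₀ : GQ) (hs₀ : s33W p s₀ ≠ 1) :
    ∃ x ∈ U, s₀ • x - x ≠ 0 := by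
  by_contra hno
  push_neg at hno
  have hs : s33rRho U hUG s₀ = 1 := by
    apply LinearMap.ext
    intro x
    apply Subtype.ext
    rw [s33rRho_coe, Module.End.one_apply]
    exact sub_eq_zero.mp (hno x x.2)
  exact s33r_not_comm U hUG hUp hcheb hN' J' hp𝒪 hpS hNS H hUm h2 hU0
    (s33t_comm_of_trivial (s33rRho U hUG) (s33rDet U p) (s33r_hdm U hUp) (s33r_hdc U)
      (s33r_htc U hUG hUp hcheb hN' J' hp𝒪 hpS hNS H) (s33r_hd1 U hUp) s₀ hs
      (s33r_hds U hUp s₀ hs₀))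

include hUG hUp hcheb hN' J' hp𝒪 hpS hNS H hUm in
/-- **a fixed vector**: if `U ≠ 0` and `χ(τ₀) ≠ 1` (`τ₀` in the inertia group), then `τ₀` fixes a
nonzero element of `U` -/
theorem s33r_exists_fixed [Finite (ResidueField T)] (h2 : IsUnit (2 : T))
    (hres : (GaloisRepAdic.ofResidualGaloisRep H.ρ.residual).IsOrdinaryAt p)
    (B : ValuationSubring (AlgebraicClosure ℚ)) (hB : B.LiesOverPrime p) (hU0 : U ≠ ⊥)
    (τ₀ : GQ) (hτ₀ : τ₀ ∈ B.inertiaSubgroupIn ℚ) (hw : s33W p τ₀ ≠ 1) :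
    ∃ z ∈ U, z ≠ 0 ∧ τ₀ • z = z := by
  by_cases hall : ∀ x ∈ U, τ₀ • x - s33W p τ₀ • x = 0
  · exfalso
    have hs : s33rRho U hUG τ₀ = s33rDet U p τ₀ := by
      apply LinearMap.ext
      intro x
      apply Subtype.ext
      rw [s33rRho_coe, s33rDet_coe]
      exact sub_eq_zero.mp (hall x x.2)
    exact s33r_not_comm U hUG hUp hcheb hN' J' hp𝒪 hpS hNS H hUm h2 hU0
      (s33t_comm_of_scalar (s33rRho U hUG) (s33rDet U p) (s33r_hdm U hUp) (s33r_hdc U)
        (s33r_htc U hUG hUp hcheb hN' J' hp𝒪 hpS hNS H) τ₀ hs (s33r_hds U hUp τ₀ hw))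
  · push_neg at hall
    obtain ⟨x, hx, hz⟩ := hall
    refine ⟨τ₀ • x - s33W p τ₀ • x, U.sub_mem (hUG τ₀ x hx) (U.smul_of_tower_mem _ hx), hz, ?_⟩
    have h1 := s33r_O1U U hUG hUp hcheb hN' J' hp𝒪 hpS hNS H hUm h2 hres B hB τ₀ τ₀ hτ₀ hτ₀ x hx
    rw [smul_sub, nsmul_sub] at h1
    have h3 : τ₀ • s33W p τ₀ • x = s33W p τ₀ • τ₀ • x :=
      map_nsmul (DistribSMul.toAddMonoidHom (JZero N') τ₀) _ x
    have h4 : τ₀ • (τ₀ • x - s33W p τ₀ • x) - (τ₀ • x - s33W p τ₀ • x) = 0 := by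
      rw [smul_sub, h3]
      have : τ₀ • τ₀ • x - s33W p τ₀ • τ₀ • x - (τ₀ • x - s33W p τ₀ • x)
          = (τ₀ • τ₀ • x - τ₀ • x) - (s33W p τ₀ • τ₀ • x - s33W p τ₀ • x) := by abel
      rw [this, h1, sub_self]
    exact sub_eq_zero.mp h4

end Main

end Fermat.Agent.S33lib
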