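/-
Item 86 (S33), TRANSFER block, piece T4 wrappers (helper7): the results of `ResJ.lean` with the
hypotheses of the frozen statement S33.

* `s33w_finite_res` : the residue field of `T` is finite;
* `s33w_isUnit_two` : `2` is a unit of `T` (`p` odd);
* `s33w_hUm`        : "killed by `ker θ`" implies "killed by the maximal ideal of `T`";
* `s33w_exists_tau` : an element `τ₀` of the inertia group at `p` with `χ(τ₀) = 2 ≠ 1`;
* `s33w_O1U`, `s33w_exists_omega`, `s33w_exists_fixed` : the statements of `ResJ.lean` for a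
  Galois-stable subgroup `U ⊂ J₀(N')[p]` killed by `ker θ`.
-/
import Mathlib
import Fermat.Agent.S33lib.ResJ
import Fermat.Agent.S33lib.InertiaCyclo

set_option autoImplicit false
set_option linter.unusedSectionVars false

open scoped TensorProduct
open Polynomial

namespace Fermat.Agent.S33lib

open Fermat.Agent.GalRep ModularCurve Fermat.Agent.S31lib Fermat.Agent.S34lib IsLocalRing

section Wrap

variable {p : ℕ} {N : ℕ} [NeZero N] {S : Finset ℕ}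
  {𝒪 : Type} [CommRing 𝒪] [IsDomain 𝒪] [IsDiscreteValuationRing 𝒪]
  [IsAdicComplete (IsLocalRing.maximalIdeal 𝒪) 𝒪]
  {θ : CuspForm.heckeAlgebra N 2 (↑S : Set ℕ) →+* IsLocalRing.ResidueField 𝒪}
  {T : Type} [CommRing T] [IsLocalRing T] [IsNoetherianRing T]
  [IsAdicComplete (IsLocalRing.maximalIdeal T) T] [Algebra 𝒪 T] [IsLocalHom (algebraMap 𝒪 T)]
  [Module.Finite 𝒪 T] [Module.Free 𝒪 T]

/-- the residue field of `T` is finite -/
theorem s33w_finite_res [Finite (ResidueField 𝒪)]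
    (H : CuspForm.HeckeGaloisRepDatum N (↑S : Set ℕ) 𝒪 θ T) : Finite (ResidueField T) := by
  apply Finite.of_surjective (ResidueField.map (algebraMap 𝒪 T))
  intro y
  obtain ⟨a, ha⟩ := H.residue_surjective y
  exact ⟨residue 𝒪 a, ha⟩

/-- `2` is a unit of `T` -/
theorem s33w_isUnit_two (hp : p.Prime) (hp2 : p ≠ 2)
    (hp𝒪 : (p : 𝒪) ∈ IsLocalRing.maximalIdeal 𝒪) : IsUnit (2 : T) := by
  have hpT : (p : T) ∈ maximalIdeal T := asm_natCast_mem hp𝒪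
  by_contra h2
  have h2m : (2 : T) ∈ maximalIdeal T := (mem_maximalIdeal _).mpr h2
  obtain ⟨k, hk⟩ := (Nat.Prime.eq_two_or_odd' hp).resolve_left hp2
  have e : (1 : T) = (p : T) - (2 : T) * (k : T) := by
    rw [hk]
    push_cast
    ring
  have h1 : (1 : T) ∈ maximalIdeal T := by
    rw [e]
    exact Ideal.sub_mem _ hpT (Ideal.mul_mem_right _ _ h2m)
  exact (mem_nonunits_iff.mp ((mem_maximalIdeal _).mp h1)) isUnit_one

/-- "killed by `ker θ`" implies "killed by the maximal ideal of `T`" -/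
theorem s33w_hUm (H : CuspForm.HeckeGaloisRepDatum N (↑S : Set ℕ) 𝒪 θ T) {N' : ℕ} [NeZero N']
    (U : Submodule ℤ (JZero N'))
    (hUθ : ∀ P : HPoly N S, θ (evalForms N S P) = 0 → ∀ x ∈ U, s33EvalJ N S N' P x = 0)
    (P : HPoly N S) (hP : H.π (evalForms N S P) ∈ maximalIdeal T) (x : JZero N') (hx : x ∈ U) :
    s33EvalJ N S N' P x = 0 := by
  apply hUθ P _ x hx
  have h1 : residue T (H.π (evalForms N S P)) = 0 := (residue_eq_zero_iff _).mpr hP
  rw [H.residue_π] at h1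
  exact (map_eq_zero_iff _ (ResidueField.map (algebraMap 𝒪 T)).injective).mp h1

/-- an element of the inertia group at `p` with `χ(τ₀) = 2` -/
theorem s33w_exists_tau [Fact p.Prime] (hp2 : p ≠ 2)
    (B : ValuationSubring (AlgebraicClosure ℚ)) (hB : B.LiesOverPrime p) :
    ∃ τ₀ ∈ B.inertiaSubgroupIn ℚ, s33W p τ₀ = 2 := by
  have hp : p.Prime := Fact.out
  obtain ⟨τ, hτ, ht⟩ := icy_exists p hp2 B hB
  refine ⟨τ, hτ, ?_⟩
  have h1 := cyclo_toZModPow_eq p τ 2 1 (fun t h => ht t (by rwa [pow_one] at h))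
  unfold s33W
  rw [cyc_coe_cycChi, h1]
  have h3 : 2 < p ^ 1 := by
    rw [pow_one]
    have := hp.two_le
    omega
  have : NeZero (p ^ 1) := ⟨by omega⟩
  rw [ZMod.val_natCast, Nat.mod_eq_of_lt h3]

variable [Fact p.Prime] [Finite (ResidueField 𝒪)] (hp2 : p ≠ 2)
  (hp𝒪 : (p : 𝒪) ∈ IsLocalRing.maximalIdeal 𝒪) (hpN : p ∣ N)
  (hNS : ∀ q : ℕ, q.Prime → q ∣ N → q ∈ S)
  (H : CuspForm.HeckeGaloisRepDatum N (↑S : Set ℕ) 𝒪 θ T)
  (hres : (GaloisRepAdic.ofResidualGaloisRep H.ρ.residual).IsOrdinaryAt p)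
  (hcheb : WeakCheb) {N' : ℕ} [NeZero N'] (hN' : N' ∣ N) (J' : JacInput N' p)
  (U : Submodule ℤ (JZero N')) (hUG : ∀ (σ : GQ), ∀ x ∈ U, σ • x ∈ U)
  (hUp : ∀ x ∈ U, p • x = 0)
  (hUθ : ∀ P : HPoly N S, θ (evalForms N S P) = 0 → ∀ x ∈ U, s33EvalJ N S N' P x = 0)
  (B : ValuationSubring (AlgebraicClosure ℚ)) (hB : B.LiesOverPrime p)

include hp2 hp𝒪 hpN hNS H hres hcheb hN' J' hUG hUp hUθ hB in
/-- **(O1) on `U`** -/
theorem s33w_O1U (τ s : GQ) (hτ : τ ∈ B.inertiaSubgroupIn ℚ) (hs : s ∈ B.inertiaSubgroupIn ℚ)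
    (x : JZero N') (hx : x ∈ U) :
    τ • (s • x - x) = s33W p τ • (s • x - x) := by
  have hp : p.Prime := Fact.out
  have := s33w_finite_res H
  exact s33r_O1U U hUG hUp hcheb hN' J' hp𝒪 (hNS p hp hpN) hNS H (s33w_hUm H U hUθ)
    (s33w_isUnit_two hp hp2 hp𝒪) hres B hB τ s hτ hs x hx

include hp2 hp𝒪 hpN hNS H hres hcheb hN' J' hUG hUp hUθ hB in
/-- **an `ω`-eigenvector of the inertia group at `p`** in every nonzero `U` -/
theorem s33w_exists_omega (hU0 : U ≠ ⊥) :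
    ∃ z ∈ U, z ≠ 0 ∧ ∀ τ ∈ B.inertiaSubgroupIn ℚ, τ • z = s33W p τ • z := by
  have hp : p.Prime := Fact.out
  have := s33w_finite_res H
  obtain ⟨s₀, hs₀, hw⟩ := s33w_exists_tau (p := p) hp2 B hB
  obtain ⟨x, hx, hz⟩ := s33r_exists_omega U hUG hUp hcheb hN' J' hp𝒪 (hNS p hp hpN) hNS H
    (s33w_hUm H U hUθ) (s33w_isUnit_two hp hp2 hp𝒪) hU0 s₀ (by rw [hw]; norm_num)
  refine ⟨s₀ • x - x, U.sub_mem (hUG s₀ x hx) hx, hz, fun τ hτ => ?_⟩
  exact s33w_O1U hp2 hp𝒪 hpN hNS H hres hcheb hN' J' U hUG hUp hUθ B hB τ s₀ hτ hs₀ x hx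

include hp2 hp𝒪 hpN hNS H hres hcheb hN' J' hUG hUp hUθ hB in
/-- **(FIX1)**: a nonzero vector of `U` fixed by `τ₀`, for every `τ₀` in the inertia group with
`χ(τ₀) ≠ 1` -/
theorem s33w_exists_fixed (hU0 : U ≠ ⊥) (τ₀ : GQ) (hτ₀ : τ₀ ∈ B.inertiaSubgroupIn ℚ)
    (hw : s33W p τ₀ ≠ 1) :
    ∃ z ∈ U, z ≠ 0 ∧ τ₀ • z = z := by
  have hp : p.Prime := Fact.out
  have := s33w_finite_res H
  exact s33r_exists_fixed U hUG hUp hcheb hN' J' hp𝒪 (hNS p hp hpN) hNS H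
    (s33w_hUm H U hUθ) (s33w_isUnit_two hp hp2 hp𝒪) hres B hB hU0 τ₀ hτ₀ hw

end Wrap

end Fermat.Agent.S33lib
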