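/-
Item 86 (S33), block A3 (helper7): `hres ⇒ S33ResJ M p θ'` in the shape of the hub.

`s33w_resJ`: with the hypotheses of the frozen statement S33 (+ weak Chebotarev and a
`JacInput M p`, `M ∣ N`), every nonzero Galois-stable subgroup of `J₀(M)[p]` killed by the kernel of
`θ'` contains a nonzero class on which the inertia group at `p` acts by the mod `p` cyclotomic
character.  `θ'` is any ring homomorphism on the Hecke polynomials which vanishes where
`θ ∘ evalForms` vanishes (e.g. `θ' = θ ∘ evalForms`, `s33w_resJ_theta`).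
-/
import Mathlib
import Fermat.Agent.S33lib.ResWrap
import Fermat.Agent.S33lib.Hub

set_option autoImplicit false
set_option linter.unusedSectionVars false

open scoped TensorProduct
open Polynomial

namespace Fermat.Agent.S33lib

open Fermat.Agent.GalRep ModularCurve Fermat.Agent.S31lib Fermat.Agent.S34lib
  Fermat.Agent.S35lib IsLocalRing

section Hub

variable {p : ℕ} {N : ℕ} [NeZero N] {S : Finset ℕ}
  {𝒪 : Type} [CommRing 𝒪] [IsDomain 𝒪] [IsDiscreteValuationRing 𝒪]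
  [IsAdicComplete (IsLocalRing.maximalIdeal 𝒪) 𝒪]
  {θ : CuspForm.heckeAlgebra N 2 (↑S : Set ℕ) →+* IsLocalRing.ResidueField 𝒪}
  {T : Type} [CommRing T] [IsLocalRing T] [IsNoetherianRing T]
  [IsAdicComplete (IsLocalRing.maximalIdeal T) T] [Algebra 𝒪 T] [IsLocalHom (algebraMap 𝒪 T)]
  [Module.Finite 𝒪 T] [Module.Free 𝒪 T]

theorem s33w_evalJ_eq (M : ℕ) [NeZero M] : s33EvalJ N S M = evalJac N S M := rfl

/-- **A3**: `hres ⇒ S33ResJ M p θ'` -/
theorem s33w_resJ [Fact p.Prime] [Finite (ResidueField 𝒪)] (hp2 : p ≠ 2)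
    (hp𝒪 : (p : 𝒪) ∈ IsLocalRing.maximalIdeal 𝒪) (hpN : p ∣ N)
    (hNS : ∀ q : ℕ, q.Prime → q ∣ N → q ∈ S)
    (H : CuspForm.HeckeGaloisRepDatum N (↑S : Set ℕ) 𝒪 θ T)
    (hres : (GaloisRepAdic.ofResidualGaloisRep H.ρ.residual).IsOrdinaryAt p)
    (hcheb : WeakCheb) {M : ℕ} [NeZero M] (hM : M ∣ N) (J' : JacInput M p)
    {κ : Type*} [Semiring κ] (θ' : HPoly N S →+* κ)
    (hθ' : ∀ P : HPoly N S, θ (evalForms N S P) = 0 → θ' P = 0) :
    S33ResJ M p θ' := by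
  intro B hB U hU0 hU hUG
  have hU0' : AddSubgroup.toIntSubmodule U ≠ ⊥ := by
    intro h
    apply hU0
    rw [eq_bot_iff]
    intro x hx
    have : x ∈ AddSubgroup.toIntSubmodule U := hx
    rw [h] at this
    exact this
  obtain ⟨z, hz, hz0, hzτ⟩ := s33w_exists_omega hp2 hp𝒪 hpN hNS H hres hcheb hM J'
    (AddSubgroup.toIntSubmodule U) (fun σ x hx => hUG σ x hx) (fun x hx => (hU x hx).1)
    (fun P hP x hx => (hU x hx).2 P (hθ' P hP)) B hB hU0'
  exact ⟨z, hz, hz0, hzτ⟩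

/-- **A3** for `θ' = θ ∘ evalForms` -/
theorem s33w_resJ_theta [Fact p.Prime] [Finite (ResidueField 𝒪)] (hp2 : p ≠ 2)
    (hp𝒪 : (p : 𝒪) ∈ IsLocalRing.maximalIdeal 𝒪) (hpN : p ∣ N)
    (hNS : ∀ q : ℕ, q.Prime → q ∣ N → q ∈ S)
    (H : CuspForm.HeckeGaloisRepDatum N (↑S : Set ℕ) 𝒪 θ T)
    (hres : (GaloisRepAdic.ofResidualGaloisRep H.ρ.residual).IsOrdinaryAt p)
    (hcheb : WeakCheb) {M : ℕ} [NeZero M] (hM : M ∣ N) (J' : JacInput M p) :
    S33ResJ M p (θ.comp (evalForms N S).toRingHom) :=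
  s33w_resJ hp2 hp𝒪 hpN hNS H hres hcheb hM J' _ (fun _ hP => hP)

end Hub

end Fermat.Agent.S33lib
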