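import Mathlib
import Fermat.Agent.S33lib.Final
import Fermat.Agent.S33lib.ResHub

/-!
# Item 86 (S33): the final wiring, second part

* `s33f_geom_of_levels`: `S33Geom N p θ'` for `p ‖ N` from `S33ResJ (N / p)`, the good-level statement
  (G1) and the statement (TOR_p) on the `p`-new classes, at the levels `M'`, `M' * p`.
* `s33f_main`: S33 (hypotheses of the frozen statement) from the three pieces RANK, G1, (TOR_p).
-/

set_option autoImplicit false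

noncomputable section

namespace Fermat.Agent.S33lib

open Fermat.Agent.GalRep ModularCurve Fermat.Agent.S31lib Fermat.Agent.S35lib IsLocalRing

/-- `S33Geom N p θ'` for `p ‖ N` from the residual input at the levels dividing `N`, (G1) and
(TOR_p). -/
theorem s33f_geom_of_levels {p : ℕ} [Fact p.Prime] {N : ℕ} [NeZero N] (hpN : p ∣ N)
    (hp2N : ¬ p ^ 2 ∣ N) {S : Finset ℕ} {κ : Type*} [Semiring κ] (θ' : HPoly N S →+* κ)
    (hRes : ∀ (M : ℕ) [NeZero M], M ∣ N → S33ResJ M p θ')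
    (hGood : ∀ (M' : ℕ) [NeZero M'] [NeZero (M' * p)] (θ'' : HPoly (M' * p) S →+* κ),
      ¬ p ∣ M' → S33ResJ M' p θ'' → S33Geom M' p θ'')
    (hTor : ∀ (M' : ℕ) [NeZero M'] [NeZero p] [NeZero (M' * p)], ¬ p ∣ M' → S33TorP M' p) :
    S33Geom N p θ' := by
  have hp : p.Prime := Fact.out
  haveI : NeZero p := ⟨hp.ne_zero⟩
  obtain ⟨M', hM'⟩ : ∃ M', N = M' * p := ⟨N / p, (Nat.div_mul_cancel hpN).symm⟩
  subst hM'
  have hM0 : M' ≠ 0 := fun h0 => NeZero.ne (M' * p) (by rw [h0, zero_mul])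
  haveI : NeZero M' := ⟨hM0⟩
  have hpM : ¬ p ∣ M' := by
    intro hd
    apply hp2N
    rw [pow_two]
    exact Nat.mul_dvd_mul hd (dvd_refl p)
  exact s33_geom_ss M' hp θ' hpM (hGood M' θ' hpM (hRes M' (dvd_mul_right M' p)))
    (hTor M' hpM)

section

variable {p : ℕ} {N : ℕ} [NeZero N] {S : Finset ℕ}
  {𝒪 : Type} [CommRing 𝒪] [IsDomain 𝒪] [IsDiscreteValuationRing 𝒪]
  [IsAdicComplete (IsLocalRing.maximalIdeal 𝒪) 𝒪]
  {θ : CuspForm.heckeAlgebra N 2 (↑S : Set ℕ) →+* IsLocalRing.ResidueField 𝒪}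
  {T : Type} [CommRing T] [IsLocalRing T] [IsNoetherianRing T]
  [IsAdicComplete (IsLocalRing.maximalIdeal T) T] [Algebra 𝒪 T] [IsLocalHom (algebraMap 𝒪 T)]
  [Module.Finite 𝒪 T] [Module.Free 𝒪 T]

/-- **S33 from the three pieces** RANK, (G1) and (TOR_p). -/
theorem s33f_main [Finite (IsLocalRing.ResidueField 𝒪)]
    (hp : p.Prime) (hp2 : p ≠ 2)
    (hp𝒪 : (p : 𝒪) ∈ IsLocalRing.maximalIdeal 𝒪) (hN : p ∣ N ∧ ¬ p ^ 2 ∣ N)
    (hNS : ∀ q : ℕ, q.Prime → q ∣ N → q ∈ S)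
    (H : CuspForm.HeckeGaloisRepDatum N (↑S : Set ℕ) 𝒪 θ T)
    (hres : (GaloisRepAdic.ofResidualGaloisRep H.ρ.residual).IsOrdinaryAt p)
    (hRank : haveI : Fact p.Prime := ⟨hp⟩;
      S33Geom N p (s33fTheta θ) → S33OrdJ N p S (s33fTheta θ))
    (hGood : haveI : Fact p.Prime := ⟨hp⟩;
      ∀ (M' : ℕ) [NeZero M'] [NeZero (M' * p)]
        (θ'' : HPoly (M' * p) S →+* IsLocalRing.ResidueField 𝒪),
        ¬ p ∣ M' → S33ResJ M' p θ'' → S33Geom M' p θ'')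
    (hTor : ∀ (M' : ℕ) [NeZero M'] [NeZero p] [NeZero (M' * p)], ¬ p ∣ M' → S33TorP M' p) :
    H.ρ.IsOrdinaryAt p := by
  haveI : Fact p.Prime := ⟨hp⟩
  refine s33f_of_ordJ hp hp2 hp𝒪 hN.1 hNS H (hRank ?_)
  refine s33f_geom_of_levels hN.1 hN.2 (s33fTheta θ) ?_ hGood hTor
  intro M _ hM
  obtain ⟨J', -⟩ := exists_jacInput_faithEmb
    (fun N' p' _ hcomm => Fermat.Agent.S37.result N' p' hcomm) M p
  exact s33w_resJ hp2 hp𝒪 hN.1 hNS H hres weakCheb hM J' (s33fTheta θ) (fun P hP => hP)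

end

end Fermat.Agent.S33lib
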