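import Mathlib
import Fermat.Agent.S33lib.Hub

/-!
# Item 86 (S33), piece RANK (helper25): the second residual input `S33FixJ`

`S33FixJ M p θ'` is the companion of `S33ResJ` (same shape): every nonzero Galois-stable subgroup of
`J₀(M)[p]` killed by the kernel of `θ'` contains a nonzero class FIXED by a given inertia element
`τ₀` at `p`.  (Truth: such a subgroup is a sum of copies of `ρ̄`, and `ρ̄(τ₀)` has the eigenvalue `1`
because `ρ̄` is ordinary at `p`: `ρ̄|_I = (ω, *; 0, 1)`.)

It is the only way in which `hres` enters the piece RANK (`S33Geom ⇒ S33OrdJ`).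
-/

set_option autoImplicit false

noncomputable section

namespace Fermat.Agent.S33lib

open Fermat.Agent.GalRep ModularCurve Fermat.Agent.S31lib Fermat.Agent.S35lib

/-- **what RANK uses from `hres`**: every nonzero Galois-stable subgroup of `J₀(M)[p]` killed by
the kernel of `θ'` contains a nonzero class fixed by `τ₀`, for every `τ₀` in the inertia group
at `p`. -/
def S33FixJ (M : ℕ) [NeZero M] (p : ℕ) {N : ℕ} {S : Finset ℕ} {κ : Type*}
    [Semiring κ] (θ' : HPoly N S →+* κ) : Prop :=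
  ∀ B : ValuationSubring (AlgebraicClosure ℚ), B.LiesOverPrime p →
    ∀ τ₀ ∈ B.inertiaSubgroupIn ℚ,
    ∀ U : AddSubgroup (JZero M), U ≠ ⊥ →
      (∀ x ∈ U, p • x = 0 ∧ ∀ P : HPoly N S, θ' P = 0 → evalJac N S M P x = 0) →
      (∀ σ : AlgebraicClosure ℚ ≃ₐ[ℚ] AlgebraicClosure ℚ, ∀ x ∈ U, σ • x ∈ U) →
        ∃ z ∈ U, z ≠ 0 ∧ τ₀ • z = z

end Fermat.Agent.S33lib
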