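import Mathlib

/-!
# Item 86 (S33), piece RANK TRICK (helper25): `(K1) + (COUNT) ⇒ (O1)` at every finite level

Abstract, Mathlib only.  `V` is an abelian group with an action of a group `G`, `Vn ≤ V` a
subgroup killed by `p ^ n` and stable under `G` (for us: the `𝔪`-part of `J₀(N)[pⁿ]`),
`I ≤ G` (inertia at `p`), `τ0 ∈ I`, `eps : G → ℤ` (a lift of the cyclotomic character mod `pⁿ`).

* `(Q)`     for `τ ∈ I` the endomorphism `τ + eps τ • τ⁻¹` of `Vn` commutes with `G`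
            (Eichler–Shimura + Chebotarev: it is a Hecke operator);
* `(K1)`    `τ • x - x ∈ W` for `τ ∈ I`, `x ∈ Vn`;
* `(COUNT)` no `x ≠ 0` in `W ∩ Vn` with `p • x = 0` and `τ0 • x = x`;
* `(RES1)`  every nonzero subgroup of `Vn` stable under `G` and the Hecke operators contains a
            nonzero vector fixed by `τ0`.

Conclusion `(O1)`: `τ • (τ' • x - x) = eps τ • (τ' • x - x)` for `τ, τ' ∈ I`, `x ∈ Vn`.
No Hensel, no Tate module, no rank.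
-/

set_option autoImplicit false

namespace Fermat.Agent.S33lib

section Abstract

variable {V : Type*} [AddCommGroup V] {G : Type*} [Group G] [DistribMulAction G V]

/-- the action of `g` commutes with integer multiples -/
theorem rkt_smul_zsmul (g : G) (a : ℤ) (x : V) : g • (a • x) = a • g • x :=
  map_zsmul (DistribSMul.toAddMonoidHom V g) a x

theorem rkt_smul_nsmul (g : G) (a : ℕ) (x : V) : g • (a • x) = a • g • x :=
  map_nsmul (DistribSMul.toAddMonoidHom V g) a x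

/-- In a group killed by `p ^ n`: an element `x ≠ 0` has a multiple `y ≠ 0` with `p • y = 0`. -/
theorem rkt_exists_ptors (p n : ℕ) (x : V) (hx : p ^ n • x = 0) (hx0 : x ≠ 0) :
    ∃ j : ℕ, p ^ j • x ≠ 0 ∧ p • (p ^ j • x) = 0 := by
  classical
  have hex : ∃ j : ℕ, p ^ j • x = 0 := ⟨n, hx⟩
  have hpos : Nat.find hex ≠ 0 := by
    intro h0
    have := Nat.find_spec hex
    rw [h0, pow_zero, one_smul] at this
    exact hx0 this
  obtain ⟨j, hj⟩ := Nat.exists_eq_succ_of_ne_zero hpos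
  refine ⟨j, ?_, ?_⟩
  · intro h
    have := Nat.find_min' hex h
    omega
  · have := Nat.find_spec hex
    rw [hj, Nat.succ_eq_add_one, pow_succ, mul_comm, mul_smul] at this
    exact this

/-- the linear algebra of Step 5 -/
theorem rkt_lin (a w : V) (e e₀ : ℤ)
    (hq2 : e₀ • e₀ • (a + e • a - e • w) + (e * e₀) • w = e₀ • a + (e * e₀) • e₀ • a) :
    e₀ • ((e₀ - 1) • (a - e • w)) = 0 := by
  have hz : e₀ • ((e₀ - 1) • (a - e • w))
      = (e₀ • e₀ • (a + e • a - e • w) + (e * e₀) • w)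
        - (e₀ • a + (e * e₀) • e₀ • a) := by
    module
  rw [hz, hq2, sub_self]

theorem rkt_lin2 (u : V) (e₀ : ℤ) (h6 : (e₀ - 1) • u = 0) : e₀ • u = u := by
  have : e₀ • u = (e₀ - 1) • u + u := by module
  rw [this, h6, zero_add]

/-- **Rank trick, core form.**  All hypotheses on `eps` are stated through its action on `Vn`. -/
theorem rkt_core (p n : ℕ)
    (Vn : AddSubgroup V)
    (hVp : ∀ x ∈ Vn, p ^ n • x = 0)
    (hVG : ∀ (g : G), ∀ x ∈ Vn, g • x ∈ Vn)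
    (Hk : Set (V →+ V))
    (hHG : ∀ T ∈ Hk, ∀ (g : G) (x : V), T (g • x) = g • T x)
    (hVH : ∀ T ∈ Hk, ∀ x ∈ Vn, T x ∈ Vn)
    (I : Subgroup G) (τ0 : G) (hτ0 : τ0 ∈ I)
    (eps : G → ℤ)
    (heps_mul : ∀ g ∈ I, ∀ h ∈ I, ∀ x ∈ Vn, eps (g * h) • x = (eps g * eps h) • x)
    (heps_unit : ∀ x ∈ Vn, eps τ0 • x = 0 → x = 0)
    (he0 : ∀ x ∈ Vn, eps τ0 • x = x → x = 0)
    (hQ : ∀ τ ∈ I, ∀ (σ : G), ∀ x ∈ Vn,
      σ • (τ • x + eps τ • τ⁻¹ • x) = τ • σ • x + eps τ • τ⁻¹ • σ • x)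
    (W : AddSubgroup V)
    (hK1 : ∀ τ ∈ I, ∀ x ∈ Vn, τ • x - x ∈ W)
    (hCOUNT : ∀ x ∈ W, x ∈ Vn → p • x = 0 → τ0 • x = x → x = 0)
    (hRES : ∀ U : AddSubgroup V, U ≤ Vn → U ≠ ⊥ → (∀ (g : G), ∀ x ∈ U, g • x ∈ U) →
      (∀ T ∈ Hk, ∀ x ∈ U, T x ∈ U) → ∃ z ∈ U, z ≠ 0 ∧ τ0 • z = z) :
    ∀ τ ∈ I, ∀ τ' ∈ I, ∀ x ∈ Vn, τ • (τ' • x - x) = eps τ • (τ' • x - x) := by
  classical
  -- the subgroup `W' = W ⊓ Vn`
  have hW'stab : ∀ τ ∈ I, ∀ w ∈ W ⊓ Vn, τ • w ∈ W ⊓ Vn := by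
    intro τ hτ w hw
    refine ⟨?_, hVG τ w hw.2⟩
    have h1 := hK1 τ hτ w hw.2
    have h2 : τ • w = (τ • w - w) + w := by abel
    rw [h2]
    exact W.add_mem h1 hw.1
  -- Step 1: `τ0 - 1` is injective on `W'`
  have hinj : ∀ w ∈ W ⊓ Vn, τ0 • w = w → w = 0 := by
    intro w hw hfix
    by_contra hw0
    obtain ⟨j, hj0, hjp⟩ := rkt_exists_ptors p n w (hVp w hw.2) hw0
    apply hj0
    refine hCOUNT _ (W.nsmul_mem hw.1 _) (Vn.nsmul_mem hw.2 _) hjp ?_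
    rw [rkt_smul_nsmul, hfix]
  -- Step 3: the relation `τ x + eps τ • τ⁻¹ x = x + eps τ • x` on `Vn`
  have hrel : ∀ τ ∈ I, ∀ x ∈ Vn, τ • x + eps τ • τ⁻¹ • x = x + eps τ • x := by
    intro τ hτ
    -- the endomorphism `k_τ`
    let k : V →+ V := DistribSMul.toAddMonoidHom V τ
      + eps τ • DistribSMul.toAddMonoidHom V τ⁻¹ - AddMonoidHom.id V
      - eps τ • AddMonoidHom.id V
    have hk : ∀ x : V, k x = τ • x + eps τ • τ⁻¹ • x - x - eps τ • x := fun x => rfl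
    let U : AddSubgroup V := Vn.map k
    have hUle : U ≤ W ⊓ Vn := by
      rintro _ ⟨x, hx, rfl⟩
      have hx' : x ∈ Vn := hx
      have hy : x - eps τ • τ⁻¹ • x ∈ Vn :=
        Vn.sub_mem hx' (Vn.zsmul_mem (hVG τ⁻¹ x hx') _)
      have h1 := hK1 τ hτ _ hy
      have h2 : k x = τ • (x - eps τ • τ⁻¹ • x) - (x - eps τ • τ⁻¹ • x) := by
        rw [hk, smul_sub, rkt_smul_zsmul, smul_inv_smul]
        abel
      rw [h2]
      exact ⟨h1, Vn.sub_mem (hVG τ _ hy) hy⟩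
    have hUG : ∀ (g : G), ∀ x ∈ U, g • x ∈ U := by
      rintro g _ ⟨x, hx, rfl⟩
      have hx' : x ∈ Vn := hx
      refine ⟨g • x, hVG g x hx', ?_⟩
      rw [hk, hk, smul_sub, smul_sub, hQ τ hτ g x hx', rkt_smul_zsmul]
    have hUH : ∀ T ∈ Hk, ∀ x ∈ U, T x ∈ U := by
      rintro T hT _ ⟨x, hx, rfl⟩
      have hx' : x ∈ Vn := hx
      refine ⟨T x, hVH T hT x hx', ?_⟩
      rw [hk, hk, map_sub, map_sub, map_add, map_zsmul, map_zsmul, hHG T hT, hHG T hT]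
    have hU : U = ⊥ := by
      by_contra hne
      obtain ⟨z, hz, hz0, hzfix⟩ := hRES U (hUle.trans inf_le_right) hne hUG hUH
      exact hz0 (hinj z (hUle hz) hzfix)
    intro x hx
    have hkx : k x ∈ U := ⟨x, hx, rfl⟩
    rw [hU, AddSubgroup.mem_bot, hk] at hkx
    have h3 : τ • x + eps τ • τ⁻¹ • x = (τ • x + eps τ • τ⁻¹ • x - x - eps τ • x)
        + (x + eps τ • x) := by abel
    rw [h3, hkx, zero_add]
  -- the quadratic relation `τ² y + eps τ • y = τ y + eps τ • τ y`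
  have hquad : ∀ τ ∈ I, ∀ y ∈ Vn, τ • τ • y + eps τ • y = τ • y + eps τ • τ • y := by
    intro τ hτ y hy
    have := hrel τ hτ (τ • y) (hVG τ y hy)
    rwa [inv_smul_smul] at this
  -- Step 4: `τ0 = eps τ0` on `W'`
  have h0 : ∀ w ∈ W ⊓ Vn, τ0 • w = eps τ0 • w := by
    intro w hw
    have hu : τ0 • w - eps τ0 • w ∈ W ⊓ Vn :=
      (W ⊓ Vn).sub_mem (hW'stab τ0 hτ0 w hw) ((W ⊓ Vn).zsmul_mem hw _)
    have hfix : τ0 • (τ0 • w - eps τ0 • w) = τ0 • w - eps τ0 • w := by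
      have hq := hquad τ0 hτ0 w hw.2
      rw [smul_sub, rkt_smul_zsmul]
      have : τ0 • τ0 • w = τ0 • w + eps τ0 • τ0 • w - eps τ0 • w := by
        rw [← hq]; abel
      rw [this]; abel
    have := hinj _ hu hfix
    exact sub_eq_zero.mp this
  -- Step 5: `τ = eps τ` on `W'`
  have h5 : ∀ τ ∈ I, ∀ w ∈ W ⊓ Vn, τ • w = eps τ • w := by
    intro τ hτ w hw
    have hτw : τ • w ∈ W ⊓ Vn := hW'stab τ hτ w hw
    have hττ0 : τ * τ0 ∈ I := I.mul_mem hτ hτ0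
    -- the action of `τ τ0` on `w` and on `τ w`
    have e1 : (τ * τ0) • w = eps τ0 • τ • w := by
      rw [mul_smul, h0 w hw, rkt_smul_zsmul]
    have e2 : (τ * τ0) • (τ • w) = eps τ0 • τ • τ • w := by
      rw [mul_smul, h0 _ hτw, rkt_smul_zsmul]
    have hq1 := hquad τ hτ w hw.2
    have hq2 := hquad (τ * τ0) hττ0 w hw.2
    rw [e1, rkt_smul_zsmul, e2, heps_mul τ hτ τ0 hτ0 w hw.2,
      heps_mul τ hτ τ0 hτ0 _ (Vn.zsmul_mem hτw.2 _)] at hq2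
    -- `τ² w = τ w + eps τ • τ w - eps τ • w`
    have hsq : τ • τ • w = τ • w + eps τ • τ • w - eps τ • w := by
      rw [← hq1]; abel
    rw [hsq] at hq2
    have hkey := rkt_lin (τ • w) w (eps τ) (eps τ0) hq2
    have hmem : τ • w - eps τ • w ∈ W ⊓ Vn :=
      (W ⊓ Vn).sub_mem hτw ((W ⊓ Vn).zsmul_mem hw _)
    have h6 : (eps τ0 - 1) • (τ • w - eps τ • w) = 0 :=
      heps_unit _ (Vn.zsmul_mem hmem.2 _) hkey
    exact sub_eq_zero.mp (he0 _ hmem.2 (rkt_lin2 _ _ h6))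
  -- Step 6
  intro τ hτ τ' hτ' x hx
  exact h5 τ hτ _ ⟨hK1 τ' hτ' x hx, Vn.sub_mem (hVG τ' x hx) hx⟩

/-- congruent integers act in the same way on a group killed by `p ^ n` -/
theorem rkt_zsmul_congr (p n : ℕ) (a b : ℤ) (hab : a ≡ b [ZMOD ((p ^ n : ℕ) : ℤ)]) (x : V)
    (hx : p ^ n • x = 0) : a • x = b • x := by
  obtain ⟨c, hc⟩ := hab.symm.dvd
  have h1 : a = b + c * ((p ^ n : ℕ) : ℤ) := by rw [mul_comm]; omega
  rw [h1, add_smul, mul_smul, natCast_zsmul, hx, smul_zero, add_zero]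

/-- an integer prime to `p` acts injectively on a group killed by `p ^ n` -/
theorem rkt_zsmul_inj (p n : ℕ) (a : ℤ) (ha : IsCoprime a (p : ℤ)) (x : V)
    (hx : p ^ n • x = 0) (hax : a • x = 0) : x = 0 := by
  obtain ⟨u, v, huv⟩ := (ha.pow_right (n := n))
  have h1 : x = (u * a + v * (p : ℤ) ^ n) • x := by rw [huv, one_smul]
  have h2 : ((p : ℤ) ^ n) • x = 0 := by
    have : ((p : ℤ) ^ n) = ((p ^ n : ℕ) : ℤ) := by push_cast; rfl
    rw [this, natCast_zsmul, hx]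
  rw [h1, add_smul, mul_smul, mul_smul, hax, h2, smul_zero, smul_zero, add_zero]

/-- **Rank trick**: `(Q) + (K1) + (COUNT) + (RES1) ⇒ (O1)`, with the hypotheses on `eps` in
arithmetic form. -/
theorem rkt_main (p n : ℕ)
    (Vn : AddSubgroup V)
    (hVp : ∀ x ∈ Vn, p ^ n • x = 0)
    (hVG : ∀ (g : G), ∀ x ∈ Vn, g • x ∈ Vn)
    (Hk : Set (V →+ V))
    (hHG : ∀ T ∈ Hk, ∀ (g : G) (x : V), T (g • x) = g • T x)
    (hVH : ∀ T ∈ Hk, ∀ x ∈ Vn, T x ∈ Vn)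
    (I : Subgroup G) (τ0 : G) (hτ0 : τ0 ∈ I)
    (eps : G → ℤ)
    (heps_mul : ∀ g ∈ I, ∀ h ∈ I, eps (g * h) ≡ eps g * eps h [ZMOD ((p ^ n : ℕ) : ℤ)])
    (heps_unit : IsCoprime (eps τ0) (p : ℤ))
    (he0 : IsCoprime (eps τ0 - 1) (p : ℤ))
    (hQ : ∀ τ ∈ I, ∀ (σ : G), ∀ x ∈ Vn,
      σ • (τ • x + eps τ • τ⁻¹ • x) = τ • σ • x + eps τ • τ⁻¹ • σ • x)
    (W : AddSubgroup V)
    (hK1 : ∀ τ ∈ I, ∀ x ∈ Vn, τ • x - x ∈ W)
    (hCOUNT : ∀ x ∈ W, x ∈ Vn → p • x = 0 → τ0 • x = x → x = 0)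
    (hRES : ∀ U : AddSubgroup V, U ≤ Vn → U ≠ ⊥ → (∀ (g : G), ∀ x ∈ U, g • x ∈ U) →
      (∀ T ∈ Hk, ∀ x ∈ U, T x ∈ U) → ∃ z ∈ U, z ≠ 0 ∧ τ0 • z = z) :
    ∀ τ ∈ I, ∀ τ' ∈ I, ∀ x ∈ Vn, τ • (τ' • x - x) = eps τ • (τ' • x - x) := by
  refine rkt_core p n Vn hVp hVG Hk hHG hVH I τ0 hτ0 eps ?_ ?_ ?_ hQ W hK1 hCOUNT hRES
  · intro g hg h hh x hx
    exact rkt_zsmul_congr p n _ _ (heps_mul g hg h hh) x (hVp x hx)
  · intro x hx h
    exact rkt_zsmul_inj p n _ heps_unit x (hVp x hx) h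
  · intro x hx h
    have h1 : (eps τ0 - 1) • x = 0 := by rw [sub_smul, one_smul, h, sub_self]
    exact rkt_zsmul_inj p n _ he0 x (hVp x hx) h1

end Abstract

end Fermat.Agent.S33lib
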