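import Mathlib
import Fermat.Agent.S33lib.Hub
import Fermat.Agent.S33lib.RankDefs
import Fermat.Agent.S33lib.RankTrick
import Fermat.Agent.S33lib.CycSpec
import Fermat.Agent.S33lib.ThetaProj
import Fermat.Agent.S33lib.ResDict
import Fermat.Agent.S35lib.AlgLat

/-!
# Item 86 (S33), piece A4 = RANK (helper25): `S33Geom N p θ' ⇒ S33OrdJ N p S θ'`

The concrete instance of the abstract rank trick `rkt_main` (`RankTrick.lean`) on the `θ'`-part of
`J₀(N)[pⁿ]`: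

* `(Q)`     `rnk_dict`: on `J₀(N)[pⁿ]` every `g + χₙ(g) g⁻¹` is a Hecke polynomial
            (weak Chebotarev + Eichler–Shimura), hence commutes with the Galois action;
* `(K1)`    is the definition of `s33hKI`;
* `(COUNT)` is `S33Geom N p θ'`;
* `(RES1)`  `rnk_res`: from `S33FixJ N p θ'` by a socle argument (`rnk_socle`: a nonzero subgroup of
            the `θ'`-part of `J₀(N)[pⁿ]`, stable under Galois and Hecke, contains a nonzero such
            subgroup killed by `p` and by the kernel of `θ'`).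

Main result: `rnk_main`.
-/

set_option autoImplicit false
set_option linter.unusedSectionVars false
set_option linter.unusedVariables false

namespace Fermat.Agent.S33lib

open Fermat.Agent.GalRep ModularCurve Fermat.Agent.S31lib Fermat.Agent.S34lib
  Fermat.Agent.S35lib

section Rank

variable {N p : ℕ} [NeZero N] {S : Finset ℕ} {κ : Type*} [Semiring κ]

/-- the `θ'`-part of `J₀(N)[pⁿ]` -/
def rnkV (N : ℕ) [NeZero N] (p n : ℕ) {S : Finset ℕ} (θ' : HPoly N S →+* κ) :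
    AddSubgroup (JZero N) where
  carrier := {x | p ^ n • x = 0 ∧ S33hPart N θ' x}
  zero_mem' := ⟨nsmul_zero _, fun P _ => ⟨0, map_zero _⟩⟩
  add_mem' := by
    rintro x y ⟨hx, hxP⟩ ⟨hy, hyP⟩
    refine ⟨by rw [nsmul_add, hx, hy, add_zero], fun P hP => ?_⟩
    obtain ⟨k, hk⟩ := hxP P hP
    obtain ⟨l, hl⟩ := hyP P hP
    refine ⟨k + l, ?_⟩
    have h1 : ((evalJac N S N P) ^ (k + l)) x = 0 := by
      rw [add_comm, pow_add, Module.End.mul_apply, hk, map_zero]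
    have h2 : ((evalJac N S N P) ^ (k + l)) y = 0 := by
      rw [pow_add, Module.End.mul_apply, hl, map_zero]
    rw [map_add, h1, h2, add_zero]
  neg_mem' := by
    rintro x ⟨hx, hxP⟩
    refine ⟨by rw [neg_nsmul, hx, neg_zero], fun P hP => ?_⟩
    obtain ⟨k, hk⟩ := hxP P hP
    exact ⟨k, by rw [map_neg, hk, neg_zero]⟩

theorem mem_rnkV (n : ℕ) (θ' : HPoly N S →+* κ) (x : JZero N) :
    x ∈ rnkV N p n θ' ↔ p ^ n • x = 0 ∧ S33hPart N θ' x := Iff.rfl

/-- Hecke polynomials commute with the Galois action (pointwise form) -/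
theorem rnk_gal_evalJac (J : JacInput N p) (σ : GQ) (P : HPoly N S) (x : JZero N) :
    evalJac N S N P (σ • x) = σ • evalJac N S N P x := by
  have h := al_galEnd_evalJac (S := S) J σ P
  have h2 := congrArg (fun f : Module.End ℤ (JZero N) => f x) h
  simp only [Module.End.mul_apply, galEnd_apply] at h2
  exact h2.symm

theorem rnk_gal_evalJac_pow (J : JacInput N p) (σ : GQ) (P : HPoly N S) (k : ℕ) (x : JZero N) :
    ((evalJac N S N P) ^ k) (σ • x) = σ • ((evalJac N S N P) ^ k) x := by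
  induction k generalizing x with
  | zero => simp
  | succ k ih =>
    rw [pow_succ, Module.End.mul_apply, Module.End.mul_apply, rnk_gal_evalJac J, ih]

/-- Hecke polynomials commute (pointwise form, with a power) -/
theorem rnk_evalJac_pow_comm (P Q : HPoly N S) (k : ℕ) (x : JZero N) :
    ((evalJac N S N P) ^ k) (evalJac N S N Q x) = evalJac N S N Q (((evalJac N S N P) ^ k) x) := by
  have h := ((thp_commute (N := N) (S := S) P Q).pow_left k).eq
  have h2 := congrArg (fun f : Module.End ℤ (JZero N) => f x) h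
  simpa only [Module.End.mul_apply] using h2

/-- the `θ'`-part is Galois-stable -/
theorem rnkV_gal (J : JacInput N p) (n : ℕ) (θ' : HPoly N S →+* κ) (σ : GQ) (x : JZero N)
    (hx : x ∈ rnkV N p n θ') : σ • x ∈ rnkV N p n θ' := by
  refine ⟨al_torsion_gal σ n x hx.1, fun P hP => ?_⟩
  obtain ⟨k, hk⟩ := hx.2 P hP
  exact ⟨k, by rw [rnk_gal_evalJac_pow J, hk]; exact map_zero (DistribSMul.toAddMonoidHom (JZero N) σ)⟩

/-- the `θ'`-part is Hecke-stable -/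
theorem rnkV_hecke (n : ℕ) (θ' : HPoly N S →+* κ) (Q : HPoly N S) (x : JZero N)
    (hx : x ∈ rnkV N p n θ') : evalJac N S N Q x ∈ rnkV N p n θ' := by
  refine ⟨thp_torsion Q n x hx.1, fun P hP => ?_⟩
  obtain ⟨k, hk⟩ := hx.2 P hP
  exact ⟨k, by rw [rnk_evalJac_pow_comm, hk, map_zero]⟩

/-- the integer lift of the mod `pⁿ` cyclotomic character -/
noncomputable def rnkEps (p : ℕ) [Fact p.Prime] (n : ℕ) (g : GQ) : ℤ :=
  ((((cycChi p n g : (ZMod (p ^ n))ˣ) : ZMod (p ^ n)).val : ℕ) : ℤ)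

theorem rnkEps_cast [Fact p.Prime] (n : ℕ) (g : GQ) :
    ((rnkEps p n g : ℤ) : ZMod (p ^ n)) = ((cycChi p n g : (ZMod (p ^ n))ˣ) : ZMod (p ^ n)) := by
  have hp : p.Prime := Fact.out
  have : NeZero (p ^ n) := ⟨pow_ne_zero _ hp.ne_zero⟩
  unfold rnkEps
  rw [Int.cast_natCast, ZMod.natCast_val, ZMod.cast_id', id]

theorem rnkEps_mul [Fact p.Prime] (n : ℕ) (g h : GQ) :
    rnkEps p n (g * h) ≡ rnkEps p n g * rnkEps p n h [ZMOD ((p ^ n : ℕ) : ℤ)] := by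
  rw [← ZMod.intCast_eq_intCast_iff]
  push_cast
  rw [rnkEps_cast, rnkEps_cast, rnkEps_cast, map_mul, Units.val_mul]

theorem rnkEps_coprime [Fact p.Prime] (n : ℕ) (hn : n ≠ 0) (g : GQ) :
    IsCoprime (rnkEps p n g) (p : ℤ) := by
  have hp : p.Prime := Fact.out
  unfold rnkEps
  rw [Nat.isCoprime_iff_coprime]
  have h := ZMod.val_coe_unit_coprime (cycChi p n g)
  exact (Nat.coprime_pow_right_iff (Nat.pos_of_ne_zero hn) _ _).mp h

/-- if `τ` moves `μ_p`, then `χₙ(τ) - 1` is prime to `p` -/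
theorem rnkEps_sub_one_coprime [Fact p.Prime] (n : ℕ) (hn : n ≠ 0) (τ : GQ)
    (hτ : S33hMoves p τ) : IsCoprime (rnkEps p n τ - 1) (p : ℤ) := by
  have hp : p.Prime := Fact.out
  obtain ⟨ζ, hζ, hne⟩ := hτ
  have hζn : ζ ^ p ^ n = 1 := by
    obtain ⟨m, rfl⟩ := Nat.exists_eq_succ_of_ne_zero hn
    rw [pow_succ', pow_mul, hζ, one_pow]
  have hspec := cysp_spec p n τ ζ hζn
  set v := ((cycChi p n τ : (ZMod (p ^ n))ˣ) : ZMod (p ^ n)).val with hv
  have hndvd : ¬ (p : ℤ) ∣ (v : ℤ) - 1 := by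
    intro hd
    apply hne
    rw [hspec]
    -- `ζ ^ v = ζ`
    have hv1 : 1 ≤ v := by
      rcases Nat.eq_zero_or_pos v with h0 | h0
      · exfalso
        rw [h0] at hd
        have : (p : ℤ) ∣ 1 := by
          have := (dvd_neg (a := (p : ℤ)) (b := ((0 : ℕ) : ℤ) - 1)).mpr hd
          simpa using this
        have h1 := Int.natAbs_dvd_natAbs.mpr this
        simp at h1
        exact hp.one_lt.ne' h1
      · exact h0
    have hd' : p ∣ v - 1 := by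
      have : ((v - 1 : ℕ) : ℤ) = (v : ℤ) - 1 := by
        rw [Nat.cast_sub hv1, Nat.cast_one]
      rw [← this] at hd
      exact Int.natCast_dvd_natCast.mp hd
    obtain ⟨m, hm⟩ := hd'
    have hvm : v = 1 + p * m := by omega
    rw [hvm, pow_add, pow_one, pow_mul, hζ, one_pow, mul_one]
  have hcop : IsCoprime (p : ℤ) ((v : ℤ) - 1) :=
    (Prime.coprime_iff_not_dvd (Nat.prime_iff_prime_int.mp hp)).mpr hndvd
  exact hcop.symm

/-- **(Q)**: on `J₀(N)[pⁿ]`, `g + χₙ(g) g⁻¹` is a Hecke polynomial -/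
theorem rnk_dict [Fact p.Prime] (hcheb : WeakCheb) (J : JacInput N p) (hpS : p ∈ S)
    (hNS : ∀ q : ℕ, q.Prime → q ∣ N → q ∈ S) (n : ℕ) (g : GQ) :
    ∃ P : HPoly N S, ∀ x : JZero N, p ^ n • x = 0 →
      evalJac N S N P x = g • x + rnkEps p n g • g⁻¹ • x := by
  have hp : p.Prime := Fact.out
  obtain ⟨LJ, hLJfin, hLJ⟩ := exists_level_torsion J n
  obtain ⟨Lχ, hLχfin, hLχ⟩ := s33r_cyc_level p n
  have hLfin : FiniteDimensional ℚ (LJ ⊔ Lχ : IntermediateField ℚ (AlgebraicClosure ℚ)) :=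
    inferInstance
  have hLJle : LJ ≤ LJ ⊔ Lχ := le_sup_left
  have hLχle : Lχ ≤ LJ ⊔ Lχ := le_sup_right
  obtain ⟨ℓ, A, σ, -, k, hℓ, hℓS, hA, hσ, -, hgσ⟩ := hcheb _ hLfin S g
  have hℓN : ¬ ℓ ∣ N := fun h => hℓS (hNS ℓ hℓ h)
  have hℓp : ℓ ≠ p := fun h => hℓS (h ▸ hpS)
  have hℓNp : ¬ ℓ ∣ N * p := fun h =>
    (hℓ.dvd_mul.mp h).elim hℓN fun h' => hℓp ((Nat.prime_dvd_prime_iff_eq hℓ hp).mp h')
  have hu : ∀ x ∈ (LJ ⊔ Lχ : IntermediateField ℚ (AlgebraicClosure ℚ)),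
      ((σ ^ k)⁻¹ * g) x = x := asm_fix _ g (σ ^ k) hgσ
  have hgu : σ ^ k * ((σ ^ k)⁻¹ * g) = g := mul_inv_cancel_left _ _
  have hχu : cycChi p n ((σ ^ k)⁻¹ * g) = 1 := hLχ _ fun a ha => hu a (hLχle ha)
  have hχg : cycChi p n g = cycChi p n σ ^ k := by
    conv_lhs => rw [← hgu]
    rw [map_mul, hχu, mul_one, map_pow]
  have hcong : (((ℓ : ℤ) ^ k : ℤ) : ZMod (p ^ n))
      = ((cycChi p n g : (ZMod (p ^ n))ˣ) : ZMod (p ^ n)) := by
    rw [hχg, Units.val_pow_eq_pow_val, s33r_cyc_frob p n ℓ hℓ hℓp A hA σ hσ]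
    push_cast
    rfl
  have hcongZ : ((ℓ : ℤ) ^ k) ≡ rnkEps p n g [ZMOD ((p ^ n : ℕ) : ℤ)] := by
    rw [← ZMod.intCast_eq_intCast_iff, hcong, rnkEps_cast]
  refine ⟨frobPoly N S ⟨⟨ℓ, hℓ⟩, hℓN, hℓS⟩ k, ?_⟩
  intro x hx
  have hJu := hLJ _ fun a ha => hu a (hLJle ha)
  have hsm := asm_smul_eq (N := N) n _ (σ ^ k) hJu x hx
  rw [hgu] at hsm
  have hfp : evalJac N S N (frobPoly N S ⟨⟨ℓ, hℓ⟩, hℓN, hℓS⟩ k) = _ :=
    s33r_evalJ_frobPoly N S N ⟨⟨ℓ, hℓ⟩, hℓN, hℓS⟩ k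
  rw [hfp]
  have q := powTr_heckeBar_apply J ℓ hℓ hℓNp A hA σ hσ k x ⟨n, hx⟩
  rw [q, ← hsm.1, ← hsm.2]
  congr 1
  exact rkt_zsmul_congr p n _ _ hcongZ _ (al_torsion_gal g⁻¹ n x hx)

/-- `J₀(N)[pⁿ]` is a finite set -/
theorem rnk_finite (J : JacInput N p) (hp : p.Prime) (n : ℕ) (θ' : HPoly N S →+* κ) :
    (rnkV N p n θ' : Set (JZero N)).Finite := by
  have h := thp_finite J hp n
  have h1 : ({x : JZero N | p ^ n • x = 0}).Finite := Set.finite_coe_iff.mp h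
  exact h1.subset fun x hx => hx.1

/-- **the socle step**: a nonzero subgroup of the `θ'`-part of `J₀(N)[pⁿ]`, stable under Galois and
Hecke, contains a nonzero Galois-stable subgroup killed by the kernel of `θ'`. -/
theorem rnk_socle (J : JacInput N p) (hp : p.Prime) (n : ℕ) (θ' : HPoly N S →+* κ) :
    ∀ (m : ℕ) (X : AddSubgroup (JZero N)), (X : Set (JZero N)).ncard = m →
      X ≤ rnkV N p n θ' → X ≠ ⊥ →
      (∀ σ : GQ, ∀ x ∈ X, σ • x ∈ X) → (∀ Q : HPoly N S, ∀ x ∈ X, evalJac N S N Q x ∈ X) →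
      ∃ X' : AddSubgroup (JZero N), X' ≤ X ∧ X' ≠ ⊥ ∧ (∀ σ : GQ, ∀ x ∈ X', σ • x ∈ X') ∧
        ∀ x ∈ X', ∀ P : HPoly N S, θ' P = 0 → evalJac N S N P x = 0 := by
  classical
  intro m
  induction m using Nat.strong_induction_on with
  | _ m ih =>
    intro X hm hXV hX0 hXG hXH
    by_cases hall : ∀ x ∈ X, ∀ P : HPoly N S, θ' P = 0 → evalJac N S N P x = 0
    · exact ⟨X, le_rfl, hX0, hXG, hall⟩
    · push_neg at hall
      obtain ⟨x₀, hx₀, P, hP, hPx⟩ := hall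
      let X₁ : AddSubgroup (JZero N) := X ⊓ (evalJac N S N P).toAddMonoidHom.ker
      have hmem₁ : ∀ y, y ∈ X₁ ↔ y ∈ X ∧ evalJac N S N P y = 0 := fun y => Iff.rfl
      have hX₁le : X₁ ≤ X := inf_le_left
      have hXfin : (X : Set (JZero N)).Finite := (rnk_finite J hp n θ').subset hXV
      have hlt : (X₁ : Set (JZero N)).ncard < m := by
        rw [← hm]
        apply Set.ncard_lt_ncard _ hXfin
        refine ⟨hX₁le, fun h => ?_⟩
        exact hPx ((hmem₁ x₀).1 (h hx₀)).2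
      have hX₁0 : X₁ ≠ ⊥ := by
        obtain ⟨k, hk⟩ := (hXV hx₀).2 P hP
        have hex : ∃ k, ((evalJac N S N P) ^ k) x₀ = 0 := ⟨k, hk⟩
        have hpos : Nat.find hex ≠ 0 := by
          intro h0
          have := Nat.find_spec hex
          rw [h0, pow_zero, Module.End.one_apply] at this
          exact hPx (by rw [this, map_zero])
        obtain ⟨j, hj⟩ := Nat.exists_eq_succ_of_ne_zero hpos
        have hy0 : ((evalJac N S N P) ^ j) x₀ ≠ 0 := fun h => by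
          have := Nat.find_min' hex h
          omega
        have hy1 : evalJac N S N P (((evalJac N S N P) ^ j) x₀) = 0 := by
          have := Nat.find_spec hex
          rw [hj, Nat.succ_eq_add_one, pow_succ', Module.End.mul_apply] at this
          exact this
        have hyX : ((evalJac N S N P) ^ j) x₀ ∈ X := by
          have : ((evalJac N S N P) ^ j) x₀ = evalJac N S N (P ^ j) x₀ := by rw [map_pow]
          rw [this]
          exact hXH _ _ hx₀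
        intro hbot
        apply hy0
        have : ((evalJac N S N P) ^ j) x₀ ∈ X₁ := (hmem₁ _).2 ⟨hyX, hy1⟩
        rw [hbot] at this
        exact AddSubgroup.mem_bot.mp this
      have hX₁G : ∀ σ : GQ, ∀ x ∈ X₁, σ • x ∈ X₁ := by
        intro σ x hx
        refine (hmem₁ _).2 ⟨hXG σ x hx.1, ?_⟩
        rw [rnk_gal_evalJac J, ((hmem₁ x).1 hx).2]
        exact map_zero (DistribSMul.toAddMonoidHom (JZero N) σ)
      have hX₁H : ∀ Q : HPoly N S, ∀ x ∈ X₁, evalJac N S N Q x ∈ X₁ := by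
        intro Q x hx
        refine (hmem₁ _).2 ⟨hXH Q x hx.1, ?_⟩
        have := rnk_evalJac_pow_comm P Q 1 x
        rw [pow_one] at this
        rw [this, ((hmem₁ x).1 hx).2, map_zero]
      obtain ⟨X', hX'le, hX'0, hX'G, hX'k⟩ :=
        ih _ hlt X₁ rfl (hX₁le.trans hXV) hX₁0 hX₁G hX₁H
      exact ⟨X', hX'le.trans hX₁le, hX'0, hX'G, hX'k⟩

/-- **(RES1)** from `S33FixJ` -/
theorem rnk_res (J : JacInput N p) (hp : p.Prime) (n : ℕ) (θ' : HPoly N S →+* κ)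
    (hfix : S33FixJ N p θ') (B : ValuationSubring (AlgebraicClosure ℚ))
    (hB : B.LiesOverPrime p) (τ₀ : GQ) (hτ₀ : τ₀ ∈ B.inertiaSubgroupIn ℚ)
    (U : AddSubgroup (JZero N)) (hUV : U ≤ rnkV N p n θ') (hU0 : U ≠ ⊥)
    (hUG : ∀ σ : GQ, ∀ x ∈ U, σ • x ∈ U)
    (hUH : ∀ Q : HPoly N S, ∀ x ∈ U, evalJac N S N Q x ∈ U) :
    ∃ z ∈ U, z ≠ 0 ∧ τ₀ • z = z := by
  let U₁ : AddSubgroup (JZero N) := U ⊓ (nsmulAddMonoidHom (α := JZero N) p).ker
  have hmem₁ : ∀ y, y ∈ U₁ ↔ y ∈ U ∧ p • y = 0 := fun y => Iff.rfl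
  have hU₁0 : U₁ ≠ ⊥ := by
    rcases U.bot_or_exists_ne_zero with h | ⟨x, hx, hx0⟩
    · exact absurd h hU0
    · obtain ⟨j, hj0, hjp⟩ := rkt_exists_ptors p n x (hUV hx).1 hx0
      intro hbot
      apply hj0
      have : p ^ j • x ∈ U₁ := (hmem₁ _).2 ⟨U.nsmul_mem hx _, hjp⟩
      rw [hbot] at this
      exact AddSubgroup.mem_bot.mp this
  have hU₁G : ∀ σ : GQ, ∀ x ∈ U₁, σ • x ∈ U₁ := by
    intro σ x hx
    refine (hmem₁ _).2 ⟨hUG σ x hx.1, ?_⟩
    have h := al_torsion_gal σ 1 x (by rw [pow_one]; exact ((hmem₁ x).1 hx).2)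
    rwa [pow_one] at h
  have hU₁H : ∀ Q : HPoly N S, ∀ x ∈ U₁, evalJac N S N Q x ∈ U₁ := by
    intro Q x hx
    refine (hmem₁ _).2 ⟨hUH Q x hx.1, ?_⟩
    have h := thp_torsion (p := p) Q 1 x (by rw [pow_one]; exact ((hmem₁ x).1 hx).2)
    rwa [pow_one] at h
  obtain ⟨X', hX'le, hX'0, hX'G, hX'k⟩ :=
    rnk_socle J hp n θ' _ U₁ rfl (inf_le_left.trans hUV) hU₁0 hU₁G hU₁H
  obtain ⟨z, hz, hz0, hzfix⟩ := hfix B hB τ₀ hτ₀ X' hX'0
    (fun x hx => ⟨((hmem₁ x).1 (hX'le hx)).2, hX'k x hx⟩) hX'G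
  exact ⟨z, (hX'le hz).1, hz0, hzfix⟩

/-- **RANK**: `S33Geom N p θ' ⇒ S33OrdJ N p S θ'` (with `S33FixJ`, the input from `hres`). -/
theorem rnk_main [Fact p.Prime] (hp2 : p ≠ 2) (hcheb : WeakCheb) (J : JacInput N p)
    (hpS : p ∈ S) (hNS : ∀ q : ℕ, q.Prime → q ∣ N → q ∈ S) (θ' : HPoly N S →+* κ)
    (hfix : S33FixJ N p θ') (hgeom : S33Geom N p θ') : S33OrdJ N p S θ' := by
  have hp : p.Prime := Fact.out
  intro B hB τ hτ τ' hτ' n x hx hpart
  rcases Nat.eq_zero_or_pos n with hn | hn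
  · subst hn
    rw [pow_zero, one_smul] at hx
    subst hx
    have h0 : τ' • (0 : JZero N) = 0 := map_zero (DistribSMul.toAddMonoidHom (JZero N) τ')
    rw [h0, sub_zero, nsmul_zero]
    exact map_zero (DistribSMul.toAddMonoidHom (JZero N) τ)
  obtain ⟨τ₀, hτ₀, hmoves, -⟩ := cysp_exists_moves p hp2 B hB
  have key := rkt_main (V := JZero N) (G := GQ) p n (rnkV N p n θ')
    (fun x hx => hx.1) (fun g x hx => rnkV_gal J n θ' g x hx)
    (Set.range fun Q : HPoly N S => (evalJac N S N Q).toAddMonoidHom)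
    (by rintro T ⟨Q, rfl⟩ g x; exact rnk_gal_evalJac J g Q x)
    (by rintro T ⟨Q, rfl⟩ x hx; exact rnkV_hecke n θ' Q x hx)
    (B.inertiaSubgroupIn ℚ) τ₀ hτ₀ (rnkEps p n)
    (fun g _ h _ => rnkEps_mul n g h) (rnkEps_coprime n hn.ne' τ₀)
    (rnkEps_sub_one_coprime n hn.ne' τ₀ hmoves)
    (by
      intro τ _ σ x hx
      obtain ⟨P, hP⟩ := rnk_dict hcheb J hpS hNS n τ
      have h1 := hP x hx.1
      have h2 := hP (σ • x) (al_torsion_gal σ n x hx.1)
      have h3 := rnk_gal_evalJac J σ P x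
      rw [h1, h2] at h3
      exact h3.symm)
    (s33hKI N p B)
    (fun τ hτ x hx => AddSubgroup.subset_closure ⟨τ, hτ, x, ⟨n, hx.1⟩, rfl⟩)
    (fun x hxW hxV hpx hfx => hgeom B hB x hpx hxV.2 hxW τ₀ hτ₀ hmoves hfx)
    (fun U hUV hU0 hUG hUH => rnk_res J hp n θ' hfix B hB τ₀ hτ₀ U hUV hU0 hUG
      (fun Q x hx => hUH _ ⟨Q, rfl⟩ x hx))
  have h := key τ hτ τ' hτ' x ⟨hx, hpart⟩
  rw [h]
  unfold rnkEps
  rw [natCast_zsmul]

end Rank

end Fermat.Agent.S33lib
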