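/-
Item 86 (S33), block A3 (helper7): `hres ⇒ S33FixJ M p θ'` (the input of RANK, helper25).

Every nonzero Galois-stable subgroup of `J₀(M)[p]` killed by the kernel of `θ'` contains a nonzero
class fixed by a given inertia element `τ₀` at `p`.
-/
import Mathlib
import Fermat.Agent.S33lib.ResHub
import Fermat.Agent.S33lib.RankDefs

set_option autoImplicit false
set_option linter.unusedSectionVars false

open scoped TensorProduct
open Polynomial

namespace Fermat.Agent.S33lib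

open Fermat.Agent.GalRep ModularCurve Fermat.Agent.S31lib Fermat.Agent.S34lib
  Fermat.Agent.S35lib IsLocalRing

section FixJ

variable {p : ℕ} {N : ℕ} [NeZero N] {S : Finset ℕ}
  {𝒪 : Type} [CommRing 𝒪] [IsDomain 𝒪] [IsDiscreteValuationRing 𝒪]
  [IsAdicComplete (IsLocalRing.maximalIdeal 𝒪) 𝒪]
  {θ : CuspForm.heckeAlgebra N 2 (↑S : Set ℕ) →+* IsLocalRing.ResidueField 𝒪}
  {T : Type} [CommRing T] [IsLocalRing T] [IsNoetherianRing T]
  [IsAdicComplete (IsLocalRing.maximalIdeal T) T] [Algebra 𝒪 T] [IsLocalHom (algebraMap 𝒪 T)]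
  [Module.Finite 𝒪 T] [Module.Free 𝒪 T]

/-- **A3'**: `hres ⇒ S33FixJ M p θ'` -/
theorem s33w_fixJ [Fact p.Prime] [Finite (ResidueField 𝒪)] (hp2 : p ≠ 2)
    (hp𝒪 : (p : 𝒪) ∈ IsLocalRing.maximalIdeal 𝒪) (hpN : p ∣ N)
    (hNS : ∀ q : ℕ, q.Prime → q ∣ N → q ∈ S)
    (H : CuspForm.HeckeGaloisRepDatum N (↑S : Set ℕ) 𝒪 θ T)
    (hres : (GaloisRepAdic.ofResidualGaloisRep H.ρ.residual).IsOrdinaryAt p)
    (hcheb : WeakCheb) {M : ℕ} [NeZero M] (hM : M ∣ N) (J' : JacInput M p)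
    {κ : Type*} [Semiring κ] (θ' : HPoly N S →+* κ)
    (hθ' : ∀ P : HPoly N S, θ (evalForms N S P) = 0 → θ' P = 0) :
    S33FixJ M p θ' := by
  intro B hB τ₀ hτ₀ U hU0 hU hUG
  have hU0' : AddSubgroup.toIntSubmodule U ≠ ⊥ := by
    intro h
    apply hU0
    rw [eq_bot_iff]
    intro x hx
    have : x ∈ AddSubgroup.toIntSubmodule U := hx
    rw [h] at this
    exact this
  by_cases hw : s33W p τ₀ = 1
  · -- `τ₀` is unipotent on `U`
    obtain ⟨x, hx, hx0⟩ := (Submodule.ne_bot_iff _).mp hU0'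
    have h1 := s33w_O1U hp2 hp𝒪 hpN hNS H hres hcheb hM J'
      (AddSubgroup.toIntSubmodule U) (fun σ x hx => hUG σ x hx) (fun x hx => (hU x hx).1)
      (fun P hP x hx => (hU x hx).2 P (hθ' P hP)) B hB τ₀ τ₀ hτ₀ hτ₀ x hx
    rw [hw, one_smul] at h1
    by_cases hz : τ₀ • x - x = 0
    · exact ⟨x, hx, hx0, sub_eq_zero.mp hz⟩
    · exact ⟨τ₀ • x - x, U.sub_mem (hUG τ₀ x hx) hx, hz, h1⟩
  · obtain ⟨z, hz, hz0, hzτ⟩ := s33w_exists_fixed hp2 hp𝒪 hpN hNS H hres hcheb hM J'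
      (AddSubgroup.toIntSubmodule U) (fun σ x hx => hUG σ x hx) (fun x hx => (hU x hx).1)
      (fun P hP x hx => (hU x hx).2 P (hθ' P hP)) B hB hU0' τ₀ hτ₀ hw
    exact ⟨z, hz, hz0, hzτ⟩

end FixJ

end Fermat.Agent.S33lib
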