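import Mathlib
import Fermat.Agent.S33lib.Rank
import Fermat.Agent.S33lib.ResFixJ
import Fermat.Agent.S33lib.Final2

/-!
# Item 86 (S33), piece A4 = RANK (helper25): the RANK step in the shape of `s33f_main`

* `rnkf_rank`: with the hypotheses of the frozen statement S33,
  `S33Geom N p (s33fTheta θ) → S33OrdJ N p S (s33fTheta θ)`
  (`rnk_main` + `s33w_fixJ` + weak Chebotarev + the `JacInput` from S37).
* `rnkf_main`: S33 from the two geometric inputs (G1) (good level) and (TOR_p) alone.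
-/

set_option autoImplicit false

noncomputable section

namespace Fermat.Agent.S33lib

open Fermat.Agent.GalRep ModularCurve Fermat.Agent.S31lib Fermat.Agent.S35lib IsLocalRing

section

variable {p : ℕ} {N : ℕ} [NeZero N] {S : Finset ℕ}
  {𝒪 : Type} [CommRing 𝒪] [IsDomain 𝒪] [IsDiscreteValuationRing 𝒪]
  [IsAdicComplete (IsLocalRing.maximalIdeal 𝒪) 𝒪]
  {θ : CuspForm.heckeAlgebra N 2 (↑S : Set ℕ) →+* IsLocalRing.ResidueField 𝒪}
  {T : Type} [CommRing T] [IsLocalRing T] [IsNoetherianRing T]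
  [IsAdicComplete (IsLocalRing.maximalIdeal T) T] [Algebra 𝒪 T] [IsLocalHom (algebraMap 𝒪 T)]
  [Module.Finite 𝒪 T] [Module.Free 𝒪 T]

/-- **the RANK step** for the hypotheses of S33: `S33Geom ⇒ S33OrdJ`. -/
theorem rnkf_rank [Finite (IsLocalRing.ResidueField 𝒪)]
    (hp : p.Prime) (hp2 : p ≠ 2)
    (hp𝒪 : (p : 𝒪) ∈ IsLocalRing.maximalIdeal 𝒪) (hpN : p ∣ N)
    (hNS : ∀ q : ℕ, q.Prime → q ∣ N → q ∈ S)
    (H : CuspForm.HeckeGaloisRepDatum N (↑S : Set ℕ) 𝒪 θ T)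
    (hres : (GaloisRepAdic.ofResidualGaloisRep H.ρ.residual).IsOrdinaryAt p) :
    haveI : Fact p.Prime := ⟨hp⟩;
    S33Geom N p (s33fTheta θ) → S33OrdJ N p S (s33fTheta θ) := by
  haveI : Fact p.Prime := ⟨hp⟩
  intro hgeom
  have hpS : p ∈ S := hNS p hp hpN
  obtain ⟨J, -⟩ := exists_jacInput_faithEmb
    (fun N' p' _ hcomm => Fermat.Agent.S37.result N' p' hcomm) N p
  exact rnk_main hp2 weakCheb J hpS hNS (s33fTheta θ)
    (s33w_fixJ hp2 hp𝒪 hpN hNS H hres weakCheb (dvd_refl N) J (s33fTheta θ)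
      (fun P hP => hP)) hgeom

/-- **S33 from the two geometric inputs** (G1) and (TOR_p). -/
theorem rnkf_main [Finite (IsLocalRing.ResidueField 𝒪)]
    (hp : p.Prime) (hp2 : p ≠ 2)
    (hp𝒪 : (p : 𝒪) ∈ IsLocalRing.maximalIdeal 𝒪) (hN : p ∣ N ∧ ¬ p ^ 2 ∣ N)
    (hNS : ∀ q : ℕ, q.Prime → q ∣ N → q ∈ S)
    (H : CuspForm.HeckeGaloisRepDatum N (↑S : Set ℕ) 𝒪 θ T)
    (hres : (GaloisRepAdic.ofResidualGaloisRep H.ρ.residual).IsOrdinaryAt p)
    (hGood : haveI : Fact p.Prime := ⟨hp⟩;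
      ∀ (M' : ℕ) [NeZero M'] [NeZero (M' * p)]
        (θ'' : HPoly (M' * p) S →+* IsLocalRing.ResidueField 𝒪),
        ¬ p ∣ M' → S33ResJ M' p θ'' → S33Geom M' p θ'')
    (hTor : ∀ (M' : ℕ) [NeZero M'] [NeZero p] [NeZero (M' * p)], ¬ p ∣ M' → S33TorP M' p) :
    H.ρ.IsOrdinaryAt p :=
  s33f_main hp hp2 hp𝒪 hN hNS H hres (rnkf_rank hp hp2 hp𝒪 hN.1 hNS H hres) hGood hTor

end

end Fermat.Agent.S33lib
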