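/-
Item 86 (S33), block TOR_p, piece P-B (helper12): DISC for the SECOND valuation over a general
field of invariants.  Complete proofs.

`A` a valuation subring of `ℚ̄`, `H` a set of automorphisms of `ℚ̄` with field of invariants
`K' ⊇ K0`, discretely valued by `A` with uniformiser `ϖ` (`VdDisc A K' ϖ`, `LevVal.lean`),
`R` a series reduction of `FF N`, `q ‖ N`, `w = w_q` the Atkin–Lehner involution.

* `dsp_fixed_atkinLehnerFF` : `w_q` preserves the `H`-fixed functions;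
* `dsp_disc_zero` : DISC of `(inredZero N q hq hqN hq2 R).O` (the second Gauss valuation
  `v₀ = v_∞ ∘ w_q`) on the `H`-fixed functions, uniformiser `ϖ`;
* `dsp_disc_glmZero` : the same for `glmZero M' q hq hqM R` (level `M' q`);
* `dsp_disc_pair` : `hdisc₁` and `hdisc₂` of `tbc_inputs` / `rss_core_const` at once.
-/
import Mathlib
import Fermat.Agent.S33lib.LevDisc
import Fermat.Agent.S34lib.InertiaRedAL
import Fermat.Agent.S34lib.GlueMod

set_option autoImplicit false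
set_option linter.unusedSectionVars false
set_option linter.unusedVariables false
set_option linter.style.haveILetI false
set_option synthInstance.maxHeartbeats 400000

noncomputable section

namespace Fermat.Agent.S33lib

open ModularCurve HahnSeries AlgebraicCurve IntermediateField
open Fermat.Agent.GoodRed Fermat.Agent.S24lib Fermat.Agent.S34lib Fermat.Agent.S36lib
  Fermat.Agent.AJlib

variable {A : ValuationSubring Kbar} {H : Set (Kbar ≃ₐ[ℚ] Kbar)}
  {K' : IntermediateField ℚ Kbar} {ϖ : Kbar}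

section Zero

variable {N : ℕ} [NeZero N]

/-- the Atkin–Lehner involution `w_q` preserves the `H`-fixed functions -/
theorem dsp_fixed_atkinLehnerFF (q : ℕ) (hq : q.Prime) (hqN : q ∣ N) (hq2 : ¬ q ^ 2 ∣ N)
    {x : FF N} (hx : x ∈ fixedLBC H (modularFunctionFieldFull N)) :
    atkinLehnerFF N q hq hqN hq2 x ∈ fixedLBC H (modularFunctionFieldFull N) := by
  intro σ hσ
  have h := inred_al_comm N q hq hqN hq2 σ x
  have hx' : galFF N σ • x = x := hx σ hσ
  rw [hx'] at h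
  exact h.symm

/-- **DISC at the second valuation** `v₀ = v_∞ ∘ w_q`, on the `H`-fixed functions, with the
uniformiser `ϖ` of `K' = ℚ̄^H` -/
theorem dsp_disc_zero (hK' : ∀ c : Kbar, c ∈ K' ↔ ∀ σ ∈ H, σ c = c) (hK0 : k0Field A ≤ K')
    (hd : VdDisc A K'.toSubfield ϖ)
    {Fk : IntermediateField (IsLocalRing.ResidueField A)
      (LaurentSeries (IsLocalRing.ResidueField A))}
    {R : ConstRed A (IsLocalRing.residue A) (↥Fk) (FF N)} (hR : IsSeriesRed R)
    (q : ℕ) (hq : q.Prime) (hqN : q ∣ N) (hq2 : ¬ q ^ 2 ∣ N) :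
    ∀ f ∈ fixedLBC H (modularFunctionFieldFull N), f ≠ 0 → ∃ n : ℤ,
      algebraMap Kbar (FF N) (ϖ ^ n) * f ∈ (inredZero N q hq hqN hq2 R).O ∧
        (algebraMap Kbar (FF N) (ϖ ^ n) * f)⁻¹ ∈ (inredZero N q hq hqN hq2 R).O :=
  fun f hf hf0 =>
    lvd_disc_comap hK' hK0 hd hR (atkinLehnerFF N q hq hqN hq2)
      (fun x hx => dsp_fixed_atkinLehnerFF q hq hqN hq2 hx) hf hf0

/-- **DISC at the first valuation**, in the same shape (`= lvd_disc`) -/
theorem dsp_disc_inf (hK' : ∀ c : Kbar, c ∈ K' ↔ ∀ σ ∈ H, σ c = c) (hK0 : k0Field A ≤ K')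
    (hd : VdDisc A K'.toSubfield ϖ)
    {Fk : IntermediateField (IsLocalRing.ResidueField A)
      (LaurentSeries (IsLocalRing.ResidueField A))}
    {R : ConstRed A (IsLocalRing.residue A) (↥Fk) (FF N)} (hR : IsSeriesRed R) :
    ∀ f ∈ fixedLBC H (modularFunctionFieldFull N), f ≠ 0 → ∃ n : ℤ,
      algebraMap Kbar (FF N) (ϖ ^ n) * f ∈ R.O ∧
        (algebraMap Kbar (FF N) (ϖ ^ n) * f)⁻¹ ∈ R.O :=
  fun f hf hf0 => lvd_disc hK' hK0 hd hR hf hf0

end Zero

section Glm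

variable (M' : ℕ) [NeZero M'] {q : ℕ} [NeZero q] [NeZero (M' * q)]

/-- **DISC for `glmZero M' q hq hqM R`** (the second valuation at the level `M' q`, `q ∤ M'`),
on the `H`-fixed functions -/
theorem dsp_disc_glmZero (hK' : ∀ c : Kbar, c ∈ K' ↔ ∀ σ ∈ H, σ c = c) (hK0 : k0Field A ≤ K')
    (hd : VdDisc A K'.toSubfield ϖ) (hq : q.Prime) (hqM : ¬ q ∣ M')
    {R : ConstRed A (IsLocalRing.residue A)
      (↥(modularFunctionFieldFullC (IsLocalRing.ResidueField A) M')) (FF (M' * q))}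
    (hR : IsSeriesRed R) :
    ∀ f ∈ fixedLBC H (modularFunctionFieldFull (M' * q)), f ≠ 0 → ∃ n : ℤ,
      algebraMap Kbar (FF (M' * q)) (ϖ ^ n) * f ∈ (glmZero M' q hq hqM R).O ∧
        (algebraMap Kbar (FF (M' * q)) (ϖ ^ n) * f)⁻¹ ∈ (glmZero M' q hq hqM R).O :=
  dsp_disc_zero hK' hK0 hd hR q hq (dvd_mul_left q M') (inf_not_sq_dvd M' q hq hqM)

/-- **DISC for the pair** `(R, glmZero M' q hq hqM R)`: the hypotheses `hdisc₁`, `hdisc₂` of
`tbc_inputs` and of `rss_core_const` -/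
theorem dsp_disc_pair (hK' : ∀ c : Kbar, c ∈ K' ↔ ∀ σ ∈ H, σ c = c) (hK0 : k0Field A ≤ K')
    (hd : VdDisc A K'.toSubfield ϖ) (hq : q.Prime) (hqM : ¬ q ∣ M')
    {R : ConstRed A (IsLocalRing.residue A)
      (↥(modularFunctionFieldFullC (IsLocalRing.ResidueField A) M')) (FF (M' * q))}
    (hR : IsSeriesRed R) :
    (∀ f ∈ fixedLBC H (modularFunctionFieldFull (M' * q)), f ≠ 0 → ∃ n : ℤ,
      algebraMap Kbar (FF (M' * q)) (ϖ ^ n) * f ∈ R.O ∧
        (algebraMap Kbar (FF (M' * q)) (ϖ ^ n) * f)⁻¹ ∈ R.O) ∧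
    (∀ f ∈ fixedLBC H (modularFunctionFieldFull (M' * q)), f ≠ 0 → ∃ n : ℤ,
      algebraMap Kbar (FF (M' * q)) (ϖ ^ n) * f ∈ (glmZero M' q hq hqM R).O ∧
        (algebraMap Kbar (FF (M' * q)) (ϖ ^ n) * f)⁻¹ ∈ (glmZero M' q hq hqM R).O) :=
  ⟨dsp_disc_inf hK' hK0 hd hR, dsp_disc_glmZero M' hK' hK0 hd hq hqM hR⟩

end Glm

end Fermat.Agent.S33lib

end
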