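/-
Item 86 (S33), piece R3 (variant for several components): `cxp_crux_mem` = `cxp_crux`
(S33lib/CruxP.lean) with WEAKER hypotheses (helper8).  Complete proofs.

In `cxp_crux` the hypotheses (H6), (H7) are asked for all elements of `R`.  On a fibre with two
components (`R = κ_∞ × κ_0`) (H7) fails for the non-diagonal constants (the toric classes).
Here (H6), (H7) are asked only for REDUCTIONS OF ELEMENTS of `(K + V_i) ∩ O`, resp.
`(K + V₁ + V₂) ∩ O` (which are glued at the nodes when the divisors are in good position):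
* (H6) `red h = (red t)^p + β red t + κ`, `h ∈ W_i ∩ O`, `t ∈ (K + V_i) ∩ O` ⟹ `red t ∈ red V_i`;
* (H7) `z ∈ (K + V₁ + V₂) ∩ O`, `(red z)^p + β red z = κ` ⟹ `red z ∈ red V₁ - red V₂`.
`cxp_decomp_mem` is `cxp_decomp` with the position of `t` (`t ∈ K + K s`).
-/
import Mathlib
import Fermat.Agent.S33lib.CruxP

set_option autoImplicit false
set_option linter.unusedVariables false
set_option linter.unusedSectionVars false
set_option linter.style.haveILetI false

noncomputable section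

namespace Fermat.Agent.S33lib

open Fermat.Agent.S34lib

variable {K F k : Type*} [Field K] [Field F] [Algebra K F] [Field k]
variable {R : Type*} [CommRing R] [Algebra k R]
variable {A : ValuationSubring K} {π : A →+* k} (S : SSRed A π R F)

/-- **decomposition** (with the position of `t`): if `s ∈ O`, `red s = 1` and `s^p = γ + c^p h'` with `p = c^(p-1) b`, then
`red h' = t^p + β t + const` with `t ∈ red O`, `β = π b`. -/
theorem cxp_decomp_mem [Nontrivial R] {p : ℕ} (hp : p.Prime)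
    (h70 : ∀ (z : R) (κ : k), z ^ p = algebraMap k R κ → z ∈ Set.range (algebraMap k R))
    (c b : A) (hc0 : (c : K) ≠ 0) (hπc : π c = 0) (hpb : ((p : ℕ) : A) = c ^ (p - 1) * b)
    (s h' : S.O) (hs : S.red s = 1) (γ : A) (hsp : s ^ p = S.C γ + S.C c ^ p * h') :
    ∃ (t : S.O) (κ : A), (t : F) ∈ Submodule.span K {(1 : F), (s : F)} ∧
      S.red h' = S.red t ^ p + algebraMap k R (π b) * S.red t + algebraMap k R (π κ) := by
  classical
  set U : Submodule K F := Submodule.span K {(1 : F), (s : F)} with hU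
  have h1U : (1 : F) ∈ U := Submodule.subset_span (Set.mem_insert _ _)
  have hsU : (s : F) ∈ U := Submodule.subset_span (Set.mem_insert_of_mem _ rfl)
  haveI : Module.Finite K U := FiniteDimensional.span_of_finite K (Set.toFinite _)
  obtain ⟨n, w, hws, hw⟩ := S.exists_orthonormal U inferInstance
  obtain ⟨o, ho, hored⟩ := S.coords w hw U hws 1 (by simpa using h1U)
  rw [map_one] at hored
  obtain ⟨j₁, hj₁⟩ : ∃ j₁, π (o j₁) ≠ 0 := by
    by_contra hcon
    have hall : ∀ j, π (o j) = 0 := fun j => by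
      by_contra h
      exact hcon ⟨j, h⟩
    rw [Finset.sum_eq_zero (fun j _ => by rw [hall j, zero_smul])] at hored
    exact one_ne_zero hored
  obtain ⟨y, hy, -⟩ := S.coords w hw U hws s hsU
  obtain ⟨oinv, hoinv⟩ := S.exists_inv (o j₁) hj₁
  set lam : A := y j₁ * oinv with hlam
  set z : Fin n → A := fun j => y j - lam * o j with hz
  have hz₁ : z j₁ = 0 := by
    show y j₁ - y j₁ * oinv * o j₁ = 0
    rw [mul_assoc, mul_comm oinv, hoinv, mul_one, sub_self]
  have hfz : ((s : S.O) : F) - algebraMap K F (lam : K) =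
      ∑ j, ((z j : A) : K) • ((w j : S.O) : F) := by
    have h1 : algebraMap K F (lam : K) = ∑ j, ((lam * o j : A) : K) • ((w j : S.O) : F) := by
      have : (1 : F) = ∑ j, ((o j : A) : K) • ((w j : S.O) : F) := by
        rw [← ho]; rfl
      calc algebraMap K F (lam : K) = (lam : K) • (1 : F) := by rw [Algebra.smul_def, mul_one]
        _ = ∑ j, ((lam * o j : A) : K) • ((w j : S.O) : F) := by
          rw [this, Finset.smul_sum]
          refine Finset.sum_congr rfl fun j _ => ?_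
          rw [smul_smul]
          rfl
    rw [hy, h1, ← Finset.sum_sub_distrib]
    refine Finset.sum_congr rfl fun j _ => ?_
    rw [← sub_smul]
    rfl
  have hform : ∀ (e : A) (ζ : Fin n → A), (∀ j, z j = e * ζ j) →
      s = S.C e * S.lsum ζ w + S.C lam := by
    intro e ζ hζ
    apply Subtype.ext
    show (s : F) = algebraMap K F (e : K) * ((S.lsum ζ w : S.O) : F) + algebraMap K F (lam : K)
    rw [S.coe_lsum, Finset.mul_sum, ← sub_eq_iff_eq_add, hfz]
    refine Finset.sum_congr rfl fun j _ => ?_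
    rw [hζ j, ← Algebra.smul_def, smul_smul]
    rfl
  have hp1 : p - 1 ≠ 0 := by
    have := hp.two_le
    omega
  -- KEY: every `z j` is divisible by `c`
  have hkey : ∀ j, A.valuation ((z j : A) : K) ≤ A.valuation (c : K) := by
    by_contra hcon
    rw [not_forall] at hcon
    obtain ⟨jb, hjb⟩ := hcon
    rw [not_le] at hjb
    obtain ⟨j₀, -, hmax⟩ := Finset.exists_max_image Finset.univ
      (fun j => A.valuation ((z j : A) : K)) ⟨jb, Finset.mem_univ _⟩
    have hj₀ : A.valuation (c : K) < A.valuation ((z j₀ : A) : K) :=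
      lt_of_lt_of_le hjb (hmax jb (Finset.mem_univ _))
    have hz₀ : ((z j₀ : A) : K) ≠ 0 := by
      intro h0
      rw [h0, map_zero] at hj₀
      exact not_lt_zero hj₀
    have hζ : ∀ j, ∃ ζ : A, z j = z j₀ * ζ := fun j =>
      SSRed.ss_dvd_of_val_le hz₀ (hmax j (Finset.mem_univ _))
    choose ζ hζ' using hζ
    obtain ⟨κ₀, hκ₀⟩ : ∃ κ₀ : A, c = z j₀ * κ₀ := SSRed.ss_dvd_of_val_le hz₀ hj₀.le
    have hπκ : π κ₀ = 0 := by
      rw [S.π_eq_zero_iff, ValuationSubring.mem_nonunits_iff]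
      have h1 : (c : K) = (z j₀ : K) * (κ₀ : K) := congrArg Subtype.val hκ₀
      have h2 : A.valuation (c : K) = A.valuation (z j₀ : K) * A.valuation (κ₀ : K) := by
        rw [h1, map_mul]
      by_contra hge
      rw [not_lt] at hge
      have h3 : A.valuation (z j₀ : K) ≤ A.valuation (c : K) := by
        rw [h2]
        calc A.valuation (z j₀ : K) = A.valuation (z j₀ : K) * 1 := (mul_one _).symm
          _ ≤ A.valuation (z j₀ : K) * A.valuation (κ₀ : K) := by gcongr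
      exact not_le.mpr hj₀ h3
    have hζ₀ : ζ j₀ = 1 := by
      have h1 := hζ' j₀
      have h2 : ((z j₀ : A) : K) * 1 = ((z j₀ : A) : K) * ((ζ j₀ : A) : K) := by
        rw [mul_one]
        exact congrArg Subtype.val h1
      exact Subtype.ext (mul_left_cancel₀ hz₀ h2).symm
    have hζ₁ : ζ j₁ = 0 := by
      have h1 := hζ' j₁
      rw [hz₁] at h1
      have h2 : ((z j₀ : A) : K) * ((ζ j₁ : A) : K) = 0 := (congrArg Subtype.val h1).symm
      rcases mul_eq_zero.mp h2 with h | h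
      · exact absurd h hz₀
      · exact Subtype.ext h
    set t : S.O := S.lsum ζ w with ht
    have hst := hform (z j₀) ζ hζ'
    obtain ⟨r, hr⟩ := exists_add_pow_prime_eq hp (S.C (z j₀) * t) (S.C lam)
    rw [← hst] at hr
    obtain ⟨κ₁, hκ₁⟩ := cxp_aux S hp c b (z j₀) κ₀ lam γ hz₀ hκ₀ hpb s t h' r hr hsp
    have hπ1 : π (κ₀ ^ (p - 1) * b) = 0 := by
      rw [map_mul, map_pow, hπκ, zero_pow hp1, zero_mul]
    have hπ2 : π (κ₀ ^ p) = 0 := by
      rw [map_pow, hπκ, zero_pow hp.ne_zero]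
    have hred := congrArg S.red hκ₁
    rw [map_sub, map_add, map_mul, map_mul, map_mul, map_mul, map_pow, S.red_C, S.red_C,
      S.red_C, hπ1, hπ2, map_zero, zero_mul, zero_mul, zero_mul, zero_mul, add_zero, sub_zero,
      S.red_C] at hred
    obtain ⟨κ', hκ'⟩ := h70 (S.red t) (π κ₁) hred
    have hcmp : ∑ j, π (ζ j) • S.red (w j) = ∑ j, (κ' * π (o j)) • S.red (w j) := by
      rw [← S.red_lsum, ← ht, ← hκ', Algebra.algebraMap_eq_smul_one, hored, Finset.smul_sum]
      refine Finset.sum_congr rfl fun j _ => ?_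
      rw [smul_smul]
    have hco := fun j => hw.eq_coords_of_eq hcmp j
    have ha0 : κ' = 0 := by
      have h1 := hco j₁
      rw [hζ₁, map_zero] at h1
      rcases mul_eq_zero.mp h1.symm with h | h
      · exact h
      · exact absurd h hj₁
    have h0 := hco j₀
    rw [hζ₀, map_one, ha0, zero_mul] at h0
    exact one_ne_zero h0
  have hz' : ∀ j, ∃ z' : A, z j = c * z' := fun j => SSRed.ss_dvd_of_val_le hc0 (hkey j)
  choose z' hz'' using hz'
  set t : S.O := S.lsum z' w with ht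
  have hst := hform c z' hz''
  have hπlam : algebraMap k R (π lam) = 1 := by
    have := congrArg S.red hst
    rw [hs, map_add, map_mul, S.red_C, S.red_C, hπc, map_zero, zero_mul, zero_add] at this
    exact this.symm
  obtain ⟨r, hr, hr1⟩ := cxp_expand S.red hp (S.C c * t) (S.C lam)
    (by rw [map_mul, S.red_C, hπc, map_zero, zero_mul]) (by rw [S.red_C]; exact hπlam)
  rw [← hst] at hr
  obtain ⟨κ₁, hκ₁⟩ := cxp_aux S hp c b c 1 lam γ hc0 (mul_one c).symm hpb s t h' r hr hsp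
  have htU : (t : F) ∈ U := by
    rw [ht, S.coe_lsum, ← hws]
    exact Submodule.sum_mem _ fun j _ =>
      Submodule.smul_mem _ _ (Submodule.subset_span ⟨j, rfl⟩)
  refine ⟨t, -κ₁, htU, ?_⟩
  have hred := congrArg S.red hκ₁
  rw [one_pow, one_pow, one_mul, map_sub, map_add, map_mul, map_mul, map_mul, map_mul, map_pow,
    S.red_C, S.red_C, S.red_C, S.red_C, hr1, hπlam, map_one, map_one, mul_one, mul_one,
    one_mul] at hred
  rw [map_neg, map_neg]
  linear_combination -hred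

/-- **the crux for `m = p`, with positions** (hypotheses (H6), (H7) only for reductions of
elements of `(K + V_i) ∩ O`, as needed for a fibre with several components): a Kummer function `u = 1 + a g` of
level `> v*` (`|a|^(p-1) < |p|^p`) gives `V₁ ⊓ V₂ ≠ ⊥`.  See the header of this file. -/
theorem cxp_crux_mem [Nontrivial R] {p : ℕ} (hp : p.Prime) (hpK : ((p : ℕ) : K) ≠ 0)
    (hpk : ((p : ℕ) : k) = 0)
    (V₁ V₂ W₁ W₂ : Submodule K F)
    [Module.Finite K V₁] [Module.Finite K V₂] [Module.Finite K W₁]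
    (u g : S.O) (a : A) (hu : u = 1 + S.C a * g)
    (ha : A.valuation ((a : K) ^ (p - 1)) < A.valuation (((p : ℕ) : K) ^ p))
    (h1 : (∃ s : S.O, (s : F) ∈ V₁ ∧ S.red s = 1) ∧ ∃ s : S.O, (s : F) ∈ V₂ ∧ S.red s = 1)
    (h2 : ∀ x₁ x₂ : S.O, (x₁ : F) ∈ V₁ → (x₂ : F) ∈ V₂ → S.red x₁ = S.red x₂ →
      S.red x₁ ∈ Set.range (algebraMap k R))
    (h3 : (∀ s ∈ V₁, ((u : S.O) : F) * s ^ p ∈ W₁) ∧ (∀ s ∈ V₂, ((u : S.O) : F) * s ^ p ∈ W₂) ∧
      (1 : F) ∈ W₁ ∧ (1 : F) ∈ W₂)
    (h4 : ∀ x₁ x₂ : S.O, (x₁ : F) ∈ W₁ → (x₂ : F) ∈ W₂ → S.red x₁ = S.red x₂ →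
      S.red x₁ ∈ Set.range (algebraMap k R))
    (h5 : ∀ h₁ h₂ τ : S.O, (h₁ : F) ∈ W₁ → (h₂ : F) ∈ W₂ → (τ : F) ∈ V₁ ⊔ V₂ →
      S.red h₁ - S.red h₂ = S.red τ →
      ∃ a₁ a₂ : S.O, (a₁ : F) ∈ V₁ ∧ (a₂ : F) ∈ V₂ ∧ S.red τ = S.red a₁ - S.red a₂)
    (h6 : ∀ (h t : S.O) (β κ : k),
      S.red h = S.red t ^ p + algebraMap k R β * S.red t + algebraMap k R κ →
      ((h : F) ∈ W₁ → (t : F) ∈ Submodule.span K {(1 : F)} ⊔ V₁ →
        ∃ a₁ : S.O, (a₁ : F) ∈ V₁ ∧ S.red a₁ = S.red t) ∧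
      ((h : F) ∈ W₂ → (t : F) ∈ Submodule.span K {(1 : F)} ⊔ V₂ →
        ∃ a₂ : S.O, (a₂ : F) ∈ V₂ ∧ S.red a₂ = S.red t))
    (h70 : ∀ (z : R) (κ : k), z ^ p = algebraMap k R κ → z ∈ Set.range (algebraMap k R))
    (h7 : ∀ (z : S.O) (β κ : k), (z : F) ∈ Submodule.span K {(1 : F)} ⊔ (V₁ ⊔ V₂) →
      S.red z ^ p + algebraMap k R β * S.red z = algebraMap k R κ →
      ∃ e₁ e₂ : S.O, (e₁ : F) ∈ V₁ ∧ (e₂ : F) ∈ V₂ ∧ S.red z = S.red e₁ - S.red e₂) :
    V₁ ⊓ V₂ ≠ ⊥ := by
  classical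
  intro hinf
  obtain ⟨f, hfV, hfbad⟩ := S.exists_bad V₁ V₂ hinf h1
  obtain ⟨c, s₁, s₂, hc0, hπc, hs₁V, hs₂V, hs₁, hs₂, hdiff⟩ :=
    S.normalise V₁ V₂ h2 f hfV hfbad
  apply hfbad
  obtain ⟨h3a, h3b, h3c, h3d⟩ := h3
  have hp1 : p - 1 ≠ 0 := by
    have := hp.two_le
    omega
  have hp1' : p - 1 + 1 = p := Nat.sub_add_cancel hp.pos
  have hvp : A.valuation (((p : ℕ) : K)) ≤ 1 := by
    rw [A.valuation_le_one_iff]
    exact natCast_mem A p
  -- `π a = 0`, `red u = 1`
  have hva : A.valuation (a : K) < 1 := by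
    by_contra h
    rw [not_lt] at h
    have e1 : (1 : A.ValueGroup) ≤ A.valuation (a : K) ^ (p - 1) := one_le_pow₀ h
    have e2 : A.valuation (((p : ℕ) : K)) ^ p ≤ 1 := pow_le_one₀ zero_le hvp
    rw [map_pow, map_pow] at ha
    exact absurd ha (not_lt.mpr (e2.trans e1))
  have hπa : π a = 0 := (S.π_eq_zero_iff a).mpr (A.mem_nonunits_iff.mpr hva)
  have hured : S.red u = 1 := by
    rw [hu, map_add, map_one, map_mul, S.red_C, hπa, map_zero, zero_mul, add_zero]
  set f₁ : S.O := u * s₁ ^ p with hf₁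
  set f₂ : S.O := u * s₂ ^ p with hf₂
  have hf₁W : (f₁ : F) ∈ W₁ := h3a _ hs₁V
  have hf₂W : (f₂ : F) ∈ W₂ := h3b _ hs₂V
  have hs12 : s₁ = S.C c * f + s₂ := by rw [← hdiff]; ring
  obtain ⟨r, hr, hr1⟩ := cxp_expand S.red hp (S.C c * f) s₂
    (by rw [map_mul, S.red_C, hπc, map_zero, zero_mul]) hs₂
  rw [← hs12] at hr
  set P : A := ((p : ℕ) : A) with hP
  have hPK : ((P : A) : K) = ((p : ℕ) : K) := by simp [hP]
  have hP0 : ((P : A) : K) ≠ 0 := by rw [hPK]; exact hpK
  have hCP : S.C P = ((p : ℕ) : S.O) := cxp_C_natCast S p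
  have hcK : (((c ^ (p - 1) : A)) : K) = (c : K) ^ (p - 1) := by simp
  rcases lt_or_ge (A.valuation ((c : K) ^ (p - 1))) (A.valuation (((p : ℕ) : K))) with hlin | hfrob
  · -- the linear regime
    obtain ⟨e, he⟩ : ∃ e : A, c ^ (p - 1) = P * e :=
      SSRed.ss_dvd_of_val_le hP0 (by rw [hcK, hPK]; exact hlin.le)
    have hπe : π e = 0 := by
      rw [S.π_eq_zero_iff, ValuationSubring.mem_nonunits_iff]
      have h1 : (c : K) ^ (p - 1) = (P : K) * (e : K) := by
        rw [← hcK, he]; rfl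
      by_contra hge
      rw [not_lt] at hge
      have h3 : A.valuation (P : K) ≤ A.valuation ((c : K) ^ (p - 1)) := by
        rw [h1, map_mul]
        calc A.valuation (P : K) = A.valuation (P : K) * 1 := (mul_one _).symm
          _ ≤ A.valuation (P : K) * A.valuation (e : K) := by gcongr
      rw [hPK] at h3
      exact not_le.mpr hlin h3
    have hcp : S.C c ^ p = S.C (P * c) * S.C e := by
      rw [← cxp_C_pow, ← cxp_C_mul]
      congr 1
      calc c ^ p = c ^ (p - 1) * c := by rw [← pow_succ, hp1']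
        _ = P * c * e := by rw [he]; ring
    have hgeom : f₁ - f₂ = S.C (P * c) * (u * (S.C e * f ^ p + f * s₂ * r)) := by
      rw [hf₁, hf₂, hr, mul_pow, hcp, cxp_C_mul, hCP]
      ring
    obtain ⟨γ, h₁, h₂, hh₁W, hh₂W, -, -, hh⟩ := cxp_split S W₁ W₂ ⟨h3c, h3d⟩ h4 f₁ f₂ _
      hf₁W hf₂W (P * c) (by
        show (P : K) * (c : K) ≠ 0
        exact mul_ne_zero hP0 hc0) hgeom
    have hred : S.red h₁ - S.red h₂ = S.red f := by
      rw [← map_sub, hh, map_mul, hured, one_mul, map_add, map_mul, S.red_C, hπe, map_zero,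
        zero_mul, zero_add, map_mul, map_mul, hs₂, hr1, mul_one, mul_one]
    exact h5 h₁ h₂ f hh₁W hh₂W hfV hred
  · -- the Frobenius / Artin–Schreier regime
    have hc1 : (((c ^ (p - 1) : A)) : K) ≠ 0 := by
      rw [hcK]
      exact pow_ne_zero _ hc0
    obtain ⟨b, hb⟩ : ∃ b : A, P = c ^ (p - 1) * b :=
      SSRed.ss_dvd_of_val_le hc1 (by rw [hcK, hPK]; exact hfrob)
    have hPc : S.C P * S.C c = S.C c ^ p * S.C b := by
      rw [← cxp_C_mul, ← cxp_C_pow, ← cxp_C_mul]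
      congr 1
      calc P * c = c ^ (p - 1) * c * b := by rw [hb]; ring
        _ = c ^ p * b := by rw [← pow_succ, hp1']
    have hgeom : f₁ - f₂ = S.C (c ^ p) * (u * (f ^ p + S.C b * f * s₂ * r)) := by
      have e1 : ((p : ℕ) : S.O) * (S.C c * f) * s₂ * r = (S.C P * S.C c) * (f * s₂ * r) := by
        rw [hCP]; ring
      rw [hf₁, hf₂, hr, mul_pow, e1, hPc, cxp_C_pow]
      ring
    -- `a = c^p a'`, `π a' = 0`
    have hac : A.valuation (a : K) < A.valuation ((c : K) ^ p) := by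
      apply lt_of_pow_lt_pow_left₀ (p - 1) zero_le
      rw [map_pow, map_pow] at ha
      refine lt_of_lt_of_le ha ?_
      rw [map_pow] at hfrob
      calc A.valuation (((p : ℕ) : K)) ^ p ≤ (A.valuation (c : K) ^ (p - 1)) ^ p :=
            pow_le_pow_left₀ zero_le hfrob p
        _ = A.valuation ((c : K) ^ p) ^ (p - 1) := by
            rw [map_pow, ← pow_mul, ← pow_mul, mul_comm]
    have hcpK : (((c ^ p : A)) : K) = (c : K) ^ p := by simp
    have hcp0 : (((c ^ p : A)) : K) ≠ 0 := by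
      rw [hcpK]
      exact pow_ne_zero _ hc0
    obtain ⟨a', ha'⟩ : ∃ a' : A, a = c ^ p * a' :=
      SSRed.ss_dvd_of_val_le hcp0 (by rw [hcpK]; exact hac.le)
    have hπa' : π a' = 0 := by
      rw [S.π_eq_zero_iff, ValuationSubring.mem_nonunits_iff]
      have h1 : (a : K) = (c : K) ^ p * (a' : K) := by
        rw [← hcpK, ha']; rfl
      by_contra hge
      rw [not_lt] at hge
      have h3 : A.valuation ((c : K) ^ p) ≤ A.valuation (a : K) := by
        rw [h1, map_mul]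
        calc A.valuation ((c : K) ^ p) = A.valuation ((c : K) ^ p) * 1 := (mul_one _).symm
          _ ≤ A.valuation ((c : K) ^ p) * A.valuation (a' : K) := by gcongr
      exact not_le.mpr hac h3
    obtain ⟨γ, h₁, h₂, hh₁W, hh₂W, hf₁eq, hf₂eq, hh⟩ := cxp_split S W₁ W₂ ⟨h3c, h3d⟩ h4 f₁ f₂ _
      hf₁W hf₂W (c ^ p) hcp0 hgeom
    have hua : u = 1 + S.C c ^ p * (S.C a' * g) := by
      rw [hu, ha', cxp_C_mul, cxp_C_pow]; ring
    have hsp : ∀ (s h : S.O), u * s ^ p = S.C γ + S.C (c ^ p) * h →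
        s ^ p = S.C γ + S.C c ^ p * (h - S.C a' * g * s ^ p) := by
      intro s h hs
      rw [cxp_C_pow] at hs
      have e1 : u * s ^ p = s ^ p + S.C c ^ p * (S.C a' * g * s ^ p) := by
        rw [hua]; ring
      rw [e1] at hs
      linear_combination hs
    have hredh : ∀ (s h : S.O), S.red (h - S.C a' * g * s ^ p) = S.red h := by
      intro s h
      rw [map_sub, map_mul, map_mul, S.red_C, hπa', map_zero, zero_mul, zero_mul, sub_zero]
    obtain ⟨t₁, κ₁, ht₁U, ht₁⟩ :=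
      cxp_decomp_mem S hp h70 c b hc0 hπc hb s₁ _ hs₁ γ (hsp s₁ h₁ hf₁eq)
    obtain ⟨t₂, κ₂, ht₂U, ht₂⟩ :=
      cxp_decomp_mem S hp h70 c b hc0 hπc hb s₂ _ hs₂ γ (hsp s₂ h₂ hf₂eq)
    rw [hredh] at ht₁ ht₂
    have hspan : ∀ (V : Submodule K F) (s t : F), s ∈ V →
        t ∈ Submodule.span K {(1 : F), s} → t ∈ Submodule.span K {(1 : F)} ⊔ V := by
      intro V s t hs ht
      have hle : Submodule.span K {(1 : F), s} ≤ Submodule.span K {(1 : F)} ⊔ V := by
        rw [Submodule.span_le]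
        rintro x (rfl | rfl)
        · exact Submodule.mem_sup_left (Submodule.subset_span rfl)
        · exact Submodule.mem_sup_right hs
      exact hle ht
    have ht₁V := hspan V₁ _ _ hs₁V ht₁U
    have ht₂V := hspan V₂ _ _ hs₂V ht₂U
    obtain ⟨a₁, ha₁V, ha₁⟩ := (h6 h₁ t₁ (π b) (π κ₁) ht₁).1 hh₁W ht₁V
    obtain ⟨a₂, ha₂V, ha₂⟩ := (h6 h₂ t₂ (π b) (π κ₂) ht₂).2 hh₂W ht₂V
    have hG : S.red h₁ - S.red h₂ = S.red f ^ p + algebraMap k R (π b) * S.red f := by
      rw [← map_sub, hh, map_mul, hured, one_mul, map_add, map_pow, map_mul, map_mul, map_mul,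
        S.red_C, hs₂, hr1, mul_one, mul_one]
    have hpR : ((p : ℕ) : R) = 0 := by
      have := congrArg (algebraMap k R) hpk
      simpa using this
    have hfrobR : ∀ x y : R, (x + y) ^ p = x ^ p + y ^ p := fun x y => by
      obtain ⟨r, hr⟩ := exists_add_pow_prime_eq hp x y
      rw [hr, hpR]; ring
    have hsubR : ∀ x y : R, (x - y) ^ p = x ^ p - y ^ p := fun x y => by
      have := hfrobR (x - y) y
      rw [sub_add_cancel] at this
      rw [this]; ring
    have hz : (S.red f - S.red t₁ + S.red t₂) ^ p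
        + algebraMap k R (π b) * (S.red f - S.red t₁ + S.red t₂)
        = algebraMap k R (π κ₁ - π κ₂) := by
      rw [hfrobR, hsubR, map_sub]
      linear_combination ht₁ - ht₂ - hG
    have hzU : (((f - t₁ + t₂ : S.O) : S.O) : F) ∈ Submodule.span K {(1 : F)} ⊔ (V₁ ⊔ V₂) := by
      have e1 : (((f - t₁ + t₂ : S.O) : S.O) : F) = (f : F) - (t₁ : F) + (t₂ : F) := rfl
      rw [e1]
      have hle₁ : Submodule.span K {(1 : F)} ⊔ V₁ ≤ Submodule.span K {(1 : F)} ⊔ (V₁ ⊔ V₂) :=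
        sup_le_sup_left le_sup_left _
      have hle₂ : Submodule.span K {(1 : F)} ⊔ V₂ ≤ Submodule.span K {(1 : F)} ⊔ (V₁ ⊔ V₂) :=
        sup_le_sup_left le_sup_right _
      exact Submodule.add_mem _ (Submodule.sub_mem _ (Submodule.mem_sup_right hfV) (hle₁ ht₁V))
        (hle₂ ht₂V)
    have hz' : S.red (f - t₁ + t₂) ^ p + algebraMap k R (π b) * S.red (f - t₁ + t₂)
        = algebraMap k R (π κ₁ - π κ₂) := by
      rw [map_add, map_sub]
      exact hz
    obtain ⟨e₁, e₂, he₁V, he₂V, hze⟩ := h7 _ (π b) _ hzU hz'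
    rw [map_add, map_sub] at hze
    refine ⟨a₁ + e₁, a₂ + e₂, V₁.add_mem ha₁V he₁V, V₂.add_mem ha₂V he₂V, ?_⟩
    rw [map_add, map_add, ha₁, ha₂]
    linear_combination hze

end Fermat.Agent.S33lib

end
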