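/-
Item 86 (S33), block TOR_p, piece (CRUX-SS), abstract part (helper8).  Complete proofs.

The crux for `m = p` (the residue characteristic) on a fibre with SEVERAL components, in the
language of `S34lib/Twist.lean` (`Gluing`, `TwistHyp`, `TwistCrux`), INSIDE THE GLUED FAMILY:
the Kummer function `u` has its poles on `D₁` only (`E' + n D₁ ≥ 0`, `div u = p E'`).

* `cxt_pow_inj`: Frobenius is injective on `k`.
* `cxt_glue`: `red (L(a D₁ + E) ∩ O) = G_1(a)` when `p E = div u`, `red u = 1`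
  (`tw_exists_zeta` at `m = p`; the twist `ζ` is trivial because Frobenius is injective).
* `cxt_principal`: `u = 1 + a g`, `g ∈ O`, `|a|^(p-1) < |p|^p`, `div u = p E'`, `deg E' = 0`,
  `E' + n D₁ ≥ 0`  ⟹  `E'` is principal.
  Hypotheses: `TwistHyp` at `m = p`, `TwistCrux` at `m = 1`, and three statements on pole
  orders / constants on the fibre (`hpol`, `hAS`, `hASC`, all componentwise valuation facts),
  `h70` (`p`-th roots of constants).  NO hypothesis of good position: the gluing of all the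
  leading terms is supplied by `cxt_glue`.
-/
import Mathlib
import Fermat.Agent.S34lib.Twist
import Fermat.Agent.S33lib.CruxPMem

set_option autoImplicit false
set_option linter.unusedVariables false
set_option linter.unusedSectionVars false
set_option linter.style.haveILetI false

noncomputable section

namespace Fermat.Agent.S33lib

open AlgebraicCurve Fermat.Agent.RRlib Fermat.Agent.S34lib

/-- Frobenius is injective on a field in which `p = 0` -/
theorem cxt_pow_inj {k : Type*} [Field k] {p : ℕ} (hp : p.Prime) (hpk : ((p : ℕ) : k) = 0)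
    {x y : k} (h : x ^ p = y ^ p) : x = y := by
  haveI : Fact p.Prime := ⟨hp⟩
  haveI : CharP k p := (CharP.charP_iff_prime_eq_zero hp).mpr hpk
  have h1 : (x - y) ^ p = 0 := by rw [sub_pow_char, h, sub_self]
  exact sub_eq_zero.mp (pow_eq_zero_iff hp.ne_zero |>.mp h1)

variable {K F k : Type*} [Field K] [Field F] [Algebra K F] [Field k]
variable {R : Type*} [CommRing R] [Algebra k R]
variable {A : ValuationSubring K} {π : A →+* k}
variable {S : SSRed A π R F} {G : Gluing k R} {D₁ D₂ : Divisor K F} {a₀ n₂ : ℕ} {f finv : S.O}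

/-- `|a|^(p-1) < |p|^p` implies `|a| < 1` -/
theorem cxt_val_lt_one {p : ℕ} (a : A)
    (ha : A.valuation ((a : K) ^ (p - 1)) < A.valuation (((p : ℕ) : K) ^ p)) :
    A.valuation (a : K) < 1 := by
  have hvp : A.valuation (((p : ℕ) : K)) ≤ 1 := by
    rw [A.valuation_le_one_iff]
    exact natCast_mem A p
  by_contra h
  rw [not_lt] at h
  have e1 : (1 : A.ValueGroup) ≤ A.valuation (a : K) ^ (p - 1) := one_le_pow₀ h
  have e2 : A.valuation (((p : ℕ) : K)) ^ p ≤ 1 := pow_le_one₀ zero_le hvp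
  rw [map_pow, map_pow] at ha
  exact absurd ha (not_lt.mpr (e2.trans e1))

/-- **the gluing of the twisted family at `m = p`**: if `p E = div u` and `red u = 1` then
`red (L(a D₁ + E) ∩ O)` is the UNTWISTED glued space (Frobenius is injective on `k`). -/
theorem cxt_glue [RRBase K F] {p : ℕ} (hp : p.Prime) (hpk : ((p : ℕ) : k) = 0)
    (hyp : TwistHyp S G p D₁ a₀) {a : ℕ} (ha : a₀ ≤ a) (E : Divisor K F)
    (hE : Divisor.degree E = 0) (u uinv : S.O) (huu : u * uinv = 1) (hu : S.red u = 1)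
    (hdiv : ∀ v : Place K F, v.ord (u : F) = p * E v) :
    S.redSp (riemannRochSpace (a • D₁ + E)) = G.glued 1 a := by
  have huinv : S.red uinv = 1 := by
    have h := congrArg S.red huu
    rw [map_mul, hu, one_mul, map_one] at h
    exact h
  have hu0 : (u : F) ≠ 0 := by
    intro h0
    have h1 : ((u * uinv : S.O) : F) = 1 := by rw [huu]; rfl
    rw [Subring.coe_mul, h0, zero_mul] at h1
    exact zero_ne_one h1
  have hpa : a₀ ≤ p * a := le_trans ha (Nat.le_mul_of_pos_left a hp.pos)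
  obtain ⟨ζ, hζ⟩ := tw_exists_zeta hyp ha E hE u uinv huu (by rw [hu]; exact G.one_mem)
    (by rw [huinv]; exact G.one_mem) hdiv
  have hle : S.redSp (riemannRochSpace (a • D₁ + E)) ≤ G.glued 1 a := by
    rintro _ ⟨x, hx, rfl⟩
    have hrT : S.red x ∈ G.T a := by
      have h : S.red x ∈ G.glued ζ a := by rw [← hζ]; exact ⟨x, hx, rfl⟩
      exact h.1
    have hw : ((u * x ^ p : S.O) : F) ∈ riemannRochSpace ((p * a) • D₁) := by
      have := tw_kummer_mul_pow_mem (D₁ := D₁) hu0 hdiv hx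
      simpa using this
    have hmem : S.red (u * x ^ p) ∈ G.glued 1 (p * a) := by
      rw [← hyp.f3 (p * a) hpa]
      exact S.red_mem_redSp _ hw
    rw [map_mul, hu, one_mul, map_pow] at hmem
    obtain ⟨_, hgl⟩ := G.mem_glued_one.mp hmem
    rw [G.e₁_pow hrT, G.e₂_pow hrT] at hgl
    refine G.mem_glued_one.mpr ⟨hrT, ?_⟩
    funext i
    have h := congrFun hgl i
    simp only [Pi.pow_apply] at h
    exact cxt_pow_inj hp hpk h
  have h2 := G.finrank_glued a (hyp.surj a ha) ζ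
  have h3 := G.finrank_glued a (hyp.surj a ha) 1
  refine Submodule.eq_of_le_of_finrank_eq hle ?_
  rw [hζ]
  omega

/-- **(CRUX-SS), abstract form.**  Inside the glued family (`E' + n D₁ ≥ 0`): a degree `0`
divisor `E'` with a Kummer function `u = 1 + a g` (`div u = p E'`, `g ∈ O`) of level
`|a|^(p-1) < |p|^p` is principal. -/
theorem cxt_principal [RRBase K F] [Nontrivial R] {p : ℕ} (hp : p.Prime)
    (hpK : ((p : ℕ) : K) ≠ 0) (hpk : ((p : ℕ) : k) = 0)
    (hyp : TwistHyp S G p D₁ a₀) (hc : TwistCrux S G 1 D₁ D₂ n₂ f finv)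
    (hpol : ∀ (a c : ℕ) (g₁ g₂ : R), g₁ ∈ G.T (p * a) →
      g₂ * S.red f ^ (p * c) ∈ G.T (p * c * n₂) → (g₁ - g₂) * S.red f ^ c ∈ G.T (a + c * n₂) →
      g₁ ∈ G.T a ∧ g₂ * S.red f ^ c ∈ G.T (c * n₂))
    (hAS : ∀ (c : ℕ) (r : R) (β κ : k),
      (r ^ p + algebraMap k R β * r + algebraMap k R κ) * S.red f ^ (p * c) ∈ G.T (p * c * n₂) →
      r * S.red f ^ c ∈ G.T (c * n₂))
    (hASC : ∀ (z : R) (β κ : k), z ^ p + algebraMap k R β * z = algebraMap k R κ → z ∈ G.T 0)
    (h70 : ∀ (z : R) (κ : k), z ^ p = algebraMap k R κ → z ∈ Set.range (algebraMap k R))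
    (E' : Divisor K F) (hE' : Divisor.degree E' = 0) (n : ℕ)
    (hEn : ∀ v : Place K F, 0 ≤ E' v + n * D₁ v)
    (u uinv g : S.O) (huu : u * uinv = 1) (a' : A) (hu : u = 1 + S.C a' * g)
    (ha' : A.valuation ((a' : K) ^ (p - 1)) < A.valuation (((p : ℕ) : K) ^ p))
    (hdiv : ∀ v : Place K F, v.ord (u : F) = p * E' v) :
    E' ∈ Divisor.principal (K := K) (F := F) := by
  classical
  -- the reduction of `u`
  have hπa : π a' = 0 :=
    (S.π_eq_zero_iff a').mpr (A.mem_nonunits_iff.mpr (cxt_val_lt_one a' ha'))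
  have hured : S.red u = 1 := by
    rw [hu, map_add, map_one, map_mul, S.red_C, hπa, map_zero, zero_mul, add_zero]
  have hu0 : (u : F) ≠ 0 := by
    intro h0
    have h1 : ((u * uinv : S.O) : F) = 1 := by rw [huu]; rfl
    rw [Subring.coe_mul, h0, zero_mul] at h1
    exact zero_ne_one h1
  -- the gluing
  have hglue : ∀ a, a₀ ≤ a → S.redSp (riemannRochSpace (a • D₁ + E')) = G.glued 1 a :=
    fun a ha => cxt_glue hp hpk hyp ha E' hE' u uinv huu hured hdiv
  -- parameters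
  obtain ⟨a, haa₀, han', hapos⟩ : ∃ a : ℕ, a₀ ≤ a ∧ n ≤ a ∧ 0 < a :=
    ⟨a₀ + n + 1, by omega, by omega, by omega⟩
  have hm := hp.pos
  have hn₂ := hc.n₂_pos
  have han : a ≤ a * n₂ := Nat.le_mul_of_pos_right a hn₂
  have hma : a ≤ p * a := Nat.le_mul_of_pos_left a hm
  have hman : p * a ≤ p * a * n₂ := Nat.le_mul_of_pos_right _ hn₂
  have hmapos : 0 < p * a := Nat.mul_pos hm hapos
  have hψT : S.red f ∈ G.T n₂ := hc.f_glued.1
  have hψg : G.e₁ (S.red f) = G.e₂ (S.red f) := (G.mem_glued_one.mp hc.f_glued).2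
  have : Module.Finite K (riemannRochSpace (a • D₁ + E')) := finite_riemannRochSpace _
  have : Module.Finite K (riemannRochSpace (a • D₂ + E')) := finite_riemannRochSpace _
  have : Module.Finite K (riemannRochSpace ((p * a) • D₁)) := finite_riemannRochSpace _
  -- `1 ∈ L(c D₁ + c' D₂ + E')` for `c ≥ n`
  have hD₁0 := hc.D₁_nonneg
  have hD₂0 := hc.D₂_nonneg
  have hone₁ : (1 : F) ∈ riemannRochSpace (a • D₁ + E') := by
    rw [tw_mem_L_iff one_ne_zero]
    intro v
    have h1 := hEn v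
    have h2 := hD₁0 v
    have h3 : (n : ℤ) * D₁ v ≤ (a : ℤ) * D₁ v :=
      mul_le_mul_of_nonneg_right (by exact_mod_cast han') h2
    simp only [Finsupp.add_apply, Finsupp.smul_apply, nsmul_eq_mul, Place.ord_one]
    linarith
  -- cancellation of the evaluations of `φ = red f`
  have hcancel : ∀ (r : R) (b j : ℕ), r ∈ G.T b →
      G.e₁ (r * S.red f ^ j) = G.e₂ (r * S.red f ^ j) → G.e₁ r = G.e₂ r := by
    intro r b j hr hE
    rw [G.e₁_mul hr (G.pow_mem_T hψT j), G.e₂_mul hr (G.pow_mem_T hψT j),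
      G.e₁_pow hψT, G.e₂_pow hψT, ← hψg] at hE
    funext i
    have hi := congrFun hE i
    simp only [Pi.mul_apply, Pi.pow_apply] at hi
    exact mul_right_cancel₀ (pow_ne_zero j (hc.e₁_f i)) hi
  -- (H1)
  have h1 : (∃ s : S.O, (s : F) ∈ riemannRochSpace (a • D₁ + E') ∧ S.red s = 1) ∧
      ∃ s : S.O, (s : F) ∈ riemannRochSpace (a • D₂ + E') ∧ S.red s = 1 := by
    constructor
    · have h : (1 : R) ∈ S.redSp (riemannRochSpace (a • D₁ + E')) := by
        rw [hglue a haa₀]; exact G.one_mem_glued_one a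
      exact h
    · have h : S.red (f ^ a) ∈ S.redSp (riemannRochSpace ((a * n₂) • D₁)) :=
        S.red_mem_redSp (f ^ a) (hc.pow_mem a)
      rw [hyp.f3 _ (le_trans haa₀ han), ← hglue _ (le_trans haa₀ han)] at h
      obtain ⟨y, hy, hyr⟩ := h
      refine ⟨finv ^ a * y, hc.inv_pow_mul_mem hy, ?_⟩
      rw [map_mul, map_pow, hyr, map_pow, ← mul_pow, mul_comm, hc.red_unit, one_pow]
  obtain ⟨s₁, hs₁V, hs₁⟩ := h1.1
  -- (H2)
  have h2 : ∀ x₁ x₂ : S.O, (x₁ : F) ∈ riemannRochSpace (a • D₁ + E') →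
      (x₂ : F) ∈ riemannRochSpace (a • D₂ + E') → S.red x₁ = S.red x₂ →
      S.red x₁ ∈ Set.range (algebraMap k R) := by
    intro x₁ x₂ hx₁ hx₂ hred
    have hr : S.red x₁ ∈ G.glued 1 a := by
      rw [← hglue a haa₀]; exact S.red_mem_redSp _ hx₁
    obtain ⟨hrT, hrg⟩ := G.mem_glued_one.mp hr
    have hx : ((f ^ a * x₂ : S.O) : F) ∈ riemannRochSpace ((a * n₂) • D₁ + E') :=
      hc.mul_pow_mem hx₂
    have h := S.red_mem_redSp _ hx
    rw [hglue _ (le_trans haa₀ han), map_mul, map_pow, ← hred, mul_comm (S.red f ^ a)] at h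
    exact hc.cst a a _ hapos hrT h.1 hrg
  -- (H3)
  have h3 : (∀ s ∈ riemannRochSpace (a • D₁ + E'),
        ((u : S.O) : F) * s ^ p ∈ riemannRochSpace ((p * a) • D₁)) ∧
      (∀ s ∈ riemannRochSpace (a • D₂ + E'),
        ((u : S.O) : F) * s ^ p ∈ riemannRochSpace ((p * a) • D₂)) ∧
      (1 : F) ∈ riemannRochSpace ((p * a) • D₁) ∧ (1 : F) ∈ riemannRochSpace ((p * a) • D₂) :=
    ⟨fun s hs => tw_kummer_mul_pow_mem hu0 hdiv hs,
      fun s hs => tw_kummer_mul_pow_mem hu0 hdiv hs,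
      TwistCrux.one_mem_L hc.D₁_nonneg _, TwistCrux.one_mem_L hc.D₂_nonneg _⟩
  -- (H4)
  have h4 : ∀ x₁ x₂ : S.O, (x₁ : F) ∈ riemannRochSpace ((p * a) • D₁) →
      (x₂ : F) ∈ riemannRochSpace ((p * a) • D₂) → S.red x₁ = S.red x₂ →
      S.red x₁ ∈ Set.range (algebraMap k R) := by
    intro x₁ x₂ hx₁ hx₂ hred
    have hr : S.red x₁ ∈ G.glued 1 (p * a) := by
      rw [← hyp.f3 _ (le_trans haa₀ hma)]; exact S.red_mem_redSp _ hx₁
    obtain ⟨hrT, hrg⟩ := G.mem_glued_one.mp hr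
    have hx : ((f ^ (p * a) * x₂ : S.O) : F) ∈ riemannRochSpace ((p * a * n₂) • D₁) := by
      have hx₂' : (x₂ : F) ∈ riemannRochSpace ((p * a) • D₂ + 0) := by rwa [add_zero]
      have := hc.mul_pow_mem hx₂'
      rwa [add_zero] at this
    have h := S.red_mem_redSp _ hx
    rw [hyp.f3 _ (le_trans haa₀ (le_trans hma hman)), map_mul, map_pow, ← hred,
      mul_comm (S.red f ^ (p * a))] at h
    exact hc.cst (p * a) (p * a) _ hmapos hrT h.1 hrg
  -- `f^a (K + V₁ + V₂) ⊂ L((a + a n₂) D₁ + E')`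
  have hfmul : ∀ z : F, z ∈ Submodule.span K {(1 : F)} ⊔
      (riemannRochSpace (a • D₁ + E') ⊔ riemannRochSpace (a • D₂ + E')) →
      (f : F) ^ a * z ∈ riemannRochSpace ((a + a * n₂) • D₁ + E') := by
    intro z hz
    have hV₂ : ∀ v₂ ∈ riemannRochSpace (a • D₂ + E'),
        (f : F) ^ a * v₂ ∈ riemannRochSpace ((a + a * n₂) • D₁ + E') := by
      intro v₂ hv₂
      have h := hc.mul_pow_mem hv₂
      refine riemannRochSpace_mono ?_ h
      rw [add_smul]
      intro v
      have h0 := hc.D₁_nonneg v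
      have ha0 : (0 : ℤ) ≤ a := Int.natCast_nonneg a
      have := mul_nonneg ha0 h0
      simp only [Finsupp.add_apply, Finsupp.smul_apply, nsmul_eq_mul]
      linarith
    have hV₁ : ∀ v₁ ∈ riemannRochSpace (a • D₁ + E'),
        (f : F) ^ a * v₁ ∈ riemannRochSpace ((a + a * n₂) • D₁ + E') := by
      intro v₁ hv₁
      have h := tw_mul_mem_L (hc.pow_mem a) hv₁
      have e : (a * n₂) • D₁ + (a • D₁ + E') = (a + a * n₂) • D₁ + E' := by
        rw [add_smul]; abel
      rw [e] at h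
      exact h
    obtain ⟨x₀, hx₀, y, hy, rfl⟩ := Submodule.mem_sup.mp hz
    obtain ⟨v₁, hv₁, v₂, hv₂, rfl⟩ := Submodule.mem_sup.mp hy
    obtain ⟨c₀, rfl⟩ := Submodule.mem_span_singleton.mp hx₀
    rw [mul_add, mul_add]
    refine Submodule.add_mem _ ?_ (Submodule.add_mem _ (hV₁ v₁ hv₁) (hV₂ v₂ hv₂))
    exact hV₁ _ (Submodule.smul_mem _ c₀ hone₁)
  -- the reduction of `f^a z` is glued
  have hfglued : ∀ z : S.O, (z : F) ∈ Submodule.span K {(1 : F)} ⊔
      (riemannRochSpace (a • D₁ + E') ⊔ riemannRochSpace (a • D₂ + E')) →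
      S.red z * S.red f ^ a ∈ G.glued 1 (a + a * n₂) := by
    intro z hz
    have hx : ((f ^ a * z : S.O) : F) ∈ riemannRochSpace ((a + a * n₂) • D₁ + E') :=
      hfmul _ hz
    have h := S.red_mem_redSp _ hx
    rw [hglue _ (le_trans haa₀ (Nat.le_add_right _ _)), map_mul, map_pow,
      mul_comm (S.red f ^ a)] at h
    exact h
  -- (H5)
  have h5 : ∀ h₁ h₂ τ : S.O, (h₁ : F) ∈ riemannRochSpace ((p * a) • D₁) →
      (h₂ : F) ∈ riemannRochSpace ((p * a) • D₂) →
      (τ : F) ∈ riemannRochSpace (a • D₁ + E') ⊔ riemannRochSpace (a • D₂ + E') →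
      S.red h₁ - S.red h₂ = S.red τ →
      ∃ b₁ b₂ : S.O, (b₁ : F) ∈ riemannRochSpace (a • D₁ + E') ∧
        (b₂ : F) ∈ riemannRochSpace (a • D₂ + E') ∧ S.red τ = S.red b₁ - S.red b₂ := by
    intro h₁ h₂ τ hh₁ hh₂ hτ hrel
    have hr₁ : S.red h₁ ∈ G.glued 1 (p * a) := by
      rw [← hyp.f3 _ (le_trans haa₀ hma)]; exact S.red_mem_redSp _ hh₁
    have hr₂ : S.red h₂ * S.red f ^ (p * a) ∈ G.glued 1 (p * a * n₂) := by
      have hx : ((f ^ (p * a) * h₂ : S.O) : F) ∈ riemannRochSpace ((p * a * n₂) • D₁) := by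
        have hx₂' : (h₂ : F) ∈ riemannRochSpace ((p * a) • D₂ + 0) := by rwa [add_zero]
        have := hc.mul_pow_mem hx₂'
        rwa [add_zero] at this
      have h := S.red_mem_redSp _ hx
      rw [hyp.f3 _ (le_trans haa₀ (le_trans hma hman)), map_mul, map_pow,
        mul_comm (S.red f ^ (p * a))] at h
      exact h
    have hrτ : S.red τ * S.red f ^ a ∈ G.T (a + a * n₂) :=
      (hfglued τ (Submodule.mem_sup_right hτ)).1
    have hdT : (S.red h₁ - S.red h₂) * S.red f ^ a ∈ G.T (a + a * n₂) := by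
      rw [hrel]; exact hrτ
    obtain ⟨hp₁, hp₂⟩ := hpol a a _ _ hr₁.1 hr₂.1 hdT
    have hg₁g : S.red h₁ ∈ G.glued 1 a :=
      G.mem_glued_one.mpr ⟨hp₁, (G.mem_glued_one.mp hr₁).2⟩
    have hg₂g : S.red h₂ * S.red f ^ a ∈ G.glued 1 (a * n₂) := by
      refine G.mem_glued_one.mpr ⟨hp₂, ?_⟩
      obtain ⟨j, hj⟩ : ∃ j, p * a = a + j := ⟨p * a - a, by omega⟩
      have hsplit : S.red h₂ * S.red f ^ (p * a) =
          (S.red h₂ * S.red f ^ a) * S.red f ^ j := by
        rw [hj, pow_add, mul_assoc]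
      have hE := (G.mem_glued_one.mp hr₂).2
      rw [hsplit] at hE
      exact hcancel _ _ j hp₂ hE
    rw [← hglue a haa₀] at hg₁g
    rw [← hglue (a * n₂) (le_trans haa₀ han)] at hg₂g
    obtain ⟨b₁, hb₁, hb₁r⟩ := hg₁g
    obtain ⟨y, hy, hyr⟩ := hg₂g
    refine ⟨b₁, finv ^ a * y, hb₁, hc.inv_pow_mul_mem hy, ?_⟩
    rw [hb₁r, map_mul, map_pow, hyr, ← hrel]
    have e : S.red finv ^ a * (S.red h₂ * S.red f ^ a) = S.red h₂ := by
      rw [mul_comm _ (S.red f ^ a), ← mul_assoc, ← mul_pow, mul_comm (S.red finv), hc.red_unit,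
        one_pow, one_mul]
    rw [e]
  -- (H6)
  have h6 : ∀ (h t : S.O) (β κ : k),
      S.red h = S.red t ^ p + algebraMap k R β * S.red t + algebraMap k R κ →
      ((h : F) ∈ riemannRochSpace ((p * a) • D₁) →
        (t : F) ∈ Submodule.span K {(1 : F)} ⊔ riemannRochSpace (a • D₁ + E') →
        ∃ a₁ : S.O, (a₁ : F) ∈ riemannRochSpace (a • D₁ + E') ∧ S.red a₁ = S.red t) ∧
      ((h : F) ∈ riemannRochSpace ((p * a) • D₂) →
        (t : F) ∈ Submodule.span K {(1 : F)} ⊔ riemannRochSpace (a • D₂ + E') →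
        ∃ a₂ : S.O, (a₂ : F) ∈ riemannRochSpace (a • D₂ + E') ∧ S.red a₂ = S.red t) := by
    intro h t β κ hrel
    constructor
    · intro _ ht
      refine ⟨t, ?_, rfl⟩
      obtain ⟨x₀, hx₀, y, hy, hsum⟩ := Submodule.mem_sup.mp ht
      obtain ⟨c₀, rfl⟩ := Submodule.mem_span_singleton.mp hx₀
      rw [← hsum]
      exact Submodule.add_mem _ (Submodule.smul_mem _ c₀ hone₁) hy
    · intro hh ht
      -- pole orders
      have hx : ((f ^ (p * a) * h : S.O) : F) ∈ riemannRochSpace ((p * a * n₂) • D₁) := by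
        have hx₂' : (h : F) ∈ riemannRochSpace ((p * a) • D₂ + 0) := by rwa [add_zero]
        have := hc.mul_pow_mem hx₂'
        rwa [add_zero] at this
      have hmem := S.red_mem_redSp _ hx
      rw [hyp.f3 _ (le_trans haa₀ (le_trans hma hman)), map_mul, map_pow,
        mul_comm (S.red f ^ (p * a)), hrel] at hmem
      have hT : S.red t * S.red f ^ a ∈ G.T (a * n₂) := hAS a _ β κ hmem.1
      -- gluing
      have ht' : (t : F) ∈ Submodule.span K {(1 : F)} ⊔
          (riemannRochSpace (a • D₁ + E') ⊔ riemannRochSpace (a • D₂ + E')) := by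
        obtain ⟨x₀, hx₀, y, hy, hsum⟩ := Submodule.mem_sup.mp ht
        rw [← hsum]
        exact Submodule.add_mem _ (Submodule.mem_sup_left hx₀)
          (Submodule.mem_sup_right (Submodule.mem_sup_right hy))
      have hgl := (G.mem_glued_one.mp (hfglued t ht')).2
      have hg : S.red t * S.red f ^ a ∈ G.glued 1 (a * n₂) := G.mem_glued_one.mpr ⟨hT, hgl⟩
      rw [← hglue (a * n₂) (le_trans haa₀ han)] at hg
      obtain ⟨y, hy, hyr⟩ := hg
      refine ⟨finv ^ a * y, hc.inv_pow_mul_mem hy, ?_⟩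
      rw [map_mul, map_pow, hyr, mul_comm _ (S.red f ^ a), ← mul_assoc, ← mul_pow,
        mul_comm (S.red finv), hc.red_unit, one_pow, one_mul]
  -- (H7)
  have h7 : ∀ (z : S.O) (β κ : k), (z : F) ∈ Submodule.span K {(1 : F)} ⊔
      (riemannRochSpace (a • D₁ + E') ⊔ riemannRochSpace (a • D₂ + E')) →
      S.red z ^ p + algebraMap k R β * S.red z = algebraMap k R κ →
      ∃ e₁ e₂ : S.O, (e₁ : F) ∈ riemannRochSpace (a • D₁ + E') ∧
        (e₂ : F) ∈ riemannRochSpace (a • D₂ + E') ∧ S.red z = S.red e₁ - S.red e₂ := by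
    intro z β κ hz hrel
    have hzT : S.red z ∈ G.T 0 := hASC _ β κ hrel
    have hgl := (G.mem_glued_one.mp (hfglued z hz)).2
    have hzg : G.e₁ (S.red z) = G.e₂ (S.red z) := hcancel _ 0 a hzT hgl
    have hzφ : S.red z * S.red f ^ 1 ∈ G.T (1 * n₂) := by
      have := G.T_mul hzT hψT
      rwa [zero_add, ← pow_one (S.red f), ← one_mul n₂] at this
    obtain ⟨c₀, hc₀⟩ := hc.cst 0 1 _ Nat.one_pos hzT hzφ hzg
    obtain ⟨c₁, rfl⟩ := S.π_surjective c₀
    refine ⟨S.C c₁ * s₁, 0, ?_, Submodule.zero_mem _, ?_⟩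
    · show algebraMap K F (c₁ : K) * (s₁ : F) ∈ _
      rw [← Algebra.smul_def]
      exact Submodule.smul_mem _ _ hs₁V
    · rw [map_zero, sub_zero, map_mul, S.red_C, hs₁, mul_one, hc₀]
  -- the crux
  have key := cxp_crux_mem S hp hpK hpk (riemannRochSpace (a • D₁ + E'))
    (riemannRochSpace (a • D₂ + E')) (riemannRochSpace ((p * a) • D₁))
    (riemannRochSpace ((p * a) • D₂)) u g a' hu ha' h1 h2 h3 h4 h5 h6 h70 h7
  obtain ⟨h, hh, hh0⟩ := (Submodule.ne_bot_iff _).mp key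
  obtain ⟨hh1, hh2⟩ := Submodule.mem_inf.mp hh
  have hL : h ∈ riemannRochSpace E' := by
    rw [tw_mem_L_iff hh0] at hh1 hh2 ⊢
    intro v
    have e1 := hh1 v
    have e2 := hh2 v
    simp only [Finsupp.add_apply, Finsupp.smul_apply, nsmul_eq_mul] at e1 e2
    rcases hc.disj v with h0 | h0
    · rw [h0] at e1; simpa using e1
    · rw [h0] at e2; simpa using e2
  have hnonneg : 0 ≤ E' + divOf (K := K) h := (mem_riemannRochSpace_iff_divOf hh0 E').mp hL
  have hzero : E' + divOf (K := K) h = 0 :=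
    eq_zero_of_nonneg_of_degree_le hnonneg (by rw [map_add, hE', degree_divOf]; simp)
  refine ⟨h⁻¹, inv_ne_zero hh0, fun v => ?_⟩
  have hv := DFunLike.congr_fun hzero v
  rw [Finsupp.add_apply, divOf_apply hh0, Finsupp.zero_apply] at hv
  rw [v.ord_inv]
  linarith

end Fermat.Agent.S33lib

end
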