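/-
Item 86 (S33), block TOR_p, piece (CRUX-SS), instance (helper8).  Complete proofs.

The crux for `m = p` (the residue characteristic) at the level `N = M' p`, in the setting of
`S34lib/GlueInst.lean` / `S34lib/CruxInst.lean`: `S = SSRed.ofPair R₁ R₂` (the two components),
`G = X.gluing` for a `GlueData X`, `D₁ = P₁ + P₂` (the two cusps), `H : F3dEX ...`
(all of them are outputs of `S34lib/GlueMod.glueMod`, which has no hypothesis on `m`).

* `cxi_as_local`, `cxi_as`: pole orders for an Artin–Schreier polynomial `r^p + β r + κ`.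
* `cxi_twistCrux`: the data `TwistCrux` at `m = 1` TOGETHER WITH the exact pole orders of
  `red f` (the construction of `GlueData.twistCrux`, helper16).
* `cxi_principal_O`: (CRUX-SS) for `u = 1 + a g ∈ O₁ ∩ O₂`, `div u = p E'`, `E' + n D₁ ≥ 0`.
* `cxiB P₁ P₂`: the `K`-subalgebra of the functions regular outside `P₁, P₂`.
* `cxi_principal`: (CRUX-SS) in the form used by `S33lib/RegimeTwoGl.lean` (`hcrux`):
  `t ∈ cxiB P₁ P₂ ∩ O₁ ∩ O₂`, `|a|^(p-1) < |p|^p`, `p E = div (1 + a t)`  ⟹  `E` principal.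
-/
import Mathlib
import Fermat.Agent.S34lib.CruxInst
import Fermat.Agent.S33lib.CruxPTw

set_option autoImplicit false
set_option linter.unusedVariables false
set_option linter.unusedSectionVars false
set_option linter.style.haveILetI false

noncomputable section

namespace Fermat.Agent.S33lib

open AlgebraicCurve Fermat.Agent.RRlib Fermat.Agent.GoodRed Fermat.Agent.S34lib

/-! ### pole orders of Artin–Schreier polynomials -/

section Exact

variable {k Fk : Type*} [Field k] [Field Fk] [Algebra k Fk]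

/-- if `r^p + β r + κ` has a pole of order at most `p m` at `v` (`m ≥ 0`), then `r` has a pole
of order at most `m` -/
theorem cxi_as_local (v : Place k Fk) {p : ℕ} (hp : 2 ≤ p) (r : Fk) (β κ : k) (m : ℤ)
    (hm : 0 ≤ m)
    (h : r ^ p + algebraMap k Fk β * r + algebraMap k Fk κ = 0 ∨
      -((p : ℤ) * m) ≤ v.ord (r ^ p + algebraMap k Fk β * r + algebraMap k Fk κ)) :
    r = 0 ∨ -m ≤ v.ord r := by
  rw [ci_bound_iff] at h ⊢
  rw [neg_neg] at h ⊢
  rcases le_or_gt (v.adicValuation r) 1 with h1 | h1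
  · refine h1.trans ?_
    rw [← WithZero.exp_zero, WithZero.exp_le_exp]
    exact hm
  · have e1 : v.adicValuation (algebraMap k Fk β * r) < v.adicValuation (r ^ p) := by
      rw [map_mul, map_pow]
      calc v.adicValuation (algebraMap k Fk β) * v.adicValuation r
            ≤ 1 * v.adicValuation r :=
              mul_le_mul_left (v.adicValuation_algebraMap_le_one β) _
        _ = v.adicValuation r := one_mul _
        _ < v.adicValuation r ^ p := lt_self_pow₀ h1 (by omega)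
    have e2 : v.adicValuation (algebraMap k Fk κ) < v.adicValuation (r ^ p) := by
      rw [map_pow]
      exact lt_of_le_of_lt (v.adicValuation_algebraMap_le_one κ) (one_lt_pow₀ h1 (by omega))
    have e3 : v.adicValuation (r ^ p + algebraMap k Fk β * r) = v.adicValuation (r ^ p) :=
      Valuation.map_add_eq_of_lt_left _ e1
    have e4 : v.adicValuation (r ^ p + algebraMap k Fk β * r + algebraMap k Fk κ)
        = v.adicValuation (r ^ p) := by
      rw [Valuation.map_add_eq_of_lt_left _ (by rw [e3]; exact e2), e3]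
    have e5 : ((p : ℤ) * m) = p • m := by rw [nsmul_eq_mul]
    rw [e4, map_pow, e5, WithZero.exp_nsmul] at h
    exact le_of_pow_le_pow_left₀ (by omega) zero_le h

/-- pole orders, Artin–Schreier form: `(r^p + β r + κ) φ^(p c) ∈ L(p c n Q)` implies
`r φ^c ∈ L(c n Q)` -/
theorem cxi_as {Q : Place k Fk} {n : ℕ} {φ : Fk} (hφ : CiExact Q n φ) {p : ℕ} (hp : 2 ≤ p)
    {c : ℕ} {r : Fk} (β κ : k)
    (h : (r ^ p + algebraMap k Fk β * r + algebraMap k Fk κ) * φ ^ (p * c) ∈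
      riemannRochSpace (K := k) (Finsupp.single Q ((p * c * n : ℕ) : ℤ))) :
    r * φ ^ c ∈ riemannRochSpace (K := k) (Finsupp.single Q ((c * n : ℕ) : ℤ)) := by
  rw [ci_mem_single_iff] at h ⊢
  have hφ0 := hφ.ne_zero
  refine ⟨?_, fun v hv => ?_⟩
  · have h1 := (ci_mul_pow_iff hφ0 (p * c) _).mp h.1
    rw [hφ.ord_Q] at h1
    have h2 : r ^ p + algebraMap k Fk β * r + algebraMap k Fk κ = 0 ∨
        -((p : ℤ) * 0) ≤ Q.ord (r ^ p + algebraMap k Fk β * r + algebraMap k Fk κ) := by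
      refine h1.imp id fun h' => ?_
      push_cast at h'
      have e : -((p : ℤ) * c * n) - (p : ℤ) * c * -(n : ℤ) = 0 := by ring
      rw [e] at h'
      simpa using h'
    have h3 := cxi_as_local Q hp r β κ 0 le_rfl h2
    rw [ci_mul_pow_iff hφ0, hφ.ord_Q]
    refine h3.imp id fun h' => ?_
    push_cast
    have e : -((c : ℤ) * n) - (c : ℤ) * -(n : ℤ) = 0 := by ring
    rw [e]
    simpa using h'
  · have hd := hφ.ord_ne v hv
    have hcd : (0 : ℤ) ≤ c * v.ord φ := mul_nonneg (Int.natCast_nonneg c) hd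
    have h1 := (ci_mul_pow_iff hφ0 (p * c) _).mp (h.2 v hv)
    have h2 : r ^ p + algebraMap k Fk β * r + algebraMap k Fk κ = 0 ∨
        -((p : ℤ) * ((c : ℤ) * v.ord φ)) ≤
          v.ord (r ^ p + algebraMap k Fk β * r + algebraMap k Fk κ) := by
      refine h1.imp id fun h' => ?_
      push_cast at h'
      have e : (0 : ℤ) - (p : ℤ) * c * v.ord φ = -((p : ℤ) * ((c : ℤ) * v.ord φ)) := by ring
      rw [e] at h'
      exact h'
    have h3 := cxi_as_local v hp r β κ _ hcd h2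
    rw [ci_mul_pow_iff hφ0]
    refine h3.imp id fun h' => ?_
    have e : (0 : ℤ) - (c : ℤ) * v.ord φ = -((c : ℤ) * v.ord φ) := by ring
    rw [e]
    exact h'

end Exact

section Inst

variable {K F k Fk : Type*} [Field K] [Field F] [Algebra K F] [Field k] [Field Fk] [Algebra k Fk]
variable {A : ValuationSubring K} {π : A →+* k}
variable [RRHyp K F] [RRHyp k Fk]
variable {R₁ R₂ : ConstRed A π Fk F} {P₁ P₂ : Place K F} {Q : Place k Fk}

/-- **CRUX-INST at `m = 1`, with the exact pole orders of `red f`** (the construction of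
`GlueData.twistCrux`). -/
theorem cxi_twistCrux [Infinite k] (X : GlueData R₁ R₂ P₁ P₂ Q) {a₀ a₁ m : ℕ}
    (H : F3dEX R₁ R₂ P₁ P₂ Q Q a₀) (ha : a₀ ≤ a₁)
    (hyp : TwistHyp (SSRed.ofPair R₁ R₂) X.gluing m (f3dDiv P₁ P₂ 1 1) a₁)
    (hP : P₁ ≠ P₂) (hn : 0 < X.n) :
    ∃ (D₂ : Divisor K F) (n₂ : ℕ) (f finv : (SSRed.ofPair R₁ R₂).O),
      TwistCrux (SSRed.ofPair R₁ R₂) X.gluing 1 (f3dDiv P₁ P₂ 1 1) D₂ n₂ f finv ∧
      CiExact Q n₂ ((SSRed.ofPair R₁ R₂).red f).1 ∧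
      CiExact Q n₂ ((SSRed.ofPair R₁ R₂).red f).2 := by
  classical
  obtain ⟨c, hc, hcg⟩ : ∃ c : ℕ, a₁ ≤ c ∧ 2 * genusFF k Fk ≤ c + 1 :=
    ⟨a₁ + 2 * genusFF k Fk, by omega, by omega⟩
  obtain ⟨φ, hφg, hφe, hφ1, hφ2⟩ := X.exists_phi hyp hc hcg
  -- the lift
  have hφg' := hφg
  rw [← hyp.f3 (c + 1) (by omega)] at hφg'
  obtain ⟨f, hf, hfr⟩ := hφg'
  have hfr1 : R₁.red ⟨(f : F), f.2.1⟩ = φ.1 := congrArg Prod.fst hfr
  have hfr2 : R₂.red ⟨(f : F), f.2.2⟩ = φ.2 := congrArg Prod.snd hfr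
  have hf0 : (f : F) ≠ 0 := by
    intro h0
    have : f = 0 := Subtype.ext h0
    rw [this, map_zero] at hfr
    exact hφ1.ne_zero (congrArg Prod.fst hfr).symm
  have hfL := (tw_mem_L_iff hf0).mp hf
  -- exactness at `P₁`
  have hex1 : P₁.ord (f : F) = -((c + 1 : ℕ) : ℤ) := by
    have h1 := hfL P₁
    rw [GlueData.nsmul_f3dDiv, ci_f3dDiv_apply_fst hP] at h1
    by_contra hne
    have hlt : -(c : ℤ) ≤ P₁.ord (f : F) := by
      push_cast at h1 hne
      omega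
    have hmem : (f : F) ∈ riemannRochSpace (K := K) (f3dDiv P₁ P₂ c (c + 1)) := by
      rw [tw_mem_L_iff hf0]
      intro v
      by_cases hv : v = P₁
      · rw [hv, ci_f3dDiv_apply_fst hP]
        exact hlt
      · have h2 := hfL v
        rw [GlueData.nsmul_f3dDiv] at h2
        have e : f3dDiv P₁ P₂ c (c + 1) v = f3dDiv P₁ P₂ (c + 1) (c + 1) v := by
          rw [f3dDiv, f3dDiv, Finsupp.add_apply, Finsupp.add_apply,
            Finsupp.single_eq_of_ne hv, Finsupp.single_eq_of_ne hv]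
        rw [e]
        exact h2
    have hM : φ ∈ f3dM R₁ R₂ (f3dDiv P₁ P₂ c (c + 1)) :=
      (mem_f3dM R₁ R₂ _ _).mpr ⟨f, hmem, hfr⟩
    have hbox := H.le_box (ha.trans hc) ((ha.trans hc).trans (Nat.le_succ c)) (by omega)
      (by omega) hM
    exact GlueData.not_mem_of_ciExact hφ1 hbox.1
  -- exactness at `P₂`
  have hex2 : P₂.ord (f : F) = -((c + 1 : ℕ) : ℤ) := by
    have h1 := hfL P₂
    rw [GlueData.nsmul_f3dDiv, ci_f3dDiv_apply_snd hP] at h1
    by_contra hne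
    have hlt : -(c : ℤ) ≤ P₂.ord (f : F) := by
      push_cast at h1 hne
      omega
    have hmem : (f : F) ∈ riemannRochSpace (K := K) (f3dDiv P₁ P₂ (c + 1) c) := by
      rw [tw_mem_L_iff hf0]
      intro v
      by_cases hv : v = P₂
      · rw [hv, ci_f3dDiv_apply_snd hP]
        exact hlt
      · have h2 := hfL v
        rw [GlueData.nsmul_f3dDiv] at h2
        have e : f3dDiv P₁ P₂ (c + 1) c v = f3dDiv P₁ P₂ (c + 1) (c + 1) v := by
          rw [f3dDiv, f3dDiv, Finsupp.add_apply, Finsupp.add_apply,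
            Finsupp.single_eq_of_ne hv, Finsupp.single_eq_of_ne hv]
        rw [e]
        exact h2
    have hM : φ ∈ f3dM R₁ R₂ (f3dDiv P₁ P₂ (c + 1) c) :=
      (mem_f3dM R₁ R₂ _ _).mpr ⟨f, hmem, hfr⟩
    have hbox := H.le_box ((ha.trans hc).trans (Nat.le_succ c)) (ha.trans hc) (by omega)
      (by omega) hM
    exact GlueData.not_mem_of_ciExact hφ2 hbox.2
  -- the inverse
  have hinv : ((f : F))⁻¹ ∈ (SSRed.ofPair R₁ R₂).O :=
    ⟨ci_inv_mem R₁ ⟨(f : F), f.2.1⟩ (by rw [hfr1]; exact hφ1.ne_zero),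
      ci_inv_mem R₂ ⟨(f : F), f.2.2⟩ (by rw [hfr2]; exact hφ2.ne_zero)⟩
  -- the divisor of zeros
  have hD₂ : ∀ v : Place K F, (divOf (K := K) (f : F) + (c + 1) • f3dDiv P₁ P₂ 1 1) v =
      v.ord (f : F) + ((c + 1 : ℕ) : ℤ) * f3dDiv P₁ P₂ 1 1 v := by
    intro v
    rw [Finsupp.add_apply, divOf_apply hf0, Finsupp.smul_apply, nsmul_eq_mul]
  have hD₁ : ∀ v : Place K F, 0 ≤ f3dDiv P₁ P₂ 1 1 v := fun v =>
    Finsupp.le_def.mp (f3dDiv_nonneg P₁ P₂ 1 1) v
  have hmk : (((1 : ℕ) : ℕ) : k) ≠ 0 := by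
    rw [Nat.cast_one]
    exact one_ne_zero
  refine ⟨divOf (K := K) (f : F) + (c + 1) • f3dDiv P₁ P₂ 1 1, c + 1, f, ⟨((f : F))⁻¹, hinv⟩,
    ⟨Nat.succ_pos c, hmk, Subtype.ext (mul_inv_cancel₀ hf0), hD₁, ?_, ?_, ?_, ?_, ?_, ?_, ?_⟩,
    by rw [hfr]; exact hφ1, by rw [hfr]; exact hφ2⟩
  · -- `D₂ ≥ 0`
    intro v
    rw [hD₂]
    have := hfL v
    rw [Finsupp.smul_apply, nsmul_eq_mul] at this
    linarith
  · -- disjoint
    intro v
    by_cases h1 : v = P₁
    · right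
      rw [hD₂, h1, hex1, ci_f3dDiv_apply_fst hP]
      push_cast
      ring
    by_cases h2 : v = P₂
    · right
      rw [hD₂, h2, hex2, ci_f3dDiv_apply_snd hP]
      push_cast
      ring
    · left
      exact ci_f3dDiv_apply_of_ne 1 1 h1 h2
  · -- `ord f`
    intro v
    rw [hD₂]
    ring
  · -- `red f` glued
    rw [hfr]
    exact hφg
  · -- `e₁ (red f) ≠ 0`
    intro i
    rw [hfr, hφe]
    exact one_ne_zero
  · -- cst
    intro a c' r _ hr hrφ heq
    rw [hfr] at hrφ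
    obtain ⟨c₁, hc₁⟩ := ci_const hφ1 hr.1 hrφ.1
    obtain ⟨c₂, hc₂⟩ := ci_const hφ2 hr.2 hrφ.2
    have hr' : r = (algebraMap k Fk c₁, algebraMap k Fk c₂) := Prod.ext hc₁.symm hc₂.symm
    have hn' : 0 < X.gluing.n := hn
    have h12 : c₁ = c₂ := by
      have h := congrFun heq ⟨0, hn'⟩
      rw [hr', X.gluing_e₁_const, X.gluing_e₂_const] at h
      exact h
    refine ⟨c₁, ?_⟩
    rw [hr', Prod.algebraMap_apply, h12]
  · -- pol
    intro a c' g₁ g₂ h1 h2 h3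
    rw [hfr] at h2 h3 ⊢
    obtain ⟨p1, p2⟩ := ci_pol hφ1 h1.1 h2.1 h3.1
    obtain ⟨q1, q2⟩ := ci_pol hφ2 h1.2 h2.2 h3.2
    exact ⟨⟨p1, q1⟩, ⟨p2, q2⟩⟩

/-- **(CRUX-SS) at the instance**, for `u = 1 + a g ∈ O₁ ∩ O₂` with `div u = p E'` and
`E' + n (P₁ + P₂) ≥ 0`. -/
theorem cxi_principal_O [Infinite k] (X : GlueData R₁ R₂ P₁ P₂ Q) {a₀ : ℕ}
    (H : F3dEX R₁ R₂ P₁ P₂ Q Q a₀) {p : ℕ} (hp : p.Prime)
    (hpK : ((p : ℕ) : K) ≠ 0) (hpk : ((p : ℕ) : k) = 0) (hP : P₁ ≠ P₂) (hn : 0 < X.n)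
    (hk : ∀ (z : Fk) (β κ : k), z ^ p + algebraMap k Fk β * z = algebraMap k Fk κ →
      z ∈ Set.range (algebraMap k Fk))
    (E' : Divisor K F) (hE' : Divisor.degree E' = 0) (n : ℕ)
    (hEn : ∀ v : Place K F, 0 ≤ E' v + n * f3dDiv P₁ P₂ 1 1 v)
    (u uinv g : (SSRed.ofPair R₁ R₂).O) (huu : u * uinv = 1) (a : A)
    (hu : u = 1 + (SSRed.ofPair R₁ R₂).C a * g)
    (ha : A.valuation ((a : K) ^ (p - 1)) < A.valuation (((p : ℕ) : K) ^ p))
    (hdiv : ∀ v : Place K F, v.ord (u : F) = p * E' v) :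
    E' ∈ Divisor.principal (K := K) (F := F) := by
  obtain ⟨a₁, ha₁, hyp⟩ := X.twistHyp H hp.pos
  obtain ⟨D₂, n₂, f, finv, hc, hφ1, hφ2⟩ := cxi_twistCrux X H ha₁ hyp hP hn
  have hinj : Function.Injective (algebraMap k Fk) := (algebraMap k Fk).injective
  refine cxt_principal hp hpK hpk hyp hc ?_ ?_ ?_ ?_ E' hE' n hEn u uinv g huu a hu ha hdiv
  · -- pol
    intro a c g₁ g₂ h1 h2 h3
    obtain ⟨p1, p2⟩ := ci_pol hφ1 h1.1 h2.1 h3.1
    obtain ⟨q1, q2⟩ := ci_pol hφ2 h1.2 h2.2 h3.2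
    exact ⟨⟨p1, q1⟩, ⟨p2, q2⟩⟩
  · -- AS
    intro c r β κ h
    exact ⟨cxi_as hφ1 hp.two_le β κ h.1, cxi_as hφ2 hp.two_le β κ h.2⟩
  · -- AS constants
    intro z β κ h
    obtain ⟨c₁, hc₁⟩ := hk z.1 β κ (congrArg Prod.fst h)
    obtain ⟨c₂, hc₂⟩ := hk z.2 β κ (congrArg Prod.snd h)
    have hz : z = (algebraMap k Fk c₁, algebraMap k Fk c₂) := Prod.ext hc₁.symm hc₂.symm
    rw [hz]
    exact X.const_mem_T0 c₁ c₂
  · -- `p`-th roots of constants
    intro z κ h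
    have h1 : z.1 ^ p = algebraMap k Fk κ := congrArg Prod.fst h
    have h2 : z.2 ^ p = algebraMap k Fk κ := congrArg Prod.snd h
    obtain ⟨c₁, hc₁⟩ := hk z.1 0 κ (by rw [map_zero, zero_mul, add_zero]; exact h1)
    obtain ⟨c₂, hc₂⟩ := hk z.2 0 κ (by rw [map_zero, zero_mul, add_zero]; exact h2)
    have h12 : c₁ = c₂ := by
      apply cxt_pow_inj hp hpk
      apply hinj
      rw [map_pow, map_pow, hc₁, hc₂, h1, h2]
    refine ⟨c₁, ?_⟩
    rw [Prod.algebraMap_apply]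
    exact Prod.ext hc₁ (by rw [h12]; exact hc₂)

/-- the `K`-subalgebra of the functions which are regular outside `P₁` and `P₂` -/
def cxiB (P₁ P₂ : Place K F) : Subalgebra K F where
  carrier := {x | ∀ v : Place K F, v ≠ P₁ → v ≠ P₂ → v.adicValuation x ≤ 1}
  mul_mem' := by
    intro x y hx hy v h1 h2
    rw [map_mul]
    exact mul_le_one₀ (hx v h1 h2) zero_le (hy v h1 h2)
  one_mem' := fun v _ _ => by rw [map_one]
  add_mem' := by
    intro x y hx hy v h1 h2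
    exact (Valuation.map_add _ _ _).trans (max_le (hx v h1 h2) (hy v h1 h2))
  zero_mem' := fun v _ _ => by rw [map_zero]; exact zero_le
  algebraMap_mem' := fun c v _ _ => v.adicValuation_algebraMap_le_one c

theorem mem_cxiB (P₁ P₂ : Place K F) (x : F) :
    x ∈ cxiB P₁ P₂ ↔ ∀ v : Place K F, v ≠ P₁ → v ≠ P₂ → v.adicValuation x ≤ 1 := Iff.rfl

theorem mem_cxiB_iff_ord (P₁ P₂ : Place K F) (x : F) :
    x ∈ cxiB P₁ P₂ ↔ ∀ v : Place K F, v ≠ P₁ → v ≠ P₂ → (x = 0 ∨ 0 ≤ v.ord x) := by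
  rw [mem_cxiB]
  refine forall_congr' fun v => forall_congr' fun _ => forall_congr' fun _ => ?_
  rw [ci_bound_iff, neg_zero, WithZero.exp_zero]

/-- **(CRUX-SS)** in the form of `hcrux` of `S33lib/RegimeTwoGl.lean`: a Kummer function
`1 + a t` with `t ∈ O₁ ∩ O₂` regular outside the two cusps, of level `|a|^(p-1) < |p|^p`,
has a principal divisor class. -/
theorem cxi_principal [Infinite k] (X : GlueData R₁ R₂ P₁ P₂ Q) {a₀ : ℕ}
    (H : F3dEX R₁ R₂ P₁ P₂ Q Q a₀) {p : ℕ} (hp : p.Prime)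
    (hpK : ((p : ℕ) : K) ≠ 0) (hpk : ((p : ℕ) : k) = 0) (hP : P₁ ≠ P₂) (hn : 0 < X.n)
    (hk : ∀ (z : Fk) (β κ : k), z ^ p + algebraMap k Fk β * z = algebraMap k Fk κ →
      z ∈ Set.range (algebraMap k Fk))
    (a : A) (ha : A.valuation ((a : K) ^ (p - 1)) < A.valuation (((p : ℕ) : K) ^ p))
    (t : F) (htB : t ∈ cxiB P₁ P₂) (ht₁ : t ∈ R₁.O) (ht₂ : t ∈ R₂.O) (E : Divisor K F)
    (hE : p • E = divOf (K := K) (1 + algebraMap K F (a : K) * t)) :
    E ∈ Divisor.principal (K := K) (F := F) := by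
  classical
  set S := SSRed.ofPair R₁ R₂ with hS
  have hπa : π a = 0 :=
    (S.π_eq_zero_iff a).mpr (A.mem_nonunits_iff.mpr (cxt_val_lt_one a ha))
  set g : S.O := ⟨t, ht₁, ht₂⟩ with hg
  set u : S.O := 1 + S.C a * g with hu
  have hucoe : ((u : S.O) : F) = 1 + algebraMap K F (a : K) * t := rfl
  have hured : S.red u = 1 := by
    rw [hu, map_add, map_one, map_mul, S.red_C, hπa, map_zero, zero_mul, add_zero]
  have hu0 : ((u : S.O) : F) ≠ 0 := by
    intro h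
    have : u = 0 := Subtype.ext h
    rw [this, map_zero] at hured
    exact zero_ne_one hured
  have hred1 : R₁.red ⟨(u : F), u.2.1⟩ = 1 := congrArg Prod.fst hured
  have hred2 : R₂.red ⟨(u : F), u.2.2⟩ = 1 := congrArg Prod.snd hured
  have hinv : ((u : F))⁻¹ ∈ S.O :=
    ⟨ci_inv_mem R₁ ⟨(u : F), u.2.1⟩ (by rw [hred1]; exact one_ne_zero),
      ci_inv_mem R₂ ⟨(u : F), u.2.2⟩ (by rw [hred2]; exact one_ne_zero)⟩
  have huu : u * (⟨((u : F))⁻¹, hinv⟩ : S.O) = 1 := Subtype.ext (mul_inv_cancel₀ hu0)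
  have hp0 : p ≠ 0 := hp.ne_zero
  have hdeg : Divisor.degree E = 0 := by
    have h := congrArg Divisor.degree hE
    rw [map_nsmul, degree_divOf, nsmul_eq_mul] at h
    rcases mul_eq_zero.mp h with h | h
    · exact absurd (by exact_mod_cast h) hp0
    · exact h
  have hdiv : ∀ v : Place K F, v.ord (u : F) = p * E v := by
    intro v
    have h := DFunLike.congr_fun hE v
    rw [Finsupp.smul_apply, nsmul_eq_mul, ← hucoe, divOf_apply hu0] at h
    exact h.symm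
  -- `u` is regular outside the cusps
  have huB : (u : F) ∈ cxiB P₁ P₂ := by
    rw [hucoe]
    exact (cxiB P₁ P₂).add_mem (cxiB P₁ P₂).one_mem
      ((cxiB P₁ P₂).mul_mem ((cxiB P₁ P₂).algebraMap_mem _) htB)
  have hreg : ∀ v : Place K F, v ≠ P₁ → v ≠ P₂ → 0 ≤ E v := by
    intro v h1 h2
    have h := ((mem_cxiB_iff_ord P₁ P₂ _).mp huB v h1 h2).resolve_left hu0
    rw [hdiv v] at h
    have hp' : (0 : ℤ) < p := by exact_mod_cast hp.pos
    by_contra hneg
    rw [not_le] at hneg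
    have := mul_neg_of_pos_of_neg hp' hneg
    omega
  refine cxi_principal_O X H hp hpK hpk hP hn hk E hdeg ((E P₁).natAbs + (E P₂).natAbs) ?_
    u ⟨((u : F))⁻¹, hinv⟩ g huu a hu ha hdiv
  intro v
  have hD := Finsupp.le_def.mp (f3dDiv_nonneg P₁ P₂ 1 1) v
  have hnn : (0 : ℤ) ≤ (((E P₁).natAbs + (E P₂).natAbs : ℕ) : ℤ) := Int.natCast_nonneg _
  by_cases h1 : v = P₁
  · rw [h1, ci_f3dDiv_apply_fst hP]
    have e1 : -(E P₁) ≤ ((E P₁).natAbs : ℤ) := by
      have := Int.le_natAbs (a := -(E P₁))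
      rwa [Int.natAbs_neg] at this
    have e2 : (0 : ℤ) ≤ ((E P₂).natAbs : ℤ) := Int.natCast_nonneg _
    simp only [Nat.cast_add, Nat.cast_one, mul_one]
    linarith
  by_cases h2 : v = P₂
  · rw [h2, ci_f3dDiv_apply_snd hP]
    have e1 : -(E P₂) ≤ ((E P₂).natAbs : ℤ) := by
      have := Int.le_natAbs (a := -(E P₂))
      rwa [Int.natAbs_neg] at this
    have e2 : (0 : ℤ) ≤ ((E P₁).natAbs : ℤ) := Int.natCast_nonneg _
    simp only [Nat.cast_add, Nat.cast_one, mul_one]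
    linarith
  · rw [ci_f3dDiv_apply_of_ne 1 1 h1 h2, mul_zero, add_zero]
    exact hreg v h1 h2

end Inst

end Fermat.Agent.S33lib

end
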