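/-
Item 86 (S33), block TOR_p, piece T5 (helper22): **the rings `B₁`, `B₂` of the level induction
and (CONST), (ROOT₂), (INV1)**, abstract (language of `S34lib/Twist.lean`).

Setting: `S : SSRed A π R F` (sup-norm ball of the two valuations, `R = Fk × Fk`), a gluing `G`,
`hyp : TwistHyp S G p D₁ a₀` (`red (L(a D₁) ∩ O) = glued 1 a`), and the crux datum
`hc : TwistCrux S G 1 D₁ D₂ n₂ f finv` (`div f = D₂ - n₂ D₁`, `red f` glued, `cst`).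

* `glbB0 D hD`   : the subring `⋃ₐ L(a D)` of `F` (poles on the support of `D ≥ 0`);
* `glbB S D hD`  : the subring `{z | ∃ y ∈ B0, y a 1-unit of S, z y ∈ B0}` (fractions with a
  1-unit denominator: "poles REDUCING to the support of `D`");
* `glb_algebraMap_mem` : the constants lie in `B`;
* `glb_inv1`     : (INV1) a 1-unit of `S` in `B` has its inverse in `B`;
* `glb_const`    : (CONST) `g ∈ B(D₁) ∩ O`, `g₂ ∈ B(D₂) ∩ O`, `red g₂ = - red g` ⟹ `red g` is a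
  (diagonal) constant;
* `glb_root`     : (ROOT₂) over `K`: `G' ∈ B(D₂) ∩ O`, `H' ∈ O`, `red G' = (red H')^p` ⟹ there is
  `Y ∈ L(c D₂) ∩ O` with `red Y = red H'`;
* `glb_const_pair` : (CONST) for `S = SSRed.ofPair R₁ R₂`, VERBATIM `hconst` of `rss_core_const`
  (`RaySSConst.lean`, helper26), for every subfield `F1`.

No rationality is used.  All proofs complete.
-/
import Mathlib
import Fermat.Agent.S24lib.FFBasic
import Fermat.Agent.S34lib.Twist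
import Fermat.Agent.S34lib.CruxSSBuild

set_option autoImplicit false
set_option linter.style.haveILetI false
set_option linter.unusedSectionVars false
set_option linter.unusedVariables false

noncomputable section

namespace Fermat.Agent.S33lib

open AlgebraicCurve Fermat.Agent.S34lib Fermat.Agent.RRlib Fermat.Agent.GoodRed
  Fermat.Agent.S24lib

section Rings

variable {K F k : Type*} [Field K] [Field F] [Algebra K F] [Field k]
variable {R : Type*} [CommRing R] [Algebra k R]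
variable {A : ValuationSubring K} {π : A →+* k}

/-- `L(a D) ⊆ L(b D)` for `a ≤ b`, `D ≥ 0` -/
theorem glb_L_mono {D : Divisor K F} (hD : ∀ v, 0 ≤ D v) {a b : ℕ} (hab : a ≤ b) :
    riemannRochSpace (K := K) (a • D) ≤ riemannRochSpace (K := K) (b • D) := by
  apply riemannRochSpace_mono
  intro v
  simp only [Finsupp.smul_apply, nsmul_eq_mul]
  have h1 : (a : ℤ) ≤ b := by exact_mod_cast hab
  exact mul_le_mul_of_nonneg_right h1 (hD v)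

/-- the constants lie in `L(a D)`, `D ≥ 0` -/
theorem glb_const_mem_L {D : Divisor K F} (hD : ∀ v, 0 ≤ D v) (a : ℕ) (c : K) :
    algebraMap K F c ∈ riemannRochSpace (K := K) (a • D) := by
  rw [mem_riemannRochSpace_iff]
  intro v
  right
  have h1 : (0 : ℤ) ≤ v.ord (algebraMap K F c) :=
    (ffMem_iff_ord_nonneg v).1 (v.algebraMap_mem' c)
  have h2 : (0 : ℤ) ≤ (a • D) v := by
    simp only [Finsupp.smul_apply, nsmul_eq_mul]
    exact mul_nonneg (Int.natCast_nonneg a) (hD v)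
  omega

/-- **the ring `B⁰ = ⋃ₐ L(a D)`** of the functions with poles on the support of `D ≥ 0` -/
def glbB0 (D : Divisor K F) (hD : ∀ v, 0 ≤ D v) : Subring F where
  carrier := {g | ∃ a : ℕ, g ∈ riemannRochSpace (K := K) (a • D)}
  zero_mem' := ⟨0, Submodule.zero_mem _⟩
  one_mem' := ⟨0, by simpa using glb_const_mem_L hD 0 (1 : K)⟩
  add_mem' := by
    rintro x y ⟨a, ha⟩ ⟨b, hb⟩
    exact ⟨a + b, Submodule.add_mem _ (glb_L_mono hD (Nat.le_add_right a b) ha)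
      (glb_L_mono hD (Nat.le_add_left b a) hb)⟩
  mul_mem' := by
    rintro x y ⟨a, ha⟩ ⟨b, hb⟩
    refine ⟨a + b, ?_⟩
    have := tw_mul_mem_L ha hb
    rwa [← add_smul] at this
  neg_mem' := by
    rintro x ⟨a, ha⟩
    exact ⟨a, Submodule.neg_mem _ ha⟩

theorem mem_glbB0 {D : Divisor K F} {hD : ∀ v, 0 ≤ D v} {g : F} :
    g ∈ glbB0 D hD ↔ ∃ a : ℕ, g ∈ riemannRochSpace (K := K) (a • D) := Iff.rfl

theorem glb_mem_B0_of_mem_L {D : Divisor K F} (hD : ∀ v, 0 ≤ D v) {a : ℕ} {g : F}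
    (hg : g ∈ riemannRochSpace (K := K) (a • D)) : g ∈ glbB0 D hD := ⟨a, hg⟩

variable (S : SSRed A π R F)

/-- `y` is a 1-unit of `S` -/
def GlbOne (y : F) : Prop := ∃ hy : y ∈ S.O, S.red ⟨y, hy⟩ = 1

variable {S}

theorem glbOne_one : GlbOne S (1 : F) := ⟨S.O.one_mem, map_one S.red⟩

theorem GlbOne.mul {y y' : F} (h : GlbOne S y) (h' : GlbOne S y') : GlbOne S (y * y') := by
  obtain ⟨hy, hr⟩ := h
  obtain ⟨hy', hr'⟩ := h'
  refine ⟨S.O.mul_mem hy hy', ?_⟩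
  have : (⟨y * y', S.O.mul_mem hy hy'⟩ : S.O) = ⟨y, hy⟩ * ⟨y', hy'⟩ := rfl
  rw [this, map_mul, hr, hr', one_mul]

theorem GlbOne.ne_zero [Nontrivial R] {y : F} (h : GlbOne S y) : y ≠ 0 := by
  obtain ⟨hy, hr⟩ := h
  intro h0
  have : (⟨y, hy⟩ : S.O) = 0 := Subtype.ext h0
  rw [this, map_zero] at hr
  exact zero_ne_one hr

variable (S)

/-- **the ring `B`**: the fractions `x / y`, `x, y ∈ B⁰`, `y` a 1-unit of `S` -/
def glbB (D : Divisor K F) (hD : ∀ v, 0 ≤ D v) : Subring F where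
  carrier := {z | ∃ y : F, y ∈ glbB0 D hD ∧ GlbOne S y ∧ z * y ∈ glbB0 D hD}
  zero_mem' := ⟨1, one_mem _, glbOne_one, by rw [zero_mul]; exact zero_mem _⟩
  one_mem' := ⟨1, one_mem _, glbOne_one, by rw [one_mul]; exact one_mem _⟩
  add_mem' := by
    rintro z z' ⟨y, hy, hy1, hzy⟩ ⟨y', hy', hy1', hzy'⟩
    refine ⟨y * y', mul_mem hy hy', hy1.mul hy1', ?_⟩
    have e : (z + z') * (y * y') = z * y * y' + z' * y' * y := by ring
    rw [e]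
    exact add_mem (mul_mem hzy hy') (mul_mem hzy' hy)
  mul_mem' := by
    rintro z z' ⟨y, hy, hy1, hzy⟩ ⟨y', hy', hy1', hzy'⟩
    refine ⟨y * y', mul_mem hy hy', hy1.mul hy1', ?_⟩
    have e : z * z' * (y * y') = z * y * (z' * y') := by ring
    rw [e]
    exact mul_mem hzy hzy'
  neg_mem' := by
    rintro z ⟨y, hy, hy1, hzy⟩
    refine ⟨y, hy, hy1, ?_⟩
    rw [neg_mul]
    exact neg_mem hzy

variable {S}

theorem mem_glbB {D : Divisor K F} {hD : ∀ v, 0 ≤ D v} {z : F} :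
    z ∈ glbB S D hD ↔ ∃ y : F, y ∈ glbB0 D hD ∧ GlbOne S y ∧ z * y ∈ glbB0 D hD := Iff.rfl

theorem glbB0_le_glbB (D : Divisor K F) (hD : ∀ v, 0 ≤ D v) : glbB0 D hD ≤ glbB S D hD :=
  fun z hz => ⟨1, one_mem _, glbOne_one, by rwa [mul_one]⟩

/-- the constants lie in `B` -/
theorem glb_algebraMap_mem (D : Divisor K F) (hD : ∀ v, 0 ≤ D v) (c : K) :
    algebraMap K F c ∈ glbB S D hD :=
  glbB0_le_glbB D hD ⟨0, glb_const_mem_L hD 0 c⟩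

/-- `L(a D) ⊆ B` -/
theorem glb_mem_B_of_mem_L {D : Divisor K F} (hD : ∀ v, 0 ≤ D v) {a : ℕ} {g : F}
    (hg : g ∈ riemannRochSpace (K := K) (a • D)) : g ∈ glbB S D hD :=
  glbB0_le_glbB D hD ⟨a, hg⟩

/-- **(INV1)**: a 1-unit of `S` in `B` has its inverse in `B` -/
theorem glb_inv1 [Nontrivial R] {D : Divisor K F} {hD : ∀ v, 0 ≤ D v} {z : F}
    (hz : z ∈ glbB S D hD) (hz1 : GlbOne S z) : z⁻¹ ∈ glbB S D hD := by
  obtain ⟨y, hy, hy1, hzy⟩ := hz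
  refine ⟨z * y, hzy, hz1.mul hy1, ?_⟩
  rw [← mul_assoc, inv_mul_cancel₀ hz1.ne_zero, one_mul]
  exact hy

/-- an element of `B ∩ O` has the reduction of an element of `B⁰ ∩ O` -/
theorem glb_exists_rep {D : Divisor K F} {hD : ∀ v, 0 ≤ D v} (g : S.O)
    (hg : (g : F) ∈ glbB S D hD) :
    ∃ (a : ℕ) (x : S.O), (x : F) ∈ riemannRochSpace (K := K) (a • D) ∧ S.red x = S.red g := by
  obtain ⟨y, hy, ⟨hyO, hy1⟩, a, ha⟩ := hg
  refine ⟨a, g * ⟨y, hyO⟩, ha, ?_⟩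
  rw [map_mul, hy1, mul_one]

end Rings

section Const

variable {K F k : Type*} [Field K] [Field F] [Algebra K F] [Field k]
variable {R : Type*} [CommRing R] [Algebra k R]
variable {A : ValuationSubring K} {π : A →+* k}
variable [RRBase K F] {S : SSRed A π R F} {G : Gluing k R} {m : ℕ} {D₁ D₂ : Divisor K F}
variable {a₀ n₂ : ℕ} {f finv : S.O}

/-- **(CONST) for `B⁰`**: `x₁ ∈ L(a D₁) ∩ O`, `x₂ ∈ L(c D₂) ∩ O`, `red x₂ = - red x₁` ⟹ `red x₁`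
is a constant. -/
theorem glb_const0 (hyp : TwistHyp S G m D₁ a₀) (hc : TwistCrux S G 1 D₁ D₂ n₂ f finv)
    {a c : ℕ} (x₁ x₂ : S.O) (hx₁ : (x₁ : F) ∈ riemannRochSpace (K := K) (a • D₁))
    (hx₂ : (x₂ : F) ∈ riemannRochSpace (K := K) (c • D₂)) (hred : S.red x₂ = - S.red x₁) :
    S.red x₁ ∈ Set.range (algebraMap k R) := by
  have hn₂ := hc.n₂_pos
  set a' : ℕ := max a a₀ with ha'
  set c' : ℕ := max c (a₀ + 1) with hc'
  have hc'pos : 0 < c' := lt_of_lt_of_le (Nat.succ_pos a₀) (le_max_right _ _)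
  have hc'a : a₀ ≤ c' * n₂ :=
    le_trans (le_trans (Nat.le_succ a₀) (le_max_right c (a₀ + 1)))
      (Nat.le_mul_of_pos_right c' hn₂)
  have h1 : (x₁ : F) ∈ riemannRochSpace (K := K) (a' • D₁) :=
    glb_L_mono hc.D₁_nonneg (le_max_left a a₀) hx₁
  have hr : S.red x₁ ∈ G.glued 1 a' := by
    rw [← hyp.f3 a' (le_max_right a a₀)]
    exact S.red_mem_redSp _ h1
  obtain ⟨hrT, hrg⟩ := G.mem_glued_one.mp hr
  have h2 : (x₂ : F) ∈ riemannRochSpace (K := K) (c' • D₂ + 0) := by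
    rw [add_zero]
    exact glb_L_mono hc.D₂_nonneg (le_max_left c (a₀ + 1)) hx₂
  have h3 : ((f ^ c' * x₂ : S.O) : F) ∈ riemannRochSpace (K := K) ((c' * n₂) • D₁) := by
    have := hc.mul_pow_mem h2
    rwa [add_zero] at this
  have h4 := S.red_mem_redSp _ h3
  rw [hyp.f3 _ hc'a, map_mul, map_pow, hred] at h4
  have h5 : S.red x₁ * S.red f ^ c' ∈ G.T (c' * n₂) := by
    have h6 := (G.mem_glued_one.mp h4).1
    have e : S.red x₁ * S.red f ^ c' = -(S.red f ^ c' * -S.red x₁) := by ring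
    rw [e]
    exact Submodule.neg_mem _ h6
  exact hc.cst a' c' _ hc'pos hrT h5 hrg

/-- **(CONST)**: `g ∈ B(D₁) ∩ O`, `g₂ ∈ B(D₂) ∩ O`, `red g₂ = - red g` ⟹ `red g` is a
constant. -/
theorem glb_const (hyp : TwistHyp S G m D₁ a₀) (hc : TwistCrux S G 1 D₁ D₂ n₂ f finv)
    (g g₂ : S.O) (hg : (g : F) ∈ glbB S D₁ hc.D₁_nonneg)
    (hg₂ : (g₂ : F) ∈ glbB S D₂ hc.D₂_nonneg) (hred : S.red g₂ = - S.red g) :
    S.red g ∈ Set.range (algebraMap k R) := by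
  obtain ⟨a, x₁, hx₁, hr₁⟩ := glb_exists_rep g hg
  obtain ⟨c, x₂, hx₂, hr₂⟩ := glb_exists_rep g₂ hg₂
  rw [← hr₁]
  exact glb_const0 hyp hc x₁ x₂ hx₁ hx₂ (by rw [hr₁, hr₂, hred])

/-- **(ROOT₂) for `B⁰`**, over `K`: `x ∈ L(c D₂) ∩ O`, `H' ∈ O`, `red x = (red H')^p` ⟹ there is
`Y ∈ L(c' D₂) ∩ O` with `red Y = red H'`. -/
theorem glb_root0 {p : ℕ} [CharP k p] (hp : p.Prime) (hyp : TwistHyp S G p D₁ a₀)
    (hc : TwistCrux S G 1 D₁ D₂ n₂ f finv) {c : ℕ} (x H' : S.O)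
    (hx : (x : F) ∈ riemannRochSpace (K := K) (c • D₂)) (hred : S.red x = S.red H' ^ p) :
    ∃ (c' : ℕ) (Y : S.O), (Y : F) ∈ riemannRochSpace (K := K) (c' • D₂) ∧
      S.red Y = S.red H' := by
  haveI : Fact p.Prime := ⟨hp⟩
  have hn₂ := hc.n₂_pos
  set c' : ℕ := c + a₀ + 1 with hc'
  have hcp : c ≤ p * c' := by
    have h1 : c' ≤ p * c' := Nat.le_mul_of_pos_left c' hp.pos
    omega
  have hc'a : a₀ ≤ c' * n₂ := by
    have h1 : c' ≤ c' * n₂ := Nat.le_mul_of_pos_right c' hn₂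
    omega
  have hpa : a₀ ≤ p * c' * n₂ := by
    have h1 : c' * n₂ ≤ p * (c' * n₂) := Nat.le_mul_of_pos_left _ hp.pos
    rw [mul_assoc]
    omega
  have h2 : (x : F) ∈ riemannRochSpace (K := K) ((p * c') • D₂ + 0) := by
    rw [add_zero]
    exact glb_L_mono hc.D₂_nonneg hcp hx
  have h3 : ((f ^ (p * c') * x : S.O) : F) ∈
      riemannRochSpace (K := K) ((p * c' * n₂) • D₁) := by
    have := hc.mul_pow_mem h2
    rwa [add_zero] at this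
  have h4 := S.red_mem_redSp _ h3
  set r : R := S.red f ^ c' * S.red H' with hr
  have e : S.red (f ^ (p * c') * x) = r ^ p := by
    rw [map_mul, map_pow, hred, hr, mul_pow, ← pow_mul, mul_comm c' p]
  rw [hyp.f3 _ hpa, e] at h4
  obtain ⟨h5, h6⟩ := G.mem_glued_one.mp h4
  have hrT : r ∈ G.T (c' * n₂) := by
    apply hyp.root
    rwa [← mul_assoc]
  have hrg : G.e₁ r = G.e₂ r := by
    rw [G.e₁_pow hrT, G.e₂_pow hrT] at h6
    funext i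
    have h7 := congrFun h6 i
    rw [Pi.pow_apply, Pi.pow_apply] at h7
    exact frobenius_inj k p h7
  have h8 : r ∈ S.redSp (riemannRochSpace (K := K) ((c' * n₂) • D₁)) := by
    rw [hyp.f3 _ hc'a]
    exact G.mem_glued_one.mpr ⟨hrT, hrg⟩
  obtain ⟨y, hy, hyr⟩ := S.mem_redSp.mp h8
  refine ⟨c', finv ^ c' * y, ?_, ?_⟩
  · have h9 : (y : F) ∈ riemannRochSpace (K := K) ((c' * n₂) • D₁ + 0) := by rwa [add_zero]
    have := hc.inv_pow_mul_mem h9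
    rwa [add_zero] at this
  · rw [map_mul, map_pow, hyr, hr, ← mul_assoc, ← mul_pow, mul_comm (S.red finv), hc.red_unit,
      one_pow, one_mul]

/-- **(ROOT₂)**, over `K`: `G' ∈ B(D₂) ∩ O`, `H' ∈ O`, `red G' = (red H')^p` ⟹ there is
`Y ∈ L(c' D₂) ∩ O` (in particular `Y ∈ B(D₂)`) with `red Y = red H'`. -/
theorem glb_root {p : ℕ} [CharP k p] (hp : p.Prime) (hyp : TwistHyp S G p D₁ a₀)
    (hc : TwistCrux S G 1 D₁ D₂ n₂ f finv) (G' H' : S.O)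
    (hG : (G' : F) ∈ glbB S D₂ hc.D₂_nonneg) (hred : S.red G' = S.red H' ^ p) :
    ∃ (c' : ℕ) (Y : S.O), (Y : F) ∈ riemannRochSpace (K := K) (c' • D₂) ∧
      S.red Y = S.red H' := by
  obtain ⟨c, x, hx, hr⟩ := glb_exists_rep G' hG
  exact glb_root0 hp hyp hc x H' hx (by rw [hr, hred])

end Const

section Pair

variable {K F k Fk : Type*} [Field K] [Field F] [Algebra K F] [Field k] [Field Fk] [Algebra k Fk]
variable {A : ValuationSubring K} {π : A →+* k}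
variable [RRBase K F] (R₁ R₂ : ConstRed A π Fk F) {G : Gluing k (Fk × Fk)} {m : ℕ}
variable {D₁ D₂ : Divisor K F} {a₀ n₂ : ℕ} {f finv : (SSRed.ofPair R₁ R₂).O}

/-- the element of the ball of the pair -/
def glbMk (x : F) (h1 : x ∈ R₁.O) (h2 : x ∈ R₂.O) : (SSRed.ofPair R₁ R₂).O :=
  ⟨x, (SSRed.mem_ofPair_O R₁ R₂ x).2 ⟨h1, h2⟩⟩

theorem glbMk_coe (x : F) (h1 : x ∈ R₁.O) (h2 : x ∈ R₂.O) :
    ((glbMk R₁ R₂ x h1 h2 : (SSRed.ofPair R₁ R₂).O) : F) = x := rfl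

theorem glbMk_red (x : F) (h1 : x ∈ R₁.O) (h2 : x ∈ R₂.O) :
    (SSRed.ofPair R₁ R₂).red (glbMk R₁ R₂ x h1 h2) = (R₁.red ⟨x, h1⟩, R₂.red ⟨x, h2⟩) := rfl

theorem glb_red_pair (Y : (SSRed.ofPair R₁ R₂).O) :
    (SSRed.ofPair R₁ R₂).red Y =
      (R₁.red ⟨(Y : F), ((SSRed.mem_ofPair_O R₁ R₂ _).1 Y.2).1⟩,
        R₂.red ⟨(Y : F), ((SSRed.mem_ofPair_O R₁ R₂ _).1 Y.2).2⟩) := rfl

/-- a 1-unit of the pair: `y - 1` lies in both maximal ideals -/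
theorem glbOne_pair_iff (y : F) :
    GlbOne (SSRed.ofPair R₁ R₂) y ↔
      ∃ (h1 : y ∈ R₁.O) (h2 : y ∈ R₂.O), R₁.red ⟨y, h1⟩ = 1 ∧ R₂.red ⟨y, h2⟩ = 1 := by
  constructor
  · rintro ⟨hy, hr⟩
    have hy' := (SSRed.mem_ofPair_O R₁ R₂ y).1 hy
    have h : (R₁.red ⟨y, hy'.1⟩, R₂.red ⟨y, hy'.2⟩) = (1 : Fk × Fk) :=
      (glbMk_red R₁ R₂ y hy'.1 hy'.2).symm.trans hr
    exact ⟨hy'.1, hy'.2, congrArg Prod.fst h, congrArg Prod.snd h⟩
  · rintro ⟨h1, h2, e1, e2⟩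
    exact ⟨(SSRed.mem_ofPair_O R₁ R₂ y).2 ⟨h1, h2⟩,
      (glbMk_red R₁ R₂ y h1 h2).trans (Prod.ext e1 e2)⟩

/-- **(CONST) for the pair**, VERBATIM `hconst` of `rss_core_const`, for every subfield `F1`. -/
theorem glb_const_pair (hyp : TwistHyp (SSRed.ofPair R₁ R₂) G m D₁ a₀)
    (hc : TwistCrux (SSRed.ofPair R₁ R₂) G 1 D₁ D₂ n₂ f finv) (F1 : Subfield F) :
    ∀ (g g2 : F) (h1 : g ∈ R₁.O) (h2 : g ∈ R₂.O) (k1 : g2 ∈ R₁.O) (k2 : g2 ∈ R₂.O),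
      g ∈ F1 → g2 ∈ F1 → g ∈ glbB (SSRed.ofPair R₁ R₂) D₁ hc.D₁_nonneg →
      g2 ∈ glbB (SSRed.ofPair R₁ R₂) D₂ hc.D₂_nonneg →
      R₁.red ⟨g2, k1⟩ = - R₁.red ⟨g, h1⟩ → R₂.red ⟨g2, k2⟩ = - R₂.red ⟨g, h2⟩ →
      ∃ c : k, R₁.red ⟨g, h1⟩ = algebraMap k Fk c ∧ R₂.red ⟨g, h2⟩ = algebraMap k Fk c := by
  intro g g2 h1 h2 k1 k2 _ _ hg hg2 e1 e2
  have hred : (SSRed.ofPair R₁ R₂).red (glbMk R₁ R₂ g2 k1 k2) =
      - (SSRed.ofPair R₁ R₂).red (glbMk R₁ R₂ g h1 h2) := by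
    rw [glbMk_red, glbMk_red]
    exact Prod.ext e1 e2
  obtain ⟨c, hc'⟩ := glb_const hyp hc (glbMk R₁ R₂ g h1 h2) (glbMk R₁ R₂ g2 k1 k2) hg hg2 hred
  rw [glbMk_red, Prod.algebraMap_apply] at hc'
  exact ⟨c, (congrArg Prod.fst hc').symm, (congrArg Prod.snd hc').symm⟩

/-- **(INV1) for the pair**: `y ∈ B`, `y ≡ 1` for both valuations ⟹ `y⁻¹ ∈ B` -/
theorem glb_inv1_pair {D : Divisor K F} {hD : ∀ v, 0 ≤ D v} {y : F}
    (hy : y ∈ glbB (SSRed.ofPair R₁ R₂) D hD)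
    (h1 : y ∈ R₁.O) (h2 : y ∈ R₂.O) (e1 : R₁.red ⟨y, h1⟩ = 1) (e2 : R₂.red ⟨y, h2⟩ = 1) :
    y⁻¹ ∈ glbB (SSRed.ofPair R₁ R₂) D hD :=
  glb_inv1 hy ((glbOne_pair_iff R₁ R₂ y).2 ⟨h1, h2, e1, e2⟩)

/-- **(ROOT₂) for the pair**, over `K` -/
theorem glb_root_pair {p : ℕ} [CharP k p] (hp : p.Prime)
    (hyp : TwistHyp (SSRed.ofPair R₁ R₂) G p D₁ a₀)
    (hc : TwistCrux (SSRed.ofPair R₁ R₂) G 1 D₁ D₂ n₂ f finv)
    (G' H' : F) (g1 : G' ∈ R₁.O) (g2 : G' ∈ R₂.O) (h1 : H' ∈ R₁.O) (h2 : H' ∈ R₂.O)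
    (hG : G' ∈ glbB (SSRed.ofPair R₁ R₂) D₂ hc.D₂_nonneg)
    (e1 : R₁.red ⟨G', g1⟩ = R₁.red ⟨H', h1⟩ ^ p) (e2 : R₂.red ⟨G', g2⟩ = R₂.red ⟨H', h2⟩ ^ p) :
    ∃ (c' : ℕ) (Y : F) (y1 : Y ∈ R₁.O) (y2 : Y ∈ R₂.O),
      Y ∈ riemannRochSpace (K := K) (c' • D₂) ∧
      R₁.red ⟨Y, y1⟩ = R₁.red ⟨H', h1⟩ ∧ R₂.red ⟨Y, y2⟩ = R₂.red ⟨H', h2⟩ := by
  have hred : (SSRed.ofPair R₁ R₂).red (glbMk R₁ R₂ G' g1 g2) =
      (SSRed.ofPair R₁ R₂).red (glbMk R₁ R₂ H' h1 h2) ^ p := by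
    rw [glbMk_red, glbMk_red]
    exact Prod.ext e1 e2
  obtain ⟨c', Y, hY, hYr⟩ :=
    glb_root hp hyp hc (glbMk R₁ R₂ G' g1 g2) (glbMk R₁ R₂ H' h1 h2) hG hred
  rw [glb_red_pair, glbMk_red] at hYr
  exact ⟨c', (Y : F), _, _, hY, congrArg Prod.fst hYr, congrArg Prod.snd hYr⟩

end Pair

end Fermat.Agent.S33lib

end
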