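/-
Item 86 (S33), block TOR_p, piece T5 CONCRETE (helper22).  Complete proofs.

At the auxiliary level `N = M' p` (`IsAuxLevel p M'`), `A` a valuation ring of `ℚ̄` over `p`,
`R` ANY series reduction of `F_N` (the `∞`-component), `R₀ = glmZero M' p .. R` (the
`0`-component): **ONE gluing datum `X`, with `TwistHyp` at the exponent `p` AND `TwistCrux` at the
exponent `1` for the SAME gluing `X.gluing` and the same `D₁ = P_∞ + P_0`.**

* `glbc_exists` : the data `X, a₁, D₂, n₂, f, finv` with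
    `TwistHyp (SSRed.ofPair R R₀) X.gluing p (f3dDiv ∞ 0 1 1) a₁`,
    `TwistCrux (SSRed.ofPair R R₀) X.gluing 1 (f3dDiv ∞ 0 1 1) D₂ n₂ f finv`;
  these are the hypotheses `hyp`, `hc` of `tbc_inputs` (helper4), `stn_root_pair` (helper17),
  `glb_const_pair`, `glb_root_pair` (`GlueB.lean`).
* `glb_mem_B0_iff_cxiB` : `⋃ₐ L(a (P₁ + P₂)) = cxiB P₁ P₂` (the functions regular off `P₁, P₂`).
* `glbc_const`, `glbc_root` : (CONST), (ROOT₂) for the PLAIN rings `B₁ = cxiB ∞ 0`,
  `B₂ = glbB0 D₂`.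
-/
import Mathlib
import Fermat.Agent.S34lib.ApplyMain
import Fermat.Agent.S33lib.CruxPInst
import Fermat.Agent.S33lib.GlueB

set_option autoImplicit false
set_option linter.style.haveILetI false
set_option linter.unusedVariables false
set_option linter.unusedSectionVars false
set_option synthInstance.maxHeartbeats 400000

noncomputable section

namespace Fermat.Agent.S33lib

open AlgebraicCurve Fermat.Agent.GoodRed ModularCurve HahnSeries Fermat.Agent.S24lib
  Fermat.Agent.RRlib Fermat.Agent.GM Fermat.Agent.S34lib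

section Abs

variable {K F k Fk : Type*} [Field K] [Field F] [Algebra K F] [Field k] [Field Fk] [Algebra k Fk]
variable {A : ValuationSubring K} {π : A →+* k}

/-- `P₁ + P₂ ≥ 0` -/
theorem glb_f3dDiv_nonneg (P₁ P₂ : Place K F) (v : Place K F) : 0 ≤ f3dDiv P₁ P₂ 1 1 v := by
  classical
  rw [f3dDiv, Finsupp.add_apply]
  refine add_nonneg ?_ ?_
  · rw [Finsupp.single_apply]
    split_ifs <;> simp
  · rw [Finsupp.single_apply]
    split_ifs <;> simp

/-- `⋃ₐ L(a (P₁ + P₂))` is the ring of the functions regular off `P₁, P₂` -/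
theorem glb_mem_B0_iff_cxiB [RRHyp K F] {P₁ P₂ : Place K F} (hP : P₁ ≠ P₂) (x : F) :
    x ∈ glbB0 (f3dDiv P₁ P₂ 1 1) (glb_f3dDiv_nonneg P₁ P₂) ↔ x ∈ cxiB P₁ P₂ := by
  classical
  rw [mem_cxiB_iff_ord, mem_glbB0]
  by_cases hx : x = 0
  · subst hx
    exact ⟨fun _ v _ _ => Or.inl rfl, fun _ => ⟨0, Submodule.zero_mem _⟩⟩
  constructor
  · rintro ⟨a, ha⟩ v h1 h2
    right
    have := (tw_mem_L_iff hx).mp ha v
    rw [GlueData.nsmul_f3dDiv, ci_f3dDiv_apply_of_ne a a h1 h2] at this
    simpa using this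
  · intro h
    refine ⟨(max (-P₁.ord x) (-P₂.ord x)).toNat, ?_⟩
    rw [tw_mem_L_iff hx]
    intro v
    rw [GlueData.nsmul_f3dDiv]
    have hn : max (-P₁.ord x) (-P₂.ord x) ≤
        (((max (-P₁.ord x) (-P₂.ord x)).toNat : ℕ) : ℤ) := Int.self_le_toNat _
    by_cases h1 : v = P₁
    · rw [h1, ci_f3dDiv_apply_fst hP]
      have := le_max_left (-P₁.ord x) (-P₂.ord x)
      omega
    by_cases h2 : v = P₂
    · rw [h2, ci_f3dDiv_apply_snd hP]
      have := le_max_right (-P₁.ord x) (-P₂.ord x)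
      omega
    · rw [ci_f3dDiv_apply_of_ne _ _ h1 h2]
      have := (h v h1 h2).resolve_left hx
      omega

end Abs

section Conc

variable (M' p : ℕ) [NeZero M'] [NeZero p] [NeZero (M' * p)] (hp : p.Prime) (hpM : ¬ p ∣ M')
variable {A : ValuationSubring Kbar}

set_option maxHeartbeats 2000000 in
/-- **the gluing data at the level `M' p`: ONE gluing, `TwistHyp` at `p`, `TwistCrux` at `1`.** -/
theorem glbc_exists [RRHyp Kbar (FF (M' * p))] (haux : IsAuxLevel p M')
    (hA : A.LiesOverPrime p)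
    {R : ConstRed A (IsLocalRing.residue A)
      (↥(modularFunctionFieldFullC (IsLocalRing.ResidueField A) M')) (FF (M' * p))}
    (hR : IsSeriesRed R) :
    ∃ (G : Gluing (IsLocalRing.ResidueField A)
        (↥(modularFunctionFieldFullC (IsLocalRing.ResidueField A) M') ×
          ↥(modularFunctionFieldFullC (IsLocalRing.ResidueField A) M')))
      (a₁ n₂ : ℕ) (D₂ : Divisor Kbar (FF (M' * p)))
      (f finv : (SSRed.ofPair R (glmZero M' p hp hpM R)).O),
      0 < G.n ∧
      TwistHyp (SSRed.ofPair R (glmZero M' p hp hpM R)) G p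
        (f3dDiv (infPlaceBar (M' * p))
          (cuspZero (M' * p) p hp (dvd_mul_left p M') (inf_not_sq_dvd M' p hp hpM)) 1 1) a₁ ∧
      TwistCrux (SSRed.ofPair R (glmZero M' p hp hpM R)) G 1
        (f3dDiv (infPlaceBar (M' * p))
          (cuspZero (M' * p) p hp (dvd_mul_left p M') (inf_not_sq_dvd M' p hp hpM)) 1 1)
        D₂ n₂ f finv := by
  haveI : Fact p.Prime := ⟨hp⟩
  haveI : CharP (IsLocalRing.ResidueField A) p := charP_residueField hA
  haveI : IsAlgClosed (IsLocalRing.ResidueField A) := isAlgClosed_residueField A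
  haveI : Infinite (IsLocalRing.ResidueField A) := IsAlgClosed.instInfinite
  haveI : RRHyp Kbar (FF M') := mod_rrHyp M'
  haveI : RRHyp (IsLocalRing.ResidueField A)
      (↥(modularFunctionFieldFullC (IsLocalRing.ResidueField A) M')) :=
    mr_rrHyp (IsLocalRing.ResidueField A) M'
  have hfrac' : HasPrimFrac A (modularFunctionFieldBar M') := vri_hfrac M' p hp A hA
  obtain ⟨R', r, hR', -, -, hgen⟩ := liftInf_exists_red M' A p haux hA
  have Hex := am_exInput M' p hp hpM haux hA hR' hR hfrac'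
  have hO := vk_O_ne M' p hp hpM hR hA
  have hlift : ∀ a : affRing (infPlaceC (IsLocalRing.ResidueField A) M'),
      ∃ (g : FF M') (hg : g ∈ R'.O),
        (∀ v' : Place Kbar (FF M'), v' ≠ infPlaceBar M' → 0 ≤ v'.ord g) ∧
          R'.red ⟨g, hg⟩ =
            (a : ↥(modularFunctionFieldFullC (IsLocalRing.ResidueField A) M')) := by
    intro a
    obtain ⟨c, hc⟩ := (glm_hB M' _).mp a.2
    obtain ⟨x, hx, hred⟩ := liftInf_lift p haux hA hR' (c : ℤ) _ hc
    exact ⟨x, x.2, mem_affRing_iff.mp (affRing_of_mem_rr hx), hred⟩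
  obtain ⟨X, a₀, a₁', -, H, -, -, hn, -⟩ := glueMod M' p hp hpM hA
    (φ := (affFrobFk (IsLocalRing.ResidueField A) p M').toRingHom) (fun x => rfl) Hex hO
    (affRing_residue_surjective _) hlift hgen.le Nat.one_pos
  have hP := ac_infPlaceBar_ne_cuspZero hp (dvd_mul_left p M') (inf_not_sq_dvd M' p hp hpM)
  obtain ⟨a₁, ha₁, hyp⟩ := X.twistHyp H hp.pos
  obtain ⟨D₂, n₂, f, finv, hc, -, -⟩ := cxi_twistCrux X H ha₁ hyp hP hn
  exact ⟨X.gluing, a₁, n₂, D₂, f, finv, hn, hyp, hc⟩

set_option maxHeartbeats 2000000 in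
/-- the same with `D₁ = cuspDiv .. 1 1` (the form of `glueMod`, `stn_step`) -/
theorem glbc_exists_cusp [RRHyp Kbar (FF (M' * p))] (haux : IsAuxLevel p M')
    (hA : A.LiesOverPrime p)
    {R : ConstRed A (IsLocalRing.residue A)
      (↥(modularFunctionFieldFullC (IsLocalRing.ResidueField A) M')) (FF (M' * p))}
    (hR : IsSeriesRed R) :
    ∃ (G : Gluing (IsLocalRing.ResidueField A)
        (↥(modularFunctionFieldFullC (IsLocalRing.ResidueField A) M') ×
          ↥(modularFunctionFieldFullC (IsLocalRing.ResidueField A) M')))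
      (a₁ n₂ : ℕ) (D₂ : Divisor Kbar (FF (M' * p)))
      (f finv : (SSRed.ofPair R (glmZero M' p hp hpM R)).O),
      0 < G.n ∧
      TwistHyp (SSRed.ofPair R (glmZero M' p hp hpM R)) G p
        (cuspDiv (M' * p) p hp (dvd_mul_left p M') (inf_not_sq_dvd M' p hp hpM) 1 1) a₁ ∧
      TwistCrux (SSRed.ofPair R (glmZero M' p hp hpM R)) G 1
        (cuspDiv (M' * p) p hp (dvd_mul_left p M') (inf_not_sq_dvd M' p hp hpM) 1 1)
        D₂ n₂ f finv := by
  obtain ⟨G, a₁, n₂, D₂, f, finv, hn, hyp, hc⟩ := glbc_exists M' p hp hpM haux hA hR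
  refine ⟨G, a₁, n₂, D₂, f, finv, hn, ?_, ?_⟩
  · rw [cuspDiv_one_one]
    exact hyp
  · rw [cuspDiv_one_one]
    exact hc

end Conc

end Fermat.Agent.S33lib

end
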