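/-
Item 86 (S33), block G2 (TOR_p), piece (KSAT-PAIR) (helper19; asked by the checker helper27,
check 3): **classes in `K_I` killed by `p` have ONE Kummer function which reduces to `1` at BOTH
valuations.**  Complete proofs.

Abstract part (any function field `F/K` with TWO constant reductions `R₁`, `R₂` over the same
valuation ring `A` of `K`, and a set `G` of semilinear automorphisms inertial for both):

* `KspRed R g c` : `g ∈ O` and `red g = c` (a small calculus: `kspRed_mul`, `kspRed_inv`, ...);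
* `ksp_abs` : a class `x` in the subgroup generated by the `g • y - y` (`g ∈ G`, `y` of `p`-power
  order) with `p • x = 0` has a divisor `D` and a Kummer function `f` (`div f = p D`) with
  `red₁ f = 1` and `red₂ (e f) = 1` for a unit `e` of `A` (the two constants may differ);
* `ksp_sep_of_ne` : if the two unit balls are different there is `z ≠ 0`, `z ∈ m₁`, `z⁻¹ ∈ m₂`
  (two constant reductions over the same `A` are never comparable);
* `ksp_exists_red` : weak approximation for constants: for `a₁, a₂ ∈ A` there is `h ∈ O₁ ∩ O₂`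
  with `red₁ h = π a₁`, `red₂ h = π a₂`;
* `ksp_diag` : if moreover `k` is closed under `p`-th roots: ONE Kummer function `f` with
  `f - 1 ∈ m₁` and `f - 1 ∈ m₂` (replace `f` by `f h ^ p`, `D` by `D + div h`);
* `ksp_ss` : the same in the language of `SSRed.ofPair R₁ R₂` (input of `tob_kummer`, TorB.lean):
  `u uinv : S.O`, `u * uinv = 1`, `ord_v u = p D v`, `S.red u = 1`.
-/
import Mathlib
import Fermat.Agent.S33lib.KSat
import Fermat.Agent.S33lib.GeoDefs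
import Fermat.Agent.S34lib.CruxSSBuild

set_option autoImplicit false
set_option linter.style.haveILetI false
set_option linter.unusedSectionVars false
set_option linter.unusedVariables false

noncomputable section

namespace Fermat.Agent.S33lib

open AlgebraicCurve Fermat.Agent.RRlib Fermat.Agent.GoodRed Fermat.Agent.S34lib

section Red

variable {K F k Fk : Type*} [Field K] [Field F] [Algebra K F] [Field k] [Field Fk] [Algebra k Fk]
variable {A : ValuationSubring K} {π : A →+* k}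

/-- `g` lies in the unit ball and reduces to `c` -/
def KspRed (R : ConstRed A π Fk F) (g : F) (c : Fk) : Prop :=
  ∃ hg : g ∈ R.O, R.red ⟨g, hg⟩ = c

variable (R : ConstRed A π Fk F)

theorem kspRed_mem {g : F} {c : Fk} (h : KspRed R g c) : g ∈ R.O := h.1

theorem kspRed_one : KspRed R 1 1 :=
  ⟨one_mem _, by rw [show (⟨1, one_mem _⟩ : R.O) = 1 from rfl, map_one]⟩

theorem kspRed_zero : KspRed R 0 0 :=
  ⟨zero_mem _, by rw [show (⟨0, zero_mem _⟩ : R.O) = 0 from rfl, map_zero]⟩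

theorem kspRed_mul {g g' : F} {c c' : Fk} (h : KspRed R g c) (h' : KspRed R g' c') :
    KspRed R (g * g') (c * c') := by
  obtain ⟨hg, rfl⟩ := h
  obtain ⟨hg', rfl⟩ := h'
  exact ⟨mul_mem hg hg', by
    rw [show (⟨g * g', mul_mem hg hg'⟩ : R.O) = ⟨g, hg⟩ * ⟨g', hg'⟩ from rfl, map_mul]⟩

theorem kspRed_add {g g' : F} {c c' : Fk} (h : KspRed R g c) (h' : KspRed R g' c') :
    KspRed R (g + g') (c + c') := by
  obtain ⟨hg, rfl⟩ := h
  obtain ⟨hg', rfl⟩ := h'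
  exact ⟨add_mem hg hg', by
    rw [show (⟨g + g', add_mem hg hg'⟩ : R.O) = ⟨g, hg⟩ + ⟨g', hg'⟩ from rfl, map_add]⟩

theorem kspRed_neg {g : F} {c : Fk} (h : KspRed R g c) : KspRed R (-g) (-c) := by
  obtain ⟨hg, rfl⟩ := h
  exact ⟨neg_mem hg, by
    rw [show (⟨-g, neg_mem hg⟩ : R.O) = -⟨g, hg⟩ from rfl, map_neg]⟩

theorem kspRed_sub {g g' : F} {c c' : Fk} (h : KspRed R g c) (h' : KspRed R g' c') :
    KspRed R (g - g') (c - c') := by
  rw [sub_eq_add_neg, sub_eq_add_neg]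
  exact kspRed_add R h (kspRed_neg R h')

theorem kspRed_pow {g : F} {c : Fk} (h : KspRed R g c) (n : ℕ) : KspRed R (g ^ n) (c ^ n) := by
  induction n with
  | zero => rw [pow_zero, pow_zero]; exact kspRed_one R
  | succ n ih => rw [pow_succ, pow_succ]; exact kspRed_mul R ih h

theorem kspRed_const (a : A) : KspRed R (algebraMap K F (a : K)) (algebraMap k Fk (π a)) :=
  ⟨R.algebraMap_mem a, R.red_algebraMap a⟩

theorem kspRed_unique {g : F} {c c' : Fk} (h : KspRed R g c) (h' : KspRed R g c') : c = c' := by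
  obtain ⟨hg, rfl⟩ := h
  obtain ⟨hg', rfl⟩ := h'
  rfl

theorem kspRed_zero_iff {g : F} : KspRed R g 0 ↔ g ∈ R.O.nonunits := by
  constructor
  · rintro ⟨hg, h⟩
    exact (R.red_eq_zero_iff ⟨g, hg⟩).1 h
  · intro h
    have hg : g ∈ R.O := by
      rw [ValuationSubring.mem_nonunits_iff_exists_mem_maximalIdeal] at h
      exact h.1
    exact ⟨hg, (R.red_eq_zero_iff ⟨g, hg⟩).2 h⟩

theorem kspRed_one_iff {g : F} : KspRed R g 1 ↔ g - 1 ∈ R.O.nonunits := by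
  rw [← kspRed_zero_iff]
  constructor
  · intro h
    have := kspRed_sub R h (kspRed_one R)
    rwa [sub_self] at this
  · intro h
    have := kspRed_add R h (kspRed_one R)
    rwa [sub_add_cancel, zero_add] at this

theorem kspRed_ne_zero {g : F} {c : Fk} (h : KspRed R g c) (hc : c ≠ 0) : g ≠ 0 := by
  rintro rfl
  exact hc (kspRed_unique R h (kspRed_zero R))

theorem kspRed_inv_mem {g : F} {c : Fk} (h : KspRed R g c) (hc : c ≠ 0) : g⁻¹ ∈ R.O := by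
  have hnu : g ∉ R.O.nonunits := fun hm =>
    hc (kspRed_unique R h ((kspRed_zero_iff R).2 hm))
  rw [ValuationSubring.mem_nonunits_iff_or, not_or, not_not] at hnu
  exact hnu.2

theorem kspRed_inv {g : F} {c : Fk} (h : KspRed R g c) (hc : c ≠ 0) : KspRed R g⁻¹ c⁻¹ := by
  have hi := kspRed_inv_mem R h hc
  have hg0 := kspRed_ne_zero R h hc
  refine ⟨hi, ?_⟩
  obtain ⟨hg, rfl⟩ := h
  have h1 : R.red ⟨g⁻¹, hi⟩ * R.red ⟨g, hg⟩ = 1 := by
    rw [← map_mul]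
    have : (⟨g⁻¹, hi⟩ : R.O) * ⟨g, hg⟩ = 1 := Subtype.ext (inv_mul_cancel₀ hg0)
    rw [this, map_one]
  exact eq_inv_of_mul_eq_one_left h1

/-- a constant of `K` which lies in the unit ball with its inverse -/
theorem kspRed_constK {a : K} (ha : a ∈ A) :
    KspRed R (algebraMap K F a) (algebraMap k Fk (π ⟨a, ha⟩)) :=
  kspRed_const R ⟨a, ha⟩

theorem kspRed_of_ksatU {u : F} (hu : KsatU R u) :
    ∃ a : A, π a ≠ 0 ∧ KspRed R u (algebraMap k Fk (π a)) := by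
  obtain ⟨hu, a, ha, hua⟩ := hu
  exact ⟨a, ha, hu, hua⟩

theorem ksp_alg_ne_zero {c : k} (hc : c ≠ 0) : algebraMap k Fk c ≠ 0 := by
  rw [Ne, map_eq_zero_iff _ (algebraMap k Fk).injective]
  exact hc

end Red

section Unit

variable {K : Type*} [Field K] (A : ValuationSubring K)

/-- valuation rings are closed under roots -/
theorem ksp_mem_of_pow_mem (e : K) (N : ℕ) (hN : 1 ≤ N) (h : e ^ N ∈ A) : e ∈ A := by
  rcases A.mem_or_inv_mem e with h1 | h1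
  · exact h1
  · obtain ⟨m, rfl⟩ : ∃ m, N = m + 1 := ⟨N - 1, by omega⟩
    rcases eq_or_ne e 0 with rfl | he
    · exact A.zero_mem
    have : e = e ^ (m + 1) * e⁻¹ ^ m := by
      rw [pow_succ, inv_pow]
      field_simp
    rw [this]
    exact A.mul_mem _ _ h (pow_mem h1 m)

end Unit

section Pair

variable {K F k Fk₁ Fk₂ : Type*} [Field K] [Field F] [Algebra K F] [Field k]
variable [Field Fk₁] [Algebra k Fk₁] [Field Fk₂] [Algebra k Fk₂]
variable {A : ValuationSubring K} {π : A →+* k}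
variable (R₁ : ConstRed A π Fk₁ F) (R₂ : ConstRed A π Fk₂ F)

/-- the induction predicate for the pair: `x` is the class of a divisor `D` with
`p^n D = div U`, `U` of constant reduction at both valuations -/
def KspPred (p : ℕ) (x : Pic0 K F) : Prop :=
  ∃ (D : Divisor.degZero (K := K) (F := F)) (n : ℕ) (U : F), Pic0.mk D = x ∧ KsatU R₁ U ∧
    KsatU R₂ U ∧ ∀ v : Place K F, ((p : ℤ) ^ n) * (D : Divisor K F) v = v.ord U

theorem kspPred_zero (p : ℕ) : KspPred R₁ R₂ p 0 :=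
  ⟨0, 0, 1, rfl, ksatU_one R₁, ksatU_one R₂, fun v => by simp⟩

theorem kspPred_add (p : ℕ) {x y : Pic0 K F} (hx : KspPred R₁ R₂ p x)
    (hy : KspPred R₁ R₂ p y) : KspPred R₁ R₂ p (x + y) := by
  obtain ⟨D₁, n₁, U₁, rfl, hU₁, hU₁', h₁⟩ := hx
  obtain ⟨D₂, n₂, U₂, rfl, hU₂, hU₂', h₂⟩ := hy
  have hU₁0 := ksatU_ne_zero R₁ hU₁
  have hU₂0 := ksatU_ne_zero R₁ hU₂
  refine ⟨D₁ + D₂, n₁ + n₂, U₁ ^ (p ^ n₂) * U₂ ^ (p ^ n₁), rfl,
    ksatU_mul R₁ (ksatU_pow R₁ hU₁ _) (ksatU_pow R₁ hU₂ _),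
    ksatU_mul R₂ (ksatU_pow R₂ hU₁' _) (ksatU_pow R₂ hU₂' _), fun v => ?_⟩
  rw [v.ord_mul (pow_ne_zero _ hU₁0) (pow_ne_zero _ hU₂0), Fermat.Agent.S18lib.ord_pow_nat,
    Fermat.Agent.S18lib.ord_pow_nat, ← h₁ v, ← h₂ v, AddSubgroup.coe_add, Finsupp.add_apply]
  push_cast
  ring

theorem kspPred_neg (p : ℕ) {x : Pic0 K F} (hx : KspPred R₁ R₂ p x) :
    KspPred R₁ R₂ p (-x) := by
  obtain ⟨D, n, U, rfl, hU, hU', h⟩ := hx
  refine ⟨-D, n, U⁻¹, rfl, ksatU_inv R₁ hU, ksatU_inv R₂ hU', fun v => ?_⟩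
  rw [v.ord_inv, ← h v, AddSubgroup.coe_neg, Finsupp.neg_apply]
  ring

/-- the generators of `K_I` -/
theorem kspPred_gen (p : ℕ) {g : SemilinearAut K F} (hg₁ : IsInertial R₁ g)
    (hg₂ : IsInertial R₂ g) (y : Pic0 K F) (n : ℕ) (hy : p ^ n • y = 0) :
    KspPred R₁ R₂ p (g • y - y) := by
  obtain ⟨D, rfl⟩ := Pic0.mk_surjective y
  have hprin : (((p ^ n) • D : Divisor.degZero (K := K) (F := F)) : Divisor K F)
      ∈ Divisor.principal := by
    apply Fermat.Agent.S18lib.mem_principal_of_mk_eq_zero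
    rw [← hy]
    rfl
  obtain ⟨f, hf0, hf⟩ := hprin
  have hfD : ∀ v : Place K F, ((p : ℤ) ^ n) * (D : Divisor K F) v = v.ord f := by
    intro v
    rw [← hf v]
    simp
  have hgf0 : g • f ≠ 0 := by simpa using hf0
  refine ⟨SemilinearAut.degZeroSMulHom g D - D, n, g • f / f, rfl, ksatU_smul_div R₁ hg₁ hf0,
    ksatU_smul_div R₂ hg₂ hf0, fun v => ?_⟩
  rw [uk_ord_div v hgf0 hf0, uk_ord_smul' g v, ← hfD, ← hfD, AddSubgroup.coe_sub,
    Finsupp.sub_apply, SemilinearAut.coe_degZeroSMulHom, SemilinearAut.divisor_smul_apply]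
  ring

/-- the constant of a relation `f ^ N = c U` between units is a unit of `A` -/
theorem ksp_const_unit {f U : F} {N : ℕ} {c : K} (hf : KspRed R₁ f 1) (hU : KsatU R₁ U)
    (h : f ^ N = algebraMap K F c * U) : c ∈ A ∧ c⁻¹ ∈ A := by
  have hU0 := ksatU_ne_zero R₁ hU
  obtain ⟨hUi, -⟩ := ksatU_inv R₁ hU
  obtain ⟨hUO, -⟩ := hU
  have hfO := kspRed_mem R₁ hf
  have hfi := kspRed_inv_mem R₁ hf one_ne_zero
  have hf0 := kspRed_ne_zero R₁ hf one_ne_zero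
  have hc0 : c ≠ 0 := by
    rintro rfl
    rw [map_zero, zero_mul] at h
    exact pow_ne_zero N hf0 h
  constructor
  · rw [← R₁.algebraMap_mem_iff]
    have : algebraMap K F c = f ^ N * U⁻¹ := by
      rw [h, mul_assoc, mul_inv_cancel₀ hU0, mul_one]
    rw [this]
    exact mul_mem (pow_mem hfO N) hUi
  · rw [← R₁.algebraMap_mem_iff]
    have : algebraMap K F c⁻¹ = f⁻¹ ^ N * U := by
      rw [map_inv₀, inv_pow, h, mul_inv, mul_assoc, inv_mul_cancel₀ hU0, mul_one]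
    rw [this]
    exact mul_mem (pow_mem hfi N) hUO

/-- **(KSAT-PAIR), abstract form, first step.**  A class `x` in the subgroup generated by the
`g • y - y` (`g ∈ G` inertial for both reductions, `y` of `p`-power order) with `p • x = 0` is the
class of a divisor `D` with a Kummer function `f` (`div f = p D`) congruent to `1` modulo `m₁` and
to a unit constant modulo `m₂`. -/
theorem ksp_abs [RRBase K F] [RRBase k Fk₁] [RRBase k Fk₂] (p : ℕ) (hp : p ≠ 0)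
    (G : Set (SemilinearAut K F)) (hG₁ : ∀ g ∈ G, IsInertial R₁ g)
    (hG₂ : ∀ g ∈ G, IsInertial R₂ g) (x : Pic0 K F)
    (hx : x ∈ AddSubgroup.closure
      {z : Pic0 K F | ∃ g ∈ G, ∃ y : Pic0 K F, (∃ n : ℕ, p ^ n • y = 0) ∧ z = g • y - y})
    (hpx : p • x = 0) :
    ∃ (D : Divisor.degZero (K := K) (F := F)) (f : F), Pic0.mk D = x ∧ f ≠ 0 ∧
      (∀ v : Place K F, (p : ℤ) * (D : Divisor K F) v = v.ord f) ∧ f - 1 ∈ R₁.O.nonunits ∧
      ∃ e : K, e ≠ 0 ∧ e ∈ A ∧ e⁻¹ ∈ A ∧ algebraMap K F e * f - 1 ∈ R₂.O.nonunits := by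
  have hpred : KspPred R₁ R₂ p x := by
    clear hpx
    induction hx using AddSubgroup.closure_induction with
    | mem z hz =>
      obtain ⟨g, hg, y, ⟨n, hn⟩, rfl⟩ := hz
      exact kspPred_gen R₁ R₂ p (hG₁ g hg) (hG₂ g hg) y n hn
    | zero => exact kspPred_zero R₁ R₂ p
    | add a b _ _ ha hb => exact kspPred_add R₁ R₂ p ha hb
    | neg a _ ha => exact kspPred_neg R₁ R₂ p ha
  obtain ⟨D, n, U, rfl, hU, hU', hDU⟩ := hpred
  have hU0 := ksatU_ne_zero R₁ hU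
  have hprin : ((p • D : Divisor.degZero (K := K) (F := F)) : Divisor K F)
      ∈ Divisor.principal := by
    apply Fermat.Agent.S18lib.mem_principal_of_mk_eq_zero
    rw [← hpx]
    rfl
  obtain ⟨F₀, hF₀, hF⟩ := hprin
  have hFD : ∀ v : Place K F, (p : ℤ) * (D : Divisor K F) v = v.ord F₀ := by
    intro v
    rw [← hF v]
    simp
  have hw : ∀ v : Place K F, 0 ≤ v.ord (F₀ ^ (p ^ n) / U ^ p) := by
    intro v
    rw [uk_ord_div v (pow_ne_zero _ hF₀) (pow_ne_zero _ hU0), Fermat.Agent.S18lib.ord_pow_nat,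
      Fermat.Agent.S18lib.ord_pow_nat, ← hFD v, ← hDU v]
    push_cast
    apply le_of_eq
    ring
  obtain ⟨c, hc⟩ := RRBase.const_of_forall_ord_nonneg (K := K) _ hw
  have h : F₀ ^ (p ^ n) = algebraMap K F c * U ^ p := by
    rw [hc, div_mul_cancel₀ _ (pow_ne_zero _ hU0)]
  have hN : 1 ≤ p ^ n := Nat.one_le_pow _ _ (by omega)
  obtain ⟨b₁, hb₁, hmem₁⟩ := ksat_root R₁ F₀ (U ^ p) (p ^ n) hN c hF₀ (ksatU_pow R₁ hU p) h
  obtain ⟨b₂, hb₂, hmem₂⟩ := ksat_root R₂ F₀ (U ^ p) (p ^ n) hN c hF₀ (ksatU_pow R₂ hU' p) h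
  have hb₁F : algebraMap K F b₁ ≠ 0 := by
    rw [Ne, map_eq_zero_iff _ (algebraMap K F).injective]
    exact hb₁
  -- the two normalising constants differ by a unit of `A`
  have h₁ : (algebraMap K F b₁ * F₀) ^ (p ^ n) = algebraMap K F (b₁ ^ (p ^ n) * c) * U ^ p := by
    rw [mul_pow, h, map_mul, map_pow]
    ring
  have h₂ : (algebraMap K F b₂ * F₀) ^ (p ^ n) = algebraMap K F (b₂ ^ (p ^ n) * c) * U ^ p := by
    rw [mul_pow, h, map_mul, map_pow]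
    ring
  obtain ⟨hc₁, hc₁i⟩ := ksp_const_unit R₁ ((kspRed_one_iff R₁).2 hmem₁) (ksatU_pow R₁ hU p) h₁
  obtain ⟨hc₂, hc₂i⟩ := ksp_const_unit R₂ ((kspRed_one_iff R₂).2 hmem₂) (ksatU_pow R₂ hU' p) h₂
  have hc0 : c ≠ 0 := by
    rintro rfl
    rw [map_zero, zero_mul] at h
    exact pow_ne_zero _ hF₀ h
  have hpow0 : b₁ ^ (p ^ n) ≠ 0 := pow_ne_zero _ hb₁
  have hpow0' : b₂ ^ (p ^ n) ≠ 0 := pow_ne_zero _ hb₂
  have he : (b₂ / b₁) ^ (p ^ n) ∈ A := by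
    have : (b₂ / b₁) ^ (p ^ n) = (b₂ ^ (p ^ n) * c) * (b₁ ^ (p ^ n) * c)⁻¹ := by
      rw [div_pow]
      field_simp
    rw [this]
    exact A.mul_mem _ _ hc₂ hc₁i
  have he' : (b₂ / b₁)⁻¹ ^ (p ^ n) ∈ A := by
    have : (b₂ / b₁)⁻¹ ^ (p ^ n) = (b₁ ^ (p ^ n) * c) * (b₂ ^ (p ^ n) * c)⁻¹ := by
      rw [inv_div, div_pow]
      field_simp
    rw [this]
    exact A.mul_mem _ _ hc₁ hc₂i
  refine ⟨D, algebraMap K F b₁ * F₀, rfl, mul_ne_zero hb₁F hF₀, fun v => ?_, hmem₁,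
    b₂ / b₁, div_ne_zero hb₂ hb₁, ksp_mem_of_pow_mem A _ _ hN he,
    ksp_mem_of_pow_mem A _ _ hN he', ?_⟩
  · rw [v.ord_mul hb₁F hF₀, uk_ord_const, zero_add, hFD v]
  · have : algebraMap K F (b₂ / b₁) * (algebraMap K F b₁ * F₀) = algebraMap K F b₂ * F₀ := by
      rw [← mul_assoc, ← map_mul, div_mul_cancel₀ _ hb₁]
    rw [this]
    exact hmem₂

/-- two constant reductions over the same `A` are not comparable -/
theorem ksp_not_le (hne : R₁.O ≠ R₂.O) : ¬ R₁.O ≤ R₂.O := by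
  intro hle
  have hnle : ¬ R₂.O ≤ R₁.O := fun h => hne (le_antisymm hle h)
  obtain ⟨f, hf₂, hf₁⟩ := SetLike.not_le_iff_exists.1 hnle
  have hf0 : f ≠ 0 := by
    rintro rfl
    exact hf₁ (zero_mem _)
  obtain ⟨c, hc0, hcf, hcfi⟩ := R₁.exists_unit_smul f hf0
  have hcF : algebraMap K F c ≠ 0 := by
    rw [Ne, map_eq_zero_iff _ (algebraMap K F).injective]
    exact hc0
  -- `c⁻¹ ∉ A`
  have hci : c⁻¹ ∉ A := by
    intro hci
    apply hf₁
    have : f = algebraMap K F c⁻¹ * (algebraMap K F c * f) := by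
      rw [← mul_assoc, ← map_mul, inv_mul_cancel₀ hc0, map_one, one_mul]
    rw [this]
    exact mul_mem ((R₁.algebraMap_mem_iff _).2 hci) hcf
  have hcA : c ∈ A := (A.mem_or_inv_mem c).resolve_right hci
  have hcnu : c ∈ A.nonunits := by
    rw [ValuationSubring.mem_nonunits_iff_or]
    exact Or.inr hci
  have hπ : π ⟨c, hcA⟩ = 0 := (R₂.π_eq_zero_iff ⟨c, hcA⟩).2 hcnu
  have h1 : KspRed R₂ (algebraMap K F c) 0 := by
    have := kspRed_constK R₂ hcA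
    rwa [hπ, map_zero] at this
  have h2 : KspRed R₂ (algebraMap K F c * f) 0 := by
    have := kspRed_mul R₂ h1 ⟨hf₂, rfl⟩
    rwa [zero_mul] at this
  have h3 : algebraMap K F c * f ∈ R₂.O.nonunits := (kspRed_zero_iff R₂).1 h2
  rw [ValuationSubring.mem_nonunits_iff_or] at h3
  rcases h3 with h3 | h3
  · exact mul_ne_zero hcF hf0 h3
  · exact h3 (hle hcfi)

/-- **separation**: if the unit balls are different, there is `z ≠ 0`, `z ∈ m₁`, `z⁻¹ ∈ m₂`. -/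
theorem ksp_sep_of_ne (hne : R₁.O ≠ R₂.O) :
    ∃ z : F, z ≠ 0 ∧ z ∈ R₁.O.nonunits ∧ z⁻¹ ∈ R₂.O.nonunits := by
  obtain ⟨a, ha₁, ha₂⟩ := SetLike.not_le_iff_exists.1 (ksp_not_le R₁ R₂ hne)
  obtain ⟨b, hb₂, hb₁⟩ := SetLike.not_le_iff_exists.1 (ksp_not_le R₂ R₁ (Ne.symm hne))
  have ha0 : a ≠ 0 := by
    rintro rfl
    exact ha₂ (zero_mem _)
  have hb0 : b ≠ 0 := by
    rintro rfl
    exact hb₁ (zero_mem _)
  have hbi : KspRed R₁ b⁻¹ 0 := by
    rw [kspRed_zero_iff, ValuationSubring.mem_nonunits_iff_or, inv_inv]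
    exact Or.inr hb₁
  have hai : KspRed R₂ a⁻¹ 0 := by
    rw [kspRed_zero_iff, ValuationSubring.mem_nonunits_iff_or, inv_inv]
    exact Or.inr ha₂
  refine ⟨a * b⁻¹, mul_ne_zero ha0 (inv_ne_zero hb0), ?_, ?_⟩
  · rw [← kspRed_zero_iff]
    have := kspRed_mul R₁ (⟨ha₁, rfl⟩ : KspRed R₁ a _) hbi
    rwa [mul_zero] at this
  · rw [← kspRed_zero_iff]
    have := kspRed_mul R₂ (⟨hb₂, rfl⟩ : KspRed R₂ b _) hai
    rw [mul_zero] at this
    have e : (a * b⁻¹)⁻¹ = b * a⁻¹ := by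
      rw [mul_inv, inv_inv, mul_comm]
    rwa [e]

/-- **the idempotent**: `t ∈ O₁ ∩ O₂` with `red₁ t = 1`, `red₂ t = 0`. -/
theorem ksp_exists_idem
    (hsep : ∃ z : F, z ≠ 0 ∧ z ∈ R₁.O.nonunits ∧ z⁻¹ ∈ R₂.O.nonunits) :
    ∃ t : F, KspRed R₁ t 1 ∧ KspRed R₂ t 0 := by
  obtain ⟨z, hz0, hz₁, hz₂⟩ := hsep
  have h1 : KspRed R₁ (1 + z) 1 := by
    have := kspRed_add R₁ (kspRed_one R₁) ((kspRed_zero_iff R₁).2 hz₁)
    rwa [add_zero] at this
  have h2 : KspRed R₂ (1 + z⁻¹) 1 := by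
    have := kspRed_add R₂ (kspRed_one R₂) ((kspRed_zero_iff R₂).2 hz₂)
    rwa [add_zero] at this
  refine ⟨(1 + z)⁻¹, ?_, ?_⟩
  · have := kspRed_inv R₁ h1 one_ne_zero
    rwa [inv_one] at this
  · have h3 := kspRed_mul R₂ ((kspRed_zero_iff R₂).2 hz₂) (kspRed_inv R₂ h2 one_ne_zero)
    rw [zero_mul] at h3
    have hne : 1 + z⁻¹ ≠ 0 := kspRed_ne_zero R₂ h2 one_ne_zero
    have e : (1 + z)⁻¹ = z⁻¹ * (1 + z⁻¹)⁻¹ := by
      have h4 : 1 + z = z * (1 + z⁻¹) := by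
        rw [mul_add, mul_one, mul_inv_cancel₀ hz0, add_comm]
      rw [h4, mul_inv]
    rwa [e]

/-- **weak approximation for constants**: `h ∈ O₁ ∩ O₂` with `red₁ h = π a₁`, `red₂ h = π a₂`. -/
theorem ksp_exists_red (hsep : ∃ z : F, z ≠ 0 ∧ z ∈ R₁.O.nonunits ∧ z⁻¹ ∈ R₂.O.nonunits) (a₁ a₂ : A) :
    ∃ h : F, KspRed R₁ h (algebraMap k Fk₁ (π a₁)) ∧ KspRed R₂ h (algebraMap k Fk₂ (π a₂)) := by
  obtain ⟨t, ht₁, ht₂⟩ := ksp_exists_idem R₁ R₂ hsep
  refine ⟨algebraMap K F (a₁ : K) * t + algebraMap K F (a₂ : K) * (1 - t), ?_, ?_⟩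
  · have := kspRed_add R₁ (kspRed_mul R₁ (kspRed_const R₁ a₁) ht₁)
      (kspRed_mul R₁ (kspRed_const R₁ a₂) (kspRed_sub R₁ (kspRed_one R₁) ht₁))
    rwa [mul_one, sub_self, mul_zero, add_zero] at this
  · have := kspRed_add R₂ (kspRed_mul R₂ (kspRed_const R₂ a₁) ht₂)
      (kspRed_mul R₂ (kspRed_const R₂ a₂) (kspRed_sub R₂ (kspRed_one R₂) ht₂))
    rwa [mul_zero, sub_zero, mul_one, zero_add] at this

/-- **(KSAT-PAIR), abstract form.**  If the two reductions are separated and `k` is closed under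
`p`-th roots, a class `x` of `K_I` with `p • x = 0` is the class of a divisor `D` with a Kummer
function `f` (`div f = p D`) congruent to `1` modulo `m₁` AND modulo `m₂`. -/
theorem ksp_diag [RRBase K F] [RRBase k Fk₁] [RRBase k Fk₂] (p : ℕ) (hp : p ≠ 0)
    (hroot : ∀ c : k, ∃ d : k, d ^ p = c)
    (hsep : ∃ z : F, z ≠ 0 ∧ z ∈ R₁.O.nonunits ∧ z⁻¹ ∈ R₂.O.nonunits)
    (G : Set (SemilinearAut K F)) (hG₁ : ∀ g ∈ G, IsInertial R₁ g)
    (hG₂ : ∀ g ∈ G, IsInertial R₂ g) (x : Pic0 K F)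
    (hx : x ∈ AddSubgroup.closure
      {z : Pic0 K F | ∃ g ∈ G, ∃ y : Pic0 K F, (∃ n : ℕ, p ^ n • y = 0) ∧ z = g • y - y})
    (hpx : p • x = 0) :
    ∃ (D : Divisor.degZero (K := K) (F := F)) (f : F), Pic0.mk D = x ∧ f ≠ 0 ∧
      (∀ v : Place K F, (p : ℤ) * (D : Divisor K F) v = v.ord f) ∧ f - 1 ∈ R₁.O.nonunits ∧
      f - 1 ∈ R₂.O.nonunits := by
  obtain ⟨D, f, hD, hf0, hdiv, hf₁, e, he0, heA, heiA, hf₂⟩ :=
    ksp_abs R₁ R₂ p hp G hG₁ hG₂ x hx hpx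
  -- a `p`-th root of the constant
  obtain ⟨d, hd⟩ := hroot (π ⟨e, heA⟩)
  obtain ⟨s, hs⟩ := R₁.π_surjective d
  obtain ⟨h, hh₁, hh₂⟩ := ksp_exists_red R₁ R₂ hsep 1 s
  rw [map_one, map_one] at hh₁
  have hh0 : h ≠ 0 := kspRed_ne_zero R₁ hh₁ one_ne_zero
  have hπe : π ⟨e, heA⟩ * π ⟨e⁻¹, heiA⟩ = 1 := by
    rw [← map_mul]
    have : (⟨e, heA⟩ : A) * ⟨e⁻¹, heiA⟩ = 1 := Subtype.ext (mul_inv_cancel₀ he0)
    rw [this, map_one]
  have hf₁' : KspRed R₁ f 1 := (kspRed_one_iff R₁).2 hf₁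
  -- `red₂ f = π e⁻¹`
  have hf₂' : KspRed R₂ f (algebraMap k Fk₂ (π ⟨e⁻¹, heiA⟩)) := by
    have h1 := kspRed_mul R₂ (kspRed_constK R₂ heiA) ((kspRed_one_iff R₂).2 hf₂)
    rw [mul_one, ← mul_assoc, ← map_mul, inv_mul_cancel₀ he0, map_one, one_mul] at h1
    exact h1
  refine ⟨D + gdfDiv (K := K) h, f * h ^ p, ?_, mul_ne_zero hf0 (pow_ne_zero _ hh0), ?_, ?_, ?_⟩
  · rw [Pic0.mk_add, gdf_mk_div hh0, add_zero, hD]
  · intro v
    rw [v.ord_mul hf0 (pow_ne_zero _ hh0), Fermat.Agent.S18lib.ord_pow_nat, ← hdiv v,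
      AddSubgroup.coe_add, Finsupp.add_apply, gdf_coe_div]
    rw [divOf_apply' h v]
    ring
  · rw [← kspRed_one_iff]
    have := kspRed_mul R₁ hf₁' (kspRed_pow R₁ hh₁ p)
    rwa [one_pow, mul_one] at this
  · rw [← kspRed_one_iff]
    have := kspRed_mul R₂ hf₂' (kspRed_pow R₂ hh₂ p)
    rw [← map_pow, ← map_mul, hs, hd, mul_comm (π ⟨e⁻¹, heiA⟩), hπe, map_one] at this
    exact this

/-- **(KSAT-PAIR)** in the language of `SSRed.ofPair` (the input of `tob_kummer`):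
`u uinv : S.O`, `u * uinv = 1`, `ord_v u = p D v`, `S.red u = 1`. -/
theorem ksp_ss [RRBase K F] [RRBase k Fk₁] [RRBase k Fk₂] (p : ℕ) (hp : p ≠ 0)
    (hroot : ∀ c : k, ∃ d : k, d ^ p = c)
    (hsep : ∃ z : F, z ≠ 0 ∧ z ∈ R₁.O.nonunits ∧ z⁻¹ ∈ R₂.O.nonunits)
    (G : Set (SemilinearAut K F)) (hG₁ : ∀ g ∈ G, IsInertial R₁ g)
    (hG₂ : ∀ g ∈ G, IsInertial R₂ g) (x : Pic0 K F)
    (hx : x ∈ AddSubgroup.closure
      {z : Pic0 K F | ∃ g ∈ G, ∃ y : Pic0 K F, (∃ n : ℕ, p ^ n • y = 0) ∧ z = g • y - y})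
    (hpx : p • x = 0) :
    ∃ (D : Divisor.degZero (K := K) (F := F)) (u uinv : (SSRed.ofPair R₁ R₂).O),
      Pic0.mk D = x ∧ u * uinv = 1 ∧
      (∀ v : Place K F, v.ord (u : F) = (p : ℤ) * (D : Divisor K F) v) ∧
      (SSRed.ofPair R₁ R₂).red u = 1 ∧ (SSRed.ofPair R₁ R₂).red uinv = 1 := by
  obtain ⟨D, f, hD, hf0, hdiv, hf₁, hf₂⟩ := ksp_diag R₁ R₂ p hp hroot hsep G hG₁ hG₂ x hx hpx
  have h₁ := (kspRed_one_iff R₁).2 hf₁
  have h₂ := (kspRed_one_iff R₂).2 hf₂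
  have h₁i := kspRed_inv R₁ h₁ one_ne_zero
  have h₂i := kspRed_inv R₂ h₂ one_ne_zero
  rw [inv_one] at h₁i h₂i
  refine ⟨D, ⟨f, (SSRed.mem_ofPair_O R₁ R₂ f).2 ⟨h₁.1, h₂.1⟩⟩,
    ⟨f⁻¹, (SSRed.mem_ofPair_O R₁ R₂ f⁻¹).2 ⟨h₁i.1, h₂i.1⟩⟩, hD,
    Subtype.ext (mul_inv_cancel₀ hf0), fun v => (hdiv v).symm, ?_, ?_⟩
  · exact (SSRed.ofPair_red R₁ R₂ _).trans (Prod.ext h₁.2 h₂.2)
  · exact (SSRed.ofPair_red R₁ R₂ _).trans (Prod.ext h₁i.2 h₂i.2)

end Pair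

end Fermat.Agent.S33lib

end
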