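/-
Item 86 (S33), block G2 (TOR_p), piece (KSAT-PAIR), concrete form (helper19).  Complete proofs.

`ksp_conc` : level `N`, `p ‖ N`, `B ∣ p`, `R` a series reduction of `F_N` along `B`,
`R₀ = inredZero R = R ∘ w_p` the second Gauss valuation: a class `x ∈ s33hKI N p B` with
`p • x = 0` is the class of a divisor `D` with ONE Kummer function `f` (`div f = p D`) such that
`f - 1 ∈ m_O` for `R` AND for `R₀` (provided the two unit balls are different).

`ksp_conc_mul` : the same at the level `M' * p`, `p ∤ M'`, where `O_∞ ≠ O_0` is known (`vk_O_ne`).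
`ksp_conc_ss` : the same in the language of `SSRed.ofPair R R₀` (input of `tob_kummer`).
-/
import Mathlib
import Fermat.Agent.S33lib.Hub
import Fermat.Agent.S33lib.KSatPair
import Fermat.Agent.S34lib.InertiaRedAL
import Fermat.Agent.S34lib.VRedInto
import Fermat.Agent.S34lib.VKronNe
import Fermat.Agent.RRlib.Modular
import Fermat.Agent.GoodRed.Echelon

set_option autoImplicit false
set_option linter.style.haveILetI false
set_option linter.unusedSectionVars false
set_option linter.unusedVariables false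
set_option synthInstance.maxHeartbeats 400000

noncomputable section

namespace Fermat.Agent.S33lib

open AlgebraicCurve ModularCurve
open Fermat.Agent.RRlib Fermat.Agent.GoodRed Fermat.Agent.S34lib Fermat.Agent.S24lib
  Fermat.Agent.GM Fermat.Agent.S35lib

section General

variable (N : ℕ) [NeZero N] (p : ℕ) (hp : p.Prime) (hpN : p ∣ N) (hp2 : ¬ p ^ 2 ∣ N)
variable (B : ValuationSubring Kbar) (hB : B.LiesOverPrime p)
variable {Fk : IntermediateField (IsLocalRing.ResidueField B)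
  (LaurentSeries (IsLocalRing.ResidueField B))}
variable (R : ConstRed B (IsLocalRing.residue B) (↥Fk) (FF N)) (hR : IsSeriesRed R)

set_option maxHeartbeats 1600000 in
include hB hR in
/-- **(KSAT-PAIR)**: a class of `s33hKI N p B` killed by `p` has ONE Kummer function congruent to
`1` modulo the maximal ideals of both Gauss valuations. -/
theorem ksp_conc [RRBase (IsLocalRing.ResidueField B) (↥Fk)]
    (hne : R.O ≠ (inredZero N p hp hpN hp2 R).O)
    (x : JZero N) (hx : x ∈ s33hKI N p B) (hpx : p • x = 0) :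
    ∃ (D : Divisor.degZero (K := Kbar) (F := FF N)) (f : FF N), Pic0.mk D = x ∧ f ≠ 0 ∧
      (∀ v : Place Kbar (FF N), (p : ℤ) * (D : Divisor Kbar (FF N)) v = v.ord f) ∧
        f - 1 ∈ R.O.nonunits ∧ f - 1 ∈ (inredZero N p hp hpN hp2 R).O.nonunits := by
  haveI : RRBase Kbar (FF N) := (mod_rrHyp N).toRRBase
  haveI : IsAlgClosed (IsLocalRing.ResidueField B) := isAlgClosed_residueField B
  have hfrac : HasPrimFrac B (modularFunctionFieldBar N) := vri_hfrac N p hp B hB
  refine ksp_diag R (inredZero N p hp hpN hp2 R) p hp.ne_zero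
    (fun c => IsAlgClosed.exists_pow_nat_eq c hp.pos)
    (ksp_sep_of_ne R (inredZero N p hp hpN hp2 R) hne)
    {g | ∃ τ ∈ B.inertiaSubgroupIn ℚ, g = galFF N τ} ?_ ?_ x ?_ hpx
  · rintro g ⟨τ, hτ, rfl⟩
    exact inred_isInertial_inf N hR hfrac τ hτ
  · rintro g ⟨τ, hτ, rfl⟩
    exact inred_isInertial_zero N p hp hpN hp2 hR hfrac τ hτ
  · refine AddSubgroup.closure_mono ?_ hx
    rintro z ⟨τ, hτ, y, hy, rfl⟩
    exact ⟨galFF N τ, ⟨τ, hτ, rfl⟩, y, hy, rfl⟩

set_option maxHeartbeats 1600000 in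
include hB hR in
/-- **(KSAT-PAIR)** in the language of `SSRed.ofPair R R₀`. -/
theorem ksp_conc_ss [RRBase (IsLocalRing.ResidueField B) (↥Fk)]
    (hne : R.O ≠ (inredZero N p hp hpN hp2 R).O)
    (x : JZero N) (hx : x ∈ s33hKI N p B) (hpx : p • x = 0) :
    ∃ (D : Divisor.degZero (K := Kbar) (F := FF N))
      (u uinv : (SSRed.ofPair R (inredZero N p hp hpN hp2 R)).O),
      Pic0.mk D = x ∧ u * uinv = 1 ∧
      (∀ v : Place Kbar (FF N), v.ord (u : FF N) = (p : ℤ) * (D : Divisor Kbar (FF N)) v) ∧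
      (SSRed.ofPair R (inredZero N p hp hpN hp2 R)).red u = 1 ∧
      (SSRed.ofPair R (inredZero N p hp hpN hp2 R)).red uinv = 1 := by
  obtain ⟨D, f, hD, hf0, hdiv, hf₁, hf₂⟩ := ksp_conc N p hp hpN hp2 B hB R hR hne x hx hpx
  have h₁ := (kspRed_one_iff R).2 hf₁
  have h₂ := (kspRed_one_iff (inredZero N p hp hpN hp2 R)).2 hf₂
  have h₁i := kspRed_inv R h₁ one_ne_zero
  have h₂i := kspRed_inv (inredZero N p hp hpN hp2 R) h₂ one_ne_zero
  rw [inv_one] at h₁i h₂i
  refine ⟨D, ⟨f, (SSRed.mem_ofPair_O R _ f).2 ⟨h₁.1, h₂.1⟩⟩,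
    ⟨f⁻¹, (SSRed.mem_ofPair_O R _ f⁻¹).2 ⟨h₁i.1, h₂i.1⟩⟩, hD,
    Subtype.ext (mul_inv_cancel₀ hf0), fun v => (hdiv v).symm, ?_, ?_⟩
  · exact (SSRed.ofPair_red R _ _).trans (Prod.ext h₁.2 h₂.2)
  · exact (SSRed.ofPair_red R _ _).trans (Prod.ext h₁i.2 h₂i.2)

end General

section Mul

variable (M' p : ℕ) [NeZero M'] [NeZero p] [NeZero (M' * p)] (hp : p.Prime) (hpM : ¬ p ∣ M')
variable (B : ValuationSubring Kbar) (hB : B.LiesOverPrime p)
variable {Fk : IntermediateField (IsLocalRing.ResidueField B)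
  (LaurentSeries (IsLocalRing.ResidueField B))}
variable (R : ConstRed B (IsLocalRing.residue B) (↥Fk) (FF (M' * p))) (hR : IsSeriesRed R)

include hB hR in
/-- **(KSAT-PAIR)** at the level `M' p`, `p ∤ M'`: the pair `(R, vkZero R)` (`= glmZero R`). -/
theorem ksp_conc_mul [RRBase (IsLocalRing.ResidueField B) (↥Fk)]
    (x : JZero (M' * p)) (hx : x ∈ s33hKI (M' * p) p B) (hpx : p • x = 0) :
    ∃ (D : Divisor.degZero (K := Kbar) (F := FF (M' * p))) (f : FF (M' * p)),
      Pic0.mk D = x ∧ f ≠ 0 ∧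
      (∀ v : Place Kbar (FF (M' * p)), (p : ℤ) * (D : Divisor Kbar (FF (M' * p))) v = v.ord f) ∧
        f - 1 ∈ R.O.nonunits ∧ f - 1 ∈ (vkZero M' p hp hpM R).O.nonunits :=
  ksp_conc (M' * p) p hp (dvd_mul_left p M') (inf_not_sq_dvd M' p hp hpM) B hB R hR
    (vk_O_ne M' p hp hpM hR hB) x hx hpx

include hB hR in
/-- **(KSAT-PAIR)** at the level `M' p` in the language of `SSRed.ofPair R (vkZero R)`. -/
theorem ksp_conc_mul_ss [RRBase (IsLocalRing.ResidueField B) (↥Fk)]
    (x : JZero (M' * p)) (hx : x ∈ s33hKI (M' * p) p B) (hpx : p • x = 0) :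
    ∃ (D : Divisor.degZero (K := Kbar) (F := FF (M' * p)))
      (u uinv : (SSRed.ofPair R (vkZero M' p hp hpM R)).O),
      Pic0.mk D = x ∧ u * uinv = 1 ∧
      (∀ v : Place Kbar (FF (M' * p)),
        v.ord (u : FF (M' * p)) = (p : ℤ) * (D : Divisor Kbar (FF (M' * p))) v) ∧
      (SSRed.ofPair R (vkZero M' p hp hpM R)).red u = 1 ∧
      (SSRed.ofPair R (vkZero M' p hp hpM R)).red uinv = 1 :=
  ksp_conc_ss (M' * p) p hp (dvd_mul_left p M') (inf_not_sq_dvd M' p hp hpM) B hB R hR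
    (vk_O_ne M' p hp hpM hR hB) x hx hpx

end Mul

end Fermat.Agent.S33lib

end
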