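/-
Item 86 (S33), block RAY at level `N = N' p` (helper26; blueprint helper2): **the abstract
`K₁`-lemma for the sup-norm pair** (two constant reductions `R₁, R₂` of the same function field).
No sorry in this file.

Setting: `F/K` a function field, `A ⊂ K` a valuation ring with residue map `π : A → k`,
`R₁ : ConstRed A π Fk₁ F`, `R₂ : ConstRed A π Fk₂ F` with place reductions `r₁, r₂`;
`lam ∈ A` with `π lam = 0`, `lam^(p-1) ∣ p` in `A`; `F1 ⊂ F` a subfield ("the `K₁`-rational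
functions") with
* (DISC) the value group of `F1` for `R_j.O` is `lam^ℤ`,
* (RES1) the residue field of `A ∩ F1` is `k`,
* (GLUE) an element of `F1 ∩ O₁ ∩ O₂`, regular off `P`, with constant reductions `(c₁, c₂)` has
  `c₁ = c₂`.

* `rss_core` : `f₁ ∈ F1`, `f₁ ≡ 1` for both valuations, regular off `P`; `h ∈ F1`, `h ≡ 1`,
  `h^p / f₁` regular off `Q`; `r_j P ≠ r_j Q`.  Then `f₁ = c · (1 + lam^p g)` with
  `g ∈ F1 ∩ O₁ ∩ O₂` ("level `≥ v* = v(lam^p)`").
-/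
import Mathlib
import Fermat.Agent.GoodRed.PlaceRed
import Fermat.Agent.GoodRed.Lattice
import Fermat.Agent.S24lib.FFBasic
import Fermat.Agent.S33lib.RayPow

set_option autoImplicit false
set_option linter.style.haveILetI false
set_option linter.unusedSectionVars false
set_option linter.unusedVariables false

noncomputable section

namespace Fermat.Agent.S33lib

open AlgebraicCurve Fermat.Agent.RRlib Fermat.Agent.GoodRed Fermat.Agent.S24lib

section RegOff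

variable {K F : Type*} [Field K] [Field F] [Algebra K F]

/-- the functions regular at every place different from `P` -/
def rssRegOff (P : Place K F) : Subring F :=
  ⨅ v : {v : Place K F // v ≠ P}, v.1.toValuationSubring.toSubring

theorem mem_rssRegOff (P : Place K F) (f : F) :
    f ∈ rssRegOff P ↔ ∀ v : Place K F, v ≠ P → f ∈ v.toValuationSubring := by
  simp only [rssRegOff, Subring.mem_iInf, Subtype.forall]
  rfl

theorem mem_rssRegOff_iff_ord (P : Place K F) (f : F) :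
    f ∈ rssRegOff P ↔ ∀ v : Place K F, v ≠ P → 0 ≤ v.ord f := by
  rw [mem_rssRegOff]
  exact forall_congr' fun v => imp_congr_right fun _ => ffMem_iff_ord_nonneg v

theorem algebraMap_mem_rssRegOff (P : Place K F) (c : K) : algebraMap K F c ∈ rssRegOff P :=
  (mem_rssRegOff P _).2 fun v _ => v.algebraMap_mem' c

/-- a function regular off `P` and off `Q ≠ P` is constant -/
theorem rss_const_of_regOff [RRBase K F] {P Q : Place K F} (hPQ : P ≠ Q) (f : F)
    (hP : f ∈ rssRegOff P) (hQ : f ∈ rssRegOff Q) : ∃ c : K, f = algebraMap K F c := by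
  have h : ∀ v : Place K F, 0 ≤ v.ord f := by
    intro v
    by_cases hv : v = P
    · subst hv
      exact (mem_rssRegOff_iff_ord Q f).1 hQ v hPQ
    · exact (mem_rssRegOff_iff_ord P f).1 hP v hv
  obtain ⟨c, hc⟩ := RRBase.const_of_forall_ord_nonneg (K := K) f h
  exact ⟨c, hc.symm⟩

end RegOff

section PoleControl

variable {K F k Fk : Type*} [Field K] [Field F] [Algebra K F] [Field k] [Field Fk] [Algebra k Fk]
variable {A : ValuationSubring K} {π : A →+* k}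

/-- **pole control**: the reduction of an integral function regular off `P` is regular off
`r P` -/
theorem rss_red_regOff [RRBase K F] [RRBase k Fk] (R : ConstRed A π Fk F)
    {r : Place K F → Place k Fk} (hr : R.IsPlaceRed r) (P : Place K F) (g : R.O)
    (hg : (g : F) ∈ rssRegOff P) : R.red g ∈ rssRegOff (r P) := by
  classical
  by_cases h0 : R.red g = 0
  · rw [h0]
    exact zero_mem _
  have hg0 : (g : F) ≠ 0 := fun h => h0 (by rw [show g = 0 from Subtype.ext h, map_zero])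
  set N : ℕ := (-(P.ord (g : F))).toNat with hN
  have hgL : (g : F) ∈ riemannRochSpace (K := K) (Finsupp.single P (N : ℤ)) := by
    rw [mem_riemannRochSpace_iff_divOf hg0]
    intro v
    rw [Finsupp.coe_zero, Pi.zero_apply, Finsupp.coe_add, Pi.add_apply, divOf_apply hg0,
      Finsupp.single_apply]
    split_ifs with hv
    · subst hv
      have := Int.self_le_toNat (-(P.ord (g : F)))
      omega
    · have := (mem_rssRegOff_iff_ord P _).1 hg v (fun h => hv h.symm)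
      omega
  have hW : R.red g ∈ R.W (Finsupp.single P (N : ℤ)) := (R.mem_W_iff _ _).2 ⟨g, hgL, rfl⟩
  have hL := hr.W_le _ hW
  rw [Finsupp.mapDomain_single, mem_riemannRochSpace_iff_divOf h0] at hL
  rw [mem_rssRegOff_iff_ord]
  intro w hw
  have := hL w
  rw [Finsupp.coe_zero, Pi.zero_apply, Finsupp.coe_add, Pi.add_apply, divOf_apply h0,
    Finsupp.single_apply, if_neg (fun h => hw h.symm), zero_add] at this
  exact this

/-- **(DISC) ⇒ divisibility by `lam`**: an element of `F1` in the maximal ideal of `O` is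
divisible by `lam` in `O`. -/
theorem rss_div_lam (R : ConstRed A π Fk F) (lam : K) (hlam0 : lam ≠ 0) (hlamA : lam ∈ A)
    (x : F) (hx : x ∈ R.O.nonunits)
    (hdisc : x ≠ 0 → ∃ n : ℤ, algebraMap K F (lam ^ n) * x ∈ R.O ∧
      (algebraMap K F (lam ^ n) * x)⁻¹ ∈ R.O) :
    x / algebraMap K F lam ∈ R.O := by
  rcases eq_or_ne x 0 with rfl | hx0
  · rw [zero_div]
    exact zero_mem _
  obtain ⟨n, hu, hui⟩ := hdisc hx0
  have hl0 : algebraMap K F lam ≠ 0 := by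
    rw [Ne, map_eq_zero_iff _ (algebraMap K F).injective]
    exact hlam0
  have hlO : algebraMap K F lam ∈ R.O := R.algebraMap_mem ⟨lam, hlamA⟩
  have hxinv : x⁻¹ ∉ R.O := by
    have := (ValuationSubring.mem_nonunits_iff_or (A := R.O)).1 hx
    rcases this with h | h
    · exact absurd h hx0
    · exact h
  -- `n < 0`
  have hn : n < 0 := by
    by_contra hn
    rw [not_lt] at hn
    lift n to ℕ using hn
    apply hxinv
    have e : x⁻¹ = algebraMap K F lam ^ n * (algebraMap K F (lam ^ (n : ℤ)) * x)⁻¹ := by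
      rw [zpow_natCast, map_pow, mul_inv, ← mul_assoc, mul_inv_cancel₀ (pow_ne_zero _ hl0),
        one_mul]
    rw [e]
    exact mul_mem (pow_mem hlO n) hui
  obtain ⟨m, rfl⟩ : ∃ m : ℕ, n = -(m + 1 : ℤ) := ⟨(-n - 1).toNat, by omega⟩
  have e : x / algebraMap K F lam
      = algebraMap K F lam ^ m * (algebraMap K F (lam ^ (-(m + 1 : ℤ))) * x) := by
    rw [zpow_neg, map_inv₀, show ((m : ℤ) + 1) = ((m + 1 : ℕ) : ℤ) by push_cast; rfl,
      zpow_natCast, map_pow, pow_succ]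
    field_simp
  rw [e]
  exact mul_mem (pow_mem hlO m) hu

end PoleControl

section Core

variable {K F k : Type*} [Field K] [Field F] [Algebra K F] [Field k]
variable {Fk₁ Fk₂ : Type*} [Field Fk₁] [Algebra k Fk₁] [Field Fk₂] [Algebra k Fk₂]
variable {A : ValuationSubring K} {π : A →+* k}
variable [RRBase K F] [RRBase k Fk₁] [RRBase k Fk₂]
variable (R₁ : ConstRed A π Fk₁ F) (R₂ : ConstRed A π Fk₂ F)
variable {r₁ : Place K F → Place k Fk₁} {r₂ : Place K F → Place k Fk₂}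

/-- `f₁` has level `≥ i`: `f₁ = c (1 + lam^i g)` with `c` a nonzero constant in `F1` and
`g ∈ F1 ∩ O₁ ∩ O₂` -/
def RssLev (lam : K) (F1 : Subfield F) (i : ℕ) (f₁ : F) : Prop :=
  ∃ (c : K) (g : F), c ≠ 0 ∧ algebraMap K F c ∈ F1 ∧ g ∈ F1 ∧ g ∈ R₁.O ∧ g ∈ R₂.O ∧
    f₁ = algebraMap K F c * (1 + algebraMap K F (lam ^ i) * g)

/-- the reduction of `lam^i x` vanishes for `i ≥ 1` -/
theorem rss_red_lam_mul {Fk : Type*} [Field Fk] [Algebra k Fk] (R : ConstRed A π Fk F)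
    (lam : K) (hlamA : lam ∈ A) (hlamπ : π ⟨lam, hlamA⟩ = 0) (i : ℕ) (hi : 1 ≤ i) (x : R.O)
    (h : algebraMap K F (lam ^ i) * (x : F) ∈ R.O) :
    R.red ⟨algebraMap K F (lam ^ i) * (x : F), h⟩ = 0 := by
  have e : (⟨algebraMap K F (lam ^ i) * (x : F), h⟩ : R.O)
      = ⟨algebraMap K F (((⟨lam, hlamA⟩ : A) ^ i : A) : K), R.algebraMap_mem _⟩ * x :=
    Subtype.ext rfl
  rw [e, R.red_algebraMap_mul, map_pow, hlamπ, zero_pow (by omega), zero_smul]

/-- `1 + lam^i g` is a unit of `O` with reduction `1` (`i ≥ 1`) -/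
theorem rss_one_add {Fk : Type*} [Field Fk] [Algebra k Fk] (R : ConstRed A π Fk F)
    (lam : K) (hlamA : lam ∈ A) (hlamπ : π ⟨lam, hlamA⟩ = 0) (i : ℕ) (hi : 1 ≤ i) (g : F)
    (hg : g ∈ R.O) :
    ∃ h : 1 + algebraMap K F (lam ^ i) * g ∈ R.O,
      R.red ⟨1 + algebraMap K F (lam ^ i) * g, h⟩ = 1 ∧
        (1 + algebraMap K F (lam ^ i) * g)⁻¹ ∈ R.O := by
  have hl : algebraMap K F (lam ^ i) ∈ R.O := R.algebraMap_mem (⟨lam, hlamA⟩ ^ i : A)
  have hm : algebraMap K F (lam ^ i) * g ∈ R.O := mul_mem hl hg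
  have h : 1 + algebraMap K F (lam ^ i) * g ∈ R.O := add_mem (one_mem _) hm
  have hred : R.red ⟨1 + algebraMap K F (lam ^ i) * g, h⟩ = 1 := by
    have e : (⟨1 + algebraMap K F (lam ^ i) * g, h⟩ : R.O)
        = 1 + ⟨algebraMap K F (lam ^ i) * ((⟨g, hg⟩ : R.O) : F), hm⟩ := Subtype.ext rfl
    rw [e, map_add, map_one, rss_red_lam_mul R lam hlamA hlamπ i hi ⟨g, hg⟩ hm, add_zero]
  refine ⟨h, hred, ?_⟩
  have hnu : (1 + algebraMap K F (lam ^ i) * g) ∉ R.O.nonunits := by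
    intro hnu
    have := (R.red_eq_zero_iff ⟨_, h⟩).2 hnu
    rw [hred] at this
    exact one_ne_zero this
  rw [ValuationSubring.mem_nonunits_iff_or, not_or, not_not] at hnu
  exact hnu.2

variable (hr₁ : R₁.IsPlaceRed r₁) (hr₂ : R₂.IsPlaceRed r₂)
variable (p : ℕ) (lam : K) (hlam0 : lam ≠ 0) (hlamA : lam ∈ A)
  (hlamπ : π ⟨lam, hlamA⟩ = 0)
variable (F1 : Subfield F) (hlamF1 : algebraMap K F lam ∈ F1)
variable
  (hdisc₁ : ∀ f ∈ F1, f ≠ 0 → ∃ n : ℤ, algebraMap K F (lam ^ n) * f ∈ R₁.O ∧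
    (algebraMap K F (lam ^ n) * f)⁻¹ ∈ R₁.O)
  (hdisc₂ : ∀ f ∈ F1, f ≠ 0 → ∃ n : ℤ, algebraMap K F (lam ^ n) * f ∈ R₂.O ∧
    (algebraMap K F (lam ^ n) * f)⁻¹ ∈ R₂.O)
  (hres1 : ∀ c : k, ∃ a : A, π a = c ∧ algebraMap K F (a : K) ∈ F1)
variable (P Q : Place K F) (hPQ₁ : r₁ P ≠ r₁ Q) (hPQ₂ : r₂ P ≠ r₂ Q)
variable
  (hglue : ∀ (g : F) (h1 : g ∈ R₁.O) (h2 : g ∈ R₂.O), g ∈ F1 → g ∈ rssRegOff P →
    ∀ c₁ c₂ : k, R₁.red ⟨g, h1⟩ = algebraMap k Fk₁ c₁ → R₂.red ⟨g, h2⟩ = algebraMap k Fk₂ c₂ →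
      c₁ = c₂)

include hlam0 hlamπ in
/-- in the induction step the reduction of `g` is constant (one valuation) -/
theorem rss_red_const {Fk : Type*} [Field Fk] [Algebra k Fk] [RRBase k Fk]
    (R : ConstRed A π Fk F) {r : Place K F → Place k Fk} (hr : R.IsPlaceRed r)
    (hPQ : r P ≠ r Q) (i : ℕ) (hi : 1 ≤ i) (hip : i < p)
    (c : K) (hc : c ≠ 0) (g : F) (hgO : g ∈ R.O) (f₁ : F)
    (hf : f₁ = algebraMap K F c * (1 + algebraMap K F (lam ^ i) * g))
    (hfP : f₁ ∈ rssRegOff P)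
    (H ρ : F) (hρ : ρ ∈ R.O) (hH : H = 1 + algebraMap K F (lam ^ p) * ρ)
    (hHQ : H / f₁ ∈ rssRegOff Q) :
    g ∈ rssRegOff P ∧ ∃ cb : k, R.red ⟨g, hgO⟩ = algebraMap k Fk cb := by
  have hl0 : algebraMap K F lam ≠ 0 := by
    rw [Ne, map_eq_zero_iff _ (algebraMap K F).injective]
    exact hlam0
  have hli0 : algebraMap K F (lam ^ i) ≠ 0 := by
    rw [map_pow]
    exact pow_ne_zero _ hl0
  have hc0 : algebraMap K F c ≠ 0 := by
    rw [Ne, map_eq_zero_iff _ (algebraMap K F).injective]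
    exact hc
  obtain ⟨hyO, hyred, hyinv⟩ := rss_one_add R lam hlamA hlamπ i hi g hgO
  set y : F := 1 + algebraMap K F (lam ^ i) * g with hy
  have hy0 : y ≠ 0 := by
    intro h0
    have : R.red ⟨y, hyO⟩ = 0 := by
      rw [show (⟨y, hyO⟩ : R.O) = 0 from Subtype.ext h0, map_zero]
    rw [hyred] at this
    exact one_ne_zero this
  -- `g` is regular off `P`
  have hgP : g ∈ rssRegOff P := by
    have e : g = (f₁ * algebraMap K F c⁻¹ - 1) * algebraMap K F (lam ^ i)⁻¹ := by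
      rw [hf, map_inv₀, map_inv₀]
      field_simp
      ring
    rw [e]
    exact mul_mem (sub_mem (mul_mem hfP (algebraMap_mem_rssRegOff P _)) (one_mem _))
      (algebraMap_mem_rssRegOff P _)
  refine ⟨hgP, ?_⟩
  -- the second representative
  have hpi : algebraMap K F (lam ^ (p - i)) ∈ R.O := R.algebraMap_mem (⟨lam, hlamA⟩ ^ (p - i) : A)
  have hmO : algebraMap K F (lam ^ (p - i)) * ρ ∈ R.O := mul_mem hpi hρ
  set g2 : F := (algebraMap K F (lam ^ (p - i)) * ρ - g) * y⁻¹ with hg2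
  have hg2O : g2 ∈ R.O := mul_mem (sub_mem hmO hgO) hyinv
  have hg2Q : g2 ∈ rssRegOff Q := by
    have e : g2 = (H / f₁ * algebraMap K F c - 1) * algebraMap K F (lam ^ i)⁻¹ := by
      have hpow : algebraMap K F (lam ^ p)
          = algebraMap K F (lam ^ i) * algebraMap K F (lam ^ (p - i)) := by
        rw [← map_mul, ← pow_add, Nat.add_sub_cancel' hip.le]
      rw [hg2, hH, hf, hpow, map_inv₀]
      field_simp
      ring
    rw [e]
    exact mul_mem (sub_mem (mul_mem hHQ (algebraMap_mem_rssRegOff Q _)) (one_mem _))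
      (algebraMap_mem_rssRegOff Q _)
  have hred2 : R.red ⟨g2, hg2O⟩ = - R.red ⟨g, hgO⟩ := by
    have e : (⟨g2, hg2O⟩ : R.O) * ⟨y, hyO⟩
        = ⟨algebraMap K F (lam ^ (p - i)) * ((⟨ρ, hρ⟩ : R.O) : F), hmO⟩ - ⟨g, hgO⟩ := by
      apply Subtype.ext
      show g2 * y = algebraMap K F (lam ^ (p - i)) * ρ - g
      rw [hg2, mul_assoc, inv_mul_cancel₀ hy0, mul_one]
    have := congrArg R.red e
    rw [map_mul, hyred, mul_one, map_sub,
      rss_red_lam_mul R lam hlamA hlamπ (p - i) (by omega) ⟨ρ, hρ⟩ hmO, zero_sub] at this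
    exact this
  have h1 : R.red ⟨g, hgO⟩ ∈ rssRegOff (r P) := rss_red_regOff R hr P ⟨g, hgO⟩ hgP
  have h2 : R.red ⟨g, hgO⟩ ∈ rssRegOff (r Q) := by
    have := rss_red_regOff R hr Q ⟨g2, hg2O⟩ hg2Q
    rw [hred2] at this
    simpa using neg_mem this
  exact rss_const_of_regOff hPQ _ h1 h2

include hlam0 hlamπ hr₁ hr₂ hPQ₁ hPQ₂ hdisc₁ hdisc₂ hres1 hglue hlamF1 in
/-- **the induction step**: level `i` ⇒ level `i + 1` for `1 ≤ i < p` -/
theorem rss_step (i : ℕ) (hi : 1 ≤ i) (hip : i < p) (f₁ : F) (hfP : f₁ ∈ rssRegOff P)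
    (H ρ : F) (hρ₁ : ρ ∈ R₁.O) (hρ₂ : ρ ∈ R₂.O) (hH : H = 1 + algebraMap K F (lam ^ p) * ρ)
    (hHQ : H / f₁ ∈ rssRegOff Q)
    (hlev : RssLev R₁ R₂ lam F1 i f₁) : RssLev R₁ R₂ lam F1 (i + 1) f₁ := by
  obtain ⟨c, g, hc, hcF, hgF, hg1, hg2, hf⟩ := hlev
  obtain ⟨hgP, c₁, hc₁⟩ := rss_red_const p lam hlam0 hlamA hlamπ P Q R₁ hr₁ hPQ₁ i hi hip c hc g
    hg1 f₁ hf hfP H ρ hρ₁ hH hHQ
  obtain ⟨-, c₂, hc₂⟩ := rss_red_const p lam hlam0 hlamA hlamπ P Q R₂ hr₂ hPQ₂ i hi hip c hc g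
    hg2 f₁ hf hfP H ρ hρ₂ hH hHQ
  have hcc : c₁ = c₂ := hglue g hg1 hg2 hgF hgP c₁ c₂ hc₁ hc₂
  obtain ⟨a, ha, haF⟩ := hres1 c₁
  have hl0 : algebraMap K F lam ≠ 0 := by
    rw [Ne, map_eq_zero_iff _ (algebraMap K F).injective]
    exact hlam0
  set x : F := g - algebraMap K F (a : K) with hx
  have hxF : x ∈ F1 := sub_mem hgF haF
  have hx1O : x ∈ R₁.O := sub_mem hg1 (R₁.algebraMap_mem a)
  have hx2O : x ∈ R₂.O := sub_mem hg2 (R₂.algebraMap_mem a)
  have hx1 : x ∈ R₁.O.nonunits := by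
    rw [← R₁.red_eq_zero_iff ⟨x, hx1O⟩]
    have e : (⟨x, hx1O⟩ : R₁.O) = ⟨g, hg1⟩ - ⟨algebraMap K F (a : K), R₁.algebraMap_mem a⟩ :=
      Subtype.ext rfl
    rw [e, map_sub, hc₁, R₁.red_algebraMap, ha, sub_self]
  have hx2 : x ∈ R₂.O.nonunits := by
    rw [← R₂.red_eq_zero_iff ⟨x, hx2O⟩]
    have e : (⟨x, hx2O⟩ : R₂.O) = ⟨g, hg2⟩ - ⟨algebraMap K F (a : K), R₂.algebraMap_mem a⟩ :=
      Subtype.ext rfl
    rw [e, map_sub, hc₂, R₂.red_algebraMap, ha, hcc, sub_self]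
  have hd1 := rss_div_lam R₁ lam hlam0 hlamA x hx1 (hdisc₁ x hxF)
  have hd2 := rss_div_lam R₂ lam hlam0 hlamA x hx2 (hdisc₂ x hxF)
  -- the unit `u = 1 + lam^i a`
  set u : A := 1 + ⟨lam, hlamA⟩ ^ i * a with hu
  have hπu : π u = 1 := by
    rw [hu, map_add, map_one, map_mul, map_pow, hlamπ, zero_pow (by omega), zero_mul, add_zero]
  have hunu : (u : K) ∉ A.nonunits := by
    intro h
    have := (R₁.π_eq_zero_iff u).2 h
    rw [hπu] at this
    exact one_ne_zero this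
  rw [ValuationSubring.mem_nonunits_iff_or, not_or, not_not] at hunu
  obtain ⟨hu0, huinv⟩ := hunu
  have huK : (u : K) = 1 + lam ^ i * (a : K) := rfl
  have huF : algebraMap K F (u : K) ∈ F1 := by
    rw [huK, map_add, map_one, map_mul, map_pow]
    exact add_mem (one_mem _) (mul_mem (pow_mem hlamF1 i) haF)
  have huF0 : algebraMap K F (u : K) ≠ 0 := by
    rw [Ne, map_eq_zero_iff _ (algebraMap K F).injective]
    exact hu0
  refine ⟨c * (u : K), x / algebraMap K F lam * algebraMap K F (u : K)⁻¹, mul_ne_zero hc hu0,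
    ?_, ?_, ?_, ?_, ?_⟩
  · rw [map_mul]
    exact mul_mem hcF huF
  · rw [map_inv₀]
    exact mul_mem (div_mem hxF hlamF1) (inv_mem huF)
  · exact mul_mem hd1 (R₁.algebraMap_mem ⟨(u : K)⁻¹, huinv⟩)
  · exact mul_mem hd2 (R₂.algebraMap_mem ⟨(u : K)⁻¹, huinv⟩)
  · have e1 : algebraMap K F (u : K) = 1 + algebraMap K F lam ^ i * algebraMap K F (a : K) := by
      rw [huK, map_add, map_one, map_mul, map_pow]
    rw [hf, map_mul, map_inv₀, map_pow, map_pow, hx]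
    field_simp
    rw [e1]
    ring

include hlam0 hlamπ hr₁ hr₂ hPQ₁ hPQ₂ hdisc₁ hdisc₂ hres1 hglue hlamF1 in
/-- **the abstract `K₁`-lemma for the sup-norm pair, normalised form.**
`f₁ ∈ F1` with `f₁ ≡ 1` for both valuations and poles only at `P`; `h ∈ F1`, `h ≡ 1`, such that
`h^p / f₁` has poles only at `Q`; `r_j P ≠ r_j Q`.  Then `f₁ = c (1 + lam^p g)` with `c` a nonzero
constant of `F1` and `g ∈ F1 ∩ O₁ ∩ O₂`. -/
theorem rss_core (hp : p.Prime)
    (hplam : ∃ ε ∈ A, (p : K) = -(lam ^ (p - 1)) * (1 + lam * ε))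
    (f₁ : F) (hf1 : f₁ ∈ F1) (hf₁ : f₁ - 1 ∈ R₁.O.nonunits) (hf₂ : f₁ - 1 ∈ R₂.O.nonunits)
    (hfP : f₁ ∈ rssRegOff P)
    (h : F) (hh1 : h ∈ F1) (hh₁ : h - 1 ∈ R₁.O.nonunits) (hh₂ : h - 1 ∈ R₂.O.nonunits)
    (hHQ : h ^ p / f₁ ∈ rssRegOff Q) :
    ∃ (c : K) (g : F), c ≠ 0 ∧ algebraMap K F c ∈ F1 ∧ g ∈ F1 ∧ g ∈ R₁.O ∧ g ∈ R₂.O ∧
      f₁ = algebraMap K F c * (1 + algebraMap K F (lam ^ p) * g) := by
  have hl0 : algebraMap K F lam ≠ 0 := by
    rw [Ne, map_eq_zero_iff _ (algebraMap K F).injective]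
    exact hlam0
  -- `h = 1 + lam h₁`
  have hhF : h - 1 ∈ F1 := sub_mem hh1 (one_mem _)
  have hd1 := rss_div_lam R₁ lam hlam0 hlamA (h - 1) hh₁ (hdisc₁ _ hhF)
  have hd2 := rss_div_lam R₂ lam hlam0 hlamA (h - 1) hh₂ (hdisc₂ _ hhF)
  set h₁ : F := (h - 1) / algebraMap K F lam with hh₁def
  have hh : h = 1 + algebraMap K F lam * h₁ := by
    rw [hh₁def]
    field_simp
    ring
  -- `h^p = 1 + lam^p ρ`
  obtain ⟨ε, hε, hpe⟩ := hplam
  have hpF : (p : F) = -(algebraMap K F lam ^ (p - 1)) * (1 + algebraMap K F lam *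
      algebraMap K F ε) := by
    have := congrArg (algebraMap K F) hpe
    rw [map_natCast, map_mul, map_neg, map_pow, map_add, map_one, map_mul] at this
    exact this
  obtain ⟨ρ₁, hρ₁, e₁⟩ := rpw_pow_mem R₁.O p hp (algebraMap K F lam)
    (R₁.algebraMap_mem ⟨lam, hlamA⟩) ⟨_, R₁.algebraMap_mem ⟨ε, hε⟩, hpF⟩ h₁ hd1
  obtain ⟨ρ₂, hρ₂, e₂⟩ := rpw_pow_mem R₂.O p hp (algebraMap K F lam)
    (R₂.algebraMap_mem ⟨lam, hlamA⟩) ⟨_, R₂.algebraMap_mem ⟨ε, hε⟩, hpF⟩ h₁ hd2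
  have hρ : ρ₂ = ρ₁ := by
    have : algebraMap K F lam ^ p * ρ₂ = algebraMap K F lam ^ p * ρ₁ := by
      have := e₂.symm.trans e₁
      exact add_left_cancel this
    exact mul_left_cancel₀ (pow_ne_zero _ hl0) this
  rw [hρ] at hρ₂
  have hH : h ^ p = 1 + algebraMap K F (lam ^ p) * ρ₁ := by
    rw [map_pow, ← e₁, ← hh]
  -- the induction
  have key : ∀ i : ℕ, 1 ≤ i → i ≤ p → RssLev R₁ R₂ lam F1 i f₁ := by
    intro i hi
    induction i, hi using Nat.le_induction with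
    | base =>
      intro _
      have hfF : f₁ - 1 ∈ F1 := sub_mem hf1 (one_mem _)
      refine ⟨1, (f₁ - 1) / algebraMap K F lam, one_ne_zero, ?_, div_mem hfF hlamF1,
        rss_div_lam R₁ lam hlam0 hlamA (f₁ - 1) hf₁ (hdisc₁ _ hfF),
        rss_div_lam R₂ lam hlam0 hlamA (f₁ - 1) hf₂ (hdisc₂ _ hfF), ?_⟩
      · rw [map_one]
        exact one_mem _
      · rw [map_one, pow_one]
        field_simp
        ring
    | succ i hi ih =>
      intro hip
      exact rss_step R₁ R₂ hr₁ hr₂ p lam hlam0 hlamA hlamπ F1 hlamF1 hdisc₁ hdisc₂ hres1 P Q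
        hPQ₁ hPQ₂ hglue i hi (by omega) f₁ hfP (h ^ p) ρ₁ hρ₁ hρ₂ hH hHQ (ih (by omega))
  exact key p hp.one_lt.le le_rfl

end Core

end Fermat.Agent.S33lib

end
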