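/-
Item 86 (S33), block RAY at level `N = N' p` (helper26): **the abstract `K₁`-lemma for the
sup-norm pair, (CONST) form.**  No sorry in this file.

`rss_core` (`RaySS.lean`) assumes `R_j.IsPlaceRed r_j`, which is FALSE at the semistable level
`N' p` (helper12: the reduction of a unit may have zeros and poles at the nodes).  Here the
hypotheses `hr₁ hr₂ hPQ₁ hPQ₂ hglue` are replaced by the ONE statement the induction uses:

(CONST)  `g, g₂ ∈ F1 ∩ O₁ ∩ O₂`, `g ∈ B₁`, `g₂ ∈ B₂`,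
         `red_j g₂ = - red_j g` (`j = 1, 2`)  ⟹  `red₁ g = c`, `red₂ g = c` for ONE constant `c ∈ k`.

`B₁, B₂` are ANY two subrings of `F` containing the constants (helper27: at level `N' p` take
`B_i` = the functions regular off the support of `D_i`, `D₁ = P_∞ + P_0` the two cusps, `D₂` the
zeros of a glued function; a single cusp is not enough for the lifting).

* `rss_core_const` : `f₁ ∈ F1 ∩ B₁`, `f₁ ≡ 1` for both valuations; `h ∈ F1`, `h ≡ 1`,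
  `h^p / f₁ ∈ B₂`.  Then `f₁ = c · (1 + lam^p g)` with `g ∈ F1 ∩ O₁ ∩ O₂`.
-/
import Mathlib
import Fermat.Agent.S33lib.RaySS

set_option autoImplicit false
set_option linter.style.haveILetI false
set_option linter.unusedSectionVars false
set_option linter.unusedVariables false

noncomputable section

namespace Fermat.Agent.S33lib

open AlgebraicCurve Fermat.Agent.RRlib Fermat.Agent.GoodRed Fermat.Agent.S24lib

variable {K F k : Type*} [Field K] [Field F] [Algebra K F] [Field k]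
variable {Fk₁ Fk₂ : Type*} [Field Fk₁] [Algebra k Fk₁] [Field Fk₂] [Algebra k Fk₂]
variable {A : ValuationSubring K} {π : A →+* k}
variable [RRBase K F]

/-- the second representative `g₂ = (lam^(p-i) ρ - g) / (1 + lam^i g)` is integral with reduction
`- red g` -/
theorem rss_second_red {Fk : Type*} [Field Fk] [Algebra k Fk] (R : ConstRed A π Fk F)
    (p : ℕ) (lam : K) (hlamA : lam ∈ A) (hlamπ : π ⟨lam, hlamA⟩ = 0)
    (i : ℕ) (hi : 1 ≤ i) (hip : i < p) (g ρ : F) (hgO : g ∈ R.O) (hρ : ρ ∈ R.O) :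
    ∃ h2 : (algebraMap K F (lam ^ (p - i)) * ρ - g) * (1 + algebraMap K F (lam ^ i) * g)⁻¹ ∈ R.O,
      R.red ⟨_, h2⟩ = - R.red ⟨g, hgO⟩ := by
  obtain ⟨hyO, hyred, hyinv⟩ := rss_one_add R lam hlamA hlamπ i hi g hgO
  have hy0 : (1 + algebraMap K F (lam ^ i) * g) ≠ 0 := by
    intro h0
    have : R.red ⟨_, hyO⟩ = 0 := by
      rw [show (⟨_, hyO⟩ : R.O) = 0 from Subtype.ext h0, map_zero]
    rw [hyred] at this
    exact one_ne_zero this
  have hpi : algebraMap K F (lam ^ (p - i)) ∈ R.O :=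
    R.algebraMap_mem (⟨lam, hlamA⟩ ^ (p - i) : A)
  have hmO : algebraMap K F (lam ^ (p - i)) * ρ ∈ R.O := mul_mem hpi hρ
  have hg2O : (algebraMap K F (lam ^ (p - i)) * ρ - g) * (1 + algebraMap K F (lam ^ i) * g)⁻¹
      ∈ R.O := mul_mem (sub_mem hmO hgO) hyinv
  refine ⟨hg2O, ?_⟩
  have e : (⟨_, hg2O⟩ : R.O) * ⟨_, hyO⟩
      = ⟨algebraMap K F (lam ^ (p - i)) * ((⟨ρ, hρ⟩ : R.O) : F), hmO⟩ - ⟨g, hgO⟩ := by
    apply Subtype.ext
    show (algebraMap K F (lam ^ (p - i)) * ρ - g) * (1 + algebraMap K F (lam ^ i) * g)⁻¹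
      * (1 + algebraMap K F (lam ^ i) * g) = algebraMap K F (lam ^ (p - i)) * ρ - g
    rw [mul_assoc, inv_mul_cancel₀ hy0, mul_one]
  have := congrArg R.red e
  rw [map_mul, hyred, mul_one, map_sub,
    rss_red_lam_mul R lam hlamA hlamπ (p - i) (by omega) ⟨ρ, hρ⟩ hmO, zero_sub] at this
  exact this

variable (R₁ : ConstRed A π Fk₁ F) (R₂ : ConstRed A π Fk₂ F)
variable (p : ℕ) (lam : K) (hlam0 : lam ≠ 0) (hlamA : lam ∈ A)
  (hlamπ : π ⟨lam, hlamA⟩ = 0)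
variable (F1 : Subfield F) (hlamF1 : algebraMap K F lam ∈ F1)
variable
  (hdisc₁ : ∀ f ∈ F1, f ≠ 0 → ∃ n : ℤ, algebraMap K F (lam ^ n) * f ∈ R₁.O ∧
    (algebraMap K F (lam ^ n) * f)⁻¹ ∈ R₁.O)
  (hdisc₂ : ∀ f ∈ F1, f ≠ 0 → ∃ n : ℤ, algebraMap K F (lam ^ n) * f ∈ R₂.O ∧
    (algebraMap K F (lam ^ n) * f)⁻¹ ∈ R₂.O)
  (hres1 : ∀ c : k, ∃ a : A, π a = c ∧ algebraMap K F (a : K) ∈ F1)
variable (B₁ B₂ : Subring F) (hB₁ : ∀ c : K, algebraMap K F c ∈ B₁)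
  (hB₂ : ∀ c : K, algebraMap K F c ∈ B₂)
variable
  (hconst : ∀ (g g2 : F) (h1 : g ∈ R₁.O) (h2 : g ∈ R₂.O) (k1 : g2 ∈ R₁.O) (k2 : g2 ∈ R₂.O),
    g ∈ F1 → g2 ∈ F1 → g ∈ B₁ → g2 ∈ B₂ →
    R₁.red ⟨g2, k1⟩ = - R₁.red ⟨g, h1⟩ → R₂.red ⟨g2, k2⟩ = - R₂.red ⟨g, h2⟩ →
    ∃ c : k, R₁.red ⟨g, h1⟩ = algebraMap k Fk₁ c ∧ R₂.red ⟨g, h2⟩ = algebraMap k Fk₂ c)

include hlam0 hlamπ hdisc₁ hdisc₂ hres1 hconst hlamF1 hB₁ hB₂ in
/-- **the induction step, (CONST) form**: level `i` ⇒ level `i + 1` for `1 ≤ i < p` -/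
theorem rss_step_const (i : ℕ) (hi : 1 ≤ i) (hip : i < p) (f₁ : F) (hfP : f₁ ∈ B₁)
    (H ρ : F) (hHF : H ∈ F1) (hρ₁ : ρ ∈ R₁.O) (hρ₂ : ρ ∈ R₂.O)
    (hH : H = 1 + algebraMap K F (lam ^ p) * ρ) (hHQ : H / f₁ ∈ B₂)
    (hlev : RssLev R₁ R₂ lam F1 i f₁) : RssLev R₁ R₂ lam F1 (i + 1) f₁ := by
  obtain ⟨c, g, hc, hcF, hgF, hg1, hg2, hf⟩ := hlev
  have hl0 : algebraMap K F lam ≠ 0 := by
    rw [Ne, map_eq_zero_iff _ (algebraMap K F).injective]
    exact hlam0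
  have hli0 : algebraMap K F (lam ^ i) ≠ 0 := by
    rw [map_pow]
    exact pow_ne_zero _ hl0
  have hc0 : algebraMap K F c ≠ 0 := by
    rw [Ne, map_eq_zero_iff _ (algebraMap K F).injective]
    exact hc
  have hliF : algebraMap K F (lam ^ i) ∈ F1 := by
    rw [map_pow]
    exact pow_mem hlamF1 i
  obtain ⟨hyO, hyred, hyinv⟩ := rss_one_add R₁ lam hlamA hlamπ i hi g hg1
  have hy0 : (1 + algebraMap K F (lam ^ i) * g) ≠ 0 := by
    intro h0
    have : R₁.red ⟨_, hyO⟩ = 0 := by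
      rw [show (⟨_, hyO⟩ : R₁.O) = 0 from Subtype.ext h0, map_zero]
    rw [hyred] at this
    exact one_ne_zero this
  -- the second representative
  obtain ⟨k1, hk1⟩ := rss_second_red R₁ p lam hlamA hlamπ i hi hip g ρ hg1 hρ₁
  obtain ⟨k2, hk2⟩ := rss_second_red R₂ p lam hlamA hlamπ i hi hip g ρ hg2 hρ₂
  set y : F := 1 + algebraMap K F (lam ^ i) * g with hy
  -- `g` is regular off `P`
  have hgP : g ∈ B₁ := by
    have e : g = (f₁ * algebraMap K F c⁻¹ - 1) * algebraMap K F (lam ^ i)⁻¹ := by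
      rw [hf, map_inv₀, map_inv₀]
      field_simp
      ring
    rw [e]
    exact mul_mem (sub_mem (mul_mem hfP (hB₁ _)) (one_mem _)) (hB₁ _)
  have he : (algebraMap K F (lam ^ (p - i)) * ρ - g) * y⁻¹
      = (H / f₁ * algebraMap K F c - 1) * algebraMap K F (lam ^ i)⁻¹ := by
    have hpow : algebraMap K F (lam ^ p)
        = algebraMap K F (lam ^ i) * algebraMap K F (lam ^ (p - i)) := by
      rw [← map_mul, ← pow_add, Nat.add_sub_cancel' hip.le]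
    rw [hH, hf, hpow, map_inv₀]
    field_simp
    ring
  have hg2Q : (algebraMap K F (lam ^ (p - i)) * ρ - g) * y⁻¹ ∈ B₂ := by
    rw [he]
    exact mul_mem (sub_mem (mul_mem hHQ (hB₂ _)) (one_mem _)) (hB₂ _)
  have hg2F : (algebraMap K F (lam ^ (p - i)) * ρ - g) * y⁻¹ ∈ F1 := by
    rw [he, map_inv₀]
    have hfF : f₁ ∈ F1 := by
      rw [hf]
      exact mul_mem hcF (add_mem (one_mem _) (mul_mem hliF hgF))
    exact mul_mem (sub_mem (mul_mem (div_mem hHF hfF) hcF) (one_mem _)) (inv_mem hliF)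
  obtain ⟨c₁, hc₁, hc₂⟩ := hconst g _ hg1 hg2 k1 k2 hgF hg2F hgP hg2Q hk1 hk2
  obtain ⟨a, ha, haF⟩ := hres1 c₁
  set x : F := g - algebraMap K F (a : K) with hx
  have hxF : x ∈ F1 := sub_mem hgF haF
  have hx1O : x ∈ R₁.O := sub_mem hg1 (R₁.algebraMap_mem a)
  have hx2O : x ∈ R₂.O := sub_mem hg2 (R₂.algebraMap_mem a)
  have hx1 : x ∈ R₁.O.nonunits := by
    rw [← R₁.red_eq_zero_iff ⟨x, hx1O⟩]
    have e : (⟨x, hx1O⟩ : R₁.O) = ⟨g, hg1⟩ - ⟨algebraMap K F (a : K), R₁.algebraMap_mem a⟩ :=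
      Subtype.ext rfl
    rw [e, map_sub, hc₁, R₁.red_algebraMap, ha, sub_self]
  have hx2 : x ∈ R₂.O.nonunits := by
    rw [← R₂.red_eq_zero_iff ⟨x, hx2O⟩]
    have e : (⟨x, hx2O⟩ : R₂.O) = ⟨g, hg2⟩ - ⟨algebraMap K F (a : K), R₂.algebraMap_mem a⟩ :=
      Subtype.ext rfl
    rw [e, map_sub, hc₂, R₂.red_algebraMap, ha, sub_self]
  have hd1 := rss_div_lam R₁ lam hlam0 hlamA x hx1 (hdisc₁ x hxF)
  have hd2 := rss_div_lam R₂ lam hlam0 hlamA x hx2 (hdisc₂ x hxF)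
  -- the unit `u = 1 + lam^i a`
  set u : A := 1 + ⟨lam, hlamA⟩ ^ i * a with hu
  have hπu : π u = 1 := by
    rw [hu, map_add, map_one, map_mul, map_pow, hlamπ, zero_pow (by omega), zero_mul, add_zero]
  have hunu : (u : K) ∉ A.nonunits := by
    intro h
    have := (R₁.π_eq_zero_iff u).2 h
    rw [hπu] at this
    exact one_ne_zero this
  rw [ValuationSubring.mem_nonunits_iff_or, not_or, not_not] at hunu
  obtain ⟨hu0, huinv⟩ := hunu
  have huK : (u : K) = 1 + lam ^ i * (a : K) := rfl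
  have huF : algebraMap K F (u : K) ∈ F1 := by
    rw [huK, map_add, map_one, map_mul, map_pow]
    exact add_mem (one_mem _) (mul_mem (pow_mem hlamF1 i) haF)
  have huF0 : algebraMap K F (u : K) ≠ 0 := by
    rw [Ne, map_eq_zero_iff _ (algebraMap K F).injective]
    exact hu0
  refine ⟨c * (u : K), x / algebraMap K F lam * algebraMap K F (u : K)⁻¹, mul_ne_zero hc hu0,
    ?_, ?_, ?_, ?_, ?_⟩
  · rw [map_mul]
    exact mul_mem hcF huF
  · rw [map_inv₀]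
    exact mul_mem (div_mem hxF hlamF1) (inv_mem huF)
  · exact mul_mem hd1 (R₁.algebraMap_mem ⟨(u : K)⁻¹, huinv⟩)
  · exact mul_mem hd2 (R₂.algebraMap_mem ⟨(u : K)⁻¹, huinv⟩)
  · have e1 : algebraMap K F (u : K) = 1 + algebraMap K F lam ^ i * algebraMap K F (a : K) := by
      rw [huK, map_add, map_one, map_mul, map_pow]
    rw [hf, hy, map_mul, map_inv₀, map_pow, map_pow, hx]
    field_simp
    rw [e1]
    ring

include hlam0 hlamπ hdisc₁ hdisc₂ hres1 hconst hlamF1 hB₁ hB₂ in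
/-- **the abstract `K₁`-lemma for the sup-norm pair, (CONST) form.** -/
theorem rss_core_const (hp : p.Prime)
    (hplam : ∃ ε ∈ A, (p : K) = -(lam ^ (p - 1)) * (1 + lam * ε))
    (f₁ : F) (hf1 : f₁ ∈ F1) (hf₁ : f₁ - 1 ∈ R₁.O.nonunits) (hf₂ : f₁ - 1 ∈ R₂.O.nonunits)
    (hfP : f₁ ∈ B₁)
    (h : F) (hh1 : h ∈ F1) (hh₁ : h - 1 ∈ R₁.O.nonunits) (hh₂ : h - 1 ∈ R₂.O.nonunits)
    (hHQ : h ^ p / f₁ ∈ B₂) :
    ∃ (c : K) (g : F), c ≠ 0 ∧ algebraMap K F c ∈ F1 ∧ g ∈ F1 ∧ g ∈ R₁.O ∧ g ∈ R₂.O ∧ g ∈ B₁ ∧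
      f₁ = algebraMap K F c * (1 + algebraMap K F (lam ^ p) * g) := by
  have hl0 : algebraMap K F lam ≠ 0 := by
    rw [Ne, map_eq_zero_iff _ (algebraMap K F).injective]
    exact hlam0
  have hhF : h - 1 ∈ F1 := sub_mem hh1 (one_mem _)
  have hd1 := rss_div_lam R₁ lam hlam0 hlamA (h - 1) hh₁ (hdisc₁ _ hhF)
  have hd2 := rss_div_lam R₂ lam hlam0 hlamA (h - 1) hh₂ (hdisc₂ _ hhF)
  set h₁ : F := (h - 1) / algebraMap K F lam with hh₁def
  have hh : h = 1 + algebraMap K F lam * h₁ := by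
    rw [hh₁def]
    field_simp
    ring
  obtain ⟨ε, hε, hpe⟩ := hplam
  have hpF : (p : F) = -(algebraMap K F lam ^ (p - 1)) * (1 + algebraMap K F lam *
      algebraMap K F ε) := by
    have := congrArg (algebraMap K F) hpe
    rw [map_natCast, map_mul, map_neg, map_pow, map_add, map_one, map_mul] at this
    exact this
  obtain ⟨ρ₁, hρ₁, e₁⟩ := rpw_pow_mem R₁.O p hp (algebraMap K F lam)
    (R₁.algebraMap_mem ⟨lam, hlamA⟩) ⟨_, R₁.algebraMap_mem ⟨ε, hε⟩, hpF⟩ h₁ hd1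
  obtain ⟨ρ₂, hρ₂, e₂⟩ := rpw_pow_mem R₂.O p hp (algebraMap K F lam)
    (R₂.algebraMap_mem ⟨lam, hlamA⟩) ⟨_, R₂.algebraMap_mem ⟨ε, hε⟩, hpF⟩ h₁ hd2
  have hρ : ρ₂ = ρ₁ := by
    have : algebraMap K F lam ^ p * ρ₂ = algebraMap K F lam ^ p * ρ₁ := by
      have := e₂.symm.trans e₁
      exact add_left_cancel this
    exact mul_left_cancel₀ (pow_ne_zero _ hl0) this
  rw [hρ] at hρ₂
  have hH : h ^ p = 1 + algebraMap K F (lam ^ p) * ρ₁ := by
    rw [map_pow, ← e₁, ← hh]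
  have key : ∀ i : ℕ, 1 ≤ i → i ≤ p → RssLev R₁ R₂ lam F1 i f₁ := by
    intro i hi
    induction i, hi using Nat.le_induction with
    | base =>
      intro _
      have hfF : f₁ - 1 ∈ F1 := sub_mem hf1 (one_mem _)
      refine ⟨1, (f₁ - 1) / algebraMap K F lam, one_ne_zero, ?_, div_mem hfF hlamF1,
        rss_div_lam R₁ lam hlam0 hlamA (f₁ - 1) hf₁ (hdisc₁ _ hfF),
        rss_div_lam R₂ lam hlam0 hlamA (f₁ - 1) hf₂ (hdisc₂ _ hfF), ?_⟩
      · rw [map_one]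
        exact one_mem _
      · rw [map_one, pow_one]
        field_simp
        ring
    | succ i hi ih =>
      intro hip
      exact rss_step_const R₁ R₂ p lam hlam0 hlamA hlamπ F1 hlamF1 hdisc₁ hdisc₂ hres1 B₁ B₂
        hB₁ hB₂ hconst i hi (by omega) f₁ hfP (h ^ p) ρ₁ (pow_mem hh1 p) hρ₁ hρ₂ hH hHQ (ih (by omega))
  obtain ⟨c, g, hc, hcF, hgF, hg1, hg2, hf⟩ := key p hp.one_lt.le le_rfl
  refine ⟨c, g, hc, hcF, hgF, hg1, hg2, ?_, hf⟩
  have hc0 : algebraMap K F c ≠ 0 := by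
    rw [Ne, map_eq_zero_iff _ (algebraMap K F).injective]
    exact hc
  have hlp0 : algebraMap K F (lam ^ p) ≠ 0 := by
    rw [map_pow]
    exact pow_ne_zero _ hl0
  have e : g = (f₁ * algebraMap K F c⁻¹ - 1) * algebraMap K F (lam ^ p)⁻¹ := by
    rw [hf, map_inv₀, map_inv₀]
    field_simp
    ring
  rw [e]
  exact mul_mem (sub_mem (mul_mem hfP (hB₁ _)) (one_mem _)) (hB₁ _)

end Fermat.Agent.S33lib

end
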