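/-
Item 86 (S33), block TOR_p at level `N = N' p` (helper26; spec helper27): **LEVB, the abstract
level induction for `p`-new classes, pair form.**  No sorry in this file.

Setting (as `rss_core_const`, `RaySSConst.lean`): `R₁ R₂` two constant reductions of `F/K`;
`lam ∈ A` a uniformiser of the field of rationality `F1` (`π lam = 0`, (DISC_j)), with
`p = lam^e ε`, `ε ∈ A`, `p` odd; (RES); `B₁ B₂` ANY subrings of `F` containing the constants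
(no closure under inverses is needed: the induction MULTIPLIES by `1 - lam^s Y`, helper16);
(CONST) as in `rss_core_const`;

(ROOT₂) `G ∈ F1 ∩ B₂ ∩ O₁ ∩ O₂`, `H' ∈ F1 ∩ O₁ ∩ O₂`, `red_j G = (red_j H')^p`
        ⟹ `∃ Y ∈ F1 ∩ B₂ ∩ O₁ ∩ O₂`, `red_j Y = red_j H'`;
(STEP)  `p ∣ i`, `(p-1) i < p e`, `f₁ w^p = c (1 + lam^i g)`
        ⟹ `∃ Ψ ∈ F1 ∩ B₁ ∩ O₁ ∩ O₂`, `κ : k`, `red_j g = (red_j Ψ)^p + κ`.

* `lvb_core` : `f₁ ∈ F1 ∩ B₁`, `f₁ ≡ 1`; `h ∈ F1`, `h ≡ 1`, `h^p / f₁ ∈ B₂`.  Then for every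
  `i ≥ 1` with `(p-1)(i-1) < p e` there are a `1`-unit `w ∈ F1 ∩ B₁`, a constant `c` and
  `g ∈ F1 ∩ B₁ ∩ O₁ ∩ O₂` with `f₁ w^p = c (1 + lam^i g)`.
-/
import Mathlib
import Fermat.Agent.S33lib.RaySSConst

set_option autoImplicit false
set_option linter.style.haveILetI false
set_option linter.unusedSectionVars false
set_option linter.unusedVariables false

noncomputable section

namespace Fermat.Agent.S33lib

open AlgebraicCurve Fermat.Agent.RRlib Fermat.Agent.GoodRed Fermat.Agent.S24lib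

section Arith

theorem lvb_ar_pred (p x : ℕ) (hp : 1 ≤ p) : (p - 1) * x + x = p * x := by
  obtain ⟨q, rfl⟩ : ∃ q, p = q + 1 := ⟨p - 1, by omega⟩
  rw [Nat.add_sub_cancel]
  ring

/-- in the loop `(p - 1) s < e` -/
theorem lvb_ar_loop (p e i s : ℕ) (hp : 1 ≤ p) (hie : (p - 1) * i < p * e) (hsi : p * s < i) :
    (p - 1) * s < e := by
  have h1 : p * ((p - 1) * s) < p * e :=
    calc p * ((p - 1) * s) = (p - 1) * (p * s) := by ring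
      _ ≤ (p - 1) * i := Nat.mul_le_mul_left _ hsi.le
      _ < p * e := hie
  exact Nat.lt_of_mul_lt_mul_left h1

/-- after the loop `e + s > i` -/
theorem lvb_ar_exit (p e i s : ℕ) (hp : 1 ≤ p) (hie : (p - 1) * i < p * e) (hsi : i < p * s) :
    i < e + s := by
  by_contra hcon
  rw [not_lt] at hcon
  have h1 : p * (e + s) ≤ p * i := Nat.mul_le_mul_left _ hcon
  rw [mul_add] at h1
  have h2 := lvb_ar_pred p i hp
  omega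

/-- the exit value of `s` -/
theorem lvb_ar_s0 (p i : ℕ) (hp : 1 ≤ p) (hi : 1 ≤ i) :
    p * ((i - 1) / p + 1 - 1) < i ∧ i ≤ p * ((i - 1) / p + 1) := by
  have h1 := Nat.div_add_mod (i - 1) p
  have h2 := Nat.mod_lt (i - 1) (show 0 < p by omega)
  rw [Nat.add_sub_cancel, mul_add, mul_one]
  constructor <;> omega

/-- case `p ∣ i`: `e + t > i` for `i = p t` -/
theorem lvb_ar_dvd (p e t : ℕ) (hp : 1 ≤ p) (hie : (p - 1) * (p * t) < p * e) :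
    p * t < e + t := by
  have h1 : (p - 1) * t < e := by
    have : p * ((p - 1) * t) < p * e := by
      calc p * ((p - 1) * t) = (p - 1) * (p * t) := by ring
        _ < p * e := hie
    exact Nat.lt_of_mul_lt_mul_left this
  have h2 := lvb_ar_pred p t hp
  omega

end Arith

section Pow

/-- `(1 + lam^s Y)^p = 1 + lam^(p s) Y^p + lam^(e + s) Z` when `p ∈ lam^e O` -/
theorem lvb_pow {F : Type*} [Field F] (O : Subring F) (p : ℕ) (hp : p.Prime) (lam : F)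
    (hlamO : lam ∈ O) (e : ℕ) (ε : F) (hε : ε ∈ O) (hpe : (p : F) = lam ^ e * ε) (s : ℕ) (Y : F)
    (hY : Y ∈ O) :
    ∃ Z ∈ O, (1 + lam ^ s * Y) ^ p = 1 + lam ^ (p * s) * Y ^ p + lam ^ (e + s) * Z := by
  obtain ⟨r, hr⟩ := exists_add_pow_prime_eq hp (1 : O) (⟨lam, hlamO⟩ ^ s * ⟨Y, hY⟩)
  refine ⟨ε * Y * (r : F), mul_mem (mul_mem hε hY) r.2, ?_⟩
  have := congrArg (Subring.subtype O) hr
  simp only [map_add, map_mul, map_pow, map_one, map_natCast, Subring.coe_subtype] at this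
  rw [this, hpe]
  ring

end Pow

section Units

variable {K F k Fk : Type*} [Field K] [Field F] [Algebra K F] [Field k] [Field Fk] [Algebra k Fk]
variable {A : ValuationSubring K} {π : A →+* k}
variable [RRBase K F]

/-- `1`-units of `O`: `x ≡ 1` iff `x ∈ O` and `red x = 1` -/
theorem lvb_unit_iff (R : ConstRed A π Fk F) (x : F) :
    x - 1 ∈ R.O.nonunits ↔ ∃ hx : x ∈ R.O, R.red ⟨x, hx⟩ = 1 := by
  constructor
  · intro h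
    have h1 : x - 1 ∈ R.O := ValuationSubring.nonunits_subset h
    have hx : x ∈ R.O := by
      have := add_mem h1 (one_mem R.O)
      rwa [sub_add_cancel] at this
    refine ⟨hx, ?_⟩
    have := (R.red_eq_zero_iff ⟨x - 1, h1⟩).2 h
    have e : (⟨x - 1, h1⟩ : R.O) = ⟨x, hx⟩ - 1 := Subtype.ext rfl
    rw [e, map_sub, map_one, sub_eq_zero] at this
    exact this
  · rintro ⟨hx, h⟩
    have h1 : x - 1 ∈ R.O := sub_mem hx (one_mem _)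
    rw [← R.red_eq_zero_iff ⟨x - 1, h1⟩]
    have e : (⟨x - 1, h1⟩ : R.O) = ⟨x, hx⟩ - 1 := Subtype.ext rfl
    rw [e, map_sub, map_one, h, sub_self]

theorem lvb_unit_one (R : ConstRed A π Fk F) : (1 : F) - 1 ∈ R.O.nonunits :=
  (lvb_unit_iff R 1).2 ⟨one_mem _, map_one R.red⟩

theorem lvb_unit_ne_zero (R : ConstRed A π Fk F) (x : F) (h : x - 1 ∈ R.O.nonunits) : x ≠ 0 := by
  obtain ⟨hx, hr⟩ := (lvb_unit_iff R x).1 h
  rintro rfl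
  have : R.red ⟨0, hx⟩ = 0 := map_zero R.red
  rw [hr] at this
  exact one_ne_zero this

theorem lvb_unit_inv (R : ConstRed A π Fk F) (x : F) (h : x - 1 ∈ R.O.nonunits) :
    x⁻¹ - 1 ∈ R.O.nonunits := by
  obtain ⟨hx, hr⟩ := (lvb_unit_iff R x).1 h
  have hnu : x ∉ R.O.nonunits := by
    intro hnu
    have := (R.red_eq_zero_iff ⟨x, hx⟩).2 hnu
    rw [hr] at this
    exact one_ne_zero this
  rw [ValuationSubring.mem_nonunits_iff_or, not_or, not_not] at hnu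
  obtain ⟨hx0, hxi⟩ := hnu
  rw [lvb_unit_iff]
  refine ⟨hxi, ?_⟩
  have e : (⟨x⁻¹, hxi⟩ : R.O) * ⟨x, hx⟩ = 1 := Subtype.ext (inv_mul_cancel₀ hx0)
  have := congrArg R.red e
  rw [map_mul, hr, mul_one, map_one] at this
  exact this

theorem lvb_unit_mul (R : ConstRed A π Fk F) (x y : F) (hx : x - 1 ∈ R.O.nonunits)
    (hy : y - 1 ∈ R.O.nonunits) : x * y - 1 ∈ R.O.nonunits := by
  obtain ⟨hx', hrx⟩ := (lvb_unit_iff R x).1 hx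
  obtain ⟨hy', hry⟩ := (lvb_unit_iff R y).1 hy
  rw [lvb_unit_iff]
  refine ⟨mul_mem hx' hy', ?_⟩
  have e : (⟨x * y, mul_mem hx' hy'⟩ : R.O) = ⟨x, hx'⟩ * ⟨y, hy'⟩ := Subtype.ext rfl
  rw [e, map_mul, hrx, hry, mul_one]

theorem lvb_unit_pow (R : ConstRed A π Fk F) (x : F) (hx : x - 1 ∈ R.O.nonunits) (n : ℕ) :
    x ^ n - 1 ∈ R.O.nonunits := by
  induction n with
  | zero =>
    rw [pow_zero]
    exact lvb_unit_one R
  | succ n ih =>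
    rw [pow_succ]
    exact lvb_unit_mul R _ _ ih hx

/-- equal reductions ⇒ the difference is in the maximal ideal -/
theorem lvb_sub_mem_nonunits (R : ConstRed A π Fk F) (a b : F) (ha : a ∈ R.O) (hb : b ∈ R.O)
    (h : R.red ⟨a, ha⟩ = R.red ⟨b, hb⟩) : a - b ∈ R.O.nonunits := by
  rw [← R.red_eq_zero_iff ⟨a - b, sub_mem ha hb⟩]
  have e : (⟨a - b, sub_mem ha hb⟩ : R.O) = ⟨a, ha⟩ - ⟨b, hb⟩ := Subtype.ext rfl
  rw [e, map_sub, h, sub_self]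

/-- `1 + lam^i g` is a `1`-unit -/
theorem lvb_unit_one_add (R : ConstRed A π Fk F) (lam : K) (hlamA : lam ∈ A)
    (hlamπ : π ⟨lam, hlamA⟩ = 0) (i : ℕ) (hi : 1 ≤ i) (g : F) (hg : g ∈ R.O) :
    1 + algebraMap K F (lam ^ i) * g - 1 ∈ R.O.nonunits := by
  obtain ⟨hyO, hyred, -⟩ := rss_one_add R lam hlamA hlamπ i hi g hg
  exact (lvb_unit_iff R _).2 ⟨hyO, hyred⟩

/-- the reduction of `g̃ = g + V + lam^i g V`, `V = - Ψ^p + lam^n Z` (case `p ∣ i`) -/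
theorem lvb_dvd_red (R : ConstRed A π Fk F) (p : ℕ) (lam : K) (hlamA : lam ∈ A)
    (hlamπ : π ⟨lam, hlamA⟩ = 0) (i n : ℕ) (hi : 1 ≤ i) (hn : 1 ≤ n) (g Ψ Z : F)
    (hg : g ∈ R.O) (hΨ : Ψ ∈ R.O) (hZ : Z ∈ R.O) (κ : Fk)
    (hred : R.red ⟨g, hg⟩ = R.red ⟨Ψ, hΨ⟩ ^ p + κ) :
    ∃ h : g + (-(Ψ ^ p) + algebraMap K F (lam ^ n) * Z)
        + algebraMap K F (lam ^ i) * (g * (-(Ψ ^ p) + algebraMap K F (lam ^ n) * Z)) ∈ R.O,
      R.red ⟨_, h⟩ = κ := by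
  have hlZ : algebraMap K F (lam ^ n) * Z ∈ R.O :=
    mul_mem (R.algebraMap_mem (⟨lam, hlamA⟩ ^ n : A)) hZ
  have hV : -(Ψ ^ p) + algebraMap K F (lam ^ n) * Z ∈ R.O :=
    add_mem (neg_mem (pow_mem hΨ p)) hlZ
  have hgV : g * (-(Ψ ^ p) + algebraMap K F (lam ^ n) * Z) ∈ R.O := mul_mem hg hV
  have hlgV : algebraMap K F (lam ^ i) * (g * (-(Ψ ^ p) + algebraMap K F (lam ^ n) * Z)) ∈ R.O :=
    mul_mem (R.algebraMap_mem (⟨lam, hlamA⟩ ^ i : A)) hgV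
  refine ⟨add_mem (add_mem hg hV) hlgV, ?_⟩
  have ee : (⟨_, add_mem (add_mem hg hV) hlgV⟩ : R.O)
      = ⟨g, hg⟩ + (-(⟨Ψ, hΨ⟩ ^ p) + ⟨algebraMap K F (lam ^ n) * ((⟨Z, hZ⟩ : R.O) : F), hlZ⟩)
        + ⟨algebraMap K F (lam ^ i) * ((⟨_, hgV⟩ : R.O) : F), hlgV⟩ := Subtype.ext rfl
  rw [ee, map_add, map_add, map_add, map_neg, map_pow R.red,
    rss_red_lam_mul R lam hlamA hlamπ n hn ⟨Z, hZ⟩ hlZ,
    rss_red_lam_mul R lam hlamA hlamπ i hi ⟨_, hgV⟩ hlgV, add_zero, add_zero, hred]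
  ring

/-- the reduction of `G = (H'^p + lam^n Z - lam^m g) / (1 + lam^i g)` (the loop) -/
theorem lvb_loop_red (R : ConstRed A π Fk F) (p : ℕ) (lam : K) (hlamA : lam ∈ A)
    (hlamπ : π ⟨lam, hlamA⟩ = 0) (i n m : ℕ) (hi : 1 ≤ i) (hn : 1 ≤ n) (hm : 1 ≤ m)
    (g H' Z : F) (hg : g ∈ R.O) (hH : H' ∈ R.O) (hZ : Z ∈ R.O) :
    ∃ h : (H' ^ p + algebraMap K F (lam ^ n) * Z - algebraMap K F (lam ^ m) * g) *
        (1 + algebraMap K F (lam ^ i) * g)⁻¹ ∈ R.O, R.red ⟨_, h⟩ = R.red ⟨H', hH⟩ ^ p := by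
  obtain ⟨hyO, hyred, hyinv⟩ := rss_one_add R lam hlamA hlamπ i hi g hg
  have hy0 : (1 + algebraMap K F (lam ^ i) * g) ≠ 0 := by
    intro h0
    have : R.red ⟨_, hyO⟩ = 0 := by
      rw [show (⟨_, hyO⟩ : R.O) = 0 from Subtype.ext h0, map_zero]
    rw [hyred] at this
    exact one_ne_zero this
  have hlZ : algebraMap K F (lam ^ n) * Z ∈ R.O :=
    mul_mem (R.algebraMap_mem (⟨lam, hlamA⟩ ^ n : A)) hZ
  have hlg : algebraMap K F (lam ^ m) * g ∈ R.O :=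
    mul_mem (R.algebraMap_mem (⟨lam, hlamA⟩ ^ m : A)) hg
  have hnum : H' ^ p + algebraMap K F (lam ^ n) * Z - algebraMap K F (lam ^ m) * g ∈ R.O :=
    sub_mem (add_mem (pow_mem hH p) hlZ) hlg
  refine ⟨mul_mem hnum hyinv, ?_⟩
  have e : (⟨_, mul_mem hnum hyinv⟩ : R.O) * ⟨_, hyO⟩
      = ⟨H', hH⟩ ^ p + ⟨algebraMap K F (lam ^ n) * ((⟨Z, hZ⟩ : R.O) : F), hlZ⟩
        - ⟨algebraMap K F (lam ^ m) * ((⟨g, hg⟩ : R.O) : F), hlg⟩ := by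
    apply Subtype.ext
    show (H' ^ p + algebraMap K F (lam ^ n) * Z - algebraMap K F (lam ^ m) * g) *
        (1 + algebraMap K F (lam ^ i) * g)⁻¹ * (1 + algebraMap K F (lam ^ i) * g)
      = H' ^ p + algebraMap K F (lam ^ n) * Z - algebraMap K F (lam ^ m) * g
    rw [mul_assoc, inv_mul_cancel₀ hy0, mul_one]
  have := congrArg R.red e
  rw [map_mul, hyred, mul_one, map_sub, map_add, map_pow R.red,
    rss_red_lam_mul R lam hlamA hlamπ n hn ⟨Z, hZ⟩ hlZ,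
    rss_red_lam_mul R lam hlamA hlamπ m hm ⟨g, hg⟩ hlg, add_zero, sub_zero] at this
  exact this

end Units

section Alg

variable {F : Type*} [Field F]

/-- the function `G` of the loop is `(c h^p / f₁ - 1) / L^(p s)` -/
theorem lvb_alg_G (L c h w f₁ g H' Z : F) (p s e i : ℕ) (hL : L ≠ 0) (hw : w ≠ 0) (hf0 : f₁ ≠ 0)
    (hy0 : 1 + L ^ i * g ≠ 0) (hes : p * s ≤ e + s) (his : p * s ≤ i)
    (hf : f₁ * w ^ p = c * (1 + L ^ i * g)) (hhw : h * w = 1 + L ^ s * H')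
    (hpow : (1 + L ^ s * H') ^ p = 1 + L ^ (p * s) * H' ^ p + L ^ (e + s) * Z) :
    (H' ^ p + L ^ (e + s - p * s) * Z - L ^ (i - p * s) * g) * (1 + L ^ i * g)⁻¹
      = (c * (h ^ p / f₁) - 1) * (L ^ (p * s))⁻¹ := by
  have h1 : c * (h ^ p / f₁) * (1 + L ^ i * g) = (h * w) ^ p :=
    calc c * (h ^ p / f₁) * (1 + L ^ i * g) = h ^ p / f₁ * (c * (1 + L ^ i * g)) := by ring
      _ = h ^ p / f₁ * (f₁ * w ^ p) := by rw [hf]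
      _ = (h * w) ^ p := by
        rw [mul_pow]
        field_simp
  have e1 : L ^ (e + s - p * s) * L ^ (p * s) = L ^ (e + s) := by
    rw [← pow_add, Nat.sub_add_cancel hes]
  have e2 : L ^ (i - p * s) * L ^ (p * s) = L ^ i := by
    rw [← pow_add, Nat.sub_add_cancel his]
  have key : (H' ^ p + L ^ (e + s - p * s) * Z - L ^ (i - p * s) * g) * L ^ (p * s)
      = (c * (h ^ p / f₁) - 1) * (1 + L ^ i * g) := by
    have e3 : (c * (h ^ p / f₁) - 1) * (1 + L ^ i * g)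
        = c * (h ^ p / f₁) * (1 + L ^ i * g) - (1 + L ^ i * g) := by ring
    rw [e3, h1, hhw, hpow]
    linear_combination Z * e1 - g * e2
  rw [← div_eq_mul_inv, ← div_eq_mul_inv, div_eq_div_iff hy0 (pow_ne_zero _ hL)]
  exact key

/-- the new `h` of the loop -/
theorem lvb_alg_new (L h w H' Y : F) (s : ℕ) (hL : L ≠ 0) (hs : 1 ≤ s)
    (hhw : h * w = 1 + L ^ s * H') :
    h * (1 - L ^ s * Y) * w = 1 + L ^ (s + 1) * ((H' - Y) / L - L ^ (s - 1) * (H' * Y)) := by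
  obtain ⟨s', rfl⟩ : ∃ s', s = s' + 1 := ⟨s - 1, by omega⟩
  have e1 : h * (1 - L ^ (s' + 1) * Y) * w = h * w * (1 - L ^ (s' + 1) * Y) := by ring
  rw [e1, hhw, Nat.add_sub_cancel]
  field_simp
  ring

/-- at the exit of the loop the `p`-th power has level `i + 1` -/
theorem lvb_alg_exit (L H' Z : F) (p s e i : ℕ) (h1 : i + 1 ≤ p * s) (h2 : i + 1 ≤ e + s) :
    1 + L ^ (p * s) * H' ^ p + L ^ (e + s) * Z
      = 1 + L ^ (i + 1) * (L ^ (p * s - (i + 1)) * H' ^ p + L ^ (e + s - (i + 1)) * Z) := by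
  have e1 : L ^ (i + 1) * L ^ (p * s - (i + 1)) = L ^ (p * s) := by
    rw [← pow_add, Nat.add_sub_cancel' h1]
  have e2 : L ^ (i + 1) * L ^ (e + s - (i + 1)) = L ^ (e + s) := by
    rw [← pow_add, Nat.add_sub_cancel' h2]
  linear_combination (-(H' ^ p)) * e1 - Z * e2

/-- case `p ∣ i`: the new level equation -/
theorem lvb_alg_dvd (L c w f₁ g Ψ Z : F) (p t e : ℕ) (hodd : Odd p)
    (het : p * t ≤ e + t) (hf : f₁ * w ^ p = c * (1 + L ^ (p * t) * g))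
    (hpow : (1 + L ^ t * (-Ψ)) ^ p = 1 + L ^ (p * t) * (-Ψ) ^ p + L ^ (e + t) * Z) :
    f₁ * (w * (1 + L ^ t * (-Ψ))) ^ p
      = c * (1 + L ^ (p * t) * (g + (-(Ψ ^ p) + L ^ (e + t - p * t) * Z)
          + L ^ (p * t) * (g * (-(Ψ ^ p) + L ^ (e + t - p * t) * Z)))) := by
  have e1 : L ^ (p * t) * L ^ (e + t - p * t) = L ^ (e + t) := by
    rw [← pow_add, Nat.add_sub_cancel' het]
  have e2 : f₁ * (w * (1 + L ^ t * (-Ψ))) ^ p = f₁ * w ^ p * (1 + L ^ t * (-Ψ)) ^ p := by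
    rw [mul_pow, mul_assoc]
  rw [e2, hf, hpow, hodd.neg_pow]
  linear_combination (c * (1 + L ^ (p * t) * g) * Z) * (-e1)

end Alg

section Core

variable {K F k : Type*} [Field K] [Field F] [Algebra K F] [Field k]
variable {Fk₁ Fk₂ : Type*} [Field Fk₁] [Algebra k Fk₁] [Field Fk₂] [Algebra k Fk₂]
variable {A : ValuationSubring K} {π : A →+* k}
variable [RRBase K F]

/-- membership in `O₁ ⊓ O₂ ⊓ F1` -/
theorem lvb_mem_O3 (R₁ : ConstRed A π Fk₁ F) (R₂ : ConstRed A π Fk₂ F) (F1 : Subfield F)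
    (x : F) :
    x ∈ (R₁.O.toSubring ⊓ R₂.O.toSubring ⊓ F1.toSubring) ↔ (x ∈ R₁.O ∧ x ∈ R₂.O) ∧ x ∈ F1 := by
  rw [Subring.mem_inf, Subring.mem_inf]
  rfl

/-- `g` is in `B` when `f = c (1 + lam^i g)` is -/
theorem lvb_g_mem (B : Subring F) (hB : ∀ c : K, algebraMap K F c ∈ B) (lam : K)
    (hlam0 : lam ≠ 0) (i : ℕ) (c : K) (hc : c ≠ 0) (f g : F) (hfB : f ∈ B)
    (hf : f = algebraMap K F c * (1 + algebraMap K F (lam ^ i) * g)) : g ∈ B := by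
  have hc0 : algebraMap K F c ≠ 0 := by
    rw [Ne, map_eq_zero_iff _ (algebraMap K F).injective]
    exact hc
  have hl0 : algebraMap K F (lam ^ i) ≠ 0 := by
    rw [Ne, map_eq_zero_iff _ (algebraMap K F).injective]
    exact pow_ne_zero _ hlam0
  have ee : g = (f * algebraMap K F c⁻¹ - 1) * algebraMap K F (lam ^ i)⁻¹ := by
    rw [hf, map_inv₀, map_inv₀]
    field_simp
    ring
  rw [ee]
  exact mul_mem (sub_mem (mul_mem hfB (hB _)) (one_mem _)) (hB _)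

variable (R₁ : ConstRed A π Fk₁ F) (R₂ : ConstRed A π Fk₂ F)
variable (p : ℕ) (lam : K) (hlam0 : lam ≠ 0) (hlamA : lam ∈ A)
  (hlamπ : π ⟨lam, hlamA⟩ = 0)
variable (F1 : Subfield F) (hlamF1 : algebraMap K F lam ∈ F1)
variable
  (hdisc₁ : ∀ f ∈ F1, f ≠ 0 → ∃ n : ℤ, algebraMap K F (lam ^ n) * f ∈ R₁.O ∧
    (algebraMap K F (lam ^ n) * f)⁻¹ ∈ R₁.O)
  (hdisc₂ : ∀ f ∈ F1, f ≠ 0 → ∃ n : ℤ, algebraMap K F (lam ^ n) * f ∈ R₂.O ∧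
    (algebraMap K F (lam ^ n) * f)⁻¹ ∈ R₂.O)
  (hres1 : ∀ c : k, ∃ a : A, π a = c ∧ algebraMap K F (a : K) ∈ F1)
variable (B₁ B₂ : Subring F) (hB₁ : ∀ c : K, algebraMap K F c ∈ B₁)
  (hB₂ : ∀ c : K, algebraMap K F c ∈ B₂)
variable
  (hconst : ∀ (g g2 : F) (h1 : g ∈ R₁.O) (h2 : g ∈ R₂.O) (k1 : g2 ∈ R₁.O) (k2 : g2 ∈ R₂.O),
    g ∈ F1 → g2 ∈ F1 → g ∈ B₁ → g2 ∈ B₂ →
    R₁.red ⟨g2, k1⟩ = - R₁.red ⟨g, h1⟩ → R₂.red ⟨g2, k2⟩ = - R₂.red ⟨g, h2⟩ →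
    ∃ c : k, R₁.red ⟨g, h1⟩ = algebraMap k Fk₁ c ∧ R₂.red ⟨g, h2⟩ = algebraMap k Fk₂ c)
variable (e : ℕ) (hpe : ∃ ε ∈ A, (p : K) = lam ^ e * ε)
variable
  (hroot : ∀ (G H' : F) (g1 : G ∈ R₁.O) (g2 : G ∈ R₂.O) (h1 : H' ∈ R₁.O) (h2 : H' ∈ R₂.O),
    G ∈ F1 → G ∈ B₂ → H' ∈ F1 →
    R₁.red ⟨G, g1⟩ = R₁.red ⟨H', h1⟩ ^ p → R₂.red ⟨G, g2⟩ = R₂.red ⟨H', h2⟩ ^ p →
    ∃ (Y : F) (y1 : Y ∈ R₁.O) (y2 : Y ∈ R₂.O), Y ∈ F1 ∧ Y ∈ B₂ ∧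
      R₁.red ⟨Y, y1⟩ = R₁.red ⟨H', h1⟩ ∧ R₂.red ⟨Y, y2⟩ = R₂.red ⟨H', h2⟩)

/-- the state of the induction: a `1`-unit `w ∈ F1 ∩ B₁` with `f₁ w^p` of level `≥ i` -/
def LvbSt (f₁ : F) (i : ℕ) : Prop :=
  ∃ w : F, w ∈ F1 ∧ w ∈ B₁ ∧ w - 1 ∈ R₁.O.nonunits ∧ w - 1 ∈ R₂.O.nonunits ∧
    RssLev R₁ R₂ lam F1 i (f₁ * w ^ p)

/-- the loop invariant: a second representative `h` with `h w ≡ 1 mod lam^s` -/
def LvbLoop (f₁ w : F) (s : ℕ) : Prop :=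
  ∃ h H' : F, h ∈ F1 ∧ h ^ p / f₁ ∈ B₂ ∧ H' ∈ F1 ∧ H' ∈ R₁.O ∧ H' ∈ R₂.O ∧
    h * w = 1 + algebraMap K F (lam ^ s) * H'

include hlam0 hlamπ hdisc₁ hdisc₂ hres1 hlamF1 in
/-- absorbing a constant leading term: level `i` with `red g = κ` constant ⇒ level `i + 1` -/
theorem lvb_absorb (i : ℕ) (hi : 1 ≤ i) (f : F) (c : K) (g : F) (hc : c ≠ 0)
    (hcF : algebraMap K F c ∈ F1) (hgF : g ∈ F1) (hg1 : g ∈ R₁.O) (hg2 : g ∈ R₂.O)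
    (hf : f = algebraMap K F c * (1 + algebraMap K F (lam ^ i) * g)) (c₁ : k)
    (hc₁ : R₁.red ⟨g, hg1⟩ = algebraMap k Fk₁ c₁)
    (hc₂ : R₂.red ⟨g, hg2⟩ = algebraMap k Fk₂ c₁) :
    RssLev R₁ R₂ lam F1 (i + 1) f := by
  have hl0 : algebraMap K F lam ≠ 0 := by
    rw [Ne, map_eq_zero_iff _ (algebraMap K F).injective]
    exact hlam0
  have hc0 : algebraMap K F c ≠ 0 := by
    rw [Ne, map_eq_zero_iff _ (algebraMap K F).injective]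
    exact hc
  obtain ⟨a, ha, haF⟩ := hres1 c₁
  have hxF : g - algebraMap K F (a : K) ∈ F1 := sub_mem hgF haF
  have hx1O : g - algebraMap K F (a : K) ∈ R₁.O := sub_mem hg1 (R₁.algebraMap_mem a)
  have hx2O : g - algebraMap K F (a : K) ∈ R₂.O := sub_mem hg2 (R₂.algebraMap_mem a)
  have hx1 : g - algebraMap K F (a : K) ∈ R₁.O.nonunits := by
    apply lvb_sub_mem_nonunits R₁ g _ hg1 (R₁.algebraMap_mem a)
    rw [hc₁, R₁.red_algebraMap, ha]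
  have hx2 : g - algebraMap K F (a : K) ∈ R₂.O.nonunits := by
    apply lvb_sub_mem_nonunits R₂ g _ hg2 (R₂.algebraMap_mem a)
    rw [hc₂, R₂.red_algebraMap, ha]
  have hd1 := rss_div_lam R₁ lam hlam0 hlamA _ hx1 (hdisc₁ _ hxF)
  have hd2 := rss_div_lam R₂ lam hlam0 hlamA _ hx2 (hdisc₂ _ hxF)
  -- the unit `u = 1 + lam^i a`
  set u : A := 1 + ⟨lam, hlamA⟩ ^ i * a with hu
  have hπu : π u = 1 := by
    rw [hu, map_add, map_one, map_mul, map_pow, hlamπ, zero_pow (by omega), zero_mul, add_zero]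
  have hunu : (u : K) ∉ A.nonunits := by
    intro h
    have := (R₁.π_eq_zero_iff u).2 h
    rw [hπu] at this
    exact one_ne_zero this
  rw [ValuationSubring.mem_nonunits_iff_or, not_or, not_not] at hunu
  obtain ⟨hu0, huinv⟩ := hunu
  have huK : (u : K) = 1 + lam ^ i * (a : K) := rfl
  have huF : algebraMap K F (u : K) ∈ F1 := by
    rw [huK, map_add, map_one, map_mul, map_pow]
    exact add_mem (one_mem _) (mul_mem (pow_mem hlamF1 i) haF)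
  have huF0 : algebraMap K F (u : K) ≠ 0 := by
    rw [Ne, map_eq_zero_iff _ (algebraMap K F).injective]
    exact hu0
  refine ⟨c * (u : K), (g - algebraMap K F (a : K)) / algebraMap K F lam *
    algebraMap K F (u : K)⁻¹, mul_ne_zero hc hu0, ?_, ?_, ?_, ?_, ?_⟩
  · rw [map_mul]
    exact mul_mem hcF huF
  · rw [map_inv₀]
    exact mul_mem (div_mem hxF hlamF1) (inv_mem huF)
  · exact mul_mem hd1 (R₁.algebraMap_mem ⟨(u : K)⁻¹, huinv⟩)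
  · exact mul_mem hd2 (R₂.algebraMap_mem ⟨(u : K)⁻¹, huinv⟩)
  · have e1 : algebraMap K F (u : K) = 1 + algebraMap K F lam ^ i * algebraMap K F (a : K) := by
      rw [huK, map_add, map_one, map_mul, map_pow]
    rw [hf, map_mul, map_inv₀, map_pow, map_pow]
    field_simp
    rw [e1]
    ring

include hlam0 hlamA hdisc₁ hdisc₂ hlamF1 in
/-- the loop invariant holds for `s = 1` -/
theorem lvb_loop_base (f₁ w h : F) (hwF : w ∈ F1) (hw₁ : w - 1 ∈ R₁.O.nonunits)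
    (hw₂ : w - 1 ∈ R₂.O.nonunits) (hhF : h ∈ F1) (hh₁ : h - 1 ∈ R₁.O.nonunits)
    (hh₂ : h - 1 ∈ R₂.O.nonunits) (hq : h ^ p / f₁ ∈ B₂) :
    LvbLoop R₁ R₂ p lam F1 B₂ f₁ w 1 := by
  have hl0 : algebraMap K F lam ≠ 0 := by
    rw [Ne, map_eq_zero_iff _ (algebraMap K F).injective]
    exact hlam0
  have hF : h * w - 1 ∈ F1 := sub_mem (mul_mem hhF hwF) (one_mem _)
  have h1 := lvb_unit_mul R₁ h w hh₁ hw₁
  have h2 := lvb_unit_mul R₂ h w hh₂ hw₂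
  refine ⟨h, (h * w - 1) / algebraMap K F lam, hhF, hq, div_mem hF hlamF1,
    rss_div_lam R₁ lam hlam0 hlamA _ h1 (hdisc₁ _ hF),
    rss_div_lam R₂ lam hlam0 hlamA _ h2 (hdisc₂ _ hF), ?_⟩
  rw [pow_one]
  field_simp
  ring

include hlam0 hlamπ hdisc₁ hdisc₂ hlamF1 hB₂ hpe hroot in
/-- one turn of the loop: `s → s + 1` while `p s < i` -/
theorem lvb_loop_step (hp : p.Prime) (i : ℕ) (hi : 1 ≤ i) (hie : (p - 1) * i < p * e)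
    (f₁ w : F) (hw0 : w ≠ 0) (hf0 : f₁ ≠ 0) (c : K) (g : F) (hc : c ≠ 0)
    (hgF : g ∈ F1) (hg1 : g ∈ R₁.O) (hg2 : g ∈ R₂.O)
    (hf : f₁ * w ^ p = algebraMap K F c * (1 + algebraMap K F (lam ^ i) * g))
    (s : ℕ) (hs : 1 ≤ s) (hsi : p * s < i)
    (hL : LvbLoop R₁ R₂ p lam F1 B₂ f₁ w s) : LvbLoop R₁ R₂ p lam F1 B₂ f₁ w (s + 1) := by
  obtain ⟨h, H', hhF, hq, hHF, hH1, hH2, hhw⟩ := hL
  obtain ⟨ε, hε, hpε⟩ := hpe
  have hp1 : 1 ≤ p := hp.one_lt.le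
  have hse : (p - 1) * s < e := lvb_ar_loop p e i s hp1 hie hsi
  have hps : (p - 1) * s + s = p * s := lvb_ar_pred p s hp1
  have hl0 : algebraMap K F lam ≠ 0 := by
    rw [Ne, map_eq_zero_iff _ (algebraMap K F).injective]
    exact hlam0
  have hpF : (p : F) = algebraMap K F lam ^ e * algebraMap K F ε := by
    have := congrArg (algebraMap K F) hpε
    rwa [map_natCast, map_mul, map_pow] at this
  have hεF : algebraMap K F ε ∈ F1 := by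
    have hh : algebraMap K F ε = (p : F) / algebraMap K F lam ^ e := by
      rw [hpF]
      field_simp
    rw [hh]
    exact div_mem (natCast_mem F1 p) (pow_mem hlamF1 e)
  obtain ⟨Z, hZ, hpow⟩ := lvb_pow (R₁.O.toSubring ⊓ R₂.O.toSubring ⊓ F1.toSubring) p hp
    (algebraMap K F lam)
    ((lvb_mem_O3 R₁ R₂ F1 _).2 ⟨⟨R₁.algebraMap_mem ⟨lam, hlamA⟩, R₂.algebraMap_mem ⟨lam, hlamA⟩⟩,
      hlamF1⟩) e (algebraMap K F ε)
    ((lvb_mem_O3 R₁ R₂ F1 _).2 ⟨⟨R₁.algebraMap_mem ⟨ε, hε⟩, R₂.algebraMap_mem ⟨ε, hε⟩⟩, hεF⟩)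
    hpF s H' ((lvb_mem_O3 R₁ R₂ F1 _).2 ⟨⟨hH1, hH2⟩, hHF⟩)
  obtain ⟨⟨hZ1, hZ2⟩, hZF⟩ := (lvb_mem_O3 R₁ R₂ F1 _).1 hZ
  have hn : 1 ≤ e + s - p * s := by omega
  have hm : 1 ≤ i - p * s := by omega
  obtain ⟨hG1, hGr1⟩ := lvb_loop_red R₁ p lam hlamA hlamπ i (e + s - p * s) (i - p * s) hi hn hm
    g H' Z hg1 hH1 hZ1
  obtain ⟨hG2, hGr2⟩ := lvb_loop_red R₂ p lam hlamA hlamπ i (e + s - p * s) (i - p * s) hi hn hm
    g H' Z hg2 hH2 hZ2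
  -- the unit `1 + lam^i g`
  have hy0 : 1 + algebraMap K F (lam ^ i) * g ≠ 0 :=
    lvb_unit_ne_zero R₁ _ (lvb_unit_one_add R₁ lam hlamA hlamπ i hi g hg1)
  have hliF : ∀ n : ℕ, algebraMap K F (lam ^ n) ∈ F1 := by
    intro n
    rw [map_pow]
    exact pow_mem hlamF1 n
  have hGF : (H' ^ p + algebraMap K F (lam ^ (e + s - p * s)) * Z
      - algebraMap K F (lam ^ (i - p * s)) * g) * (1 + algebraMap K F (lam ^ i) * g)⁻¹ ∈ F1 :=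
    mul_mem (sub_mem (add_mem (pow_mem hHF p) (mul_mem (hliF _) hZF)) (mul_mem (hliF _) hgF))
      (inv_mem (add_mem (one_mem _) (mul_mem (hliF _) hgF)))
  have hGe : (H' ^ p + algebraMap K F (lam ^ (e + s - p * s)) * Z
      - algebraMap K F (lam ^ (i - p * s)) * g) * (1 + algebraMap K F (lam ^ i) * g)⁻¹
      = (algebraMap K F c * (h ^ p / f₁) - 1) * (algebraMap K F (lam ^ (p * s)))⁻¹ := by
    simp only [map_pow] at hf hhw hy0 ⊢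
    exact lvb_alg_G (algebraMap K F lam) (algebraMap K F c) h w f₁ g H' Z p s e i hl0 hw0 hf0
      hy0 (by omega) hsi.le hf hhw hpow
  have hGB : (H' ^ p + algebraMap K F (lam ^ (e + s - p * s)) * Z
      - algebraMap K F (lam ^ (i - p * s)) * g) * (1 + algebraMap K F (lam ^ i) * g)⁻¹ ∈ B₂ := by
    rw [hGe, ← map_inv₀]
    exact mul_mem (sub_mem (mul_mem (hB₂ _) hq) (one_mem _)) (hB₂ _)
  obtain ⟨Y, hY1, hY2, hYF, hYB, hYr1, hYr2⟩ :=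
    hroot _ H' hG1 hG2 hH1 hH2 hGF hGB hHF hGr1 hGr2
  -- the factor `v = 1 - lam^s Y`
  have hvF : 1 - algebraMap K F (lam ^ s) * Y ∈ F1 :=
    sub_mem (one_mem _) (mul_mem (hliF _) hYF)
  have hvB : 1 - algebraMap K F (lam ^ s) * Y ∈ B₂ :=
    sub_mem (one_mem _) (mul_mem (hB₂ _) hYB)
  -- `H' - Y` is divisible by `lam`
  have hdF : H' - Y ∈ F1 := sub_mem hHF hYF
  have hd1 := rss_div_lam R₁ lam hlam0 hlamA _
    (lvb_sub_mem_nonunits R₁ H' Y hH1 hY1 hYr1.symm) (hdisc₁ _ hdF)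
  have hd2 := rss_div_lam R₂ lam hlam0 hlamA _
    (lvb_sub_mem_nonunits R₂ H' Y hH2 hY2 hYr2.symm) (hdisc₂ _ hdF)
  refine ⟨h * (1 - algebraMap K F (lam ^ s) * Y),
    (H' - Y) / algebraMap K F lam - algebraMap K F (lam ^ (s - 1)) * (H' * Y),
    mul_mem hhF hvF, ?_,
    sub_mem (div_mem hdF hlamF1) (mul_mem (hliF _) (mul_mem hHF hYF)),
    sub_mem hd1 (mul_mem (R₁.algebraMap_mem (⟨lam, hlamA⟩ ^ (s - 1) : A)) (mul_mem hH1 hY1)),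
    sub_mem hd2 (mul_mem (R₂.algebraMap_mem (⟨lam, hlamA⟩ ^ (s - 1) : A)) (mul_mem hH2 hY2)), ?_⟩
  · have ee : (h * (1 - algebraMap K F (lam ^ s) * Y)) ^ p / f₁
        = h ^ p / f₁ * (1 - algebraMap K F (lam ^ s) * Y) ^ p := by
      rw [mul_pow]
      ring
    rw [ee]
    exact mul_mem hq (pow_mem hvB p)
  · simp only [map_pow] at hhw ⊢
    exact lvb_alg_new (algebraMap K F lam) h w H' Y s hl0 hs hhw

include hlam0 hlamA hlamF1 hpe in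
/-- the `p`-th power of `1 + lam^s Y`, for the pair and `F1` -/
theorem lvb_pow_pair (hp : p.Prime) (s : ℕ) (Y : F) (hYF : Y ∈ F1) (hY1 : Y ∈ R₁.O)
    (hY2 : Y ∈ R₂.O) :
    ∃ Z : F, Z ∈ F1 ∧ Z ∈ R₁.O ∧ Z ∈ R₂.O ∧
      (1 + algebraMap K F lam ^ s * Y) ^ p
        = 1 + algebraMap K F lam ^ (p * s) * Y ^ p + algebraMap K F lam ^ (e + s) * Z := by
  obtain ⟨ε, hε, hpε⟩ := hpe
  have hl0 : algebraMap K F lam ≠ 0 := by
    rw [Ne, map_eq_zero_iff _ (algebraMap K F).injective]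
    exact hlam0
  have hpF : (p : F) = algebraMap K F lam ^ e * algebraMap K F ε := by
    have := congrArg (algebraMap K F) hpε
    rwa [map_natCast, map_mul, map_pow] at this
  have hεF : algebraMap K F ε ∈ F1 := by
    have hh : algebraMap K F ε = (p : F) / algebraMap K F lam ^ e := by
      rw [hpF]
      field_simp
    rw [hh]
    exact div_mem (natCast_mem F1 p) (pow_mem hlamF1 e)
  obtain ⟨Z, hZ, hpow⟩ := lvb_pow (R₁.O.toSubring ⊓ R₂.O.toSubring ⊓ F1.toSubring) p hp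
    (algebraMap K F lam)
    ((lvb_mem_O3 R₁ R₂ F1 _).2 ⟨⟨R₁.algebraMap_mem ⟨lam, hlamA⟩, R₂.algebraMap_mem ⟨lam, hlamA⟩⟩,
      hlamF1⟩) e (algebraMap K F ε)
    ((lvb_mem_O3 R₁ R₂ F1 _).2 ⟨⟨R₁.algebraMap_mem ⟨ε, hε⟩, R₂.algebraMap_mem ⟨ε, hε⟩⟩, hεF⟩)
    hpF s Y ((lvb_mem_O3 R₁ R₂ F1 _).2 ⟨⟨hY1, hY2⟩, hYF⟩)
  obtain ⟨⟨hZ1, hZ2⟩, hZF⟩ := (lvb_mem_O3 R₁ R₂ F1 _).1 hZ
  exact ⟨Z, hZF, hZ1, hZ2, hpow⟩

include hlam0 hlamπ hdisc₁ hdisc₂ hlamF1 hB₂ hpe hroot in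
/-- the loop: the invariant for every `s ≥ 1` with `p (s - 1) < i` -/
theorem lvb_loop (hp : p.Prime) (i : ℕ) (hi : 1 ≤ i) (hie : (p - 1) * i < p * e)
    (f₁ w : F) (hwF : w ∈ F1) (hw₁ : w - 1 ∈ R₁.O.nonunits) (hw₂ : w - 1 ∈ R₂.O.nonunits)
    (hf0 : f₁ ≠ 0) (c : K) (g : F) (hc : c ≠ 0) (hgF : g ∈ F1) (hg1 : g ∈ R₁.O)
    (hg2 : g ∈ R₂.O)
    (hf : f₁ * w ^ p = algebraMap K F c * (1 + algebraMap K F (lam ^ i) * g))
    (h : F) (hhF : h ∈ F1) (hh₁ : h - 1 ∈ R₁.O.nonunits) (hh₂ : h - 1 ∈ R₂.O.nonunits)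
    (hq : h ^ p / f₁ ∈ B₂) (s : ℕ) (hs : 1 ≤ s) :
    p * (s - 1) < i → LvbLoop R₁ R₂ p lam F1 B₂ f₁ w s := by
  induction s, hs using Nat.le_induction with
  | base =>
    intro _
    exact lvb_loop_base R₁ R₂ p lam hlam0 hlamA F1 hlamF1 hdisc₁ hdisc₂ B₂ f₁ w h hwF hw₁ hw₂
      hhF hh₁ hh₂ hq
  | succ s hs ih =>
    intro hsi
    rw [Nat.add_sub_cancel] at hsi
    have hs' : p * (s - 1) < i :=
      lt_of_le_of_lt (Nat.mul_le_mul_left _ (Nat.sub_le _ _)) hsi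
    exact lvb_loop_step R₁ R₂ p lam hlam0 hlamA hlamπ F1 hlamF1 hdisc₁ hdisc₂ B₂ hB₂ e hpe
      hroot hp i hi hie f₁ w (lvb_unit_ne_zero R₁ w hw₁) hf0 c g hc hgF hg1 hg2 hf s hs hsi
      (ih hs')

include hlam0 hlamπ hdisc₁ hdisc₂ hres1 hlamF1 hB₁ hB₂ hconst hpe hroot in
/-- **case `p ∤ i`**: level `i` ⇒ level `i + 1` with the same `w` -/
theorem lvb_case_ndvd (hp : p.Prime) (i : ℕ) (hi : 1 ≤ i) (hie : (p - 1) * i < p * e)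
    (hpi : ¬ p ∣ i) (f₁ : F) (hf1B : f₁ ∈ B₁)
    (h : F) (hhF : h ∈ F1) (hh₁ : h - 1 ∈ R₁.O.nonunits) (hh₂ : h - 1 ∈ R₂.O.nonunits)
    (hq : h ^ p / f₁ ∈ B₂)
    (hSt : LvbSt R₁ R₂ p lam F1 B₁ f₁ i) : LvbSt R₁ R₂ p lam F1 B₁ f₁ (i + 1) := by
  obtain ⟨w, hwF, hwB, hw₁, hw₂, hlev⟩ := hSt
  refine ⟨w, hwF, hwB, hw₁, hw₂, ?_⟩
  obtain ⟨c, g, hc, hcF, hgF, hg1, hg2, hf⟩ := id hlev
  have hp1 : 1 ≤ p := hp.one_lt.le
  have hc0 : algebraMap K F c ≠ 0 := by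
    rw [Ne, map_eq_zero_iff _ (algebraMap K F).injective]
    exact hc
  have hy0 : 1 + algebraMap K F (lam ^ i) * g ≠ 0 :=
    lvb_unit_ne_zero R₁ _ (lvb_unit_one_add R₁ lam hlamA hlamπ i hi g hg1)
  have hw0 : w ≠ 0 := lvb_unit_ne_zero R₁ w hw₁
  have hf0 : f₁ ≠ 0 := by
    rintro rfl
    rw [zero_mul] at hf
    exact mul_ne_zero hc0 hy0 hf.symm
  -- the loop
  obtain ⟨hs1, hs2⟩ := lvb_ar_s0 p i hp1 hi
  obtain ⟨h', H', hhF', hq', hHF, hH1, hH2, hhw⟩ := lvb_loop R₁ R₂ p lam hlam0 hlamA hlamπ F1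
    hlamF1 hdisc₁ hdisc₂ B₂ hB₂ e hpe hroot hp i hi hie f₁ w hwF hw₁ hw₂ hf0 c g hc hgF hg1 hg2
    hf h hhF hh₁ hh₂ hq ((i - 1) / p + 1) (Nat.le_add_left 1 _) hs1
  have hsi : i < p * ((i - 1) / p + 1) := by
    rcases Nat.lt_or_ge i (p * ((i - 1) / p + 1)) with hlt | hge
    · exact hlt
    · exact absurd ⟨(i - 1) / p + 1, le_antisymm hs2 hge⟩ hpi
  have hes : i < e + ((i - 1) / p + 1) := lvb_ar_exit p e i _ hp1 hie hsi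
  obtain ⟨Z, hZF, hZ1, hZ2, hpow⟩ := lvb_pow_pair R₁ R₂ p lam hlam0 hlamA F1 hlamF1 e hpe hp
    ((i - 1) / p + 1) H' hHF hH1 hH2
  have hlO1 : ∀ n : ℕ, algebraMap K F (lam ^ n) ∈ R₁.O := fun n =>
    R₁.algebraMap_mem (⟨lam, hlamA⟩ ^ n : A)
  have hlO2 : ∀ n : ℕ, algebraMap K F (lam ^ n) ∈ R₂.O := fun n =>
    R₂.algebraMap_mem (⟨lam, hlamA⟩ ^ n : A)
  have hHp : (h' * w) ^ p = 1 + algebraMap K F (lam ^ (i + 1)) *
      (algebraMap K F (lam ^ (p * ((i - 1) / p + 1) - (i + 1))) * H' ^ p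
        + algebraMap K F (lam ^ (e + ((i - 1) / p + 1) - (i + 1))) * Z) := by
    rw [hhw]
    simp only [map_pow]
    rw [hpow]
    exact lvb_alg_exit _ H' Z p _ e i hsi hes
  have hHQ : (h' * w) ^ p / (f₁ * w ^ p) ∈ B₂ := by
    rw [mul_pow, mul_div_mul_right _ _ (pow_ne_zero p hw0)]
    exact hq'
  exact rss_step_const R₁ R₂ (i + 1) lam hlam0 hlamA hlamπ F1 hlamF1 hdisc₁ hdisc₂ hres1 B₁ B₂
    hB₁ hB₂ hconst i hi (Nat.lt_succ_self i) (f₁ * w ^ p) (mul_mem hf1B (pow_mem hwB p))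
    ((h' * w) ^ p) _ (pow_mem (mul_mem hhF' hwF) p)
    (add_mem (mul_mem (hlO1 _) (pow_mem hH1 p)) (mul_mem (hlO1 _) hZ1))
    (add_mem (mul_mem (hlO2 _) (pow_mem hH2 p)) (mul_mem (hlO2 _) hZ2)) hHp hHQ hlev

include hlam0 hlamπ hdisc₁ hdisc₂ hres1 hlamF1 hB₁ hpe in
/-- **case `p ∣ i`**: level `i` ⇒ level `i + 1`, with `w` replaced by `w (1 - lam^(i/p) Ψ)` -/
theorem lvb_case_dvd (hp : p.Prime) (hp2 : p ≠ 2) (i : ℕ) (hi : 1 ≤ i)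
    (hie : (p - 1) * i < p * e) (hpi : p ∣ i) (f₁ : F) (hf1B : f₁ ∈ B₁)
    (hstep : ∀ (c : K) (w g : F), c ≠ 0 → algebraMap K F c ∈ F1 →
      w ∈ F1 → w ∈ B₁ → w - 1 ∈ R₁.O.nonunits → w - 1 ∈ R₂.O.nonunits → g ∈ F1 → g ∈ B₁ →
      ∀ (h1 : g ∈ R₁.O) (h2 : g ∈ R₂.O),
      f₁ * w ^ p = algebraMap K F c * (1 + algebraMap K F (lam ^ i) * g) →
      ∃ (Ψ : F) (κ : k) (k1 : Ψ ∈ R₁.O) (k2 : Ψ ∈ R₂.O), Ψ ∈ F1 ∧ Ψ ∈ B₁ ∧
        R₁.red ⟨g, h1⟩ = R₁.red ⟨Ψ, k1⟩ ^ p + algebraMap k Fk₁ κ ∧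
        R₂.red ⟨g, h2⟩ = R₂.red ⟨Ψ, k2⟩ ^ p + algebraMap k Fk₂ κ)
    (hSt : LvbSt R₁ R₂ p lam F1 B₁ f₁ i) : LvbSt R₁ R₂ p lam F1 B₁ f₁ (i + 1) := by
  obtain ⟨w, hwF, hwB, hw₁, hw₂, c, g, hc, hcF, hgF, hg1, hg2, hf⟩ := hSt
  have hgB : g ∈ B₁ :=
    lvb_g_mem B₁ hB₁ lam hlam0 i c hc _ g (mul_mem hf1B (pow_mem hwB p)) hf
  obtain ⟨Ψ, κ, hΨ1, hΨ2, hΨF, hΨB, hr1, hr2⟩ :=
    hstep c w g hc hcF hwF hwB hw₁ hw₂ hgF hgB hg1 hg2 hf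
  obtain ⟨t, rfl⟩ := hpi
  have hp1 : 1 ≤ p := hp.one_lt.le
  have ht : 1 ≤ t := by
    rcases Nat.eq_zero_or_pos t with h0 | h0
    · subst h0
      simp at hi
    · exact h0
  have het : p * t < e + t := lvb_ar_dvd p e t hp1 hie
  obtain ⟨Z, hZF, hZ1, hZ2, hpow⟩ := lvb_pow_pair R₁ R₂ p lam hlam0 hlamA F1 hlamF1 e hpe hp
    t (-Ψ) (neg_mem hΨF) (neg_mem hΨ1) (neg_mem hΨ2)
  obtain ⟨hT1, hTr1⟩ := lvb_dvd_red R₁ p lam hlamA hlamπ (p * t) (e + t - p * t) hi (by omega)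
    g Ψ Z hg1 hΨ1 hZ1 _ hr1
  obtain ⟨hT2, hTr2⟩ := lvb_dvd_red R₂ p lam hlamA hlamπ (p * t) (e + t - p * t) hi (by omega)
    g Ψ Z hg2 hΨ2 hZ2 _ hr2
  have hliF : ∀ n : ℕ, algebraMap K F (lam ^ n) ∈ F1 := by
    intro n
    rw [map_pow]
    exact pow_mem hlamF1 n
  have hu₁ := lvb_unit_one_add R₁ lam hlamA hlamπ t ht (-Ψ) (neg_mem hΨ1)
  have hu₂ := lvb_unit_one_add R₂ lam hlamA hlamπ t ht (-Ψ) (neg_mem hΨ2)
  have huF : 1 + algebraMap K F (lam ^ t) * (-Ψ) ∈ F1 :=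
    add_mem (one_mem _) (mul_mem (hliF _) (neg_mem hΨF))
  have huB : 1 + algebraMap K F (lam ^ t) * (-Ψ) ∈ B₁ :=
    add_mem (one_mem _) (mul_mem (hB₁ _) (neg_mem hΨB))
  refine ⟨w * (1 + algebraMap K F (lam ^ t) * (-Ψ)), mul_mem hwF huF, mul_mem hwB huB,
    lvb_unit_mul R₁ _ _ hw₁ hu₁, lvb_unit_mul R₂ _ _ hw₂ hu₂, ?_⟩
  have hVF : -(Ψ ^ p) + algebraMap K F (lam ^ (e + t - p * t)) * Z ∈ F1 :=
    add_mem (neg_mem (pow_mem hΨF p)) (mul_mem (hliF _) hZF)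
  refine lvb_absorb R₁ R₂ lam hlam0 hlamA hlamπ F1 hlamF1 hdisc₁ hdisc₂ hres1 (p * t) hi _ c _
    hc hcF ?_ hT1 hT2 ?_ κ hTr1 hTr2
  · exact add_mem (add_mem hgF hVF) (mul_mem (hliF _) (mul_mem hgF hVF))
  · simp only [map_pow] at hf ⊢
    exact lvb_alg_dvd (algebraMap K F lam) (algebraMap K F c) w f₁ g Ψ Z p t e
      (hp.odd_of_ne_two hp2) het.le hf hpow

include hlam0 hlamπ hdisc₁ hdisc₂ hres1 hlamF1 hB₁ hB₂ hconst hpe hroot in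
/-- **LEVB, state form**: for every `i ≥ 1` with `(p - 1)(i - 1) < p e` there is a `1`-unit
`w ∈ F1 ∩ B₁` with `f₁ w^p` of level `≥ i`. -/
theorem lvb_state (hp : p.Prime) (hp2 : p ≠ 2) (f₁ : F) (hf1F : f₁ ∈ F1) (hf1B : f₁ ∈ B₁)
    (hf₁ : f₁ - 1 ∈ R₁.O.nonunits) (hf₂ : f₁ - 1 ∈ R₂.O.nonunits)
    (h : F) (hhF : h ∈ F1) (hh₁ : h - 1 ∈ R₁.O.nonunits) (hh₂ : h - 1 ∈ R₂.O.nonunits)
    (hq : h ^ p / f₁ ∈ B₂)
    (hstep : ∀ (i : ℕ) (c : K) (w g : F), 1 ≤ i → p ∣ i → (p - 1) * i < p * e →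
      c ≠ 0 → algebraMap K F c ∈ F1 →
      w ∈ F1 → w ∈ B₁ → w - 1 ∈ R₁.O.nonunits → w - 1 ∈ R₂.O.nonunits → g ∈ F1 → g ∈ B₁ →
      ∀ (h1 : g ∈ R₁.O) (h2 : g ∈ R₂.O),
      f₁ * w ^ p = algebraMap K F c * (1 + algebraMap K F (lam ^ i) * g) →
      ∃ (Ψ : F) (κ : k) (k1 : Ψ ∈ R₁.O) (k2 : Ψ ∈ R₂.O), Ψ ∈ F1 ∧ Ψ ∈ B₁ ∧
        R₁.red ⟨g, h1⟩ = R₁.red ⟨Ψ, k1⟩ ^ p + algebraMap k Fk₁ κ ∧
        R₂.red ⟨g, h2⟩ = R₂.red ⟨Ψ, k2⟩ ^ p + algebraMap k Fk₂ κ)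
    (i : ℕ) (hi : 1 ≤ i) :
    (p - 1) * (i - 1) < p * e → LvbSt R₁ R₂ p lam F1 B₁ f₁ i := by
  have hl0 : algebraMap K F lam ≠ 0 := by
    rw [Ne, map_eq_zero_iff _ (algebraMap K F).injective]
    exact hlam0
  induction i, hi using Nat.le_induction with
  | base =>
    intro _
    have hfF : f₁ - 1 ∈ F1 := sub_mem hf1F (one_mem _)
    refine ⟨1, one_mem _, one_mem _, lvb_unit_one R₁, lvb_unit_one R₂, 1,
      (f₁ - 1) / algebraMap K F lam, one_ne_zero, ?_, div_mem hfF hlamF1,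
      rss_div_lam R₁ lam hlam0 hlamA (f₁ - 1) hf₁ (hdisc₁ _ hfF),
      rss_div_lam R₂ lam hlam0 hlamA (f₁ - 1) hf₂ (hdisc₂ _ hfF), ?_⟩
    · rw [map_one]
      exact one_mem _
    · rw [map_one, pow_one, one_pow]
      field_simp
      ring
  | succ i hi ih =>
    intro hie
    rw [Nat.add_sub_cancel] at hie
    have hie' : (p - 1) * (i - 1) < p * e :=
      lt_of_le_of_lt (Nat.mul_le_mul_left _ (Nat.sub_le _ _)) hie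
    by_cases hpi : p ∣ i
    · exact lvb_case_dvd R₁ R₂ p lam hlam0 hlamA hlamπ F1 hlamF1 hdisc₁ hdisc₂ hres1 B₁ hB₁ e
        hpe hp hp2 i hi hie hpi f₁ hf1B (fun c w g => hstep i c w g hi hpi hie) (ih hie')
    · exact lvb_case_ndvd R₁ R₂ p lam hlam0 hlamA hlamπ F1 hlamF1 hdisc₁ hdisc₂ hres1 B₁ B₂ hB₁
        hB₂ hconst e hpe hroot hp i hi hie hpi f₁ hf1B h hhF hh₁ hh₂ hq (ih hie')

include hlam0 hlamπ hdisc₁ hdisc₂ hres1 hlamF1 hB₁ hB₂ hconst hpe hroot in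
/-- **LEVB** (abstract level induction for `p`-new classes, pair form): for every `i ≥ 1` with
`(p - 1)(i - 1) < p e` there are a `1`-unit `w ∈ F1 ∩ B₁`, a constant `c ≠ 0` and
`g ∈ F1 ∩ B₁ ∩ O₁ ∩ O₂` with `f₁ w^p = c (1 + lam^i g)`. -/
theorem lvb_core (hp : p.Prime) (hp2 : p ≠ 2) (f₁ : F) (hf1F : f₁ ∈ F1) (hf1B : f₁ ∈ B₁)
    (hf₁ : f₁ - 1 ∈ R₁.O.nonunits) (hf₂ : f₁ - 1 ∈ R₂.O.nonunits)
    (h : F) (hhF : h ∈ F1) (hh₁ : h - 1 ∈ R₁.O.nonunits) (hh₂ : h - 1 ∈ R₂.O.nonunits)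
    (hq : h ^ p / f₁ ∈ B₂)
    (hstep : ∀ (i : ℕ) (c : K) (w g : F), 1 ≤ i → p ∣ i → (p - 1) * i < p * e →
      c ≠ 0 → algebraMap K F c ∈ F1 →
      w ∈ F1 → w ∈ B₁ → w - 1 ∈ R₁.O.nonunits → w - 1 ∈ R₂.O.nonunits → g ∈ F1 → g ∈ B₁ →
      ∀ (h1 : g ∈ R₁.O) (h2 : g ∈ R₂.O),
      f₁ * w ^ p = algebraMap K F c * (1 + algebraMap K F (lam ^ i) * g) →
      ∃ (Ψ : F) (κ : k) (k1 : Ψ ∈ R₁.O) (k2 : Ψ ∈ R₂.O), Ψ ∈ F1 ∧ Ψ ∈ B₁ ∧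
        R₁.red ⟨g, h1⟩ = R₁.red ⟨Ψ, k1⟩ ^ p + algebraMap k Fk₁ κ ∧
        R₂.red ⟨g, h2⟩ = R₂.red ⟨Ψ, k2⟩ ^ p + algebraMap k Fk₂ κ)
    (i : ℕ) (hi : 1 ≤ i) (hie : (p - 1) * (i - 1) < p * e) :
    ∃ (w : F) (c : K) (g : F), w ∈ F1 ∧ w ∈ B₁ ∧ w - 1 ∈ R₁.O.nonunits ∧
      w - 1 ∈ R₂.O.nonunits ∧ c ≠ 0 ∧ algebraMap K F c ∈ F1 ∧ g ∈ F1 ∧ g ∈ B₁ ∧ g ∈ R₁.O ∧
      g ∈ R₂.O ∧ f₁ * w ^ p = algebraMap K F c * (1 + algebraMap K F (lam ^ i) * g) := by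
  obtain ⟨w, hwF, hwB, hw₁, hw₂, c, g, hc, hcF, hgF, hg1, hg2, hf⟩ :=
    lvb_state R₁ R₂ p lam hlam0 hlamA hlamπ F1 hlamF1 hdisc₁ hdisc₂ hres1 B₁ B₂ hB₁ hB₂ hconst e
      hpe hroot hp hp2 f₁ hf1F hf1B hf₁ hf₂ h hhF hh₁ hh₂ hq hstep i hi hie
  exact ⟨w, c, g, hwF, hwB, hw₁, hw₂, hc, hcF, hgF,
    lvb_g_mem B₁ hB₁ lam hlam0 i c hc _ g (mul_mem hf1B (pow_mem hwB p)) hf, hg1, hg2, hf⟩

end Core

end Fermat.Agent.S33lib

end
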