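import Mathlib
import Fermat.Agent.S36lib.Speed
import Fermat.Agent.S33lib.RayLiftGen

/-!
# Item 86 (S33), blocks RAY-SS / LEV (helper4): descent of reductions for a FAMILY of valuations

The generalisation of `rlg_descent` (`RayLiftGen.lean`) from one constant reduction to finitely
many valuations `v i` of `FF L` over `A` (`ResVal`), one of which is the valuation ring of a
constant reduction (orthonormal bases): for level `N = N' p` the pair `(R, R.comap w_p)`.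

* `rlp_descent` : `D` an `H`-stable divisor, `z ∈ L(D) ∩ ⋂ O_i`.  Then there is an `H`-fixed
  `s ∈ L(D) ∩ ⋂ O_i` with the same reductions as `z` for all `i`
  (given discreteness (DISC') of all the `O_i` on `F' = F^H`, uniformiser `ϖ`).
-/

set_option autoImplicit false
set_option linter.style.haveILetI false
set_option linter.unusedSectionVars false
set_option synthInstance.maxHeartbeats 400000

noncomputable section

namespace Fermat.Agent.S33lib

open ModularCurve AlgebraicCurve HahnSeries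
open Fermat.Agent.S24lib Fermat.Agent.S34lib Fermat.Agent.GoodRed Fermat.Agent.RRlib
  Fermat.Agent.S36lib

section Main

variable {A : ValuationSubring Kbar} {H : Set (Kbar ≃ₐ[ℚ] Kbar)}
  {K' : IntermediateField ℚ Kbar} {L : ℕ} [NeZero L]
variable {k : Type*} [Field k] {π : A →+* k} {Fk : Type*} [Field Fk] [Algebra k Fk]
  {κ : Type*} [Field κ] [Algebra k κ]

/-- **the lattice-descent data** of `L(D) ∩ F'` for finitely many valuations over `A`, all
discrete on `F'` (uniformiser `ϖ`), one of them the valuation ring of a constant reduction. -/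
theorem rlp_latDescData [RRBase Kbar (FF L)] (hK' : ∀ c : Kbar, c ∈ K' ↔ ∀ σ ∈ H, σ c = c)
    (hK0 : k0Field A ≤ K') {ϖ : Kbar} (hd : VdDisc A K'.toSubfield ϖ)
    {p : ℕ} (hp : p.Prime) (hA : A.LiesOverPrime p)
    {ι : Type*} [Finite ι] (v : ι → ResVal A π κ (FF L))
    (R : ConstRed A π Fk (FF L)) (i₀ : ι) (hi₀ : (v i₀).O = R.O)
    (hdisc : ∀ i, ∀ f ∈ fixedLBC H (modularFunctionFieldFull L), f ≠ 0 → ∃ n : ℤ,
      algebraMap Kbar (FF L) (ϖ ^ n) * f ∈ (v i).O ∧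
        (algebraMap Kbar (FF L) (ϖ ^ n) * f)⁻¹ ∈ (v i).O)
    (D : Divisor Kbar (FF L)) :
    LatDescData A (rlgA1 A K') (⟨ϖ, hd.1⟩ : K')
      (fun i => (v i).O) (rlgV H K' L hK' D) := by
  classical
  have hlam0 : ϖ ≠ 0 := hd.2.1
  have hlam1 : A.valuation ϖ < 1 := hd.2.2.1
  have hlamA : ϖ ∈ A := (A.valuation_le_one_iff _).mp hlam1.le
  refine
    { mem_A0 := fun _ => Iff.rfl
      res := ?_
      q_ne := fun h => hlam0 (congrArg Subtype.val h)
      q_mem := (A.mem_nonunits_iff).mpr hlam1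
      mem_O := fun i a ha => (v i).algebraMap_mem ⟨a, ha⟩
      mem_m := ?_
      bounded := ?_
      span := ?_
      disc := ?_ }
  · intro a ha
    obtain ⟨a0, ha0, haa⟩ := vdesc_res hp hA a ha
    exact ⟨⟨(a0 : Kbar), hK0 a0.2⟩, ha0, haa⟩
  · intro i a ha
    have haA : a ∈ A := A.nonunits_subset ha
    have h1 := (v i).red_algebraMap ⟨a, haA⟩
    rw [(R.π_eq_zero_iff ⟨a, haA⟩).mpr ha, map_zero] at h1
    exact ((v i).red_eq_zero_iff _).mp h1
  · obtain ⟨m, ℓ, hℓ, hℓA⟩ := rlg_bounded (H := H) (K' := K') hK' hp hA R D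
    exact ⟨m, ℓ, hℓ, fun z hz => hℓA z (hi₀ ▸ hz i₀)⟩
  · intro x hx
    haveI : Fintype ι := Fintype.ofFinite ι
    choose Nf hNf using fun i =>
      rlf_span_of_disc A (v i).O (v i).algebraMap_mem ϖ hlam0 hlamA
        (fun hx0 => hdisc i x hx.2 hx0)
    refine ⟨Finset.univ.sup Nf, fun i => ?_⟩
    exact hNf i _ (Finset.le_sup (f := Nf) (Finset.mem_univ i))
  · intro z hz hzm i
    exact rlf_div_of_disc A (v i).O (v i).algebraMap_mem ϖ hlam0 hlamA
      (fun hz0 => hdisc i z hz.2 hz0) (hzm i)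

/-- **descent of reductions `A → A ∩ K'` for a family of valuations**: for an `H`-stable divisor
`D`, an element of `L(D) ∩ ⋂ O_i` has the same reductions as an `H`-fixed element of
`L(D) ∩ ⋂ O_i`. -/
theorem rlp_descent [RRBase Kbar (FF L)] (hK' : ∀ c : Kbar, c ∈ K' ↔ ∀ σ ∈ H, σ c = c)
    (hK0 : k0Field A ≤ K') {ϖ : Kbar} (hd : VdDisc A K'.toSubfield ϖ)
    {p : ℕ} (hp : p.Prime) (hA : A.LiesOverPrime p)
    {ι : Type*} [Finite ι] (v : ι → ResVal A π κ (FF L))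
    (R : ConstRed A π Fk (FF L)) (i₀ : ι) (hi₀ : (v i₀).O = R.O)
    (hdisc : ∀ i, ∀ f ∈ fixedLBC H (modularFunctionFieldFull L), f ≠ 0 → ∃ n : ℤ,
      algebraMap Kbar (FF L) (ϖ ^ n) * f ∈ (v i).O ∧
        (algebraMap Kbar (FF L) (ϖ ^ n) * f)⁻¹ ∈ (v i).O)
    (D : Divisor Kbar (FF L)) (hD : ∀ σ ∈ H, galFF L σ • D = D)
    (z : FF L) (hz : z ∈ riemannRochSpace (K := Kbar) D) (hzO : ∀ i, z ∈ (v i).O) :
    ∃ s : FF L, s ∈ riemannRochSpace (K := Kbar) D ∧
      s ∈ fixedLBC H (modularFunctionFieldFull L) ∧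
      ∃ h : ∀ i, s ∈ (v i).O, ∀ i, (v i).red ⟨s, h i⟩ = (v i).red ⟨z, hzO i⟩ := by
  haveI : IsDiscreteValuationRing (rlgA1 A K') := rlgA1_isDiscreteValuationRing A K' hd
  have HD := rlp_latDescData hK' hK0 hd hp hA v R i₀ hi₀ hdisc D
  obtain ⟨z₀, hz₀V, hz₀O, hcong⟩ := ld_descent HD z (rlg_le_span hK' D hD hz) hzO
  refine ⟨z₀, hz₀V.1, hz₀V.2, hz₀O, fun i => ?_⟩
  have h1 : (v i).red (⟨z, hzO i⟩ - ⟨z₀, hz₀O i⟩) = 0 :=
    ((v i).red_eq_zero_iff _).mpr (hcong i)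
  rw [map_sub, sub_eq_zero] at h1
  exact h1.symm

/-- the same for the pair of a constant reduction `R₁` and a second constant reduction `R₂`
(level `N = N' p`: `R₂ = R₁.comap w_p`). -/
theorem rlp_descent_pair [RRBase Kbar (FF L)] (hK' : ∀ c : Kbar, c ∈ K' ↔ ∀ σ ∈ H, σ c = c)
    (hK0 : k0Field A ≤ K') {ϖ : Kbar} (hd : VdDisc A K'.toSubfield ϖ)
    {p : ℕ} (hp : p.Prime) (hA : A.LiesOverPrime p)
    (R₁ R₂ : ConstRed A π Fk (FF L))
    (hdisc₁ : ∀ f ∈ fixedLBC H (modularFunctionFieldFull L), f ≠ 0 → ∃ n : ℤ,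
      algebraMap Kbar (FF L) (ϖ ^ n) * f ∈ R₁.O ∧
        (algebraMap Kbar (FF L) (ϖ ^ n) * f)⁻¹ ∈ R₁.O)
    (hdisc₂ : ∀ f ∈ fixedLBC H (modularFunctionFieldFull L), f ≠ 0 → ∃ n : ℤ,
      algebraMap Kbar (FF L) (ϖ ^ n) * f ∈ R₂.O ∧
        (algebraMap Kbar (FF L) (ϖ ^ n) * f)⁻¹ ∈ R₂.O)
    (D : Divisor Kbar (FF L)) (hD : ∀ σ ∈ H, galFF L σ • D = D)
    (z : FF L) (hz : z ∈ riemannRochSpace (K := Kbar) D) (hz₁ : z ∈ R₁.O) (hz₂ : z ∈ R₂.O) :
    ∃ (s : FF L) (hs₁ : s ∈ R₁.O) (hs₂ : s ∈ R₂.O), s ∈ riemannRochSpace (K := Kbar) D ∧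
      s ∈ fixedLBC H (modularFunctionFieldFull L) ∧
      R₁.red ⟨s, hs₁⟩ = R₁.red ⟨z, hz₁⟩ ∧ R₂.red ⟨s, hs₂⟩ = R₂.red ⟨z, hz₂⟩ := by
  obtain ⟨s, hsD, hsF, hsO, hred⟩ := rlp_descent hK' hK0 hd hp hA
    (fun b : Bool => if b then ResVal.ofConstRed R₁ else ResVal.ofConstRed R₂) R₁ true rfl
    (fun b => by
      cases b
      · exact hdisc₂
      · exact hdisc₁) D hD z hz
    (fun b => by
      cases b
      · exact hz₂
      · exact hz₁)
  exact ⟨s, hsO true, hsO false, hsD, hsF, hred true, hred false⟩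

end Main

end Fermat.Agent.S33lib

end
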