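/-
Item 86 (S33), block TOR_p, piece T4 (STEP), abstract part (helper17).  Complete proofs.

The glued `p`-th root.  `S` a semistable reduction datum (`SSRed`), `G` a gluing with the
hypotheses `TwistHyp S G p D₁ a₀` of the twisted gluing at the exponent `m = p = char k`.

* `stn_root_abs` : if `r = ρ^p + κ` is GLUED (`r ∈ G.glued 1 a`, `κ` a constant), then `ρ` is glued
  and lifts: `ρ = red Ψ` with `Ψ ∈ L(a' D₁) ∩ O` (Frobenius is injective on `k`, `TwistHyp.root`,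
  `TwistHyp.f3`);
* `stn_root_pair` : the case of a pair of constant reductions (`S = SSRed.ofPair R₁ R₂`):
  if `red₁ g = ψ₁^p + c₁`, `red₂ g = ψ₂^p + c₂` and `(red₁ g, red₂ g)` is glued, there are
  `Ψ ∈ L(a' D₁) ∩ O₁ ∩ O₂` and ONE constant `κ` with `red_j g = (red_j Ψ)^p + κ` (`j = 1, 2`);
* `stn_glued_of_quot` : the reduction of `x / y` (`x ∈ L(a D₁) ∩ O`, `y` a `1`-unit) is glued.
-/
import Mathlib
import Fermat.Agent.S34lib.Twist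
import Fermat.Agent.S34lib.CruxSSBuild

set_option autoImplicit false
set_option linter.style.haveILetI false
set_option linter.unusedSectionVars false

noncomputable section

namespace Fermat.Agent.S33lib

open AlgebraicCurve Fermat.Agent.S34lib Fermat.Agent.RRlib Fermat.Agent.GoodRed

section Abs

variable {K F k : Type*} [Field K] [Field F] [Algebra K F] [Field k]
variable {R : Type*} [CommRing R] [Algebra k R]
variable {A : ValuationSubring K} {π : A →+* k}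
variable {S : SSRed A π R F} {G : Gluing k R} {p : ℕ} {D₁ : Divisor K F} {a₀ : ℕ}

/-- Frobenius is injective on a field of characteristic `p` -/
theorem stn_pow_inj [CharP k p] (hp : p.Prime) {x y : k} (h : x ^ p = y ^ p) : x = y := by
  haveI : Fact p.Prime := ⟨hp⟩
  have h1 : (x - y) ^ p = 0 := by rw [sub_pow_char, h, sub_self]
  exact sub_eq_zero.mp (pow_eq_zero_iff hp.ne_zero |>.mp h1)

/-- **the glued `p`-th root**: if `ρ^p + κ` is glued, then `ρ` is glued and is the reduction of an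
element of `L(a' D₁) ∩ O`. -/
theorem stn_root_abs [CharP k p] (hp : p.Prime) (hyp : TwistHyp S G p D₁ a₀)
    (r ρ : R) (κ : k) {a : ℕ} (hr : r ∈ G.glued 1 a) (h : r = ρ ^ p + algebraMap k R κ) :
    ∃ (a' : ℕ) (Ψ : S.O), a₀ ≤ a' ∧ a ≤ p * a' ∧ (Ψ : F) ∈ riemannRochSpace (a' • D₁) ∧
      S.red Ψ = ρ := by
  set a' : ℕ := max a₀ a with ha'
  have h0a : a₀ ≤ a' := le_max_left _ _
  have haa : a ≤ p * a' := le_trans (le_max_right a₀ a) (Nat.le_mul_of_pos_left a' hp.pos)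
  -- `ρ^p` is glued
  have hκ : algebraMap k R κ ∈ G.glued 1 a := by
    rw [Algebra.algebraMap_eq_smul_one]
    exact (G.glued 1 a).smul_mem κ (G.one_mem_glued_one a)
  have hρp : ρ ^ p ∈ G.glued 1 a := by
    have h1 : ρ ^ p = r - algebraMap k R κ := by rw [h]; ring
    rw [h1]
    exact (G.glued 1 a).sub_mem hr hκ
  obtain ⟨hT, hglue⟩ := G.mem_glued_one.mp hρp
  have hT' : ρ ^ p ∈ G.T (p * a') := G.T_mono haa hT
  have hρT : ρ ∈ G.T a' := hyp.root a' ρ hT'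
  have hρ : ρ ∈ G.glued 1 a' := by
    refine G.mem_glued_one.mpr ⟨hρT, ?_⟩
    funext i
    have h1 := congrFun hglue i
    rw [G.e₁_pow hρT, G.e₂_pow hρT] at h1
    simp only [Pi.pow_apply] at h1
    exact stn_pow_inj hp h1
  rw [← hyp.f3 a' h0a] at hρ
  obtain ⟨Ψ, hΨ, hred⟩ := S.mem_redSp.mp hρ
  exact ⟨a', Ψ, h0a, haa, hΨ, hred⟩

/-- the reduction of `x · y⁻¹`, `x ∈ L(a D₁) ∩ O`, `y` a `1`-unit of `O`, is glued -/
theorem stn_glued_of_quot (hyp : TwistHyp S G p D₁ a₀) {a : ℕ} (ha : a₀ ≤ a)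
    (g x y : S.O) (hx : (x : F) ∈ riemannRochSpace (a • D₁)) (hy : S.red y = 1)
    (hg : g * y = x) : S.red g ∈ G.glued 1 a := by
  have h1 : S.red g = S.red x := by
    rw [← hg, map_mul, hy, mul_one]
  rw [h1, ← hyp.f3 a ha]
  exact S.red_mem_redSp x hx

end Abs

section Pair

variable {K F k : Type*} [Field K] [Field F] [Algebra K F] [Field k]
variable {Fk₁ Fk₂ : Type*} [Field Fk₁] [Field Fk₂] [Algebra k Fk₁] [Algebra k Fk₂]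
variable {A : ValuationSubring K} {π : A →+* k}
variable (R₁ : ConstRed A π Fk₁ F) (R₂ : ConstRed A π Fk₂ F)
variable {G : Gluing k (Fk₁ × Fk₂)} {p : ℕ} {D₁ : Divisor K F} {a₀ : ℕ}

/-- **(STEP), gluing part, for a pair of constant reductions**: if the two leading terms
`red₁ g`, `red₂ g` are `p`-th powers up to constants and `(red₁ g, red₂ g)` is glued, then there are
`Ψ ∈ L(a' D₁) ∩ O₁ ∩ O₂` and ONE constant `κ` with `red_j g = (red_j Ψ)^p + κ`. -/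
theorem stn_root_pair [CharP k p] (hp : p.Prime)
    (hyp : TwistHyp (SSRed.ofPair R₁ R₂) G p D₁ a₀) (hk : ∀ c : k, ∃ d : k, d ^ p = c)
    {g : F} (hg₁ : g ∈ R₁.O) (hg₂ : g ∈ R₂.O) {a : ℕ}
    (hglued : ((R₁.red ⟨g, hg₁⟩, R₂.red ⟨g, hg₂⟩) : Fk₁ × Fk₂) ∈ G.glued 1 a)
    (ψ₁ : Fk₁) (ψ₂ : Fk₂) (c₁ c₂ : k)
    (h₁ : R₁.red ⟨g, hg₁⟩ = ψ₁ ^ p + algebraMap k Fk₁ c₁)
    (h₂ : R₂.red ⟨g, hg₂⟩ = ψ₂ ^ p + algebraMap k Fk₂ c₂) :
    ∃ (a' : ℕ) (Ψ : F) (hΨ₁ : Ψ ∈ R₁.O) (hΨ₂ : Ψ ∈ R₂.O) (κ : k), a₀ ≤ a' ∧ a ≤ p * a' ∧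
      Ψ ∈ riemannRochSpace (a' • D₁) ∧
      R₁.red ⟨g, hg₁⟩ = R₁.red ⟨Ψ, hΨ₁⟩ ^ p + algebraMap k Fk₁ κ ∧
      R₂.red ⟨g, hg₂⟩ = R₂.red ⟨Ψ, hΨ₂⟩ ^ p + algebraMap k Fk₂ κ := by
  haveI : Fact p.Prime := ⟨hp⟩
  haveI : CharP Fk₂ p := charP_of_injective_algebraMap (algebraMap k Fk₂).injective p
  obtain ⟨d, hd⟩ := hk (c₂ - c₁)
  set ρ : Fk₁ × Fk₂ := (ψ₁, ψ₂ + algebraMap k Fk₂ d) with hρ
  have hκ : (algebraMap k (Fk₁ × Fk₂) c₁ : Fk₁ × Fk₂)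
      = (algebraMap k Fk₁ c₁, algebraMap k Fk₂ c₁) := rfl
  have hpow : ρ ^ p = (ψ₁ ^ p, ψ₂ ^ p + algebraMap k Fk₂ (c₂ - c₁)) := by
    rw [hρ, Prod.pow_mk, add_pow_char, ← map_pow, hd]
  have hr : ((R₁.red ⟨g, hg₁⟩, R₂.red ⟨g, hg₂⟩) : Fk₁ × Fk₂)
      = ρ ^ p + algebraMap k (Fk₁ × Fk₂) c₁ := by
    rw [hpow, hκ, Prod.mk_add_mk, h₁, h₂, map_sub]
    congr 1
    ring
  obtain ⟨a', Ψ, h0a, haa, hΨ, hred⟩ := stn_root_abs hp hyp _ ρ c₁ hglued hr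
  have hΨ₁ : (Ψ : F) ∈ R₁.O := Ψ.2.1
  have hΨ₂ : (Ψ : F) ∈ R₂.O := Ψ.2.2
  have hred' : (R₁.red ⟨(Ψ : F), hΨ₁⟩, R₂.red ⟨(Ψ : F), hΨ₂⟩) = ρ := hred
  have hr₁ : R₁.red ⟨(Ψ : F), hΨ₁⟩ = ψ₁ := congrArg Prod.fst hred'
  have hr₂ : R₂.red ⟨(Ψ : F), hΨ₂⟩ = ψ₂ + algebraMap k Fk₂ d := congrArg Prod.snd hred'
  refine ⟨a', (Ψ : F), hΨ₁, hΨ₂, c₁, h0a, haa, hΨ, ?_, ?_⟩
  · rw [hr₁, h₁]
  · rw [hr₂, h₂, add_pow_char, ← map_pow, hd, map_sub]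
    ring

end Pair

end Fermat.Agent.S33lib

end
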