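import Mathlib
import Fermat.Agent.S36lib.Speed
import Fermat.Agent.S33lib.RayLiftPair
import Fermat.Agent.S33lib.GlueB
import Fermat.Agent.S33lib.StepRoot

/-!
# Item 86 (S33), block TOR_p (helper4): the `F^H`-RATIONAL forms of (ROOT₂) and of the glued root

Setting of `tbc_inputs` (`TorBConc.lean`): level `L`, two constant reductions `R₁, R₂` of `FF L`,
`S = SSRed.ofPair R₁ R₂` with a gluing `G`, `TwistHyp S G p D₁ a₀`, `TwistCrux S G 1 D₁ D₂ n₂ f finv`,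
`H` a set of automorphisms of `ℚ̄` with fixed field `K'`, discretely valued (uniformiser `ϖ`),
both valuation rings discrete on `F^H` (DISC), `D₁`, `D₂` stable under `H`.

* `rrt_lift`  : an element of `L(D) ∩ O₁ ∩ O₂` (`D` stable under `H`) has an `H`-fixed
  representative in `L(D) ∩ O₁ ∩ O₂` with the same two reductions (= `rlp_descent_pair`);
* `rrt_root2` : **(ROOT₂), rational**: `G' ∈ B₂ ∩ O₁ ∩ O₂`, `H' ∈ O₁ ∩ O₂`,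
  `red_j G' = (red_j H')^p` ⟹ there is `Y ∈ F^H ∩ B₂ ∩ O₁ ∩ O₂` (even `Y ∈ L(c' D₂)`) with
  `red_j Y = red_j H'`;
* `rrt_step_root` : **the glued `p`-th root, rational**: if `red₁ g = ψ₁^p + c₁`,
  `red₂ g = ψ₂^p + c₂` and `(red₁ g, red₂ g)` is glued, there are
  `Ψ ∈ F^H ∩ B₁ ∩ O₁ ∩ O₂` (even `Ψ ∈ L(a' D₁)`) and ONE constant `κ` with
  `red_j g = (red_j Ψ)^p + κ`;
* `rrt_glued_of_B` : the reduction of an element of `B₁ ∩ O₁ ∩ O₂` is glued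
  (`B₁ = glbB S D₁`), the hypothesis `hglued` of `rrt_step_root`.
-/

set_option autoImplicit false
set_option linter.style.haveILetI false
set_option linter.unusedSectionVars false
set_option linter.unusedVariables false
set_option synthInstance.maxHeartbeats 400000

noncomputable section

namespace Fermat.Agent.S33lib

open ModularCurve AlgebraicCurve HahnSeries
open Fermat.Agent.S24lib Fermat.Agent.S34lib Fermat.Agent.GoodRed Fermat.Agent.RRlib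
  Fermat.Agent.S36lib

section Main

variable {A : ValuationSubring Kbar} {H : Set (Kbar ≃ₐ[ℚ] Kbar)}
  {K' : IntermediateField ℚ Kbar} {L : ℕ} [NeZero L]
variable {k : Type*} [Field k] {π : A →+* k} {Fk : Type*} [Field Fk] [Algebra k Fk]

/-- stability of the multiples of a stable divisor -/
theorem rrt_stable_nsmul {D : Divisor Kbar (FF L)} (hD : ∀ σ ∈ H, galFF L σ • D = D) (c : ℕ) :
    ∀ σ ∈ H, galFF L σ • (c • D) = c • D := by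
  intro σ hσ
  rw [smul_comm, hD σ hσ]

/-- **(ROOT₂), `F^H`-rational.** -/
theorem rrt_root2 [RRBase Kbar (FF L)] (hK' : ∀ c : Kbar, c ∈ K' ↔ ∀ σ ∈ H, σ c = c)
    (hK0 : k0Field A ≤ K') {ϖ : Kbar} (hd : VdDisc A K'.toSubfield ϖ)
    {p : ℕ} (hp : p.Prime) (hA : A.LiesOverPrime p) [CharP k p]
    (R₁ R₂ : ConstRed A π Fk (FF L))
    (hdisc₁ : ∀ f ∈ fixedLBC H (modularFunctionFieldFull L), f ≠ 0 → ∃ n : ℤ,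
      algebraMap Kbar (FF L) (ϖ ^ n) * f ∈ R₁.O ∧
        (algebraMap Kbar (FF L) (ϖ ^ n) * f)⁻¹ ∈ R₁.O)
    (hdisc₂ : ∀ f ∈ fixedLBC H (modularFunctionFieldFull L), f ≠ 0 → ∃ n : ℤ,
      algebraMap Kbar (FF L) (ϖ ^ n) * f ∈ R₂.O ∧
        (algebraMap Kbar (FF L) (ϖ ^ n) * f)⁻¹ ∈ R₂.O)
    {G : Gluing k (Fk × Fk)} {D₁ D₂ : Divisor Kbar (FF L)} {a₀ n₂ : ℕ}
    {f finv : (SSRed.ofPair R₁ R₂).O}
    (hyp : TwistHyp (SSRed.ofPair R₁ R₂) G p D₁ a₀)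
    (hc : TwistCrux (SSRed.ofPair R₁ R₂) G 1 D₁ D₂ n₂ f finv)
    (hD₂ : ∀ σ ∈ H, galFF L σ • D₂ = D₂)
    (G' H' : FF L) (g1 : G' ∈ R₁.O) (g2 : G' ∈ R₂.O) (h1 : H' ∈ R₁.O) (h2 : H' ∈ R₂.O)
    (hG : G' ∈ glbB (SSRed.ofPair R₁ R₂) D₂ hc.D₂_nonneg)
    (e1 : R₁.red ⟨G', g1⟩ = R₁.red ⟨H', h1⟩ ^ p) (e2 : R₂.red ⟨G', g2⟩ = R₂.red ⟨H', h2⟩ ^ p) :
    ∃ (c' : ℕ) (Y : FF L) (y1 : Y ∈ R₁.O) (y2 : Y ∈ R₂.O),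
      Y ∈ fixedLBC H (modularFunctionFieldFull L) ∧
      Y ∈ riemannRochSpace (K := Kbar) (c' • D₂) ∧
      Y ∈ glbB (SSRed.ofPair R₁ R₂) D₂ hc.D₂_nonneg ∧
      R₁.red ⟨Y, y1⟩ = R₁.red ⟨H', h1⟩ ∧ R₂.red ⟨Y, y2⟩ = R₂.red ⟨H', h2⟩ := by
  obtain ⟨c', Y₀, y01, y02, hY₀, hr1, hr2⟩ :=
    glb_root_pair R₁ R₂ hp hyp hc G' H' g1 g2 h1 h2 hG e1 e2
  obtain ⟨Y, y1, y2, hYL, hYH, hYr1, hYr2⟩ :=
    rlp_descent_pair hK' hK0 hd hp hA R₁ R₂ hdisc₁ hdisc₂ (c' • D₂)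
      (rrt_stable_nsmul hD₂ c') Y₀ hY₀ y01 y02
  exact ⟨c', Y, y1, y2, hYH, hYL, glb_mem_B_of_mem_L hc.D₂_nonneg hYL,
    hYr1.trans hr1, hYr2.trans hr2⟩

/-- **the glued `p`-th root, `F^H`-rational** (gluing part of (STEP)). -/
theorem rrt_step_root [RRBase Kbar (FF L)] (hK' : ∀ c : Kbar, c ∈ K' ↔ ∀ σ ∈ H, σ c = c)
    (hK0 : k0Field A ≤ K') {ϖ : Kbar} (hd : VdDisc A K'.toSubfield ϖ)
    {p : ℕ} (hp : p.Prime) (hA : A.LiesOverPrime p) [CharP k p]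
    (R₁ R₂ : ConstRed A π Fk (FF L))
    (hdisc₁ : ∀ f ∈ fixedLBC H (modularFunctionFieldFull L), f ≠ 0 → ∃ n : ℤ,
      algebraMap Kbar (FF L) (ϖ ^ n) * f ∈ R₁.O ∧
        (algebraMap Kbar (FF L) (ϖ ^ n) * f)⁻¹ ∈ R₁.O)
    (hdisc₂ : ∀ f ∈ fixedLBC H (modularFunctionFieldFull L), f ≠ 0 → ∃ n : ℤ,
      algebraMap Kbar (FF L) (ϖ ^ n) * f ∈ R₂.O ∧
        (algebraMap Kbar (FF L) (ϖ ^ n) * f)⁻¹ ∈ R₂.O)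
    {G : Gluing k (Fk × Fk)} {D₁ : Divisor Kbar (FF L)} {a₀ : ℕ}
    (hyp : TwistHyp (SSRed.ofPair R₁ R₂) G p D₁ a₀) (hD₁n : ∀ v, 0 ≤ D₁ v)
    (hD₁ : ∀ σ ∈ H, galFF L σ • D₁ = D₁)
    (hk : ∀ c : k, ∃ d : k, d ^ p = c)
    {g : FF L} (hg₁ : g ∈ R₁.O) (hg₂ : g ∈ R₂.O) {a : ℕ}
    (hglued : ((R₁.red ⟨g, hg₁⟩, R₂.red ⟨g, hg₂⟩) : Fk × Fk) ∈ G.glued 1 a)
    (ψ₁ ψ₂ : Fk) (c₁ c₂ : k)
    (h₁ : R₁.red ⟨g, hg₁⟩ = ψ₁ ^ p + algebraMap k Fk c₁)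
    (h₂ : R₂.red ⟨g, hg₂⟩ = ψ₂ ^ p + algebraMap k Fk c₂) :
    ∃ (a' : ℕ) (Ψ : FF L) (hΨ₁ : Ψ ∈ R₁.O) (hΨ₂ : Ψ ∈ R₂.O) (κ : k), a₀ ≤ a' ∧ a ≤ p * a' ∧
      Ψ ∈ fixedLBC H (modularFunctionFieldFull L) ∧
      Ψ ∈ riemannRochSpace (K := Kbar) (a' • D₁) ∧
      Ψ ∈ glbB (SSRed.ofPair R₁ R₂) D₁ hD₁n ∧
      R₁.red ⟨g, hg₁⟩ = R₁.red ⟨Ψ, hΨ₁⟩ ^ p + algebraMap k Fk κ ∧
      R₂.red ⟨g, hg₂⟩ = R₂.red ⟨Ψ, hΨ₂⟩ ^ p + algebraMap k Fk κ := by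
  obtain ⟨a', Ψ₀, h01, h02, κ, h0a, haa, hΨ₀, hr1, hr2⟩ :=
    stn_root_pair R₁ R₂ hp hyp hk hg₁ hg₂ hglued ψ₁ ψ₂ c₁ c₂ h₁ h₂
  obtain ⟨Ψ, hΨ₁, hΨ₂, hΨL, hΨH, hΨr1, hΨr2⟩ :=
    rlp_descent_pair hK' hK0 hd hp hA R₁ R₂ hdisc₁ hdisc₂ (a' • D₁)
      (rrt_stable_nsmul hD₁ a') Ψ₀ hΨ₀ h01 h02
  refine ⟨a', Ψ, hΨ₁, hΨ₂, κ, h0a, haa, hΨH, hΨL, glb_mem_B_of_mem_L hD₁n hΨL, ?_, ?_⟩
  · rw [hΨr1]; exact hr1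
  · rw [hΨr2]; exact hr2

/-- the reduction of an element of `B₁ ∩ O₁ ∩ O₂` is glued (`B₁ = glbB S D₁`): the hypothesis
`hglued` of `rrt_step_root`. -/
theorem rrt_glued_of_B [RRBase Kbar (FF L)] {p : ℕ}
    (R₁ R₂ : ConstRed A π Fk (FF L))
    {G : Gluing k (Fk × Fk)} {D₁ : Divisor Kbar (FF L)} {a₀ : ℕ}
    (hyp : TwistHyp (SSRed.ofPair R₁ R₂) G p D₁ a₀) (hD₁n : ∀ v, 0 ≤ D₁ v)
    {g : FF L} (hg₁ : g ∈ R₁.O) (hg₂ : g ∈ R₂.O)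
    (hgB : g ∈ glbB (SSRed.ofPair R₁ R₂) D₁ hD₁n) :
    ∃ a : ℕ, a₀ ≤ a ∧ ((R₁.red ⟨g, hg₁⟩, R₂.red ⟨g, hg₂⟩) : Fk × Fk) ∈ G.glued 1 a := by
  obtain ⟨b, x, hx, hred⟩ := glb_exists_rep (glbMk R₁ R₂ g hg₁ hg₂) hgB
  have hx' : (x : FF L) ∈ riemannRochSpace (K := Kbar) ((max a₀ b) • D₁) :=
    glb_L_mono hD₁n (le_max_right a₀ b) hx
  refine ⟨max a₀ b, le_max_left _ _, ?_⟩
  have h1 : (SSRed.ofPair R₁ R₂).red x ∈ G.glued 1 (max a₀ b) := by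
    rw [← hyp.f3 _ (le_max_left a₀ b)]
    exact (SSRed.ofPair R₁ R₂).red_mem_redSp x hx'
  rw [hred, glbMk_red] at h1
  exact h1

end Main

end Fermat.Agent.S33lib

end
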