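import Mathlib
import Fermat.Agent.S36lib.Speed
import Fermat.Agent.S34lib.GalRR
import Fermat.Agent.RRlib.Modular
import Fermat.Agent.RRlib.Cor

/-!
# Item 86 (S33), piece P-A (helper23): stabilisers are open.  Complete proofs.

`G = Gal(ℚ̄/ℚ)` acts on the function field `FF L = ℚ̄ · F₀(L)` of `X₀(L)` (coefficientwise on
`q`-expansions), on its places, divisors and divisor classes.  Every function, place, divisor and
class is fixed by a NORMAL subgroup of FINITE INDEX of `G`: the field of rationality can be chosen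
AFTER the functions.

* `sfn_finiteIndex_fixing` : the pointwise stabiliser of a finite stable set has finite index;
* `sfn_const`, `sfn_series`, `sfn_fix` : constants, elements of `ℚ̄ · F₀`, functions of `FF L`;
* `sfn_fix_place`, `sfn_fix_divisor`, `sfn_fix_class` : places, divisors, classes of `J₀(L)`;
* `sfn_fix_finset` : finitely many functions, divisors and classes at once, by a normal subgroup
  of finite index;
* `sfnH A ζ N = N ⊓ I_A ⊓ Fix(ζ)`; `sfnH_finiteIndex` (finite index in the inertia group),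
  `sfnH_conj` (normalised by the decomposition group, for `N` normal), `sfnH_le_inertia`,
  `sfnH_zeta`, `sfnH_le`.
-/

set_option autoImplicit false
set_option linter.unusedSectionVars false
set_option linter.unusedVariables false
set_option linter.style.haveILetI false
set_option synthInstance.maxHeartbeats 400000

noncomputable section

namespace Fermat.Agent.S33lib

open AlgebraicCurve ModularCurve HahnSeries
open Fermat.Agent.S24lib Fermat.Agent.S34lib Fermat.Agent.RRlib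

/-- the pointwise stabiliser of a finite stable set has finite index -/
theorem sfn_finiteIndex_fixing {G α : Type*} [Group G] [MulAction G α] (X : Set α)
    (hX : X.Finite) (hst : ∀ σ : G, ∀ x ∈ X, σ • x ∈ X) : (fixingSubgroup G X).FiniteIndex := by
  classical
  haveI : Finite ↥X := hX
  letI act : MulAction G ↥X :=
    { smul := fun σ x => ⟨σ • (x : α), hst σ x x.2⟩
      one_smul := fun x => Subtype.ext (one_smul G (x : α))
      mul_smul := fun σ τ x => Subtype.ext (mul_smul σ τ (x : α)) }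
  have hker : (MulAction.toPermHom G ↥X).ker = fixingSubgroup G X := by
    ext σ
    rw [MonoidHom.mem_ker, mem_fixingSubgroup_iff]
    constructor
    · intro h x hx
      have h1 := congrArg (fun e : Equiv.Perm ↥X => ((e ⟨x, hx⟩ : ↥X) : α)) h
      exact h1
    · intro h
      ext x
      exact h x x.2
  rw [← hker]
  exact Subgroup.finiteIndex_ker _

/-- the stabiliser of an algebraic number has finite index -/
theorem sfn_const (c : Kbar) :
    ∃ H : Subgroup (Kbar ≃ₐ[ℚ] Kbar), H.FiniteIndex ∧ ∀ σ ∈ H, σ c = c := by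
  have halg : IsIntegral ℚ c := ((AlgebraicClosure.isAlgebraic ℚ).isAlgebraic c).isIntegral
  set X : Set Kbar := (minpoly ℚ c).rootSet Kbar with hX
  have hfin : X.Finite := Polynomial.rootSet_finite _ _
  have hc : c ∈ X := by
    rw [hX, Polynomial.mem_rootSet]
    exact ⟨minpoly.ne_zero halg, minpoly.aeval ℚ c⟩
  have hst : ∀ σ : Kbar ≃ₐ[ℚ] Kbar, ∀ x ∈ X, σ • x ∈ X := by
    intro σ x hx
    rw [hX, Polynomial.mem_rootSet] at hx ⊢
    refine ⟨hx.1, ?_⟩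
    show Polynomial.aeval (σ x) (minpoly ℚ c) = 0
    have h1 : Polynomial.aeval (σ x) (minpoly ℚ c) = σ (Polynomial.aeval x (minpoly ℚ c)) :=
      Polynomial.aeval_algHom_apply (σ : Kbar →ₐ[ℚ] Kbar) x (minpoly ℚ c)
    rw [h1, hx.2, map_zero]
  refine ⟨fixingSubgroup (Kbar ≃ₐ[ℚ] Kbar) X, sfn_finiteIndex_fixing X hfin hst, ?_⟩
  intro σ hσ
  exact (mem_fixingSubgroup_iff _).mp hσ c hc

/-- every element of `ℚ̄ · F₀` is fixed (coefficientwise) by a subgroup of finite index -/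
theorem sfn_series (F₀ : IntermediateField ℚ (LaurentSeries ℚ)) {x : LaurentSeries Kbar}
    (hx : x ∈ laurentBaseChange Kbar F₀) :
    ∃ H : Subgroup (Kbar ≃ₐ[ℚ] Kbar), H.FiniteIndex ∧
      ∀ σ ∈ H, coeffMap ((σ : Kbar ≃ₐ[ℚ] Kbar) : Kbar →+* Kbar) x = x := by
  unfold laurentBaseChange at hx
  induction hx using IntermediateField.adjoin_induction with
  | mem y hy =>
      obtain ⟨z, -, rfl⟩ := hy
      exact ⟨⊤, inferInstance, fun σ _ => coeffMap_coeffEmb σ z⟩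
  | algebraMap c =>
      obtain ⟨H, hH, hc⟩ := sfn_const c
      refine ⟨H, hH, fun σ hσ => ?_⟩
      rw [coeffMap_algebraMap]
      exact congrArg _ (hc σ hσ)
  | add y z _ _ ihy ihz =>
      obtain ⟨H₁, h₁, hy⟩ := ihy
      obtain ⟨H₂, h₂, hz⟩ := ihz
      haveI := h₁
      haveI := h₂
      refine ⟨H₁ ⊓ H₂, inferInstance, fun σ hσ => ?_⟩
      rw [map_add, hy σ hσ.1, hz σ hσ.2]
  | inv y _ ihy =>
      obtain ⟨H₁, h₁, hy⟩ := ihy
      refine ⟨H₁, h₁, fun σ hσ => ?_⟩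
      rw [map_inv₀, hy σ hσ]
  | mul y z _ _ ihy ihz =>
      obtain ⟨H₁, h₁, hy⟩ := ihy
      obtain ⟨H₂, h₂, hz⟩ := ihz
      haveI := h₁
      haveI := h₂
      refine ⟨H₁ ⊓ H₂, inferInstance, fun σ hσ => ?_⟩
      rw [map_mul, hy σ hσ.1, hz σ hσ.2]

variable (L : ℕ)

/-- **every function of `FF L` is fixed by a subgroup of finite index** -/
theorem sfn_fix (f : FF L) :
    ∃ H : Subgroup (Kbar ≃ₐ[ℚ] Kbar), H.FiniteIndex ∧ ∀ σ ∈ H, galFF L σ • f = f := by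
  obtain ⟨H, hH, h⟩ := sfn_series (modularFunctionFieldFull L) f.2
  refine ⟨H, hH, fun σ hσ => Subtype.ext ?_⟩
  rw [coe_arithmeticGalois_smul]
  exact h σ hσ

variable [NeZero L]

/-- every place of `FF L` is fixed by a subgroup of finite index -/
theorem sfn_fix_place (P : Place Kbar (FF L)) :
    ∃ H : Subgroup (Kbar ≃ₐ[ℚ] Kbar), H.FiniteIndex ∧ ∀ σ ∈ H, galFF L σ • P = P := by
  haveI : RRHyp Kbar (FF L) := mod_rrHyp L
  obtain ⟨f, hnc, hpole, -⟩ := exists_pole_only_at (K := Kbar) P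
  obtain ⟨H, hH, hf⟩ := sfn_fix L f
  refine ⟨H, hH, fun σ hσ => ?_⟩
  by_contra hne
  apply hnc
  have hP : 0 ≤ P.ord f := by
    have h1 := SemilinearAut.ord_smul (galFF L σ) P f
    rw [hf σ hσ] at h1
    rw [← h1]
    exact hpole _ hne
  have hall : ∀ v : Place Kbar (FF L), 0 ≤ v.ord f := by
    intro v
    rcases eq_or_ne v P with rfl | hv
    · exact hP
    · exact hpole v hv
  obtain ⟨c, hc⟩ := RRBase.const_of_forall_ord_nonneg (K := Kbar) f hall
  exact ⟨c, hc⟩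

/-- every divisor of `FF L` is fixed by a subgroup of finite index -/
theorem sfn_fix_divisor (D : Divisor Kbar (FF L)) :
    ∃ H : Subgroup (Kbar ≃ₐ[ℚ] Kbar), H.FiniteIndex ∧ ∀ σ ∈ H, galFF L σ • D = D := by
  classical
  have key : ∀ s : Finset (Place Kbar (FF L)),
      ∃ H : Subgroup (Kbar ≃ₐ[ℚ] Kbar), H.FiniteIndex ∧ ∀ σ ∈ H, ∀ P ∈ s, galFF L σ • P = P := by
    intro s
    induction s using Finset.induction_on with
    | empty => exact ⟨⊤, inferInstance, fun σ _ P hP => absurd hP (Finset.notMem_empty P)⟩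
    | insert P s _ ih =>
        obtain ⟨H₁, h₁, hs⟩ := ih
        obtain ⟨H₂, h₂, hP⟩ := sfn_fix_place L P
        haveI := h₁
        haveI := h₂
        refine ⟨H₁ ⊓ H₂, inferInstance, fun σ hσ Q hQ => ?_⟩
        rcases Finset.mem_insert.mp hQ with rfl | hQ
        · exact hP σ hσ.2
        · exact hs σ hσ.1 Q hQ
  obtain ⟨H, hH, h⟩ := key D.support
  refine ⟨H, hH, fun σ hσ => ?_⟩
  ext w
  rw [SemilinearAut.divisor_smul_apply]
  by_cases hw : w ∈ D.support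
  · have h1 : galFF L σ • w = w := h σ hσ w hw
    have h2 : (galFF L σ)⁻¹ • w = w := by
      rw [inv_smul_eq_iff, h1]
    rw [h2]
  · have h1 : (galFF L σ)⁻¹ • w ∉ D.support := by
      intro hcon
      have h2 := h σ hσ _ hcon
      rw [smul_inv_smul] at h2
      rw [← h2] at hcon
      exact hw hcon
    rw [Finsupp.notMem_support_iff.mp hw, Finsupp.notMem_support_iff.mp h1]

/-- every class of `J₀(L)` is fixed by a subgroup of finite index -/
theorem sfn_fix_class (x : JZero L) :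
    ∃ H : Subgroup (Kbar ≃ₐ[ℚ] Kbar), H.FiniteIndex ∧ ∀ σ ∈ H, σ • x = x := by
  obtain ⟨D, rfl⟩ := Pic0.mk_surjective x
  obtain ⟨H, hH, h⟩ := sfn_fix_divisor L (D : Divisor Kbar (FF L))
  refine ⟨H, hH, fun σ hσ => ?_⟩
  rw [galois_smul_pic0_def, SemilinearAut.pic0_smul_mk]
  congr 1
  apply Subtype.ext
  rw [SemilinearAut.coe_degZeroSMulHom]
  exact h σ hσ

/-- **finitely many functions, divisors and classes are fixed by one NORMAL subgroup of finite
index** -/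
theorem sfn_fix_finset (Fs : Finset (FF L)) (Ds : Finset (Divisor Kbar (FF L)))
    (Xs : Finset (JZero L)) :
    ∃ N : Subgroup (Kbar ≃ₐ[ℚ] Kbar), N.Normal ∧ N.FiniteIndex ∧
      (∀ σ ∈ N, ∀ f ∈ Fs, galFF L σ • f = f) ∧
      (∀ σ ∈ N, ∀ D ∈ Ds, galFF L σ • D = D) ∧
      (∀ σ ∈ N, ∀ x ∈ Xs, σ • x = x) := by
  classical
  have k1 : ∃ H : Subgroup (Kbar ≃ₐ[ℚ] Kbar), H.FiniteIndex ∧
      ∀ σ ∈ H, ∀ f ∈ Fs, galFF L σ • f = f := by
    induction Fs using Finset.induction_on with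
    | empty => exact ⟨⊤, inferInstance, fun σ _ f hf => absurd hf (Finset.notMem_empty f)⟩
    | insert f s _ ih =>
        obtain ⟨H₁, h₁, hs⟩ := ih
        obtain ⟨H₂, h₂, hf⟩ := sfn_fix L f
        haveI := h₁
        haveI := h₂
        refine ⟨H₁ ⊓ H₂, inferInstance, fun σ hσ g hg => ?_⟩
        rcases Finset.mem_insert.mp hg with rfl | hg
        · exact hf σ hσ.2
        · exact hs σ hσ.1 g hg
  have k2 : ∃ H : Subgroup (Kbar ≃ₐ[ℚ] Kbar), H.FiniteIndex ∧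
      ∀ σ ∈ H, ∀ D ∈ Ds, galFF L σ • D = D := by
    induction Ds using Finset.induction_on with
    | empty => exact ⟨⊤, inferInstance, fun σ _ f hf => absurd hf (Finset.notMem_empty f)⟩
    | insert f s _ ih =>
        obtain ⟨H₁, h₁, hs⟩ := ih
        obtain ⟨H₂, h₂, hf⟩ := sfn_fix_divisor L f
        haveI := h₁
        haveI := h₂
        refine ⟨H₁ ⊓ H₂, inferInstance, fun σ hσ g hg => ?_⟩
        rcases Finset.mem_insert.mp hg with rfl | hg
        · exact hf σ hσ.2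
        · exact hs σ hσ.1 g hg
  have k3 : ∃ H : Subgroup (Kbar ≃ₐ[ℚ] Kbar), H.FiniteIndex ∧
      ∀ σ ∈ H, ∀ x ∈ Xs, σ • x = x := by
    induction Xs using Finset.induction_on with
    | empty => exact ⟨⊤, inferInstance, fun σ _ f hf => absurd hf (Finset.notMem_empty f)⟩
    | insert f s _ ih =>
        obtain ⟨H₁, h₁, hs⟩ := ih
        obtain ⟨H₂, h₂, hf⟩ := sfn_fix_class L f
        haveI := h₁
        haveI := h₂
        refine ⟨H₁ ⊓ H₂, inferInstance, fun σ hσ g hg => ?_⟩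
        rcases Finset.mem_insert.mp hg with rfl | hg
        · exact hf σ hσ.2
        · exact hs σ hσ.1 g hg
  obtain ⟨H₁, h₁, hF⟩ := k1
  obtain ⟨H₂, h₂, hD⟩ := k2
  obtain ⟨H₃, h₃, hX⟩ := k3
  haveI := h₁
  haveI := h₂
  haveI := h₃
  have hle : (H₁ ⊓ H₂ ⊓ H₃).normalCore ≤ H₁ ⊓ H₂ ⊓ H₃ := Subgroup.normalCore_le _
  refine ⟨(H₁ ⊓ H₂ ⊓ H₃).normalCore, inferInstance, inferInstance, ?_, ?_, ?_⟩
  · exact fun σ hσ f hf => hF σ (hle hσ).1.1 f hf
  · exact fun σ hσ D hD' => hD σ (hle hσ).1.2 D hD'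
  · exact fun σ hσ x hx => hX σ (hle hσ).2 x hx

section Pack

variable (A : ValuationSubring Kbar) (ζ : Kbar) (N : Subgroup (Kbar ≃ₐ[ℚ] Kbar))

/-- `H = N ⊓ I_A ⊓ Fix(ζ)`: the inertia elements of `N` fixing `ζ` -/
def sfnH : Subgroup (Kbar ≃ₐ[ℚ] Kbar) :=
  N ⊓ (A.inertiaSubgroupIn ℚ ⊓ MulAction.stabilizer (Kbar ≃ₐ[ℚ] Kbar) ζ)

theorem mem_sfnH_iff (σ : Kbar ≃ₐ[ℚ] Kbar) :
    σ ∈ sfnH A ζ N ↔ σ ∈ N ∧ σ ∈ A.inertiaSubgroupIn ℚ ∧ σ ζ = ζ := by
  rw [sfnH, Subgroup.mem_inf, Subgroup.mem_inf, MulAction.mem_stabilizer_iff]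
  rfl

theorem sfnH_le : sfnH A ζ N ≤ N := fun σ hσ => ((mem_sfnH_iff A ζ N σ).mp hσ).1

theorem sfnH_le_inertia : sfnH A ζ N ≤ A.inertiaSubgroupIn ℚ :=
  fun σ hσ => ((mem_sfnH_iff A ζ N σ).mp hσ).2.1

theorem sfnH_zeta {σ : Kbar ≃ₐ[ℚ] Kbar} (hσ : σ ∈ sfnH A ζ N) : σ ζ = ζ :=
  ((mem_sfnH_iff A ζ N σ).mp hσ).2.2

/-- the elements of `H` fix every power of `ζ` -/
theorem sfnH_zeta_pow {σ : Kbar ≃ₐ[ℚ] Kbar} (hσ : σ ∈ sfnH A ζ N) (i : ℕ) :
    σ (ζ ^ i) = ζ ^ i := by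
  rw [map_pow, sfnH_zeta A ζ N hσ]

/-- `H` has finite index in the inertia group -/
theorem sfnH_finiteIndex [hN : N.FiniteIndex] :
    ((sfnH A ζ N).subgroupOf (A.inertiaSubgroupIn ℚ)).FiniteIndex := by
  obtain ⟨H, hH, hζ⟩ := sfn_const ζ
  haveI := hH
  haveI h1 : ((N ⊓ H).subgroupOf (A.inertiaSubgroupIn ℚ)).FiniteIndex := inferInstance
  refine @Subgroup.finiteIndex_of_le _ _ _ _ h1 (fun σ hσ => ?_)
  rw [Subgroup.mem_subgroupOf, Subgroup.mem_inf] at hσ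
  rw [Subgroup.mem_subgroupOf, mem_sfnH_iff]
  exact ⟨hσ.1, σ.2, hζ _ hσ.2⟩

/-- the inertia group is normalised by the decomposition group -/
theorem sfn_conj_mem_inertia {τ σ : Kbar ≃ₐ[ℚ] Kbar} (hτ : τ ∈ A.decompositionSubgroup ℚ)
    (hσ : σ ∈ A.inertiaSubgroupIn ℚ) : τ * σ * τ⁻¹ ∈ A.inertiaSubgroupIn ℚ := by
  obtain ⟨g, hg, rfl⟩ := hσ
  refine ⟨(⟨τ, hτ⟩ : A.decompositionSubgroup ℚ) * g * (⟨τ, hτ⟩ : A.decompositionSubgroup ℚ)⁻¹,
    ?_, rfl⟩
  have hn : (A.inertiaSubgroup ℚ).Normal := by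
    unfold ValuationSubring.inertiaSubgroup
    exact MonoidHom.normal_ker _
  exact hn.conj_mem g hg _

/-- **`H` is normalised by the decomposition group**, for `N` normal and `ζ` a primitive root of
unity (no hypothesis on the functions fixed by `N`) -/
theorem sfnH_conj [hN : N.Normal] {n : ℕ} (hn : n ≠ 0) (hζ : IsPrimitiveRoot ζ n)
    {τ σ : Kbar ≃ₐ[ℚ] Kbar} (hτ : τ ∈ A.decompositionSubgroup ℚ) (hσ : σ ∈ sfnH A ζ N) :
    τ * σ * τ⁻¹ ∈ sfnH A ζ N := by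
  obtain ⟨h1, h2, h3⟩ := (mem_sfnH_iff A ζ N σ).mp hσ
  rw [mem_sfnH_iff]
  refine ⟨hN.conj_mem σ h1 τ, sfn_conj_mem_inertia A hτ h2, ?_⟩
  have hτζ : (τ⁻¹ ζ) ^ n = 1 := by rw [← map_pow, hζ.pow_eq_one, map_one]
  haveI : NeZero n := ⟨hn⟩
  obtain ⟨i, -, hi⟩ := hζ.eq_pow_of_pow_eq_one hτζ
  show τ (σ (τ⁻¹ ζ)) = ζ
  rw [← hi, map_pow, h3, hi]
  show τ (τ⁻¹ ζ) = ζ
  rw [← AlgEquiv.mul_apply, mul_inv_cancel, AlgEquiv.one_apply]

/-- the same for the inertia group -/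
theorem sfnH_conj_inertia [hN : N.Normal] {n : ℕ} (hn : n ≠ 0) (hζ : IsPrimitiveRoot ζ n)
    {τ σ : Kbar ≃ₐ[ℚ] Kbar} (hτ : τ ∈ A.inertiaSubgroupIn ℚ) (hσ : σ ∈ sfnH A ζ N) :
    τ * σ * τ⁻¹ ∈ sfnH A ζ N := by
  obtain ⟨g, -, rfl⟩ := hτ
  exact sfnH_conj A ζ N hn hζ g.2 hσ

end Pack

section Main

variable (L : ℕ) [NeZero L]

/-- **the field of rationality can be chosen after the functions**: for finitely many functions,
divisors and classes of level `L` there is a subgroup `H` of the inertia group of `A`, of finite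
index in it, normalised by the decomposition group, fixing `ζ` and all the given data. -/
theorem sfn_main (A : ValuationSubring Kbar) {ζ : Kbar} {n : ℕ} (hn : n ≠ 0)
    (hζ : IsPrimitiveRoot ζ n) (Fs : Finset (FF L)) (Ds : Finset (Divisor Kbar (FF L)))
    (Xs : Finset (JZero L)) :
    ∃ H : Subgroup (Kbar ≃ₐ[ℚ] Kbar), H ≤ A.inertiaSubgroupIn ℚ ∧
      (H.subgroupOf (A.inertiaSubgroupIn ℚ)).FiniteIndex ∧
      (∀ σ ∈ H, σ ζ = ζ) ∧
      (∀ τ ∈ A.decompositionSubgroup ℚ, ∀ σ ∈ H, τ * σ * τ⁻¹ ∈ H) ∧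
      (∀ σ ∈ H, ∀ f ∈ Fs, galFF L σ • f = f) ∧
      (∀ σ ∈ H, ∀ D ∈ Ds, galFF L σ • D = D) ∧
      (∀ σ ∈ H, ∀ x ∈ Xs, σ • x = x) := by
  obtain ⟨N, hNn, hNf, hF, hD, hX⟩ := sfn_fix_finset L Fs Ds Xs
  haveI := hNn
  haveI := hNf
  refine ⟨sfnH A ζ N, sfnH_le_inertia A ζ N, sfnH_finiteIndex A ζ N,
    fun σ hσ => sfnH_zeta A ζ N hσ, fun τ hτ σ hσ => sfnH_conj A ζ N hn hζ hτ hσ,
    fun σ hσ => hF σ (sfnH_le A ζ N hσ), fun σ hσ => hD σ (sfnH_le A ζ N hσ),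
    fun σ hσ => hX σ (sfnH_le A ζ N hσ)⟩

end Main

end Fermat.Agent.S33lib

end
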