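/-
Item 86 (S33), block TOR_p, piece T4: the hypothesis `hstep` of `lvb_core` (LEVB, helper26),
VERBATIM, at the level `M' p` (helper17).  Complete proofs.

`F1 = fixedLBC H (modularFunctionFieldFull (M' * p))` (the `H`-fixed functions), `lam = ϖ`,
`R₁ = R`, `R₂ = inredZero R` (`= glmZero`), `B₁` any subring between `⋃ L(a D₁)` (`= glbB0`,
`= cxiB`) and `glbB`, `D₁ = cuspDiv 1 1`, and `f₁` a Kummer-new function.
-/
import Mathlib
import Fermat.Agent.S33lib.StepKum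

set_option autoImplicit false
set_option linter.style.haveILetI false
set_option linter.unusedSectionVars false
set_option linter.unusedVariables false
set_option synthInstance.maxHeartbeats 400000

noncomputable section

namespace Fermat.Agent.S33lib

open ModularCurve AlgebraicCurve HahnSeries
open Fermat.Agent.S24lib Fermat.Agent.HeckeBar Fermat.Agent.S37lib Fermat.Agent.GoodRed
open Fermat.Agent.S35lib Fermat.Agent.S34lib Fermat.Agent.S36lib Fermat.Agent.RRlib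

variable (M' p : ℕ) [NeZero M'] [NeZero p] [NeZero (M' * p)] (hp : p.Prime) (hpM : ¬ p ∣ M')
variable {A : ValuationSubring Kbar} [ExpChar (IsLocalRing.ResidueField A) p]
variable {Fk : IntermediateField (IsLocalRing.ResidueField A)
  (LaurentSeries (IsLocalRing.ResidueField A))}

/-- **`hstep` of `lvb_core`**, for a Kummer-new function `f₁` at the level `M' p`. -/
theorem stk_hstep [RRBase (IsLocalRing.ResidueField A) (↥Fk)] [RRBase Kbar (FF (M' * p))]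
    (hlt : A.valuation (p : Kbar) < 1) (hA : A.LiesOverPrime p)
    (hk : ∀ c : IsLocalRing.ResidueField A, ∃ d : IsLocalRing.ResidueField A, d ^ p = c)
    (R' : ConstRed A (IsLocalRing.residue A) (↥Fk) (FF M')) (hR' : IsSeriesRed R')
    (R : ConstRed A (IsLocalRing.residue A) (↥Fk) (FF (M' * p))) (hR : IsSeriesRed R)
    {G : Gluing (IsLocalRing.ResidueField A) ((↥Fk) × (↥Fk))} {a₀ : ℕ}
    (hyp : TwistHyp (SSRed.ofPair R
        (inredZero (M' * p) p hp (dvd_mul_left p M') (inf_not_sq_dvd M' p hp hpM) R)) G p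
      (cuspDiv (M' * p) p hp (dvd_mul_left p M') (inf_not_sq_dvd M' p hp hpM) 1 1) a₀)
    (hD₁ : ∀ v, 0 ≤ cuspDiv (M' * p) p hp (dvd_mul_left p M')
      (inf_not_sq_dvd M' p hp hpM) 1 1 v)
    {H : Set (Kbar ≃ₐ[ℚ] Kbar)} {K' : IntermediateField ℚ Kbar}
    (hK' : ∀ c : Kbar, c ∈ K' ↔ ∀ σ ∈ H, σ c = c) (hK0 : k0Field A ≤ K')
    {ϖ : Kbar} (hd : VdDisc A K'.toSubfield ϖ)
    (hdisc₁ : ∀ f ∈ fixedLBC H (modularFunctionFieldFull (M' * p)), f ≠ 0 → ∃ n : ℤ,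
      algebraMap Kbar (FF (M' * p)) (ϖ ^ n) * f ∈ R.O ∧
        (algebraMap Kbar (FF (M' * p)) (ϖ ^ n) * f)⁻¹ ∈ R.O)
    (hdisc₂ : ∀ f ∈ fixedLBC H (modularFunctionFieldFull (M' * p)), f ≠ 0 → ∃ n : ℤ,
      algebraMap Kbar (FF (M' * p)) (ϖ ^ n) * f ∈
          (inredZero (M' * p) p hp (dvd_mul_left p M') (inf_not_sq_dvd M' p hp hpM) R).O ∧
        (algebraMap Kbar (FF (M' * p)) (ϖ ^ n) * f)⁻¹ ∈
          (inredZero (M' * p) p hp (dvd_mul_left p M') (inf_not_sq_dvd M' p hp hpM) R).O)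
    (hdisc' : ∀ f ∈ fixedLBC H (modularFunctionFieldFull M'), f ≠ 0 → ∃ n : ℤ,
      algebraMap Kbar (FF M') (ϖ ^ n) * f ∈ R'.O ∧
        (algebraMap Kbar (FF M') (ϖ ^ n) * f)⁻¹ ∈ R'.O)
    (hres1' : ∀ c : IsLocalRing.ResidueField A, ∃ a : A,
      IsLocalRing.residue A a = c ∧
        algebraMap Kbar (FF M') (a : Kbar) ∈ fixedLBC H (modularFunctionFieldFull M'))
    (e : ℕ) (hpe : ∃ ε ∈ A, (p : Kbar) = ϖ ^ e * ε)
    (B₁ : Subring (FF (M' * p)))
    (hB₁L : ∀ (a : ℕ) (x : FF (M' * p)), x ∈ riemannRochSpace (K := Kbar)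
      (a • cuspDiv (M' * p) p hp (dvd_mul_left p M') (inf_not_sq_dvd M' p hp hpM) 1 1) → x ∈ B₁)
    (hB₁B : ∀ x ∈ B₁, x ∈ glbB (SSRed.ofPair R
        (inredZero (M' * p) p hp (dvd_mul_left p M') (inf_not_sq_dvd M' p hp hpM) R))
      (cuspDiv (M' * p) p hp (dvd_mul_left p M') (inf_not_sq_dvd M' p hp hpM) 1 1) hD₁)
    (f₁ : FF (M' * p)) (hnew : IsKummerNew M' p p f₁) :
    ∀ (i : ℕ) (c : Kbar) (w g : FF (M' * p)), 1 ≤ i → p ∣ i → (p - 1) * i < p * e →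
      c ≠ 0 → algebraMap Kbar (FF (M' * p)) c ∈ fixedLBC H (modularFunctionFieldFull (M' * p)) →
      w ∈ fixedLBC H (modularFunctionFieldFull (M' * p)) → w ∈ B₁ →
      w - 1 ∈ R.O.nonunits →
      w - 1 ∈ (inredZero (M' * p) p hp (dvd_mul_left p M')
        (inf_not_sq_dvd M' p hp hpM) R).O.nonunits →
      g ∈ fixedLBC H (modularFunctionFieldFull (M' * p)) → g ∈ B₁ →
      ∀ (h1 : g ∈ R.O)
        (h2 : g ∈ (inredZero (M' * p) p hp (dvd_mul_left p M')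
          (inf_not_sq_dvd M' p hp hpM) R).O),
      f₁ * w ^ p = algebraMap Kbar (FF (M' * p)) c
        * (1 + algebraMap Kbar (FF (M' * p)) (ϖ ^ i) * g) →
      ∃ (Ψ : FF (M' * p)) (κ : IsLocalRing.ResidueField A) (k1 : Ψ ∈ R.O)
        (k2 : Ψ ∈ (inredZero (M' * p) p hp (dvd_mul_left p M')
          (inf_not_sq_dvd M' p hp hpM) R).O),
        Ψ ∈ fixedLBC H (modularFunctionFieldFull (M' * p)) ∧ Ψ ∈ B₁ ∧
        R.red ⟨g, h1⟩ = R.red ⟨Ψ, k1⟩ ^ p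
          + algebraMap (IsLocalRing.ResidueField A) (↥Fk) κ ∧
        (inredZero (M' * p) p hp (dvd_mul_left p M')
            (inf_not_sq_dvd M' p hp hpM) R).red ⟨g, h2⟩
          = (inredZero (M' * p) p hp (dvd_mul_left p M')
              (inf_not_sq_dvd M' p hp hpM) R).red ⟨Ψ, k2⟩ ^ p
            + algebraMap (IsLocalRing.ResidueField A) (↥Fk) κ := by
  intro i c w g hi _ hie hc _ _ _ _ _ hgF hgB h1 h2 hfw
  obtain ⟨a', Ψ, hΨ₁, hΨ₂, κ, -, hΨL, hΨH, e₁, e₂⟩ :=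
    stk_step M' p hp hpM hlt hA hk R' hR' R hR hyp hD₁ hK' hK0 hd hdisc₁ hdisc₂ hdisc' hres1'
      hi hpe hie f₁ w hnew c hc g h1 h2 hgF (hB₁B g hgB) hfw
  exact ⟨Ψ, κ, hΨ₁, hΨ₂, hΨH, hB₁L a' Ψ hΨL, e₁, e₂⟩

end Fermat.Agent.S33lib

end
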