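/-
Item 86 (S33), block TOR_p, piece T4: `hstep` of `lvb_core` with (DISC), (RES1) DISCHARGED
(helper17).  Complete proofs.

`stk_hstep_conc` = `stk_hstep` (`StepHyp.lean`) where
* (DISC) at the level `M' p` for `R` and for `R₀ = inredZero R` and at the level `M'` for `R'` come
  from `lvd_disc`, `lvd_disc_comap` (LevDisc, helper21/helper15) — the Atkin–Lehner involution
  commutes with the Galois action (`inred_al_comm`);
* (RES1) at the level `M'` comes from `lvd_res`;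
* `v(p) < 1` comes from `A ∣ p`.
Remaining hypotheses: the gluing package `hyp` (`glbc_exists_cusp`, helper22), the field of
rationality `K' = ℚ̄^H ⊇ K0` with its uniformiser (`hK'`, `hK0`, `hd`: `lvv_*`, helper15),
`H ⊆` inertia, `k` perfect, `p ∈ ϖ^e A`, and `f₁` Kummer-new.
-/
import Mathlib
import Fermat.Agent.S33lib.StepHyp
import Fermat.Agent.S33lib.LevDisc

set_option autoImplicit false
set_option linter.style.haveILetI false
set_option linter.unusedSectionVars false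
set_option linter.unusedVariables false
set_option synthInstance.maxHeartbeats 400000

noncomputable section

namespace Fermat.Agent.S33lib

open ModularCurve AlgebraicCurve HahnSeries
open Fermat.Agent.S24lib Fermat.Agent.HeckeBar Fermat.Agent.S37lib Fermat.Agent.GoodRed
open Fermat.Agent.S35lib Fermat.Agent.S34lib Fermat.Agent.S36lib Fermat.Agent.RRlib

section Disc

variable {A : ValuationSubring Kbar} {H : Set (Kbar ≃ₐ[ℚ] Kbar)}
  {K' : IntermediateField ℚ Kbar} {ϖ : Kbar}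
variable {Fk : IntermediateField (IsLocalRing.ResidueField A)
  (LaurentSeries (IsLocalRing.ResidueField A))}

/-- the Atkin–Lehner involution preserves the `H`-fixed functions -/
theorem stk_al_fixed (N q : ℕ) [NeZero N] (hq : q.Prime) (hqN : q ∣ N) (hq2 : ¬ q ^ 2 ∣ N)
    (x : FF N) (hx : x ∈ fixedLBC H (modularFunctionFieldFull N)) :
    atkinLehnerFF N q hq hqN hq2 x ∈ fixedLBC H (modularFunctionFieldFull N) := by
  intro σ hσ
  rw [← inred_al_comm, hx σ hσ]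

/-- **(DISC) at the second valuation** `R₀ = inredZero R`, for the `H`-fixed functions -/
theorem stk_disc_zero (N q : ℕ) [NeZero N] (hq : q.Prime) (hqN : q ∣ N) (hq2 : ¬ q ^ 2 ∣ N)
    (hK' : ∀ c : Kbar, c ∈ K' ↔ ∀ σ ∈ H, σ c = c) (hK0 : k0Field A ≤ K')
    (hd : VdDisc A K'.toSubfield ϖ)
    {R : ConstRed A (IsLocalRing.residue A) (↥Fk) (FF N)} (hR : IsSeriesRed R) :
    ∀ f ∈ fixedLBC H (modularFunctionFieldFull N), f ≠ 0 → ∃ n : ℤ,
      algebraMap Kbar (FF N) (ϖ ^ n) * f ∈ (inredZero N q hq hqN hq2 R).O ∧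
        (algebraMap Kbar (FF N) (ϖ ^ n) * f)⁻¹ ∈ (inredZero N q hq hqN hq2 R).O :=
  fun f hf hf0 => lvd_disc_comap hK' hK0 hd hR (atkinLehnerFF N q hq hqN hq2)
    (stk_al_fixed N q hq hqN hq2) hf hf0

end Disc

variable (M' p : ℕ) [NeZero M'] [NeZero p] [NeZero (M' * p)] (hp : p.Prime) (hpM : ¬ p ∣ M')
variable {A : ValuationSubring Kbar} [ExpChar (IsLocalRing.ResidueField A) p]
variable {Fk : IntermediateField (IsLocalRing.ResidueField A)
  (LaurentSeries (IsLocalRing.ResidueField A))}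

/-- **`hstep` of `lvb_core`, (DISC) and (RES1) discharged.** -/
theorem stk_hstep_conc [RRBase (IsLocalRing.ResidueField A) (↥Fk)] [RRBase Kbar (FF (M' * p))]
    (hA : A.LiesOverPrime p)
    (hk : ∀ c : IsLocalRing.ResidueField A, ∃ d : IsLocalRing.ResidueField A, d ^ p = c)
    (R' : ConstRed A (IsLocalRing.residue A) (↥Fk) (FF M')) (hR' : IsSeriesRed R')
    (R : ConstRed A (IsLocalRing.residue A) (↥Fk) (FF (M' * p))) (hR : IsSeriesRed R)
    {G : Gluing (IsLocalRing.ResidueField A) ((↥Fk) × (↥Fk))} {a₀ : ℕ}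
    (hyp : TwistHyp (SSRed.ofPair R
        (inredZero (M' * p) p hp (dvd_mul_left p M') (inf_not_sq_dvd M' p hp hpM) R)) G p
      (cuspDiv (M' * p) p hp (dvd_mul_left p M') (inf_not_sq_dvd M' p hp hpM) 1 1) a₀)
    (hD₁ : ∀ v, 0 ≤ cuspDiv (M' * p) p hp (dvd_mul_left p M')
      (inf_not_sq_dvd M' p hp hpM) 1 1 v)
    {H : Set (Kbar ≃ₐ[ℚ] Kbar)} (hHI : ∀ σ ∈ H, σ ∈ A.inertiaSubgroupIn ℚ)
    {K' : IntermediateField ℚ Kbar}
    (hK' : ∀ c : Kbar, c ∈ K' ↔ ∀ σ ∈ H, σ c = c) (hK0 : k0Field A ≤ K')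
    {ϖ : Kbar} (hd : VdDisc A K'.toSubfield ϖ)
    (e : ℕ) (hpe : ∃ ε ∈ A, (p : Kbar) = ϖ ^ e * ε)
    (B₁ : Subring (FF (M' * p)))
    (hB₁L : ∀ (a : ℕ) (x : FF (M' * p)), x ∈ riemannRochSpace (K := Kbar)
      (a • cuspDiv (M' * p) p hp (dvd_mul_left p M') (inf_not_sq_dvd M' p hp hpM) 1 1) → x ∈ B₁)
    (hB₁B : ∀ x ∈ B₁, x ∈ glbB (SSRed.ofPair R
        (inredZero (M' * p) p hp (dvd_mul_left p M') (inf_not_sq_dvd M' p hp hpM) R))
      (cuspDiv (M' * p) p hp (dvd_mul_left p M') (inf_not_sq_dvd M' p hp hpM) 1 1) hD₁)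
    (f₁ : FF (M' * p)) (hnew : IsKummerNew M' p p f₁) :
    ∀ (i : ℕ) (c : Kbar) (w g : FF (M' * p)), 1 ≤ i → p ∣ i → (p - 1) * i < p * e →
      c ≠ 0 → algebraMap Kbar (FF (M' * p)) c ∈ fixedLBC H (modularFunctionFieldFull (M' * p)) →
      w ∈ fixedLBC H (modularFunctionFieldFull (M' * p)) → w ∈ B₁ →
      w - 1 ∈ R.O.nonunits →
      w - 1 ∈ (inredZero (M' * p) p hp (dvd_mul_left p M')
        (inf_not_sq_dvd M' p hp hpM) R).O.nonunits →
      g ∈ fixedLBC H (modularFunctionFieldFull (M' * p)) → g ∈ B₁ →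
      ∀ (h1 : g ∈ R.O)
        (h2 : g ∈ (inredZero (M' * p) p hp (dvd_mul_left p M')
          (inf_not_sq_dvd M' p hp hpM) R).O),
      f₁ * w ^ p = algebraMap Kbar (FF (M' * p)) c
        * (1 + algebraMap Kbar (FF (M' * p)) (ϖ ^ i) * g) →
      ∃ (Ψ : FF (M' * p)) (κ : IsLocalRing.ResidueField A) (k1 : Ψ ∈ R.O)
        (k2 : Ψ ∈ (inredZero (M' * p) p hp (dvd_mul_left p M')
          (inf_not_sq_dvd M' p hp hpM) R).O),
        Ψ ∈ fixedLBC H (modularFunctionFieldFull (M' * p)) ∧ Ψ ∈ B₁ ∧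
        R.red ⟨g, h1⟩ = R.red ⟨Ψ, k1⟩ ^ p
          + algebraMap (IsLocalRing.ResidueField A) (↥Fk) κ ∧
        (inredZero (M' * p) p hp (dvd_mul_left p M')
            (inf_not_sq_dvd M' p hp hpM) R).red ⟨g, h2⟩
          = (inredZero (M' * p) p hp (dvd_mul_left p M')
              (inf_not_sq_dvd M' p hp hpM) R).red ⟨Ψ, k2⟩ ^ p
            + algebraMap (IsLocalRing.ResidueField A) (↥Fk) κ :=
  stk_hstep M' p hp hpM (A.mem_nonunits_iff.mp hA) hA hk R' hR' R hR hyp hD₁ hK' hK0 hd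
    (fun f hf hf0 => lvd_disc hK' hK0 hd hR hf hf0)
    (stk_disc_zero (M' * p) p hp (dvd_mul_left p M') (inf_not_sq_dvd M' p hp hpM) hK' hK0 hd hR)
    (fun f hf hf0 => lvd_disc hK' hK0 hd hR' hf hf0)
    (fun c => by
      obtain ⟨a, ha, -, hfix⟩ := lvd_res (L := M') hp hA hHI c
      exact ⟨a, ha, hfix⟩)
    e hpe B₁ hB₁L hB₁B f₁ hnew

end Fermat.Agent.S33lib

end
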