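import Mathlib
import Fermat.Agent.GoodRed.Polar
import Fermat.Agent.GoodRed.Wiring
import Fermat.Agent.GoodRed.DescUni

/-!
# Item 86 (S33), REG2 (helper14): Artin–Schreier equations have only constant solutions

`asc_hk` : in a function field `Fk / k` (`RRBase k Fk`), a solution `z` of
`z ^ p + β z = κ` (`β, κ ∈ k`, `1 < p`) is a constant.  This is the hypothesis `hk` of
`cxp_principal` (CruxPApp) and of `rg2_tau_principal_good`, `rg2_tau_pic0_good` (RegimeTwo).
-/

set_option autoImplicit false

namespace Fermat.Agent.S33lib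

open AlgebraicCurve Fermat.Agent.RRlib Fermat.Agent.GoodRed

variable {k Fk : Type*} [Field k] [Field Fk] [Algebra k Fk]

/-- a constant has order `0` at every place -/
theorem asc_ord_const (v : Place k Fk) (c : k) : v.ord (algebraMap k Fk c) = 0 := by
  rcases eq_or_ne c 0 with rfl | hc
  · rw [map_zero, Place.ord_zero]
  · exact wir_ord_algebraMap v hc

/-- a solution of `z ^ p + β z = κ` has no pole -/
theorem asc_ord_nonneg {p : ℕ} (hp : 1 < p) (z : Fk) (β κ : k)
    (h : z ^ p + algebraMap k Fk β * z = algebraMap k Fk κ) (v : Place k Fk) :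
    0 ≤ v.ord z := by
  by_contra hneg
  rw [not_le] at hneg
  have hz : z ≠ 0 := by
    rintro rfl
    rw [Place.ord_zero] at hneg
    exact lt_irrefl _ hneg
  have hzp : z ^ p ≠ 0 := pow_ne_zero _ hz
  have hordp : v.ord (z ^ p) = (p : ℤ) * v.ord z := du_ord_pow v z p
  have hp' : (2 : ℤ) ≤ (p : ℤ) := by exact_mod_cast hp
  have hlt0 : (p : ℤ) * v.ord z < 0 := by nlinarith
  have hκ := asc_ord_const v κ
  rcases eq_or_ne β 0 with rfl | hβ
  · rw [map_zero, zero_mul, add_zero] at h
    rw [h, hκ] at hordp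
    rw [← hordp] at hlt0
    exact lt_irrefl _ hlt0
  · have hβz : algebraMap k Fk β * z ≠ 0 := mul_ne_zero ((map_ne_zero _).mpr hβ) hz
    have hordβ : v.ord (algebraMap k Fk β * z) = v.ord z := by
      rw [Place.ord_mul _ ((map_ne_zero _).mpr hβ) hz, wir_ord_algebraMap v hβ, zero_add]
    have hlt : v.ord (z ^ p) < v.ord (algebraMap k Fk β * z) := by
      rw [hordp, hordβ]
      nlinarith
    have hsum := pol_ord_add_of_lt hzp hβz hlt
    rw [h, hκ, hordp] at hsum
    rw [← hsum] at hlt0
    exact lt_irrefl _ hlt0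

/-- **Artin–Schreier equations have only constant solutions** (the hypothesis `hk` of the crux
in regime III). -/
theorem asc_hk [RRBase k Fk] {p : ℕ} (hp : 1 < p) :
    ∀ (z : Fk) (β κ : k), z ^ p + algebraMap k Fk β * z = algebraMap k Fk κ →
      z ∈ Set.range (algebraMap k Fk) :=
  fun z β κ h =>
    RRBase.const_of_forall_ord_nonneg (K := k) z (fun v => asc_ord_nonneg hp z β κ h v)

end Fermat.Agent.S33lib
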