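/-
Item 86 (S33), block TOR_p, statement (REG2) at the level `N = M' p`, CONCRETE (helper8, on the
draft of helper28).  Complete proofs.

The modular curve of the auxiliary level `N = M' p` (`IsAuxLevel p M'`), `A` a valuation ring
of `ℚ̄` over `p`, `R` a series reduction of `F_N` (the `∞`-component), `R₀ = glmZero M' p .. R`
(the `0`-component), `∞_N`, `0_N` the two cusps, `ζ` a primitive `p`-th root of unity.

* `r2n_glue`  : the gluing package of `S34lib/GlueMod.glueMod` at `q = p`;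
* `r2n_conc`  : a class `x = [D]` with a Kummer function `c · s ^ p · (1 + (ζ - 1) ^ p f)`,
  `f ∈ O_R ∩ O_{R₀}` regular outside the two cusps: every `τ` of the inertia group of `A` acts
  on `x` by the mod `p` cyclotomic character;
* `r2n_fixed` : if moreover `τ₀` moves `μ_p` and `τ₀ • x = x`, then `x = 0`  (the END of TOR_p).
-/
import Mathlib
import Fermat.Agent.S34lib.ApplyMain
import Fermat.Agent.S34lib.InertiaRedAL
import Fermat.Agent.S34lib.GalRR
import Fermat.Agent.S33lib.RegimeTwoN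
import Fermat.Agent.S33lib.ASConst
import Fermat.Agent.S33lib.CycSpec
import Fermat.Agent.S33lib.RayPow
import Fermat.Agent.S36lib.ZetaIndep
import Fermat.Agent.S36lib.K0Unram

set_option autoImplicit false
set_option linter.style.haveILetI false
set_option linter.unusedVariables false
set_option linter.unusedSectionVars false
set_option synthInstance.maxHeartbeats 400000

noncomputable section

namespace Fermat.Agent.S33lib

open AlgebraicCurve ModularCurve HahnSeries
open Fermat.Agent.RRlib Fermat.Agent.GoodRed Fermat.Agent.S34lib Fermat.Agent.S18lib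
  Fermat.Agent.S24lib Fermat.Agent.S36lib Fermat.Agent.GalRep Fermat.Agent.S31lib
  Fermat.Agent.GM

section

variable (M' p : ℕ) [NeZero M'] [NeZero p] [NeZero (M' * p)] (hp : p.Prime) (hpM : ¬ p ∣ M')
variable {A : ValuationSubring Kbar}

set_option maxHeartbeats 2000000 in
/-- the gluing package at the auxiliary level `M' p` (`glueMod` at `q = p`) -/
theorem r2n_glue [RRHyp Kbar (FF (M' * p))]
    [RRHyp (IsLocalRing.ResidueField A)
      (↥(modularFunctionFieldFullC (IsLocalRing.ResidueField A) M'))]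
    (haux : IsAuxLevel p M') (hA : A.LiesOverPrime p)
    {R : ConstRed A (IsLocalRing.residue A)
      (↥(modularFunctionFieldFullC (IsLocalRing.ResidueField A) M')) (FF (M' * p))}
    (hR : IsSeriesRed R) :
    ∃ (X : GlueData R (glmZero M' p hp hpM R) (infPlaceBar (M' * p))
        (cuspZero (M' * p) p hp (dvd_mul_left p M') (inf_not_sq_dvd M' p hp hpM))
        (infPlaceC (IsLocalRing.ResidueField A) M')) (a₀ : ℕ),
      F3dEX R (glmZero M' p hp hpM R) (infPlaceBar (M' * p))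
        (cuspZero (M' * p) p hp (dvd_mul_left p M') (inf_not_sq_dvd M' p hp hpM))
        (infPlaceC (IsLocalRing.ResidueField A) M')
        (infPlaceC (IsLocalRing.ResidueField A) M') a₀ ∧ 0 < X.n := by
  haveI : Fact p.Prime := ⟨hp⟩
  haveI : CharP (IsLocalRing.ResidueField A) p := charP_residueField hA
  haveI : IsAlgClosed (IsLocalRing.ResidueField A) := isAlgClosed_residueField A
  haveI : Infinite (IsLocalRing.ResidueField A) := IsAlgClosed.instInfinite
  haveI : RRHyp Kbar (FF M') := mod_rrHyp M'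
  have hfrac' : HasPrimFrac A (modularFunctionFieldBar M') := vri_hfrac M' p hp A hA
  obtain ⟨R', r, hR', -, -, hgen⟩ := liftInf_exists_red M' A p haux hA
  have Hex := am_exInput M' p hp hpM haux hA hR' hR hfrac'
  have hO := vk_O_ne M' p hp hpM hR hA
  have hlift : ∀ a : affRing (infPlaceC (IsLocalRing.ResidueField A) M'),
      ∃ (g : FF M') (hg : g ∈ R'.O),
        (∀ v' : Place Kbar (FF M'), v' ≠ infPlaceBar M' → 0 ≤ v'.ord g) ∧
          R'.red ⟨g, hg⟩ =
            (a : ↥(modularFunctionFieldFullC (IsLocalRing.ResidueField A) M')) := by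
    intro a
    obtain ⟨c, hc⟩ := (glm_hB M' _).mp a.2
    obtain ⟨x, hx, hred⟩ := liftInf_lift p haux hA hR' (c : ℤ) _ hc
    exact ⟨x, x.2, mem_affRing_iff.mp (affRing_of_mem_rr hx), hred⟩
  obtain ⟨X, a₀, a₁, -, H, -, -, hn, -⟩ := glueMod M' p hp hpM hA
    (φ := (affFrobFk (IsLocalRing.ResidueField A) p M').toRingHom) (fun x => rfl) Hex hO
    (affRing_residue_surjective _) hlift hgen.le Nat.one_pos
  exact ⟨X, a₀, H, hn⟩

set_option maxHeartbeats 2000000 in
/-- **(REG2) at the level `N = M' p`**: on the classes with a Kummer function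
`c · s ^ p · (1 + (ζ - 1) ^ p f)`, `f ∈ O_R ∩ O_{R₀}` regular outside the two cusps, the
inertia group at `p` acts by the mod `p` cyclotomic character. -/
theorem r2n_conc [RRHyp Kbar (FF (M' * p))] [Fact p.Prime]
    (haux : IsAuxLevel p M') (hA : A.LiesOverPrime p)
    {ζ : Kbar} (hζ : IsPrimitiveRoot ζ p)
    {R : ConstRed A (IsLocalRing.residue A)
      (↥(modularFunctionFieldFullC (IsLocalRing.ResidueField A) M')) (FF (M' * p))}
    (hR : IsSeriesRed R)
    (τ : Kbar ≃ₐ[ℚ] Kbar) (hτ : τ ∈ A.inertiaSubgroupIn ℚ)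
    (c : Kbar) (hc : c ≠ 0) (s : FF (M' * p)) (hs : s ≠ 0) (f : FF (M' * p))
    (hfB : f ∈ cxiB (infPlaceBar (M' * p))
      (cuspZero (M' * p) p hp (dvd_mul_left p M') (inf_not_sq_dvd M' p hp hpM)))
    (hf₁ : f ∈ R.O) (hf₂ : f ∈ (glmZero M' p hp hpM R).O)
    (D : Divisor.degZero (K := Kbar) (F := FF (M' * p)))
    (hD : p • (D : Divisor Kbar (FF (M' * p))) = divOf (K := Kbar)
      (algebraMap Kbar (FF (M' * p)) c * s ^ p *
        (1 + algebraMap Kbar (FF (M' * p)) ((ζ - 1) ^ p) * f))) :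
    galFF (M' * p) τ • Pic0.mk D
      = (((cycChi p 1 τ : (ZMod (p ^ 1))ˣ) : ZMod (p ^ 1)).val) • Pic0.mk D := by
  haveI : IsAlgClosed (IsLocalRing.ResidueField A) := isAlgClosed_residueField A
  haveI : Infinite (IsLocalRing.ResidueField A) := IsAlgClosed.instInfinite
  haveI : RRHyp (IsLocalRing.ResidueField A)
      (↥(modularFunctionFieldFullC (IsLocalRing.ResidueField A) M')) :=
    mr_rrHyp (IsLocalRing.ResidueField A) M'
  obtain ⟨X, a₀, H, hn⟩ := r2n_glue M' p hp hpM haux hA hR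
  have hvq : A.valuation ((p : ℕ) : Kbar) < 1 := k0_val_q_lt_one A p hA
  have hlam0 : ζ - 1 ≠ 0 := zi_zeta_sub_one_ne_zero hp hζ
  have hlam : ζ - 1 ∈ A.nonunits := zi_val_zeta_sub_one_lt_one A.valuation hp hvq hζ
  have hζA : ζ ∈ A := cyclo_mem_of_pow_eq_one A hp.ne_zero hζ.pow_eq_one
  have hplam := rpw_p_eq hp hζ A hζA
  have hfrac : HasPrimFrac A (modularFunctionFieldBar (M' * p)) := vri_hfrac (M' * p) p hp A hA
  have hg₁ : IsInertial R (galFF (M' * p) τ) := inred_isInertial_inf (M' * p) hR hfrac τ hτ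
  have hg₂ : IsInertial (glmZero M' p hp hpM R) (galFF (M' * p) τ) :=
    inred_isInertial_zero (M' * p) p hp (dvd_mul_left p M') (inf_not_sq_dvd M' p hp hpM) hR hfrac
      τ hτ
  have he : SemilinearAut.baseAut (galFF (M' * p) τ) (1 + (ζ - 1))
      = (1 + (ζ - 1)) ^ (((cycChi p 1 τ : (ZMod (p ^ 1))ˣ) : ZMod (p ^ 1)).val) := by
    rw [add_sub_cancel, baseAut_arithmeticGalois]
    exact cysp_spec p 1 τ ζ (by rw [pow_one]; exact hζ.pow_eq_one)
  exact rg2n_tau_pic0 X H hp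
    (ac_infPlaceBar_ne_cuspZero hp (dvd_mul_left p M') (inf_not_sq_dvd M' p hp hpM)) hn
    (asc_hk hp.one_lt) hlam0 hlam hplam (galFF_smul_infPlaceBar (M' * p) τ)
    (galFF_smul_cuspZero (M' * p) p hp (dvd_mul_left p M') (inf_not_sq_dvd M' p hp hpM) τ)
    hg₁ hg₂ _ he c hc s hs f hfB hf₁ hf₂ D hD

set_option maxHeartbeats 2000000 in
/-- **(REG2) at the level `N`, the form used in the assembly (END of TOR_p)**: a class with a
Kummer function `c · s ^ p · (1 + (ζ - 1) ^ p f)`, `f ∈ O_R ∩ O_{R₀}` regular outside the cusps,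
fixed by an inertia element which moves `μ_p`, is zero. -/
theorem r2n_fixed [RRHyp Kbar (FF (M' * p))] [Fact p.Prime]
    (haux : IsAuxLevel p M') (hA : A.LiesOverPrime p)
    {ζ : Kbar} (hζ : IsPrimitiveRoot ζ p)
    {R : ConstRed A (IsLocalRing.residue A)
      (↥(modularFunctionFieldFullC (IsLocalRing.ResidueField A) M')) (FF (M' * p))}
    (hR : IsSeriesRed R)
    (τ₀ : Kbar ≃ₐ[ℚ] Kbar) (hτ₀ : τ₀ ∈ A.inertiaSubgroupIn ℚ) (hmv : S33hMoves p τ₀)
    (c : Kbar) (hc : c ≠ 0) (s : FF (M' * p)) (hs : s ≠ 0) (f : FF (M' * p))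
    (hfB : f ∈ cxiB (infPlaceBar (M' * p))
      (cuspZero (M' * p) p hp (dvd_mul_left p M') (inf_not_sq_dvd M' p hp hpM)))
    (hf₁ : f ∈ R.O) (hf₂ : f ∈ (glmZero M' p hp hpM R).O)
    (D : Divisor.degZero (K := Kbar) (F := FF (M' * p)))
    (hD : p • (D : Divisor Kbar (FF (M' * p))) = divOf (K := Kbar)
      (algebraMap Kbar (FF (M' * p)) c * s ^ p *
        (1 + algebraMap Kbar (FF (M' * p)) ((ζ - 1) ^ p) * f)))
    (hfix : galFF (M' * p) τ₀ • Pic0.mk D = Pic0.mk D) :
    (Pic0.mk D : Pic0 Kbar (FF (M' * p))) = 0 := by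
  have h1 := r2n_conc M' p hp hpM haux hA hζ hR τ₀ hτ₀ c hc s hs f hfB hf₁ hf₂ D hD
  rw [hfix] at h1
  -- `p • x = 0`
  have hprin : p • (D : Divisor Kbar (FF (M' * p))) ∈
      Divisor.principal (K := Kbar) (F := FF (M' * p)) := by
    rw [hD]
    by_cases hu : algebraMap Kbar (FF (M' * p)) c * s ^ p *
        (1 + algebraMap Kbar (FF (M' * p)) ((ζ - 1) ^ p) * f) = 0
    · rw [hu]
      have : divOf (K := Kbar) (0 : FF (M' * p)) = 0 := by simp [divOf]
      rw [this]
      exact zero_mem _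
    · exact rg2_divOf_mem_principal hu
  have hpx : p • (Pic0.mk D : Pic0 Kbar (FF (M' * p))) = 0 := by
    have h2 : p • (Pic0.mk D : Pic0 Kbar (FF (M' * p))) = Pic0.mk (p • D) := rfl
    rw [h2]
    apply (QuotientAddGroup.eq_zero_iff _).mpr
    rw [AddSubgroup.mem_addSubgroupOf]
    simpa using hprin
  set x : Pic0 Kbar (FF (M' * p)) := Pic0.mk D with hx
  set e : ℕ := ((cycChi p 1 τ₀ : (ZMod (p ^ 1))ˣ) : ZMod (p ^ 1)).val with he
  haveI : NeZero (p ^ 1) := ⟨pow_ne_zero _ hp.ne_zero⟩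
  haveI : Fact (1 < p ^ 1) := ⟨by rw [pow_one]; exact hp.one_lt⟩
  have helt : e < p := by
    exact lt_of_lt_of_eq (ZMod.val_lt ((cycChi p 1 τ₀ : (ZMod (p ^ 1))ˣ) : ZMod (p ^ 1)))
      (pow_one p)
  -- `e ≠ 1`
  have hu := cysp_isUnit_sub_one p τ₀ hmv
  have h2 : ((e : ℕ) : ZMod (p ^ 1)) = ((cycChi p 1 τ₀ : (ZMod (p ^ 1))ˣ) : ZMod (p ^ 1)) := by
    rw [he]
    exact ZMod.natCast_zmod_val _
  have hne1 : e ≠ 1 := by
    intro h1e
    apply hu.ne_zero
    rw [← h2, h1e, Nat.cast_one, sub_self]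
  by_contra hx0
  have hord : addOrderOf x = p := addOrderOf_eq_prime hpx hx0
  rcases Nat.eq_zero_or_pos e with h0 | hpos
  · rw [h0, zero_nsmul] at h1
    exact hx0 h1
  · have h3 : (e - 1) • x = 0 := by
      have h4 : (e - 1) • x + x = x := by
        have h5 : (e - 1 + 1) • x = x := by
          rw [Nat.sub_add_cancel hpos]
          exact h1.symm
        rwa [add_nsmul, one_nsmul] at h5
      exact add_eq_right.mp h4
    have h6 : p ∣ e - 1 := by
      rw [← hord]
      exact addOrderOf_dvd_of_nsmul_eq_zero h3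
    have h7 : e - 1 = 0 := Nat.eq_zero_of_dvd_of_lt h6 (by omega)
    omega

set_option maxHeartbeats 2000000 in
/-- `r2n_conc` for a class of `J₀(N)` with the Galois action of `J₀(N)` -/
theorem r2n_conc_J [RRHyp Kbar (FF (M' * p))] [Fact p.Prime]
    (haux : IsAuxLevel p M') (hA : A.LiesOverPrime p)
    {ζ : Kbar} (hζ : IsPrimitiveRoot ζ p)
    {R : ConstRed A (IsLocalRing.residue A)
      (↥(modularFunctionFieldFullC (IsLocalRing.ResidueField A) M')) (FF (M' * p))}
    (hR : IsSeriesRed R)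
    (τ : Kbar ≃ₐ[ℚ] Kbar) (hτ : τ ∈ A.inertiaSubgroupIn ℚ)
    (c : Kbar) (hc : c ≠ 0) (s : FF (M' * p)) (hs : s ≠ 0) (f : FF (M' * p))
    (hfB : f ∈ cxiB (infPlaceBar (M' * p))
      (cuspZero (M' * p) p hp (dvd_mul_left p M') (inf_not_sq_dvd M' p hp hpM)))
    (hf₁ : f ∈ R.O) (hf₂ : f ∈ (glmZero M' p hp hpM R).O)
    (D : Divisor.degZero (K := Kbar) (F := FF (M' * p)))
    (hD : p • (D : Divisor Kbar (FF (M' * p))) = divOf (K := Kbar)
      (algebraMap Kbar (FF (M' * p)) c * s ^ p *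
        (1 + algebraMap Kbar (FF (M' * p)) ((ζ - 1) ^ p) * f)))
    {x : JZero (M' * p)} (hx : Pic0.mk D = x) :
    τ • x = (((cycChi p 1 τ : (ZMod (p ^ 1))ˣ) : ZMod (p ^ 1)).val) • x := by
  subst hx
  exact r2n_conc M' p hp hpM haux hA hζ hR τ hτ c hc s hs f hfB hf₁ hf₂ D hD

set_option maxHeartbeats 2000000 in
/-- `r2n_fixed` for a class of `J₀(N)` with the Galois action of `J₀(N)` -/
theorem r2n_fixed_J [RRHyp Kbar (FF (M' * p))] [Fact p.Prime]
    (haux : IsAuxLevel p M') (hA : A.LiesOverPrime p)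
    {ζ : Kbar} (hζ : IsPrimitiveRoot ζ p)
    {R : ConstRed A (IsLocalRing.residue A)
      (↥(modularFunctionFieldFullC (IsLocalRing.ResidueField A) M')) (FF (M' * p))}
    (hR : IsSeriesRed R)
    (τ₀ : Kbar ≃ₐ[ℚ] Kbar) (hτ₀ : τ₀ ∈ A.inertiaSubgroupIn ℚ) (hmv : S33hMoves p τ₀)
    (c : Kbar) (hc : c ≠ 0) (s : FF (M' * p)) (hs : s ≠ 0) (f : FF (M' * p))
    (hfB : f ∈ cxiB (infPlaceBar (M' * p))
      (cuspZero (M' * p) p hp (dvd_mul_left p M') (inf_not_sq_dvd M' p hp hpM)))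
    (hf₁ : f ∈ R.O) (hf₂ : f ∈ (glmZero M' p hp hpM R).O)
    (D : Divisor.degZero (K := Kbar) (F := FF (M' * p)))
    (hD : p • (D : Divisor Kbar (FF (M' * p))) = divOf (K := Kbar)
      (algebraMap Kbar (FF (M' * p)) c * s ^ p *
        (1 + algebraMap Kbar (FF (M' * p)) ((ζ - 1) ^ p) * f)))
    {x : JZero (M' * p)} (hx : Pic0.mk D = x) (hfix : τ₀ • x = x) : x = 0 := by
  subst hx
  exact r2n_fixed M' p hp hpM haux hA hζ hR τ₀ hτ₀ hmv c hc s hs f hfB hf₁ hf₂ D hD hfix

end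

end Fermat.Agent.S33lib

end
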