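import Mathlib
import Fermat.Agent.S33lib.Hub

/-!
# Item 86 (S33), block (TOR_p): the Kummer form of (TOR_p) (helper13; definitions only)

`TasTorK L p`: the statement (TOR_p) at the level `L p` in KUMMER form: a function `u ≠ 0` of level
`L p` with `div u = p D`, whose class `[D]` lies in `s33hKI` and is fixed by an inertia element
moving `μ_p`, and which is Kummer-new (both norms to the level `L` are constants times `p`-th
powers), is a constant times a `p`-th power.

The Kummer form descends from the auxiliary level (`S18lib.exists_root_of_inclBar`), and it implies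
`S33TorP` (`isKummerNew_of_degJ_eq_zero`).
-/

set_option autoImplicit false

noncomputable section

namespace Fermat.Agent.S33lib

open Fermat.Agent.GalRep ModularCurve AlgebraicCurve Fermat.Agent.S24lib Fermat.Agent.S31lib
  Fermat.Agent.S35lib

/-- **(TOR_p), Kummer form, at the level `L p`.** -/
def TasTorK (L p : ℕ) [NeZero L] [NeZero p] [NeZero (L * p)] : Prop :=
  ∀ B : ValuationSubring (AlgebraicClosure ℚ), B.LiesOverPrime p →
    ∀ (D : Divisor.degZero (K := Kbar) (F := FF (L * p))) (u : FF (L * p)), u ≠ 0 →
      (∀ w : Place Kbar (FF (L * p)),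
        (p : ℤ) * (D : Divisor Kbar (FF (L * p))) w = w.ord u) →
      (Pic0.mk D : JZero (L * p)) ∈ s33hKI (L * p) p B →
      IsKummerNew L p p u →
      ∀ τ₀ ∈ B.inertiaSubgroupIn ℚ, S33hMoves p τ₀ →
        τ₀ • (Pic0.mk D : JZero (L * p)) = Pic0.mk D →
          ∃ (c : Kbar) (s : FF (L * p)), u = algebraMap Kbar (FF (L * p)) c * s ^ p

end Fermat.Agent.S33lib

end
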