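import Mathlib
import Fermat.Agent.S33lib.TorDefs
import Fermat.Agent.S34lib.AuxPrime
import Fermat.Agent.S35lib.DescK

/-!
# Item 86 (S33), block (TOR_p), piece P-C (helper7): descent of the Kummer form of (TOR_p)

* `tax_pull_mem` : the pull-back `J₀(N) → J₀(M)` (`N ∣ M`) maps `s33hKI N p B` into
  `s33hKI M p B`.
* `tax_descent` : `TasTorK M p → S33TorP M' p` for `M' ∣ M`, `p ∤ M`, `M p = M' p e`,
  `ψ(M p) < 2 e ψ(M' p)` (pull-back of the class, norm base change `dk_isKummerNew_incl`, and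
  `S18lib.exists_root_of_inclBar`).
* `tax_of_aux` : for `p ∤ M'` there is an auxiliary level `M` (`GM.IsAuxLevel p M`, `M' ∣ M`) with
  `TasTorK M p → S33TorP M' p`.
* `tax_torp` : `S33TorP M' p` at every level `M'` prime to `p` from `TasTorK` at the auxiliary
  levels.
* `tax_torp_self` : `TasTorK M' p → S33TorP M' p` (no change of level).
-/

set_option autoImplicit false
set_option linter.style.haveILetI false
set_option linter.unusedSectionVars false

noncomputable section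

namespace Fermat.Agent.S33lib

open ModularCurve AlgebraicCurve
open Fermat.Agent.S24lib Fermat.Agent.HeckeBar Fermat.Agent.S34lib Fermat.Agent.GM
open Fermat.Agent.GalRep Fermat.Agent.S35lib

/-- the pull-back `J₀(N) → J₀(M)` maps `s33hKI N p B` into `s33hKI M p B` -/
theorem tax_pull_mem (N M : ℕ) [NeZero N] [NeZero M] (h : N ∣ M) (p : ℕ)
    (B : ValuationSubring (AlgebraicClosure ℚ)) (x : JZero N) (hx : x ∈ s33hKI N p B) :
    auxLevelPull N M h x ∈ s33hKI M p B := by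
  unfold s33hKI at hx ⊢
  induction hx using AddSubgroup.closure_induction with
  | mem z hz =>
    obtain ⟨τ, hτ, y, ⟨n, hn⟩, rfl⟩ := hz
    apply AddSubgroup.subset_closure
    refine ⟨τ, hτ, auxLevelPull N M h y, ⟨n, ?_⟩, ?_⟩
    · rw [← map_nsmul, hn, map_zero]
    · rw [map_sub, auxLevelPull_smul]
  | zero =>
    rw [map_zero]
    exact zero_mem _
  | add a b _ _ ha hb =>
    rw [map_add]
    exact add_mem ha hb
  | neg a _ ha =>
    rw [map_neg]
    exact neg_mem ha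

/-- the pull-back of a class, on representatives -/
theorem tax_pull_mk (N M : ℕ) [NeZero N] [NeZero M] (h : N ∣ M)
    (D : Divisor.degZero (K := Kbar) (F := FF N)) :
    haveI : HasPrincipalDivisors Kbar (FF M) := wir_hasPrincipalDivisors M
    auxLevelPull N M h (Pic0.mk D)
      = Pic0.mk (auxPullDegZero (inclBar N M h) (isIntegral_inclBar N M h)
          (aux_fundId_incl N M h) D) :=
  rfl

/-- the pull-back of a Kummer pair is a Kummer pair -/
theorem tax_pull_ord (N M : ℕ) [NeZero N] [NeZero M] (h : N ∣ M) (m : ℕ)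
    (D : Divisor.degZero (K := Kbar) (F := FF N)) (u : FF N)
    (hDu : ∀ w : Place Kbar (FF N), (m : ℤ) * (D : Divisor Kbar (FF N)) w = w.ord u)
    (w : Place Kbar (FF M)) :
    haveI : HasPrincipalDivisors Kbar (FF M) := wir_hasPrincipalDivisors M
    (m : ℤ) * ((auxPullDegZero (inclBar N M h) (isIntegral_inclBar N M h)
      (aux_fundId_incl N M h) D : Divisor.degZero (K := Kbar) (F := FF M)) :
        Divisor Kbar (FF M)) w = w.ord (inclBar N M h u) := by
  haveI : HasPrincipalDivisors Kbar (FF M) := wir_hasPrincipalDivisors M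
  rw [coe_auxPullDegZero, Divisor.pullbackAlong_apply,
    Place.ord_restrictAlong (inclBar N M h) (isIntegral_inclBar N M h) w u, ← hDu]
  ring

/-- a class with a Kummer function `c g ^ m` is zero -/
theorem tax_mk_eq_zero (N : ℕ) [NeZero N] (m : ℕ) (hm : m ≠ 0)
    (D : Divisor.degZero (K := Kbar) (F := FF N)) (u : FF N) (hu : u ≠ 0)
    (hDu : ∀ w : Place Kbar (FF N), (m : ℤ) * (D : Divisor Kbar (FF N)) w = w.ord u)
    (c : Kbar) (g : FF N) (hcg : u = algebraMap Kbar (FF N) c * g ^ m) :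
    (Pic0.mk D : JZero N) = 0 := by
  have hc0 : algebraMap Kbar (FF N) c ≠ 0 := by
    intro h0
    rw [hcg, h0, zero_mul] at hu
    exact hu rfl
  have hg0 : g ≠ 0 := by
    intro h0
    rw [hcg, h0, zero_pow hm, mul_zero] at hu
    exact hu rfl
  apply Fermat.Agent.S18lib.mk_eq_zero_of_mem_principal
  refine ⟨g, hg0, fun v => ?_⟩
  have h1 : v.ord u = (m : ℤ) * v.ord g := by
    rw [hcg, v.ord_mul hc0 (pow_ne_zero _ hg0), Fermat.Agent.S18lib.ord_pow_nat,
      uk_ord_const, zero_add]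
  have h2 : (m : ℤ) * (D : Divisor Kbar (FF N)) v = (m : ℤ) * v.ord g := by
    rw [hDu v, h1]
  have hm' : (m : ℤ) ≠ 0 := by exact_mod_cast hm
  exact mul_left_cancel₀ hm' h2

/-- a class killed by `m` has a Kummer pair -/
theorem tax_exists_kummer (N : ℕ) [NeZero N] (m : ℕ)
    (D : Divisor.degZero (K := Kbar) (F := FF N))
    (hx : m • (Pic0.mk D : JZero N) = 0) :
    ∃ u : FF N, u ≠ 0 ∧
      ∀ w : Place Kbar (FF N), (m : ℤ) * (D : Divisor Kbar (FF N)) w = w.ord u := by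
  have hprin : ((m • D : Divisor.degZero (K := Kbar) (F := FF N)) : Divisor Kbar (FF N))
      ∈ Divisor.principal := by
    apply Fermat.Agent.S18lib.mem_principal_of_mk_eq_zero
    rw [← hx]
    rfl
  obtain ⟨f, hf0, hf⟩ := hprin
  refine ⟨f, hf0, fun v => ?_⟩
  rw [← hf v]
  simp

/-- **Piece P-C.**  Descent of (TOR_p): the Kummer form at the level `M p` gives `S33TorP` at the
level `M' p` (`M' ∣ M`, `p ∤ M` prime), when `M p = M' p e` and `ψ(M p) < 2 e ψ(M' p)`. -/
theorem tax_descent (M' M p e : ℕ) [NeZero M'] [NeZero M] [NeZero p] [NeZero (M' * p)]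
    [NeZero (M * p)] (hp : p.Prime) (hpM : ¬ p ∣ M) (hdvd : M' ∣ M)
    (hM : M * p = M' * p * e)
    (hdeg : dedekindPsi (M * p) < 2 * e * dedekindPsi (M' * p))
    (h : TasTorK M p) : S33TorP M' p := by
  intro B hB x hpx hxKI hα hβ τ₀ hτ₀ hmv hfix
  obtain ⟨D, rfl⟩ := Pic0.mk_surjective x
  obtain ⟨u, hu0, hDu⟩ := tax_exists_kummer (M' * p) p D hpx
  have hdiv : ∀ P : Place Kbar (FF (M' * p)), (p : ℤ) ∣ P.ord u := fun P => ⟨_, (hDu P).symm⟩
  have hnew : IsKummerNew M' p p u := isKummerNew_of_degJ_eq_zero M' D p hu0 hDu hα hβ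
  have hNM : M' * p ∣ M * p := Nat.mul_dvd_mul_right hdvd p
  have hιu : inclBar (M' * p) (M * p) hNM u ≠ 0 := (map_ne_zero _).2 hu0
  haveI : HasPrincipalDivisors Kbar (FF (M * p)) := wir_hasPrincipalDivisors (M * p)
  obtain ⟨c, s, hcs⟩ := h B hB
    (auxPullDegZero (inclBar (M' * p) (M * p) hNM) (isIntegral_inclBar (M' * p) (M * p) hNM)
      (aux_fundId_incl (M' * p) (M * p) hNM) D)
    (inclBar (M' * p) (M * p) hNM u) hιu
    (tax_pull_ord (M' * p) (M * p) hNM p D u hDu)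
    (by
      have := tax_pull_mem (M' * p) (M * p) hNM p B _ hxKI
      rwa [tax_pull_mk] at this)
    (dk_isKummerNew_incl M' M p hp hpM hdvd p u hnew) τ₀ hτ₀ hmv
    (by
      have := congrArg (auxLevelPull (M' * p) (M * p) hNM) hfix
      rwa [auxLevelPull_smul, tax_pull_mk] at this)
  obtain ⟨g₀, c₀, h0⟩ := Fermat.Agent.S18lib.exists_root_of_inclBar (M' * p) (M * p) e hM hdeg
    p hp.pos u hu0 hdiv s c hcs
  exact tax_mk_eq_zero (M' * p) p hp.ne_zero D u hu0 hDu c₀ g₀ h0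

/-- `TasTorK M' p → S33TorP M' p` (no change of level) -/
theorem tax_torp_self (M' p : ℕ) [NeZero M'] [NeZero p] [NeZero (M' * p)] (hp : p ≠ 0)
    (h : TasTorK M' p) : S33TorP M' p := by
  intro B hB x hpx hxKI hα hβ τ₀ hτ₀ hmv hfix
  obtain ⟨D, rfl⟩ := Pic0.mk_surjective x
  obtain ⟨u, hu0, hDu⟩ := tax_exists_kummer (M' * p) p D hpx
  have hnew : IsKummerNew M' p p u := isKummerNew_of_degJ_eq_zero M' D p hu0 hDu hα hβ
  obtain ⟨c, s, hcs⟩ := h B hB D u hu0 hDu hxKI hnew τ₀ hτ₀ hmv hfix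
  exact tax_mk_eq_zero (M' * p) p hp D u hu0 hDu c s hcs

/-- **Piece P-C, numerics.**  For `p` prime, `p ∤ M'`: the level `M' p` is reached by descent from
`M p` with `M = lcm(M', baseLevel p)` an auxiliary level. -/
theorem tax_of_aux (M' p : ℕ) [NeZero M'] [NeZero p] [NeZero (M' * p)] (hp : p.Prime)
    (hpM' : ¬ p ∣ M') :
    ∃ (M : ℕ) (_ : NeZero M) (_ : NeZero (M * p)), M' ∣ M ∧ IsAuxLevel p M ∧
      (TasTorK M p → S33TorP M' p) := by
  obtain ⟨e, hlcm, hdeg, haux⟩ := Fermat.Agent.S18lib.dedekindPsi_lcm_lt M' p hp hpM'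
  have hN0 : M' ≠ 0 := NeZero.ne M'
  have hM0 : Nat.lcm M' (baseLevel p) ≠ 0 := by
    intro h0
    rw [h0] at haux
    exact haux.1 (dvd_zero p)
  haveI : NeZero (Nat.lcm M' (baseLevel p)) := ⟨hM0⟩
  have hMp0 : Nat.lcm M' (baseLevel p) * p ≠ 0 := Nat.mul_ne_zero hM0 hp.ne_zero
  haveI : NeZero (Nat.lcm M' (baseLevel p) * p) := ⟨hMp0⟩
  refine ⟨Nat.lcm M' (baseLevel p), ⟨hM0⟩, ⟨hMp0⟩, Nat.dvd_lcm_left _ _, haux, ?_⟩
  intro h
  have hM : Nat.lcm M' (baseLevel p) * p = M' * p * e := by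
    rw [hlcm]
    ring
  refine tax_descent M' (Nat.lcm M' (baseLevel p)) p e hp haux.1 (Nat.dvd_lcm_left _ _) hM ?_ h
  rw [mul_comm (Nat.lcm M' (baseLevel p)) p, mul_comm M' p,
    Fermat.Agent.S20lib.dedekindPsi_prime_mul_of_not_dvd hp hM0 haux.1,
    Fermat.Agent.S20lib.dedekindPsi_prime_mul_of_not_dvd hp hN0 hpM']
  have hq1 : 0 < p + 1 := Nat.succ_pos p
  calc (p + 1) * dedekindPsi (Nat.lcm M' (baseLevel p))
      < (p + 1) * (2 * e * dedekindPsi M') := Nat.mul_lt_mul_of_pos_left hdeg hq1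
    _ = 2 * e * ((p + 1) * dedekindPsi M') := by ring

/-- **Piece P-C, wiring.**  `S33TorP` at all levels `M'` prime to `p` from the Kummer form
`TasTorK` at the auxiliary levels. -/
theorem tax_torp (p : ℕ) [NeZero p] (hp : p.Prime)
    (h : ∀ (M : ℕ) [NeZero M] [NeZero (M * p)], IsAuxLevel p M → TasTorK M p)
    (M' : ℕ) [NeZero M'] [NeZero (M' * p)] (hpM' : ¬ p ∣ M') : S33TorP M' p := by
  obtain ⟨M, hM, hMp, -, haux, hdesc⟩ := tax_of_aux M' p hp hpM'
  exact hdesc (h M haux)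

end Fermat.Agent.S33lib

end
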