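/-
Item 86 (S33), geometry block G1, the PREDICATES (helper2).  No sorry in this file.

Setting: a function field `F/K` (`RRBase K F`), `R : ConstRed A π Fk F` a constant reduction,
`x : Pic0 K F` (for the modular curve: `JZero M = Pic0 Kbar (FF M)`, so every `x : JZero M` is
literally such a class; take `K = Kbar`, `F = FF M`, `R` a series reduction of level `M`).

* `gdfIsKummer p x f` : `f` is a Kummer function of `x`: `f ≠ 0`, `x = [D]`, `p D = div f`;
* `gdfKer R p x`      : **Ker**: `x` has a Kummer function `f ∈ O` with `red f = 1`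
                        (equivalently: a Kummer function `f` and `c`, `w` with `c f w^p ∈ 1 + 𝔪_O`,
                        `gdf_ker_iff`);
* `gdfLevel R p a x`  : `x` has a Kummer function `1 + a g`, `g ∈ O` (equivalently
                        `c s^p (1 + a g)`, `gdf_level_iff`);
* `gdfDeep R p lam x` : **Deep** `= gdfLevel R p (lam ^ p) x` (`lam = ζ_p − 1`), in the shape of
                        `rg2_tau_pic0` (`S33lib/RegimeTwo.lean`): `gdf_deep_iff`, `gdf_deep_elim`.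

Calculus: `gdf_isKummer_mul_pow` (Kummer functions may be changed by constants and `p`-th powers),
`gdf_isKummer_unique` (and only so), `gdf_exists_isKummer` (`p x = 0` ⇒ there is one),
`gdf_isKummer_torsion`, `gdf_isKummer_zero_iff` (`x = 0` ⇔ the Kummer functions are `c w^p`),
`gdf_isKummer_add`, `gdf_isKummer_neg`, `gdf_isKummer_smul` (semilinear automorphisms),
`gdf_level_ker`, `gdf_deep_ker`, `gdf_ker_zero`, `gdf_deep_zero`.
-/
import Mathlib
import Fermat.Agent.S33lib.RegimeTwo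

set_option autoImplicit false

noncomputable section

namespace Fermat.Agent.S33lib

open AlgebraicCurve Fermat.Agent.RRlib Fermat.Agent.GoodRed Fermat.Agent.S34lib
  Fermat.Agent.S18lib

variable {K F k Fk : Type*} [Field K] [Field F] [Algebra K F] [Field k] [Field Fk] [Algebra k Fk]
variable {A : ValuationSubring K} {π : A →+* k}
variable [RRBase K F]

/-! ### the predicates -/

/-- `f` is a **Kummer function** of the class `x` for the exponent `p`: `f ≠ 0` and
`p D = div f` for a divisor `D` (of degree `0`) of class `x`. -/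
def gdfIsKummer (p : ℕ) (x : Pic0 K F) (f : F) : Prop :=
  f ≠ 0 ∧ ∃ D : Divisor.degZero (K := K) (F := F),
    Pic0.mk D = x ∧ p • (D : Divisor K F) = divOf (K := K) f

/-- **Ker**: `x` has a Kummer function in `1 + 𝔪_O`. -/
def gdfKer (R : ConstRed A π Fk F) (p : ℕ) (x : Pic0 K F) : Prop :=
  ∃ f : R.O, R.red f = 1 ∧ gdfIsKummer p x (f : F)

/-- `x` has a Kummer function `1 + a g` with `g ∈ O` ("level `≥ v(a)`"). -/
def gdfLevel (R : ConstRed A π Fk F) (p : ℕ) (a : K) (x : Pic0 K F) : Prop :=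
  ∃ g : R.O, gdfIsKummer p x (1 + algebraMap K F a * (g : F))

/-- **Deep**: `x` has a Kummer function `1 + lam ^ p g` with `g ∈ O` (`lam = ζ_p − 1`:
level `≥ v*`). -/
def gdfDeep (R : ConstRed A π Fk F) (p : ℕ) (lam : K) (x : Pic0 K F) : Prop :=
  gdfLevel R p (lam ^ p) x

/-! ### calculus of Kummer functions -/

theorem gdf_isKummer_ne_zero {p : ℕ} {x : Pic0 K F} {f : F} (h : gdfIsKummer p x f) : f ≠ 0 :=
  h.1

/-- the divisor of a nonzero function, as a divisor of degree `0` -/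
def gdfDiv (w : F) : Divisor.degZero (K := K) (F := F) :=
  ⟨divOf (K := K) w, degree_divOf w⟩

@[simp]
theorem gdf_coe_div (w : F) : ((gdfDiv (K := K) w : Divisor.degZero (K := K) (F := F)) :
    Divisor K F) = divOf (K := K) w := rfl

theorem gdf_mk_div {w : F} (hw : w ≠ 0) : Pic0.mk (gdfDiv (K := K) w) = 0 := by
  apply (QuotientAddGroup.eq_zero_iff _).mpr
  rw [AddSubgroup.mem_addSubgroupOf]
  exact rg2_divOf_mem_principal hw

theorem gdf_mk_eq_zero_iff (D : Divisor.degZero (K := K) (F := F)) :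
    Pic0.mk D = 0 ↔ ∃ w : F, w ≠ 0 ∧ (D : Divisor K F) = divOf (K := K) w := by
  constructor
  · intro h
    have h1 := (QuotientAddGroup.eq_zero_iff _).mp h
    rw [AddSubgroup.mem_addSubgroupOf] at h1
    obtain ⟨w, hw, hD⟩ := h1
    refine ⟨w, hw, ?_⟩
    ext v
    rw [hD v, divOf_apply hw]
  · rintro ⟨w, hw, hD⟩
    have : D = gdfDiv (K := K) w := Subtype.ext hD
    rw [this]
    exact gdf_mk_div hw

/-- Kummer functions may be changed by constants and `p`-th powers -/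
theorem gdf_isKummer_mul_pow {p : ℕ} {x : Pic0 K F} {f : F} (h : gdfIsKummer p x f)
    {c : K} (hc : c ≠ 0) {w : F} (hw : w ≠ 0) :
    gdfIsKummer p x (algebraMap K F c * w ^ p * f) := by
  obtain ⟨hf, D, hD, hpD⟩ := h
  have hc' : algebraMap K F c ≠ 0 := by
    rw [Ne, map_eq_zero_iff _ (algebraMap K F).injective]
    exact hc
  have hwp : w ^ p ≠ 0 := pow_ne_zero p hw
  refine ⟨mul_ne_zero (mul_ne_zero hc' hwp) hf, D + gdfDiv (K := K) w, ?_, ?_⟩
  · rw [Pic0.mk_add, gdf_mk_div hw, add_zero, hD]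
  · rw [cxa_divOf_mul (mul_ne_zero hc' hwp) hf, cxa_divOf_mul hc' hwp, cxa_divOf_const,
      cxa_divOf_pow, zero_add, AddSubgroup.coe_add, smul_add, gdf_coe_div, hpD]
    abel

/-- two Kummer functions of the same class differ by a constant and a `p`-th power -/
theorem gdf_isKummer_unique {p : ℕ} {x : Pic0 K F} {f f' : F}
    (h : gdfIsKummer p x f) (h' : gdfIsKummer p x f') :
    ∃ (c : K) (w : F), c ≠ 0 ∧ w ≠ 0 ∧ f' = algebraMap K F c * w ^ p * f := by
  obtain ⟨hf, D, hD, hpD⟩ := h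
  obtain ⟨hf', D', hD', hpD'⟩ := h'
  have h0 : Pic0.mk (D' - D) = 0 := by
    have : Pic0.mk (D' - D) = Pic0.mk D' - Pic0.mk D := rfl
    rw [this, hD, hD', sub_self]
  obtain ⟨w, hw, hDw⟩ := (gdf_mk_eq_zero_iff (D' - D)).mp h0
  have hwp : w ^ p ≠ 0 := pow_ne_zero p hw
  -- `f' / (w^p f)` has divisor `0`
  have hq : divOf (K := K) (f' * (w ^ p * f)⁻¹) = 0 := by
    rw [cxa_divOf_mul hf' (inv_ne_zero (mul_ne_zero hwp hf)), cxa_divOf_inv,
      cxa_divOf_mul hwp hf, cxa_divOf_pow, ← hDw, ← hpD, ← hpD', AddSubgroup.coe_sub, smul_sub]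
    abel
  obtain ⟨c, hc⟩ := cxa_const_of_divOf_eq_zero hq
  have hne : f' * (w ^ p * f)⁻¹ ≠ 0 := mul_ne_zero hf' (inv_ne_zero (mul_ne_zero hwp hf))
  have hc0 : c ≠ 0 := by
    rintro rfl
    rw [map_zero] at hc
    exact hne hc.symm
  refine ⟨c, w, hc0, hw, ?_⟩
  rw [hc, mul_assoc, inv_mul_cancel_right₀ (mul_ne_zero hwp hf)]

/-- a class killed by `p` has a Kummer function -/
theorem gdf_exists_isKummer {p : ℕ} {x : Pic0 K F} (hx : p • x = 0) :
    ∃ f : F, gdfIsKummer p x f := by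
  obtain ⟨D, rfl⟩ := Pic0.mk_surjective x
  have h : Pic0.mk (p • D) = 0 := hx
  obtain ⟨f, hf, hD⟩ := (gdf_mk_eq_zero_iff (p • D)).mp h
  exact ⟨f, hf, D, rfl, by rw [← hD]; rfl⟩

/-- a class with a Kummer function is killed by `p` -/
theorem gdf_isKummer_torsion {p : ℕ} {x : Pic0 K F} {f : F} (h : gdfIsKummer p x f) :
    p • x = 0 := by
  obtain ⟨hf, D, rfl, hpD⟩ := h
  have : p • Pic0.mk D = Pic0.mk (p • D) := rfl
  rw [this]
  exact (gdf_mk_eq_zero_iff (p • D)).mpr ⟨f, hf, hpD⟩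

theorem gdf_isKummer_zero_one (p : ℕ) : gdfIsKummer p (0 : Pic0 K F) (1 : F) := by
  refine ⟨one_ne_zero, 0, rfl, ?_⟩
  have h1 : divOf (K := K) (1 : F) = 0 := by
    have := cxa_divOf_const (K := K) (F := F) (1 : K)
    rwa [map_one] at this
  rw [h1]
  simp

/-- `x = 0` iff its Kummer functions are the `c w ^ p` -/
theorem gdf_isKummer_zero_iff {p : ℕ} (hp : p ≠ 0) {x : Pic0 K F} {f : F}
    (h : gdfIsKummer p x f) :
    x = 0 ↔ ∃ (c : K) (w : F), c ≠ 0 ∧ w ≠ 0 ∧ f = algebraMap K F c * w ^ p := by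
  constructor
  · rintro rfl
    obtain ⟨c, w, hc, hw, hf⟩ := gdf_isKummer_unique (gdf_isKummer_zero_one p) h
    exact ⟨c, w, hc, hw, by rw [hf, mul_one]⟩
  · rintro ⟨c, w, hc, hw, rfl⟩
    obtain ⟨hf, D, rfl, hpD⟩ := h
    have hc' : algebraMap K F c ≠ 0 := by
      rw [Ne, map_eq_zero_iff _ (algebraMap K F).injective]
      exact hc
    rw [cxa_divOf_mul hc' (pow_ne_zero p hw), cxa_divOf_const, cxa_divOf_pow, zero_add] at hpD
    have hD : (D : Divisor K F) = divOf (K := K) w := by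
      ext v
      have h1 := congrArg (fun E : Divisor K F => E v) hpD
      simp only [Finsupp.smul_apply, nsmul_eq_mul] at h1
      have hp' : ((p : ℕ) : ℤ) ≠ 0 := by exact_mod_cast hp
      exact mul_left_cancel₀ hp' h1
    exact (gdf_mk_eq_zero_iff D).mpr ⟨w, hw, hD⟩

theorem gdf_isKummer_add {p : ℕ} {x y : Pic0 K F} {f h : F} (hx : gdfIsKummer p x f)
    (hy : gdfIsKummer p y h) : gdfIsKummer p (x + y) (f * h) := by
  obtain ⟨hf, D, rfl, hpD⟩ := hx
  obtain ⟨hh, E, rfl, hpE⟩ := hy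
  refine ⟨mul_ne_zero hf hh, D + E, rfl, ?_⟩
  rw [cxa_divOf_mul hf hh, AddSubgroup.coe_add, smul_add, hpD, hpE]

theorem gdf_isKummer_neg {p : ℕ} {x : Pic0 K F} {f : F} (hx : gdfIsKummer p x f) :
    gdfIsKummer p (-x) f⁻¹ := by
  obtain ⟨hf, D, rfl, hpD⟩ := hx
  refine ⟨inv_ne_zero hf, -D, rfl, ?_⟩
  rw [cxa_divOf_inv, AddSubgroup.coe_neg, smul_neg, hpD]

theorem gdf_isKummer_pow {p : ℕ} {x : Pic0 K F} {f : F} (hx : gdfIsKummer p x f) (e : ℕ) :
    gdfIsKummer p (e • x) (f ^ e) := by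
  obtain ⟨hf, D, rfl, hpD⟩ := hx
  refine ⟨pow_ne_zero e hf, e • D, rfl, ?_⟩
  rw [cxa_divOf_pow, AddSubgroup.coe_nsmul, smul_comm, hpD]

/-- semilinear automorphisms: `g f` is a Kummer function of `g x` -/
theorem gdf_isKummer_smul {p : ℕ} {x : Pic0 K F} {f : F} (hx : gdfIsKummer p x f)
    (g : SemilinearAut K F) : gdfIsKummer p (g • x) (g • f) := by
  obtain ⟨hf, D, rfl, hpD⟩ := hx
  refine ⟨by simpa using hf, SemilinearAut.degZeroSMulHom g D, ?_, ?_⟩
  · rw [SemilinearAut.pic0_smul_mk]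
  · rw [SemilinearAut.coe_degZeroSMulHom, rg2_divOf_smul, ← hpD, smul_comm]

/-! ### normal forms -/

/-- **Ker**, in the form with a constant and a `p`-th power -/
theorem gdf_ker_iff (R : ConstRed A π Fk F) {p : ℕ} (x : Pic0 K F) :
    gdfKer R p x ↔ ∃ (f : F) (c : K) (w : F), gdfIsKummer p x f ∧ c ≠ 0 ∧ w ≠ 0 ∧
      ∃ h : algebraMap K F c * w ^ p * f ∈ R.O, R.red ⟨_, h⟩ = 1 := by
  constructor
  · rintro ⟨f, hf1, hf⟩
    refine ⟨f, 1, 1, hf, one_ne_zero, one_ne_zero, ?_⟩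
    have h : algebraMap K F 1 * (1 : F) ^ p * (f : F) = f := by
      rw [map_one, one_pow, one_mul, one_mul]
    have hmem : algebraMap K F 1 * (1 : F) ^ p * (f : F) ∈ R.O := by
      rw [h]
      exact f.2
    refine ⟨hmem, ?_⟩
    rw [← hf1]
    congr 1
    exact Subtype.ext h
  · rintro ⟨f, c, w, hf, hc, hw, h, h1⟩
    exact ⟨⟨_, h⟩, h1, gdf_isKummer_mul_pow hf hc hw⟩

/-- **level**, in the form with a constant and a `p`-th power -/
theorem gdf_level_iff (R : ConstRed A π Fk F) {p : ℕ} (a : K) (x : Pic0 K F) :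
    gdfLevel R p a x ↔ ∃ (c : K) (s : F) (g : R.O), c ≠ 0 ∧ s ≠ 0 ∧
      gdfIsKummer p x (algebraMap K F c * s ^ p * (1 + algebraMap K F a * (g : F))) := by
  constructor
  · rintro ⟨g, hg⟩
    exact ⟨1, 1, g, one_ne_zero, one_ne_zero, gdf_isKummer_mul_pow hg one_ne_zero one_ne_zero⟩
  · rintro ⟨c, s, g, hc, hs, hg⟩
    refine ⟨g, ?_⟩
    have hc' : algebraMap K F c ≠ 0 := by
      rw [Ne, map_eq_zero_iff _ (algebraMap K F).injective]
      exact hc
    have h := gdf_isKummer_mul_pow hg (inv_ne_zero hc) (inv_ne_zero hs)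
    have e : algebraMap K F c⁻¹ * s⁻¹ ^ p *
        (algebraMap K F c * s ^ p * (1 + algebraMap K F a * (g : F)))
        = 1 + algebraMap K F a * (g : F) := by
      rw [map_inv₀, inv_pow]
      field_simp
    rwa [e] at h

/-- **Deep**, in the form with a constant and a `p`-th power -/
theorem gdf_deep_iff (R : ConstRed A π Fk F) {p : ℕ} (lam : K) (x : Pic0 K F) :
    gdfDeep R p lam x ↔ ∃ (c : K) (s : F) (g : R.O), c ≠ 0 ∧ s ≠ 0 ∧
      gdfIsKummer p x (algebraMap K F c * s ^ p * (1 + algebraMap K F (lam ^ p) * (g : F))) :=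
  gdf_level_iff R (lam ^ p) x

/-- **Deep**, unfolded to the hypotheses of `rg2_tau_pic0` -/
theorem gdf_deep_elim (R : ConstRed A π Fk F) {p : ℕ} {lam : K} {x : Pic0 K F}
    (h : gdfDeep R p lam x) :
    ∃ (g : R.O) (D : Divisor.degZero (K := K) (F := F)), Pic0.mk D = x ∧
      p • (D : Divisor K F) = divOf (K := K)
        (algebraMap K F 1 * (1 : F) ^ p * (1 + algebraMap K F (lam ^ p) * (g : F))) := by
  obtain ⟨g, -, D, hD, hpD⟩ := h
  refine ⟨g, D, hD, ?_⟩
  rw [map_one, one_pow, one_mul, one_mul]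
  exact hpD

/-- a class of level `a ∈ 𝔪_A` lies in **Ker** -/
theorem gdf_level_ker (R : ConstRed A π Fk F) {p : ℕ} {a : K} (ha : a ∈ A.nonunits)
    {x : Pic0 K F} (h : gdfLevel R p a x) : gdfKer R p x := by
  obtain ⟨g, hg⟩ := h
  have haA : a ∈ A := A.nonunits_le ha
  have hπa : π ⟨a, haA⟩ = 0 := (R.π_eq_zero_iff ⟨a, haA⟩).mpr (A.mem_nonunits_iff.mpr
    (A.mem_nonunits_iff.mp ha))
  have hred : R.red (⟨algebraMap K F a, R.algebraMap_mem ⟨a, haA⟩⟩ : R.O) = 0 := by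
    have h := R.red_algebraMap ⟨a, haA⟩
    rw [hπa, map_zero] at h
    exact h
  refine ⟨1 + (⟨algebraMap K F a, R.algebraMap_mem ⟨a, haA⟩⟩ : R.O) * g, ?_, hg⟩
  rw [map_add, map_one, map_mul, hred, zero_mul, add_zero]

/-- **Deep ⇒ Ker** (`lam ∈ 𝔪_A`, `p ≠ 0`) -/
theorem gdf_deep_ker (R : ConstRed A π Fk F) {p : ℕ} (hp : p ≠ 0) {lam : K}
    (hlam : lam ∈ A.nonunits) {x : Pic0 K F} (h : gdfDeep R p lam x) : gdfKer R p x := by
  apply gdf_level_ker R _ h
  rw [A.mem_nonunits_iff] at hlam ⊢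
  rw [map_pow]
  exact pow_lt_one₀ zero_le hlam hp

theorem gdf_level_zero (R : ConstRed A π Fk F) (p : ℕ) (a : K) :
    gdfLevel R p a (0 : Pic0 K F) :=
  ⟨0, by
    have : (1 : F) + algebraMap K F a * ((0 : R.O) : F) = 1 := by
      rw [ZeroMemClass.coe_zero, mul_zero, add_zero]
    rw [this]
    exact gdf_isKummer_zero_one p⟩

theorem gdf_deep_zero (R : ConstRed A π Fk F) (p : ℕ) (lam : K) :
    gdfDeep R p lam (0 : Pic0 K F) :=
  gdf_level_zero R p (lam ^ p)

theorem gdf_ker_zero (R : ConstRed A π Fk F) (p : ℕ) : gdfKer R p (0 : Pic0 K F) :=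
  ⟨1, map_one _, gdf_isKummer_zero_one p⟩

/-- **Ker** classes are killed by `p` -/
theorem gdf_ker_torsion (R : ConstRed A π Fk F) {p : ℕ} {x : Pic0 K F} (h : gdfKer R p x) :
    p • x = 0 := by
  obtain ⟨f, -, hf⟩ := h
  exact gdf_isKummer_torsion hf

/-- **Ker** is a subgroup: sums -/
theorem gdf_ker_add (R : ConstRed A π Fk F) {p : ℕ} {x y : Pic0 K F} (hx : gdfKer R p x)
    (hy : gdfKer R p y) : gdfKer R p (x + y) := by
  obtain ⟨f, hf1, hf⟩ := hx
  obtain ⟨h, hh1, hh⟩ := hy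
  exact ⟨f * h, by rw [map_mul, hf1, hh1, mul_one], gdf_isKummer_add hf hh⟩

/-- **Ker** is stable under inertial automorphisms -/
theorem gdf_ker_smul (R : ConstRed A π Fk F) {p : ℕ} {x : Pic0 K F} (hx : gdfKer R p x)
    {g : SemilinearAut K F} (hg : IsInertial R g) : gdfKer R p (g • x) := by
  obtain ⟨f, hf1, hf⟩ := hx
  refine ⟨⟨g • (f : F), hg.smul_mem f.2⟩, ?_, gdf_isKummer_smul hf g⟩
  rw [hg.red_smul f.2]
  exact hf1

end Fermat.Agent.S33lib

end
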