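/-
Item 86 (S33), geometry block G1 (helper2): BRIDGES between the shapes used by the providers and the
predicates of `S33lib/GeoDefs.lean`.  No sorry in this file.

* `gdf_isKummer_of_ord`, `gdf_isKummer_ord` : the `∀ v, p * D v = ord_v f` form of a Kummer function;
* `gdf_ker_of_sub_one`, `gdf_ker_elim`      : the `f − 1 ∈ 𝔪_O` form of **Ker**;
* `gdf_ker_of_witness`                      : the `c · f · w ^ p − 1 ∈ 𝔪_O` form (`hW` of `ray_abs`);
* `gdf_deep_of_eq`                          : the conclusion of `ray_abs` gives **Deep**;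
* `gdf_rayj_abs`                            : **(RAYJ)**, abstract: the hypotheses of `ray_abs` and
                                              "a fixed class of **Ker** has a fixed Kummer
                                              function" (`hcan`, block CAN/RayKer) ⇒
                                              `gdfKer R p x → (∀ g ∈ G, g • x = x) → gdfDeep R p lam x`;
* `gdf_ksat`                                : **(KSAT)** for the modular curve, in the form
                                              `x ∈ s33hKI M p B → p • x = 0 → gdfKer R p x`.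
-/
import Mathlib
import Fermat.Agent.S33lib.GeoDefs
import Fermat.Agent.S33lib.RayAbs
import Fermat.Agent.S33lib.KSatConc

set_option autoImplicit false
set_option linter.style.haveILetI false
set_option linter.unusedSectionVars false
set_option linter.unusedVariables false
set_option synthInstance.maxHeartbeats 400000

noncomputable section

namespace Fermat.Agent.S33lib

open AlgebraicCurve Fermat.Agent.RRlib Fermat.Agent.GoodRed Fermat.Agent.S34lib
  Fermat.Agent.S18lib

section Abstract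

variable {K F k Fk : Type*} [Field K] [Field F] [Algebra K F] [Field k] [Field Fk] [Algebra k Fk]
variable {A : ValuationSubring K} {π : A →+* k}

section RRB

variable [RRBase K F]

/-- a Kummer function, given by the orders -/
theorem gdf_isKummer_of_ord {p : ℕ} {x : Pic0 K F} {f : F} (hf : f ≠ 0)
    (D : Divisor.degZero (K := K) (F := F)) (hD : Pic0.mk D = x)
    (hord : ∀ v : Place K F, (p : ℤ) * (D : Divisor K F) v = v.ord f) : gdfIsKummer p x f := by
  refine ⟨hf, D, hD, ?_⟩
  ext v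
  rw [divOf_apply hf, ← hord v, Finsupp.smul_apply, nsmul_eq_mul]

/-- the orders of a Kummer function -/
theorem gdf_isKummer_ord {p : ℕ} {x : Pic0 K F} {f : F} (h : gdfIsKummer p x f) :
    ∃ D : Divisor.degZero (K := K) (F := F), Pic0.mk D = x ∧
      ∀ v : Place K F, (p : ℤ) * (D : Divisor K F) v = v.ord f := by
  obtain ⟨hf, D, hD, hpD⟩ := h
  refine ⟨D, hD, fun v => ?_⟩
  rw [← divOf_apply hf v, ← hpD, Finsupp.smul_apply, nsmul_eq_mul]

/-- **Ker** from a Kummer function `f` with `f − 1 ∈ 𝔪_O` -/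
theorem gdf_ker_of_sub_one (R : ConstRed A π Fk F) {p : ℕ} {x : Pic0 K F} {f : F}
    (h : gdfIsKummer p x f) (h1 : f - 1 ∈ R.O.nonunits) : gdfKer R p x := by
  have hmem : f - 1 ∈ R.O := R.O.nonunits_le h1
  have hf : f ∈ R.O := by
    have := add_mem hmem (one_mem R.O)
    rwa [sub_add_cancel] at this
  refine ⟨⟨f, hf⟩, ?_, h⟩
  have h0 : R.red ⟨f - 1, hmem⟩ = 0 := (R.red_eq_zero_iff ⟨f - 1, hmem⟩).mpr h1
  have e : (⟨f, hf⟩ : R.O) = ⟨f - 1, hmem⟩ + 1 := Subtype.ext (by
    show f = f - 1 + 1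
    rw [sub_add_cancel])
  rw [e, map_add, h0, map_one, zero_add]

/-- **Ker**, unfolded: a Kummer function `f` with `f − 1 ∈ 𝔪_O` -/
theorem gdf_ker_elim (R : ConstRed A π Fk F) {p : ℕ} {x : Pic0 K F} (h : gdfKer R p x) :
    ∃ f : F, gdfIsKummer p x f ∧ f - 1 ∈ R.O.nonunits := by
  obtain ⟨f, hf1, hf⟩ := h
  refine ⟨f, hf, ?_⟩
  have h0 : R.red (f - 1) = 0 := by rw [map_sub, hf1, map_one, sub_self]
  exact (R.red_eq_zero_iff (f - 1)).mp h0

/-- **Ker** from a witness `c · f · w ^ p − 1 ∈ 𝔪_O` (the shape `hW` of `ray_abs`) -/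
theorem gdf_ker_of_witness (R : ConstRed A π Fk F) {p : ℕ} {x : Pic0 K F} {f : F}
    (h : gdfIsKummer p x f)
    (hW : ∃ (c : K) (w : F), c ≠ 0 ∧ w ≠ 0 ∧ algebraMap K F c * f * w ^ p - 1 ∈ R.O.nonunits) :
    gdfKer R p x := by
  obtain ⟨c, w, hc, hw, h1⟩ := hW
  have h2 := gdf_isKummer_mul_pow h hc hw
  have e : algebraMap K F c * w ^ p * f = algebraMap K F c * f * w ^ p := by ring
  rw [e] at h2
  exact gdf_ker_of_sub_one R h2 h1

/-- the witness `hW` of `ray_abs`, for every Kummer function of a class in **Ker** -/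
theorem gdf_ker_witness (R : ConstRed A π Fk F) {p : ℕ} {x : Pic0 K F} (hx : gdfKer R p x)
    {f : F} (h : gdfIsKummer p x f) :
    ∃ (c : K) (w : F), c ≠ 0 ∧ w ≠ 0 ∧ algebraMap K F c * f * w ^ p - 1 ∈ R.O.nonunits := by
  obtain ⟨f', hf', h1⟩ := gdf_ker_elim R hx
  obtain ⟨c, w, hc, hw, e⟩ := gdf_isKummer_unique h hf'
  refine ⟨c, w, hc, hw, ?_⟩
  have e' : algebraMap K F c * f * w ^ p = f' := by rw [e]; ring
  rw [e']
  exact h1

/-- the conclusion of `ray_abs` gives **Deep** -/
theorem gdf_deep_of_eq (R : ConstRed A π Fk F) {p : ℕ} {lam : K} {x : Pic0 K F} {f : F}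
    (h : gdfIsKummer p x f)
    (hf : ∃ (c : K) (s g : F), c ≠ 0 ∧ s ≠ 0 ∧ g ∈ R.O ∧
      f = algebraMap K F c * s ^ p * (1 + algebraMap K F (lam ^ p) * g)) :
    gdfDeep R p lam x := by
  obtain ⟨c, s, g, hc, hs, hg, e⟩ := hf
  rw [gdf_deep_iff]
  refine ⟨c, s, ⟨g, hg⟩, hc, hs, ?_⟩
  rw [← e]
  exact h

end RRB

/-- **(RAYJ), abstract**: with the hypotheses of `ray_abs` (DISC, RES1, LIFT1, LAM1, two fixed
places with different reductions) and `hcan` (a class fixed by `G` and killed by `p` has a Kummer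
function in `F1`: block CAN), a class of **Ker** fixed by `G` is **Deep**. -/
theorem gdf_rayj_abs [RRHyp K F] [RRHyp k Fk] (R : ConstRed A π Fk F) (F1 : Subfield F)
    {lam : K} {r : Place K F → Place k Fk}
    (hr : R.IsPlaceRed r) {p : ℕ} (hp : p.Prime) (hlam0 : lam ≠ 0) (hlamA : lam ∈ A.nonunits)
    (hplam : ∃ ε ∈ A, (p : K) = -(lam ^ (p - 1)) * (1 + lam * ε))
    (G : Set (SemilinearAut K F)) (hF1 : ∀ x ∈ F1, ∀ g ∈ G, g • x = x)
    (hlam1 : algebraMap K F lam ∈ F1)
    (hdisc : ∀ f ∈ F1, f ≠ 0 → ∃ n : ℤ,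
      algebraMap K F (lam ^ n) * f ∈ R.O ∧ (algebraMap K F (lam ^ n) * f)⁻¹ ∈ R.O)
    (hres1 : ∀ c : k, ∃ a : A, π a = c ∧ algebraMap K F (a : K) ∈ F1)
    (hlift : ∀ D : Divisor K F, (∀ g ∈ G, g • D = D) →
      2 * (genusFF K F : ℤ) - 2 < Divisor.degree D →
      ∀ w ∈ riemannRochSpace (K := k) (Finsupp.mapDomain r D),
        ∃ s : R.O, (s : F) ∈ F1 ∧ (s : F) ∈ riemannRochSpace (K := K) D ∧ R.red s = w)
    {P Q : Place K F} (hP : ∀ g ∈ G, g • P = P) (hQ : ∀ g ∈ G, g • Q = Q) (hPQ : r P ≠ r Q)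
    (hcan : ∀ x : Pic0 K F, p • x = 0 → (∀ g ∈ G, g • x = x) →
      ∃ f ∈ F1, gdfIsKummer p x f)
    (x : Pic0 K F) (hx : gdfKer R p x) (hfix : ∀ g ∈ G, g • x = x) :
    gdfDeep R p lam x := by
  obtain ⟨f, hf1, hf⟩ := hcan x (gdf_ker_torsion R hx) hfix
  obtain ⟨hf0, D, hD, hpD⟩ := id hf
  exact gdf_deep_of_eq R hf
    (ray_abs R F1 hr hp hlam0 hlamA hplam G hF1 hlam1 hdisc hres1 hlift hP hQ hPQ f hf1 hf0
      (D : Divisor K F) hpD.symm (gdf_ker_witness R hx hf))

end Abstract

section Modular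

open ModularCurve Fermat.Agent.S24lib Fermat.Agent.GM Fermat.Agent.S35lib

variable (M : ℕ) [NeZero M] (p : ℕ) (hp : p.Prime)
variable (B : ValuationSubring Kbar) (hB : B.LiesOverPrime p)
variable {Fk : IntermediateField (IsLocalRing.ResidueField B)
  (LaurentSeries (IsLocalRing.ResidueField B))}
variable (R : ConstRed B (IsLocalRing.residue B) (↥Fk) (FF M)) (hR : IsSeriesRed R)

include hp hB hR in
/-- **(KSAT)**: the classes of `s33hKI M p B` killed by `p` lie in **Ker**, for every level `M`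
and every series reduction `R` of `F_M` along `B`. -/
theorem gdf_ksat [RRBase (IsLocalRing.ResidueField B) (↥Fk)]
    (x : JZero M) (hx : x ∈ s33hKI M p B) (hpx : p • x = 0) :
    letI : RRBase Kbar (FF M) := (mod_rrHyp M).toRRBase
    gdfKer R p x := by
  letI : RRBase Kbar (FF M) := (mod_rrHyp M).toRRBase
  obtain ⟨D, f, hD, hf, hord, h1⟩ := ksat_conc M p hp B hB R hR x hx hpx
  exact gdf_ker_of_sub_one R (gdf_isKummer_of_ord hf D hD hord) h1

end Modular

end Fermat.Agent.S33lib

end
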