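import Mathlib
import Fermat.Agent.S36lib.Speed
import Fermat.Agent.S36lib.VDisc
import Fermat.Agent.S33lib.TorDefs
import Fermat.Agent.S33lib.GeoWrap

/-!
# Item 86 (S33), block (TOR_p): glue lemmas for the assembly (helper13).  Complete proofs.

* `tas_isKummerNew_mul_pow`, `tas_isKummerNew_inv`, `tas_isKummerNew_inv_mul_pow`: the Kummer-new
  functions are stable under `f ↦ c · w ^ m · f` and `f ↦ f⁻¹` (the norm is multiplicative);
* `tas_val_p`: `v(p) = v(λ) ^ (p - 1)` for `p = - λ ^ (p - 1) (1 + λ ε)`;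
* `tas_level_star`: in a discretely valued field `K1 ∋ λ` with uniformiser `ϖ`, `v(p) = v(ϖ) ^ e`:
  `e = j (p - 1)` and `ϖ ^ (p j) = λ ^ p · (unit)`  (the level `i* = p e / (p - 1) = p j`);
* `tas_deep_of_level`: `f = c (1 + ϖ ^ (p j) g)` is `c (1 + λ ^ p g')`, `g' = (unit) g`.
-/

set_option autoImplicit false
set_option linter.style.haveILetI false
set_option linter.unusedSectionVars false
set_option linter.unusedVariables false

noncomputable section

namespace Fermat.Agent.S33lib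

open ModularCurve AlgebraicCurve
open Fermat.Agent.S24lib Fermat.Agent.HeckeBar Fermat.Agent.S35lib Fermat.Agent.S36lib

section KummerNew

variable {M' q m : ℕ} [NeZero M'] [NeZero q]

/-- the norm of a constant along a `Kbar`-algebra map is a constant -/
theorem tas_norm_const {F F' : Type*} [Field F] [Field F'] [Algebra Kbar F] [Algebra Kbar F']
    (φ : F →ₐ[Kbar] F') (c : Kbar) :
    letI := algebraAlong φ
    ∃ c' : Kbar, Algebra.norm F (algebraMap Kbar F' c) = algebraMap Kbar F c' := by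
  letI := algebraAlong φ
  have h1 : algebraMap Kbar F' c = algebraMap F F' (algebraMap Kbar F c) := by
    show algebraMap Kbar F' c = φ (algebraMap Kbar F c)
    rw [AlgHom.commutes]
  refine ⟨c ^ Module.finrank F F', ?_⟩
  rw [h1, Algebra.norm_algebraMap, map_pow]

/-- one half of `IsKummerNew`, stable under `f ↦ c · w ^ m · f` -/
theorem tas_norm_mul_pow {F F' : Type*} [Field F] [Field F'] [Algebra Kbar F] [Algebra Kbar F']
    (φ : F →ₐ[Kbar] F') {f : F'}
    (hf : letI := algebraAlong φ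
      ∃ (c : Kbar) (g : F), Algebra.norm F f = algebraMap Kbar F c * g ^ m)
    (c : Kbar) (w : F') :
    letI := algebraAlong φ
    ∃ (c' : Kbar) (g : F),
      Algebra.norm F (algebraMap Kbar F' c * w ^ m * f) = algebraMap Kbar F c' * g ^ m := by
  letI := algebraAlong φ
  obtain ⟨c₁, g₁, h₁⟩ := hf
  obtain ⟨c₂, h₂⟩ := tas_norm_const φ c
  refine ⟨c₂ * c₁, Algebra.norm F w * g₁, ?_⟩
  rw [map_mul, map_mul, map_pow, h₁, h₂, map_mul, mul_pow]
  ring

/-- one half of `IsKummerNew`, stable under `f ↦ f⁻¹` -/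
theorem tas_norm_inv {F F' : Type*} [Field F] [Field F'] [Algebra Kbar F] [Algebra Kbar F']
    (φ : F →ₐ[Kbar] F') {f : F'} (hf0 : f ≠ 0)
    (hf : letI := algebraAlong φ
      ∃ (c : Kbar) (g : F), Algebra.norm F f = algebraMap Kbar F c * g ^ m) :
    letI := algebraAlong φ
    ∃ (c' : Kbar) (g : F), Algebra.norm F f⁻¹ = algebraMap Kbar F c' * g ^ m := by
  letI := algebraAlong φ
  obtain ⟨c₁, g₁, h₁⟩ := hf
  refine ⟨c₁⁻¹, g₁⁻¹, ?_⟩
  have h2 : Algebra.norm F f⁻¹ * Algebra.norm F f = 1 := by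
    rw [← map_mul, inv_mul_cancel₀ hf0, map_one]
  rw [eq_inv_of_mul_eq_one_left h2, h₁, mul_inv, map_inv₀, inv_pow]

/-- Kummer-new functions are stable under `f ↦ c · w ^ m · f` -/
theorem tas_isKummerNew_mul_pow {f : FF (M' * q)} (hf : IsKummerNew M' q m f) (c : Kbar)
    (w : FF (M' * q)) : IsKummerNew M' q m (algebraMap Kbar (FF (M' * q)) c * w ^ m * f) :=
  ⟨tas_norm_mul_pow (heckeAlphaBar Kbar M' q) hf.1 c w,
    tas_norm_mul_pow (heckeBetaBar Kbar M' q) hf.2 c w⟩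

/-- Kummer-new functions are stable under `f ↦ f⁻¹` -/
theorem tas_isKummerNew_inv {f : FF (M' * q)} (hf0 : f ≠ 0) (hf : IsKummerNew M' q m f) :
    IsKummerNew M' q m f⁻¹ :=
  ⟨tas_norm_inv (heckeAlphaBar Kbar M' q) hf0 hf.1,
    tas_norm_inv (heckeBetaBar Kbar M' q) hf0 hf.2⟩

/-- Kummer-new functions are stable under `f ↦ f⁻¹ · w ^ m` -/
theorem tas_isKummerNew_inv_mul_pow {f : FF (M' * q)} (hf0 : f ≠ 0)
    (hf : IsKummerNew M' q m f) (w : FF (M' * q)) : IsKummerNew M' q m (f⁻¹ * w ^ m) := by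
  have h := tas_isKummerNew_mul_pow (tas_isKummerNew_inv hf0 hf) 1 w
  rw [map_one, one_mul, mul_comm] at h
  exact h

end KummerNew

section Level

variable {K : Type*} [Field K] (A : ValuationSubring K)

/-- `v(p) = v(λ) ^ (p - 1)` for `p = - λ ^ (p - 1) (1 + λ ε)`, `λ` a nonunit, `ε ∈ A` -/
theorem tas_val_p {p : ℕ} {lam : K} (hlam : lam ∈ A.nonunits)
    (hplam : ∃ ε ∈ A, ((p : ℕ) : K) = -(lam ^ (p - 1)) * (1 + lam * ε)) :
    A.valuation ((p : ℕ) : K) = A.valuation lam ^ (p - 1) := by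
  obtain ⟨ε, hε, h⟩ := hplam
  have h1 : A.valuation (1 + lam * ε) = 1 := by
    have h2 : A.valuation (lam * ε) < 1 := by
      rw [map_mul]
      have h3 : A.valuation lam < 1 := A.mem_nonunits_iff.mp hlam
      have h4 : A.valuation ε ≤ 1 := (A.valuation_le_one_iff ε).mpr hε
      calc A.valuation lam * A.valuation ε ≤ A.valuation lam * 1 := by gcongr
        _ = A.valuation lam := mul_one _
        _ < 1 := h3
    have h5 := Valuation.map_add_eq_of_lt_left A.valuation (x := 1) (y := lam * ε)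
      (by rw [map_one]; exact h2)
    rw [h5, map_one]
  rw [h, map_mul, Valuation.map_neg, map_pow, h1, mul_one]

/-- **the level `i* = p j`**: `e = j (p - 1)`, `v(ϖ ^ (p j)) = v(λ ^ p)`. -/
theorem tas_level_star {K1 : Subfield K} {ϖ : K} (hd : VdDisc A K1 ϖ) {p : ℕ} (hp : p.Prime)
    {lam : K} (hlam1 : lam ∈ K1) (hlam0 : lam ≠ 0) (hlam : lam ∈ A.nonunits)
    (hlamv : A.valuation ((p : ℕ) : K) = A.valuation lam ^ (p - 1))
    {e : ℕ} (he : A.valuation ((p : ℕ) : K) = A.valuation ϖ ^ e) :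
    ∃ j : ℕ, 0 < j ∧ e = j * (p - 1) ∧ A.valuation (ϖ ^ (p * j)) = A.valuation (lam ^ p) := by
  obtain ⟨hϖ1, hϖ0, hϖlt, hall⟩ := hd
  obtain ⟨n, hn⟩ := hall lam hlam1 hlam0
  have hv0 : A.valuation ϖ ≠ 0 := (Valuation.ne_zero_iff _).mpr hϖ0
  have hlamlt : A.valuation lam < 1 := A.mem_nonunits_iff.mp hlam
  -- `n > 0`
  have hn0 : 0 < n := by
    by_contra hcon
    rw [not_lt] at hcon
    have h1 : 1 ≤ A.valuation ϖ ^ n := by
      have h2 : A.valuation ϖ ^ (-n) ≤ 1 := by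
        obtain ⟨k, hk⟩ := Int.eq_ofNat_of_zero_le (neg_nonneg.mpr hcon)
        rw [hk, zpow_natCast]
        exact pow_le_one₀ zero_le hϖlt.le
      rw [zpow_neg] at h2
      exact (inv_le_one₀ (zpow_pos (zero_lt_iff.mpr hv0) n)).mp h2
    rw [← hn] at h1
    exact absurd hlamlt (not_lt.mpr h1)
  obtain ⟨j, rfl⟩ := Int.eq_ofNat_of_zero_le hn0.le
  have hj : 0 < j := by exact_mod_cast hn0
  rw [zpow_natCast] at hn
  refine ⟨j, hj, ?_, ?_⟩
  · -- injectivity of `n ↦ v(ϖ) ^ n`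
    have h1 : A.valuation ϖ ^ e = A.valuation ϖ ^ (j * (p - 1)) := by
      rw [← he, hlamv, hn, pow_mul]
    have hinj : StrictAnti (fun k : ℕ => A.valuation ϖ ^ k) :=
      pow_right_strictAnti₀ (zero_lt_iff.mpr hv0) hϖlt
    exact hinj.injective h1
  · rw [map_pow, map_pow, hn, ← pow_mul, mul_comm]

/-- `ϖ ^ (p j) = λ ^ p · (unit of A)` -/
theorem tas_level_unit {ϖ lam : K} {p j : ℕ} (hlam0 : lam ≠ 0)
    (h : A.valuation (ϖ ^ (p * j)) = A.valuation (lam ^ p)) :
    ∃ υ : K, υ ∈ A ∧ ϖ ^ (p * j) = lam ^ p * υ := by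
  refine ⟨ϖ ^ (p * j) / lam ^ p, ?_, ?_⟩
  · rw [← A.valuation_le_one_iff, map_div₀, h]
    exact (div_self ((Valuation.ne_zero_iff _).mpr (pow_ne_zero p hlam0))).le
  · field_simp

end Level

end Fermat.Agent.S33lib

end
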