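import Mathlib
import Fermat.Agent.S36lib.Speed
import Fermat.Agent.S33lib.TorGlue
import Fermat.Agent.S33lib.TorAux
import Fermat.Agent.S33lib.RegTwoNConc
import Fermat.Agent.S34lib.ConstRedInf

/-!
# Item 86 (S33), block (TOR_p): the assembly (helper13).  Complete proofs.

* `TasCore M p`: the CORE of (TOR_p) at the auxiliary level `M p`: every class `x ∈ s33hKI`
  killed by `p` with a Kummer-new Kummer function has a Kummer function (of `-x`)
  `c · s ^ p · (1 + (ζ - 1) ^ p f)` with `f ∈ O_R ∩ O_{R₀}` regular outside the two cusps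
  (= KSAT-PAIR + two representatives + level induction; `TorCore.lean`);
* `tas_torK_of_core`: `TasCore M p → TasTorK M p` (the end: regime II + III, `r2n_fixed_J`);
* `tas_torp_of_core`: `S33TorP M' p` for all `M'` prime to `p` from the core at the auxiliary
  levels (`tax_torp`).
-/

set_option autoImplicit false
set_option linter.style.haveILetI false
set_option linter.unusedSectionVars false
set_option linter.unusedVariables false
set_option synthInstance.maxHeartbeats 400000

noncomputable section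

namespace Fermat.Agent.S33lib

open AlgebraicCurve Fermat.Agent.GoodRed ModularCurve HahnSeries Fermat.Agent.S24lib
  Fermat.Agent.RRlib Fermat.Agent.GM Fermat.Agent.S34lib Fermat.Agent.S35lib

/-- **the core of (TOR_p)** at the level `M p` (`p ∤ M`): for every valuation ring `A ∣ p`,
every series reduction `R` of `F_{M p}`, every primitive `p`-th root of unity `ζ`: a class
`x ∈ s33hKI` killed by `p` with a Kummer-new Kummer function `u` has a Kummer function of `-x` of
the form `c · s ^ p · (1 + (ζ - 1) ^ p f)`, `f ∈ O_R ∩ O_{R₀}` regular outside the cusps. -/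
def TasCore (M p : ℕ) [NeZero M] [NeZero p] [NeZero (M * p)] (hp : p.Prime)
    (hpM : ¬ p ∣ M) : Prop :=
  haveI : RRHyp Kbar (FF (M * p)) := mod_rrHyp (M * p)
  ∀ (A : ValuationSubring Kbar), A.LiesOverPrime p →
  ∀ (R : ConstRed A (IsLocalRing.residue A)
      (↥(modularFunctionFieldFullC (IsLocalRing.ResidueField A) M)) (FF (M * p))),
    IsSeriesRed R →
  ∀ ζ : Kbar, IsPrimitiveRoot ζ p →
  ∀ (x : JZero (M * p)) (u : FF (M * p)), x ∈ s33hKI (M * p) p A →
    gdfIsKummer (K := Kbar) p x u → IsKummerNew M p p u →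
    ∃ (c : Kbar) (s f : FF (M * p)), c ≠ 0 ∧ s ≠ 0 ∧
      f ∈ cxiB (infPlaceBar (M * p))
        (cuspZero (M * p) p hp (dvd_mul_left p M) (inf_not_sq_dvd M p hp hpM)) ∧
      f ∈ R.O ∧ f ∈ (glmZero M p hp hpM R).O ∧
      gdfIsKummer (K := Kbar) p (-x)
        (algebraMap Kbar (FF (M * p)) c * s ^ p *
          (1 + algebraMap Kbar (FF (M * p)) ((ζ - 1) ^ p) * f))

section Main

variable (M p : ℕ) [NeZero M] [NeZero p] [NeZero (M * p)] (hp : p.Prime)

/-- **the end of (TOR_p)**: the Kummer form at the auxiliary level `M p` from the core. -/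
theorem tas_torK_of_core (haux : IsAuxLevel p M) (h : TasCore M p hp haux.1) :
    TasTorK M p := by
  intro B hB D u hu0 hDu hxKI hnew τ₀ hτ₀ hmv hfix
  haveI : Fact p.Prime := ⟨hp⟩
  haveI : RRHyp Kbar (FF (M * p)) := mod_rrHyp (M * p)
  have hpM : ¬ p ∣ M := haux.1
  obtain ⟨R, hR⟩ := exists_constRedInf_aux M p hp hpM B hB
  obtain ⟨ζ, hζ⟩ := HasEnoughRootsOfUnity.exists_primitiveRoot Kbar p
  -- the Kummer function `u` of the class `x`
  have hk : gdfIsKummer (K := Kbar) p (Pic0.mk D : JZero (M * p)) u :=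
    gdf_isKummer_of_ord hu0 D rfl hDu
  obtain ⟨c, s, f, hc, hs, hfB, hf₁, hf₂, hk'⟩ := h B hB R hR ζ hζ (Pic0.mk D) u hxKI hk hnew
  obtain ⟨-, D', hD'x, hD'⟩ := hk'
  have hfix' : τ₀ • (-(Pic0.mk D : JZero (M * p))) = -(Pic0.mk D : JZero (M * p)) := by
    rw [smul_neg, hfix]
  have h0 : (-(Pic0.mk D : JZero (M * p))) = 0 :=
    r2n_fixed_J M p hp hpM haux hB hζ hR τ₀ hτ₀ hmv c hc s hs f hfB hf₁ hf₂ D' hD' hD'x hfix'
  have hx0 : (Pic0.mk D : JZero (M * p)) = 0 := neg_eq_zero.mp h0
  obtain ⟨c', w, -, -, hcw⟩ := (gdf_isKummer_zero_iff hp.ne_zero hk).mp hx0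
  exact ⟨c', w, hcw⟩

/-- **(TOR_p)** at all levels prime to `p`, from the core at the auxiliary levels. -/
theorem tas_torp_of_core
    (h : ∀ (M : ℕ) [NeZero M] [NeZero (M * p)] (haux : IsAuxLevel p M), TasCore M p hp haux.1)
    (M' : ℕ) [NeZero M'] [NeZero (M' * p)] (hpM' : ¬ p ∣ M') : S33TorP M' p :=
  tax_torp p hp (fun M _ _ haux => tas_torK_of_core M p hp haux (h M haux)) M' hpM'

end Main

end Fermat.Agent.S33lib

end
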