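import Mathlib
import Fermat.Agent.S34lib.Twist

/-!
# Item 86 (S33), block TOR_p (helper4): every class of `T1(N)` has a Kummer function in `B`

The checker's shortcut (NOTES/S33_check2_helper27.md §C), in the abstract language of the twisted
gluing of S34 (`SSRed`, `Gluing`, `TwistHyp`), at exponent `m = p = char k`:

if `div u = p E`, `u` a unit of the sup-norm ball `O` with DIAGONAL reduction
(`e₁ (red u) = e₂ (red u)`, e.g. `red u = (c, c)` constant), then the gluing constant is
`ζ = 1` (Frobenius is injective on `k`), so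

* `tob_glued_one` : `red (L(a D₁ + E) ∩ O) = G.glued 1 a` (the UNTWISTED glued space);
* `tob_exists_h`  : there is `h ∈ L(a D₁ + E) ∩ O` with `red h = 1`;
* `tob_kummer`    : `f₁ := u · h^p ∈ L(p a D₁) ∩ O` (poles only on `D₁`, the two cusps),
  `red f₁ = red u`, `div f₁ = p (E + div h)`:  the class of `E` has a Kummer function regular off
  the cusps with the same (constant) reduction.
No node rings, no class groups.
-/

set_option autoImplicit false
set_option linter.style.haveILetI false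
set_option linter.unusedSectionVars false

noncomputable section

namespace Fermat.Agent.S33lib

open AlgebraicCurve Fermat.Agent.S34lib Fermat.Agent.RRlib

variable {K F k : Type*} [Field K] [Field F] [Algebra K F] [Field k]
variable {R : Type*} [CommRing R] [Algebra k R]
variable {A : ValuationSubring K} {π : A →+* k}
variable [RRBase K F] {S : SSRed A π R F} {G : Gluing k R} {p : ℕ} {D₁ : Divisor K F} {a₀ : ℕ}

/-- Frobenius is injective on a field of characteristic `p` -/
theorem tob_pow_inj [CharP k p] (hp : p.Prime) {x y : k} (h : x ^ p = y ^ p) : x = y := by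
  haveI : Fact p.Prime := ⟨hp⟩
  have h1 : (x - y) ^ p = 0 := by rw [sub_pow_char, h, sub_self]
  exact sub_eq_zero.mp (pow_eq_zero_iff hp.ne_zero |>.mp h1)

/-- **Step A at `m = p`**: with a diagonal reduction of the Kummer function, the reduction of
`L(a D₁ + E) ∩ O` lies in the untwisted glued space. -/
theorem tob_le_glued_one [CharP k p] (hp : p.Prime) (hyp : TwistHyp S G p D₁ a₀) {a : ℕ}
    (ha : a₀ ≤ a) (E : Divisor K F) (u uinv : S.O) (huu : u * uinv = 1)
    (hT : S.red u ∈ G.T 0) (hT' : S.red uinv ∈ G.T 0)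
    (hdiag : G.e₁ (S.red u) = G.e₂ (S.red u))
    (hdiv : ∀ v : Place K F, v.ord (u : F) = p * E v) :
    S.redSp (riemannRochSpace (a • D₁ + E)) ≤ G.glued 1 a := by
  have hma : a₀ ≤ p * a := le_trans ha (Nat.le_mul_of_pos_left a hyp.m_pos)
  have hcc : S.red u * S.red uinv = 1 := by rw [← map_mul, huu, map_one]
  have hu0 : (u : F) ≠ 0 := by
    intro h0
    have h1 : ((u * uinv : S.O) : F) = 1 := by rw [huu]; rfl
    rw [Subring.coe_mul, h0, zero_mul] at h1
    exact zero_ne_one h1
  rintro _ ⟨x, hx, rfl⟩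
  have hw : ((u * x ^ p : S.O) : F) ∈ riemannRochSpace ((p * a) • D₁) := by
    have := tw_kummer_mul_pow_mem (D₁ := D₁) hu0 hdiv hx
    simpa using this
  have hred : S.red (u * x ^ p) = S.red u * S.red x ^ p := by rw [map_mul, map_pow]
  have hmem : S.red u * S.red x ^ p ∈ G.glued 1 (p * a) := by
    rw [← hyp.f3 (p * a) hma, ← hred]
    exact S.red_mem_redSp _ hw
  obtain ⟨hT1, hglue⟩ := G.mem_glued_one.mp hmem
  have hpow : S.red x ^ p ∈ G.T (p * a) := by
    have h1 := G.T_mul hT' hT1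
    rw [← mul_assoc, mul_comm (S.red uinv), hcc, one_mul, zero_add] at h1
    exact h1
  have hrT := hyp.root a _ hpow
  refine G.mem_glued_one.mpr ⟨hrT, ?_⟩
  funext i
  have h1 := congrFun hglue i
  rw [G.e₁_mul hT (G.pow_mem_T hrT p), G.e₂_mul hT (G.pow_mem_T hrT p),
    G.e₁_pow hrT, G.e₂_pow hrT] at h1
  simp only [Pi.mul_apply, Pi.pow_apply] at h1
  have h2 : G.e₁ (S.red uinv) i * G.e₁ (S.red u) i = 1 := by
    have := congrFun (G.e₁_mul hT' hT) i
    rw [mul_comm (S.red uinv), hcc, G.e₁_one] at this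
    simpa using this.symm
  have hc0 : G.e₁ (S.red u) i ≠ 0 := right_ne_zero_of_mul_eq_one h2
  rw [← congrFun hdiag i] at h1
  exact tob_pow_inj hp (mul_left_cancel₀ hc0 h1)

/-- **the gluing constant is `1`**: `red (L(a D₁ + E) ∩ O)` is the UNTWISTED glued space. -/
theorem tob_glued_one [CharP k p] (hp : p.Prime) (hyp : TwistHyp S G p D₁ a₀) {a : ℕ}
    (ha : a₀ ≤ a) (E : Divisor K F) (hE : Divisor.degree E = 0) (u uinv : S.O)
    (huu : u * uinv = 1) (hT : S.red u ∈ G.T 0) (hT' : S.red uinv ∈ G.T 0)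
    (hdiag : G.e₁ (S.red u) = G.e₂ (S.red u))
    (hdiv : ∀ v : Place K F, v.ord (u : F) = p * E v) :
    S.redSp (riemannRochSpace (a • D₁ + E)) = G.glued 1 a := by
  have hle := tob_le_glued_one hp hyp ha E u uinv huu hT hT' hdiag hdiv
  have : Module.Finite K (riemannRochSpace (a • D₁ + E)) := finite_riemannRochSpace _
  have : Module.Finite K (riemannRochSpace (a • D₁)) := finite_riemannRochSpace _
  have h1 : Module.finrank k (S.redSp (riemannRochSpace (a • D₁ + E))) =
      Module.finrank k (G.glued 1 a) := by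
    rw [S.finrank_redSp, hyp.dimE a ha E hE, ← S.finrank_redSp, hyp.f3 a ha]
  exact Submodule.eq_of_le_of_finrank_eq hle h1

/-- there is `h ∈ L(a D₁ + E) ∩ O` with `red h = 1` -/
theorem tob_exists_h [CharP k p] (hp : p.Prime) (hyp : TwistHyp S G p D₁ a₀) {a : ℕ}
    (ha : a₀ ≤ a) (E : Divisor K F) (hE : Divisor.degree E = 0) (u uinv : S.O)
    (huu : u * uinv = 1) (hT : S.red u ∈ G.T 0) (hT' : S.red uinv ∈ G.T 0)
    (hdiag : G.e₁ (S.red u) = G.e₂ (S.red u))
    (hdiv : ∀ v : Place K F, v.ord (u : F) = p * E v) :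
    ∃ h : S.O, (h : F) ∈ riemannRochSpace (a • D₁ + E) ∧ S.red h = 1 := by
  have h1 : (1 : R) ∈ S.redSp (riemannRochSpace (a • D₁ + E)) := by
    rw [tob_glued_one hp hyp ha E hE u uinv huu hT hT' hdiag hdiv]
    exact G.one_mem_glued_one a
  exact S.mem_redSp.mp h1

/-- **Kummer function in `B`**: `f₁ = u · h^p` has its poles on `D₁`, the same reduction as `u`,
and `h ≠ 0`. -/
theorem tob_kummer [CharP k p] [Nontrivial R] (hp : p.Prime) (hyp : TwistHyp S G p D₁ a₀)
    {a : ℕ} (ha : a₀ ≤ a) (E : Divisor K F) (hE : Divisor.degree E = 0) (u uinv : S.O)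
    (huu : u * uinv = 1) (hT : S.red u ∈ G.T 0) (hT' : S.red uinv ∈ G.T 0)
    (hdiag : G.e₁ (S.red u) = G.e₂ (S.red u))
    (hdiv : ∀ v : Place K F, v.ord (u : F) = p * E v) :
    ∃ h : S.O, (h : F) ≠ 0 ∧ (h : F) ∈ riemannRochSpace (a • D₁ + E) ∧ S.red h = 1 ∧
      ((u * h ^ p : S.O) : F) ∈ riemannRochSpace ((p * a) • D₁) ∧
      S.red (u * h ^ p) = S.red u := by
  obtain ⟨h, hh, hred⟩ := tob_exists_h hp hyp ha E hE u uinv huu hT hT' hdiag hdiv
  have hu0 : (u : F) ≠ 0 := by
    intro h0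
    have h1 : ((u * uinv : S.O) : F) = 1 := by rw [huu]; rfl
    rw [Subring.coe_mul, h0, zero_mul] at h1
    exact zero_ne_one h1
  have hh0 : (h : F) ≠ 0 := by
    intro h0
    have : h = 0 := Subtype.ext h0
    rw [this, map_zero] at hred
    exact zero_ne_one hred
  refine ⟨h, hh0, hh, hred, ?_, ?_⟩
  · have := tw_kummer_mul_pow_mem (D₁ := D₁) hu0 hdiv hh
    simpa using this
  · rw [map_mul, map_pow, hred, one_pow, mul_one]

/-- the diagonal hypothesis for a CONSTANT reduction `red u = c · 1` -/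
theorem tob_diag_of_const (G : Gluing k R) {r : R} {c : k} (hr : r = algebraMap k R c) :
    r ∈ G.T 0 ∧ G.e₁ r = G.e₂ r := by
  have h1 : r = c • (1 : R) := by rw [hr, Algebra.algebraMap_eq_smul_one]
  refine ⟨?_, ?_⟩
  · rw [h1]
    exact (G.T 0).smul_mem c G.one_mem
  · rw [h1, map_smul, map_smul, G.e₁_one, G.e₂_one]

/-- **Kummer function in `B`, constant form**: `red u = c · 1`, `red u⁻¹ = c' · 1`. -/
theorem tob_kummer_const [CharP k p] [Nontrivial R] (hp : p.Prime) (hyp : TwistHyp S G p D₁ a₀)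
    {a : ℕ} (ha : a₀ ≤ a) (E : Divisor K F) (hE : Divisor.degree E = 0) (u uinv : S.O)
    (huu : u * uinv = 1) {c c' : k} (hc : S.red u = algebraMap k R c)
    (hc' : S.red uinv = algebraMap k R c')
    (hdiv : ∀ v : Place K F, v.ord (u : F) = p * E v) :
    ∃ h : S.O, (h : F) ≠ 0 ∧ (h : F) ∈ riemannRochSpace (a • D₁ + E) ∧ S.red h = 1 ∧
      ((u * h ^ p : S.O) : F) ∈ riemannRochSpace ((p * a) • D₁) ∧
      S.red (u * h ^ p) = algebraMap k R c := by
  obtain ⟨hT, hdiag⟩ := tob_diag_of_const G hc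
  obtain ⟨hT', -⟩ := tob_diag_of_const G hc'
  obtain ⟨h, h0, hh, hred, hmem, hru⟩ :=
    tob_kummer hp hyp ha E hE u uinv huu hT hT' hdiag hdiv
  exact ⟨h, h0, hh, hred, hmem, hru.trans hc⟩

end Fermat.Agent.S33lib

end
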