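import Mathlib
import Fermat.Agent.S33lib.TorB

/-!
# Item 86 (S33), block TOR_p (helper4): the SECOND representative (poles on `D₂`)

Continuation of `TorB.lean`, with the crux datum `TwistCrux S G 1 D₁ D₂ n₂ f finv` of S34 at
`m = 1` (`div f = D₂ - n₂ D₁`, `red f` glued): for `div u = p E`, `red u` diagonal,

* `tob_exists_h2` : there is `h₂ ∈ L(c D₂ + E) ∩ O` with `red h₂ = 1` (`a₀ ≤ c n₂`);
* `tob_kummer2`   : `f₂ := u · h₂^p ∈ L(p c D₂) ∩ O`, `red f₂ = red u`;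
* `tob_two_reps`  : both representatives at once, `f₁ = u h₁^p` with poles on `D₁` and
  `f₂ = u h₂^p` with poles on `D₂`, `red h₁ = red h₂ = 1`.
-/

set_option autoImplicit false
set_option linter.style.haveILetI false
set_option linter.unusedSectionVars false

noncomputable section

namespace Fermat.Agent.S33lib

open AlgebraicCurve Fermat.Agent.S34lib Fermat.Agent.RRlib

variable {K F k : Type*} [Field K] [Field F] [Algebra K F] [Field k]
variable {R : Type*} [CommRing R] [Algebra k R]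
variable {A : ValuationSubring K} {π : A →+* k}
variable [RRBase K F] {S : SSRed A π R F} {G : Gluing k R} {p : ℕ} {D₁ D₂ : Divisor K F}
  {a₀ n₂ : ℕ} {f finv : S.O}

/-- powers of a glued element are glued -/
theorem tob_pow_mem_glued_one {n : ℕ} {r : R} (hr : r ∈ G.glued 1 n) (c : ℕ) :
    r ^ c ∈ G.glued 1 (c * n) := by
  obtain ⟨hT, he⟩ := G.mem_glued_one.mp hr
  exact G.mem_glued_one.mpr ⟨G.pow_mem_T hT c, by rw [G.e₁_pow hT, G.e₂_pow hT, he]⟩

/-- there is `h₂ ∈ L(c D₂ + E) ∩ O` with `red h₂ = 1` -/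
theorem tob_exists_h2 [CharP k p] (hp : p.Prime) (hyp : TwistHyp S G p D₁ a₀)
    (hc : TwistCrux S G 1 D₁ D₂ n₂ f finv) {c : ℕ} (hca : a₀ ≤ c * n₂)
    (E : Divisor K F) (hE : Divisor.degree E = 0) (u uinv : S.O)
    (huu : u * uinv = 1) (hT : S.red u ∈ G.T 0) (hT' : S.red uinv ∈ G.T 0)
    (hdiag : G.e₁ (S.red u) = G.e₂ (S.red u))
    (hdiv : ∀ v : Place K F, v.ord (u : F) = p * E v) :
    ∃ h : S.O, (h : F) ∈ riemannRochSpace (c • D₂ + E) ∧ S.red h = 1 := by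
  have h1 : S.red f ^ c ∈ S.redSp (riemannRochSpace ((c * n₂) • D₁ + E)) := by
    rw [tob_glued_one hp hyp hca E hE u uinv huu hT hT' hdiag hdiv]
    exact tob_pow_mem_glued_one hc.f_glued c
  obtain ⟨y, hy, hyred⟩ := S.mem_redSp.mp h1
  refine ⟨finv ^ c * y, ?_, ?_⟩
  · have := hc.inv_pow_mul_mem hy
    simpa using this
  · rw [map_mul, map_pow, hyred, ← mul_pow, mul_comm, hc.red_unit, one_pow]

/-- **second Kummer function**: `f₂ = u · h₂^p` has its poles on `D₂` and the reduction of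
`u`. -/
theorem tob_kummer2 [CharP k p] [Nontrivial R] (hp : p.Prime) (hyp : TwistHyp S G p D₁ a₀)
    (hc : TwistCrux S G 1 D₁ D₂ n₂ f finv) {c : ℕ} (hca : a₀ ≤ c * n₂)
    (E : Divisor K F) (hE : Divisor.degree E = 0) (u uinv : S.O)
    (huu : u * uinv = 1) (hT : S.red u ∈ G.T 0) (hT' : S.red uinv ∈ G.T 0)
    (hdiag : G.e₁ (S.red u) = G.e₂ (S.red u))
    (hdiv : ∀ v : Place K F, v.ord (u : F) = p * E v) :
    ∃ h : S.O, (h : F) ≠ 0 ∧ (h : F) ∈ riemannRochSpace (c • D₂ + E) ∧ S.red h = 1 ∧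
      ((u * h ^ p : S.O) : F) ∈ riemannRochSpace ((p * c) • D₂) ∧
      S.red (u * h ^ p) = S.red u := by
  obtain ⟨h, hh, hred⟩ := tob_exists_h2 hp hyp hc hca E hE u uinv huu hT hT' hdiag hdiv
  have hu0 : (u : F) ≠ 0 := by
    intro h0
    have h1 : ((u * uinv : S.O) : F) = 1 := by rw [huu]; rfl
    rw [Subring.coe_mul, h0, zero_mul] at h1
    exact zero_ne_one h1
  have hh0 : (h : F) ≠ 0 := by
    intro h0
    have : h = 0 := Subtype.ext h0
    rw [this, map_zero] at hred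
    exact zero_ne_one hred
  refine ⟨h, hh0, hh, hred, ?_, ?_⟩
  · have := tw_kummer_mul_pow_mem (D₁ := D₂) hu0 hdiv hh
    simpa using this
  · rw [map_mul, map_pow, hred, one_pow, mul_one]

/-- **the two representatives**: `f₁ = u h₁^p` with poles on `D₁`, `f₂ = u h₂^p` with poles on
`D₂`, `red h₁ = red h₂ = 1`. -/
theorem tob_two_reps [CharP k p] [Nontrivial R] (hp : p.Prime) (hyp : TwistHyp S G p D₁ a₀)
    (hc : TwistCrux S G 1 D₁ D₂ n₂ f finv) {a c : ℕ} (ha : a₀ ≤ a) (hca : a₀ ≤ c * n₂)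
    (E : Divisor K F) (hE : Divisor.degree E = 0) (u uinv : S.O)
    (huu : u * uinv = 1) (hT : S.red u ∈ G.T 0) (hT' : S.red uinv ∈ G.T 0)
    (hdiag : G.e₁ (S.red u) = G.e₂ (S.red u))
    (hdiv : ∀ v : Place K F, v.ord (u : F) = p * E v) :
    ∃ h₁ h₂ : S.O, (h₁ : F) ≠ 0 ∧ (h₂ : F) ≠ 0 ∧
      (h₁ : F) ∈ riemannRochSpace (a • D₁ + E) ∧ (h₂ : F) ∈ riemannRochSpace (c • D₂ + E) ∧
      S.red h₁ = 1 ∧ S.red h₂ = 1 ∧
      ((u * h₁ ^ p : S.O) : F) ∈ riemannRochSpace ((p * a) • D₁) ∧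
      ((u * h₂ ^ p : S.O) : F) ∈ riemannRochSpace ((p * c) • D₂) ∧
      S.red (u * h₁ ^ p) = S.red u ∧ S.red (u * h₂ ^ p) = S.red u := by
  obtain ⟨h₁, h10, h1m, h1r, h1L, h1u⟩ :=
    tob_kummer hp hyp ha E hE u uinv huu hT hT' hdiag hdiv
  obtain ⟨h₂, h20, h2m, h2r, h2L, h2u⟩ :=
    tob_kummer2 hp hyp hc hca E hE u uinv huu hT hT' hdiag hdiv
  exact ⟨h₁, h₂, h10, h20, h1m, h2m, h1r, h2r, h1L, h2L, h1u, h2u⟩

end Fermat.Agent.S33lib

end
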