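import Mathlib
import Fermat.Agent.S36lib.Speed
import Fermat.Agent.S33lib.TorB2
import Fermat.Agent.S33lib.RayLiftPair
import Fermat.Agent.S34lib.CruxSSBuild

/-!
# Item 86 (S33), block TOR_p (helper4): the `F^H`-RATIONAL inputs of the pair `K₁`-lemma

Level `L` (for us `L = N' p`), two constant reductions `R₁, R₂` of `FF L` (for us `R` and
`R ∘ w_p`), `S = SSRed.ofPair R₁ R₂` with a gluing `G`, `TwistHyp S G p D₁ a₀`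
(S34lib `glueMod`, any exponent) and `TwistCrux S G 1 D₁ D₂ n₂ f finv` (S34lib, exponent `1`).
`H` a set of automorphisms of `ℚ̄` with fixed field `K'`, discretely valued (uniformiser `ϖ`),
both valuation rings discrete on `F^H` (DISC), `D₁, D₂, E` stable under `H`.

`tbc_inputs` : for an `H`-fixed Kummer function `u` of `E` (`div u = p E`) with `u ≡ 1` for
both valuations there are `H`-FIXED functions `f₁, h` with

* `f₁ = u⁻¹ · s₁^p` (a Kummer function of the class of `-E`), `f₁ ≡ 1`, poles of `f₁` only on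
  `D₁`  (`f₁ ∈ L(p a D₁)`),
* `h ≡ 1`, poles of `h^p / f₁` only on `D₂`  (`h^p / f₁ ∈ L(p c D₂)`):

exactly the inputs `f₁, h` of `rss_core_const` (helper26) with `B_i` = "regular off `supp D_i`".
-/

set_option autoImplicit false
set_option linter.style.haveILetI false
set_option linter.unusedSectionVars false
set_option synthInstance.maxHeartbeats 400000

noncomputable section

namespace Fermat.Agent.S33lib

open ModularCurve AlgebraicCurve HahnSeries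
open Fermat.Agent.S24lib Fermat.Agent.S34lib Fermat.Agent.GoodRed Fermat.Agent.RRlib
  Fermat.Agent.S36lib

section Units

variable {K F k Fk : Type*} [Field K] [Field F] [Algebra K F] [Field k] [Field Fk] [Algebra k Fk]
variable {A : ValuationSubring K} {π : A →+* k}

/-- `x ≡ 1` modulo the maximal ideal ⇔ `x ∈ O` and `red x = 1` -/
theorem tbc_red_eq_one_iff (R : ConstRed A π Fk F) (x : F) :
    x - 1 ∈ R.O.nonunits ↔ ∃ hx : x ∈ R.O, R.red ⟨x, hx⟩ = 1 := by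
  constructor
  · intro h
    have hx : x ∈ R.O := by
      have := R.O.add_mem _ _ (R.O.nonunits_subset h) R.O.one_mem
      rwa [sub_add_cancel] at this
    refine ⟨hx, ?_⟩
    have h1 : R.red (⟨x, hx⟩ - 1) = 0 := (R.red_eq_zero_iff _).mpr h
    rw [map_sub, map_one, sub_eq_zero] at h1
    exact h1
  · rintro ⟨hx, h⟩
    have h1 : R.red (⟨x, hx⟩ - 1) = 0 := by rw [map_sub, map_one, h, sub_self]
    exact (R.red_eq_zero_iff _).mp h1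

/-- an element `≡ 1` is a unit of `O`, and its inverse is `≡ 1` -/
theorem tbc_inv_sub_one_mem (R : ConstRed A π Fk F) {x : F} (h : x - 1 ∈ R.O.nonunits) :
    x⁻¹ - 1 ∈ R.O.nonunits := by
  obtain ⟨hx, hred⟩ := (tbc_red_eq_one_iff R x).mp h
  have hx0 : x ≠ 0 := by
    intro h0
    have : (⟨x, hx⟩ : R.O) = 0 := Subtype.ext h0
    rw [this, map_zero] at hred
    exact zero_ne_one hred
  have hnu : x ∉ R.O.nonunits := by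
    intro hnu
    have := (R.red_eq_zero_iff ⟨x, hx⟩).mpr hnu
    rw [hred] at this
    exact one_ne_zero this
  have hinv : x⁻¹ ∈ R.O := by
    rw [ValuationSubring.mem_nonunits_iff_or, not_or, not_not] at hnu
    exact hnu.2
  refine (tbc_red_eq_one_iff R x⁻¹).mpr ⟨hinv, ?_⟩
  have h1 : (⟨x, hx⟩ : R.O) * ⟨x⁻¹, hinv⟩ = 1 := Subtype.ext (mul_inv_cancel₀ hx0)
  have h2 := congrArg R.red h1
  rw [map_mul, hred, one_mul, map_one] at h2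
  exact h2

end Units

section Main

variable {A : ValuationSubring Kbar} {H : Set (Kbar ≃ₐ[ℚ] Kbar)}
  {K' : IntermediateField ℚ Kbar} {L : ℕ} [NeZero L]
variable {k : Type*} [Field k] {π : A →+* k} {Fk : Type*} [Field Fk] [Algebra k Fk]

/-- **the `F^H`-rational inputs of the pair `K₁`-lemma.** -/
theorem tbc_inputs [RRBase Kbar (FF L)] (hK' : ∀ c : Kbar, c ∈ K' ↔ ∀ σ ∈ H, σ c = c)
    (hK0 : k0Field A ≤ K') {ϖ : Kbar} (hd : VdDisc A K'.toSubfield ϖ)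
    {p : ℕ} (hp : p.Prime) (hA : A.LiesOverPrime p) [CharP k p]
    (R₁ R₂ : ConstRed A π Fk (FF L))
    (hdisc₁ : ∀ f ∈ fixedLBC H (modularFunctionFieldFull L), f ≠ 0 → ∃ n : ℤ,
      algebraMap Kbar (FF L) (ϖ ^ n) * f ∈ R₁.O ∧
        (algebraMap Kbar (FF L) (ϖ ^ n) * f)⁻¹ ∈ R₁.O)
    (hdisc₂ : ∀ f ∈ fixedLBC H (modularFunctionFieldFull L), f ≠ 0 → ∃ n : ℤ,
      algebraMap Kbar (FF L) (ϖ ^ n) * f ∈ R₂.O ∧
        (algebraMap Kbar (FF L) (ϖ ^ n) * f)⁻¹ ∈ R₂.O)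
    {G : Gluing k (Fk × Fk)} {D₁ D₂ : Divisor Kbar (FF L)} {a₀ n₂ : ℕ}
    {f finv : (SSRed.ofPair R₁ R₂).O}
    (hyp : TwistHyp (SSRed.ofPair R₁ R₂) G p D₁ a₀)
    (hc : TwistCrux (SSRed.ofPair R₁ R₂) G 1 D₁ D₂ n₂ f finv)
    (hD₁ : ∀ σ ∈ H, galFF L σ • D₁ = D₁) (hD₂ : ∀ σ ∈ H, galFF L σ • D₂ = D₂)
    {a c : ℕ} (ha : a₀ ≤ a) (hca : a₀ ≤ c * n₂)
    (E : Divisor Kbar (FF L)) (hE : Divisor.degree E = 0) (hEH : ∀ σ ∈ H, galFF L σ • E = E)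
    (u : FF L) (huH : u ∈ fixedLBC H (modularFunctionFieldFull L))
    (hu₁ : u - 1 ∈ R₁.O.nonunits) (hu₂ : u - 1 ∈ R₂.O.nonunits)
    (hdiv : ∀ v : Place Kbar (FF L), v.ord u = p * E v) :
    ∃ f₁ h s₁ : FF L, s₁ ≠ 0 ∧ f₁ = u⁻¹ * s₁ ^ p ∧
      s₁ ∈ riemannRochSpace (K := Kbar) (a • D₁ + -E) ∧
      f₁ ∈ fixedLBC H (modularFunctionFieldFull L) ∧
      f₁ - 1 ∈ R₁.O.nonunits ∧ f₁ - 1 ∈ R₂.O.nonunits ∧
      f₁ ∈ riemannRochSpace (K := Kbar) ((p * a) • D₁) ∧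
      h ∈ fixedLBC H (modularFunctionFieldFull L) ∧
      h - 1 ∈ R₁.O.nonunits ∧ h - 1 ∈ R₂.O.nonunits ∧
      h ^ p / f₁ ∈ riemannRochSpace (K := Kbar) ((p * c) • D₂) := by
  classical
  set S := SSRed.ofPair R₁ R₂ with hS
  haveI : Nontrivial (Fk × Fk) := inferInstance
  -- `u` and `u⁻¹` as elements of the sup-norm ball
  obtain ⟨hu1O, hu1r⟩ := (tbc_red_eq_one_iff R₁ u).mp hu₁
  obtain ⟨hu2O, hu2r⟩ := (tbc_red_eq_one_iff R₂ u).mp hu₂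
  obtain ⟨hi1O, hi1r⟩ := (tbc_red_eq_one_iff R₁ u⁻¹).mp (tbc_inv_sub_one_mem R₁ hu₁)
  obtain ⟨hi2O, hi2r⟩ := (tbc_red_eq_one_iff R₂ u⁻¹).mp (tbc_inv_sub_one_mem R₂ hu₂)
  have hu0 : u ≠ 0 := by
    intro h0
    have : (⟨u, hu1O⟩ : R₁.O) = 0 := Subtype.ext h0
    rw [this, map_zero] at hu1r
    exact zero_ne_one hu1r
  have hui0 : u⁻¹ ≠ 0 := inv_ne_zero hu0
  let uS : S.O := ⟨u, ⟨hu1O, hu2O⟩⟩
  let uiS : S.O := ⟨u⁻¹, ⟨hi1O, hi2O⟩⟩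
  have huu : uS * uiS = 1 := Subtype.ext (mul_inv_cancel₀ hu0)
  have huu' : uiS * uS = 1 := by rw [mul_comm]; exact huu
  have hredu : S.red uS = 1 := Prod.ext hu1r hu2r
  have hredui : S.red uiS = 1 := Prod.ext hi1r hi2r
  have hT : S.red uS ∈ G.T 0 := by rw [hredu]; exact G.one_mem
  have hT' : S.red uiS ∈ G.T 0 := by rw [hredui]; exact G.one_mem
  have hdiag : G.e₁ (S.red uS) = G.e₂ (S.red uS) := by rw [hredu, G.e₁_one, G.e₂_one]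
  have hdiag' : G.e₁ (S.red uiS) = G.e₂ (S.red uiS) := by rw [hredui, G.e₁_one, G.e₂_one]
  have hdivS : ∀ v : Place Kbar (FF L), v.ord ((uS : S.O) : FF L) = p * E v := hdiv
  have hdivi : ∀ v : Place Kbar (FF L), v.ord ((uiS : S.O) : FF L) = p * (-E) v := by
    intro v
    show v.ord u⁻¹ = p * (-E) v
    rw [v.ord_inv, hdiv, Finsupp.neg_apply]
    ring
  have hEneg : Divisor.degree (-E) = 0 := by rw [map_neg, hE, neg_zero]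
  -- the two lifts of `1`
  obtain ⟨z₁, hz₁, hz₁r⟩ := tob_exists_h hp hyp ha (-E) hEneg uiS uS huu' hT' hT hdiag' hdivi
  obtain ⟨z₂, hz₂, hz₂r⟩ := tob_exists_h2 hp hyp hc hca E hE uS uiS huu hT hT' hdiag hdivS
  -- descent to `F^H`
  have hst₁ : ∀ σ ∈ H, galFF L σ • (a • D₁ + -E) = a • D₁ + -E := by
    intro σ hσ
    rw [smul_add, smul_comm, hD₁ σ hσ, smul_neg, hEH σ hσ]
  have hst₂ : ∀ σ ∈ H, galFF L σ • (c • D₂ + E) = c • D₂ + E := by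
    intro σ hσ
    rw [smul_add, smul_comm, hD₂ σ hσ, hEH σ hσ]
  obtain ⟨s₁, hs₁1, hs₁2, hs₁L, hs₁H, hs₁r1, hs₁r2⟩ :=
    rlp_descent_pair hK' hK0 hd hp hA R₁ R₂ hdisc₁ hdisc₂ _ hst₁ (z₁ : FF L) hz₁ z₁.2.1 z₁.2.2
  obtain ⟨s₂, hs₂1, hs₂2, hs₂L, hs₂H, hs₂r1, hs₂r2⟩ :=
    rlp_descent_pair hK' hK0 hd hp hA R₁ R₂ hdisc₁ hdisc₂ _ hst₂ (z₂ : FF L) hz₂ z₂.2.1 z₂.2.2
  have hz₁r1 : R₁.red ⟨(z₁ : FF L), z₁.2.1⟩ = 1 := congrArg Prod.fst hz₁r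
  have hz₁r2 : R₂.red ⟨(z₁ : FF L), z₁.2.2⟩ = 1 := congrArg Prod.snd hz₁r
  have hz₂r1 : R₁.red ⟨(z₂ : FF L), z₂.2.1⟩ = 1 := congrArg Prod.fst hz₂r
  have hz₂r2 : R₂.red ⟨(z₂ : FF L), z₂.2.2⟩ = 1 := congrArg Prod.snd hz₂r
  rw [hz₁r1] at hs₁r1
  rw [hz₁r2] at hs₁r2
  rw [hz₂r1] at hs₂r1
  rw [hz₂r2] at hs₂r2
  have hs₁0 : s₁ ≠ 0 := by
    intro h0
    have : (⟨s₁, hs₁1⟩ : R₁.O) = 0 := Subtype.ext h0
    rw [this, map_zero] at hs₁r1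
    exact zero_ne_one hs₁r1
  refine ⟨u⁻¹ * s₁ ^ p, s₁ * s₂, s₁, hs₁0, rfl, hs₁L, ?_, ?_, ?_, ?_, ?_, ?_, ?_, ?_⟩
  · exact mul_mem (inv_mem huH) (pow_mem hs₁H p)
  · refine (tbc_red_eq_one_iff R₁ _).mpr ⟨R₁.O.mul_mem _ _ hi1O (pow_mem hs₁1 p), ?_⟩
    have e : (⟨u⁻¹ * s₁ ^ p, R₁.O.mul_mem _ _ hi1O (pow_mem hs₁1 p)⟩ : R₁.O)
        = ⟨u⁻¹, hi1O⟩ * ⟨s₁, hs₁1⟩ ^ p := rfl
    rw [e, map_mul, map_pow, hi1r, hs₁r1, one_pow, one_mul]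
  · refine (tbc_red_eq_one_iff R₂ _).mpr ⟨R₂.O.mul_mem _ _ hi2O (pow_mem hs₁2 p), ?_⟩
    have e : (⟨u⁻¹ * s₁ ^ p, R₂.O.mul_mem _ _ hi2O (pow_mem hs₁2 p)⟩ : R₂.O)
        = ⟨u⁻¹, hi2O⟩ * ⟨s₁, hs₁2⟩ ^ p := rfl
    rw [e, map_mul, map_pow, hi2r, hs₁r2, one_pow, one_mul]
  · exact tw_kummer_mul_pow_mem (D₁ := D₁) hui0 (fun v => by
      rw [v.ord_inv, hdiv, Finsupp.neg_apply]; ring) hs₁L
  · exact mul_mem hs₁H hs₂H
  · refine (tbc_red_eq_one_iff R₁ _).mpr ⟨R₁.O.mul_mem _ _ hs₁1 hs₂1, ?_⟩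
    have e : (⟨s₁ * s₂, R₁.O.mul_mem _ _ hs₁1 hs₂1⟩ : R₁.O) = ⟨s₁, hs₁1⟩ * ⟨s₂, hs₂1⟩ := rfl
    rw [e, map_mul, hs₁r1, hs₂r1, one_mul]
  · refine (tbc_red_eq_one_iff R₂ _).mpr ⟨R₂.O.mul_mem _ _ hs₁2 hs₂2, ?_⟩
    have e : (⟨s₁ * s₂, R₂.O.mul_mem _ _ hs₁2 hs₂2⟩ : R₂.O) = ⟨s₁, hs₁2⟩ * ⟨s₂, hs₂2⟩ := rfl
    rw [e, map_mul, hs₁r2, hs₂r2, one_mul]
  · have h1 : (s₁ * s₂) ^ p / (u⁻¹ * s₁ ^ p) = u * s₂ ^ p := by
      rw [div_eq_iff (mul_ne_zero hui0 (pow_ne_zero p hs₁0)), mul_pow]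
      have e : u * s₂ ^ p * (u⁻¹ * s₁ ^ p) = (u * u⁻¹) * (s₁ ^ p * s₂ ^ p) := by ring
      rw [e, mul_inv_cancel₀ hu0, one_mul]
    rw [h1]
    exact tw_kummer_mul_pow_mem (D₁ := D₂) hu0 hdiv hs₂L

end Main

end Fermat.Agent.S33lib

end
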