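import Mathlib
import Fermat.Agent.S36lib.Speed
import Fermat.Agent.S33lib.TorBConc
import Fermat.Agent.S33lib.RootRat
import Fermat.Agent.S33lib.LevB
import Fermat.Agent.S33lib.TorGlue

/-!
# Item 86 (S33), block TOR_p (helper4): the CORE of the assembly

`tbc_inputs` (the two `F^H`-rational representatives) + `lvb_core` (the level induction, with
(CONST) = `glb_const_pair`, (ROOT₂) = `rrt_root2`) + the level `i* = p j` (`tas_level_star`):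

`tcr_deep` : in the setting of `tbc_inputs`, for an `H`-fixed Kummer function `u` of `E`
(`div u = p E`), `u ≡ 1` for both valuations, and `lam ∈ K'` with `v(p) = v(lam)^(p-1)`
(`lam = ζ - 1`): if (STEP) holds for the functions `u⁻¹ s₁^p`, there are `s ≠ 0`, `c₀ ≠ 0` and
`g ∈ F^H ∩ O₁ ∩ O₂`, `g ∈ L(b D₁)`, with

  `u⁻¹ · s^p = c₀ · (1 + lam^p · g)`,

the shape of the Kummer function in `r2n_fixed` (REG2 at the level `N`).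
-/

set_option autoImplicit false
set_option linter.style.haveILetI false
set_option linter.unusedSectionVars false
set_option linter.unusedVariables false
set_option synthInstance.maxHeartbeats 400000

noncomputable section

namespace Fermat.Agent.S33lib

open ModularCurve AlgebraicCurve HahnSeries
open Fermat.Agent.S24lib Fermat.Agent.S34lib Fermat.Agent.GoodRed Fermat.Agent.RRlib
  Fermat.Agent.S36lib

section Aux

variable {K : Type*} [Field K] (A : ValuationSubring K)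

/-- the exponent of an element of valuation `< 1` is a positive natural number -/
theorem tcr_exp_pos {ϖ x : K} (hϖ0 : ϖ ≠ 0) (hϖlt : A.valuation ϖ < 1)
    (hx : A.valuation x < 1) {n : ℤ} (hn : A.valuation x = A.valuation ϖ ^ n) :
    ∃ e : ℕ, 0 < e ∧ A.valuation x = A.valuation ϖ ^ e := by
  have hv0 : A.valuation ϖ ≠ 0 := (Valuation.ne_zero_iff _).mpr hϖ0
  have hn0 : 0 < n := by
    by_contra hcon
    rw [not_lt] at hcon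
    have h1 : 1 ≤ A.valuation ϖ ^ n := by
      have h2 : A.valuation ϖ ^ (-n) ≤ 1 := by
        obtain ⟨k, hk⟩ := Int.eq_ofNat_of_zero_le (neg_nonneg.mpr hcon)
        rw [hk, zpow_natCast]
        exact pow_le_one₀ zero_le hϖlt.le
      rw [zpow_neg] at h2
      exact (inv_le_one₀ (zpow_pos (zero_lt_iff.mpr hv0) n)).mp h2
    rw [← hn] at h1
    exact absurd hx (not_lt.mpr h1)
  obtain ⟨j, rfl⟩ := Int.eq_ofNat_of_zero_le hn0.le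
  refine ⟨j, by exact_mod_cast hn0, ?_⟩
  rw [hn, zpow_natCast]

/-- `x = ϖ^e · (unit)` if `v(x) = v(ϖ)^e` -/
theorem tcr_eq_pow_mul {ϖ x : K} (hϖ0 : ϖ ≠ 0) {e : ℕ}
    (he : A.valuation x = A.valuation ϖ ^ e) : ∃ ε ∈ A, x = ϖ ^ e * ε := by
  refine ⟨x / ϖ ^ e, ?_, ?_⟩
  · rw [← A.valuation_le_one_iff, map_div₀, map_pow, he]
    exact (div_self (pow_ne_zero e ((Valuation.ne_zero_iff _).mpr hϖ0))).le
  · field_simp

variable {k : Type*} [Field k] {A}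

/-- a surjective homomorphism of a valuation ring onto a field kills the maximal ideal -/
theorem tcr_pi_eq_zero {π : A →+* k} (hπ : Function.Surjective π) {x : K} (hx : x ∈ A)
    (hv : A.valuation x < 1) : π ⟨x, hx⟩ = 0 := by
  have hmax : (RingHom.ker π).IsMaximal := RingHom.ker_isMaximal_of_surjective π hπ
  have hker : RingHom.ker π = IsLocalRing.maximalIdeal A := IsLocalRing.eq_maximalIdeal hmax
  have hmem : (⟨x, hx⟩ : A) ∈ IsLocalRing.maximalIdeal A :=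
    (ValuationSubring.valuation_lt_one_iff A _).mpr hv
  rw [← hker] at hmem
  exact hmem

end Aux

section Main

variable {A : ValuationSubring Kbar} {H : Set (Kbar ≃ₐ[ℚ] Kbar)}
  {K' : IntermediateField ℚ Kbar} {L : ℕ} [NeZero L]
variable {k : Type*} [Field k] {π : A →+* k} {Fk : Type*} [Field Fk] [Algebra k Fk]

set_option maxHeartbeats 1000000 in
/-- **the core of TOR_p**: the Kummer function `u⁻¹ s^p` of the class of `-E` is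
`c₀ (1 + lam^p g)`, `g ∈ F^H ∩ O₁ ∩ O₂` with poles on `D₁`. -/
theorem tcr_deep [RRBase Kbar (FF L)] (hK' : ∀ c : Kbar, c ∈ K' ↔ ∀ σ ∈ H, σ c = c)
    (hK0 : k0Field A ≤ K') {ϖ : Kbar} (hd : VdDisc A K'.toSubfield ϖ)
    {p : ℕ} (hp : p.Prime) (hp2 : p ≠ 2) (hA : A.LiesOverPrime p) [CharP k p]
    (hvp : A.valuation ((p : ℕ) : Kbar) < 1)
    (R₁ R₂ : ConstRed A π Fk (FF L))
    (hdisc₁ : ∀ f ∈ fixedLBC H (modularFunctionFieldFull L), f ≠ 0 → ∃ n : ℤ,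
      algebraMap Kbar (FF L) (ϖ ^ n) * f ∈ R₁.O ∧
        (algebraMap Kbar (FF L) (ϖ ^ n) * f)⁻¹ ∈ R₁.O)
    (hdisc₂ : ∀ f ∈ fixedLBC H (modularFunctionFieldFull L), f ≠ 0 → ∃ n : ℤ,
      algebraMap Kbar (FF L) (ϖ ^ n) * f ∈ R₂.O ∧
        (algebraMap Kbar (FF L) (ϖ ^ n) * f)⁻¹ ∈ R₂.O)
    (hres1 : ∀ c : k, ∃ a : A, π a = c ∧
      algebraMap Kbar (FF L) (a : Kbar) ∈ fixedLBC H (modularFunctionFieldFull L))
    {G : Gluing k (Fk × Fk)} {D₁ D₂ : Divisor Kbar (FF L)} {a₀ n₂ : ℕ}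
    {f finv : (SSRed.ofPair R₁ R₂).O}
    (hyp : TwistHyp (SSRed.ofPair R₁ R₂) G p D₁ a₀)
    (hc : TwistCrux (SSRed.ofPair R₁ R₂) G 1 D₁ D₂ n₂ f finv)
    (hD₁ : ∀ σ ∈ H, galFF L σ • D₁ = D₁) (hD₂ : ∀ σ ∈ H, galFF L σ • D₂ = D₂)
    {a c : ℕ} (ha : a₀ ≤ a) (hca : a₀ ≤ c * n₂)
    (E : Divisor Kbar (FF L)) (hE : Divisor.degree E = 0) (hEH : ∀ σ ∈ H, galFF L σ • E = E)
    (u : FF L) (huH : u ∈ fixedLBC H (modularFunctionFieldFull L))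
    (hu₁ : u - 1 ∈ R₁.O.nonunits) (hu₂ : u - 1 ∈ R₂.O.nonunits)
    (hdiv : ∀ v : Place Kbar (FF L), v.ord u = p * E v)
    {lam : Kbar} (hlam1 : lam ∈ K') (hlam0 : lam ≠ 0) (hlam : lam ∈ A.nonunits)
    (hlamv : A.valuation ((p : ℕ) : Kbar) = A.valuation lam ^ (p - 1))
    (hstep : ∀ (e : ℕ), (∃ ε ∈ A, ((p : ℕ) : Kbar) = ϖ ^ e * ε) → ∀ (f₁ s₁ : FF L),
      s₁ ≠ 0 → f₁ = u⁻¹ * s₁ ^ p →
      ∀ (i : ℕ) (c : Kbar) (w g : FF L), 1 ≤ i → p ∣ i → (p - 1) * i < p * e → c ≠ 0 →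
        algebraMap Kbar (FF L) c ∈ fixedLBC H (modularFunctionFieldFull L) →
        w ∈ fixedLBC H (modularFunctionFieldFull L) → w ∈ glbB0 D₁ hc.D₁_nonneg →
        w - 1 ∈ R₁.O.nonunits → w - 1 ∈ R₂.O.nonunits →
        g ∈ fixedLBC H (modularFunctionFieldFull L) → g ∈ glbB0 D₁ hc.D₁_nonneg →
        ∀ (h1 : g ∈ R₁.O) (h2 : g ∈ R₂.O),
        f₁ * w ^ p = algebraMap Kbar (FF L) c * (1 + algebraMap Kbar (FF L) (ϖ ^ i) * g) →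
        ∃ (Ψ : FF L) (κ : k) (k1 : Ψ ∈ R₁.O) (k2 : Ψ ∈ R₂.O),
          Ψ ∈ fixedLBC H (modularFunctionFieldFull L) ∧ Ψ ∈ glbB0 D₁ hc.D₁_nonneg ∧
          R₁.red ⟨g, h1⟩ = R₁.red ⟨Ψ, k1⟩ ^ p + algebraMap k Fk κ ∧
          R₂.red ⟨g, h2⟩ = R₂.red ⟨Ψ, k2⟩ ^ p + algebraMap k Fk κ) :
    ∃ (s : FF L) (c₀ : Kbar) (g : FF L), s ≠ 0 ∧ c₀ ≠ 0 ∧
      g ∈ fixedLBC H (modularFunctionFieldFull L) ∧
      (∃ b : ℕ, g ∈ riemannRochSpace (K := Kbar) (b • D₁)) ∧ g ∈ R₁.O ∧ g ∈ R₂.O ∧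
      u⁻¹ * s ^ p = algebraMap Kbar (FF L) c₀ * (1 + algebraMap Kbar (FF L) (lam ^ p) * g) := by
  classical
  set F1 : Subfield (FF L) := fixedLBC H (modularFunctionFieldFull L) with hF1
  -- the uniformiser
  have hϖK : ϖ ∈ K' := hd.1
  have hϖ0 : ϖ ≠ 0 := hd.2.1
  have hϖlt : A.valuation ϖ < 1 := hd.2.2.1
  have hϖA : ϖ ∈ A := (A.valuation_le_one_iff ϖ).mp hϖlt.le
  have hϖπ : π ⟨ϖ, hϖA⟩ = 0 := tcr_pi_eq_zero R₁.π_surjective hϖA hϖlt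
  have hϖF : algebraMap Kbar (FF L) ϖ ∈ F1 :=
    (algebraMap_mem_fixedLBC_iff (modularFunctionFieldFull L) hK' ϖ).mpr hϖK
  -- the exponent `e` of `p`
  have hpK : ((p : ℕ) : Kbar) ∈ K'.toSubfield := natCast_mem K' p
  have hp0 : ((p : ℕ) : Kbar) ≠ 0 := Nat.cast_ne_zero.mpr hp.ne_zero
  obtain ⟨n, hn⟩ := hd.2.2.2 _ hpK hp0
  obtain ⟨e, -, he⟩ := tcr_exp_pos A hϖ0 hϖlt hvp hn
  have hpe : ∃ ε ∈ A, ((p : ℕ) : Kbar) = ϖ ^ e * ε := tcr_eq_pow_mul A hϖ0 he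
  -- the level `i* = p j`
  obtain ⟨j, hj, hej, hval⟩ := tas_level_star A hd hp (lam := lam) hlam1 hlam0 hlam hlamv he
  obtain ⟨υ, hυ, hυe⟩ := tas_level_unit A (ϖ := ϖ) (p := p) (j := j) hlam0 hval
  -- the two representatives
  obtain ⟨f₁, h, s₁, hs₁0, hf₁e, -, hf₁F, hf₁1, hf₁2, hf₁L, hhF, hh1, hh2, hq⟩ :=
    tbc_inputs hK' hK0 hd hp hA R₁ R₂ hdisc₁ hdisc₂ hyp hc hD₁ hD₂ ha hca E hE hEH u huH hu₁ hu₂
      hdiv
  -- the rings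
  set B₁ : Subring (FF L) := glbB0 D₁ hc.D₁_nonneg with hB₁
  set B₂ : Subring (FF L) := glbB (SSRed.ofPair R₁ R₂) D₂ hc.D₂_nonneg with hB₂
  have hB₁c : ∀ c : Kbar, algebraMap Kbar (FF L) c ∈ B₁ :=
    fun c => ⟨0, glb_const_mem_L hc.D₁_nonneg 0 c⟩
  have hB₂c : ∀ c : Kbar, algebraMap Kbar (FF L) c ∈ B₂ :=
    fun c => glb_algebraMap_mem D₂ hc.D₂_nonneg c
  have hconst : ∀ (g g2 : FF L) (h1 : g ∈ R₁.O) (h2 : g ∈ R₂.O) (k1 : g2 ∈ R₁.O)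
      (k2 : g2 ∈ R₂.O), g ∈ F1 → g2 ∈ F1 → g ∈ B₁ → g2 ∈ B₂ →
      R₁.red ⟨g2, k1⟩ = - R₁.red ⟨g, h1⟩ → R₂.red ⟨g2, k2⟩ = - R₂.red ⟨g, h2⟩ →
      ∃ c : k, R₁.red ⟨g, h1⟩ = algebraMap k Fk c ∧ R₂.red ⟨g, h2⟩ = algebraMap k Fk c := by
    intro g g2 h1 h2 k1 k2 hg hg2 hgB hg2B e1 e2
    exact glb_const_pair R₁ R₂ hyp hc F1 g g2 h1 h2 k1 k2 hg hg2
      (glbB0_le_glbB D₁ hc.D₁_nonneg hgB) hg2B e1 e2
  have hroot : ∀ (G' H' : FF L) (g1 : G' ∈ R₁.O) (g2 : G' ∈ R₂.O) (h1 : H' ∈ R₁.O)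
      (h2 : H' ∈ R₂.O), G' ∈ F1 → G' ∈ B₂ → H' ∈ F1 →
      R₁.red ⟨G', g1⟩ = R₁.red ⟨H', h1⟩ ^ p → R₂.red ⟨G', g2⟩ = R₂.red ⟨H', h2⟩ ^ p →
      ∃ (Y : FF L) (y1 : Y ∈ R₁.O) (y2 : Y ∈ R₂.O), Y ∈ F1 ∧ Y ∈ B₂ ∧
        R₁.red ⟨Y, y1⟩ = R₁.red ⟨H', h1⟩ ∧ R₂.red ⟨Y, y2⟩ = R₂.red ⟨H', h2⟩ := by
    intro G' H' g1 g2 h1 h2 _ hGB _ e1 e2
    obtain ⟨_, Y, y1, y2, hYF, _, hYB, r1, r2⟩ :=
      rrt_root2 hK' hK0 hd hp hA R₁ R₂ hdisc₁ hdisc₂ hyp hc hD₂ G' H' g1 g2 h1 h2 hGB e1 e2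
    exact ⟨Y, y1, y2, hYF, hYB, r1, r2⟩
  have hf₁B : f₁ ∈ B₁ := ⟨p * a, hf₁L⟩
  have hqB : h ^ p / f₁ ∈ B₂ := glb_mem_B_of_mem_L hc.D₂_nonneg hq
  -- the level induction at `i = p j`
  have hi : 1 ≤ p * j := Nat.mul_pos hp.pos hj
  have hie : (p - 1) * (p * j - 1) < p * e := by
    have h1 : 1 ≤ p - 1 := by have := hp.two_le; omega
    have h2 : p * j - 1 < p * j := by omega
    calc (p - 1) * (p * j - 1) < (p - 1) * (p * j) := Nat.mul_lt_mul_of_pos_left h2 (by omega)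
      _ = p * e := by rw [hej]; ring
  obtain ⟨w, c₀, g, hwF, hwB, hw1, hw2, hc₀, hc₀F, hgF, hgB, hg1, hg2, hfw⟩ :=
    lvb_core R₁ R₂ p ϖ hϖ0 hϖA hϖπ F1 hϖF hdisc₁ hdisc₂ hres1 B₁ B₂ hB₁c hB₂c hconst e hpe
      hroot hp hp2 f₁ hf₁F hf₁B hf₁1 hf₁2 h hhF hh1 hh2 hqB
      (hstep e hpe f₁ s₁ hs₁0 hf₁e) (p * j) hi hie
  -- `w ≠ 0`
  have hw0 : w ≠ 0 := by
    intro h0
    rw [h0, zero_sub] at hw1
    have h1 : (1 : FF L) ∈ R₁.O.nonunits := by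
      have := R₁.O.nonunits.neg_mem hw1
      simpa using this
    exact (R₁.O.mem_nonunits_iff.mp h1).ne (map_one _)
  -- the new function `g' = υ g`
  have hυF : algebraMap Kbar (FF L) υ ∈ F1 := by
    have hυK : υ ∈ K' := by
      have h1 : υ = ϖ ^ (p * j) / lam ^ p := by
        rw [hυe]
        field_simp
      rw [h1]
      exact div_mem (pow_mem hϖK _) (pow_mem hlam1 _)
    exact (algebraMap_mem_fixedLBC_iff (modularFunctionFieldFull L) hK' υ).mpr hυK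
  obtain ⟨b, hgb⟩ := hgB
  refine ⟨s₁ * w, c₀, algebraMap Kbar (FF L) υ * g, mul_ne_zero hs₁0 hw0, hc₀, ?_, ?_, ?_, ?_,
    ?_⟩
  · exact F1.mul_mem hυF hgF
  · refine ⟨b, ?_⟩
    have := (riemannRochSpace (K := Kbar) (b • D₁)).smul_mem υ hgb
    rwa [Algebra.smul_def] at this
  · exact R₁.O.mul_mem _ _ (R₁.algebraMap_mem ⟨υ, hυ⟩) hg1
  · exact R₂.O.mul_mem _ _ (R₂.algebraMap_mem ⟨υ, hυ⟩) hg2
  · rw [mul_pow, ← mul_assoc, ← hf₁e, hfw, hυe, map_mul]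
    ring

end Main

end Fermat.Agent.S33lib

end
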