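import Mathlib
import Fermat.Agent.S36lib.Speed
import Fermat.Agent.S33lib.TorAsm
import Fermat.Agent.S33lib.KSatPairConc
import Fermat.Agent.S33lib.GlueBConc
import Fermat.Agent.S33lib.StabFn
import Fermat.Agent.S33lib.LevVal
import Fermat.Agent.S33lib.LevDisc
import Fermat.Agent.S33lib.DiscPair
import Fermat.Agent.S33lib.TorBConc
import Fermat.Agent.S33lib.LevB
import Fermat.Agent.S33lib.StepHyp
import Fermat.Agent.S33lib.RootRat
import Fermat.Agent.S34lib.VKronNe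
import Fermat.Agent.S34lib.LiftInfMain
import Fermat.Agent.S33lib.TorCore
import Fermat.Agent.S33lib.StepConc
import Fermat.Agent.S33lib.RayDiscLift

/-!
# Item 86 (S33), block (TOR_p): the core at the auxiliary levels and (TOR_p) (helper13).
Complete proofs.

* `tas_core`: `TasCore M p` at every auxiliary level `M` (`IsAuxLevel p M`), `p` odd:
  KSAT-PAIR (`ksp_conc`, helper19) gives ONE Kummer function `u₀ ≡ 1` for both Gauss valuations;
  the gluing package (`glbc_exists_cusp`, helper22); the field of rationality is chosen AFTER the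
  functions (`sfn_main`, helper23; `lvv_vdDisc_fixedField`, helper15); DISC/RES over `K'`
  (`dsp_disc_pair`, helper12; `lvd_res`, helper21); the two representatives and the level
  induction (`tcr_deep`, helper4 = `tbc_inputs` + `lvb_core` of helper26, `glb_*` of helper22,
  `rrt_root2`); (STEP) from Kummer-newness (`stk_hstep_conc`, helper17; norms `nf1_*` helper24,
  INV helper9).
* `s33_torp`: **(TOR_p)** `S33TorP M' p` for every `M'` prime to the odd prime `p`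
  (`tas_torp_of_core`: the end `r2n_fixed_J` of helper8/helper28 and the descent `tax_torp` of
  helper7).
-/

set_option autoImplicit false
set_option linter.style.haveILetI false
set_option linter.unusedSectionVars false
set_option linter.unusedVariables false
set_option synthInstance.maxHeartbeats 400000

noncomputable section

namespace Fermat.Agent.S33lib

open AlgebraicCurve Fermat.Agent.GoodRed ModularCurve HahnSeries Fermat.Agent.S24lib
  Fermat.Agent.RRlib Fermat.Agent.GM Fermat.Agent.S34lib Fermat.Agent.S35lib Fermat.Agent.S36lib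

/-- a root of unity lies in every valuation ring -/
theorem rin_zeta_mem' {K : Type*} [Field K] (A : ValuationSubring K) {p : ℕ} (hp : p ≠ 0) {ζ : K}
    (hζ : ζ ^ p = 1) : ζ ∈ A := by
  rw [← A.valuation_le_one_iff]
  have h1 : A.valuation ζ ^ p = 1 := by rw [← map_pow, hζ, map_one]
  exact ((pow_eq_one_iff_of_nonneg zero_le hp).mp h1).le

section Main

variable (M p : ℕ) [NeZero M] [NeZero p] [NeZero (M * p)] (hp : p.Prime)

set_option maxHeartbeats 2000000 in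
theorem tas_core (hp2 : p ≠ 2) (haux : IsAuxLevel p M) : TasCore M p hp haux.1 := by
  intro A hA R hR ζ hζ x u hxKI hk hnew
  have hpM : ¬ p ∣ M := haux.1
  haveI : Fact p.Prime := ⟨hp⟩
  haveI : RRHyp Kbar (FF (M * p)) := mod_rrHyp (M * p)
  haveI : CharP (IsLocalRing.ResidueField A) p := charP_residueField hA
  haveI : IsAlgClosed (IsLocalRing.ResidueField A) := isAlgClosed_residueField A
  haveI : RRHyp (IsLocalRing.ResidueField A)
      (↥(modularFunctionFieldFullC (IsLocalRing.ResidueField A) M)) :=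
    mr_rrHyp (IsLocalRing.ResidueField A) M
  have hpx : p • x = 0 := gdf_isKummer_torsion hk
  have hne := vk_O_ne M p hp hpM hR hA
  obtain ⟨D₀, u₀, hD₀x, hu₀0, hu₀div, hu₀1, hu₀2⟩ :=
    ksp_conc (M * p) p hp (dvd_mul_left p M) (inf_not_sq_dvd M p hp hpM) A hA R hR hne x hxKI hpx
  obtain ⟨G, a₁, n₂, D₂, f, finv, hGn, hyp, hc⟩ := glbc_exists_cusp M p hp hpM haux hA hR
  classical
  obtain ⟨H, hHI, hHfin, hHζ, hHconj, hHF, hHD, hHX⟩ :=
    sfn_main (M * p) A hp.ne_zero hζ {u₀}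
      {D₂, cuspDiv (M * p) p hp (dvd_mul_left p M) (inf_not_sq_dvd M p hp hpM) 1 1,
        (D₀ : Divisor Kbar (FF (M * p)))} ∅
  obtain ⟨ϖ, hd, e, he0, he⟩ := lvv_vdDisc_fixedField A hp hA H hHfin
  have hK' : ∀ c : Kbar, c ∈ IntermediateField.fixedField H ↔
      ∀ σ ∈ (H : Set (Kbar ≃ₐ[ℚ] Kbar)), σ c = c :=
    fun c => IntermediateField.mem_fixedField_iff H c
  have hK0 : k0Field A ≤ IntermediateField.fixedField H := lvv_k0Field_le A H hHI
  obtain ⟨hdisc₁, hdisc₂⟩ := dsp_disc_pair M hK' hK0 hd hp hpM hR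
  have hHI' : ∀ σ ∈ (H : Set (Kbar ≃ₐ[ℚ] Kbar)), σ ∈ A.inertiaSubgroupIn ℚ := fun σ hσ => hHI hσ
  have hres1 : ∀ c : IsLocalRing.ResidueField A, ∃ a : A, IsLocalRing.residue A a = c ∧
      algebraMap Kbar (FF (M * p)) (a : Kbar) ∈
        fixedLBC (H : Set (Kbar ≃ₐ[ℚ] Kbar)) (modularFunctionFieldFull (M * p)) := by
    intro c
    obtain ⟨a, ha, -, hfix⟩ := lvd_res (L := M * p) hp hA hHI' c
    exact ⟨a, ha, hfix⟩
  obtain ⟨R', r, hR', -, -, hgen⟩ := liftInf_exists_red M A p haux hA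
  have hvp : A.valuation ((p : ℕ) : Kbar) < 1 := A.mem_nonunits_iff.mp hA
  have hkroot : ∀ c : IsLocalRing.ResidueField A, ∃ d : IsLocalRing.ResidueField A, d ^ p = c :=
    fun c => IsAlgClosed.exists_pow_nat_eq c hp.pos
  -- `lam = ζ - 1`
  have hζA : ζ ∈ A := rin_zeta_mem' A hp.ne_zero hζ.pow_eq_one
  have hlam0 : ζ - 1 ≠ 0 := rdl_hlam0 hp hζ
  have hlam : ζ - 1 ∈ A.nonunits := rdl_hlamA hp hA hζ
  have hlamv : A.valuation ((p : ℕ) : Kbar) = A.valuation (ζ - 1) ^ (p - 1) :=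
    tas_val_p A hlam (rpw_p_eq hp hζ A hζA)
  have hlam1 : ζ - 1 ∈ IntermediateField.fixedField H := by
    rw [hK']
    intro σ hσ
    rw [map_sub, map_one, hHζ σ hσ]
  -- stability
  have hD₁ : ∀ σ ∈ (H : Set (Kbar ≃ₐ[ℚ] Kbar)), galFF (M * p) σ •
      cuspDiv (M * p) p hp (dvd_mul_left p M) (inf_not_sq_dvd M p hp hpM) 1 1
        = cuspDiv (M * p) p hp (dvd_mul_left p M) (inf_not_sq_dvd M p hp hpM) 1 1 :=
    fun σ hσ => hHD σ hσ _ (by simp)
  have hD₂ : ∀ σ ∈ (H : Set (Kbar ≃ₐ[ℚ] Kbar)), galFF (M * p) σ • D₂ = D₂ :=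
    fun σ hσ => hHD σ hσ _ (by simp)
  have hEH : ∀ σ ∈ (H : Set (Kbar ≃ₐ[ℚ] Kbar)), galFF (M * p) σ •
      (D₀ : Divisor Kbar (FF (M * p))) = (D₀ : Divisor Kbar (FF (M * p))) :=
    fun σ hσ => hHD σ hσ _ (by simp)
  have huH : u₀ ∈ fixedLBC (H : Set (Kbar ≃ₐ[ℚ] Kbar)) (modularFunctionFieldFull (M * p)) :=
    fun σ hσ => hHF σ hσ u₀ (by simp)
  have hE : Divisor.degree (D₀ : Divisor Kbar (FF (M * p))) = 0 := D₀.2
  have hdiv : ∀ v : Place Kbar (FF (M * p)),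
      v.ord u₀ = p * (D₀ : Divisor Kbar (FF (M * p))) v := fun v => (hu₀div v).symm
  -- Kummer-new
  have hk₀ : gdfIsKummer (K := Kbar) p x u₀ := gdf_isKummer_of_ord hu₀0 D₀ hD₀x hu₀div
  have hnew₀ : IsKummerNew M p p u₀ := by
    obtain ⟨c, w, -, -, hcw⟩ := gdf_isKummer_unique hk hk₀
    rw [hcw]
    exact tas_isKummerNew_mul_pow hnew c w
  have hD₁nn := hc.D₁_nonneg
  -- (STEP)
  have hstep : ∀ (e : ℕ), (∃ ε ∈ A, ((p : ℕ) : Kbar) = ϖ ^ e * ε) → ∀ (f₁ s₁ : FF (M * p)),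
      s₁ ≠ 0 → f₁ = u₀⁻¹ * s₁ ^ p →
      ∀ (i : ℕ) (c : Kbar) (w g : FF (M * p)), 1 ≤ i → p ∣ i → (p - 1) * i < p * e → c ≠ 0 →
        algebraMap Kbar (FF (M * p)) c ∈
          fixedLBC (H : Set (Kbar ≃ₐ[ℚ] Kbar)) (modularFunctionFieldFull (M * p)) →
        w ∈ fixedLBC (H : Set (Kbar ≃ₐ[ℚ] Kbar)) (modularFunctionFieldFull (M * p)) →
        w ∈ glbB0 (cuspDiv (M * p) p hp (dvd_mul_left p M) (inf_not_sq_dvd M p hp hpM) 1 1)
          hD₁nn →
        w - 1 ∈ R.O.nonunits → w - 1 ∈ (glmZero M p hp hpM R).O.nonunits →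
        g ∈ fixedLBC (H : Set (Kbar ≃ₐ[ℚ] Kbar)) (modularFunctionFieldFull (M * p)) →
        g ∈ glbB0 (cuspDiv (M * p) p hp (dvd_mul_left p M) (inf_not_sq_dvd M p hp hpM) 1 1)
          hD₁nn →
        ∀ (h1 : g ∈ R.O) (h2 : g ∈ (glmZero M p hp hpM R).O),
        f₁ * w ^ p = algebraMap Kbar (FF (M * p)) c *
          (1 + algebraMap Kbar (FF (M * p)) (ϖ ^ i) * g) →
        ∃ (Ψ : FF (M * p)) (κ : IsLocalRing.ResidueField A) (k1 : Ψ ∈ R.O)
          (k2 : Ψ ∈ (glmZero M p hp hpM R).O),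
          Ψ ∈ fixedLBC (H : Set (Kbar ≃ₐ[ℚ] Kbar)) (modularFunctionFieldFull (M * p)) ∧
          Ψ ∈ glbB0 (cuspDiv (M * p) p hp (dvd_mul_left p M) (inf_not_sq_dvd M p hp hpM) 1 1)
            hD₁nn ∧
          R.red ⟨g, h1⟩ = R.red ⟨Ψ, k1⟩ ^ p
            + algebraMap (IsLocalRing.ResidueField A) _ κ ∧
          (glmZero M p hp hpM R).red ⟨g, h2⟩ = (glmZero M p hp hpM R).red ⟨Ψ, k2⟩ ^ p
            + algebraMap (IsLocalRing.ResidueField A) _ κ := by
    intro e hpe f₁ s₁ hs₁ hf₁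
    have hnew₁ : IsKummerNew M p p f₁ := by
      rw [hf₁]
      exact tas_isKummerNew_inv_mul_pow hu₀0 hnew₀ s₁
    exact stk_hstep_conc M p hp hpM hA hkroot R' hR' R hR hyp hD₁nn hHI' hK' hK0 hd e hpe
      (glbB0 (cuspDiv (M * p) p hp (dvd_mul_left p M) (inf_not_sq_dvd M p hp hpM) 1 1) hD₁nn)
      (fun a x hx => glb_mem_B0_of_mem_L hD₁nn hx)
      (fun x hx => glbB0_le_glbB _ hD₁nn hx) f₁ hnew₁
  obtain ⟨s, c₀, g, hs, hc₀, hgH, ⟨b, hgL⟩, hg₁, hg₂, hrel⟩ :=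
    tcr_deep hK' hK0 hd hp hp2 hA hvp R (glmZero M p hp hpM R) hdisc₁ hdisc₂ hres1 hyp hc hD₁ hD₂
      (le_refl a₁) (Nat.le_mul_of_pos_right a₁ hc.n₂_pos) (D₀ : Divisor Kbar (FF (M * p))) hE hEH
      u₀ huH hu₀1 hu₀2 hdiv hlam1 hlam0 hlam hlamv hstep
  -- the conclusion
  have hP : infPlaceBar (M * p) ≠
      cuspZero (M * p) p hp (dvd_mul_left p M) (inf_not_sq_dvd M p hp hpM) :=
    ac_infPlaceBar_ne_cuspZero _ _ _
  have hgB : g ∈ cxiB (infPlaceBar (M * p))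
      (cuspZero (M * p) p hp (dvd_mul_left p M) (inf_not_sq_dvd M p hp hpM)) := by
    rw [cuspDiv_one_one] at hgL
    exact (glb_mem_B0_iff_cxiB hP g).mp ⟨b, hgL⟩
  refine ⟨c₀, 1, g, hc₀, one_ne_zero, hgB, hg₁, hg₂, ?_⟩
  have h1 := gdf_isKummer_mul_pow (gdf_isKummer_neg hk₀) (c := (1 : Kbar)) one_ne_zero hs
  have h2 : algebraMap Kbar (FF (M * p)) 1 * s ^ p * u₀⁻¹
      = algebraMap Kbar (FF (M * p)) c₀ * 1 ^ p *
        (1 + algebraMap Kbar (FF (M * p)) ((ζ - 1) ^ p) * g) := by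
    rw [map_one, one_mul, one_pow, mul_one (algebraMap Kbar (FF (M * p)) c₀),
      mul_comm (s ^ p) u₀⁻¹, hrel]
  rw [h2] at h1
  exact h1

end Main

/-- **(TOR_p)**: for an odd prime `p` and every level `M'` prime to `p`: a class of order `p` of
`J₀(M' p)` in `s33hKI`, killed by `α_*` and `β_*` and fixed by an inertia element moving `μ_p`,
is zero. -/
theorem s33_torp (p : ℕ) [NeZero p] (hp : p.Prime) (hp2 : p ≠ 2) (M' : ℕ) [NeZero M']
    [NeZero (M' * p)] (hpM' : ¬ p ∣ M') : S33TorP M' p :=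
  tas_torp_of_core p hp (fun M _ _ haux => tas_core M p hp hp2 haux) M' hpM'

end Fermat.Agent.S33lib

end
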