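/-
Item 86 (S33), block TOR_p, piece (CRUX-SS), CONCRETE (helper8).  Complete proofs.

`cxc_principal`: at the auxiliary level `N = M' p` (`IsAuxLevel p M'`), `A` a valuation ring of
`ℚ̄` over `p`, `R` ANY series reduction of `F_N` (the `∞`-component), `R₀ = glmZero M' p .. R`
(the `0`-component, `R ∘ w_p`):  a Kummer function `1 + a t`, with `t ∈ O_R ∩ O_{R₀}` regular
outside the two cusps `∞_N`, `0_N` and `|a|^(p-1) < |p|^p`, has a principal divisor class:
`p E = div (1 + a t)  ⟹  E` principal.

Assembly (as `S34lib/ApplyMain.applyCore`): `glueMod` (at `q = p`; it has no hypothesis on the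
exponent) gives `GlueData X` and `(F3)`; then `cxi_principal` (`CruxPInst.lean`) with
`hk := asc_hk` (helper14).  This is `hcrux` of `rg2b_tau_principal` (`RegimeTwoGl.lean`) with
`R₁ := R`, `R₂ := glmZero M' p hp hpM R`, `B₀ := cxiB ∞_N 0_N`.
-/
import Mathlib
import Fermat.Agent.S34lib.ApplyMain
import Fermat.Agent.S33lib.CruxPInst
import Fermat.Agent.S33lib.ASConst

set_option autoImplicit false
set_option linter.style.haveILetI false
set_option linter.unusedVariables false
set_option linter.unusedSectionVars false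
set_option synthInstance.maxHeartbeats 400000

noncomputable section

namespace Fermat.Agent.S33lib

open AlgebraicCurve Fermat.Agent.GoodRed ModularCurve HahnSeries Fermat.Agent.S24lib
  Fermat.Agent.RRlib Fermat.Agent.GM Fermat.Agent.S34lib

section

variable (M' p : ℕ) [NeZero M'] [NeZero p] [NeZero (M' * p)] (hp : p.Prime) (hpM : ¬ p ∣ M')
variable {A : ValuationSubring Kbar}

set_option maxHeartbeats 2000000 in
/-- **(CRUX-SS), concrete**: regime III at the auxiliary level `M' p`, inside the family of the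
functions regular outside the two cusps. -/
theorem cxc_principal [RRHyp Kbar (FF (M' * p))] (haux : IsAuxLevel p M')
    (hA : A.LiesOverPrime p)
    {R : ConstRed A (IsLocalRing.residue A)
      (↥(modularFunctionFieldFullC (IsLocalRing.ResidueField A) M')) (FF (M' * p))}
    (hR : IsSeriesRed R)
    (a : A) (ha : A.valuation ((a : Kbar) ^ (p - 1)) < A.valuation (((p : ℕ) : Kbar) ^ p))
    (t : FF (M' * p))
    (htB : t ∈ cxiB (infPlaceBar (M' * p))
      (cuspZero (M' * p) p hp (dvd_mul_left p M') (inf_not_sq_dvd M' p hp hpM)))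
    (ht₁ : t ∈ R.O) (ht₂ : t ∈ (glmZero M' p hp hpM R).O)
    (E : Divisor Kbar (FF (M' * p)))
    (hE : p • E = divOf (K := Kbar) (1 + algebraMap Kbar (FF (M' * p)) (a : Kbar) * t)) :
    E ∈ Divisor.principal (K := Kbar) (F := FF (M' * p)) := by
  haveI : Fact p.Prime := ⟨hp⟩
  haveI : CharP (IsLocalRing.ResidueField A) p := charP_residueField hA
  haveI : IsAlgClosed (IsLocalRing.ResidueField A) := isAlgClosed_residueField A
  haveI : Infinite (IsLocalRing.ResidueField A) := IsAlgClosed.instInfinite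
  haveI : RRHyp Kbar (FF M') := mod_rrHyp M'
  haveI : RRHyp (IsLocalRing.ResidueField A)
      (↥(modularFunctionFieldFullC (IsLocalRing.ResidueField A) M')) :=
    mr_rrHyp (IsLocalRing.ResidueField A) M'
  have hfrac' : HasPrimFrac A (modularFunctionFieldBar M') := vri_hfrac M' p hp A hA
  obtain ⟨R', r, hR', -, -, hgen⟩ := liftInf_exists_red M' A p haux hA
  have Hex := am_exInput M' p hp hpM haux hA hR' hR hfrac'
  have hO := vk_O_ne M' p hp hpM hR hA
  have hlift : ∀ a : affRing (infPlaceC (IsLocalRing.ResidueField A) M'),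
      ∃ (g : FF M') (hg : g ∈ R'.O),
        (∀ v' : Place Kbar (FF M'), v' ≠ infPlaceBar M' → 0 ≤ v'.ord g) ∧
          R'.red ⟨g, hg⟩ =
            (a : ↥(modularFunctionFieldFullC (IsLocalRing.ResidueField A) M')) := by
    intro a
    obtain ⟨c, hc⟩ := (glm_hB M' _).mp a.2
    obtain ⟨x, hx, hred⟩ := liftInf_lift p haux hA hR' (c : ℤ) _ hc
    exact ⟨x, x.2, mem_affRing_iff.mp (affRing_of_mem_rr hx), hred⟩
  obtain ⟨X, a₀, a₁, -, H, -, -, hn, -⟩ := glueMod M' p hp hpM hA
    (φ := (affFrobFk (IsLocalRing.ResidueField A) p M').toRingHom) (fun x => rfl) Hex hO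
    (affRing_residue_surjective _) hlift hgen.le Nat.one_pos
  have hpK : ((p : ℕ) : Kbar) ≠ 0 := Nat.cast_ne_zero.mpr hp.ne_zero
  have hpk : ((p : ℕ) : IsLocalRing.ResidueField A) = 0 :=
    CharP.cast_eq_zero (IsLocalRing.ResidueField A) p
  exact cxi_principal X H hp hpK hpk
    (ac_infPlaceBar_ne_cuspZero hp (dvd_mul_left p M') (inf_not_sq_dvd M' p hp hpM)) hn
    (asc_hk hp.one_lt) a ha t htB ht₁ ht₂ E hE

end

end Fermat.Agent.S33lib

end
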