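/-
Item 86 (S33), block TOR_p, bridge (helper27): **`cxiB P₁ P₂ = ⋃ₐ L(a (P₁ + P₂))`**.

The level induction (LevB, GluedLoc, TorB) works in the ring `B₁ = glbB0 D₁ = ⋃ₐ L(a D₁)` with
`D₁ = f3dDiv P₁ P₂ 1 1 = P₁ + P₂`; the crux (`cxi_principal`, `cxc_principal`) and regime two at
the level `N` (`rg2n_*`) use `cxiB P₁ P₂` (the functions regular outside `P₁`, `P₂`).  They are
the same ring:

* `cxb_mem_cxiB_of_mem_L`  : `g ∈ L(a (P₁ + P₂)) → g ∈ cxiB P₁ P₂`;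
* `cxb_exists_L_of_mem_cxiB` : `g ∈ cxiB P₁ P₂ → ∃ a, g ∈ L(a (P₁ + P₂))`;
* `cxb_mem_cxiB_iff`       : the equivalence;
* `cxb_mem_glbB0_iff`      : `g ∈ glbB0 (P₁ + P₂) ↔ g ∈ cxiB P₁ P₂`;
* `cxb_glbB0_eq`           : equality of subrings;
* `cxb_mem_cxiB_of_mem_L_gen` : the same for `L(a P₁ + b P₂)`.

Complete proofs.
-/
import Mathlib
import Fermat.Agent.S36lib.Speed
import Fermat.Agent.S33lib.CruxPInst
import Fermat.Agent.S33lib.GlueB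

set_option autoImplicit false
set_option linter.unusedVariables false
set_option linter.unusedSectionVars false
set_option linter.style.haveILetI false

noncomputable section

namespace Fermat.Agent.S33lib

open AlgebraicCurve Fermat.Agent.RRlib Fermat.Agent.GoodRed Fermat.Agent.S34lib

section Bridge

variable {K F : Type*} [Field K] [Field F] [Algebra K F] [RRHyp K F]
variable {P₁ P₂ : Place K F}

/-- `L(a P₁ + b P₂) ⊆ cxiB P₁ P₂` -/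
theorem cxb_mem_cxiB_of_mem_L_gen {a b : ℕ} {g : F}
    (hg : g ∈ riemannRochSpace (K := K) (f3dDiv P₁ P₂ a b)) : g ∈ cxiB P₁ P₂ := by
  rw [mem_cxiB_iff_ord]
  intro v h1 h2
  have h := (mem_riemannRochSpace_iff.mp hg) v
  rw [ci_f3dDiv_apply_of_ne a b h1 h2, neg_zero] at h
  exact h

/-- `a • (P₁ + P₂) = a P₁ + a P₂` -/
theorem cxb_smul_f3dDiv (a : ℕ) : a • f3dDiv P₁ P₂ 1 1 = f3dDiv P₁ P₂ a a := by
  classical
  ext v
  simp only [f3dDiv, Finsupp.smul_apply, Finsupp.add_apply, nsmul_eq_mul, Nat.cast_one,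
    Finsupp.single_apply]
  split_ifs <;> ring

/-- `L(a (P₁ + P₂)) ⊆ cxiB P₁ P₂` -/
theorem cxb_mem_cxiB_of_mem_L {a : ℕ} {g : F}
    (hg : g ∈ riemannRochSpace (K := K) (a • f3dDiv P₁ P₂ 1 1)) : g ∈ cxiB P₁ P₂ := by
  rw [cxb_smul_f3dDiv] at hg
  exact cxb_mem_cxiB_of_mem_L_gen hg

/-- `cxiB P₁ P₂ ⊆ ⋃ₐ L(a (P₁ + P₂))` -/
theorem cxb_exists_L_of_mem_cxiB {g : F} (hg : g ∈ cxiB P₁ P₂) :
    ∃ a : ℕ, g ∈ riemannRochSpace (K := K) (a • f3dDiv P₁ P₂ 1 1) := by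
  classical
  rw [mem_cxiB_iff_ord] at hg
  refine ⟨(P₁.ord g).natAbs + (P₂.ord g).natAbs, ?_⟩
  rw [mem_riemannRochSpace_iff]
  intro v
  by_cases hg0 : g = 0
  · exact Or.inl hg0
  right
  have hD : ∀ w : Place K F, (0 : ℤ) ≤ f3dDiv P₁ P₂ 1 1 w := fun w =>
    Finsupp.le_def.mp (f3dDiv_nonneg P₁ P₂ 1 1) w
  simp only [Finsupp.smul_apply, nsmul_eq_mul, Nat.cast_add]
  by_cases h1 : v = P₁
  · subst h1
    have hone : (1 : ℤ) ≤ f3dDiv v P₂ 1 1 v := by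
      simp only [f3dDiv, Finsupp.add_apply, Finsupp.single_eq_same, Nat.cast_one]
      have : (0 : ℤ) ≤ (Finsupp.single P₂ (1 : ℤ)) v := by
        by_cases h : v = P₂
        · rw [h, Finsupp.single_eq_same]; exact zero_le_one
        · rw [Finsupp.single_eq_of_ne h]
      linarith
    have e1 : -(v.ord g) ≤ ((v.ord g).natAbs : ℤ) := by
      have := Int.le_natAbs (a := -(v.ord g))
      rwa [Int.natAbs_neg] at this
    have e2 : (0 : ℤ) ≤ ((P₂.ord g).natAbs : ℤ) := Int.natCast_nonneg _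
    have e3 : (0 : ℤ) ≤ ((v.ord g).natAbs : ℤ) := Int.natCast_nonneg _
    nlinarith
  by_cases h2 : v = P₂
  · subst h2
    have hone : (1 : ℤ) ≤ f3dDiv P₁ v 1 1 v := by
      simp only [f3dDiv, Finsupp.add_apply, Finsupp.single_eq_same, Nat.cast_one]
      have : (0 : ℤ) ≤ (Finsupp.single P₁ (1 : ℤ)) v := by
        rw [Finsupp.single_eq_of_ne h1]
      linarith
    have e1 : -(v.ord g) ≤ ((v.ord g).natAbs : ℤ) := by
      have := Int.le_natAbs (a := -(v.ord g))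
      rwa [Int.natAbs_neg] at this
    have e2 : (0 : ℤ) ≤ ((P₁.ord g).natAbs : ℤ) := Int.natCast_nonneg _
    have e3 : (0 : ℤ) ≤ ((v.ord g).natAbs : ℤ) := Int.natCast_nonneg _
    nlinarith
  · rw [ci_f3dDiv_apply_of_ne 1 1 h1 h2, mul_zero, neg_zero]
    exact (hg v h1 h2).resolve_left hg0

/-- `cxiB P₁ P₂ = ⋃ₐ L(a (P₁ + P₂))` -/
theorem cxb_mem_cxiB_iff {g : F} :
    g ∈ cxiB P₁ P₂ ↔ ∃ a : ℕ, g ∈ riemannRochSpace (K := K) (a • f3dDiv P₁ P₂ 1 1) :=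
  ⟨cxb_exists_L_of_mem_cxiB, fun ⟨_, h⟩ => cxb_mem_cxiB_of_mem_L h⟩

/-- `P₁ + P₂ ≥ 0`, pointwise (the hypothesis `hD` of `glbB0`) -/
theorem cxb_f3dDiv_nonneg (P₁ P₂ : Place K F) (a b : ℕ) (v : Place K F) :
    (0 : ℤ) ≤ f3dDiv P₁ P₂ a b v :=
  Finsupp.le_def.mp (f3dDiv_nonneg P₁ P₂ a b) v

/-- `glbB0 (P₁ + P₂) = cxiB P₁ P₂`, membership form (for ANY proof `hD` of `D₁ ≥ 0`) -/
theorem cxb_mem_glbB0_iff (hD : ∀ v : Place K F, 0 ≤ f3dDiv P₁ P₂ 1 1 v) {g : F} :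
    g ∈ glbB0 (f3dDiv P₁ P₂ 1 1) hD ↔ g ∈ cxiB P₁ P₂ := by
  rw [mem_glbB0, cxb_mem_cxiB_iff]

/-- `glbB0 (P₁ + P₂) = cxiB P₁ P₂` as subrings -/
theorem cxb_glbB0_eq (hD : ∀ v : Place K F, 0 ≤ f3dDiv P₁ P₂ 1 1 v) :
    glbB0 (f3dDiv P₁ P₂ 1 1) hD = (cxiB P₁ P₂).toSubring := by
  ext g
  rw [cxb_mem_glbB0_iff hD]
  exact Iff.rfl

end Bridge

end Fermat.Agent.S33lib

end
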