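import Mathlib
import Fermat.Agent.S36lib.Speed
import Fermat.Agent.S33lib.StabFn
import Fermat.Agent.S33lib.LevVal
import Fermat.Agent.S33lib.LevDisc

/-!
# Item 86 (S33), the `K'`-package (helper15)

The choice of the field of rationality AFTER the functions: for finitely many functions,
divisors and classes of level `L`, a valuation ring `A | p` and a root of unity `ζ`, there are
`H ⊆ I` (the inertia group of `A`) with field of invariants `K'` such that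

* `H` fixes the given functions, divisors, classes and `ζ`; `H` is normalised by the
  decomposition group;
* `K0 = ℚ̄^I ⊆ K'`, `ζ ∈ K'`, `K'` is discretely valued by `A` with uniformiser `ϖ`
  (`VdDisc A K' ϖ`), `p = u ϖ ^ e` with a unit `u ∈ K'`, `e > 0`;
* (RES') the residue field is represented by `H`-fixed constants.

`kpk_of_subgroup` : the package for a given subgroup `H ≤ I` of finite index in `I`;
`kpk_main` : the package for the stabiliser of finite sets of functions / divisors / classes.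
-/

set_option autoImplicit false
set_option linter.unusedSectionVars false
set_option linter.unusedVariables false
set_option linter.style.haveILetI false
set_option synthInstance.maxHeartbeats 400000

noncomputable section

namespace Fermat.Agent.S33lib

open ModularCurve HahnSeries AlgebraicCurve IntermediateField
open Fermat.Agent.GoodRed Fermat.Agent.S24lib Fermat.Agent.S34lib Fermat.Agent.S36lib
  Fermat.Agent.AJlib

section Pack

variable (A : ValuationSubring Kbar)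

/-- **the `K'`-package of a subgroup** `H ≤ I` of finite index in `I`: `K' = ℚ̄^H` with
`(hK')`, `(hK0)`, a uniformiser `ϖ` and `p = u ϖ ^ e`. -/
theorem kpk_of_subgroup {p : ℕ} (hp : p.Prime) (hA : A.LiesOverPrime p)
    (H : Subgroup (Kbar ≃ₐ[ℚ] Kbar)) (hHI : H ≤ A.inertiaSubgroupIn ℚ)
    (hfin : (H.subgroupOf (A.inertiaSubgroupIn ℚ)).FiniteIndex) :
    ∃ (K' : IntermediateField ℚ Kbar) (ϖ : Kbar),
      (∀ c : Kbar, c ∈ K' ↔ ∀ σ ∈ (H : Set (Kbar ≃ₐ[ℚ] Kbar)), σ c = c) ∧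
      k0Field A ≤ K' ∧ VdDisc A K'.toSubfield ϖ ∧
      (∃ e : ℕ, 0 < e ∧ A.valuation (p : Kbar) = A.valuation ϖ ^ e ∧
        (∃ u : Kbar, u ∈ K' ∧ u ∈ A ∧ u⁻¹ ∈ A ∧ (p : Kbar) = u * ϖ ^ e) ∧
        ∃ ε ∈ A, (p : Kbar) = ϖ ^ e * ε) := by
  obtain ⟨ϖ, hd, e, he0, he⟩ := lvv_vdDisc_fixedField A hp hA H hfin
  refine ⟨IntermediateField.fixedField H, ϖ,
    fun c => IntermediateField.mem_fixedField_iff H c, lvv_k0Field_le A H hHI, hd, e, he0, he, ?_⟩
  obtain ⟨u, huK, huA, hui, hu⟩ := lvv_unit_mul_pow A hp hd he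
  exact ⟨⟨u, huK, huA, hui, hu⟩, u, huA, by rw [hu, mul_comm]⟩

variable (L : ℕ) [NeZero L]

/-- **the `K'`-package**: the field of rationality of finitely many functions, divisors and
classes of level `L` (and of `ζ`), inside the inertia group of `A`. -/
theorem kpk_main {p : ℕ} (hp : p.Prime) (hA : A.LiesOverPrime p) {ζ : Kbar} {n : ℕ}
    (hn : n ≠ 0) (hζ : IsPrimitiveRoot ζ n)
    (Fs : Finset (FF L)) (Ds : Finset (Divisor Kbar (FF L))) (Xs : Finset (JZero L)) :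
    ∃ (H : Set (Kbar ≃ₐ[ℚ] Kbar)) (K' : IntermediateField ℚ Kbar) (ϖ : Kbar),
      (∀ c : Kbar, c ∈ K' ↔ ∀ σ ∈ H, σ c = c) ∧ k0Field A ≤ K' ∧
      VdDisc A K'.toSubfield ϖ ∧
      (∀ σ ∈ H, σ ∈ A.inertiaSubgroupIn ℚ) ∧
      (∀ τ ∈ A.decompositionSubgroup ℚ, ∀ σ ∈ H, τ * σ * τ⁻¹ ∈ H) ∧
      ζ ∈ K' ∧ ζ - 1 ∈ K' ∧
      (∀ f ∈ Fs, f ∈ fixedLBC H (modularFunctionFieldFull L)) ∧
      (∀ D ∈ Ds, ∀ σ ∈ H, galFF L σ • D = D) ∧
      (∀ x ∈ Xs, ∀ σ ∈ H, σ • x = x) ∧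
      (∀ c : IsLocalRing.ResidueField A, ∃ a : A, IsLocalRing.residue A a = c ∧
        algebraMap Kbar (FF L) (a : Kbar) ∈ fixedLBC H (modularFunctionFieldFull L)) ∧
      (∃ e : ℕ, 0 < e ∧ A.valuation (p : Kbar) = A.valuation ϖ ^ e ∧
        (∃ u : Kbar, u ∈ K' ∧ u ∈ A ∧ u⁻¹ ∈ A ∧ (p : Kbar) = u * ϖ ^ e) ∧
        ∃ ε ∈ A, (p : Kbar) = ϖ ^ e * ε) := by
  obtain ⟨H, hHI, hfin, hHζ, hconj, hF, hD, hX⟩ := sfn_main L A hn hζ Fs Ds Xs
  obtain ⟨K', ϖ, hK', hK0, hd, he⟩ := kpk_of_subgroup A hp hA H hHI hfin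
  have hζK : ζ ∈ K' := (hK' ζ).mpr fun σ hσ => hHζ σ hσ
  refine ⟨(H : Set (Kbar ≃ₐ[ℚ] Kbar)), K', ϖ, hK', hK0, hd, fun σ hσ => hHI hσ,
    fun τ hτ σ hσ => hconj τ hτ σ hσ, hζK, K'.sub_mem hζK K'.one_mem,
    fun f hf σ hσ => hF σ hσ f hf, fun D hD' σ hσ => hD σ hσ D hD',
    fun x hx σ hσ => hX σ hσ x hx, ?_, he⟩
  intro c
  obtain ⟨a, ha, -, hfix⟩ := lvd_res (L := L) (H := (H : Set (Kbar ≃ₐ[ℚ] Kbar))) hp hA
    (fun σ hσ => hHI hσ) c
  exact ⟨a, ha, hfix⟩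

end Pack

end Fermat.Agent.S33lib

end
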