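/-
Item 86 (S33), block G1, piece (KSAT) in the language of `GeoDefs.lean` (helper26).
No sorry in this file.

* `ksat_gdfKer_abs` : abstract form (any `F/K`, `R`, inertial set `G`): a class of the subgroup
  generated by the `g • y - y` killed by `p` satisfies `gdfKer R p x`;
* `ksat_gdfKer` : **(KSAT)** of the blueprint: `x ∈ s33hKI M p B`, `p • x = 0` ⇒ `gdfKer R p x`
  for every level `M` and every series reduction `R` of `F_M` along `B ∣ p`.
-/
import Mathlib
import Fermat.Agent.S33lib.KSatConc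
import Fermat.Agent.S33lib.GeoDefs

set_option autoImplicit false
set_option linter.style.haveILetI false
set_option linter.unusedSectionVars false
set_option linter.unusedVariables false
set_option synthInstance.maxHeartbeats 400000

noncomputable section

namespace Fermat.Agent.S33lib

open AlgebraicCurve ModularCurve
open Fermat.Agent.RRlib Fermat.Agent.GoodRed Fermat.Agent.S34lib Fermat.Agent.S24lib
  Fermat.Agent.GM Fermat.Agent.S35lib

section Abs

variable {K F k Fk : Type*} [Field K] [Field F] [Algebra K F] [Field k] [Field Fk] [Algebra k Fk]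
variable {A : ValuationSubring K} {π : A →+* k}

/-- from the normal form of `ksat_abs` to `gdfKer` -/
theorem ksat_gdfKer_of [RRBase K F] (R : ConstRed A π Fk F) (p : ℕ) (x : Pic0 K F)
    (h : ∃ (D : Divisor.degZero (K := K) (F := F)) (f : F), Pic0.mk D = x ∧ f ≠ 0 ∧
      (∀ v : Place K F, (p : ℤ) * (D : Divisor K F) v = v.ord f) ∧ f - 1 ∈ R.O.nonunits) :
    gdfKer R p x := by
  obtain ⟨D, f, hD, hf0, hord, hf1⟩ := h
  have hfm : f - 1 ∈ R.O := by
    have := (ValuationSubring.mem_nonunits_iff (A := R.O)).1 hf1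
    exact (R.O.valuation_le_one_iff _).1 this.le
  have hfO : f ∈ R.O := by
    have : f = (f - 1) + 1 := by ring
    rw [this]
    exact add_mem hfm (one_mem _)
  refine ⟨⟨f, hfO⟩, ?_, hf0, D, hD, ?_⟩
  · have e : (⟨f, hfO⟩ : R.O) = ⟨f - 1, hfm⟩ + 1 := by
      apply Subtype.ext
      show f = f - 1 + 1
      ring
    rw [e, map_add, map_one, (R.red_eq_zero_iff ⟨f - 1, hfm⟩).2 hf1, zero_add]
  · ext v
    rw [divOf_apply hf0, ← hord v]
    simp

/-- **(KSAT), abstract form, in the language of `GeoDefs`.** -/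
theorem ksat_gdfKer_abs [RRBase K F] [RRBase k Fk] (R : ConstRed A π Fk F) (p : ℕ) (hp : p ≠ 0)
    (G : Set (SemilinearAut K F)) (hG : ∀ g ∈ G, IsInertial R g) (x : Pic0 K F)
    (hx : x ∈ AddSubgroup.closure
      {z : Pic0 K F | ∃ g ∈ G, ∃ y : Pic0 K F, (∃ n : ℕ, p ^ n • y = 0) ∧ z = g • y - y})
    (hpx : p • x = 0) : gdfKer R p x :=
  ksat_gdfKer_of R p x (ksat_abs R p hp G hG x hx hpx)

end Abs

variable (M : ℕ) [NeZero M] (p : ℕ) (hp : p.Prime)
variable (B : ValuationSubring Kbar) (hB : B.LiesOverPrime p)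
variable {Fk : IntermediateField (IsLocalRing.ResidueField B)
  (LaurentSeries (IsLocalRing.ResidueField B))}
variable (R : ConstRed B (IsLocalRing.residue B) (↥Fk) (FF M)) (hR : IsSeriesRed R)

include hp hB hR in
/-- **(KSAT)**: `x ∈ s33hKI M p B`, `p • x = 0` ⇒ `gdfKer R p x`. -/
theorem ksat_gdfKer [RRBase (IsLocalRing.ResidueField B) (↥Fk)]
    (x : JZero M) (hx : x ∈ s33hKI M p B) (hpx : p • x = 0) :
    haveI : RRBase Kbar (FF M) := (mod_rrHyp M).toRRBase
    gdfKer R p (x : Pic0 Kbar (FF M)) := by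
  haveI : RRBase Kbar (FF M) := (mod_rrHyp M).toRRBase
  exact ksat_gdfKer_of R p x (ksat_conc M p hp B hB R hR x hx hpx)

end Fermat.Agent.S33lib

end
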