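/-
Item 86 (S33), geometry block G1 (helper2): **(KSAT) in MIXED form**.  No sorry in this file.

`x` a class of level `M'`, `M' ∣ M`, `p ∤ M'`, `R` a series reduction of the function field of
level `M` along `B ∣ p`.  If `x ∈ s33hKI M' p B` and `p • x = 0` then `x` has a Kummer function
`u ∈ F_{M'}` with `ι u − 1 ∈ 𝔪_O` (`ι = inclBar M' M : F_{M'} → F_M`, `O` the valuation ring of `R`).

* `ksm_tower_sub_one` : series reductions at the levels `M' ∣ M`: `f − 1 ∈ 𝔪_{O'}` ⇒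
                        `ι f − 1 ∈ 𝔪_O`;
* `ksm_tower_mem`     : `f ∈ O'` ⇒ `ι f ∈ O`;
* `ksm_ksat`          : the statement, in the shape of the hypothesis `hker` of `rin_rayj`
                        (`S33lib/RayInst.lean`), with `c = 1`, `w = 1`;
* `ksm_ksat'`         : the same with `ι u − 1 ∈ 𝔪_O` stated directly.
-/
import Mathlib
import Fermat.Agent.S33lib.KSatConc
import Fermat.Agent.GoodRed.DescWiring
import Fermat.Agent.GoodRed.HredMain
import Fermat.Agent.GoodRed.ModRR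

set_option autoImplicit false
set_option linter.style.haveILetI false
set_option linter.unusedSectionVars false
set_option linter.unusedVariables false
set_option synthInstance.maxHeartbeats 400000

noncomputable section

namespace Fermat.Agent.S33lib

open AlgebraicCurve ModularCurve
open Fermat.Agent.RRlib Fermat.Agent.GoodRed Fermat.Agent.S34lib Fermat.Agent.S24lib
  Fermat.Agent.GM Fermat.Agent.S35lib Fermat.Agent.HeckeBar

variable {M' M : ℕ} [NeZero M'] [NeZero M] {B : ValuationSubring Kbar}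
variable {R' : ConstRed B (IsLocalRing.residue B) (Fk (IsLocalRing.ResidueField B) M') (FF M')}
variable {R : ConstRed B (IsLocalRing.residue B) (Fk (IsLocalRing.ResidueField B) M) (FF M)}

/-- series reductions at the levels `M' ∣ M`: the inclusion maps `O'` into `O` -/
theorem ksm_tower_mem (hNM : M' ∣ M) (hB : B ≠ ⊤) (hR' : IsSeriesRed R') (hR : IsSeriesRed R)
    {f : FF M'} (hf : f ∈ R'.O) : inclBar M' M hNM f ∈ R.O := by
  letI : Algebra (FF M') (FF M) := algebraAlong (inclBar M' M hNM)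
  letI : Algebra (Fk (IsLocalRing.ResidueField B) M') (Fk (IsLocalRing.ResidueField B) M) :=
    algebraAlong (inclK (IsLocalRing.ResidueField B) hNM)
  have hT : R'.IsTower R := dw_isTower hNM hB hR' hR
  exact hT.map_mem f hf

/-- series reductions at the levels `M' ∣ M`: the inclusion maps `𝔪_{O'}` into `𝔪_O` -/
theorem ksm_tower_nonunits (hNM : M' ∣ M) (hB : B ≠ ⊤) (hR' : IsSeriesRed R')
    (hR : IsSeriesRed R) {f : FF M'} (hf : f ∈ R'.O.nonunits) :
    inclBar M' M hNM f ∈ R.O.nonunits := by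
  letI : Algebra (FF M') (FF M) := algebraAlong (inclBar M' M hNM)
  letI : Algebra (Fk (IsLocalRing.ResidueField B) M') (Fk (IsLocalRing.ResidueField B) M) :=
    algebraAlong (inclK (IsLocalRing.ResidueField B) hNM)
  have hT : R'.IsTower R := dw_isTower hNM hB hR' hR
  have hfO : f ∈ R'.O := R'.O.nonunits_le hf
  have h0 : R'.red ⟨f, hfO⟩ = 0 := (R'.red_eq_zero_iff ⟨f, hfO⟩).mpr hf
  have h1 := hT.red_map f hfO
  rw [h0, map_zero] at h1
  have h2 : R.red ⟨inclBar M' M hNM f, ksm_tower_mem hNM hB hR' hR hfO⟩ = 0 := h1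
  exact (R.red_eq_zero_iff ⟨inclBar M' M hNM f, ksm_tower_mem hNM hB hR' hR hfO⟩).mp h2

/-- series reductions at the levels `M' ∣ M`: `f − 1 ∈ 𝔪_{O'}` ⇒ `ι f − 1 ∈ 𝔪_O` -/
theorem ksm_tower_sub_one (hNM : M' ∣ M) (hB : B ≠ ⊤) (hR' : IsSeriesRed R')
    (hR : IsSeriesRed R) {f : FF M'} (hf : f - 1 ∈ R'.O.nonunits) :
    inclBar M' M hNM f - 1 ∈ R.O.nonunits := by
  have h := ksm_tower_nonunits hNM hB hR' hR hf
  rwa [map_sub, map_one] at h

/-- **(KSAT), mixed form**: `ι u − 1 ∈ 𝔪_O` for a Kummer function `u` of `x`. -/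
theorem ksm_ksat' (hNM : M' ∣ M) (p : ℕ) [Fact p.Prime] (hpM' : ¬ p ∣ M')
    (hB : B.LiesOverPrime p) (hR : IsSeriesRed R)
    (x : JZero M') (hx : x ∈ s33hKI M' p B) (hpx : p • x = 0) :
    ∃ (D : Divisor.degZero (K := Kbar) (F := FF M')) (u : FF M'), Pic0.mk D = x ∧ u ≠ 0 ∧
      (∀ v : Place Kbar (FF M'), (p : ℤ) * (D : Divisor Kbar (FF M')) v = v.ord u) ∧
      inclBar M' M hNM u - 1 ∈ R.O.nonunits := by
  have hp : p.Prime := Fact.out
  have hBtop : B ≠ ⊤ := dw_ne_top hp hB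
  haveI : IsAlgClosed (IsLocalRing.ResidueField B) := isAlgClosed_residueField B
  haveI : RRHyp (IsLocalRing.ResidueField B) (Fk (IsLocalRing.ResidueField B) M') :=
    mr_rrHyp _ M'
  obtain ⟨R₀, hR₀⟩ := exists_modConstRed M' B hBtop (Fermat.Agent.GoodRed.hred_modL M' hpM' B hB)
  have hR₀' : IsSeriesRed R₀ := hR₀
  obtain ⟨D, f, hD, hf, hord, h1⟩ := ksat_conc M' p hp B hB R₀ hR₀' x hx hpx
  exact ⟨D, f, hD, hf, hord, ksm_tower_sub_one hNM hBtop hR₀' hR h1⟩

/-- **(KSAT), mixed form**, in the shape of `hker` of `rin_rayj`. -/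
theorem ksm_ksat (hNM : M' ∣ M) (p : ℕ) [Fact p.Prime] (hpM' : ¬ p ∣ M')
    (hB : B.LiesOverPrime p) (hR : IsSeriesRed R)
    (x : JZero M') (hx : x ∈ s33hKI M' p B) (hpx : p • x = 0) :
    ∃ (D : Divisor.degZero (K := Kbar) (F := FF M')) (u : FF M'), Pic0.mk D = x ∧ u ≠ 0 ∧
      (∀ v : Place Kbar (FF M'), (p : ℤ) * (D : Divisor Kbar (FF M')) v = v.ord u) ∧
      ∃ (c : Kbar) (w : FF M), c ≠ 0 ∧ w ≠ 0 ∧
        algebraMap Kbar (FF M) c * inclBar M' M hNM u * w ^ p - 1 ∈ R.O.nonunits := by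
  obtain ⟨D, u, hD, hu, hord, h1⟩ := ksm_ksat' hNM p hpM' hB hR x hx hpx
  refine ⟨D, u, hD, hu, hord, 1, 1, one_ne_zero, one_ne_zero, ?_⟩
  rw [map_one, one_mul, one_pow, mul_one]
  exact h1

end Fermat.Agent.S33lib

end
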