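/-
Item 86 (S33), block LEV / TOR_p, piece INV (helper9): the leading term of a Kummer function of
the TRIVIAL class is a `p`-th power up to a constant.  Complete proofs.

Setting (that of `ray_abs`): `R` a constant reduction of `F/K` to `Fk/k`, `lam` a nonunit of `A`
(a uniformiser of the field of rationality), `p ∈ lam^e A`, `F1` a subfield of `F` with
* (DISC)  every nonzero element of `F1` is `lam^n ·` (unit of `O`),
* (RES1)  every residue constant lifts to `A ∩ F1`.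

`lvi_inv`: if `1 + lam^i t = c · s^p` with `t ∈ O`, `s ∈ F1`, `1 ≤ i` and `(p - 1) i < p e`
(i.e. `i < i* = p e / (p - 1)`, the level is below `v*`), then
`red t = ψ^p + (constant)`, and `ψ = 0` if `p ∤ i`.

Use: (TOR_p), stuck classes: `α_* x = 0` means `Nm_α f₁ = c · s^p`, so the leading term of
`Nm_α f₁` (which is the `∞`-component of the leading term of `f₁`) lies in `κ^p + k`.
-/
import Mathlib
import Fermat.Agent.S33lib.RayAbs

set_option autoImplicit false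

noncomputable section

namespace Fermat.Agent.S33lib

open AlgebraicCurve Fermat.Agent.RRlib Fermat.Agent.GoodRed

variable {K F k Fk : Type*} [Field K] [Field F] [Algebra K F] [Field k] [Field Fk] [Algebra k Fk]

/-! ### constants of the residue function field -/

theorem lvi_ord_const (v : Place k Fk) {c : k} (hc : c ≠ 0) : v.ord (algebraMap k Fk c) = 0 := by
  have hcF : algebraMap k Fk c ≠ 0 := (map_ne_zero _).mpr hc
  have h1 : 0 ≤ v.ord (algebraMap k Fk c) :=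
    (v.adicValuation_le_one_iff.mp (v.adicValuation_algebraMap_le_one c)).resolve_left hcF
  have h2 : 0 ≤ v.ord (algebraMap k Fk c⁻¹) :=
    (v.adicValuation_le_one_iff.mp (v.adicValuation_algebraMap_le_one c⁻¹)).resolve_left
      ((map_ne_zero _).mpr (inv_ne_zero hc))
  rw [map_inv₀, Place.ord_inv] at h2
  omega

theorem lvi_ord_pow (v : Place k Fk) {w : Fk} (hw : w ≠ 0) (n : ℕ) :
    v.ord (w ^ n) = n * v.ord w := by
  induction n with
  | zero => rw [pow_zero, Place.ord_one, Nat.cast_zero, zero_mul]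
  | succ n ih =>
      rw [pow_succ, Place.ord_mul v (pow_ne_zero n hw) hw, ih]
      push_cast
      ring

/-- a `p`-th root of a constant is a constant -/
theorem lvi_root_const [RRBase k Fk] {p : ℕ} (hp : 0 < p) (w : Fk) (c : k)
    (h : w ^ p = algebraMap k Fk c) : ∃ a : k, w = algebraMap k Fk a := by
  rcases eq_or_ne w 0 with rfl | hw
  · exact ⟨0, (map_zero _).symm⟩
  have hc : c ≠ 0 := by
    rintro rfl
    rw [map_zero] at h
    exact hw (pow_eq_zero_iff hp.ne' |>.mp h)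
  have hord : ∀ v : Place k Fk, 0 ≤ v.ord w := by
    intro v
    have h1 : v.ord (w ^ p) = p * v.ord w := lvi_ord_pow v hw p
    rw [h, lvi_ord_const v hc] at h1
    have h2 : v.ord w = 0 := by
      rcases mul_eq_zero.mp h1.symm with h2 | h2
      · exact absurd (by exact_mod_cast h2) hp.ne'
      · exact h2
    omega
  obtain ⟨a, ha⟩ := RRBase.const_of_forall_ord_nonneg (K := k) w hord
  exact ⟨a, ha.symm⟩

/-! ### the three comparisons, in a commutative ring -/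

section alg

variable {O Fk' : Type*} [CommRing O] [CommRing Fk'] (red : O →+* Fk')

/-- `i < p j`: the `p`-th power does not reach the level `i` -/
theorem lvi_alg1 {p : ℕ} (hp : p.Prime) (Lo So tt co εo : O) (hL : red Lo = 0)
    {e i j : ℕ} (hpe : (p : O) = Lo ^ e * εo) (h1 : i < p * j) (h2 : i < e + j)
    (heq : co * (1 + Lo ^ j * So) ^ p = 1 + Lo ^ i * tt) :
    ∃ Z : O, co - 1 = Lo ^ i * Z ∧ red Z = red tt := by
  obtain ⟨r, hr⟩ := exists_add_pow_prime_eq hp (1 : O) (Lo ^ j * So)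
  obtain ⟨d₁, hd₁⟩ : ∃ d, p * j = i + 1 + d := ⟨p * j - (i + 1), by omega⟩
  obtain ⟨d₂, hd₂⟩ : ∃ d, e + j = i + 1 + d := ⟨e + j - (i + 1), by omega⟩
  refine ⟨tt - co * Lo * (Lo ^ d₁ * So ^ p + Lo ^ d₂ * εo * So * r), ?_, ?_⟩
  · have e1 : (Lo ^ j * So) ^ p = Lo ^ i * Lo * Lo ^ d₁ * So ^ p := by
      rw [mul_pow, ← pow_mul, mul_comm j p, hd₁]
      ring
    have e2 : (p : O) * 1 * (Lo ^ j * So) * r = Lo ^ i * Lo * Lo ^ d₂ * εo * So * r := by
      rw [hpe]
      have h3 : Lo ^ e * Lo ^ j = Lo ^ (i + 1 + d₂) := by rw [← pow_add, hd₂]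
      calc Lo ^ e * εo * 1 * (Lo ^ j * So) * r = (Lo ^ e * Lo ^ j) * εo * So * r := by ring
        _ = Lo ^ i * Lo * Lo ^ d₂ * εo * So * r := by rw [h3]; ring
    rw [hr, one_pow, e1, e2] at heq
    linear_combination heq
  · simp only [map_sub, map_mul, map_add, map_pow, hL, zero_mul, mul_zero, sub_zero]

/-- `i = p j`: the leading term is `So^p` up to a constant -/
theorem lvi_alg2 {p : ℕ} (hp : p.Prime) (Lo So tt co εo : O) (hL : red Lo = 0)
    (hco : red co = 1) {e i j : ℕ} (hpe : (p : O) = Lo ^ e * εo) (h1 : i = p * j)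
    (h2 : i < e + j) (heq : co * (1 + Lo ^ j * So) ^ p = 1 + Lo ^ i * tt) :
    ∃ Z : O, co - 1 = Lo ^ i * Z ∧ red Z = red tt - red So ^ p := by
  obtain ⟨r, hr⟩ := exists_add_pow_prime_eq hp (1 : O) (Lo ^ j * So)
  obtain ⟨d₂, hd₂⟩ : ∃ d, e + j = i + 1 + d := ⟨e + j - (i + 1), by omega⟩
  refine ⟨tt - co * (So ^ p + Lo * (Lo ^ d₂ * εo * So * r)), ?_, ?_⟩
  · have e1 : (Lo ^ j * So) ^ p = Lo ^ i * So ^ p := by
      rw [mul_pow, ← pow_mul, mul_comm j p, ← h1]
    have e2 : (p : O) * 1 * (Lo ^ j * So) * r = Lo ^ i * Lo * Lo ^ d₂ * εo * So * r := by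
      rw [hpe]
      have h3 : Lo ^ e * Lo ^ j = Lo ^ (i + 1 + d₂) := by rw [← pow_add, hd₂]
      calc Lo ^ e * εo * 1 * (Lo ^ j * So) * r = (Lo ^ e * Lo ^ j) * εo * So * r := by ring
        _ = Lo ^ i * Lo * Lo ^ d₂ * εo * So * r := by rw [h3]; ring
    rw [hr, one_pow, e1, e2] at heq
    linear_combination heq
  · simp only [map_sub, map_mul, map_add, map_pow, hL, hco, zero_mul, one_mul, add_zero]

/-- `p j < i`: the leading term of the `p`-th power must cancel against the constant -/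
theorem lvi_alg3 {p : ℕ} (hp : p.Prime) (Lo So tt co εo : O) (hL : red Lo = 0)
    (hco : red co = 1) {e i j : ℕ} (hpe : (p : O) = Lo ^ e * εo) (h1 : p * j < i)
    (h2 : p * j < e + j) (heq : co * (1 + Lo ^ j * So) ^ p = 1 + Lo ^ i * tt) :
    ∃ Z : O, co - 1 = Lo ^ (p * j) * Z ∧ red Z = - red So ^ p := by
  obtain ⟨r, hr⟩ := exists_add_pow_prime_eq hp (1 : O) (Lo ^ j * So)
  obtain ⟨d, hd⟩ : ∃ d, i = p * j + 1 + d := ⟨i - (p * j + 1), by omega⟩
  obtain ⟨d₂, hd₂⟩ : ∃ d, e + j = p * j + 1 + d := ⟨e + j - (p * j + 1), by omega⟩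
  refine ⟨Lo * (Lo ^ d * tt) - co * (So ^ p + Lo * (Lo ^ d₂ * εo * So * r)), ?_, ?_⟩
  · have e1 : (Lo ^ j * So) ^ p = Lo ^ (p * j) * So ^ p := by
      rw [mul_pow, ← pow_mul, mul_comm j p]
    have e2 : (p : O) * 1 * (Lo ^ j * So) * r
        = Lo ^ (p * j) * Lo * Lo ^ d₂ * εo * So * r := by
      rw [hpe]
      have h3 : Lo ^ e * Lo ^ j = Lo ^ (p * j + 1 + d₂) := by rw [← pow_add, hd₂]
      calc Lo ^ e * εo * 1 * (Lo ^ j * So) * r = (Lo ^ e * Lo ^ j) * εo * So * r := by ring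
        _ = Lo ^ (p * j) * Lo * Lo ^ d₂ * εo * So * r := by rw [h3]; ring
    have e3 : Lo ^ i = Lo ^ (p * j) * Lo * Lo ^ d := by rw [hd]; ring
    rw [hr, one_pow, e1, e2, e3] at heq
    linear_combination heq
  · simp only [map_sub, map_mul, map_add, map_pow, hL, hco, zero_mul, one_mul, add_zero,
      zero_sub]

end alg

/-! ### the arithmetic of the exponents -/

theorem lvi_lt_of_le {p e i j : ℕ} (hp : 1 ≤ p) (hie : (p - 1) * i < p * e) (h : i ≤ p * j) :
    i < e + j := by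
  obtain ⟨q, rfl⟩ : ∃ q, p = q + 1 := ⟨p - 1, by omega⟩
  rw [Nat.add_sub_cancel] at hie
  by_contra hcon
  push Not at hcon
  have h1 : (q + 1) * (e + j) ≤ (q + 1) * i := Nat.mul_le_mul_left _ hcon
  nlinarith

theorem lvi_lt_of_lt {p e i j : ℕ} (hp : 1 ≤ p) (hie : (p - 1) * i < p * e) (h : p * j < i) :
    p * j < e + j := by
  obtain ⟨q, rfl⟩ : ∃ q, p = q + 1 := ⟨p - 1, by omega⟩
  rw [Nat.add_sub_cancel] at hie
  by_contra hcon
  push Not at hcon
  -- e ≤ q j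
  have h0 : e ≤ q * j := by nlinarith
  have h1 : (q + 1) * e ≤ (q + 1) * (q * j) := Nat.mul_le_mul_left _ h0
  have h2 : q * ((q + 1) * j) ≤ q * i := Nat.mul_le_mul_left _ h.le
  nlinarith

section main

variable {A : ValuationSubring K} {π : A →+* k} (R : ConstRed A π Fk F)

/-- `c - 1 = lam^m · Z` with `Z ∈ O` forces `Z` to be a constant of `A` -/
theorem lvi_const_div {lam : K} (hlam0 : lam ≠ 0) {c : K} {m : ℕ} {Z : F} (hZ : Z ∈ R.O)
    (h : algebraMap K F c - 1 = algebraMap K F lam ^ m * Z) :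
    ∃ γ : A, algebraMap K F (γ : K) = Z := by
  have hL : algebraMap K F lam ≠ 0 := ray_algebraMap_ne_zero hlam0
  have h1 : algebraMap K F ((c - 1) / lam ^ m) = Z := by
    rw [map_div₀, map_sub, map_one, map_pow, h]
    field_simp
  have h2 : (c - 1) / lam ^ m ∈ A := by
    rw [← R.algebraMap_mem_iff, h1]
    exact hZ
  exact ⟨⟨_, h2⟩, h1⟩

/-- the reduction of a constant of `O` -/
theorem lvi_red_const {Z : F} (hZ : Z ∈ R.O) (γ : A) (h : algebraMap K F (γ : K) = Z) :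
    R.red ⟨Z, hZ⟩ = algebraMap k Fk (π γ) := by
  rw [← R.red_algebraMap γ]
  congr 1
  exact Subtype.ext h.symm

/-- a constant which is a quotient of two one-units is a one-unit of `A` -/
theorem lvi_c_one {c : K} {U V : F} (hU : U ∈ R.O) (hV : V ∈ R.O)
    (hrU : R.red ⟨U, hU⟩ = 1) (hrV : R.red ⟨V, hV⟩ = 1) (h : algebraMap K F c * U = V) :
    ∃ hc : algebraMap K F c ∈ R.O, R.red ⟨algebraMap K F c, hc⟩ = 1 := by
  have hUi : U⁻¹ ∈ R.O := ray_inv_mem R hU (by rw [hrU]; exact one_ne_zero)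
  have hU0 : U ≠ 0 := by
    rintro rfl
    rw [show (⟨0, hU⟩ : R.O) = 0 from rfl, map_zero] at hrU
    exact zero_ne_one hrU
  have hc : algebraMap K F c = V * U⁻¹ := by
    rw [← h]
    field_simp
  have hcO : algebraMap K F c ∈ R.O := by
    rw [hc]
    exact mul_mem hV hUi
  refine ⟨hcO, ?_⟩
  have h1 : R.red ⟨algebraMap K F c, hcO⟩ * R.red ⟨U, hU⟩ = R.red ⟨V, hV⟩ := by
    rw [← map_mul]
    congr 1
    exact Subtype.ext h
  rw [hrU, hrV, mul_one] at h1
  exact h1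

/-- a one-unit: `1 + lam^j x`, `j ≥ 1`, `x ∈ O` -/
theorem lvi_one_unit {lam : K} (hlamA : lam ∈ A.nonunits) {j : ℕ} (hj : 1 ≤ j) {x : F}
    (hx : x ∈ R.O) :
    ∃ h : 1 + algebraMap K F lam ^ j * x ∈ R.O,
      R.red ⟨1 + algebraMap K F lam ^ j * x, h⟩ = 1 := by
  have hL : algebraMap K F lam ∈ R.O := ray_lam_mem R hlamA
  have hLj : algebraMap K F lam ^ j ∈ R.O := pow_mem hL j
  refine ⟨add_mem (one_mem _) (mul_mem hLj hx), ?_⟩
  have e : (⟨1 + algebraMap K F lam ^ j * x, add_mem (one_mem _) (mul_mem hLj hx)⟩ : R.O)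
      = 1 + (⟨algebraMap K F lam, hL⟩ : R.O) ^ j * ⟨x, hx⟩ := rfl
  rw [e, map_add, map_one, map_mul, map_pow, ray_red_lam R hlamA, zero_pow (by omega), zero_mul,
    add_zero]

variable {p : ℕ} {lam : K} (F1 : Subfield F)

/-- **the induction**: `c₁ (1 + lam^j S)^p = 1 + lam^i t` with `S ∈ F1 ∩ O`, `j ≥ 1`. -/
theorem lvi_key [RRBase k Fk] (hp : p.Prime) (hlam0 : lam ≠ 0) (hlamA : lam ∈ A.nonunits)
    (hlam1 : algebraMap K F lam ∈ F1)
    (hdisc : ∀ f ∈ F1, f ≠ 0 → ∃ n : ℤ,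
      algebraMap K F (lam ^ n) * f ∈ R.O ∧ (algebraMap K F (lam ^ n) * f)⁻¹ ∈ R.O)
    (hres1 : ∀ c : k, ∃ a : A, π a = c ∧ algebraMap K F (a : K) ∈ F1)
    {e i : ℕ} (hi : 1 ≤ i) (hpe : ∃ ε ∈ A, (p : K) = lam ^ e * ε) (hie : (p - 1) * i < p * e)
    {t : F} (htO : t ∈ R.O) (n : ℕ) :
    ∀ j : ℕ, 1 ≤ j → i ≤ p * j + n → ∀ (c₁ : K) (S : F), S ∈ F1 → S ∈ R.O →
      algebraMap K F c₁ * (1 + algebraMap K F lam ^ j * S) ^ p
        = 1 + algebraMap K F lam ^ i * t →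
      ∃ (ψ : Fk) (cb : k), R.red ⟨t, htO⟩ = ψ ^ p + algebraMap k Fk cb ∧ (¬ p ∣ i → ψ = 0) := by
  have hp1 : 1 ≤ p := hp.one_lt.le
  have hL : algebraMap K F lam ∈ R.O := ray_lam_mem R hlamA
  have hL0 : algebraMap K F lam ≠ 0 := ray_algebraMap_ne_zero hlam0
  have hrL : R.red ⟨algebraMap K F lam, hL⟩ = 0 := ray_red_lam R hlamA
  obtain ⟨ε, hεA, hpε⟩ := hpe
  have hεO : algebraMap K F ε ∈ R.O := R.algebraMap_mem ⟨ε, hεA⟩
  have hpO : ((p : ℕ) : R.O) = (⟨algebraMap K F lam, hL⟩ : R.O) ^ e * ⟨algebraMap K F ε, hεO⟩ := by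
    apply Subtype.ext
    show ((p : ℕ) : F) = algebraMap K F lam ^ e * algebraMap K F ε
    rw [← map_pow, ← map_mul, ← hpε, map_natCast]
  -- the common part of the three cases
  have common : ∀ j : ℕ, 1 ≤ j → ∀ (c₁ : K) (S : F) (hSO : S ∈ R.O),
      algebraMap K F c₁ * (1 + algebraMap K F lam ^ j * S) ^ p
        = 1 + algebraMap K F lam ^ i * t →
      ∃ hc : algebraMap K F c₁ ∈ R.O, R.red ⟨algebraMap K F c₁, hc⟩ = 1 ∧
        (⟨algebraMap K F c₁, hc⟩ : R.O) * (1 + (⟨algebraMap K F lam, hL⟩ : R.O) ^ j * ⟨S, hSO⟩) ^ p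
          = 1 + (⟨algebraMap K F lam, hL⟩ : R.O) ^ i * ⟨t, htO⟩ := by
    intro j hj c₁ S hSO heq
    obtain ⟨hU1, hrU1⟩ := lvi_one_unit R hlamA hj hSO
    obtain ⟨hV, hrV⟩ := lvi_one_unit R hlamA hi htO
    have hU : (1 + algebraMap K F lam ^ j * S) ^ p ∈ R.O := pow_mem hU1 p
    have hrU : R.red ⟨(1 + algebraMap K F lam ^ j * S) ^ p, hU⟩ = 1 := by
      have e : (⟨(1 + algebraMap K F lam ^ j * S) ^ p, hU⟩ : R.O)
          = (⟨1 + algebraMap K F lam ^ j * S, hU1⟩ : R.O) ^ p := rfl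
      rw [e, map_pow, hrU1, one_pow]
    obtain ⟨hc, hrc⟩ := lvi_c_one R hU hV hrU hrV heq
    exact ⟨hc, hrc, Subtype.ext heq⟩
  -- the direct cases `i ≤ p j`
  have direct : ∀ j : ℕ, 1 ≤ j → i ≤ p * j → ∀ (c₁ : K) (S : F), S ∈ R.O →
      algebraMap K F c₁ * (1 + algebraMap K F lam ^ j * S) ^ p
        = 1 + algebraMap K F lam ^ i * t →
      ∃ (ψ : Fk) (cb : k), R.red ⟨t, htO⟩ = ψ ^ p + algebraMap k Fk cb ∧
        (¬ p ∣ i → ψ = 0) := by
    intro j hj hij c₁ S hSO heq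
    obtain ⟨hc, hrc, heqO⟩ := common j hj c₁ S hSO heq
    have h2 : i < e + j := lvi_lt_of_le hp1 hie hij
    rcases hij.lt_or_eq with h1 | h1
    · obtain ⟨Z, hZ, hrZ⟩ := lvi_alg1 R.red hp _ _ _ _ _ hrL hpO h1 h2 heqO
      have hZF : algebraMap K F c₁ - 1 = algebraMap K F lam ^ i * (Z : F) :=
        congrArg Subtype.val hZ
      obtain ⟨γ, hγ⟩ := lvi_const_div R hlam0 Z.2 hZF
      refine ⟨0, π γ, ?_, fun _ => rfl⟩
      rw [← hrZ, zero_pow hp.ne_zero, zero_add]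
      exact lvi_red_const R Z.2 γ hγ
    · obtain ⟨Z, hZ, hrZ⟩ := lvi_alg2 R.red hp _ _ _ _ _ hrL hrc hpO h1 h2 heqO
      have hZF : algebraMap K F c₁ - 1 = algebraMap K F lam ^ i * (Z : F) :=
        congrArg Subtype.val hZ
      obtain ⟨γ, hγ⟩ := lvi_const_div R hlam0 Z.2 hZF
      refine ⟨R.red ⟨S, hSO⟩, π γ, ?_, fun hnd => absurd ⟨j, h1⟩ hnd⟩
      have h3 : R.red Z = algebraMap k Fk (π γ) := lvi_red_const R Z.2 γ hγ
      rw [hrZ] at h3
      rw [← h3]
      ring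
  induction n with
  | zero =>
      intro j hj hij c₁ S _ hSO heq
      exact direct j hj (by omega) c₁ S hSO heq
  | succ n ih =>
      intro j hj hij c₁ S hS1 hSO heq
      rcases Nat.lt_or_ge (p * j) i with h1 | h1
      · -- `p j < i`: the leading term of `S` is a constant; absorb it
        obtain ⟨hc, hrc, heqO⟩ := common j hj c₁ S hSO heq
        have h2 : p * j < e + j := lvi_lt_of_lt hp1 hie h1
        obtain ⟨Z, hZ, hrZ⟩ := lvi_alg3 R.red hp _ _ _ _ _ hrL hrc hpO h1 h2 heqO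
        have hZF : algebraMap K F c₁ - 1 = algebraMap K F lam ^ (p * j) * (Z : F) :=
          congrArg Subtype.val hZ
        obtain ⟨γ, hγ⟩ := lvi_const_div R hlam0 Z.2 hZF
        have h3 : R.red Z = algebraMap k Fk (π γ) := lvi_red_const R Z.2 γ hγ
        rw [hrZ] at h3
        have h4 : R.red ⟨S, hSO⟩ ^ p = algebraMap k Fk (-π γ) := by
          rw [map_neg, ← h3, neg_neg]
        obtain ⟨ab, hab⟩ := lvi_root_const hp.pos _ _ h4
        obtain ⟨a', ha', ha'1⟩ := hres1 ab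
        have ha'O : algebraMap K F (a' : K) ∈ R.O := R.algebraMap_mem a'
        -- `x = S - a'` is divisible by `lam`
        have hx1 : S - algebraMap K F (a' : K) ∈ F1 := sub_mem hS1 ha'1
        have hxO : S - algebraMap K F (a' : K) ∈ R.O := sub_mem hSO ha'O
        have hxr : R.red ⟨S - algebraMap K F (a' : K), hxO⟩ = 0 := by
          have e : (⟨S - algebraMap K F (a' : K), hxO⟩ : R.O)
              = ⟨S, hSO⟩ - ⟨algebraMap K F (a' : K), ha'O⟩ := rfl
          rw [e, map_sub, R.red_algebraMap a', ha', hab, sub_self]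
        obtain ⟨y, hyO, hxy⟩ := ray_disc_div R F1 hlam0 hlamA hdisc hx1 hxO hxr
        have hy1 : y ∈ F1 := by
          have : y = (S - algebraMap K F (a' : K)) * (algebraMap K F lam)⁻¹ := by
            rw [hxy]
            field_simp
          rw [this]
          exact mul_mem hx1 (inv_mem hlam1)
        -- the unit `u₀ = 1 + lam^j a'`
        obtain ⟨hu0O, hu0r⟩ := lvi_one_unit R hlamA hj ha'O
        set u₀ : F := 1 + algebraMap K F lam ^ j * algebraMap K F (a' : K) with hu₀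
        have hu0i : u₀⁻¹ ∈ R.O := ray_inv_mem R hu0O (by rw [hu0r]; exact one_ne_zero)
        have hu00 : u₀ ≠ 0 := by
          intro h0
          have h5 : (⟨u₀, hu0O⟩ : R.O) = 0 := Subtype.ext h0
          rw [h5, map_zero] at hu0r
          exact zero_ne_one hu0r
        have hu01 : u₀ ∈ F1 := add_mem (one_mem _) (mul_mem (pow_mem hlam1 j) ha'1)
        have hu0K : algebraMap K F (1 + lam ^ j * (a' : K)) = u₀ := by
          rw [map_add, map_one, map_mul, map_pow]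
        refine ih (j + 1) (by omega) ?_ (c₁ * (1 + lam ^ j * (a' : K)) ^ p) (y * u₀⁻¹)
          (mul_mem hy1 (inv_mem hu01)) (mul_mem hyO hu0i) ?_
        · have : p * (j + 1) = p * j + p := by ring
          omega
        · rw [← heq, map_mul, map_pow, hu0K, mul_assoc, ← mul_pow]
          congr 2
          have hS : S = algebraMap K F (a' : K) + algebraMap K F lam * y := by
            rw [← hxy]
            ring
          have h8 : u₀ * u₀⁻¹ = 1 := mul_inv_cancel₀ hu00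
          calc u₀ * (1 + algebraMap K F lam ^ (j + 1) * (y * u₀⁻¹))
              = u₀ + algebraMap K F lam ^ (j + 1) * y * (u₀ * u₀⁻¹) := by ring
            _ = u₀ + algebraMap K F lam ^ (j + 1) * y := by rw [h8, mul_one]
            _ = 1 + algebraMap K F lam ^ j * S := by rw [hS, hu₀]; ring
      · exact direct j hj h1 c₁ S hSO heq

/-- **INV**: below the level `v*`, the leading term of a Kummer function of the trivial class is
a `p`-th power plus a constant; it is a constant if `p ∤ i`. -/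
theorem lvi_inv [RRBase k Fk] (hp : p.Prime) (hlam0 : lam ≠ 0) (hlamA : lam ∈ A.nonunits)
    (hlam1 : algebraMap K F lam ∈ F1)
    (hdisc : ∀ f ∈ F1, f ≠ 0 → ∃ n : ℤ,
      algebraMap K F (lam ^ n) * f ∈ R.O ∧ (algebraMap K F (lam ^ n) * f)⁻¹ ∈ R.O)
    (hres1 : ∀ c : k, ∃ a : A, π a = c ∧ algebraMap K F (a : K) ∈ F1)
    {e i : ℕ} (hi : 1 ≤ i) (hpe : ∃ ε ∈ A, (p : K) = lam ^ e * ε) (hie : (p - 1) * i < p * e)
    {t : F} (htO : t ∈ R.O) (c : K) (s : F) (hs1 : s ∈ F1)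
    (h : 1 + algebraMap K F (lam ^ i) * t = algebraMap K F c * s ^ p) :
    ∃ (ψ : Fk) (cb : k), R.red ⟨t, htO⟩ = ψ ^ p + algebraMap k Fk cb ∧ (¬ p ∣ i → ψ = 0) := by
  have hL : algebraMap K F lam ∈ R.O := ray_lam_mem R hlamA
  have hL0 : algebraMap K F lam ≠ 0 := ray_algebraMap_ne_zero hlam0
  rw [map_pow] at h
  obtain ⟨hV, hrV⟩ := lvi_one_unit R hlamA hi htO
  have hV0 : 1 + algebraMap K F lam ^ i * t ≠ 0 := by
    intro h0
    have h5 : (⟨1 + algebraMap K F lam ^ i * t, hV⟩ : R.O) = 0 := Subtype.ext h0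
    rw [h5, map_zero] at hrV
    exact zero_ne_one hrV
  have hs0 : s ≠ 0 := by
    rintro rfl
    rw [zero_pow hp.ne_zero, mul_zero] at h
    exact hV0 h
  -- normalise `s` to a unit `u` of `O`
  obtain ⟨m, huO, huiO⟩ := hdisc s hs1 hs0
  set u : F := algebraMap K F (lam ^ m) * s with hu
  have hlm0 : algebraMap K F (lam ^ m) ≠ 0 := ray_algebraMap_ne_zero (zpow_ne_zero m hlam0)
  have hu0 : u ≠ 0 := mul_ne_zero hlm0 hs0
  have hlm1 : algebraMap K F (lam ^ m) ∈ F1 := by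
    rw [map_zpow₀]
    exact zpow_mem hlam1 m
  have hu1 : u ∈ F1 := mul_mem hlm1 hs1
  have hru : R.red ⟨u, huO⟩ ≠ 0 := ray_red_ne_zero R huO huiO hu0
  -- the constant `c₀ = c / lam^(m p)`
  have heq0 : algebraMap K F (c * ((lam ^ m)⁻¹) ^ p) * u ^ p
      = 1 + algebraMap K F lam ^ i * t := by
    rw [h, hu, map_mul, map_pow, map_inv₀, mul_pow]
    have h7 : (algebraMap K F (lam ^ m))⁻¹ ^ p * algebraMap K F (lam ^ m) ^ p = 1 := by
      rw [← mul_pow, inv_mul_cancel₀ hlm0, one_pow]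
    linear_combination (algebraMap K F c * s ^ p) * h7
  have hupO : u ^ p ∈ R.O := pow_mem huO p
  have hupi : (u ^ p)⁻¹ ∈ R.O := by
    rw [← inv_pow]
    exact pow_mem huiO p
  have hc0 : algebraMap K F (c * ((lam ^ m)⁻¹) ^ p)
      = (1 + algebraMap K F lam ^ i * t) * (u ^ p)⁻¹ := by
    rw [← heq0]
    field_simp
  have hc0O : algebraMap K F (c * ((lam ^ m)⁻¹) ^ p) ∈ R.O := by
    rw [hc0]
    exact mul_mem hV hupi
  have hc0A : c * ((lam ^ m)⁻¹) ^ p ∈ A := (R.algebraMap_mem_iff _).mp hc0O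
  -- `(red u)^p` is a constant
  have h1 : algebraMap k Fk (π ⟨_, hc0A⟩) * R.red ⟨u, huO⟩ ^ p = 1 := by
    rw [← R.red_algebraMap ⟨_, hc0A⟩, ← map_pow, ← map_mul, ← hrV]
    congr 1
    exact Subtype.ext heq0
  have hπ0 : π ⟨_, hc0A⟩ ≠ 0 := by
    intro h0
    rw [h0, map_zero, zero_mul] at h1
    exact zero_ne_one h1
  have h2 : R.red ⟨u, huO⟩ ^ p = algebraMap k Fk (π ⟨_, hc0A⟩)⁻¹ := by
    rw [map_inv₀]
    exact eq_inv_of_mul_eq_one_right h1
  obtain ⟨bb, hbb⟩ := lvi_root_const hp.pos _ _ h2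
  have hbb0 : bb ≠ 0 := by
    rintro rfl
    rw [map_zero] at hbb
    exact hru hbb
  obtain ⟨b, hb, hb1⟩ := hres1 bb
  have hbO : algebraMap K F (b : K) ∈ R.O := R.algebraMap_mem b
  have hrb : R.red ⟨algebraMap K F (b : K), hbO⟩ = algebraMap k Fk bb := by
    rw [R.red_algebraMap b, hb]
  have hbi : (algebraMap K F (b : K))⁻¹ ∈ R.O :=
    ray_inv_mem R hbO (by rw [hrb]; exact (map_ne_zero _).mpr hbb0)
  have hb0 : algebraMap K F (b : K) ≠ 0 := by
    intro h0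
    have h5 : (⟨algebraMap K F (b : K), hbO⟩ : R.O) = 0 := Subtype.ext h0
    rw [h5, map_zero] at hrb
    exact (map_ne_zero _).mpr hbb0 hrb.symm
  -- `u / b = 1 + lam y`
  have hx1 : u * (algebraMap K F (b : K))⁻¹ - 1 ∈ F1 :=
    sub_mem (mul_mem hu1 (inv_mem hb1)) (one_mem _)
  have hxO : u * (algebraMap K F (b : K))⁻¹ - 1 ∈ R.O :=
    sub_mem (mul_mem huO hbi) (one_mem _)
  have hxr : R.red ⟨u * (algebraMap K F (b : K))⁻¹ - 1, hxO⟩ = 0 := by
    have e : (⟨u * (algebraMap K F (b : K))⁻¹ - 1, hxO⟩ : R.O)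
        = ⟨u, huO⟩ * ⟨(algebraMap K F (b : K))⁻¹, hbi⟩ - 1 := rfl
    rw [e, map_sub, map_mul, map_one, ray_red_inv R hbO hbi hb0, hrb, hbb,
      mul_inv_cancel₀ ((map_ne_zero _).mpr hbb0), sub_self]
  obtain ⟨y, hyO, hxy⟩ := ray_disc_div R F1 hlam0 hlamA hdisc hx1 hxO hxr
  have hy1 : y ∈ F1 := by
    have : y = (u * (algebraMap K F (b : K))⁻¹ - 1) * (algebraMap K F lam)⁻¹ := by
      rw [hxy]
      field_simp
    rw [this]
    exact mul_mem hx1 (inv_mem hlam1)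
  refine lvi_key R F1 hp hlam0 hlamA hlam1 hdisc hres1 hi hpe hie htO i 1 le_rfl (by omega)
    (c * ((lam ^ m)⁻¹) ^ p * (b : K) ^ p) y hy1 hyO ?_
  rw [← heq0, map_mul (algebraMap K F) (c * ((lam ^ m)⁻¹) ^ p), map_pow _ (b : K), mul_assoc,
    ← mul_pow, pow_one]
  congr 2
  have h9 : u * (algebraMap K F (b : K))⁻¹ = 1 + algebraMap K F lam * y := by
    rw [← hxy]
    ring
  calc algebraMap K F (b : K) * (1 + algebraMap K F lam * y)
      = u * ((algebraMap K F (b : K))⁻¹ * algebraMap K F (b : K)) := by rw [← h9]; ring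
    _ = u := by rw [inv_mul_cancel₀ hb0, mul_one]

end main

end Fermat.Agent.S33lib

end
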