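import Mathlib
import Fermat.Agent.S35lib.NormRedCR
import Fermat.Agent.S33lib.TpLead
import Fermat.Agent.S36lib.Speed

/-!
# Item 86 (S33), piece T1 (helper24): the first order norm at level `N ℓ`

Level `N`, `ℓ ∤ N` prime, `A` a valuation ring of `Qbar` of residue characteristic `ℓ` (for S33:
`ℓ = p`).  `F_{Nℓ}` carries the two valuations `v_∞` (the series reduction `R`) and
`v_0 = v_∞ ∘ w` (`R₀ = inredComap R w`, `w` exchanging the two degeneracy maps `α`, `β`).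
For `y ∈ F_{Nℓ}` integral at both valuations and `a ∈ m_A`, `a ≠ 0`:

  `Norm_α (1 + a y) = 1 + a t`,   `t ∈ R'.O`,  `red' t = red_∞ y`,
  `Norm_β (1 + a y) = 1 + a t'`,  `t' ∈ R'.O`, `red' t' = red_0 y`.

("the local trace at the inseparable valuation is in `ℓ · O`, at the other one it is the
identity on the residue function field".)  So `α_*`, `β_*` send the leading term `(ȳ_∞, ȳ_0)` of
a Kummer function `1 + a y` of level `N ℓ` to the leading terms `ȳ_∞`, `ȳ_0` at level `N`.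

* `nf1_core`: the statement on series (two series in the product formula `normProd`);
* `nf1_gen`: the statement for a norm with a product formula, bi-primitive denominators;
* `nf1_of_al`: the function field form, for the pair `(R, inredComap R w)`;
* `nf1_alpha`, `nf1_beta`: the concrete forms (`w` the Atkin–Lehner involution,
  `R₀ = inredZero R`).
-/

set_option autoImplicit false
set_option linter.style.haveILetI false
set_option linter.unusedSectionVars false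
set_option linter.unusedVariables false

noncomputable section

namespace Fermat.Agent.S33lib

open ModularCurve AlgebraicCurve HahnSeries
open Fermat.Agent.S24lib Fermat.Agent.HeckeBar Fermat.Agent.S37lib Fermat.Agent.GoodRed
open Fermat.Agent.S35lib

/-- **the algebraic core of piece T1.**  If `Z₁`, `Z₀` are given in the variable `s = q^{1/ℓ}`
by the product formula for `(b₁ + a c₁, b₂ + a c₂)` and `(b₁, b₂)` (series over `A`, `a ∈ m_A`,
`a ≠ 0`), then `Z₀ = d̂`, `Z₁ - Z₀ = a · n̂` with `d`, `n` series over `A`,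
`d̄ = b̄₁ · Fr b̄₂`, `n̄ = c̄₁ · Fr b̄₂`. -/
theorem nf1_core {K : Type*} [Field K] (A : ValuationSubring K) (ℓ : ℕ) [NeZero ℓ]
    [ExpChar (IsLocalRing.ResidueField A) ℓ] (hℓ : ℓ.Prime)
    (ζ : Kˣ) (hζ : (ζ : K) ^ ℓ = 1) (b₁ c₁ b₂ c₂ : LaurentSeries A) (a : A)
    (ha : IsLocalRing.residue A a = 0) (ha0 : a ≠ 0) (Z₁ Z₀ : LaurentSeries K)
    (hZ₁ : qExpand K ℓ Z₁ = qExpand K ℓ (coeffMap A.subtype (b₁ + HahnSeries.C a * c₁))
        * ∏ i ∈ Finset.range ℓ, twq (ζ ^ i) (coeffMap A.subtype (b₂ + HahnSeries.C a * c₂)))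
    (hZ₀ : qExpand K ℓ Z₀ = qExpand K ℓ (coeffMap A.subtype b₁)
        * ∏ i ∈ Finset.range ℓ, twq (ζ ^ i) (coeffMap A.subtype b₂)) :
    ∃ n d : LaurentSeries A, coeffMap A.subtype d = Z₀ ∧
      Z₁ - Z₀ = HahnSeries.C (a : K) * coeffMap A.subtype n ∧
      coeffMap (IsLocalRing.residue A) d
        = coeffMap (IsLocalRing.residue A) b₁
          * coeffMap (frobenius (IsLocalRing.ResidueField A) ℓ)
              (coeffMap (IsLocalRing.residue A) b₂) ∧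
      coeffMap (IsLocalRing.residue A) n
        = coeffMap (IsLocalRing.residue A) c₁
          * coeffMap (frobenius (IsLocalRing.ResidueField A) ℓ)
              (coeffMap (IsLocalRing.residue A) b₂) := by
  classical
  have : Fact ℓ.Prime := ⟨hℓ⟩
  have : CharP (IsLocalRing.ResidueField A) ℓ := kf_charP_of_expChar _ hℓ
  have : CharP (LaurentSeries (IsLocalRing.ResidueField A)) ℓ :=
    charP_of_injective_ringHom (HahnSeries.C_injective (Γ := ℤ)
      (R := IsLocalRing.ResidueField A)) ℓ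
  -- `d` from NORM-RED
  obtain ⟨d, hd, hdred⟩ := normRed_core A ℓ hℓ ζ hζ b₁ b₂ Z₀ hZ₀
  -- `ζ` as a unit of `A`
  have hmem : (ζ : K) ∈ A := kf_mem_of_pow_eq_one A (NeZero.ne ℓ) hζ
  have hζA : (⟨(ζ : K), hmem⟩ : A) ^ ℓ = 1 := Subtype.ext (by simpa using hζ)
  let ζA : Aˣ := Units.ofPowEqOne (⟨(ζ : K), hmem⟩ : A) ℓ hζA (NeZero.ne ℓ)
  have hζA_map : Units.map (A.subtype : A →* K) ζA = ζ := Units.ext rfl
  have hζA_res : Units.map (IsLocalRing.residue A : A →* IsLocalRing.ResidueField A) ζA = 1 := by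
    refine Units.ext ?_
    show IsLocalRing.residue A (⟨(ζ : K), hmem⟩ : A) = 1
    apply kf_eq_one_of_pow_eq_one (ℓ := ℓ)
    rw [← map_pow, hζA, map_one]
  set ρ : LaurentSeries A →+* LaurentSeries (IsLocalRing.ResidueField A) :=
    coeffMap (IsLocalRing.residue A) with hρdef
  have hρa : ρ (HahnSeries.C a) = 0 := by
    rw [hρdef, coeffMap_C, ha, map_zero]
  have hρtw : ∀ (i : ℕ) (x : LaurentSeries A), ρ (twq (ζA ^ i) x) = ρ x := by
    intro i x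
    rw [hρdef, coeffMap_twq, map_pow, hζA_res, one_pow, twq_one]
  -- the expansion of the product of the `ℓ` twisted factors
  obtain ⟨D, R, hDR, hρD⟩ := tpl_prod_expand ρ (HahnSeries.C a) (Finset.range ℓ)
    (fun i => twq (ζA ^ i) b₂) (fun i => twq (ζA ^ i) c₂) (ρ b₂) (ρ c₂)
    (fun i _ => hρtw i b₂) (fun i _ => hρtw i c₂)
  have hρD0 : ρ D = 0 := by
    rw [hρD, Finset.card_range, CharP.cast_eq_zero, zero_mul]
  set P : LaurentSeries A := ∏ i ∈ Finset.range ℓ, twq (ζA ^ i) b₂ with hP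
  have hρP : ρ P = (ρ b₂) ^ ℓ := by
    rw [hP, map_prod, Finset.prod_congr rfl (fun i _ => hρtw i b₂), Finset.prod_const,
      Finset.card_range]
  set B₀ : LaurentSeries A := qExpand A ℓ b₁ with hB₀
  set C₀ : LaurentSeries A := qExpand A ℓ c₁ with hC₀
  set H : LaurentSeries A := B₀ * D + C₀ * P
    + HahnSeries.C a * (B₀ * R + C₀ * D + HahnSeries.C a * (C₀ * R)) with hH
  set w₁ : LaurentSeries A := qExpand A ℓ (b₁ + HahnSeries.C a * c₁)
    * ∏ i ∈ Finset.range ℓ, twq (ζA ^ i) (b₂ + HahnSeries.C a * c₂) with hw₁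
  set w₀ : LaurentSeries A := qExpand A ℓ b₁ * ∏ i ∈ Finset.range ℓ, twq (ζA ^ i) b₂ with hw₀
  have hw : w₁ - w₀ = HahnSeries.C a * H := by
    have e1 : ∏ i ∈ Finset.range ℓ, twq (ζA ^ i) (b₂ + HahnSeries.C a * c₂)
        = ∏ i ∈ Finset.range ℓ, (twq (ζA ^ i) b₂ + HahnSeries.C a * twq (ζA ^ i) c₂) :=
      Finset.prod_congr rfl fun i _ => by rw [map_add, map_mul, tpl_twq_C]
    rw [hw₁, hw₀, e1, hDR, map_add, map_mul, qExpand_C, hH]
    ring
  have hw₁K : coeffMap A.subtype w₁ = qExpand K ℓ Z₁ := by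
    rw [hZ₁, hw₁, map_mul, map_prod, coeffMap_qExpand]
    congr 1
    refine Finset.prod_congr rfl fun i _ => ?_
    rw [coeffMap_twq, map_pow, hζA_map]
  have hw₀K : coeffMap A.subtype w₀ = qExpand K ℓ Z₀ := by
    rw [hZ₀, hw₀, map_mul, map_prod, coeffMap_qExpand]
    congr 1
    refine Finset.prod_congr rfl fun i _ => ?_
    rw [coeffMap_twq, map_pow, hζA_map]
  have hHK : qExpand K ℓ (Z₁ - Z₀) = HahnSeries.C (a : K) * coeffMap A.subtype H := by
    rw [map_sub, ← hw₁K, ← hw₀K, ← map_sub, hw, map_mul, coeffMap_C]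
    rfl
  have hH0 : ∀ n : ℤ, ¬ (ℓ : ℤ) ∣ n → H.coeff n = 0 := by
    intro n hn
    have h1 : (qExpand K ℓ (Z₁ - Z₀)).coeff n
        = (HahnSeries.C (a : K) * coeffMap A.subtype H).coeff n := by rw [hHK]
    rw [qExpand_coeff_of_not_dvd ℓ _ hn, tpl_coeff_C_mul, coeffMap_coeff] at h1
    have ha0' : (a : K) ≠ 0 := fun h => ha0 (Subtype.ext h)
    have h2 : A.subtype (H.coeff n) = 0 := by
      rcases mul_eq_zero.mp h1.symm with h | h
      · exact absurd h ha0'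
      · exact h
    exact A.subtype_injective (by rw [h2, map_zero])
  refine ⟨Kron.qContract ℓ H, d, hd, ?_, hdred, ?_⟩
  · apply qExpand_injective (R := K) ℓ
    rw [hHK, map_mul, qExpand_C, ← coeffMap_qExpand, Kron.qExpand_qContract ℓ hH0]
  · apply qExpand_injective (R := IsLocalRing.ResidueField A) ℓ
    have hL : qExpand (IsLocalRing.ResidueField A) ℓ
        (coeffMap (IsLocalRing.residue A) (Kron.qContract ℓ H)) = ρ H := by
      rw [← coeffMap_qExpand, Kron.qExpand_qContract ℓ hH0]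
    have hρC₀ : ρ C₀ = qExpand (IsLocalRing.ResidueField A) ℓ (ρ c₁) :=
      coeffMap_qExpand (IsLocalRing.residue A) ℓ c₁
    have hρH : ρ H = qExpand (IsLocalRing.ResidueField A) ℓ (ρ c₁) * (ρ b₂) ^ ℓ := by
      rw [hH, map_add, map_add, map_mul, map_mul, map_mul, hρa, hρD0, hρP, hρC₀]
      ring
    rw [hL, hρH, map_mul, ← Kron.kc_pow_char]

/-- the product over the twists of a constant multiple (any coefficient field) -/
theorem nf1_prod_twq {K : Type*} [Field K] (ℓ : ℕ) (ζ : Kˣ) (e : K) (Y : LaurentSeries K) :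
    ∏ b ∈ Finset.range ℓ, twq (ζ ^ b) (HahnSeries.C e * Y)
      = HahnSeries.C (e ^ ℓ) * ∏ b ∈ Finset.range ℓ, twq (ζ ^ b) Y := by
  rw [Finset.prod_congr rfl (fun b _ => by rw [map_mul, tpl_twq_C] :
    ∀ b ∈ Finset.range ℓ, twq (ζ ^ b) (HahnSeries.C e * Y)
      = HahnSeries.C e * twq (ζ ^ b) Y), Finset.prod_mul_distrib, Finset.prod_const,
    Finset.card_range, map_pow]

/-- **piece T1, generic form.**  `Nm : L →* F'` a multiplicative map with a product formula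
`(Nm x)(q^ℓ) = (E₁ x)(q^ℓ) · ∏_b (E₂ x)(ζ^b q)` for two expansions `E₁`, `E₂` of `L`;
`y = x / x'` where `E₁ x' = e₁ b₁`, `E₂ x' = e₂ b₂` (`b₁`, `b₂` primitive integral series) and
`E₁ x = e₁ c₁`, `E₂ x = e₂ c₂` (`c₁`, `c₂` integral series).  Then for `a ∈ m_A`, `a ≠ 0`:
`Nm (1 + a y) = 1 + a t`, `t = n / d` with `n̄ / d̄ = c̄₁ / b̄₁`. -/
theorem nf1_gen {K : Type*} [Field K] (A : ValuationSubring K) (ℓ : ℕ) [NeZero ℓ]
    [ExpChar (IsLocalRing.ResidueField A) ℓ] (hℓ : ℓ.Prime)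
    {F' : IntermediateField K (LaurentSeries K)}
    {L : Type*} [Field L] [Algebra K L]
    (Nm : L →* ↥F') (E₁ E₂ : L →+* LaurentSeries K)
    (hc₁ : ∀ c : K, E₁ (algebraMap K L c) = HahnSeries.C c)
    (hc₂ : ∀ c : K, E₂ (algebraMap K L c) = HahnSeries.C c)
    (ζ : Kˣ) (hζ : (ζ : K) ^ ℓ = 1)
    (hprod : ∀ x : L, qExpand K ℓ ((Nm x : ↥F') : LaurentSeries K)
      = qExpand K ℓ (E₁ x) * ∏ b ∈ Finset.range ℓ, twq (ζ ^ b) (E₂ x))
    (y x x' : L) (hyx : y * x' = x)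
    (e₁ e₂ : K) (he₁ : e₁ ≠ 0) (he₂ : e₂ ≠ 0)
    (b₁ c₁ b₂ c₂ : LaurentSeries A)
    (hp₁ : coeffMap (IsLocalRing.residue A) b₁ ≠ 0)
    (hp₂ : coeffMap (IsLocalRing.residue A) b₂ ≠ 0)
    (hb₁ : E₁ x' = HahnSeries.C e₁ * coeffMap A.subtype b₁)
    (hb₂ : E₂ x' = HahnSeries.C e₂ * coeffMap A.subtype b₂)
    (hx₁ : E₁ x = HahnSeries.C e₁ * coeffMap A.subtype c₁)
    (hx₂ : E₂ x = HahnSeries.C e₂ * coeffMap A.subtype c₂)
    (a : A) (ha : IsLocalRing.residue A a = 0) (ha0 : a ≠ 0) :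
    ∃ (t : ↥F') (n d : LaurentSeries A),
      Nm (1 + algebraMap K L (a : K) * y) = 1 + algebraMap K (↥F') (a : K) * t ∧
      IsRep A F' (t : LaurentSeries K) n d ∧
      coeffMap (IsLocalRing.residue A) n * coeffMap (IsLocalRing.residue A) b₁
        = coeffMap (IsLocalRing.residue A) c₁ * coeffMap (IsLocalRing.residue A) d := by
  classical
  have ha0' : (a : K) ≠ 0 := fun h => ha0 (Subtype.ext h)
  have hE : e₁ * e₂ ^ ℓ ≠ 0 := mul_ne_zero he₁ (pow_ne_zero _ he₂)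
  -- the numerator `x₁ = x' + a x` of `1 + a y`
  set x₁ : L := x' + algebraMap K L (a : K) * x with hx₁def
  have hux : (1 + algebraMap K L (a : K) * y) * x' = x₁ := by
    rw [hx₁def, ← hyx]; ring
  have hE₁x₁ : E₁ x₁ = HahnSeries.C e₁ * coeffMap A.subtype (b₁ + HahnSeries.C a * c₁) := by
    rw [hx₁def, map_add, map_mul, hc₁, hb₁, hx₁, map_add, map_mul, coeffMap_C]
    show _ = HahnSeries.C e₁ * (coeffMap A.subtype b₁
      + HahnSeries.C (a : K) * coeffMap A.subtype c₁)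
    ring
  have hE₂x₁ : E₂ x₁ = HahnSeries.C e₂ * coeffMap A.subtype (b₂ + HahnSeries.C a * c₂) := by
    rw [hx₁def, map_add, map_mul, hc₂, hb₂, hx₂, map_add, map_mul, coeffMap_C]
    show _ = HahnSeries.C e₂ * (coeffMap A.subtype b₂
      + HahnSeries.C (a : K) * coeffMap A.subtype c₂)
    ring
  -- the two normalised norms
  set Z₁ : LaurentSeries K := HahnSeries.C (e₁ * e₂ ^ ℓ)⁻¹ * ((Nm x₁ : ↥F') : LaurentSeries K)
    with hZ₁def
  set Z₀ : LaurentSeries K := HahnSeries.C (e₁ * e₂ ^ ℓ)⁻¹ * ((Nm x' : ↥F') : LaurentSeries K)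
    with hZ₀def
  have hnormal : ∀ (Y₁ Y₂ : LaurentSeries K),
      HahnSeries.C (e₁ * e₂ ^ ℓ)⁻¹ * (HahnSeries.C e₁ * qExpand K ℓ Y₁ *
        (HahnSeries.C (e₂ ^ ℓ) * ∏ b ∈ Finset.range ℓ, twq (ζ ^ b) Y₂))
        = qExpand K ℓ Y₁ * ∏ b ∈ Finset.range ℓ, twq (ζ ^ b) Y₂ := by
    intro Y₁ Y₂
    have e : HahnSeries.C (e₁ * e₂ ^ ℓ)⁻¹ * (HahnSeries.C e₁ * qExpand K ℓ Y₁ *
        (HahnSeries.C (e₂ ^ ℓ) * ∏ b ∈ Finset.range ℓ, twq (ζ ^ b) Y₂))
        = HahnSeries.C ((e₁ * e₂ ^ ℓ)⁻¹ * (e₁ * e₂ ^ ℓ)) * (qExpand K ℓ Y₁ *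
          ∏ b ∈ Finset.range ℓ, twq (ζ ^ b) Y₂) := by
      rw [map_mul, map_mul]
      ring
    rw [e, inv_mul_cancel₀ hE, map_one, one_mul]
  have hZ₁ : qExpand K ℓ Z₁ = qExpand K ℓ (coeffMap A.subtype (b₁ + HahnSeries.C a * c₁))
      * ∏ i ∈ Finset.range ℓ, twq (ζ ^ i) (coeffMap A.subtype (b₂ + HahnSeries.C a * c₂)) := by
    rw [hZ₁def, map_mul, qExpand_C, hprod, hE₁x₁, hE₂x₁, map_mul, qExpand_C, nf1_prod_twq]
    exact hnormal _ _
  have hZ₀ : qExpand K ℓ Z₀ = qExpand K ℓ (coeffMap A.subtype b₁)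
      * ∏ i ∈ Finset.range ℓ, twq (ζ ^ i) (coeffMap A.subtype b₂) := by
    rw [hZ₀def, map_mul, qExpand_C, hprod, hb₁, hb₂, map_mul, qExpand_C, nf1_prod_twq]
    exact hnormal _ _
  obtain ⟨n, d, hd, hn, hdred, hnred⟩ := nf1_core A ℓ hℓ ζ hζ b₁ c₁ b₂ c₂ a ha ha0 Z₁ Z₀ hZ₁ hZ₀
  have hτ : coeffMap (frobenius (IsLocalRing.ResidueField A) ℓ)
      (coeffMap (IsLocalRing.residue A) b₂) ≠ 0 :=
    (map_ne_zero (coeffMap (frobenius (IsLocalRing.ResidueField A) ℓ))).mpr hp₂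
  have hdred0 : coeffMap (IsLocalRing.residue A) d ≠ 0 := by
    rw [hdred]; exact mul_ne_zero hp₁ hτ
  have hAa0 : algebraMap K (↥F') (a : K) ≠ 0 := by
    rw [Ne, map_eq_zero]; exact ha0'
  have hCa : (HahnSeries.C (a : K) : LaurentSeries K) ≠ 0 := by
    intro h
    exact ha0' (HahnSeries.C_injective (by rw [h, map_zero]))
  have hCE : (HahnSeries.C (e₁ * e₂ ^ ℓ)⁻¹ : LaurentSeries K) ≠ 0 := by
    intro h
    exact inv_ne_zero hE (HahnSeries.C_injective (by rw [h, map_zero]))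
  -- `t = (Nm (1 + a y) - 1) / a`
  set u : ↥F' := Nm (1 + algebraMap K L (a : K) * y) with hu
  have hnorm : u * Nm x' = Nm x₁ := by rw [hu, ← map_mul, hux]
  refine ⟨(u - 1) * (algebraMap K (↥F') (a : K))⁻¹, n, d, ?_, ⟨?_, ?_, hdred0, ?_⟩, ?_⟩
  · field_simp
    ring
  · have h1 : coeffMap A.subtype n = HahnSeries.C ((a : K)⁻¹) * (Z₁ - Z₀) := by
      rw [hn, ← mul_assoc, ← map_mul, inv_mul_cancel₀ ha0', map_one, one_mul]
    rw [h1, hZ₁def, hZ₀def]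
    exact mul_mem (C_mem_intermediateField _ _)
      (sub_mem (mul_mem (C_mem_intermediateField _ _) (Nm x₁).2)
        (mul_mem (C_mem_intermediateField _ _) (Nm x').2))
  · rw [hd, hZ₀def]
    exact mul_mem (C_mem_intermediateField _ _) (Nm x').2
  · -- `t * d = n`
    have h2 : ((u : ↥F') : LaurentSeries K) * ((Nm x' : ↥F') : LaurentSeries K)
        = ((Nm x₁ : ↥F') : LaurentSeries K) := by
      rw [← hnorm]; rfl
    have h3 : (((u - 1) * (algebraMap K (↥F') (a : K))⁻¹ : ↥F') : LaurentSeries K)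
        * HahnSeries.C (a : K) = ((u : ↥F') : LaurentSeries K) - 1 := by
      have h4 : (u - 1) * (algebraMap K (↥F') (a : K))⁻¹ * algebraMap K (↥F') (a : K) = u - 1 := by
        rw [mul_assoc, inv_mul_cancel₀ hAa0, mul_one]
      have h5 := congrArg (Subtype.val) h4
      simp only [MulMemClass.coe_mul, coe_algebraMap_eq_C, AddSubgroupClass.coe_sub,
        OneMemClass.coe_one] at h5
      exact h5
    have h6 : ((((u - 1) * (algebraMap K (↥F') (a : K))⁻¹ : ↥F') : LaurentSeries K)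
        * coeffMap A.subtype d - coeffMap A.subtype n) * HahnSeries.C (a : K) = 0 := by
      have h7 : HahnSeries.C (a : K) * coeffMap A.subtype n = Z₁ - Z₀ := hn.symm
      rw [sub_mul, mul_right_comm, h3, hd, mul_comm (coeffMap A.subtype n), h7, hZ₁def, hZ₀def,
        ← h2]
      ring
    rcases mul_eq_zero.mp h6 with h | h
    · exact sub_eq_zero.mp h
    · exact absurd h hCa
  · rw [hnred, hdred]
    ring

section Abstract

variable {K k F Fk : Type*} [Field K] [Field k] [Field F] [Field Fk] [Algebra K F] [Algebra k Fk]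
variable {A : ValuationSubring K} {π : A →+* k} (R : ConstRed A π Fk F)

/-- a constant `d` with `g · Y' = d · Y`, where `g ∈ O`, `Y' ∈ O` and `Y` is a unit of `O`,
lies in `A` -/
theorem nf1_const_mem {g Y Y' : F} {d : K} (hg : g ∈ R.O) (hY0 : Y ≠ 0) (hYi : Y⁻¹ ∈ R.O)
    (hY' : Y' ∈ R.O) (h : g * Y' = algebraMap K F d * Y) : d ∈ A := by
  rw [← R.algebraMap_mem_iff]
  have e : algebraMap K F d = g * Y' * Y⁻¹ := by
    rw [h, mul_assoc, mul_inv_cancel₀ hY0, mul_one]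
  rw [e]
  exact mul_mem (mul_mem hg hY') hYi

end Abstract

section Field

variable (N ℓ : ℕ) [NeZero N] [NeZero ℓ] {A : ValuationSubring Kbar}
variable [ExpChar (IsLocalRing.ResidueField A) ℓ]
variable {Fk : IntermediateField (IsLocalRing.ResidueField A)
  (LaurentSeries (IsLocalRing.ResidueField A))}

/-- **piece T1 of item 86: the first order norm at level `N ℓ`**, for the pair
`(R, inredComap R w)` where `w` exchanges the two degeneracy maps: for `y` integral at both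
valuations and `a ∈ m_A`, `a ≠ 0`,
`Norm_α (1 + a y) = 1 + a t` with `red' t = red y`, and
`Norm_β (1 + a y) = 1 + a t'` with `red' t' = red₀ y`. -/
theorem nf1_of_al (hℓ : ℓ.Prime) (hℓN : ¬ ℓ ∣ N) (hlt : A.valuation (ℓ : Kbar) < 1)
    (R' : ConstRed A (IsLocalRing.residue A) (↥Fk) (FF N)) (hR' : IsSeriesRed R')
    (R : ConstRed A (IsLocalRing.residue A) (↥Fk) (FF (N * ℓ))) (hR : IsSeriesRed R)
    (w : FF (N * ℓ) ≃ₐ[Kbar] FF (N * ℓ))
    (hwα : ∀ Y : FF N, w (heckeAlphaBar Kbar N ℓ Y) = heckeBetaBar Kbar N ℓ Y)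
    (hwβ : ∀ Y : FF N, w (heckeBetaBar Kbar N ℓ Y) = heckeAlphaBar Kbar N ℓ Y)
    (a : A) (ha : IsLocalRing.residue A a = 0) (ha0 : a ≠ 0)
    (y : FF (N * ℓ)) (hy : y ∈ R.O) (hy₀ : y ∈ (Fermat.Agent.S34lib.inredComap R w).O) :
    (∃ (t : FF N) (ht : t ∈ R'.O),
      normAlong (heckeAlphaBar Kbar N ℓ) (1 + algebraMap Kbar (FF (N * ℓ)) (a : Kbar) * y)
        = 1 + algebraMap Kbar (FF N) (a : Kbar) * t ∧
      R'.red ⟨t, ht⟩ = R.red ⟨y, hy⟩) ∧
    (∃ (t : FF N) (ht : t ∈ R'.O),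
      normAlong (heckeBetaBar Kbar N ℓ) (1 + algebraMap Kbar (FF (N * ℓ)) (a : Kbar) * y)
        = 1 + algebraMap Kbar (FF N) (a : Kbar) * t ∧
      R'.red ⟨t, ht⟩ = (Fermat.Agent.S34lib.inredComap R w).red ⟨y, hy₀⟩) := by
  classical
  -- the degenerate case
  by_cases hy0 : y = 0
  · subst hy0
    refine ⟨⟨0, R'.O.zero_mem, ?_, ?_⟩, ⟨0, R'.O.zero_mem, ?_, ?_⟩⟩
    · rw [mul_zero, add_zero, mul_zero, add_zero, map_one]
    · rw [nrc_red_of_eq_zero R' _ rfl, nrc_red_of_eq_zero R _ rfl]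
    · rw [mul_zero, add_zero, mul_zero, add_zero, map_one]
    · rw [nrc_red_of_eq_zero R' _ rfl, nrc_red_of_eq_zero _ _ rfl]
  -- the second expansion
  let E₀ : FF (N * ℓ) →+* LaurentSeries Kbar :=
    ((modularFunctionFieldBar (N * ℓ)).val : FF (N * ℓ) →+* LaurentSeries Kbar).comp
      ((w : FF (N * ℓ) →ₐ[Kbar] FF (N * ℓ)) : FF (N * ℓ) →+* FF (N * ℓ))
  let Ei : FF (N * ℓ) →+* LaurentSeries Kbar :=
    ((modularFunctionFieldBar (N * ℓ)).val : FF (N * ℓ) →+* LaurentSeries Kbar)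
  have hE₀ : ∀ x, E₀ x = ((w x : FF (N * ℓ)) : LaurentSeries Kbar) := fun x => rfl
  have hEi : ∀ x, Ei x = (x : LaurentSeries Kbar) := fun x => rfl
  have hc : ∀ c : Kbar, E₀ (algebraMap Kbar (FF (N * ℓ)) c)
      = algebraMap Kbar (LaurentSeries Kbar) c := by
    intro c
    rw [hE₀, AlgEquiv.commutes]
    rfl
  have hcC : ∀ c : Kbar, E₀ (algebraMap Kbar (FF (N * ℓ)) c) = HahnSeries.C c := by
    intro c
    rw [hE₀, AlgEquiv.commutes, coe_algebraMap_eq_C]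
  have hciC : ∀ c : Kbar, Ei (algebraMap Kbar (FF (N * ℓ)) c) = HahnSeries.C c := by
    intro c
    rw [hEi, coe_algebraMap_eq_C]
  have hα : ∀ Y : FF N, E₀ (heckeAlphaBar Kbar N ℓ Y)
      = qExpand Kbar ℓ (Y : LaurentSeries Kbar) := by
    intro Y
    rw [hE₀, hwα, coe_heckeBetaBar]
  have hβ : ∀ Y : FF N, E₀ (heckeBetaBar Kbar N ℓ Y) = (Y : LaurentSeries Kbar) := by
    intro Y
    rw [hE₀, hwβ, coe_heckeAlphaBar]
  -- `y = x / x'` with bi-`NFInt` numerator and denominator, and their primitive parts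
  obtain ⟨x, x', hx'0, hx, hxx', hfx⟩ := nrc_exists_frac N ℓ A E₀ hℓ hα hβ y
  have hx0 : x ≠ 0 := by rw [← hfx]; exact mul_ne_zero hy0 hx'0
  have hx1 : (x : LaurentSeries Kbar) ≠ 0 := fun h => hx0 (Subtype.ext h)
  have hx2 : E₀ x ≠ 0 := fun h => hx0 (E₀.injective (h.trans (map_zero E₀).symm))
  have hx'1 : (x' : LaurentSeries Kbar) ≠ 0 := fun h => hx'0 (Subtype.ext h)
  have hx'2 : E₀ x' ≠ 0 := fun h => hx'0 (E₀.injective (h.trans (map_zero E₀).symm))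
  obtain ⟨e₁, y₁, he₁, -, hp₁, -, heq₁⟩ := hx.1.exists_primitive hℓ hlt hx1
  obtain ⟨e₂, y₂, he₂, -, hp₂, -, heq₂⟩ := hx.2.exists_primitive hℓ hlt hx2
  obtain ⟨e₁', y₁', he₁', -, hp₁', -, heq₁'⟩ := hxx'.1.exists_primitive hℓ hlt hx'1
  obtain ⟨e₂', y₂', he₂', -, hp₂', -, heq₂'⟩ := hxx'.2.exists_primitive hℓ hlt hx'2
  -- the product formulas
  obtain ⟨E₁, hc₁, hα₁, hβ₁, hA, hB⟩ := normProd N ℓ hℓ hℓN
  have hE : E₁ = E₀ := fe0_unique N ℓ hℓ E₁ E₀ hc₁ hα₁ hβ₁ hc hα hβ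
  subst hE
  have : NeZero ((ℓ : ℕ) : ℚ) := ⟨by exact_mod_cast NeZero.ne ℓ⟩
  obtain ⟨ζ0, hζ0⟩ := HasEnoughRootsOfUnity.exists_primitiveRoot (AlgebraicClosure ℚ) ℓ
  have hunit : IsUnit ζ0 := hζ0.isUnit (NeZero.ne ℓ)
  obtain ⟨ζ, rfl⟩ := hunit
  -- membership in the function field
  have hY₁ : coeffMap A.subtype y₁ ∈ modularFunctionFieldBar (N * ℓ) :=
    nrc_mem_of_C_mul he₁ x.2 heq₁
  have hY₂ : coeffMap A.subtype y₂ ∈ modularFunctionFieldBar (N * ℓ) :=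
    nrc_mem_of_C_mul he₂ (w x).2 heq₂
  have hY₁' : coeffMap A.subtype y₁' ∈ modularFunctionFieldBar (N * ℓ) :=
    nrc_mem_of_C_mul he₁' x'.2 heq₁'
  have hY₂' : coeffMap A.subtype y₂' ∈ modularFunctionFieldBar (N * ℓ) :=
    nrc_mem_of_C_mul he₂' (w x').2 heq₂'
  obtain ⟨hY₁0, hY₁O, hY₁i, -, -⟩ := nrc_unit_data hR y₁ hY₁ hp₁
  obtain ⟨hY₂0, hY₂O, hY₂i, -, -⟩ := nrc_unit_data hR y₂ hY₂ hp₂
  obtain ⟨hY₁0', hY₁O', hY₁i', -, -⟩ := nrc_unit_data hR y₁' hY₁' hp₁'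
  obtain ⟨hY₂0', hY₂O', hY₂i', -, -⟩ := nrc_unit_data hR y₂' hY₂' hp₂'
  -- equations in the field
  have hxF : x = algebraMap Kbar (FF (N * ℓ)) e₁ * ⟨coeffMap A.subtype y₁, hY₁⟩ := by
    apply Subtype.ext
    rw [MulMemClass.coe_mul, coe_algebraMap_eq_C]
    exact heq₁
  have hxF' : x' = algebraMap Kbar (FF (N * ℓ)) e₁' * ⟨coeffMap A.subtype y₁', hY₁'⟩ := by
    apply Subtype.ext
    rw [MulMemClass.coe_mul, coe_algebraMap_eq_C]
    exact heq₁'
  have hwxF : w x = algebraMap Kbar (FF (N * ℓ)) e₂ * ⟨coeffMap A.subtype y₂, hY₂⟩ := by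
    apply Subtype.ext
    rw [MulMemClass.coe_mul, coe_algebraMap_eq_C]
    exact heq₂
  have hwxF' : w x' = algebraMap Kbar (FF (N * ℓ)) e₂' * ⟨coeffMap A.subtype y₂', hY₂'⟩ := by
    apply Subtype.ext
    rw [MulMemClass.coe_mul, coe_algebraMap_eq_C]
    exact heq₂'
  have he₁F' : algebraMap Kbar (FF (N * ℓ)) e₁' ≠ 0 := (map_ne_zero _).mpr he₁'
  have he₂F' : algebraMap Kbar (FF (N * ℓ)) e₂' ≠ 0 := (map_ne_zero _).mpr he₂'
  have eq₁ : y * ⟨coeffMap A.subtype y₁', hY₁'⟩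
      = algebraMap Kbar (FF (N * ℓ)) (e₁ / e₁') * ⟨coeffMap A.subtype y₁, hY₁⟩ := by
    have h := nrc_quot_eq (C := (1 : FF (N * ℓ))) he₁F' hfx hxF hxF'
    rw [one_mul, one_mul] at h
    rw [map_div₀]
    exact h
  have hwfx : w y * w x' = w x := by rw [← map_mul, hfx]
  have eq₂ : w y * ⟨coeffMap A.subtype y₂', hY₂'⟩
      = algebraMap Kbar (FF (N * ℓ)) (e₂ / e₂') * ⟨coeffMap A.subtype y₂, hY₂⟩ := by
    have h := nrc_quot_eq (C := (1 : FF (N * ℓ))) he₂F' hwfx hwxF hwxF'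
    rw [one_mul, one_mul] at h
    rw [map_div₀]
    exact h
  -- the two constants are integral
  have hwy : w y ∈ R.O := hy₀
  have hd₁ : e₁ / e₁' ∈ A := nf1_const_mem R hy hY₁0 hY₁i hY₁O' eq₁
  have hd₂ : e₂ / e₂' ∈ A := nf1_const_mem R hwy hY₂0 hY₂i hY₂O' eq₂
  set c₁ : LaurentSeries A := HahnSeries.C (⟨e₁ / e₁', hd₁⟩ : A) * y₁ with hc₁def
  set c₂ : LaurentSeries A := HahnSeries.C (⟨e₂ / e₂', hd₂⟩ : A) * y₂ with hc₂def
  have hcm₁ : coeffMap A.subtype c₁ = HahnSeries.C (e₁ / e₁') * coeffMap A.subtype y₁ := by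
    rw [hc₁def, map_mul, coeffMap_C]
    rfl
  have hcm₂ : coeffMap A.subtype c₂ = HahnSeries.C (e₂ / e₂') * coeffMap A.subtype y₂ := by
    rw [hc₂def, map_mul, coeffMap_C]
    rfl
  have hxc₁ : (x : LaurentSeries Kbar) = HahnSeries.C e₁' * coeffMap A.subtype c₁ := by
    rw [heq₁, hcm₁, ← mul_assoc, ← map_mul, mul_div_cancel₀ _ he₁']
  have hxc₂ : E₀ x = HahnSeries.C e₂' * coeffMap A.subtype c₂ := by
    rw [heq₂, hcm₂, ← mul_assoc, ← map_mul, mul_div_cancel₀ _ he₂']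
  -- `y = c₁ / y₁'`, `w y = c₂ / y₂'`
  have hrep₁ : IsRep A (modularFunctionFieldBar (N * ℓ)) (y : LaurentSeries Kbar) c₁ y₁' := by
    refine ⟨?_, hY₁', hp₁', ?_⟩
    · rw [hcm₁]
      exact mul_mem (C_mem_intermediateField _ _) hY₁
    · have h := congrArg Subtype.val eq₁
      simp only [MulMemClass.coe_mul, coe_algebraMap_eq_C] at h
      rw [hcm₁]
      exact h
  have hrep₂ : IsRep A (modularFunctionFieldBar (N * ℓ))
      ((w y : FF (N * ℓ)) : LaurentSeries Kbar) c₂ y₂' := by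
    refine ⟨?_, hY₂', hp₂', ?_⟩
    · rw [hcm₂]
      exact mul_mem (C_mem_intermediateField _ _) hY₂
    · have h := congrArg Subtype.val eq₂
      simp only [MulMemClass.coe_mul, coe_algebraMap_eq_C] at h
      rw [hcm₂]
      exact h
  refine ⟨?_, ?_⟩
  · obtain ⟨t, n, d, hNm, hrep, hred⟩ := nf1_gen A ℓ hℓ (normAlong (heckeAlphaBar Kbar N ℓ))
      Ei E₀ hciC hcC ζ hζ0.pow_eq_one (hA ζ hζ0) y x x' hfx e₁' e₂' he₁' he₂' y₁' c₁ y₂' c₂
      hp₁' hp₂' heq₁' heq₂' hxc₁ hxc₂ a ha ha0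
    refine ⟨t, hR'.mem_of_isRep hrep, hNm, ?_⟩
    apply Subtype.ext
    rw [hR'.red_of_isRep hrep, hR.red_of_isRep hrep₁, div_eq_div_iff hrep.2.2.1 hp₁']
    exact hred
  · obtain ⟨t, n, d, hNm, hrep, hred⟩ := nf1_gen A ℓ hℓ (normAlong (heckeBetaBar Kbar N ℓ))
      E₀ Ei hcC hciC ζ hζ0.pow_eq_one (hB ζ hζ0) y x x' hfx e₂' e₁' he₂' he₁' y₂' c₂ y₁' c₁
      hp₂' hp₁' heq₂' heq₁' hxc₂ hxc₁ a ha ha0
    refine ⟨t, hR'.mem_of_isRep hrep, hNm, ?_⟩
    show R'.red ⟨t, _⟩ = R.red ⟨w y, hwy⟩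
    apply Subtype.ext
    rw [hR'.red_of_isRep hrep, hR.red_of_isRep hrep₂, div_eq_div_iff hrep.2.2.1 hp₂']
    exact hred

end Field

section Concrete

open Fermat.Agent.S34lib

/-- the norm of a constant is a constant -/
theorem nf1_norm_const {K F F' : Type*} [Field K] [Field F] [Field F'] [Algebra K F]
    [Algebra K F'] (φ : F →ₐ[K] F') (c : K) :
    ∃ d : ℕ, normAlong φ (algebraMap K F' c) = algebraMap K F (c ^ d) := by
  letI := algebraAlong φ
  refine ⟨Module.finrank F F', ?_⟩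
  have h1 : algebraMap K F' c = algebraMap F F' (algebraMap K F c) := (φ.commutes c).symm
  show Algebra.norm F (algebraMap K F' c) = _
  rw [h1, Algebra.norm_algebraMap, map_pow]

variable (M' q : ℕ) [NeZero M'] [NeZero q] (hq : q.Prime) (hqM : ¬ q ∣ M')
variable {A : ValuationSubring Kbar} [ExpChar (IsLocalRing.ResidueField A) q]
variable {Fk : IntermediateField (IsLocalRing.ResidueField A)
  (LaurentSeries (IsLocalRing.ResidueField A))}

/-- **piece T1, concrete form, `α`**: `R'` at level `M'`, `R` (`= R_∞`) at level `M' q`,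
`R₀ = inredZero R`.  For `y ∈ R.O ∩ R₀.O` and `a ∈ m_A`, `a ≠ 0`:
`Norm_α (1 + a y) = 1 + a t`, `t ∈ R'.O`, `red' t = red_∞ y`. -/
theorem nf1_alpha (hlt : A.valuation (q : Kbar) < 1)
    (R' : ConstRed A (IsLocalRing.residue A) (↥Fk) (FF M')) (hR' : IsSeriesRed R')
    (R : ConstRed A (IsLocalRing.residue A) (↥Fk) (FF (M' * q))) (hR : IsSeriesRed R)
    (a : A) (ha : IsLocalRing.residue A a = 0) (ha0 : a ≠ 0)
    (y : FF (M' * q)) (hy : y ∈ R.O)
    (hy₀ : y ∈ (inredZero (M' * q) q hq (dvd_mul_left q M') (inf_not_sq_dvd M' q hq hqM) R).O) :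
    ∃ (t : FF M') (ht : t ∈ R'.O),
      normAlong (heckeAlphaBar Kbar M' q) (1 + algebraMap Kbar (FF (M' * q)) (a : Kbar) * y)
        = 1 + algebraMap Kbar (FF M') (a : Kbar) * t ∧
      R'.red ⟨t, ht⟩ = R.red ⟨y, hy⟩ :=
  (nf1_of_al M' q hq hqM hlt R' hR' R hR
    (atkinLehnerFF (M' * q) q hq (dvd_mul_left q M') (inf_not_sq_dvd M' q hq hqM))
    (atkinLehnerFF_alpha M' q hq hqM) (atkinLehnerFF_beta M' q hq hqM) a ha ha0 y hy hy₀).1

/-- **piece T1, concrete form, `β`**: for `y ∈ R.O ∩ R₀.O` and `a ∈ m_A`, `a ≠ 0`: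
`Norm_β (1 + a y) = 1 + a t`, `t ∈ R'.O`, `red' t = red_0 y`. -/
theorem nf1_beta (hlt : A.valuation (q : Kbar) < 1)
    (R' : ConstRed A (IsLocalRing.residue A) (↥Fk) (FF M')) (hR' : IsSeriesRed R')
    (R : ConstRed A (IsLocalRing.residue A) (↥Fk) (FF (M' * q))) (hR : IsSeriesRed R)
    (a : A) (ha : IsLocalRing.residue A a = 0) (ha0 : a ≠ 0)
    (y : FF (M' * q)) (hy : y ∈ R.O)
    (hy₀ : y ∈ (inredZero (M' * q) q hq (dvd_mul_left q M') (inf_not_sq_dvd M' q hq hqM) R).O) :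
    ∃ (t : FF M') (ht : t ∈ R'.O),
      normAlong (heckeBetaBar Kbar M' q) (1 + algebraMap Kbar (FF (M' * q)) (a : Kbar) * y)
        = 1 + algebraMap Kbar (FF M') (a : Kbar) * t ∧
      R'.red ⟨t, ht⟩
        = (inredZero (M' * q) q hq (dvd_mul_left q M') (inf_not_sq_dvd M' q hq hqM) R).red
            ⟨y, hy₀⟩ :=
  (nf1_of_al M' q hq hqM hlt R' hR' R hR
    (atkinLehnerFF (M' * q) q hq (dvd_mul_left q M') (inf_not_sq_dvd M' q hq hqM))
    (atkinLehnerFF_alpha M' q hq hqM) (atkinLehnerFF_beta M' q hq hqM) a ha ha0 y hy hy₀).2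

/-- the two norms of a Kummer function `u = c · h^m · (1 + a y)` of level `M' q`
(`y ∈ R.O ∩ R₀.O`, `a ∈ m_A`, `a ≠ 0`): the norms are again of this shape, with the leading
terms `red_∞ y` resp. `red_0 y`. -/
theorem nf1_kummer (hlt : A.valuation (q : Kbar) < 1)
    (R' : ConstRed A (IsLocalRing.residue A) (↥Fk) (FF M')) (hR' : IsSeriesRed R')
    (R : ConstRed A (IsLocalRing.residue A) (↥Fk) (FF (M' * q))) (hR : IsSeriesRed R)
    (a : A) (ha : IsLocalRing.residue A a = 0) (ha0 : a ≠ 0)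
    (y : FF (M' * q)) (hy : y ∈ R.O)
    (hy₀ : y ∈ (inredZero (M' * q) q hq (dvd_mul_left q M') (inf_not_sq_dvd M' q hq hqM) R).O)
    (m : ℕ) (c : Kbar) (h u : FF (M' * q))
    (hu : u = algebraMap Kbar (FF (M' * q)) c * h ^ m
      * (1 + algebraMap Kbar (FF (M' * q)) (a : Kbar) * y)) :
    (∃ (c' : Kbar) (h' t : FF M') (ht : t ∈ R'.O),
      normAlong (heckeAlphaBar Kbar M' q) u
        = algebraMap Kbar (FF M') c' * h' ^ m * (1 + algebraMap Kbar (FF M') (a : Kbar) * t) ∧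
      R'.red ⟨t, ht⟩ = R.red ⟨y, hy⟩) ∧
    (∃ (c' : Kbar) (h' t : FF M') (ht : t ∈ R'.O),
      normAlong (heckeBetaBar Kbar M' q) u
        = algebraMap Kbar (FF M') c' * h' ^ m * (1 + algebraMap Kbar (FF M') (a : Kbar) * t) ∧
      R'.red ⟨t, ht⟩
        = (inredZero (M' * q) q hq (dvd_mul_left q M') (inf_not_sq_dvd M' q hq hqM) R).red
            ⟨y, hy₀⟩) := by
  obtain ⟨t, ht, hN, hr⟩ := nf1_alpha M' q hq hqM hlt R' hR' R hR a ha ha0 y hy hy₀
  obtain ⟨t', ht', hN', hr'⟩ := nf1_beta M' q hq hqM hlt R' hR' R hR a ha ha0 y hy hy₀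
  obtain ⟨d, hd⟩ := nf1_norm_const (heckeAlphaBar Kbar M' q) c
  obtain ⟨d', hd'⟩ := nf1_norm_const (heckeBetaBar Kbar M' q) c
  refine ⟨⟨c ^ d, normAlong (heckeAlphaBar Kbar M' q) h, t, ht, ?_, hr⟩,
    ⟨c ^ d', normAlong (heckeBetaBar Kbar M' q) h, t', ht', ?_, hr'⟩⟩
  · rw [hu, map_mul, map_mul, map_pow, hN, hd]
  · rw [hu, map_mul, map_mul, map_pow, hN', hd']

end Concrete

end Fermat.Agent.S33lib
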