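import Mathlib
import Fermat.Agent.S33lib.NormFirst
import Fermat.Agent.S33lib.LevInv
import Fermat.Agent.S35lib.DegJ
import Fermat.Agent.S36lib.KummerDescN
import Fermat.Agent.S36lib.Speed

/-!
# Item 86 (S33), block TOR_p, piece T4a (helper24): the leading terms of a `p`-new class

Level `N = M' p`, `p ∤ M'`, the pair of valuations `R` (`= v_∞`), `R₀ = inredZero R` (`= v_0`)
of `F_N`, and `R'` at level `M'`.  Let `x = [D] ∈ J₀(N)[p]` with Kummer function `f`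
(`div f = p D`) in the normal form `f · w^p = c · (1 + lam^i g)`, `g ∈ R.O ∩ R₀.O`, at a level
`i < i* = p e / (p - 1)` (below `v*`).  If `x` is `p`-new, `α_* x = β_* x = 0`, then

  `red_∞ g ∈ Fk^p + k`  and  `red_0 g ∈ Fk^p + k`   (constants if `p ∤ i`).

Proof: `Nm_α f = c₁ g₁^p` (`degJAlpha_norm`), so `Nm_α (1 + lam^i g) = c' s^p`; by `nf1_alpha`
it is `1 + lam^i t` with `red' t = red_∞ g`; by (CAN) `s` can be taken rational, and INV
(`lvi_inv`, helper9) gives `red' t ∈ Fk^p + k`.  Same for `β`.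

The rational structure at level `M'` (`F1`, `lam`, (DISC), (RES1), (CAN)) is abstract.

* `sna_pow_of_norm`: norms of `c · (p-th power) · u` (abstract);
* `sna_lead_alpha`, `sna_lead_beta`, `sna_lead`: the statement;
* `sna_norm_fixed`, `sna_norm_fixed_alpha`, `sna_norm_fixed_beta`: the norms of `1 + lam^i g` are
  fixed by the Galois elements fixing `lam` and `g` (to discharge the hypotheses `hNα`, `hNβ`
  when `F1` is a field of Galois-fixed functions).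
-/

set_option autoImplicit false
set_option linter.style.haveILetI false
set_option linter.unusedSectionVars false
set_option linter.unusedVariables false

noncomputable section

namespace Fermat.Agent.S33lib

open ModularCurve AlgebraicCurve HahnSeries
open Fermat.Agent.S24lib Fermat.Agent.HeckeBar Fermat.Agent.S37lib Fermat.Agent.GoodRed
open Fermat.Agent.S35lib Fermat.Agent.S34lib Fermat.Agent.RRlib

/-- if `f · w^p = c · u` and the norm of `f` is a constant times a `p`-th power, then so is the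
norm of `u` -/
theorem sna_pow_of_norm {K F F' : Type*} [Field K] [Field F] [Field F'] [Algebra K F]
    [Algebra K F'] (φ : F →ₐ[K] F') (p : ℕ) (c : K) (hc : c ≠ 0) (w f u : F')
    (hfw : f * w ^ p = algebraMap K F' c * u)
    (c₁ : K) (g₁ : F) (hN : normAlong φ f = algebraMap K F c₁ * g₁ ^ p) :
    ∃ (c' : K) (s : F), normAlong φ u = algebraMap K F c' * s ^ p := by
  obtain ⟨d, hd⟩ := nf1_norm_const φ c
  have hcd : algebraMap K F (c ^ d) ≠ 0 := (map_ne_zero _).mpr (pow_ne_zero d hc)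
  have h1 : normAlong φ f * (normAlong φ w) ^ p = algebraMap K F (c ^ d) * normAlong φ u := by
    rw [← map_pow, ← map_mul, hfw, map_mul, hd]
  refine ⟨c₁ / c ^ d, g₁ * normAlong φ w, ?_⟩
  rw [map_div₀, mul_pow, div_mul_eq_mul_div, eq_div_iff hcd, ← mul_assoc, ← hN, h1]
  ring

section Field

variable (M' p : ℕ) [NeZero M'] [NeZero p] (hp : p.Prime) (hpM : ¬ p ∣ M')
variable {A : ValuationSubring Kbar} [ExpChar (IsLocalRing.ResidueField A) p]
variable {Fk : IntermediateField (IsLocalRing.ResidueField A)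
  (LaurentSeries (IsLocalRing.ResidueField A))}

/-- **T4a, `α`**: the `∞`-component of the leading term of a class killed by `α_*` lies in
`Fk^p + k` -/
theorem sna_lead_alpha [RRBase (IsLocalRing.ResidueField A) ↥Fk]
    (hlt : A.valuation (p : Kbar) < 1)
    (R' : ConstRed A (IsLocalRing.residue A) (↥Fk) (FF M')) (hR' : IsSeriesRed R')
    (R : ConstRed A (IsLocalRing.residue A) (↥Fk) (FF (M' * p))) (hR : IsSeriesRed R)
    (F1 : Subfield (FF M')) (lam : Kbar) (hlam0 : lam ≠ 0) (hlamA : lam ∈ A.nonunits)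
    (hlam1 : algebraMap Kbar (FF M') lam ∈ F1)
    (hdisc : ∀ f ∈ F1, f ≠ 0 → ∃ n : ℤ,
      algebraMap Kbar (FF M') (lam ^ n) * f ∈ R'.O ∧
        (algebraMap Kbar (FF M') (lam ^ n) * f)⁻¹ ∈ R'.O)
    (hres1 : ∀ c : IsLocalRing.ResidueField A, ∃ a : A, IsLocalRing.residue A a = c ∧
      algebraMap Kbar (FF M') (a : Kbar) ∈ F1)
    {e i : ℕ} (hi : 1 ≤ i) (hpe : ∃ ε ∈ A, (p : Kbar) = lam ^ e * ε)
    (hie : (p - 1) * i < p * e)
    (hcan : ∀ u ∈ F1, (∃ (c : Kbar) (s : FF M'), u = algebraMap Kbar (FF M') c * s ^ p) →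
      ∃ (c' : Kbar) (s' : FF M'), s' ∈ F1 ∧ u = algebraMap Kbar (FF M') c' * s' ^ p)
    (g : FF (M' * p)) (hg : g ∈ R.O)
    (hg₀ : g ∈ (inredZero (M' * p) p hp (dvd_mul_left p M') (inf_not_sq_dvd M' p hp hpM) R).O)
    (hNα : normAlong (heckeAlphaBar Kbar M' p)
      (1 + algebraMap Kbar (FF (M' * p)) (lam ^ i) * g) ∈ F1)
    (c : Kbar) (hc : c ≠ 0) (w f : FF (M' * p)) (hf : f ≠ 0)
    (hfw : f * w ^ p = algebraMap Kbar (FF (M' * p)) c
      * (1 + algebraMap Kbar (FF (M' * p)) (lam ^ i) * g))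
    (D : Divisor.degZero (K := Kbar) (F := FF (M' * p)))
    (hD : ∀ v : Place Kbar (FF (M' * p)), (p • (D : Divisor Kbar (FF (M' * p)))) v = v.ord f)
    (hα : degJAlpha M' p (Pic0.mk D) = 0) :
    ∃ (ψ : ↥Fk) (κ : IsLocalRing.ResidueField A),
      R.red ⟨g, hg⟩ = ψ ^ p + algebraMap (IsLocalRing.ResidueField A) (↥Fk) κ ∧
      (¬ p ∣ i → ψ = 0) := by
  -- `a = lam^i` as an element of `m_A`
  have hlamA' : lam ∈ A := A.nonunits_subset hlamA
  have hlv : A.valuation lam < 1 := hlamA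
  set a : A := ⟨lam ^ i, pow_mem hlamA' i⟩ with hadef
  have haK : (a : Kbar) = lam ^ i := rfl
  have ha0 : a ≠ 0 := fun h => pow_ne_zero i hlam0 (congrArg Subtype.val h)
  have ha : IsLocalRing.residue A a = 0 := by
    rw [IsLocalRing.residue_eq_zero_iff, ValuationSubring.valuation_lt_one_iff, haK, map_pow]
    exact pow_lt_one₀ zero_le hlv (by omega)
  -- the first order norm
  obtain ⟨t, ht, hNt, hrt⟩ := nf1_alpha M' p hp hpM hlt R' hR' R hR a ha ha0 g hg hg₀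
  rw [haK] at hNt
  -- the norm of `f`
  obtain ⟨g₁, c₁, -, -, hN⟩ := degJAlpha_norm M' p D p hf hD hα
  obtain ⟨c', s, hcs⟩ := sna_pow_of_norm (heckeAlphaBar Kbar M' p) p c hc w f _ hfw c₁ g₁ hN
  -- rational root
  obtain ⟨c'', s', hs'1, hcs'⟩ := hcan _ hNα ⟨c', s, hcs⟩
  rw [hNt] at hcs'
  obtain ⟨ψ, cb, hψ, hψ0⟩ := lvi_inv R' F1 hp hlam0 hlamA hlam1 hdisc hres1 hi hpe hie ht c'' s'
    hs'1 hcs'
  exact ⟨ψ, cb, by rw [← hrt, hψ], hψ0⟩

/-- **T4a, `β`**: the `0`-component of the leading term of a class killed by `β_*` lies in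
`Fk^p + k` -/
theorem sna_lead_beta [RRBase (IsLocalRing.ResidueField A) ↥Fk]
    (hlt : A.valuation (p : Kbar) < 1)
    (R' : ConstRed A (IsLocalRing.residue A) (↥Fk) (FF M')) (hR' : IsSeriesRed R')
    (R : ConstRed A (IsLocalRing.residue A) (↥Fk) (FF (M' * p))) (hR : IsSeriesRed R)
    (F1 : Subfield (FF M')) (lam : Kbar) (hlam0 : lam ≠ 0) (hlamA : lam ∈ A.nonunits)
    (hlam1 : algebraMap Kbar (FF M') lam ∈ F1)
    (hdisc : ∀ f ∈ F1, f ≠ 0 → ∃ n : ℤ,
      algebraMap Kbar (FF M') (lam ^ n) * f ∈ R'.O ∧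
        (algebraMap Kbar (FF M') (lam ^ n) * f)⁻¹ ∈ R'.O)
    (hres1 : ∀ c : IsLocalRing.ResidueField A, ∃ a : A, IsLocalRing.residue A a = c ∧
      algebraMap Kbar (FF M') (a : Kbar) ∈ F1)
    {e i : ℕ} (hi : 1 ≤ i) (hpe : ∃ ε ∈ A, (p : Kbar) = lam ^ e * ε)
    (hie : (p - 1) * i < p * e)
    (hcan : ∀ u ∈ F1, (∃ (c : Kbar) (s : FF M'), u = algebraMap Kbar (FF M') c * s ^ p) →
      ∃ (c' : Kbar) (s' : FF M'), s' ∈ F1 ∧ u = algebraMap Kbar (FF M') c' * s' ^ p)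
    (g : FF (M' * p)) (hg : g ∈ R.O)
    (hg₀ : g ∈ (inredZero (M' * p) p hp (dvd_mul_left p M') (inf_not_sq_dvd M' p hp hpM) R).O)
    (hNβ : normAlong (heckeBetaBar Kbar M' p)
      (1 + algebraMap Kbar (FF (M' * p)) (lam ^ i) * g) ∈ F1)
    (c : Kbar) (hc : c ≠ 0) (w f : FF (M' * p)) (hf : f ≠ 0)
    (hfw : f * w ^ p = algebraMap Kbar (FF (M' * p)) c
      * (1 + algebraMap Kbar (FF (M' * p)) (lam ^ i) * g))
    (D : Divisor.degZero (K := Kbar) (F := FF (M' * p)))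
    (hD : ∀ v : Place Kbar (FF (M' * p)), (p • (D : Divisor Kbar (FF (M' * p)))) v = v.ord f)
    (hβ : degJBeta M' p (Pic0.mk D) = 0) :
    ∃ (ψ : ↥Fk) (κ : IsLocalRing.ResidueField A),
      (inredZero (M' * p) p hp (dvd_mul_left p M') (inf_not_sq_dvd M' p hp hpM) R).red ⟨g, hg₀⟩
        = ψ ^ p + algebraMap (IsLocalRing.ResidueField A) (↥Fk) κ ∧
      (¬ p ∣ i → ψ = 0) := by
  have hlamA' : lam ∈ A := A.nonunits_subset hlamA
  have hlv : A.valuation lam < 1 := hlamA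
  set a : A := ⟨lam ^ i, pow_mem hlamA' i⟩ with hadef
  have haK : (a : Kbar) = lam ^ i := rfl
  have ha0 : a ≠ 0 := fun h => pow_ne_zero i hlam0 (congrArg Subtype.val h)
  have ha : IsLocalRing.residue A a = 0 := by
    rw [IsLocalRing.residue_eq_zero_iff, ValuationSubring.valuation_lt_one_iff, haK, map_pow]
    exact pow_lt_one₀ zero_le hlv (by omega)
  obtain ⟨t, ht, hNt, hrt⟩ := nf1_beta M' p hp hpM hlt R' hR' R hR a ha ha0 g hg hg₀
  rw [haK] at hNt
  obtain ⟨g₁, c₁, -, -, hN⟩ := degJBeta_norm M' p D p hf hD hβ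
  obtain ⟨c', s, hcs⟩ := sna_pow_of_norm (heckeBetaBar Kbar M' p) p c hc w f _ hfw c₁ g₁ hN
  obtain ⟨c'', s', hs'1, hcs'⟩ := hcan _ hNβ ⟨c', s, hcs⟩
  rw [hNt] at hcs'
  obtain ⟨ψ, cb, hψ, hψ0⟩ := lvi_inv R' F1 hp hlam0 hlamA hlam1 hdisc hres1 hi hpe hie ht c'' s'
    hs'1 hcs'
  exact ⟨ψ, cb, by rw [← hrt, hψ], hψ0⟩

/-- **T4a**: the leading terms of a `p`-new class, at a level below `v*`, lie in `Fk^p + k` on
both components -/
theorem sna_lead [RRBase (IsLocalRing.ResidueField A) ↥Fk]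
    (hlt : A.valuation (p : Kbar) < 1)
    (R' : ConstRed A (IsLocalRing.residue A) (↥Fk) (FF M')) (hR' : IsSeriesRed R')
    (R : ConstRed A (IsLocalRing.residue A) (↥Fk) (FF (M' * p))) (hR : IsSeriesRed R)
    (F1 : Subfield (FF M')) (lam : Kbar) (hlam0 : lam ≠ 0) (hlamA : lam ∈ A.nonunits)
    (hlam1 : algebraMap Kbar (FF M') lam ∈ F1)
    (hdisc : ∀ f ∈ F1, f ≠ 0 → ∃ n : ℤ,
      algebraMap Kbar (FF M') (lam ^ n) * f ∈ R'.O ∧
        (algebraMap Kbar (FF M') (lam ^ n) * f)⁻¹ ∈ R'.O)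
    (hres1 : ∀ c : IsLocalRing.ResidueField A, ∃ a : A, IsLocalRing.residue A a = c ∧
      algebraMap Kbar (FF M') (a : Kbar) ∈ F1)
    {e i : ℕ} (hi : 1 ≤ i) (hpe : ∃ ε ∈ A, (p : Kbar) = lam ^ e * ε)
    (hie : (p - 1) * i < p * e)
    (hcan : ∀ u ∈ F1, (∃ (c : Kbar) (s : FF M'), u = algebraMap Kbar (FF M') c * s ^ p) →
      ∃ (c' : Kbar) (s' : FF M'), s' ∈ F1 ∧ u = algebraMap Kbar (FF M') c' * s' ^ p)
    (g : FF (M' * p)) (hg : g ∈ R.O)
    (hg₀ : g ∈ (inredZero (M' * p) p hp (dvd_mul_left p M') (inf_not_sq_dvd M' p hp hpM) R).O)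
    (hNα : normAlong (heckeAlphaBar Kbar M' p)
      (1 + algebraMap Kbar (FF (M' * p)) (lam ^ i) * g) ∈ F1)
    (hNβ : normAlong (heckeBetaBar Kbar M' p)
      (1 + algebraMap Kbar (FF (M' * p)) (lam ^ i) * g) ∈ F1)
    (c : Kbar) (hc : c ≠ 0) (w f : FF (M' * p)) (hf : f ≠ 0)
    (hfw : f * w ^ p = algebraMap Kbar (FF (M' * p)) c
      * (1 + algebraMap Kbar (FF (M' * p)) (lam ^ i) * g))
    (D : Divisor.degZero (K := Kbar) (F := FF (M' * p)))
    (hD : ∀ v : Place Kbar (FF (M' * p)), (p • (D : Divisor Kbar (FF (M' * p)))) v = v.ord f)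
    (hα : degJAlpha M' p (Pic0.mk D) = 0) (hβ : degJBeta M' p (Pic0.mk D) = 0) :
    ∃ (ψ₁ ψ₂ : ↥Fk) (κ₁ κ₂ : IsLocalRing.ResidueField A),
      R.red ⟨g, hg⟩ = ψ₁ ^ p + algebraMap (IsLocalRing.ResidueField A) (↥Fk) κ₁ ∧
      (inredZero (M' * p) p hp (dvd_mul_left p M') (inf_not_sq_dvd M' p hp hpM) R).red ⟨g, hg₀⟩
        = ψ₂ ^ p + algebraMap (IsLocalRing.ResidueField A) (↥Fk) κ₂ ∧
      (¬ p ∣ i → ψ₁ = 0 ∧ ψ₂ = 0) := by
  obtain ⟨ψ₁, κ₁, h₁, h₁'⟩ := sna_lead_alpha M' p hp hpM hlt R' hR' R hR F1 lam hlam0 hlamA hlam1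
    hdisc hres1 hi hpe hie hcan g hg hg₀ hNα c hc w f hf hfw D hD hα
  obtain ⟨ψ₂, κ₂, h₂, h₂'⟩ := sna_lead_beta M' p hp hpM hlt R' hR' R hR F1 lam hlam0 hlamA hlam1
    hdisc hres1 hi hpe hie hcan g hg hg₀ hNβ c hc w f hf hfw D hD hβ
  exact ⟨ψ₁, ψ₂, κ₁, κ₂, h₁, h₂, fun h => ⟨h₁' h, h₂' h⟩⟩

end Field

section Rat

/-- the norm of `1 + a y` is fixed by semilinear automorphisms fixing `a` and `y` -/
theorem sna_norm_fixed {K F F' : Type*} [Field K] [Field F] [Field F'] [Algebra K F]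
    [Algebra K F'] (φ : F →ₐ[K] F') (g : SemilinearAut K F) (g' : SemilinearAut K F')
    (hcompat : ∀ x, g • normAlong φ x = normAlong φ (g' • x))
    (a : K) (ha : SemilinearAut.baseAut g' a = a) (y : F') (hy : g' • y = y) :
    g • normAlong φ (1 + algebraMap K F' a * y) = normAlong φ (1 + algebraMap K F' a * y) := by
  rw [hcompat, smul_add, smul_one, smul_mul', SemilinearAut.smul_algebraMap, ha, hy]

variable (M' p : ℕ) [NeZero M'] [NeZero p]

/-- `Nm_α (1 + a y)` is fixed by the Galois elements fixing `a` and `y` -/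
theorem sna_norm_fixed_alpha (σ : Kbar ≃ₐ[ℚ] Kbar) (a : Kbar) (ha : σ a = a)
    (y : FF (M' * p)) (hy : galFF (M' * p) σ • y = y) :
    galFF M' σ • normAlong (heckeAlphaBar Kbar M' p) (1 + algebraMap Kbar (FF (M' * p)) a * y)
      = normAlong (heckeAlphaBar Kbar M' p) (1 + algebraMap Kbar (FF (M' * p)) a * y) := by
  refine sna_norm_fixed (heckeAlphaBar Kbar M' p) (galFF M' σ) (galFF (M' * p) σ)
    (fun x => Fermat.Agent.S36lib.kdn_galFF_normAlong_alpha M' p σ x) a ?_ y hy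
  rw [baseAut_arithmeticGalois]
  exact ha

/-- `Nm_β (1 + a y)` is fixed by the Galois elements fixing `a` and `y` -/
theorem sna_norm_fixed_beta (σ : Kbar ≃ₐ[ℚ] Kbar) (a : Kbar) (ha : σ a = a)
    (y : FF (M' * p)) (hy : galFF (M' * p) σ • y = y) :
    galFF M' σ • normAlong (heckeBetaBar Kbar M' p) (1 + algebraMap Kbar (FF (M' * p)) a * y)
      = normAlong (heckeBetaBar Kbar M' p) (1 + algebraMap Kbar (FF (M' * p)) a * y) := by
  refine sna_norm_fixed (heckeBetaBar Kbar M' p) (galFF M' σ) (galFF (M' * p) σ)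
    (fun x => Fermat.Agent.S36lib.kdn_galFF_normAlong_beta M' p σ x) a ?_ y hy
  rw [baseAut_arithmeticGalois]
  exact ha

end Rat

end Fermat.Agent.S33lib
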