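/-
Item 86 (S33), block TOR_p, glue for the assembly (helper27).  Complete proofs.

Kummer functions of a class of `J₀(N)` killed by `m`:

* `kgl_root_of_mk_eq_zero` : `m D = div u`, `[D] = 0`  ⟹  `u = c · s ^ m` (`c ≠ 0`, `s ≠ 0`);
* `kgl_same_class`         : `m D = div u`, `m D' = div f`, `[D'] = [D]`  ⟹  `f = c · u · t ^ m`;
* `kgl_neg_class`          : `m D = div u`, `m D' = div f`, `[D'] = -[D]` ⟹  `f = c · u⁻¹ · t ^ m`;
* `kgl_new_of_mul_pow`     : `f · w ^ m = c · u`, `f` Kummer-new ⟹ `u` Kummer-new;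
* `kgl_new_inv`            : `u` Kummer-new ⟹ `u⁻¹` Kummer-new;
* `kgl_new_inv_mul_pow`    : `u` Kummer-new ⟹ `u⁻¹ · s ^ m` Kummer-new (the `f₁` of `tbc_inputs`);
* `kgl_new_same_class`     : Kummer-newness passes to every Kummer function of the same class;
* `kgl_ord_inv_mul_pow`    : `m D = div u` ⟹ `m (-D + div s) = div (u⁻¹ s ^ m)`.
-/
import Mathlib
import Fermat.Agent.S36lib.Speed
import Fermat.Agent.S33lib.StepNewA
import Fermat.Agent.S35lib.DegJK
import Fermat.Agent.S18lib.Normalise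

set_option autoImplicit false
set_option linter.unusedVariables false
set_option linter.unusedSectionVars false
set_option linter.style.haveILetI false

noncomputable section

namespace Fermat.Agent.S33lib

open ModularCurve AlgebraicCurve Fermat.Agent.S35lib Fermat.Agent.S24lib Fermat.Agent.HeckeBar

section Classes

variable (N : ℕ) [NeZero N] (m : ℕ)

/-- **(b)** a Kummer function of the zero class is a constant times an `m`-th power -/
theorem kgl_root_of_mk_eq_zero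
    (D : Divisor.degZero (K := Kbar) (F := FF N)) (u : FF N) (hu : u ≠ 0)
    (hDu : ∀ w : Place Kbar (FF N), (m : ℤ) * (D : Divisor Kbar (FF N)) w = w.ord u)
    (h0 : (Pic0.mk D : JZero N) = 0) :
    ∃ (c : Kbar) (s : FF N), c ≠ 0 ∧ s ≠ 0 ∧ u = algebraMap Kbar (FF N) c * s ^ m := by
  obtain ⟨g, hg0, hg⟩ := Fermat.Agent.S18lib.mem_principal_of_mk_eq_zero D h0
  have hgm : g ^ m ≠ 0 := pow_ne_zero m hg0
  have hw0 : u / g ^ m ≠ 0 := div_ne_zero hu hgm
  have hord : ∀ v : Place Kbar (FF N), v.ord (u / g ^ m) = 0 := by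
    intro v
    rw [div_eq_mul_inv, v.ord_mul hu (inv_ne_zero hgm), v.ord_inv,
      Fermat.Agent.S18lib.ord_pow_nat, ← hDu v, hg v]
    ring
  obtain ⟨c, hc0, hc⟩ := dgj_const_of_ord_eq_zero N (u / g ^ m) hw0 hord
  refine ⟨c, g, hc0, hg0, ?_⟩
  rw [← hc, div_mul_cancel₀ u hgm]

/-- **(a)** two Kummer functions of the same class differ by a constant and an `m`-th power -/
theorem kgl_same_class
    (D D' : Divisor.degZero (K := Kbar) (F := FF N)) (u f : FF N) (hu : u ≠ 0) (hf : f ≠ 0)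
    (hDu : ∀ w : Place Kbar (FF N), (m : ℤ) * (D : Divisor Kbar (FF N)) w = w.ord u)
    (hDf : ∀ w : Place Kbar (FF N), (m : ℤ) * (D' : Divisor Kbar (FF N)) w = w.ord f)
    (h : (Pic0.mk D' : JZero N) = Pic0.mk D) :
    ∃ (c : Kbar) (t : FF N), c ≠ 0 ∧ t ≠ 0 ∧ f = algebraMap Kbar (FF N) c * u * t ^ m := by
  have h0 : (Pic0.mk (D' - D) : JZero N) = 0 := by
    have e : (Pic0.mk (D' - D) : JZero N) = Pic0.mk D' - Pic0.mk D := rfl
    rw [e, h, sub_self]
  have hq0 : f / u ≠ 0 := div_ne_zero hf hu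
  have hDq : ∀ w : Place Kbar (FF N),
      (m : ℤ) * ((D' - D : Divisor.degZero (K := Kbar) (F := FF N)) : Divisor Kbar (FF N)) w
        = w.ord (f / u) := by
    intro w
    rw [div_eq_mul_inv, w.ord_mul hf (inv_ne_zero hu), w.ord_inv, ← hDu w, ← hDf w]
    have e : ((D' - D : Divisor.degZero (K := Kbar) (F := FF N)) : Divisor Kbar (FF N)) w
        = (D' : Divisor Kbar (FF N)) w - (D : Divisor Kbar (FF N)) w := rfl
    rw [e]
    ring
  obtain ⟨c, t, hc0, ht0, hct⟩ := kgl_root_of_mk_eq_zero N m (D' - D) (f / u) hq0 hDq h0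
  refine ⟨c, t, hc0, ht0, ?_⟩
  have := congrArg (fun x => x * u) hct
  simp only [div_mul_cancel₀ f hu] at this
  rw [this]
  ring

/-- **(a')** Kummer functions of opposite classes -/
theorem kgl_neg_class
    (D D' : Divisor.degZero (K := Kbar) (F := FF N)) (u f : FF N) (hu : u ≠ 0) (hf : f ≠ 0)
    (hDu : ∀ w : Place Kbar (FF N), (m : ℤ) * (D : Divisor Kbar (FF N)) w = w.ord u)
    (hDf : ∀ w : Place Kbar (FF N), (m : ℤ) * (D' : Divisor Kbar (FF N)) w = w.ord f)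
    (h : (Pic0.mk D' : JZero N) = - Pic0.mk D) :
    ∃ (c : Kbar) (t : FF N), c ≠ 0 ∧ t ≠ 0 ∧ f = algebraMap Kbar (FF N) c * u⁻¹ * t ^ m := by
  have hDn : ∀ w : Place Kbar (FF N),
      (m : ℤ) * ((-D : Divisor.degZero (K := Kbar) (F := FF N)) : Divisor Kbar (FF N)) w
        = w.ord u⁻¹ := by
    intro w
    rw [w.ord_inv, ← hDu w]
    have e : ((-D : Divisor.degZero (K := Kbar) (F := FF N)) : Divisor Kbar (FF N)) w
        = - (D : Divisor Kbar (FF N)) w := rfl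
    rw [e]
    ring
  have h' : (Pic0.mk D' : JZero N) = Pic0.mk (-D) := by
    rw [h]
    rfl
  exact kgl_same_class N m (-D) D' u⁻¹ f (inv_ne_zero hu) hf hDn hDf h'

/-- the Kummer property of `u⁻¹ s ^ m` -/
theorem kgl_ord_inv_mul_pow
    (D : Divisor Kbar (FF N)) (u s : FF N) (hu : u ≠ 0) (hs : s ≠ 0)
    (hDu : ∀ w : Place Kbar (FF N), (m : ℤ) * D w = w.ord u) (w : Place Kbar (FF N)) :
    (m : ℤ) * (- D w + w.ord s) = w.ord (u⁻¹ * s ^ m) := by
  rw [w.ord_mul (inv_ne_zero hu) (pow_ne_zero m hs), w.ord_inv,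
    Fermat.Agent.S18lib.ord_pow_nat, ← hDu w]
  ring

end Classes

section New

variable (M' q m : ℕ) [NeZero M'] [NeZero q]

/-- **(c1)** if `f · w ^ m = c · u` and `f` is Kummer-new, then `u` is Kummer-new -/
theorem kgl_new_of_mul_pow {c : Kbar} (hc : c ≠ 0) {w f u : FF (M' * q)}
    (hfw : f * w ^ m = algebraMap Kbar (FF (M' * q)) c * u) (hnew : IsKummerNew M' q m f) :
    IsKummerNew M' q m u := by
  obtain ⟨⟨c₁, g₁, h₁⟩, ⟨c₂, g₂, h₂⟩⟩ := hnew
  refine ⟨?_, ?_⟩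
  · exact sna_pow_of_norm (heckeAlphaBar Kbar M' q) m c hc w f u hfw c₁ g₁ h₁
  · exact sna_pow_of_norm (heckeBetaBar Kbar M' q) m c hc w f u hfw c₂ g₂ h₂

/-- the norm of an inverse -/
theorem kgl_norm_inv {K F F' : Type*} [Field K] [Field F] [Field F'] [Algebra K F]
    [Algebra K F'] (φ : F →ₐ[K] F') {u : F'} (hu : u ≠ 0) :
    normAlong φ u⁻¹ = (normAlong φ u)⁻¹ := by
  have h := map_mul (normAlong φ) u u⁻¹
  rw [mul_inv_cancel₀ hu, map_one] at h
  exact eq_inv_of_mul_eq_one_right h.symm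

/-- **(c2)** the inverse of a Kummer-new function is Kummer-new -/
theorem kgl_new_inv {u : FF (M' * q)} (hu : u ≠ 0) (hnew : IsKummerNew M' q m u) :
    IsKummerNew M' q m u⁻¹ := by
  obtain ⟨⟨c₁, g₁, h₁⟩, ⟨c₂, g₂, h₂⟩⟩ := hnew
  refine ⟨⟨c₁⁻¹, g₁⁻¹, ?_⟩, ⟨c₂⁻¹, g₂⁻¹, ?_⟩⟩
  · have e := kgl_norm_inv (heckeAlphaBar Kbar M' q) hu
    have h₁' : normAlong (heckeAlphaBar Kbar M' q) u = algebraMap Kbar (FF M') c₁ * g₁ ^ m := h₁
    rw [h₁', mul_inv, ← map_inv₀, ← inv_pow] at e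
    exact e
  · have e := kgl_norm_inv (heckeBetaBar Kbar M' q) hu
    have h₂' : normAlong (heckeBetaBar Kbar M' q) u = algebraMap Kbar (FF M') c₂ * g₂ ^ m := h₂
    rw [h₂', mul_inv, ← map_inv₀, ← inv_pow] at e
    exact e

/-- **(c3)** `u` Kummer-new ⟹ `u⁻¹ · s ^ m` Kummer-new -/
theorem kgl_new_inv_mul_pow {u : FF (M' * q)} (hu : u ≠ 0) (s : FF (M' * q))
    (hnew : IsKummerNew M' q m u) : IsKummerNew M' q m (u⁻¹ * s ^ m) := by
  refine kgl_new_of_mul_pow M' q m (c := 1) one_ne_zero (w := s) (f := u⁻¹) ?_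
    (kgl_new_inv M' q m hu hnew)
  rw [map_one, one_mul]

/-- **(c4)** `u` Kummer-new ⟹ `c · u · t ^ m` Kummer-new -/
theorem kgl_new_const_mul_pow {u : FF (M' * q)} {c : Kbar} (hc : c ≠ 0) (t : FF (M' * q))
    (hnew : IsKummerNew M' q m u) :
    IsKummerNew M' q m (algebraMap Kbar (FF (M' * q)) c * u * t ^ m) := by
  refine kgl_new_of_mul_pow M' q m (c := c⁻¹) (inv_ne_zero hc) (w := t) (f := u) ?_ hnew
  have hc' : algebraMap Kbar (FF (M' * q)) c ≠ 0 := (map_ne_zero _).mpr hc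
  rw [map_inv₀, ← mul_assoc, ← mul_assoc, inv_mul_cancel₀ hc', one_mul]

variable [NeZero (M' * q)]

/-- **(d)** Kummer-newness passes to every Kummer function of the same class -/
theorem kgl_new_same_class
    (D D' : Divisor.degZero (K := Kbar) (F := FF (M' * q))) (u f : FF (M' * q))
    (hu : u ≠ 0) (hf : f ≠ 0)
    (hDu : ∀ w : Place Kbar (FF (M' * q)),
      (m : ℤ) * (D : Divisor Kbar (FF (M' * q))) w = w.ord u)
    (hDf : ∀ w : Place Kbar (FF (M' * q)),
      (m : ℤ) * (D' : Divisor Kbar (FF (M' * q))) w = w.ord f)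
    (h : (Pic0.mk D' : JZero (M' * q)) = Pic0.mk D) (hnew : IsKummerNew M' q m u) :
    IsKummerNew M' q m f := by
  obtain ⟨c, t, hc0, -, hct⟩ := kgl_same_class (M' * q) m D D' u f hu hf hDu hDf h
  rw [hct]
  exact kgl_new_const_mul_pow M' q m hc0 t hnew

end New

end Fermat.Agent.S33lib

end
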