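import Mathlib
import Fermat.Agent.S36lib.Speed
import Fermat.Agent.S33lib.LocGen4
import Fermat.Agent.S33lib.LevKum
import Fermat.Agent.S33lib.LevDisc
import Fermat.Agent.S33lib.LevVal
import Fermat.Agent.S33lib.RayLiftGen
import Fermat.Agent.S33lib.RayInst
import Fermat.Agent.S34lib.UnipDesc

/-!
# Item 86 (S33), block LEV, piece (H) (helper15): the hypotheses of the level calculus

The structures `LcgHyp`, `LcgPlace` of the abstract level calculus (`LocGen*.lean`, helper18) at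
the concrete level `M` for a triple `(H, K', ϖ)`: `H ⊆ I` a set of automorphisms of `ℚ̄` with field
of invariants `K' ⊇ K0 = ℚ̄^I`, discretely valued by `A` with uniformiser `ϖ`, `p ∈ ϖ ^ e A`;
`F1 = fixedLBC H (modularFunctionFieldFull M)` (the `H`-fixed functions),
`Rat D = ∀ g ∈ rccG M H, g • D = D` (the `H`-stable divisors), `P = ∞`, `Q = 0`.

* `lvh_nonunit` : the uniformiser lies in the maximal ideal of `A`;
* `lvh_hyp_ff` : `LcgHyp` from a place reduction `r` with the lifting property (F3);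
* `lvh_place_inf`, `lvh_place_zero` : `LcgPlace` at the cusps `∞` and `0`;
* `lvh_hyp` : at an auxiliary level: `∃ r`, `LcgHyp ∧ LcgPlace ∞ ∧ LcgPlace 0 ∧ r ∞ ≠ r 0`;
* `lvh_base_ff`, `lvh_base_of_hyp`, `lvh_base` : the base of the level induction (`hbase` of
  `lcg_lev_main`, BASE of `lva_core`): an `H`-fixed class killed by `p` with a Kummer function
  which is a constant times a `p`-th power modulo `𝔪_O` has a Kummer function
  `c s ^ p (1 + ϖ g)`, `g` rational and integral, i.e. it has the rational level `1`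
  (`lcgLev R ϖ F1 (lvkKum hNM p) 1 x`).
-/

set_option autoImplicit false
set_option linter.unusedSectionVars false
set_option linter.unusedVariables false
set_option linter.style.haveILetI false
set_option synthInstance.maxHeartbeats 400000

noncomputable section

namespace Fermat.Agent.S33lib

open AlgebraicCurve ModularCurve HahnSeries
open Fermat.Agent.GoodRed Fermat.Agent.S24lib Fermat.Agent.S34lib Fermat.Agent.S36lib
  Fermat.Agent.RRlib Fermat.Agent.FFlib Fermat.Agent.GM Fermat.Agent.HeckeBar Fermat.Agent.S18lib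

section Gen

variable {A : ValuationSubring Kbar} {K' : IntermediateField ℚ Kbar} {ϖ : Kbar}

/-- the uniformiser lies in the maximal ideal -/
theorem lvh_nonunit (hd : VdDisc A K'.toSubfield ϖ) : ϖ ∈ A.nonunits :=
  (A.mem_nonunits_iff).mpr hd.2.2.1

/-- `p = u ϖ ^ e` gives `p ∈ ϖ ^ e A` -/
theorem lvh_hpe {p e : ℕ} (h : ∃ u : Kbar, u ∈ K' ∧ u ∈ A ∧ u⁻¹ ∈ A ∧ (p : Kbar) = u * ϖ ^ e) :
    ∃ ε ∈ A, (p : Kbar) = ϖ ^ e * ε := by
  obtain ⟨u, -, hu, -, h⟩ := h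
  exact ⟨u, hu, by rw [h, mul_comm]⟩

end Gen

section Hyp

variable {M : ℕ} [NeZero M] {A : ValuationSubring Kbar}
variable {R : ConstRed A (IsLocalRing.residue A) (Fk (IsLocalRing.ResidueField A) M) (FF M)}
variable [RRHyp Kbar (FF M)] [RRHyp (IsLocalRing.ResidueField A) (Fk (IsLocalRing.ResidueField A) M)]
variable {r : Place Kbar (FF M) →
    Place (IsLocalRing.ResidueField A) (Fk (IsLocalRing.ResidueField A) M)}
variable {H : Set (Kbar ≃ₐ[ℚ] Kbar)} {K' : IntermediateField ℚ Kbar} {ϖ : Kbar}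

/-- **`LcgHyp` at level `M`** for `(H, K', ϖ)`, from a place reduction with (F3) -/
theorem lvh_hyp_ff {p : ℕ} (hp : p.Prime) (hA : A.LiesOverPrime p) (hR : IsSeriesRed R)
    (hr : R.IsPlaceRed r)
    (hF3 : ∀ D : Divisor Kbar (FF M), 2 * (genusFF Kbar (FF M) : ℤ) - 2 < Divisor.degree D →
      R.W D = riemannRochSpace (K := IsLocalRing.ResidueField A) (Finsupp.mapDomain r D))
    (hK' : ∀ c : Kbar, c ∈ K' ↔ ∀ σ ∈ H, σ c = c) (hK0 : k0Field A ≤ K')
    (hHI : ∀ σ ∈ H, σ ∈ A.inertiaSubgroupIn ℚ)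
    (hd : VdDisc A K'.toSubfield ϖ) {e : ℕ} (hpe : ∃ ε ∈ A, (p : Kbar) = ϖ ^ e * ε) :
    LcgHyp R r p (⟨ϖ, A.nonunits_subset (lvh_nonunit hd)⟩ : A) e
      (fixedLBC H (modularFunctionFieldFull M))
      (fun D : Divisor Kbar (FF M) => ∀ g ∈ rccG M H, g • D = D) := by
  refine lcgHyp_of_ray R hr hp hd.2.1 (lvh_nonunit hd) hpe
    (fixedLBC H (modularFunctionFieldFull M)) (rccG M H)
    (lvd_const_fixed M hK' hd.1) (fun f hf hf0 => lvd_disc hK' hK0 hd hR hf hf0) ?_ ?_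
  · intro c
    obtain ⟨a, ha, -, hfix⟩ := lvd_res (L := M) hp hA hHI c
    exact ⟨a, ha, hfix⟩
  · intro D hD hdeg w hw
    rw [rcc_forall_G] at hD
    exact rlg_lift1 hK' hK0 hd hp hA R r hF3
      (fun f hf hf0 => lvd_disc hK' hK0 hd hR hf hf0) D hD hdeg w hw

omit [RRHyp (IsLocalRing.ResidueField A) (Fk (IsLocalRing.ResidueField A) M)] in
/-- **`LcgPlace` at the cusp `∞`** -/
theorem lvh_place_inf {p : ℕ} (hp : p ≠ 0) (H : Set (Kbar ≃ₐ[ℚ] Kbar)) :
    LcgPlace p (fixedLBC H (modularFunctionFieldFull M))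
      (fun D : Divisor Kbar (FF M) => ∀ g ∈ rccG M H, g • D = D) (infPlaceBar M) := by
  refine lcgPlace_of_fixed hp (rccG M H) ?_ (rcc_hP M H)
  intro x hx
  rw [rcc_forall_G]
  exact hx

omit [RRHyp (IsLocalRing.ResidueField A) (Fk (IsLocalRing.ResidueField A) M)] in
/-- **`LcgPlace` at the cusp `0`** -/
theorem lvh_place_zero {p : ℕ} (hp : p ≠ 0) (H : Set (Kbar ≃ₐ[ℚ] Kbar)) :
    LcgPlace p (fixedLBC H (modularFunctionFieldFull M))
      (fun D : Divisor Kbar (FF M) => ∀ g ∈ rccG M H, g • D = D) (rqZero M) := by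
  refine lcgPlace_of_fixed hp (rccG M H) ?_ ?_
  · intro x hx
    rw [rcc_forall_G]
    exact hx
  · rw [rcc_forall_G]
    intro τ _
    exact galFF_smul_rqZero M τ

end Hyp

section Aux

variable {M : ℕ} [NeZero M] {A : ValuationSubring Kbar}
variable {R : ConstRed A (IsLocalRing.residue A) (Fk (IsLocalRing.ResidueField A) M) (FF M)}
variable {H : Set (Kbar ≃ₐ[ℚ] Kbar)} {K' : IntermediateField ℚ Kbar} {ϖ : Kbar}

/-- **the hypotheses of the level calculus at an auxiliary level `M`** for `(H, K', ϖ)`: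
a place reduction `r` with `LcgHyp`, `LcgPlace` at the cusps `∞` and `0`, and `r ∞ ≠ r 0`. -/
theorem lvh_hyp (p : ℕ) [Fact p.Prime] (haux : IsAuxLevel p M)
    (hA : A.LiesOverPrime p) (hR : IsSeriesRed R)
    (hK' : ∀ c : Kbar, c ∈ K' ↔ ∀ σ ∈ H, σ c = c) (hK0 : k0Field A ≤ K')
    (hHI : ∀ σ ∈ H, σ ∈ A.inertiaSubgroupIn ℚ)
    (hd : VdDisc A K'.toSubfield ϖ) {e : ℕ} (hpe : ∃ ε ∈ A, (p : Kbar) = ϖ ^ e * ε) :
    haveI : IsAlgClosed (IsLocalRing.ResidueField A) := isAlgClosed_residueField A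
    haveI : RRHyp Kbar (FF M) := mod_rrHyp M
    haveI : RRHyp (IsLocalRing.ResidueField A) (Fk (IsLocalRing.ResidueField A) M) :=
      mr_rrHyp (IsLocalRing.ResidueField A) M
    ∃ r : Place Kbar (FF M) →
        Place (IsLocalRing.ResidueField A) (Fk (IsLocalRing.ResidueField A) M),
      LcgHyp R r p (⟨ϖ, A.nonunits_subset (lvh_nonunit hd)⟩ : A) e
        (fixedLBC H (modularFunctionFieldFull M))
        (fun D : Divisor Kbar (FF M) => ∀ g ∈ rccG M H, g • D = D) ∧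
      LcgPlace p (fixedLBC H (modularFunctionFieldFull M))
        (fun D : Divisor Kbar (FF M) => ∀ g ∈ rccG M H, g • D = D) (infPlaceBar M) ∧
      LcgPlace p (fixedLBC H (modularFunctionFieldFull M))
        (fun D : Divisor Kbar (FF M) => ∀ g ∈ rccG M H, g • D = D) (rqZero M) ∧
      r (infPlaceBar M) ≠ r (rqZero M) := by
  haveI : IsAlgClosed (IsLocalRing.ResidueField A) := isAlgClosed_residueField A
  haveI : RRHyp Kbar (FF M) := mod_rrHyp M
  haveI : RRHyp (IsLocalRing.ResidueField A) (Fk (IsLocalRing.ResidueField A) M) :=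
    mr_rrHyp (IsLocalRing.ResidueField A) M
  have hp : p.Prime := Fact.out
  obtain ⟨r, hr, hF3, -, -⟩ := liftInf_exists_r p haux hA hR
  exact ⟨r, lvh_hyp_ff hp hA hR hr hF3 hK' hK0 hHI hd hpe, lvh_place_inf hp.ne_zero H,
    lvh_place_zero hp.ne_zero H, rq_hPQ p haux.1 (rin_one_lt_of_aux haux) hA hR hr⟩

end Aux

section Base

variable {M' M : ℕ} [NeZero M'] [NeZero M] {A : ValuationSubring Kbar}
variable {R : ConstRed A (IsLocalRing.residue A) (Fk (IsLocalRing.ResidueField A) M) (FF M)}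
variable [RRHyp Kbar (FF M)] [RRHyp (IsLocalRing.ResidueField A) (Fk (IsLocalRing.ResidueField A) M)]
variable {r : Place Kbar (FF M) →
    Place (IsLocalRing.ResidueField A) (Fk (IsLocalRing.ResidueField A) M)}
variable {H : Set (Kbar ≃ₐ[ℚ] Kbar)}

omit [RRHyp Kbar (FF M)]
  [RRHyp (IsLocalRing.ResidueField A) (Fk (IsLocalRing.ResidueField A) M)] in
/-- the inclusion `F_{M'} → F_M` preserves `H`-fixed functions -/
theorem lvh_inclBar_mem (hNM : M' ∣ M) {f : FF M'}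
    (hf : f ∈ fixedLBC H (modularFunctionFieldFull M')) :
    inclBar M' M hNM f ∈ fixedLBC H (modularFunctionFieldFull M) := by
  intro σ hσ
  have h1 := ud_incl_smul M' M hNM σ f
  have h2 : galFF M' σ • f = f := hf σ hσ
  rw [h2] at h1
  exact h1.symm

/-- **the base of the level induction, function form**: an `H`-fixed function `f` of level `M`
whose divisor is divisible by `p` and which is a constant times a `p`-th power modulo `𝔪_O` is
`c s ^ p (1 + ϖ g)` with `g` rational and integral. -/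
theorem lvh_base_ff {p : ℕ} {ϖ : A} {e : ℕ}
    (HH : LcgHyp R r p ϖ e (fixedLBC H (modularFunctionFieldFull M))
      (fun D : Divisor Kbar (FF M) => ∀ g ∈ rccG M H, g • D = D))
    (f : FF M) (hf1 : f ∈ fixedLBC H (modularFunctionFieldFull M)) (hf0 : f ≠ 0)
    (hD : ∀ v : Place Kbar (FF M), (p : ℤ) ∣ v.ord f)
    (hW : ∃ (c : Kbar) (w : FF M), c ≠ 0 ∧ w ≠ 0 ∧
      algebraMap Kbar (FF M) c * f * w ^ p - 1 ∈ R.O.nonunits) :
    ∃ g : R.O, (g : FF M) ∈ fixedLBC H (modularFunctionFieldFull M) ∧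
      ∃ (c : Kbar) (s : FF M), c ≠ 0 ∧ s ≠ 0 ∧
        f = algebraMap Kbar (FF M) c * s ^ p * ((1 + lcgC R ϖ ^ 1 * g : R.O) : FF M) := by
  have hp : p.Prime := HH.prime
  obtain ⟨D, hD'⟩ := rin_exists_div (K := Kbar) p f hD
  have hF1 : ∀ x ∈ fixedLBC H (modularFunctionFieldFull M), ∀ g ∈ rccG M H, g • x = x := by
    intro x hx
    rw [rcc_forall_G]
    exact hx
  obtain ⟨c₀, s₀, f₁, n, E, hc₀, hs₀, hff₁, hf₁1, ⟨hf₁O, hf₁red⟩, -⟩ :=
    ray_normalise R (fixedLBC H (modularFunctionFieldFull M)) HH.isPlaceRed hp.ne_zero HH.ϖ_ne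
      (rccG M H) hF1 HH.ϖ_mem_F1 HH.disc HH.res1 HH.lift (P := infPlaceBar M) (rcc_hP M H)
      f hf1 hf0 D hD' hW
  obtain ⟨g, hg1, hg⟩ := lcg_lev_one_of_red HH ⟨f₁, hf₁O⟩ hf₁1 hf₁red
  refine ⟨g, hg1, c₀, s₀, hc₀, hs₀, ?_⟩
  have hg' : f₁ = ((1 + lcgC R ϖ ^ 1 * g : R.O) : FF M) :=
    congrArg Subtype.val hg
  rw [hff₁, ← hg']

/-- **the base of the level induction** (`hbase` of `lcg_lev_main`, in the unfolded form of
`lcgLev R ϖ F1 (lvkKum hNM p) 1 x`): `x` a class of level `M'` killed by `p` and fixed by `H`,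
with a Kummer function `u` such that `ι u` is a constant times a `p`-th power modulo `𝔪_O` at
the level `M` (`ι : F_{M'} → F_M`).  Then `x` has a Kummer function `u'` with
`ι u' = c s ^ p (1 + ϖ g)`, `g` an `H`-fixed function of `O`. -/
theorem lvh_base_of_hyp (hNM : M' ∣ M) {p : ℕ} {ϖ : A} {e : ℕ}
    (HH : LcgHyp R r p ϖ e (fixedLBC H (modularFunctionFieldFull M))
      (fun D : Divisor Kbar (FF M) => ∀ g ∈ rccG M H, g • D = D))
    (x : JZero M') (hx : ∀ τ ∈ H, τ • x = x) (hpx : p • x = 0)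
    (hker : ∃ (D : Divisor.degZero (K := Kbar) (F := FF M')) (u : FF M'), Pic0.mk D = x ∧ u ≠ 0 ∧
      (∀ v : Place Kbar (FF M'), (p : ℤ) * (D : Divisor Kbar (FF M')) v = v.ord u) ∧
      ∃ (c : Kbar) (w : FF M), c ≠ 0 ∧ w ≠ 0 ∧
        algebraMap Kbar (FF M) c * inclBar M' M hNM u * w ^ p - 1 ∈ R.O.nonunits) :
    ∃ g : R.O, (g : FF M) ∈ fixedLBC H (modularFunctionFieldFull M) ∧
      ∃ (D : Divisor.degZero (K := Kbar) (F := FF M')) (u : FF M') (c : Kbar) (s : FF M),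
        Pic0.mk D = x ∧ u ≠ 0 ∧
        (∀ v : Place Kbar (FF M'), (p : ℤ) * (D : Divisor Kbar (FF M')) v = v.ord u) ∧
        c ≠ 0 ∧ s ≠ 0 ∧
        inclBar M' M hNM u
          = algebraMap Kbar (FF M) c * s ^ p * ((1 + lcgC R ϖ ^ 1 * g : R.O) : FF M) := by
  haveI : RRHyp Kbar (FF M') := mod_rrHyp M'
  have hp : p.Prime := HH.prime
  obtain ⟨D₀, u₀, hD₀, hu₀, hdiv₀, c₀, w₀, hc₀, hw₀, hW₀⟩ := hker
  -- CAN: an `H`-fixed Kummer function
  have hxG : ∀ g ∈ rccG M' H, g • x = x := by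
    rw [rcc_forall_G]
    intro τ hτ
    exact hx τ hτ
  obtain ⟨D₁, f₁, hD₁, hD₁G, hf₁0, hf₁G, hdiv₁⟩ :=
    rcn_pic0 (rccG M' H) (infPlaceBar M') (rcc_hP M' _) (rccLc M')
      (rcc_lc_ne_zero M') (rcc_lc_mul M') (rcc_hlcG M' _) p x hxG hpx
  rw [rcc_forall_G] at hD₁G hf₁G
  have hf₁1 : f₁ ∈ fixedLBC H (modularFunctionFieldFull M') := hf₁G
  have hdiv₁' : ∀ v : Place Kbar (FF M'), (p : ℤ) * (D₁ : Divisor Kbar (FF M')) v = v.ord f₁ := by
    intro v
    rw [← divOf_apply hf₁0 v, hdiv₁, Finsupp.smul_apply, nsmul_eq_mul]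
  -- comparison of the two Kummer functions
  have hpr : (D₁ : Divisor Kbar (FF M')) - (D₀ : Divisor Kbar (FF M'))
      ∈ Divisor.principal (K := Kbar) (F := FF M') := by
    rw [← rcn_mk_eq_mk_iff, hD₁, hD₀]
  obtain ⟨t, ht0, htdiv⟩ := rcn_exists_divOf hpr
  have hut0 : u₀ * t ^ p ≠ 0 := mul_ne_zero hu₀ (pow_ne_zero p ht0)
  have hord : ∀ v : Place Kbar (FF M'), v.ord (f₁ * (u₀ * t ^ p)⁻¹) = 0 := by
    intro v
    have ht := DFunLike.congr_fun htdiv v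
    rw [divOf_apply ht0 v, Finsupp.sub_apply] at ht
    rw [Place.ord_mul _ hf₁0 (inv_ne_zero hut0), Place.ord_inv,
      Place.ord_mul _ hu₀ (pow_ne_zero p ht0), ord_pow_nat, ← hdiv₁' v, ← hdiv₀ v, ht]
    ring
  obtain ⟨a, ha⟩ := RRBase.const_of_forall_ord_nonneg (K := Kbar)
    (f₁ * (u₀ * t ^ p)⁻¹) (fun v => (hord v).ge)
  have hf₁eq : f₁ = algebraMap Kbar (FF M') a * (u₀ * t ^ p) := by
    rw [ha, mul_assoc, inv_mul_cancel₀ hut0, mul_one]
  have ha0 : a ≠ 0 := by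
    rintro rfl
    rw [map_zero, zero_mul] at hf₁eq
    exact hf₁0 hf₁eq
  -- at the level `M`
  set ι := inclBar M' M hNM with hι
  have hιt0 : ι t ≠ 0 := (map_ne_zero ι).mpr ht0
  have hιf₁ : ι f₁ = algebraMap Kbar (FF M) a * (ι u₀ * ι t ^ p) := by
    rw [hf₁eq, map_mul, map_mul, map_pow, AlgHom.commutes]
  have hW₁ : ∃ (c : Kbar) (w : FF M), c ≠ 0 ∧ w ≠ 0 ∧
      algebraMap Kbar (FF M) c * ι f₁ * w ^ p - 1 ∈ R.O.nonunits := by
    refine ⟨c₀ * a⁻¹, w₀ * (ι t)⁻¹, mul_ne_zero hc₀ (inv_ne_zero ha0),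
      mul_ne_zero hw₀ (inv_ne_zero hιt0), ?_⟩
    have ha' : algebraMap Kbar (FF M) a ≠ 0 :=
      (map_ne_zero_iff _ (algebraMap Kbar (FF M)).injective).mpr ha0
    have hcalc : algebraMap Kbar (FF M) (c₀ * a⁻¹) * ι f₁ * (w₀ * (ι t)⁻¹) ^ p
        = algebraMap Kbar (FF M) c₀ * ι u₀ * w₀ ^ p := by
      rw [hιf₁, map_mul, map_inv₀, mul_pow, inv_pow]
      field_simp
    rw [hcalc]
    exact hW₀
  obtain ⟨g, hg1, c, s, hc, hs, hfin⟩ := lvh_base_ff HH (ι f₁)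
    (lvh_inclBar_mem hNM hf₁1) ((map_ne_zero ι).mpr hf₁0)
    (rin_dvd_ord_inclBar hNM p (D₁ : Divisor Kbar (FF M')) hdiv₁') hW₁
  exact ⟨g, hg1, D₁, f₁, c, s, hD₁, hf₁0, hdiv₁', hc, hs, hfin⟩

end Base

section Final

variable {M' M : ℕ} [NeZero M'] [NeZero M] {A : ValuationSubring Kbar}
variable {R : ConstRed A (IsLocalRing.residue A) (Fk (IsLocalRing.ResidueField A) M) (FF M)}

/-- **BASE of the level induction** (the input `BASE` of `lva_core`): a class `x` of level `M'`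
killed by `p` and fixed by `H`, with a Kummer function `u` such that `ι u` is a constant times a
`p`-th power modulo `𝔪_O` at the auxiliary level `M`, has the rational level `1`. -/
theorem lvh_base (hNM : M' ∣ M) (p : ℕ) [Fact p.Prime] (haux : IsAuxLevel p M)
    (hA : A.LiesOverPrime p) (hR : IsSeriesRed R)
    {H : Set (Kbar ≃ₐ[ℚ] Kbar)} {K' : IntermediateField ℚ Kbar}
    (hK' : ∀ c : Kbar, c ∈ K' ↔ ∀ σ ∈ H, σ c = c) (hK0 : k0Field A ≤ K')
    (hHI : ∀ σ ∈ H, σ ∈ A.inertiaSubgroupIn ℚ)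
    {ϖ : Kbar} (hd : VdDisc A K'.toSubfield ϖ) {e : ℕ} (hpe : ∃ ε ∈ A, (p : Kbar) = ϖ ^ e * ε)
    (x : JZero M') (hxH : ∀ σ ∈ H, σ • x = x) (hpx : p • x = 0)
    (hker : ∃ (D : Divisor.degZero (K := Kbar) (F := FF M')) (u : FF M'), Pic0.mk D = x ∧ u ≠ 0 ∧
      (∀ v : Place Kbar (FF M'), (p : ℤ) * (D : Divisor Kbar (FF M')) v = v.ord u) ∧
      ∃ (c : Kbar) (w : FF M), c ≠ 0 ∧ w ≠ 0 ∧
        algebraMap Kbar (FF M) c * inclBar M' M hNM u * w ^ p - 1 ∈ R.O.nonunits) :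
    lcgLev R (⟨ϖ, A.nonunits_subset ((A.mem_nonunits_iff).mpr hd.2.2.1)⟩ : A)
      (fixedLBC H (modularFunctionFieldFull M)) (lvkKum hNM p) 1 x := by
  haveI : IsAlgClosed (IsLocalRing.ResidueField A) := isAlgClosed_residueField A
  haveI : RRHyp Kbar (FF M) := mod_rrHyp M
  haveI : RRHyp (IsLocalRing.ResidueField A) (Fk (IsLocalRing.ResidueField A) M) :=
    mr_rrHyp (IsLocalRing.ResidueField A) M
  obtain ⟨r, HH, -, -, -⟩ := lvh_hyp (R := R) p haux hA hR hK' hK0 hHI hd hpe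
  exact lvh_base_of_hyp hNM HH x hxH hpx hker

/-- BASE for all the classes of a set `X` of `H`-fixed classes killed by `p` with the property
`Ker` -/
theorem lvh_base_forall (hNM : M' ∣ M) (p : ℕ) [Fact p.Prime] (haux : IsAuxLevel p M)
    (hA : A.LiesOverPrime p) (hR : IsSeriesRed R)
    {H : Set (Kbar ≃ₐ[ℚ] Kbar)} {K' : IntermediateField ℚ Kbar}
    (hK' : ∀ c : Kbar, c ∈ K' ↔ ∀ σ ∈ H, σ c = c) (hK0 : k0Field A ≤ K')
    (hHI : ∀ σ ∈ H, σ ∈ A.inertiaSubgroupIn ℚ)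
    {ϖ : Kbar} (hd : VdDisc A K'.toSubfield ϖ) {e : ℕ} (hpe : ∃ ε ∈ A, (p : Kbar) = ϖ ^ e * ε)
    (X : Set (JZero M')) (hXH : ∀ x ∈ X, ∀ σ ∈ H, σ • x = x) (hpX : ∀ x ∈ X, p • x = 0)
    (hker : ∀ x ∈ X, ∃ (D : Divisor.degZero (K := Kbar) (F := FF M')) (u : FF M'),
      Pic0.mk D = x ∧ u ≠ 0 ∧
      (∀ v : Place Kbar (FF M'), (p : ℤ) * (D : Divisor Kbar (FF M')) v = v.ord u) ∧
      ∃ (c : Kbar) (w : FF M), c ≠ 0 ∧ w ≠ 0 ∧
        algebraMap Kbar (FF M) c * inclBar M' M hNM u * w ^ p - 1 ∈ R.O.nonunits) :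
    ∀ x ∈ X, lcgLev R (⟨ϖ, A.nonunits_subset ((A.mem_nonunits_iff).mpr hd.2.2.1)⟩ : A)
      (fixedLBC H (modularFunctionFieldFull M)) (lvkKum hNM p) 1 x :=
  fun x hx => lvh_base hNM p haux hA hR hK' hK0 hHI hd hpe x (hXH x hx) (hpX x hx) (hker x hx)

end Final

end Fermat.Agent.S33lib

end
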