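import Mathlib

/-!
# Item 86 (S33), block PN (helper14): the counting step, abstract

`J` an abelian group, `p` a natural number, `U n` a tower of finite subgroups (for us: the
`m`-part of `J[p^n]`), `V n ≤ U n` (for us: the classes of `U n` having a Kummer function with
constant reductions), `a : J →+ J` (for us: `τ₀ - 1`, `τ₀` in the inertia group with
`ω(τ₀) ≠ 1`).  If

* multiplication by `p` maps `U (n+1)` onto `U n` with kernel `U 1`,
* `a (U n) ⊆ V n`, `p • V (n+1) ⊆ V n`, and the elements of `V (n+1)` killed by `p` lie in `V 1`,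
* `a` is injective on `V 1`,

then for every `n` : `V n = a (U n)` and `a` is injective on `V n` (`pnc_main`).
-/

set_option autoImplicit false
set_option linter.style.haveILetI false

namespace Fermat.Agent.S33lib

section general

variable {G H : Type*} [AddCommGroup G] [AddCommGroup H]

/-- first isomorphism theorem, cardinalities -/
theorem pnc_card_ker_range [Finite G] (f : G →+ H) :
    Nat.card G = Nat.card f.ker * Nat.card f.range := by
  rw [AddSubgroup.card_eq_card_quotient_mul_card_addSubgroup f.ker,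
    Nat.card_congr (QuotientAddGroup.quotientKerEquivRange f).toEquiv, mul_comm]

/-- a bound from a bound of the kernel -/
theorem pnc_card_le_of_ker [Finite G] [Finite H] (f : G →+ H) (K : AddSubgroup G)
    (hK : f.ker ≤ K) : Nat.card G ≤ Nat.card K * Nat.card H := by
  rw [pnc_card_ker_range f]
  exact Nat.mul_le_mul (AddSubgroup.card_le_of_le hK)
    (Nat.card_le_card_of_injective _ Subtype.val_injective)

end general

section tower

variable {J : Type*} [AddCommGroup J]

/-- the restriction of an endomorphism of `J` to a map between two subgroups -/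
def pncRes (g : J →+ J) (X Y : AddSubgroup J) (h : ∀ x ∈ X, g x ∈ Y) : X →+ Y :=
  (g.comp X.subtype).codRestrict Y (fun x => h x.1 x.2)

theorem pncRes_apply (g : J →+ J) (X Y : AddSubgroup J) (h : ∀ x ∈ X, g x ∈ Y) (x : X) :
    ((pncRes g X Y h x : Y) : J) = g x := rfl

/-- multiplication by `p` as an endomorphism -/
def pncMul (p : ℕ) : J →+ J := nsmulAddMonoidHom p

theorem pncMul_apply (p : ℕ) (x : J) : pncMul p x = p • x := rfl

/-- cardinality of a subgroup of `X`, given inside `J` -/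
theorem pnc_card_addSubgroupOf (X Y : AddSubgroup J) (h : Y ≤ X) :
    Nat.card (Y.addSubgroupOf X) = Nat.card Y :=
  Nat.card_congr (AddSubgroup.addSubgroupOfEquivOfLe h).toEquiv

/-- `|X| ≤ |K| |Y|` if `g` maps `X` to `Y` and the kernel of `g` on `X` lies in `K` -/
theorem pnc_card_le (g : J →+ J) (X Y K : AddSubgroup J) [Finite X] [Finite Y] [Finite K]
    (h : ∀ x ∈ X, g x ∈ Y) (hK : ∀ x ∈ X, g x = 0 → x ∈ K) :
    Nat.card X ≤ Nat.card K * Nat.card Y := by
  rw [pnc_card_ker_range (pncRes g X Y h)]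
  refine Nat.mul_le_mul ?_ (Nat.card_le_card_of_injective _ Subtype.val_injective)
  have hmem : ∀ x : (pncRes g X Y h).ker, (x.1 : J) ∈ K := by
    intro x
    apply hK x.1.1 x.1.2
    have h2 := congrArg (fun y : Y => (y : J)) ((AddMonoidHom.mem_ker).1 x.2)
    simpa [pncRes_apply] using h2
  refine Nat.card_le_card_of_injective (fun x => (⟨(x.1 : J), hmem x⟩ : K)) ?_
  intro x y hxy
  have h3 : (x.1 : J) = (y.1 : J) := congrArg (fun z : K => (z : J)) hxy
  exact Subtype.ext (Subtype.ext h3)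

/-- `|X| = |K| |Y|` if `g` maps `X` onto `Y` and the kernel of `g` on `X` is `K ≤ X` -/
theorem pnc_card_eq (g : J →+ J) (X Y K : AddSubgroup J) [Finite X]
    (h : ∀ x ∈ X, g x ∈ Y) (hsurj : ∀ y ∈ Y, ∃ x ∈ X, g x = y) (hKX : K ≤ X)
    (hK : ∀ x ∈ X, g x = 0 → x ∈ K) (hK' : ∀ x ∈ K, g x = 0) :
    Nat.card X = Nat.card K * Nat.card Y := by
  have hker : (pncRes g X Y h).ker = K.addSubgroupOf X := by
    ext x
    rw [AddMonoidHom.mem_ker, AddSubgroup.mem_addSubgroupOf]
    constructor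
    · intro hx
      apply hK x.1 x.2
      have h2 := congrArg (fun y : Y => (y : J)) hx
      simpa [pncRes_apply] using h2
    · intro hx
      apply Subtype.ext
      rw [pncRes_apply]
      exact hK' _ hx
  have hrange : (pncRes g X Y h).range = ⊤ := by
    rw [AddMonoidHom.range_eq_top]
    intro y
    obtain ⟨x, hx, hxy⟩ := hsurj y.1 y.2
    exact ⟨⟨x, hx⟩, Subtype.ext hxy⟩
  rw [pnc_card_ker_range (pncRes g X Y h), hker, hrange, pnc_card_addSubgroupOf X K hKX,
    Nat.card_congr (AddSubgroup.topEquiv (G := Y)).toEquiv]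

variable (p : ℕ) (U V : ℕ → AddSubgroup J) (a : J →+ J)

/-- the fixed part: the kernel of `a` on `U n` -/
def pncF (n : ℕ) : AddSubgroup J := U n ⊓ a.ker

theorem mem_pncF (n : ℕ) (x : J) : x ∈ pncF U a n ↔ x ∈ U n ∧ a x = 0 := by
  unfold pncF
  rw [AddSubgroup.mem_inf, AddMonoidHom.mem_ker]

/-- the image `a (U n)` -/
def pncA (n : ℕ) : AddSubgroup J := (U n).map a

theorem mem_pncA (n : ℕ) (y : J) : y ∈ pncA U a n ↔ ∃ x ∈ U n, a x = y := by
  unfold pncA
  rw [AddSubgroup.mem_map]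

section main

variable (hfin : ∀ n, Finite (U n)) (hU0 : U 0 = ⊥) (hU1 : ∀ n, U 1 ≤ U (n + 1))
  (hUp : ∀ n, ∀ x ∈ U (n + 1), p • x ∈ U n)
  (hUdiv : ∀ n, ∀ y ∈ U n, ∃ x ∈ U (n + 1), p • x = y)
  (hUker : ∀ n, ∀ x ∈ U (n + 1), p • x = 0 → x ∈ U 1)
  (haU : ∀ n, ∀ x ∈ U n, a x ∈ V n) (hVU : ∀ n, V n ≤ U n)
  (hVp : ∀ n, ∀ y ∈ V (n + 1), p • y ∈ V n)
  (hVker : ∀ n, ∀ y ∈ V (n + 1), p • y = 0 → y ∈ V 1)
  (hcore : ∀ y ∈ V 1, a y = 0 → y = 0)

include hU0 hUp in
theorem pnc_U1_smul (x : J) (hx : x ∈ U 1) : p • x = 0 := by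
  have h := hUp 0 x hx
  rw [hU0] at h
  exact (AddSubgroup.mem_bot).1 h

include hfin hVU in
theorem pnc_finite_V (n : ℕ) : Finite (V n) := by
  haveI := hfin n
  exact Finite.of_injective (fun x : V n => (⟨x.1, hVU n x.2⟩ : U n))
    (fun x y h => Subtype.ext (congrArg (fun z : U n => (z : J)) h))

include hfin in
theorem pnc_finite_F (n : ℕ) : Finite (pncF U a n) := by
  haveI := hfin n
  exact Finite.of_injective
    (fun x : pncF U a n => (⟨x.1, ((mem_pncF U a n x.1).1 x.2).1⟩ : U n))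
    (fun x y h => Subtype.ext (congrArg (fun z : U n => (z : J)) h))

include hfin hU0 hU1 hUp hUdiv hUker in
/-- `|U n| = |U 1| ^ n` -/
theorem pnc_card_U (n : ℕ) : Nat.card (U n) = Nat.card (U 1) ^ n := by
  induction n with
  | zero =>
    rw [pow_zero, hU0]
    exact AddSubgroup.card_bot
  | succ n ih =>
    haveI := hfin (n + 1)
    rw [pow_succ, ← ih, mul_comm]
    exact pnc_card_eq (pncMul p) (U (n + 1)) (U n) (U 1) (hUp n) (hUdiv n) (hU1 n)
      (hUker n) (pnc_U1_smul p U hU0 hUp)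

include hfin hU0 hVU hVp hVker in
/-- `|V n| ≤ |V 1| ^ n` -/
theorem pnc_card_V (n : ℕ) : Nat.card (V n) ≤ Nat.card (V 1) ^ n := by
  induction n with
  | zero =>
    have h : V 0 = ⊥ := by
      rw [eq_bot_iff, ← hU0]
      exact hVU 0
    rw [pow_zero, h, AddSubgroup.card_bot]
  | succ n ih =>
    haveI := pnc_finite_V U V hfin hVU (n + 1)
    haveI := pnc_finite_V U V hfin hVU n
    haveI := pnc_finite_V U V hfin hVU 1
    calc Nat.card (V (n + 1)) ≤ Nat.card (V 1) * Nat.card (V n) :=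
          pnc_card_le (pncMul p) (V (n + 1)) (V n) (V 1) (hVp n) (hVker n)
      _ ≤ Nat.card (V 1) * Nat.card (V 1) ^ n := Nat.mul_le_mul_left _ ih
      _ = Nat.card (V 1) ^ (n + 1) := by rw [pow_succ, mul_comm]

include hfin hU0 hUp hUker in
/-- `|F n| ≤ |F 1| ^ n` -/
theorem pnc_card_F (n : ℕ) : Nat.card (pncF U a n) ≤ Nat.card (pncF U a 1) ^ n := by
  induction n with
  | zero =>
    have h : pncF U a 0 = ⊥ := by
      rw [eq_bot_iff]
      intro x hx
      rw [← hU0]
      exact ((mem_pncF U a 0 x).1 hx).1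
    rw [pow_zero, h, AddSubgroup.card_bot]
  | succ n ih =>
    haveI := pnc_finite_F U a hfin (n + 1)
    haveI := pnc_finite_F U a hfin n
    haveI := pnc_finite_F U a hfin 1
    calc Nat.card (pncF U a (n + 1)) ≤ Nat.card (pncF U a 1) * Nat.card (pncF U a n) := by
          refine pnc_card_le (pncMul p) (pncF U a (n + 1)) (pncF U a n) (pncF U a 1) ?_ ?_
          · intro x hx
            rw [mem_pncF] at hx ⊢
            refine ⟨hUp n x hx.1, ?_⟩
            rw [pncMul_apply, map_nsmul, hx.2, smul_zero]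
          · intro x hx h0
            rw [mem_pncF] at hx ⊢
            exact ⟨hUker n x hx.1 h0, hx.2⟩
      _ ≤ Nat.card (pncF U a 1) * Nat.card (pncF U a 1) ^ n := Nat.mul_le_mul_left _ ih
      _ = Nat.card (pncF U a 1) ^ (n + 1) := by rw [pow_succ, mul_comm]

include hfin in
/-- `|U n| = |F n| |a (U n)|` -/
theorem pnc_card_UFA (n : ℕ) :
    Nat.card (U n) = Nat.card (pncF U a n) * Nat.card (pncA U a n) := by
  haveI := hfin n
  refine pnc_card_eq a (U n) (pncA U a n) (pncF U a n) ?_ ?_ ?_ ?_ ?_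
  · intro x hx
    exact (mem_pncA U a n _).2 ⟨x, hx, rfl⟩
  · intro y hy
    exact (mem_pncA U a n _).1 hy
  · intro x hx
    exact ((mem_pncF U a n x).1 hx).1
  · intro x hx h0
    exact (mem_pncF U a n x).2 ⟨hx, h0⟩
  · intro x hx
    exact ((mem_pncF U a n x).1 hx).2

include haU in
theorem pnc_A_le_V (n : ℕ) : pncA U a n ≤ V n := by
  intro y hy
  obtain ⟨x, hx, rfl⟩ := (mem_pncA U a n y).1 hy
  exact haU n x hx

include hfin haU hVU hcore in
/-- at level one, `V 1 = a (U 1)` -/
theorem pnc_V1_le_A1 : V 1 ≤ pncA U a 1 := by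
  haveI := pnc_finite_V U V hfin hVU 1
  have hmap : ∀ x ∈ V 1, a x ∈ V 1 := fun x hx => haU 1 x (hVU 1 hx)
  have hinj : Function.Injective (pncRes a (V 1) (V 1) hmap) := by
    rw [injective_iff_map_eq_zero]
    intro x hx
    have h2 : a (x : J) = 0 := by
      have := congrArg (fun y : V 1 => (y : J)) hx
      simpa [pncRes_apply] using this
    exact Subtype.ext (hcore x.1 x.2 h2)
  have hsurj := Finite.injective_iff_surjective.1 hinj
  intro y hy
  obtain ⟨x, hx⟩ := hsurj ⟨y, hy⟩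
  refine (mem_pncA U a 1 y).2 ⟨x.1, hVU 1 x.2, ?_⟩
  have := congrArg (fun y : V 1 => (y : J)) hx
  simpa [pncRes_apply] using this

include hfin hU0 hU1 hUp hUdiv hUker haU hVU hVp hVker hcore in
/-- **the counting step**: `V n = a (U n)` -/
theorem pnc_V_eq (n : ℕ) : V n = pncA U a n := by
  haveI := pnc_finite_V U V hfin hVU n
  haveI := pnc_finite_F U a hfin n
  have hA1 : pncA U a 1 = V 1 :=
    le_antisymm (pnc_A_le_V U V a haU 1) (pnc_V1_le_A1 U V a hfin haU hVU hcore)
  have h1 := pnc_card_UFA U a hfin n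
  have h2 := pnc_card_UFA U a hfin 1
  have h3 := pnc_card_U p U hfin hU0 hU1 hUp hUdiv hUker n
  have h4 := pnc_card_F p U a hfin hU0 hUp hUker n
  have h5 := pnc_card_V p U V hfin hU0 hVU hVp hVker n
  rw [hA1] at h2
  have hpos : 0 < Nat.card (pncF U a n) := Nat.card_pos
  have h6 : Nat.card (pncF U a n) * Nat.card (V 1) ^ n
      ≤ Nat.card (pncF U a n) * Nat.card (pncA U a n) := by
    rw [← h1, h3, h2, mul_pow]
    exact Nat.mul_le_mul_right _ h4
  have h7 : Nat.card (V 1) ^ n ≤ Nat.card (pncA U a n) := Nat.le_of_mul_le_mul_left h6 hpos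
  exact (AddSubgroup.eq_of_le_of_card_ge (pnc_A_le_V U V a haU n) (h5.trans h7)).symm

include hU0 hVU hVp hVker hcore in
/-- **the counting step**: `a` is injective on `V n` -/
theorem pnc_inj (n : ℕ) : ∀ y ∈ V n, a y = 0 → y = 0 := by
  induction n with
  | zero =>
    intro y hy _
    have h := hVU 0 hy
    rw [hU0] at h
    exact (AddSubgroup.mem_bot).1 h
  | succ n ih =>
    intro y hy h0
    have h1 : p • y = 0 := by
      apply ih (p • y) (hVp n y hy)
      rw [map_nsmul, h0, smul_zero]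
    exact hcore y (hVker n y hy h1) h0

include hfin hU0 hU1 hUp hUdiv hUker haU hVU hVp hVker hcore in
/-- **PN, the counting step.**  For every `n` : every element of `V n` is `a x` with `x ∈ U n`,
and `a` is injective on `V n`. -/
theorem pnc_main (n : ℕ) :
    (∀ y ∈ V n, ∃ x ∈ U n, a x = y) ∧ (∀ y ∈ V n, a y = 0 → y = 0) := by
  refine ⟨?_, pnc_inj p U V a hU0 hVU hVp hVker hcore n⟩
  intro y hy
  rw [pnc_V_eq p U V a hfin hU0 hU1 hUp hUdiv hUker haU hVU hVp hVker hcore n] at hy
  exact (mem_pncA U a n y).1 hy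

end main

end tower

end Fermat.Agent.S33lib
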