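/-
Item 86 (S33), block RAY (helper13): stability of the `I1`-fixed functions (`RdcFixed`, `rlfF1`)
under the maps between the modular function fields, and DISC at the SECOND valuation
`v₀ = v_∞ ∘ w_q` of a level `N` with `q ‖ N`.  Complete proofs.

* `rdcFixed_map_of_comm` : a ring homomorphism commuting with the Galois action preserves
  `RdcFixed`;
* `rdcFixed_atkinLehnerFF`, `rdcFixed_alW1`, `rdcFixed_alQ`, `rdcFixed_heckeAlphaBar`,
  `rdcFixed_heckeBetaBar`;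
* `rdc_disc_zero` : DISC for `inredZero N q hq hqN hq2 R` (the second Gauss valuation);
* `rdl_hdisc_zero` : the same on `rlfF1` (hypothesis `hdisc₂` of `rss_core`);
  `rdl_mem_rlfF1_atkinLehnerFF`, `rdl_mem_rlfF1_heckeAlphaBar`, `rdl_mem_rlfF1_heckeBetaBar`.
-/
import Mathlib
import Fermat.Agent.S33lib.RayDiscLift
import Fermat.Agent.S34lib.InertiaRedAL
import Fermat.Agent.S36lib.ALBridge

set_option autoImplicit false
set_option linter.unusedSectionVars false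
set_option linter.unusedVariables false
set_option linter.style.haveILetI false

noncomputable section

namespace Fermat.Agent.S33lib

open ModularCurve HahnSeries AlgebraicCurve
open Fermat.Agent.GoodRed Fermat.Agent.S24lib Fermat.Agent.S34lib Fermat.Agent.S36lib
  Fermat.Agent.S37lib Fermat.Agent.HeckeBar Fermat.Agent.AJlib Fermat.Agent.S35lib

variable {A : ValuationSubring Kbar} {ζ : Kbar}

section Stab

variable {L : ℕ}

/-- a ring homomorphism commuting with the Galois action preserves `RdcFixed` -/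
theorem rdcFixed_map_of_comm {L' : ℕ} (φ : FF L →+* FF L')
    (hφ : ∀ σ ∈ A.inertiaSubgroupIn ℚ, ∀ x, φ (galFF L σ • x) = galFF L' σ • φ x)
    {x : FF L} (hx : RdcFixed L A ζ x) : RdcFixed L' A ζ (φ x) := by
  intro σ hσ hζ
  rw [← hφ σ hσ, hx σ hσ hζ]

theorem rdcFixed_atkinLehnerFF [NeZero L] (q : ℕ) (hq : q.Prime) (hqL : q ∣ L)
    (hq2 : ¬ q ^ 2 ∣ L) {x : FF L} (hx : RdcFixed L A ζ x) :
    RdcFixed L A ζ (atkinLehnerFF L q hq hqL hq2 x) :=
  rdcFixed_map_of_comm ((atkinLehnerFF L q hq hqL hq2 : FF L ≃ₐ[Kbar] FF L) : FF L →+* FF L)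
    (fun σ _ x => inred_al_comm L q hq hqL hq2 σ x) hx

theorem rdcFixed_alQ [NeZero L] (Q : ℕ) (hQ : Q ∣ L) (hcop : Nat.Coprime Q (L / Q))
    {x : FF L} (hx : RdcFixed L A ζ x) : RdcFixed L A ζ (alQ L Q hQ hcop x) :=
  rdcFixed_map_of_comm ((alQ L Q hQ hcop : FF L ≃ₐ[Kbar] FF L) : FF L →+* FF L)
    (fun σ _ x => alQ_comm L Q hQ hcop
      ((arithmeticRingAut (modularFunctionFieldFull L) σ : FF L ≃+* FF L) : FF L →+* FF L)
      (fun c => ⟨σ c, arithmeticRingAut_algebraMap (modularFunctionFieldFull L) σ c⟩)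
      (fun d _ hd => inred_smul_jdF L σ d hd) x) hx

theorem rdcFixed_heckeAlphaBar [NeZero L] (q : ℕ) [NeZero q] {x : FF L}
    (hx : RdcFixed L A ζ x) : RdcFixed (L * q) A ζ (heckeAlphaBar Kbar L q x) := by
  rw [rdcFixed_iff_coeff] at hx ⊢
  intro n
  rw [coe_heckeAlphaBar]
  exact hx n

theorem rdcFixed_heckeBetaBar [NeZero L] (q : ℕ) [NeZero q] {x : FF L}
    (hx : RdcFixed L A ζ x) : RdcFixed (L * q) A ζ (heckeBetaBar Kbar L q x) := by
  rw [rdcFixed_iff_coeff] at hx ⊢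
  intro n
  rw [coe_heckeBetaBar]
  by_cases hn : (q : ℤ) ∣ n
  · obtain ⟨k, rfl⟩ := hn
    rw [qExpand_coeff_mul q]
    exact hx k
  · rw [qExpand_coeff_of_not_dvd q _ hn]
    exact zero_mem _

end Stab

section W1

variable (M' : ℕ) [NeZero M'] {q : ℕ} [NeZero q] [NeZero (M' * q)]

theorem rdcFixed_alW1 (hq : q.Prime) (hqM : ¬ q ∣ M') {x : FF (M' * q)}
    (hx : RdcFixed (M' * q) A ζ x) : RdcFixed (M' * q) A ζ (alW1 M' hq hqM x) :=
  rdcFixed_atkinLehnerFF q hq (dvd_mul_left q M') (dgj_not_sq_dvd_mul_self hq hqM) hx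

end W1

section Zero

variable {N : ℕ} [NeZero N] {p : ℕ}

/-- **DISC at the second valuation** `v₀ = v_∞ ∘ w_q` -/
theorem rdc_disc_zero (hp : p.Prime) (hA : A.LiesOverPrime p) (hζ : IsPrimitiveRoot ζ p)
    {Fk : IntermediateField (IsLocalRing.ResidueField A)
      (LaurentSeries (IsLocalRing.ResidueField A))}
    {R : ConstRed A (IsLocalRing.residue A) (↥Fk) (FF N)} (hR : IsSeriesRed R)
    (q : ℕ) (hq : q.Prime) (hqN : q ∣ N) (hq2 : ¬ q ^ 2 ∣ N)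
    {f : FF N} (hf : RdcFixed N A ζ f) (hf0 : f ≠ 0) :
    ∃ n : ℤ, algebraMap Kbar (FF N) ((ζ - 1) ^ n) * f ∈ (inredZero N q hq hqN hq2 R).O ∧
      (algebraMap Kbar (FF N) ((ζ - 1) ^ n) * f)⁻¹ ∈ (inredZero N q hq hqN hq2 R).O :=
  rdc_disc_comap hp hA hζ hR (atkinLehnerFF N q hq hqN hq2)
    (fun x hx => rdcFixed_atkinLehnerFF q hq hqN hq2 hx) hf hf0

/-- **DISC at the second valuation** on `rlfF1` (hypothesis `hdisc₂` of `rss_core`) -/
theorem rdl_hdisc_zero (hp : p.Prime) (hA : A.LiesOverPrime p) (hζ : IsPrimitiveRoot ζ p)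
    {Fk : IntermediateField (IsLocalRing.ResidueField A)
      (LaurentSeries (IsLocalRing.ResidueField A))}
    {R : ConstRed A (IsLocalRing.residue A) (↥Fk) (FF N)} (hR : IsSeriesRed R)
    (q : ℕ) (hq : q.Prime) (hqN : q ∣ N) (hq2 : ¬ q ^ 2 ∣ N) :
    ∀ f ∈ rlfF1 A ζ N, f ≠ 0 → ∃ n : ℤ,
      algebraMap Kbar (FF N) ((ζ - 1) ^ n) * f ∈ (inredZero N q hq hqN hq2 R).O ∧
        (algebraMap Kbar (FF N) ((ζ - 1) ^ n) * f)⁻¹ ∈ (inredZero N q hq hqN hq2 R).O :=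
  fun f hf hf0 =>
    rdc_disc_zero hp hA hζ hR q hq hqN hq2 ((rdl_mem_rlfF1_iff f).mp hf) hf0

theorem rdl_mem_rlfF1_atkinLehnerFF (q : ℕ) (hq : q.Prime) (hqN : q ∣ N) (hq2 : ¬ q ^ 2 ∣ N)
    {x : FF N} (hx : x ∈ rlfF1 A ζ N) : atkinLehnerFF N q hq hqN hq2 x ∈ rlfF1 A ζ N :=
  (rdl_mem_rlfF1_iff _).mpr
    (rdcFixed_atkinLehnerFF q hq hqN hq2 ((rdl_mem_rlfF1_iff x).mp hx))

theorem rdl_mem_rlfF1_heckeAlphaBar (q : ℕ) [NeZero q] {x : FF N} (hx : x ∈ rlfF1 A ζ N) :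
    heckeAlphaBar Kbar N q x ∈ rlfF1 A ζ (N * q) :=
  (rdl_mem_rlfF1_iff _).mpr (rdcFixed_heckeAlphaBar q ((rdl_mem_rlfF1_iff x).mp hx))

theorem rdl_mem_rlfF1_heckeBetaBar (q : ℕ) [NeZero q] {x : FF N} (hx : x ∈ rlfF1 A ζ N) :
    heckeBetaBar Kbar N q x ∈ rlfF1 A ζ (N * q) :=
  (rdl_mem_rlfF1_iff _).mpr (rdcFixed_heckeBetaBar q ((rdl_mem_rlfF1_iff x).mp hx))

end Zero

end Fermat.Agent.S33lib

end
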