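import Mathlib
import Fermat.Agent.S33lib.GeoDefs
import Fermat.Agent.S33lib.ASConst
import Fermat.Agent.S33lib.CycSpec
import Fermat.Agent.S33lib.RayPow
import Fermat.Agent.S36lib.ZetaIndep
import Fermat.Agent.S36lib.K0Unram
import Fermat.Agent.GoodRed.ModDatum
import Fermat.Agent.GoodRed.Bounded
import Fermat.Agent.GoodRed.Echelon
import Fermat.Agent.RRlib.Modular

/-!
# Item 86 (S33), geometry block G1, statement (REG2) (helper14)

`gdfDeep R p lam x ⇒ τ • x = χ₁(τ) • x` for `τ` in the inertia group: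

* `r2c2_abs`   : abstract (`ConstRed`): an inertial `g` with `g (1 + lam) = (1 + lam) ^ e` acts by
  `e` on the classes `x` with `gdfDeep R p lam x`;
* `r2c2_conc`  : the modular curve of level `M`, `R` a series reduction along `B ∣ p`
  (genus inequality `hgen` as a hypothesis; instance `RRHyp Kbar (FF M)` = `mod_rrHyp M`),
  `lam = ζ - 1`: `τ • x = (cycChi p 1 τ).val • x`
  for `τ` in the inertia group of `B`;
* `r2c2_fixed` : if moreover `τ₀` moves `μ_p` and `τ₀ • x = x`, then `x = 0`.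
-/

set_option autoImplicit false
set_option linter.unusedSectionVars false
set_option linter.unusedVariables false
set_option linter.style.haveILetI false
set_option synthInstance.maxHeartbeats 400000

noncomputable section

namespace Fermat.Agent.S33lib

open AlgebraicCurve ModularCurve HahnSeries
open Fermat.Agent.RRlib Fermat.Agent.GoodRed Fermat.Agent.S34lib Fermat.Agent.S18lib
  Fermat.Agent.S24lib Fermat.Agent.S36lib Fermat.Agent.GalRep Fermat.Agent.S31lib

section Abstract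

variable {K F k Fk : Type*} [Field K] [Field F] [Algebra K F] [Field k] [Field Fk] [Algebra k Fk]
variable {A : ValuationSubring K} {π : A →+* k}
variable [RRHyp K F] [RRHyp k Fk] [Infinite k]

/-- **(REG2), abstract**: an inertial `g` with `g ζ = ζ ^ e` (`ζ = 1 + lam`) acts by `e` on the
classes of level `≥ v*`. -/
theorem r2c2_abs (R : ConstRed A π Fk F) (hgen : genusFF K F ≤ genusFF k Fk)
    {p : ℕ} (hp : p.Prime) {lam : K} (hlam0 : lam ≠ 0) (hlam : lam ∈ A.nonunits)
    (hplam : ∃ ε ∈ A, ((p : ℕ) : K) = -(lam ^ (p - 1)) * (1 + lam * ε))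
    {g : SemilinearAut K F} (hg : IsInertial R g) (e : ℕ)
    (he : SemilinearAut.baseAut g (1 + lam) = (1 + lam) ^ e)
    {x : Pic0 K F} (hx : gdfDeep R p lam x) : g • x = e • x := by
  obtain ⟨f, D, hD, hpD⟩ := gdf_deep_elim R hx
  rw [← hD]
  exact rg2_tau_pic0_good R hgen hp hlam0 hlam hplam (asc_hk hp.one_lt) hg e he 1 one_ne_zero 1
    one_ne_zero f D hpD

end Abstract

section Concrete

variable {A : ValuationSubring Kbar} {M : ℕ} [NeZero M] {p : ℕ} [Fact p.Prime]
variable [RRHyp Kbar (FF M)]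
variable {Fk : IntermediateField (IsLocalRing.ResidueField A)
  (LaurentSeries (IsLocalRing.ResidueField A))} [RRHyp (IsLocalRing.ResidueField A) ↥Fk]

/-- **(REG2)** for the modular curve of level `M`: on the classes of level `≥ v*` the inertia
group at `p` acts by the mod `p` cyclotomic character. -/
theorem r2c2_conc (hA : A.LiesOverPrime p) {ζ : Kbar} (hζ : IsPrimitiveRoot ζ p)
    (R : ConstRed A (IsLocalRing.residue A) (↥Fk) (FF M)) (hR : IsSeriesRed R)
    (hgen : genusFF Kbar (FF M) ≤ genusFF (IsLocalRing.ResidueField A) ↥Fk)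
    (τ : Kbar ≃ₐ[ℚ] Kbar) (hτ : τ ∈ A.inertiaSubgroupIn ℚ)
    {x : JZero M} (hx : gdfDeep R p (ζ - 1) x) :
    τ • x = (((cycChi p 1 τ : (ZMod (p ^ 1))ˣ) : ZMod (p ^ 1)).val) • x := by
  have hp : p.Prime := Fact.out
  haveI : NeZero p := ⟨hp.ne_zero⟩
  haveI : IsAlgClosed (IsLocalRing.ResidueField A) := isAlgClosed_residueField A
  haveI : Infinite (IsLocalRing.ResidueField A) := IsAlgClosed.instInfinite
  have hvq : A.valuation ((p : ℕ) : Kbar) < 1 := k0_val_q_lt_one A p hA
  have hlam0 : ζ - 1 ≠ 0 := zi_zeta_sub_one_ne_zero hp hζ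
  have hlam : ζ - 1 ∈ A.nonunits := zi_val_zeta_sub_one_lt_one A.valuation hp hvq hζ
  have hζA : ζ ∈ A := cyclo_mem_of_pow_eq_one A hp.ne_zero hζ.pow_eq_one
  have hplam := rpw_p_eq hp hζ A hζA
  have hfrac : HasPrimFrac A (modularFunctionFieldBar M) :=
    hasPrimFrac_of_isFracNF hp hvq fun _ hf =>
      isFracNF_of_mem (fun c => ((AlgebraicClosure.isAlgebraic ℚ).isAlgebraic c).isIntegral) hf
  have hg : IsInertial R (galFF M τ) := inred_isInertial (modularFunctionFieldFull M) hR hfrac τ hτ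
  have he : SemilinearAut.baseAut (galFF M τ) (1 + (ζ - 1))
      = (1 + (ζ - 1)) ^ (((cycChi p 1 τ : (ZMod (p ^ 1))ˣ) : ZMod (p ^ 1)).val) := by
    rw [add_sub_cancel, baseAut_arithmeticGalois]
    exact cysp_spec p 1 τ ζ (by rw [pow_one]; exact hζ.pow_eq_one)
  exact r2c2_abs R hgen hp hlam0 hlam hplam hg _ he hx

/-- **(REG2), the form used in the assembly**: a class of level `≥ v*` fixed by an inertia
element which moves `μ_p` is zero. -/
theorem r2c2_fixed (hA : A.LiesOverPrime p) {ζ : Kbar} (hζ : IsPrimitiveRoot ζ p)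
    (R : ConstRed A (IsLocalRing.residue A) (↥Fk) (FF M)) (hR : IsSeriesRed R)
    (hgen : genusFF Kbar (FF M) ≤ genusFF (IsLocalRing.ResidueField A) ↥Fk)
    (τ₀ : Kbar ≃ₐ[ℚ] Kbar) (hτ₀ : τ₀ ∈ A.inertiaSubgroupIn ℚ) (hmv : S33hMoves p τ₀)
    {x : JZero M} (hx : gdfDeep R p (ζ - 1) x) (hfix : τ₀ • x = x) : x = 0 := by
  have hp : p.Prime := Fact.out
  haveI : NeZero p := ⟨hp.ne_zero⟩
  have hvq : A.valuation ((p : ℕ) : Kbar) < 1 := k0_val_q_lt_one A p hA
  have hlam : ζ - 1 ∈ A.nonunits := zi_val_zeta_sub_one_lt_one A.valuation hp hvq hζ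
  have h1 := r2c2_conc hA hζ R hR hgen τ₀ hτ₀ hx
  rw [hfix] at h1
  have hpx : p • x = 0 := gdf_ker_torsion R (gdf_deep_ker R hp.ne_zero hlam hx)
  set e : ℕ := ((cycChi p 1 τ₀ : (ZMod (p ^ 1))ˣ) : ZMod (p ^ 1)).val with he
  haveI : NeZero (p ^ 1) := ⟨pow_ne_zero _ hp.ne_zero⟩
  haveI : Fact (1 < p ^ 1) := ⟨by rw [pow_one]; exact hp.one_lt⟩
  have helt : e < p := by
    exact lt_of_lt_of_eq (ZMod.val_lt ((cycChi p 1 τ₀ : (ZMod (p ^ 1))ˣ) : ZMod (p ^ 1)))
      (pow_one p)
  -- `e ≠ 1`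
  have hu := cysp_isUnit_sub_one p τ₀ hmv
  have h2 : ((e : ℕ) : ZMod (p ^ 1)) = ((cycChi p 1 τ₀ : (ZMod (p ^ 1))ˣ) : ZMod (p ^ 1)) := by
    rw [he]
    exact ZMod.natCast_zmod_val _
  have hne1 : e ≠ 1 := by
    intro h1e
    apply hu.ne_zero
    rw [← h2, h1e, Nat.cast_one, sub_self]
  by_contra hx0
  have hord : addOrderOf x = p := addOrderOf_eq_prime hpx hx0
  rcases Nat.eq_zero_or_pos e with h0 | hpos
  · rw [h0, zero_nsmul] at h1
    exact hx0 h1
  · have h3 : (e - 1) • x = 0 := by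
      have h4 : (e - 1) • x + x = x := by
        have h5 : (e - 1 + 1) • x = x := by
          rw [Nat.sub_add_cancel hpos]
          exact h1.symm
        rwa [add_nsmul, one_nsmul] at h5
      exact add_eq_right.mp h4
    have h6 : p ∣ e - 1 := by
      rw [← hord]
      exact addOrderOf_dvd_of_nsmul_eq_zero h3
    have h7 : e - 1 = 0 := Nat.eq_zero_of_dvd_of_lt h6 (by omega)
    omega

end Concrete

end Fermat.Agent.S33lib

end
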