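/-
Item 86 (S33), REGIME II for a PAIR of constant reductions (helper28): the level-`N = N'p`
version of `S33lib/RegimeTwo.lean` (two Gauss valuations `R₁`, `R₂` of the same function field,
unit ball of the sup-norm `O₁ ∩ O₂`).

* `rg2s_merge` : `b₁ t₁ = b₂ t₂`, `b_i ∈ 𝔪_A`, `t_i ∈ O_i` ⇒ the common value is `b t` with
  `b ∈ 𝔪_A`, `t ∈ O₁ ∩ O₂`;
* `rg2s_inertia` : an element `g` inertial for both reductions with `g ζ = ζ ^ e` maps
  `1 + lam ^ p f` (`f ∈ O₁ ∩ O₂`) to `1 + lam ^ p f'`, `f' ∈ O₁ ∩ O₂`, `red_i f' = e · red_i f`;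
* `rg2s_ratio` : then `1 + lam ^ p f' = (1 + lam ^ p f) ^ e · (1 + a t)`, `t ∈ O₁ ∩ O₂`,
  `v(a ^ (p−1)) < v(p ^ p)`;
* `rg2s_tau_principal`, `rg2s_tau_pic0` : with crux III for the pair as a hypothesis,
  `p • E = div (c · s ^ p · (1 + lam ^ p f))` ⇒ `g • E − e • E` is principal, `g • x = e • x`.
No sorry in this file.
-/
import Mathlib
import Fermat.Agent.S33lib.RegimeTwo

set_option autoImplicit false

noncomputable section

namespace Fermat.Agent.S33lib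

open AlgebraicCurve Fermat.Agent.RRlib Fermat.Agent.GoodRed Fermat.Agent.S34lib
  Fermat.Agent.S18lib

variable {K F k Fk₁ Fk₂ : Type*} [Field K] [Field F] [Algebra K F] [Field k]
  [Field Fk₁] [Algebra k Fk₁] [Field Fk₂] [Algebra k Fk₂]
variable {A : ValuationSubring K} {π : A →+* k}

/-- merging two factorisations `b₁ t₁ = b₂ t₂` (`b_i ∈ 𝔪_A`, `t_i ∈ O_i`): the common value is
`b t` with `b ∈ 𝔪_A` and `t ∈ O₁ ∩ O₂` -/
theorem rg2s_merge (R₁ : ConstRed A π Fk₁ F) (R₂ : ConstRed A π Fk₂ F)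
    (b₁ b₂ : A) (hb₁ : (b₁ : K) ∈ A.nonunits) (hb₂ : (b₂ : K) ∈ A.nonunits)
    (t₁ : R₁.O) (t₂ : R₂.O)
    (h : algebraMap K F (b₁ : K) * (t₁ : F) = algebraMap K F (b₂ : K) * (t₂ : F)) :
    ∃ (b : A) (t : F), (b : K) ∈ A.nonunits ∧ t ∈ R₁.O ∧ t ∈ R₂.O ∧
      algebraMap K F (b : K) * t = algebraMap K F (b₁ : K) * (t₁ : F) := by
  -- the case where one of the constants vanishes
  rcases eq_or_ne (b₁ : K) 0 with h1 | h1
  · exact ⟨0, 0, by simp, R₁.O.zero_mem, R₂.O.zero_mem, by simp [h1]⟩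
  rcases eq_or_ne (b₂ : K) 0 with h2 | h2
  · refine ⟨0, 0, by simp, R₁.O.zero_mem, R₂.O.zero_mem, ?_⟩
    rw [h, h2]
    simp
  rcases le_total (A.valuation (b₂ : K)) (A.valuation (b₁ : K)) with hle | hle
  · -- `t₁ = (b₂ / b₁) t₂`
    have hq : (b₂ : K) / (b₁ : K) ∈ A := by
      rw [← A.valuation_le_one_iff, map_div₀]
      exact div_le_one_of_le₀ hle zero_le
    refine ⟨b₁, (t₁ : F), hb₁, t₁.2, ?_, rfl⟩
    have e1 : (t₁ : F) = algebraMap K F ((b₂ : K) / (b₁ : K)) * (t₂ : F) := by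
      have hb : algebraMap K F (b₁ : K) ≠ 0 := (map_ne_zero (algebraMap K F)).mpr h1
      rw [map_div₀, div_mul_eq_mul_div, ← h]
      field_simp
    rw [e1]
    exact R₂.O.mul_mem _ _ (R₂.algebraMap_mem ⟨_, hq⟩) t₂.2
  · have hq : (b₁ : K) / (b₂ : K) ∈ A := by
      rw [← A.valuation_le_one_iff, map_div₀]
      exact div_le_one_of_le₀ hle zero_le
    refine ⟨b₂, (t₂ : F), hb₂, ?_, t₂.2, h.symm⟩
    have e1 : (t₂ : F) = algebraMap K F ((b₁ : K) / (b₂ : K)) * (t₁ : F) := by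
      have hb : algebraMap K F (b₂ : K) ≠ 0 := (map_ne_zero (algebraMap K F)).mpr h2
      rw [map_div₀, div_mul_eq_mul_div, h]
      field_simp
    rw [e1]
    exact R₁.O.mul_mem _ _ (R₁.algebraMap_mem ⟨_, hq⟩) t₁.2

/-- **regime II for a pair, inertia on the leading terms** -/
theorem rg2s_inertia (R₁ : ConstRed A π Fk₁ F) (R₂ : ConstRed A π Fk₂ F) {p : ℕ} (hp : p.Prime)
    {lam : K} (hlam0 : lam ≠ 0) (hlam : lam ∈ A.nonunits) (hpk : ((p : ℕ) : k) = 0)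
    {g : SemilinearAut K F} (hg₁ : IsInertial R₁ g) (hg₂ : IsInertial R₂ g) (e : ℕ)
    (he : SemilinearAut.baseAut g (1 + lam) = (1 + lam) ^ e)
    (f : F) (hf₁ : f ∈ R₁.O) (hf₂ : f ∈ R₂.O) :
    ∃ (f' : F) (h₁ : f' ∈ R₁.O) (h₂ : f' ∈ R₂.O),
      g • (1 + algebraMap K F (lam ^ p) * f) = 1 + algebraMap K F (lam ^ p) * f' ∧
      R₁.red ⟨f', h₁⟩ = (e : Fk₁) * R₁.red ⟨f, hf₁⟩ ∧
      R₂.red ⟨f', h₂⟩ = (e : Fk₂) * R₂.red ⟨f, hf₂⟩ := by
  obtain ⟨f₁, hgf₁, hred₁⟩ := rg2_inertia R₁ hp hlam hpk hg₁ e he ⟨f, hf₁⟩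
  obtain ⟨f₂, hgf₂, hred₂⟩ := rg2_inertia R₂ hp hlam hpk hg₂ e he ⟨f, hf₂⟩
  have hl : algebraMap K F (lam ^ p) ≠ 0 :=
    (map_ne_zero (algebraMap K F)).mpr (pow_ne_zero _ hlam0)
  have heq : (f₂ : F) = (f₁ : F) := by
    have h1 : algebraMap K F (lam ^ p) * (f₂ : F) = algebraMap K F (lam ^ p) * (f₁ : F) := by
      have := hgf₂.symm.trans hgf₁
      exact add_left_cancel this
    exact mul_left_cancel₀ hl h1
  refine ⟨(f₁ : F), f₁.2, heq ▸ f₂.2, hgf₁, hred₁, ?_⟩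
  have : (⟨(f₁ : F), heq ▸ f₂.2⟩ : R₂.O) = f₂ := Subtype.ext heq.symm
  rw [this]
  exact hred₂

/-- **regime II for a pair, the ratio** -/
theorem rg2s_ratio (R₁ : ConstRed A π Fk₁ F) (R₂ : ConstRed A π Fk₂ F) {p : ℕ} (hp : p.Prime)
    {lam : K} (hlam0 : lam ≠ 0) (hlam : lam ∈ A.nonunits)
    (hplam : ∃ ε ∈ A, ((p : ℕ) : K) = -(lam ^ (p - 1)) * (1 + lam * ε)) (e : ℕ)
    (f f₁ : F) (hf₁ : f ∈ R₁.O) (hf₂ : f ∈ R₂.O) (hf₁₁ : f₁ ∈ R₁.O) (hf₁₂ : f₁ ∈ R₂.O)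
    (hred₁ : R₁.red ⟨f₁, hf₁₁⟩ = (e : Fk₁) * R₁.red ⟨f, hf₁⟩)
    (hred₂ : R₂.red ⟨f₁, hf₁₂⟩ = (e : Fk₂) * R₂.red ⟨f, hf₂⟩) :
    ∃ (a : A) (t : F), t ∈ R₁.O ∧ t ∈ R₂.O ∧
      A.valuation ((a : K) ^ (p - 1)) < A.valuation (((p : ℕ) : K) ^ p) ∧
      1 + algebraMap K F (lam ^ p) * f₁
        = (1 + algebraMap K F (lam ^ p) * f) ^ e * (1 + algebraMap K F (a : K) * t) := by
  have hlamA : lam ∈ A := A.nonunits_le hlam
  have hlp : ((⟨lam, hlamA⟩ ^ p : A) : K) ∈ A.nonunits := by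
    rw [A.mem_nonunits_iff]
    push_cast
    rw [map_pow]
    exact pow_lt_one₀ zero_le ((A.mem_nonunits_iff).mp hlam) hp.ne_zero
  obtain ⟨b₁, t₁, hb₁, h1⟩ :=
    rg2_ratio_gen R₁ (⟨lam, hlamA⟩ ^ p : A) hlp e ⟨f, hf₁⟩ ⟨f₁, hf₁₁⟩ hred₁
  obtain ⟨b₂, t₂, hb₂, h2⟩ :=
    rg2_ratio_gen R₂ (⟨lam, hlamA⟩ ^ p : A) hlp e ⟨f, hf₂⟩ ⟨f₁, hf₁₂⟩ hred₂
  have hl : algebraMap K F (lam ^ p) ≠ 0 :=
    (map_ne_zero (algebraMap K F)).mpr (pow_ne_zero _ hlam0)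
  -- `w₀ = (1 + lam ^ p f) ^ e ≠ 0`
  have hw0 : (1 + algebraMap K F (lam ^ p) * f) ^ e ≠ 0 := by
    apply pow_ne_zero
    intro h0
    have h3 : R₁.red (1 + ⟨algebraMap K F ((⟨lam, hlamA⟩ ^ p : A) : K),
        R₁.algebraMap_mem _⟩ * ⟨f, hf₁⟩) = 0 := by
      have : (1 + ⟨algebraMap K F ((⟨lam, hlamA⟩ ^ p : A) : K),
          R₁.algebraMap_mem _⟩ * ⟨f, hf₁⟩ : R₁.O) = 0 := by
        apply Subtype.ext
        simpa using h0
      rw [this, map_zero]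
    rw [map_add, map_one, map_mul, R₁.red_algebraMap, (R₁.π_eq_zero_iff _).mpr hlp, map_zero,
      zero_mul, add_zero] at h3
    exact one_ne_zero h3
  have hcoe : (((⟨lam, hlamA⟩ ^ p : A) : A) : K) = lam ^ p := by simp
  rw [hcoe] at h1 h2
  have hbt : algebraMap K F (b₁ : K) * (t₁ : F) = algebraMap K F (b₂ : K) * (t₂ : F) := by
    have h3 := h1.symm.trans h2
    have h4 := mul_left_cancel₀ hw0 h3
    have h5 := add_left_cancel h4
    rw [map_mul, map_mul, mul_assoc, mul_assoc] at h5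
    exact mul_left_cancel₀ hl h5
  obtain ⟨b, t, hb, ht₁, ht₂, hbt'⟩ := rg2s_merge R₁ R₂ b₁ b₂ hb₁ hb₂ t₁ t₂ hbt
  refine ⟨(⟨lam, hlamA⟩ ^ p : A) * b, t, ht₁, ht₂, ?_, ?_⟩
  · have := rg2_val_lt hp hlam0 hlam hplam hb
    simpa using this
  · have e3 : algebraMap K F (((⟨lam, hlamA⟩ ^ p : A) * b : A) : K) * t
        = algebraMap K F (lam ^ p * (b₁ : K)) * (t₁ : F) := by
      have e4 : (((⟨lam, hlamA⟩ ^ p : A) * b : A) : K) = lam ^ p * (b : K) := by simp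
      rw [e4, map_mul, map_mul, mul_assoc, mul_assoc, hbt']
    rw [e3]
    exact h1

section Divisors

variable [RRBase K F]

/-- **regime II for a pair**: with crux III for the pair (`hcrux`) an element `g`, inertial for
both reductions, with `g ζ = ζ ^ e`, acts by `e` on the classes with a Kummer function of level
`≥ v*` for the sup-norm. -/
theorem rg2s_tau_principal (R₁ : ConstRed A π Fk₁ F) (R₂ : ConstRed A π Fk₂ F) {p : ℕ}
    (hp : p.Prime) {lam : K} (hlam0 : lam ≠ 0) (hlam : lam ∈ A.nonunits)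
    (hplam : ∃ ε ∈ A, ((p : ℕ) : K) = -(lam ^ (p - 1)) * (1 + lam * ε))
    (hcrux : ∀ a : A, A.valuation ((a : K) ^ (p - 1)) < A.valuation (((p : ℕ) : K) ^ p) →
      ∀ t : F, t ∈ R₁.O → t ∈ R₂.O → ∀ E : Divisor K F,
        p • E = divOf (K := K) (1 + algebraMap K F (a : K) * t) →
        E ∈ Divisor.principal (K := K) (F := F))
    {g : SemilinearAut K F} (hg₁ : IsInertial R₁ g) (hg₂ : IsInertial R₂ g) (e : ℕ)
    (he : SemilinearAut.baseAut g (1 + lam) = (1 + lam) ^ e)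
    (c : K) (hc : c ≠ 0) (s : F) (hs : s ≠ 0) (f : F) (hf₁ : f ∈ R₁.O) (hf₂ : f ∈ R₂.O)
    (E : Divisor K F)
    (hE : p • E = divOf (K := K)
      (algebraMap K F c * s ^ p * (1 + algebraMap K F (lam ^ p) * f))) :
    g • E - e • E ∈ Divisor.principal (K := K) (F := F) := by
  have hpk : ((p : ℕ) : k) = 0 := rg2_pi_p R₁ hp hlam hplam
  obtain ⟨f', hf'₁, hf'₂, hgf, hred₁, hred₂⟩ :=
    rg2s_inertia R₁ R₂ hp hlam0 hlam hpk hg₁ hg₂ e he f hf₁ hf₂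
  obtain ⟨a, t, ht₁, ht₂, hat, hrat⟩ :=
    rg2s_ratio R₁ R₂ hp hlam0 hlam hplam e f f' hf₁ hf₂ hf'₁ hf'₂ hred₁ hred₂
  -- now the single-reduction theorem applies verbatim, with the crux restricted to `t ∈ O₁ ∩ O₂`:
  -- we redo the divisor computation
  set w : F := 1 + algebraMap K F (lam ^ p) * f with hw
  set w' : F := 1 + algebraMap K F (lam ^ p) * f' with hw'
  set z : F := 1 + algebraMap K F (a : K) * t with hz
  have hlamA : lam ∈ A := A.nonunits_le hlam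
  have hlpA : lam ^ p ∈ A := pow_mem hlamA p
  have hwne : w ≠ 0 := by
    intro h0
    set aA : A := ⟨lam ^ p, hlpA⟩ with haA
    have h1 : R₁.red (1 + ⟨algebraMap K F (aA : K), R₁.algebraMap_mem aA⟩ * ⟨f, hf₁⟩) = 0 := by
      have : (1 + ⟨algebraMap K F (aA : K), R₁.algebraMap_mem aA⟩ * ⟨f, hf₁⟩ : R₁.O) = 0 :=
        Subtype.ext h0
      rw [this, map_zero]
    rw [map_add, map_one, map_mul, R₁.red_algebraMap] at h1
    have h2 : π aA = 0 := by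
      rw [R₁.π_eq_zero_iff, A.mem_nonunits_iff]
      show A.valuation (lam ^ p) < 1
      rw [map_pow]
      exact pow_lt_one₀ zero_le ((A.mem_nonunits_iff).mp hlam) hp.ne_zero
    rw [h2, map_zero, zero_mul, add_zero] at h1
    exact one_ne_zero h1
  have hw'ne : w' ≠ 0 := by
    rw [← hgf]
    exact (smul_ne_zero_iff_ne g).mpr hwne
  have hzne : z ≠ 0 := by
    intro h0
    rw [hrat, h0, mul_zero] at hw'ne
    exact hw'ne rfl
  have hcF : algebraMap K F c ≠ 0 := (map_ne_zero (algebraMap K F)).mpr hc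
  have hgs : g • s ≠ 0 := (smul_ne_zero_iff_ne g).mpr hs
  have hgc : algebraMap K F (SemilinearAut.baseAut g c) ≠ 0 :=
    (map_ne_zero (algebraMap K F)).mpr (IsInertial.base_ne_zero g hc)
  have h1 : p • E = p • divOf (K := K) s + divOf (K := K) w := by
    rw [hE, cxa_divOf_mul (mul_ne_zero hcF (pow_ne_zero _ hs)) hwne,
      cxa_divOf_mul hcF (pow_ne_zero _ hs), cxa_divOf_const, zero_add, cxa_divOf_pow]
  have h2 : p • (g • E)
      = p • divOf (K := K) (g • s) + (e • divOf (K := K) w + divOf (K := K) z) := by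
    have h3 : g • (p • E) = divOf (K := K) (g • (algebraMap K F c * s ^ p * w)) := by
      rw [hE, rg2_divOf_smul]
    rw [smul_comm] at h3
    rw [h3, smul_mul', smul_mul', smul_pow', SemilinearAut.smul_algebraMap, hgf,
      cxa_divOf_mul (mul_ne_zero hgc (pow_ne_zero _ hgs)) hw'ne,
      cxa_divOf_mul hgc (pow_ne_zero _ hgs), cxa_divOf_const, zero_add, cxa_divOf_pow, hrat,
      cxa_divOf_mul (pow_ne_zero _ hwne) hzne, cxa_divOf_pow]
  have h4 : p • (g • E - e • E - (divOf (K := K) (g • s) - e • divOf (K := K) s))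
      = divOf (K := K) z := by
    rw [smul_sub, smul_sub, smul_sub, h2, smul_comm p e E, h1, smul_comm p e (divOf (K := K) s),
      smul_add]
    abel
  have h5 := hcrux a hat t ht₁ ht₂ _ h4
  have h6 : divOf (K := K) (g • s) - e • divOf (K := K) s
      ∈ Divisor.principal (K := K) (F := F) :=
    sub_mem (rg2_divOf_mem_principal hgs) (nsmul_mem (rg2_divOf_mem_principal hs) e)
  have h7 := add_mem h5 h6
  rwa [sub_add_cancel] at h7

/-- **regime II for a pair, in `Pic⁰`**: `g • x = e • x`. -/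
theorem rg2s_tau_pic0 (R₁ : ConstRed A π Fk₁ F) (R₂ : ConstRed A π Fk₂ F) {p : ℕ}
    (hp : p.Prime) {lam : K} (hlam0 : lam ≠ 0) (hlam : lam ∈ A.nonunits)
    (hplam : ∃ ε ∈ A, ((p : ℕ) : K) = -(lam ^ (p - 1)) * (1 + lam * ε))
    (hcrux : ∀ a : A, A.valuation ((a : K) ^ (p - 1)) < A.valuation (((p : ℕ) : K) ^ p) →
      ∀ t : F, t ∈ R₁.O → t ∈ R₂.O → ∀ E : Divisor K F,
        p • E = divOf (K := K) (1 + algebraMap K F (a : K) * t) →
        E ∈ Divisor.principal (K := K) (F := F))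
    {g : SemilinearAut K F} (hg₁ : IsInertial R₁ g) (hg₂ : IsInertial R₂ g) (e : ℕ)
    (he : SemilinearAut.baseAut g (1 + lam) = (1 + lam) ^ e)
    (c : K) (hc : c ≠ 0) (s : F) (hs : s ≠ 0) (f : F) (hf₁ : f ∈ R₁.O) (hf₂ : f ∈ R₂.O)
    (D : Divisor.degZero (K := K) (F := F))
    (hD : p • (D : Divisor K F) = divOf (K := K)
      (algebraMap K F c * s ^ p * (1 + algebraMap K F (lam ^ p) * f))) :
    g • Pic0.mk D = e • Pic0.mk D := by
  have h := rg2s_tau_principal R₁ R₂ hp hlam0 hlam hplam hcrux hg₁ hg₂ e he c hc s hs f hf₁ hf₂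
    (D : Divisor K F) hD
  rw [SemilinearAut.pic0_smul_mk]
  have h2 : e • Pic0.mk D = Pic0.mk (e • D) := rfl
  rw [h2]
  apply (QuotientAddGroup.eq_iff_sub_mem).mpr
  rw [AddSubgroup.mem_addSubgroupOf]
  simpa using h

end Divisors

end Fermat.Agent.S33lib

end
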