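/-
Item 86 (S33), REGIME II inside a GLUED family (helper28), for the level `N = N'p`
(two Gauss valuations `R₁`, `R₂`; checker's warnings W1/W3, NOTES/S33_check2_helper27.md §C).

`B₀` is a `K`-subalgebra of `F` (in the application: the functions with poles only at the two
cusps), stable under `g`; the glued family is `B = B₀ ∩ O₁ ∩ O₂`.  NO DIVISION is used: the class
`g • x − e • x = g • x + (p − 1) e • x` is represented by `g(u) · u ^ ((p − 1) e) ∈ B`.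

* `rg2b_kummer` : `u = c · s ^ p · (1 + lam ^ p f)`, `f ∈ B`, `g` inertial for `R₁` and `R₂`,
  `g ζ = ζ ^ e`, `p ∣ e + m`  ⇒  `g(u) · u ^ m = c' · s' ^ p · (1 + a t)` with `t ∈ B` and
  `v(a ^ (p−1)) < v(p ^ p)` (level `> v*`);
* `rg2b_tau_principal`, `rg2b_tau_pic0` : with the crux III of the glued family as a hypothesis
  (`hcrux`, only for functions `1 + a t`, `t ∈ B`), `p • E = div u` ⇒ `g • E − e • E` principal,
  `g • x = e • x`.
The one-valuation case is `R₂ := R₁`, `B₀ := ⊤`.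
No sorry in this file.
-/
import Mathlib
import Fermat.Agent.S33lib.RegimeTwoSS

set_option autoImplicit false

noncomputable section

namespace Fermat.Agent.S33lib

open AlgebraicCurve Fermat.Agent.RRlib Fermat.Agent.GoodRed Fermat.Agent.S34lib
  Fermat.Agent.S18lib

variable {K F k Fk₁ Fk₂ : Type*} [Field K] [Field F] [Algebra K F] [Field k]
  [Field Fk₁] [Algebra k Fk₁] [Field Fk₂] [Algebra k Fk₂]
variable {A : ValuationSubring K} {π : A →+* k}

/-- an element of `B₀ ∩ O₁ ∩ O₂` with both reductions `0` is `b t`, `b ∈ 𝔪_A`,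
`t ∈ B₀ ∩ O₁ ∩ O₂` -/
theorem rg2b_exists_smul (R₁ : ConstRed A π Fk₁ F) (R₂ : ConstRed A π Fk₂ F)
    (B₀ : Subalgebra K F) (y : F) (hyB : y ∈ B₀) (hy₁ : y ∈ R₁.O) (hy₂ : y ∈ R₂.O)
    (hred₁ : R₁.red ⟨y, hy₁⟩ = 0) (hred₂ : R₂.red ⟨y, hy₂⟩ = 0) :
    ∃ (b : A) (t : F), (b : K) ∈ A.nonunits ∧ t ∈ B₀ ∧ t ∈ R₁.O ∧ t ∈ R₂.O ∧
      y = algebraMap K F (b : K) * t := by
  obtain ⟨b₁, t₁, hb₁, h1⟩ := rg2_exists_smul_of_red_eq_zero R₁ ⟨y, hy₁⟩ hred₁
  obtain ⟨b₂, t₂, hb₂, h2⟩ := rg2_exists_smul_of_red_eq_zero R₂ ⟨y, hy₂⟩ hred₂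
  have h1' : y = algebraMap K F (b₁ : K) * (t₁ : F) := h1
  have h2' : y = algebraMap K F (b₂ : K) * (t₂ : F) := h2
  obtain ⟨b, t, hb, ht₁, ht₂, hbt⟩ := rg2s_merge R₁ R₂ b₁ b₂ hb₁ hb₂ t₁ t₂ (h1'.symm.trans h2')
  rcases eq_or_ne (b : K) 0 with h0 | h0
  · refine ⟨0, 0, by simp, B₀.zero_mem, R₁.O.zero_mem, R₂.O.zero_mem, ?_⟩
    rw [h1', ← hbt, h0]
    simp
  · refine ⟨b, t, hb, ?_, ht₁, ht₂, by rw [hbt, ← h1']⟩
    have e1 : t = (b : K)⁻¹ • y := by
      rw [h1', ← hbt, Algebra.smul_def, ← mul_assoc, ← map_mul, inv_mul_cancel₀ h0, map_one,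
        one_mul]
    rw [e1]
    exact B₀.smul_mem hyB _

/-- the reduction of `y = c (g f) + m f + a z` vanishes if `π c = e`, `e + m = 0` in `k`,
`π a = 0` and `g` is inertial -/
theorem rg2b_red_zero {Fk : Type*} [Field Fk] [Algebra k Fk] (R : ConstRed A π Fk F)
    {g : SemilinearAut K F} (hg : IsInertial R g) (cA aA : A) (hπa : π aA = 0) (e m : ℕ)
    (hπc : π cA = (e : k)) (hem : ((e : ℕ) : k) + (m : k) = 0)
    (f : F) (hf : f ∈ R.O) (z : F) (hz : z ∈ R.O) (y : F)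
    (hy : y = algebraMap K F (cA : K) * (g • f) + (m : F) * f + algebraMap K F (aA : K) * z)
    (hyR : y ∈ R.O) : R.red ⟨y, hyR⟩ = 0 := by
  have e1 : (⟨y, hyR⟩ : R.O)
      = ⟨algebraMap K F (cA : K), R.algebraMap_mem cA⟩ * ⟨g • f, hg.smul_mem hf⟩
        + (m : R.O) * ⟨f, hf⟩
        + ⟨algebraMap K F (aA : K), R.algebraMap_mem aA⟩ * ⟨z, hz⟩ := by
    apply Subtype.ext
    simp [hy]
  rw [e1, map_add, map_add, map_mul, map_mul, map_mul, R.red_algebraMap, R.red_algebraMap,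
    hg.red_smul hf, hπa, hπc, map_zero, zero_mul, add_zero, map_natCast, map_natCast,
    ← add_mul, ← map_natCast (algebraMap k Fk) e, ← map_natCast (algebraMap k Fk) m,
    ← map_add, hem, map_zero, zero_mul]

/-- **regime II in a glued family, Kummer functions** (no division) -/
theorem rg2b_kummer (R₁ : ConstRed A π Fk₁ F) (R₂ : ConstRed A π Fk₂ F) {p : ℕ} (hp : p.Prime)
    {lam : K} (hlam0 : lam ≠ 0) (hlam : lam ∈ A.nonunits)
    (hplam : ∃ ε ∈ A, ((p : ℕ) : K) = -(lam ^ (p - 1)) * (1 + lam * ε))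
    (B₀ : Subalgebra K F) {g : SemilinearAut K F} (hB₀g : ∀ x ∈ B₀, g • x ∈ B₀)
    (hg₁ : IsInertial R₁ g) (hg₂ : IsInertial R₂ g) (e : ℕ)
    (he : SemilinearAut.baseAut g (1 + lam) = (1 + lam) ^ e) (m : ℕ) (hm : p ∣ e + m)
    (f : F) (hfB : f ∈ B₀) (hf₁ : f ∈ R₁.O) (hf₂ : f ∈ R₂.O) :
    ∃ (a : A) (t : F), t ∈ B₀ ∧ t ∈ R₁.O ∧ t ∈ R₂.O ∧
      A.valuation ((a : K) ^ (p - 1)) < A.valuation (((p : ℕ) : K) ^ p) ∧
      g • (1 + algebraMap K F (lam ^ p) * f) * (1 + algebraMap K F (lam ^ p) * f) ^ m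
        = 1 + algebraMap K F (a : K) * t := by
  have hpk : ((p : ℕ) : k) = 0 := rg2_pi_p R₁ hp hlam hplam
  have hlamA : lam ∈ A := A.nonunits_le hlam
  obtain ⟨d, hd, hgl⟩ := rg2_base_lam (A := A) g hlamA e he
  -- the constant `c = (e + lam d) ^ p`, `π c = e`
  set cA : A := ((e : A) + ⟨lam, hlamA⟩ * ⟨d, hd⟩) ^ p with hcA
  have hcK : (cA : K) = ((e : K) + lam * d) ^ p := by
    rw [hcA]
    push_cast
    rfl
  have hπl : π ⟨lam, hlamA⟩ = 0 := (R₁.π_eq_zero_iff ⟨lam, hlamA⟩).mpr hlam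
  have hπc : π cA = (e : k) := by
    rw [hcA, map_pow, map_add, map_mul, hπl, zero_mul, add_zero, map_natCast]
    exact rg2_natCast_pow hp hpk e
  set aA : A := ⟨lam, hlamA⟩ ^ p with haA
  have haK : (aA : K) = lam ^ p := by simp [haA]
  have hπa : π aA = 0 := by rw [haA, map_pow, hπl, zero_pow hp.ne_zero]
  -- the subring `B = B₀ ∩ O₁ ∩ O₂`
  set B : Subring F := B₀.toSubring ⊓ R₁.O.toSubring ⊓ R₂.O.toSubring with hB
  have hBmem : ∀ x : F, x ∈ B ↔ (x ∈ B₀ ∧ x ∈ R₁.O) ∧ x ∈ R₂.O := by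
    intro x
    rw [hB, Subring.mem_inf, Subring.mem_inf]
    rfl
  have hBalg : ∀ a : A, algebraMap K F (a : K) ∈ B := fun a =>
    (hBmem _).mpr ⟨⟨B₀.algebraMap_mem _, R₁.algebraMap_mem a⟩, R₂.algebraMap_mem a⟩
  have hfBB : f ∈ B := (hBmem _).mpr ⟨⟨hfB, hf₁⟩, hf₂⟩
  have hgfB : g • f ∈ B :=
    (hBmem _).mpr ⟨⟨hB₀g f hfB, hg₁.smul_mem hf₁⟩, hg₂.smul_mem hf₂⟩
  -- binomial expansion in `B`
  obtain ⟨δ, hδ⟩ := rg2_binom ((⟨algebraMap K F (aA : K), hBalg aA⟩ : B) * ⟨f, hfBB⟩) m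
  have hδF : (1 + algebraMap K F (lam ^ p) * f) ^ m
      = 1 + (m : F) * (algebraMap K F (lam ^ p) * f)
        + (algebraMap K F (lam ^ p) * f) ^ 2 * (δ : F) := by
    have := congrArg (fun x : B => (x : F)) hδ
    simpa [haK] using this
  -- `g (1 + a f) = 1 + a f'`, `f' = c (g f)`
  set f' : F := algebraMap K F (cA : K) * (g • f) with hf'
  have hf'B : f' ∈ B := B.mul_mem (hBalg cA) hgfB
  have hgw : g • (1 + algebraMap K F (lam ^ p) * f) = 1 + algebraMap K F (lam ^ p) * f' := by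
    rw [smul_add, smul_one, smul_mul', SemilinearAut.smul_algebraMap, map_pow, hgl, hf', hcK,
      ← mul_assoc, ← map_mul, mul_pow]
  -- the element `y`
  set y : F := f' + (m : F) * f + algebraMap K F (lam ^ p)
      * (f ^ 2 * (δ : F) + f' * ((m : F) * f + algebraMap K F (lam ^ p) * f ^ 2 * (δ : F)))
    with hy
  have hmB : (m : F) ∈ B := natCast_mem B m
  have hlB : algebraMap K F (lam ^ p) ∈ B := haK ▸ hBalg aA
  have hyB : y ∈ B := by
    rw [hy]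
    refine B.add_mem (B.add_mem hf'B (B.mul_mem hmB hfBB)) (B.mul_mem hlB ?_)
    refine B.add_mem (B.mul_mem (B.pow_mem hfBB 2) δ.2) (B.mul_mem hf'B ?_)
    exact B.add_mem (B.mul_mem hmB hfBB) (B.mul_mem (B.mul_mem hlB (B.pow_mem hfBB 2)) δ.2)
  have hprod : g • (1 + algebraMap K F (lam ^ p) * f) * (1 + algebraMap K F (lam ^ p) * f) ^ m
      = 1 + algebraMap K F (lam ^ p) * y := by
    rw [hgw, hδF, hy]
    ring
  obtain ⟨⟨hyB₀, hy₁⟩, hy₂⟩ := (hBmem y).mp hyB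
  -- the reductions of `y` vanish
  have hem : ((e : ℕ) : k) + (m : k) = 0 := by
    obtain ⟨q, hq⟩ := hm
    have : ((e + m : ℕ) : k) = 0 := by rw [hq, Nat.cast_mul, hpk, zero_mul]
    simpa using this
  set z : F := f ^ 2 * (δ : F) + f' * ((m : F) * f + algebraMap K F (lam ^ p) * f ^ 2 * (δ : F))
    with hz
  have hzB : z ∈ B :=
    B.add_mem (B.mul_mem (B.pow_mem hfBB 2) δ.2) (B.mul_mem hf'B
      (B.add_mem (B.mul_mem hmB hfBB) (B.mul_mem (B.mul_mem hlB (B.pow_mem hfBB 2)) δ.2)))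
  have hyz : y = algebraMap K F (cA : K) * (g • f) + (m : F) * f
      + algebraMap K F (aA : K) * z := by
    rw [hy, haK]
  have hBR₁ : ∀ x ∈ B, x ∈ R₁.O := fun x hx => ((hBmem x).mp hx).1.2
  have hBR₂ : ∀ x ∈ B, x ∈ R₂.O := fun x hx => ((hBmem x).mp hx).2
  have hred₁ : R₁.red ⟨y, hy₁⟩ = 0 :=
    rg2b_red_zero R₁ hg₁ cA aA hπa e m hπc hem f hf₁ z (hBR₁ z hzB) y hyz hy₁
  have hred₂ : R₂.red ⟨y, hy₂⟩ = 0 :=
    rg2b_red_zero R₂ hg₂ cA aA hπa e m hπc hem f hf₂ z (hBR₂ z hzB) y hyz hy₂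
  obtain ⟨b, t, hb, htB, ht₁, ht₂, hyt⟩ := rg2b_exists_smul R₁ R₂ B₀ y hyB₀ hy₁ hy₂ hred₁ hred₂
  refine ⟨aA * b, t, htB, ht₁, ht₂, ?_, ?_⟩
  · have := rg2_val_lt hp hlam0 hlam hplam hb
    simpa [haA] using this
  · rw [hprod, hyt]
    have : ((aA * b : A) : K) = lam ^ p * (b : K) := by simp [haA]
    rw [this, map_mul, mul_assoc]

section Divisors

variable [RRBase K F]

/-- **regime II in a glued family**: with crux III for the glued family (`hcrux`) an element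
`g`, inertial for both reductions, with `g ζ = ζ ^ e`, acts by `e` on the classes with a Kummer
function `c · s ^ p · (1 + lam ^ p f)`, `f ∈ B₀ ∩ O₁ ∩ O₂`. -/
theorem rg2b_tau_principal (R₁ : ConstRed A π Fk₁ F) (R₂ : ConstRed A π Fk₂ F) {p : ℕ}
    (hp : p.Prime) {lam : K} (hlam0 : lam ≠ 0) (hlam : lam ∈ A.nonunits)
    (hplam : ∃ ε ∈ A, ((p : ℕ) : K) = -(lam ^ (p - 1)) * (1 + lam * ε))
    (B₀ : Subalgebra K F) {g : SemilinearAut K F} (hB₀g : ∀ x ∈ B₀, g • x ∈ B₀)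
    (hcrux : ∀ a : A, A.valuation ((a : K) ^ (p - 1)) < A.valuation (((p : ℕ) : K) ^ p) →
      ∀ t : F, t ∈ B₀ → t ∈ R₁.O → t ∈ R₂.O → ∀ E : Divisor K F,
        p • E = divOf (K := K) (1 + algebraMap K F (a : K) * t) →
        E ∈ Divisor.principal (K := K) (F := F))
    (hg₁ : IsInertial R₁ g) (hg₂ : IsInertial R₂ g) (e : ℕ)
    (he : SemilinearAut.baseAut g (1 + lam) = (1 + lam) ^ e)
    (c : K) (hc : c ≠ 0) (s : F) (hs : s ≠ 0)
    (f : F) (hfB : f ∈ B₀) (hf₁ : f ∈ R₁.O) (hf₂ : f ∈ R₂.O) (E : Divisor K F)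
    (hE : p • E = divOf (K := K)
      (algebraMap K F c * s ^ p * (1 + algebraMap K F (lam ^ p) * f))) :
    g • E - e • E ∈ Divisor.principal (K := K) (F := F) := by
  have hp1 : 1 ≤ p := hp.one_le
  have hm : p ∣ e + (p - 1) * e := by
    refine ⟨e, ?_⟩
    have : e + (p - 1) * e = (p - 1 + 1) * e := by ring
    rw [this, Nat.sub_add_cancel hp1]
  have hpe : e + (p - 1) * e = e * p := by
    have : e + (p - 1) * e = (p - 1 + 1) * e := by ring
    rw [this, Nat.sub_add_cancel hp1, mul_comm]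
  obtain ⟨a, t, htB, ht₁, ht₂, hat, hprod⟩ :=
    rg2b_kummer R₁ R₂ hp hlam0 hlam hplam B₀ hB₀g hg₁ hg₂ e he ((p - 1) * e) hm f hfB hf₁ hf₂
  set m : ℕ := (p - 1) * e with hmdef
  set w : F := 1 + algebraMap K F (lam ^ p) * f with hw
  set z : F := 1 + algebraMap K F (a : K) * t with hz
  have hlamA : lam ∈ A := A.nonunits_le hlam
  have hlpA : lam ^ p ∈ A := pow_mem hlamA p
  have hwne : w ≠ 0 := by
    intro h0
    set aA : A := ⟨lam ^ p, hlpA⟩ with haA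
    have h1 : R₁.red (1 + ⟨algebraMap K F (aA : K), R₁.algebraMap_mem aA⟩ * ⟨f, hf₁⟩) = 0 := by
      have : (1 + ⟨algebraMap K F (aA : K), R₁.algebraMap_mem aA⟩ * ⟨f, hf₁⟩ : R₁.O) = 0 :=
        Subtype.ext h0
      rw [this, map_zero]
    rw [map_add, map_one, map_mul, R₁.red_algebraMap] at h1
    have h2 : π aA = 0 := by
      rw [R₁.π_eq_zero_iff, A.mem_nonunits_iff]
      show A.valuation (lam ^ p) < 1
      rw [map_pow]
      exact pow_lt_one₀ zero_le ((A.mem_nonunits_iff).mp hlam) hp.ne_zero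
    rw [h2, map_zero, zero_mul, add_zero] at h1
    exact one_ne_zero h1
  have hgwne : g • w ≠ 0 := (smul_ne_zero_iff_ne g).mpr hwne
  have hcF : algebraMap K F c ≠ 0 := (map_ne_zero (algebraMap K F)).mpr hc
  have hgs : g • s ≠ 0 := (smul_ne_zero_iff_ne g).mpr hs
  have hgc : algebraMap K F (SemilinearAut.baseAut g c) ≠ 0 :=
    (map_ne_zero (algebraMap K F)).mpr (IsInertial.base_ne_zero g hc)
  have hu : algebraMap K F c * s ^ p * w ≠ 0 :=
    mul_ne_zero (mul_ne_zero hcF (pow_ne_zero _ hs)) hwne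
  have h1 : p • E = p • divOf (K := K) s + divOf (K := K) w := by
    rw [hE, cxa_divOf_mul (mul_ne_zero hcF (pow_ne_zero _ hs)) hwne,
      cxa_divOf_mul hcF (pow_ne_zero _ hs), cxa_divOf_const, zero_add, cxa_divOf_pow]
  have h2 : p • (g • E) = p • divOf (K := K) (g • s) + divOf (K := K) (g • w) := by
    have h3 : g • (p • E) = divOf (K := K) (g • (algebraMap K F c * s ^ p * w)) := by
      rw [hE, rg2_divOf_smul]
    rw [smul_comm] at h3
    rw [h3, smul_mul', smul_mul', smul_pow', SemilinearAut.smul_algebraMap,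
      cxa_divOf_mul (mul_ne_zero hgc (pow_ne_zero _ hgs)) hgwne,
      cxa_divOf_mul hgc (pow_ne_zero _ hgs), cxa_divOf_const, zero_add, cxa_divOf_pow]
  have h3 : divOf (K := K) z = divOf (K := K) (g • w) + m • divOf (K := K) w := by
    rw [← hprod, cxa_divOf_mul hgwne (pow_ne_zero _ hwne), cxa_divOf_pow]
  have key : ∀ (X gX S gS W gW Z : Divisor K F), p • X = p • S + W → p • gX = p • gS + gW →
      Z = gW + m • W → p • (gX + m • X - (gS + m • S)) = Z := by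
    intro X gX S gS W gW Z k1 k2 k3
    rw [smul_sub, smul_add, smul_add, k2, smul_comm p m X, k1, smul_comm p m S, smul_add, k3]
    abel
  have h4 : p • (g • E + m • E - (divOf (K := K) (g • s) + m • divOf (K := K) s))
      = divOf (K := K) z := key _ _ _ _ _ _ _ h1 h2 h3
  have h5 := hcrux a hat t htB ht₁ ht₂ _ h4
  have h6 : divOf (K := K) (g • s) + m • divOf (K := K) s
      ∈ Divisor.principal (K := K) (F := F) :=
    add_mem (rg2_divOf_mem_principal hgs) (nsmul_mem (rg2_divOf_mem_principal hs) m)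
  have h7 : (e + m) • E ∈ Divisor.principal (K := K) (F := F) := by
    rw [hmdef, hpe, mul_smul, hE]
    exact nsmul_mem (rg2_divOf_mem_principal hu) e
  have h8 := sub_mem (add_mem h5 h6) h7
  have h9 : g • E + m • E - (divOf (K := K) (g • s) + m • divOf (K := K) s)
      + (divOf (K := K) (g • s) + m • divOf (K := K) s) - (e + m) • E = g • E - e • E := by
    rw [add_smul]
    abel
  rwa [h9] at h8

/-- **regime II in a glued family, in `Pic⁰`**: `g • x = e • x`. -/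
theorem rg2b_tau_pic0 (R₁ : ConstRed A π Fk₁ F) (R₂ : ConstRed A π Fk₂ F) {p : ℕ}
    (hp : p.Prime) {lam : K} (hlam0 : lam ≠ 0) (hlam : lam ∈ A.nonunits)
    (hplam : ∃ ε ∈ A, ((p : ℕ) : K) = -(lam ^ (p - 1)) * (1 + lam * ε))
    (B₀ : Subalgebra K F) {g : SemilinearAut K F} (hB₀g : ∀ x ∈ B₀, g • x ∈ B₀)
    (hcrux : ∀ a : A, A.valuation ((a : K) ^ (p - 1)) < A.valuation (((p : ℕ) : K) ^ p) →
      ∀ t : F, t ∈ B₀ → t ∈ R₁.O → t ∈ R₂.O → ∀ E : Divisor K F,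
        p • E = divOf (K := K) (1 + algebraMap K F (a : K) * t) →
        E ∈ Divisor.principal (K := K) (F := F))
    (hg₁ : IsInertial R₁ g) (hg₂ : IsInertial R₂ g) (e : ℕ)
    (he : SemilinearAut.baseAut g (1 + lam) = (1 + lam) ^ e)
    (c : K) (hc : c ≠ 0) (s : F) (hs : s ≠ 0)
    (f : F) (hfB : f ∈ B₀) (hf₁ : f ∈ R₁.O) (hf₂ : f ∈ R₂.O)
    (D : Divisor.degZero (K := K) (F := F))
    (hD : p • (D : Divisor K F) = divOf (K := K)
      (algebraMap K F c * s ^ p * (1 + algebraMap K F (lam ^ p) * f))) :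
    g • Pic0.mk D = e • Pic0.mk D := by
  have h := rg2b_tau_principal R₁ R₂ hp hlam0 hlam hplam B₀ hB₀g hcrux hg₁ hg₂ e he c hc s hs
    f hfB hf₁ hf₂ (D : Divisor K F) hD
  rw [SemilinearAut.pic0_smul_mk]
  have h2 : e • Pic0.mk D = Pic0.mk (e • D) := rfl
  rw [h2]
  apply (QuotientAddGroup.eq_iff_sub_mem).mpr
  rw [AddSubgroup.mem_addSubgroupOf]
  simpa using h

end Divisors

end Fermat.Agent.S33lib

end
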