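/-
Item 86 (S33), block TOR_p, REGIME II + III at the level `N = M' p` (helper28): the plug of
`rg2b_tau_pic0` (`S33lib/RegimeTwoGl.lean`) with (CRUX-SS) `cxi_principal`
(`S33lib/CruxPInst.lean`, helper8).

Setting of `S34lib/GlueInst.lean`: `R₁ R₂ : ConstRed A π Fk F` (the two components),
`X : GlueData R₁ R₂ P₁ P₂ Q`, `H : F3dEX …` (outputs of `S34lib/GlueMod.glueMod`), `P₁ ≠ P₂` the
two cusps, `B = cxiB P₁ P₂ ∩ O₁ ∩ O₂` the functions of the sup-norm ball regular off the cusps.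

* `rg2n_smul_mem` : `cxiB P₁ P₂` is stable under every `g` fixing `P₁` and `P₂`;
* `rg2n_tau_principal`, `rg2n_tau_pic0` : if `x = [D]`, `p D = div (c s^p (1 + lam^p f))`,
  `f ∈ B`, and `g` is inertial for `R₁` and `R₂`, fixes the cusps and `g ζ = ζ ^ e`
  (`ζ = 1 + lam`), then `g • x = e • x`.
No sorry in this file.
-/
import Mathlib
import Fermat.Agent.S33lib.RegimeTwoGl
import Fermat.Agent.S33lib.CruxPInst

set_option autoImplicit false

noncomputable section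

namespace Fermat.Agent.S33lib

open AlgebraicCurve Fermat.Agent.RRlib Fermat.Agent.GoodRed Fermat.Agent.S34lib
  Fermat.Agent.S18lib

variable {K F k Fk : Type*} [Field K] [Field F] [Algebra K F] [Field k] [Field Fk] [Algebra k Fk]
variable {A : ValuationSubring K} {π : A →+* k}

variable [RRHyp K F]

/-- the functions regular off `P₁`, `P₂` are stable under the semilinear automorphisms fixing
`P₁` and `P₂` -/
theorem rg2n_smul_mem {P₁ P₂ : Place K F} {g : SemilinearAut K F} (hg₁ : g • P₁ = P₁)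
    (hg₂ : g • P₂ = P₂) {x : F} (hx : x ∈ cxiB P₁ P₂) : g • x ∈ cxiB P₁ P₂ := by
  rw [mem_cxiB_iff_ord] at hx ⊢
  intro v hv₁ hv₂
  have h1 : g⁻¹ • v ≠ P₁ := by
    intro h
    apply hv₁
    rw [← hg₁, ← h, smul_inv_smul]
  have h2 : g⁻¹ • v ≠ P₂ := by
    intro h
    apply hv₂
    rw [← hg₂, ← h, smul_inv_smul]
  rcases hx (g⁻¹ • v) h1 h2 with h0 | h0
  · left
    rw [h0, smul_zero]
  · right
    have h3 := SemilinearAut.ord_smul g (g⁻¹ • v) x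
    rw [smul_inv_smul] at h3
    rw [h3]
    exact h0

variable [RRHyp k Fk]
variable {R₁ R₂ : ConstRed A π Fk F} {P₁ P₂ : Place K F} {Q : Place k Fk}

/-- **regime II + III at level `N`**: on the classes with a Kummer function
`c · s ^ p · (1 + lam ^ p f)`, `f ∈ O₁ ∩ O₂` regular off the cusps, an inertial `g` fixing the
cusps with `g ζ = ζ ^ e` acts by `e`. -/
theorem rg2n_tau_principal [Infinite k] (X : GlueData R₁ R₂ P₁ P₂ Q) {a₀ : ℕ}
    (H : F3dEX R₁ R₂ P₁ P₂ Q Q a₀) {p : ℕ} (hp : p.Prime) (hP : P₁ ≠ P₂) (hn : 0 < X.n)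
    (hk : ∀ (z : Fk) (β κ : k), z ^ p + algebraMap k Fk β * z = algebraMap k Fk κ →
      z ∈ Set.range (algebraMap k Fk))
    {lam : K} (hlam0 : lam ≠ 0) (hlam : lam ∈ A.nonunits)
    (hplam : ∃ ε ∈ A, ((p : ℕ) : K) = -(lam ^ (p - 1)) * (1 + lam * ε))
    {g : SemilinearAut K F} (hgP₁ : g • P₁ = P₁) (hgP₂ : g • P₂ = P₂)
    (hg₁ : IsInertial R₁ g) (hg₂ : IsInertial R₂ g) (e : ℕ)
    (he : SemilinearAut.baseAut g (1 + lam) = (1 + lam) ^ e)
    (c : K) (hc : c ≠ 0) (s : F) (hs : s ≠ 0)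
    (f : F) (hfB : f ∈ cxiB P₁ P₂) (hf₁ : f ∈ R₁.O) (hf₂ : f ∈ R₂.O) (E : Divisor K F)
    (hE : p • E = divOf (K := K)
      (algebraMap K F c * s ^ p * (1 + algebraMap K F (lam ^ p) * f))) :
    g • E - e • E ∈ Divisor.principal (K := K) (F := F) :=
  rg2b_tau_principal R₁ R₂ hp hlam0 hlam hplam (cxiB P₁ P₂)
    (fun _ hx => rg2n_smul_mem hgP₁ hgP₂ hx)
    (fun a ha t htB ht₁ ht₂ E' hE' =>
      cxi_principal X H hp (rg2_p_ne_zero hlam0 hlam hplam) (rg2_pi_p R₁ hp hlam hplam) hP hn hk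
        a ha t htB ht₁ ht₂ E' hE')
    hg₁ hg₂ e he c hc s hs f hfB hf₁ hf₂ E hE

/-- **regime II + III at level `N`, in `Pic⁰`**: `g • x = e • x`. -/
theorem rg2n_tau_pic0 [Infinite k] (X : GlueData R₁ R₂ P₁ P₂ Q) {a₀ : ℕ}
    (H : F3dEX R₁ R₂ P₁ P₂ Q Q a₀) {p : ℕ} (hp : p.Prime) (hP : P₁ ≠ P₂) (hn : 0 < X.n)
    (hk : ∀ (z : Fk) (β κ : k), z ^ p + algebraMap k Fk β * z = algebraMap k Fk κ →
      z ∈ Set.range (algebraMap k Fk))
    {lam : K} (hlam0 : lam ≠ 0) (hlam : lam ∈ A.nonunits)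
    (hplam : ∃ ε ∈ A, ((p : ℕ) : K) = -(lam ^ (p - 1)) * (1 + lam * ε))
    {g : SemilinearAut K F} (hgP₁ : g • P₁ = P₁) (hgP₂ : g • P₂ = P₂)
    (hg₁ : IsInertial R₁ g) (hg₂ : IsInertial R₂ g) (e : ℕ)
    (he : SemilinearAut.baseAut g (1 + lam) = (1 + lam) ^ e)
    (c : K) (hc : c ≠ 0) (s : F) (hs : s ≠ 0)
    (f : F) (hfB : f ∈ cxiB P₁ P₂) (hf₁ : f ∈ R₁.O) (hf₂ : f ∈ R₂.O)
    (D : Divisor.degZero (K := K) (F := F))
    (hD : p • (D : Divisor K F) = divOf (K := K)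
      (algebraMap K F c * s ^ p * (1 + algebraMap K F (lam ^ p) * f))) :
    g • Pic0.mk D = e • Pic0.mk D :=
  rg2b_tau_pic0 R₁ R₂ hp hlam0 hlam hplam (cxiB P₁ P₂)
    (fun _ hx => rg2n_smul_mem hgP₁ hgP₂ hx)
    (fun a ha t htB ht₁ ht₂ E' hE' =>
      cxi_principal X H hp (rg2_p_ne_zero hlam0 hlam hplam) (rg2_pi_p R₁ hp hlam hplam) hP hn hk
        a ha t htB ht₁ ht₂ E' hE')
    hg₁ hg₂ e he c hc s hs f hfB hf₁ hf₂ D hD

/-- **consequence (the end of TOR_p)**: if moreover `g • x = x` and `e ≢ 1 mod p`, then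
`x = 0`. -/
theorem rg2n_eq_zero [Infinite k] (X : GlueData R₁ R₂ P₁ P₂ Q) {a₀ : ℕ}
    (H : F3dEX R₁ R₂ P₁ P₂ Q Q a₀) {p : ℕ} (hp : p.Prime) (hP : P₁ ≠ P₂) (hn : 0 < X.n)
    (hk : ∀ (z : Fk) (β κ : k), z ^ p + algebraMap k Fk β * z = algebraMap k Fk κ →
      z ∈ Set.range (algebraMap k Fk))
    {lam : K} (hlam0 : lam ≠ 0) (hlam : lam ∈ A.nonunits)
    (hplam : ∃ ε ∈ A, ((p : ℕ) : K) = -(lam ^ (p - 1)) * (1 + lam * ε))
    {g : SemilinearAut K F} (hgP₁ : g • P₁ = P₁) (hgP₂ : g • P₂ = P₂)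
    (hg₁ : IsInertial R₁ g) (hg₂ : IsInertial R₂ g) (e : ℕ)
    (he : SemilinearAut.baseAut g (1 + lam) = (1 + lam) ^ e) (he1 : ¬ (e : ℤ) ≡ 1 [ZMOD p])
    (c : K) (hc : c ≠ 0) (s : F) (hs : s ≠ 0)
    (f : F) (hfB : f ∈ cxiB P₁ P₂) (hf₁ : f ∈ R₁.O) (hf₂ : f ∈ R₂.O)
    (D : Divisor.degZero (K := K) (F := F))
    (hD : p • (D : Divisor K F) = divOf (K := K)
      (algebraMap K F c * s ^ p * (1 + algebraMap K F (lam ^ p) * f)))
    (hfix : g • Pic0.mk D = Pic0.mk D) : Pic0.mk D = 0 := by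
  have h1 := rg2n_tau_pic0 X H hp hP hn hk hlam0 hlam hplam hgP₁ hgP₂ hg₁ hg₂ e he c hc s hs
    f hfB hf₁ hf₂ D hD
  rw [hfix] at h1
  -- `p • x = 0`
  have hprin : p • (D : Divisor K F) ∈ Divisor.principal (K := K) (F := F) := by
    rw [hD]
    by_cases hu : algebraMap K F c * s ^ p * (1 + algebraMap K F (lam ^ p) * f) = 0
    · rw [hu]
      have : divOf (K := K) (0 : F) = 0 := by simp [divOf]
      rw [this]
      exact zero_mem _
    · exact rg2_divOf_mem_principal hu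
  have hpx : p • Pic0.mk D = 0 := by
    have h2 : p • Pic0.mk D = Pic0.mk (p • D) := rfl
    rw [h2]
    apply (QuotientAddGroup.eq_zero_iff _).mpr
    rw [AddSubgroup.mem_addSubgroupOf]
    simpa using hprin
  by_contra hx
  haveI : Fact p.Prime := ⟨hp⟩
  have hord : addOrderOf (Pic0.mk D) = p := addOrderOf_eq_prime hpx hx
  have h3 : ((1 : ℤ) - (e : ℤ)) • Pic0.mk D = 0 := by
    rw [sub_smul, one_smul, natCast_zsmul, ← h1, sub_self]
  have h4 := (addOrderOf_dvd_iff_zsmul_eq_zero).mpr h3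
  rw [hord] at h4
  exact he1 ((Int.modEq_iff_dvd).mpr h4)

end Fermat.Agent.S33lib

end
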