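/-
Item 86 (S33), piece RES1 for the RANK block (helper3), on top of helper7's `ResJ.lean`
(`s33r_exists_fixed`, for subgroups killed by the maximal ideal) and helper10's `fit_socle`.

* `rsf_commute`: the Hecke polynomials of level `(N, S)` commute on `J₀(N')`.
* `rsf_exists_torsion`: a nonzero subgroup of `p`-power torsion contains a nonzero class killed
  by `p`.
* `rsf_mtors` (M-TORS): a nonzero subgroup `U` of `p`-power torsion of `J₀(N')`, stable under a set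
  `𝔪` of Hecke polynomials which act nilpotently on every element of `U`, contains a nonzero class
  killed by `p` and by `𝔪`.
* `rsfSocle`: the classes of `U` killed by `p` and by the maximal ideal of the Hecke polynomials.
* `rsf_res1` (RES1): a nonzero Galois-stable, Hecke-stable subgroup `U` of the `𝔪`-part of
  `J₀(N')[p^∞]` contains a nonzero class fixed by `τ₀` (`τ₀` in the inertia group at `p`,
  `χ(τ₀) ≠ 1`), which moreover is killed by `p` and by the maximal ideal.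
* `rsf_omega`: the same with an `ω`-eigenvector `s₀ x − x ≠ 0`.
* `rsf_fixJ`: `hres ⇒ S33FixJ N' p θ'` (the input of RANK, `RankDefs.lean`), for EVERY `τ₀` in the
  inertia group at `p` (also when `χ(τ₀) = 1`).
* `rsf_resJ`: `hres ⇒ S33ResJ N' p θ'` (Hub).
-/
import Mathlib
import Fermat.Agent.S33lib.ResJ
import Fermat.Agent.S33lib.FitAsm
import Fermat.Agent.S33lib.ThetaProj
import Fermat.Agent.S33lib.ResWrap
import Fermat.Agent.S33lib.RankDefs

set_option autoImplicit false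
set_option linter.unusedSectionVars false
set_option linter.style.longLine false
set_option linter.unusedVariables false

namespace Fermat.Agent.S33lib

open Fermat.Agent.GalRep ModularCurve Fermat.Agent.S31lib Fermat.Agent.S34lib IsLocalRing

section Basic

variable {N : ℕ} {S : Finset ℕ} {N' : ℕ} [NeZero N']

/-- the Hecke polynomials of level `(N, S)` commute on `J₀(N')` -/
theorem rsf_commute (P Q : HPoly N S) :
    Commute (s33EvalJ N S N' P) (s33EvalJ N S N' Q) := by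
  have hgen : ∀ (ℓ : GoodPrime N S) (Q : HPoly N S),
      Commute (heckeOperatorBar N' ℓ.1) (s33EvalJ N S N' Q) := by
    intro ℓ Q
    induction Q using FreeAlgebra.induction with
    | grade0 r =>
      rw [AlgHom.commutes]
      exact Algebra.commute_algebraMap_right r _
    | grade1 ℓ' =>
      rw [s33r_evalJ_ι]
      exact Fermat.Agent.HeckeBar.heckeOperatorsCommuteBar N' ℓ.1 ℓ'.1
    | mul a b ha hb =>
      rw [map_mul]
      exact ha.mul_right hb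
    | add a b ha hb =>
      rw [map_add]
      exact ha.add_right hb
  induction P using FreeAlgebra.induction with
  | grade0 r =>
    rw [AlgHom.commutes]
    exact Algebra.commute_algebraMap_left r _
  | grade1 ℓ =>
    rw [s33r_evalJ_ι]
    exact hgen ℓ Q
  | mul a b ha hb =>
    rw [map_mul]
    exact ha.mul_left hb
  | add a b ha hb =>
    rw [map_add]
    exact ha.add_left hb

theorem rsf_commute_apply (P Q : HPoly N S) (x : JZero N') :
    s33EvalJ N S N' P (s33EvalJ N S N' Q x) = s33EvalJ N S N' Q (s33EvalJ N S N' P x) := by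
  have h := rsf_commute (N' := N') P Q
  have h2 := congrArg (fun f : Module.End ℤ (JZero N') => f x) h.eq
  simpa only [Module.End.mul_apply] using h2

/-- a nonzero group of `p`-power torsion contains a nonzero element killed by `p` -/
theorem rsf_exists_torsion {M : Type*} [AddCommGroup M] (p : ℕ) (U : AddSubgroup M)
    (hU0 : U ≠ ⊥) (hUtor : ∀ x ∈ U, ∃ n : ℕ, p ^ n • x = 0) :
    ∃ y ∈ U, y ≠ 0 ∧ p • y = 0 := by
  classical
  obtain ⟨⟨x, hxU⟩, hx0⟩ := (AddSubgroup.ne_bot_iff_exists_ne_zero).mp hU0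
  have hx0' : x ≠ 0 := fun h => hx0 (Subtype.ext h)
  have hex := hUtor x hxU
  have hk0 : Nat.find hex ≠ 0 := by
    intro h0
    have := Nat.find_spec hex
    rw [h0, pow_zero, one_smul] at this
    exact hx0' this
  obtain ⟨k, hk⟩ := Nat.exists_eq_succ_of_ne_zero hk0
  refine ⟨p ^ k • x, U.nsmul_mem hxU _, ?_, ?_⟩
  · intro h
    have hlt : k < Nat.find hex := by rw [hk]; exact Nat.lt_succ_self k
    exact Nat.find_min hex hlt h
  · have := Nat.find_spec hex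
    rw [hk, pow_succ, mul_comm, mul_smul] at this
    exact this

variable {p : ℕ}

/-- **(M-TORS)**: a nonzero subgroup of `p`-power torsion of `J₀(N')`, stable under a set `𝔪` of
Hecke polynomials acting nilpotently on each of its elements, contains a nonzero class killed by
`p` and by `𝔪`. -/
theorem rsf_mtors (J' : JacInput N' p) (hp : p.Prime) (𝔪 : Set (HPoly N S))
    (U : AddSubgroup (JZero N')) (hU0 : U ≠ ⊥)
    (hUtor : ∀ x ∈ U, ∃ n : ℕ, p ^ n • x = 0)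
    (hUH : ∀ P ∈ 𝔪, ∀ x ∈ U, s33EvalJ N S N' P x ∈ U)
    (hUnil : ∀ P ∈ 𝔪, ∀ x ∈ U, ∃ k : ℕ, ((s33EvalJ N S N' P) ^ k) x = 0) :
    ∃ z ∈ U, z ≠ 0 ∧ p • z = 0 ∧ ∀ P ∈ 𝔪, s33EvalJ N S N' P z = 0 := by
  classical
  obtain ⟨y, hyU, hy0, hpy⟩ := rsf_exists_torsion p U hU0 hUtor
  -- the subgroup of the elements of `U` killed by `p`
  let Y : AddSubgroup (JZero N') :=
    { carrier := {x | x ∈ U ∧ p • x = 0}
      zero_mem' := ⟨U.zero_mem, smul_zero _⟩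
      add_mem' := by
        rintro a b ⟨ha, ha'⟩ ⟨hb, hb'⟩
        exact ⟨U.add_mem ha hb, by rw [nsmul_add, ha', hb', add_zero]⟩
      neg_mem' := by
        rintro a ⟨ha, ha'⟩
        exact ⟨U.neg_mem ha, by rw [neg_nsmul, ha', neg_zero]⟩ }
  have hYmem : ∀ x, x ∈ Y ↔ x ∈ U ∧ p • x = 0 := fun x => Iff.rfl
  have hfin : (Y : Set (JZero N')).Finite := by
    have hF : Finite {x : JZero N' // p ^ 1 • x = 0} := thp_finite J' hp 1
    have hF' : {x : JZero N' | p ^ 1 • x = 0}.Finite := Set.finite_coe_iff.mp hF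
    refine hF'.subset ?_
    intro x hx
    show p ^ 1 • x = 0
    rw [pow_one]
    exact ((hYmem x).mp hx).2
  have hY0 : Y ≠ ⊥ := by
    intro h
    have hyY : y ∈ Y := (hYmem y).mpr ⟨hyU, hpy⟩
    rw [h, AddSubgroup.mem_bot] at hyY
    exact hy0 hyY
  let Ps : Set (JZero N' →+ JZero N') :=
    {f | ∃ P ∈ 𝔪, f = (s33EvalJ N S N' P).toAddMonoidHom}
  have hcomm : ∀ f ∈ Ps, ∀ g ∈ Ps, ∀ x, f (g x) = g (f x) := by
    rintro f ⟨P, -, rfl⟩ g ⟨Q, -, rfl⟩ x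
    exact rsf_commute_apply P Q x
  have hstab : ∀ f ∈ Ps, ∀ x ∈ Y, f x ∈ Y := by
    rintro f ⟨P, hP, rfl⟩ x hx
    obtain ⟨hxU, hpx⟩ := (hYmem x).mp hx
    refine (hYmem _).mpr ⟨hUH P hP x hxU, ?_⟩
    show p • s33EvalJ N S N' P x = 0
    rw [← map_nsmul, hpx, map_zero]
  have hnil : ∀ f ∈ Ps, ∀ x ∈ Y, ∃ k : ℕ, (⇑f)^[k] x = 0 := by
    rintro f ⟨P, hP, rfl⟩ x hx
    obtain ⟨k, hk⟩ := hUnil P hP x ((hYmem x).mp hx).1
    refine ⟨k, ?_⟩
    rw [Module.End.pow_apply] at hk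
    exact hk
  obtain ⟨z, hzY, hz0, hz⟩ := fit_socle Ps hcomm _ Y hfin rfl hY0 hstab hnil
  obtain ⟨hzU, hpz⟩ := (hYmem z).mp hzY
  exact ⟨z, hzU, hz0, hpz, fun P hP => hz _ ⟨P, hP, rfl⟩⟩

end Basic

section Main

variable {p : ℕ} {N : ℕ} [NeZero N] {S : Finset ℕ}
  {𝒪 : Type} [CommRing 𝒪] [IsDomain 𝒪] [IsDiscreteValuationRing 𝒪]
  [IsAdicComplete (IsLocalRing.maximalIdeal 𝒪) 𝒪]
  {θ : CuspForm.heckeAlgebra N 2 (↑S : Set ℕ) →+* IsLocalRing.ResidueField 𝒪}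
  {T : Type} [CommRing T] [IsLocalRing T] [IsNoetherianRing T]
  [IsAdicComplete (IsLocalRing.maximalIdeal T) T] [Algebra 𝒪 T] [IsLocalHom (algebraMap 𝒪 T)]
  [Module.Finite 𝒪 T] [Module.Free 𝒪 T]
  {N' : ℕ} [NeZero N']

/-- the classes of `U` killed by `p` and by the maximal ideal of the Hecke polynomials -/
def rsfSocle (p : ℕ) (H : CuspForm.HeckeGaloisRepDatum N (↑S : Set ℕ) 𝒪 θ T)
    (U : AddSubgroup (JZero N')) : Submodule ℤ (JZero N') where
  carrier := {x | x ∈ U ∧ p • x = 0 ∧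
    ∀ P : HPoly N S, H.π (evalForms N S P) ∈ maximalIdeal T → s33EvalJ N S N' P x = 0}
  zero_mem' := ⟨U.zero_mem, smul_zero _, fun P _ => map_zero _⟩
  add_mem' := by
    rintro a b ⟨ha, ha', ha''⟩ ⟨hb, hb', hb''⟩
    refine ⟨U.add_mem ha hb, by rw [nsmul_add, ha', hb', add_zero], fun P hP => ?_⟩
    rw [map_add, ha'' P hP, hb'' P hP, add_zero]
  smul_mem' := by
    rintro c a ⟨ha, ha', ha''⟩
    refine ⟨U.zsmul_mem ha c, by rw [smul_comm, ha', smul_zero], fun P hP => ?_⟩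
    rw [map_zsmul, ha'' P hP, smul_zero]

theorem mem_rsfSocle (H : CuspForm.HeckeGaloisRepDatum N (↑S : Set ℕ) 𝒪 θ T)
    (U : AddSubgroup (JZero N')) (x : JZero N') :
    x ∈ rsfSocle p H U ↔ x ∈ U ∧ p • x = 0 ∧
      ∀ P : HPoly N S, H.π (evalForms N S P) ∈ maximalIdeal T → s33EvalJ N S N' P x = 0 :=
  Iff.rfl

/-- the socle of a Galois-stable subgroup is Galois-stable -/
theorem rsfSocle_gal (J' : JacInput N' p)
    (H : CuspForm.HeckeGaloisRepDatum N (↑S : Set ℕ) 𝒪 θ T)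
    (U : AddSubgroup (JZero N')) (hUG : ∀ (σ : GQ), ∀ x ∈ U, σ • x ∈ U) :
    ∀ (σ : GQ), ∀ x ∈ rsfSocle p H U, σ • x ∈ rsfSocle p H U := by
  rintro σ x ⟨hx, hpx, hxm⟩
  refine ⟨hUG σ x hx, ?_, fun P hP => ?_⟩
  · have h := map_nsmul (DistribSMul.toAddMonoidHom (JZero N') σ) p x
    have h' : σ • (p • x) = p • (σ • x) := h
    rw [← h', hpx]
    exact map_zero (DistribSMul.toAddMonoidHom (JZero N') σ)
  · rw [← s33r_gal_comm J' P σ x, hxm P hP]
    exact map_zero (DistribSMul.toAddMonoidHom (JZero N') σ)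

/-- the socle of a nonzero Hecke-stable subgroup of the `𝔪`-part is nonzero -/
theorem rsfSocle_ne_bot (hp : p.Prime) (J' : JacInput N' p)
    (H : CuspForm.HeckeGaloisRepDatum N (↑S : Set ℕ) 𝒪 θ T)
    (U : AddSubgroup (JZero N')) (hU0 : U ≠ ⊥)
    (hUtor : ∀ x ∈ U, ∃ n : ℕ, p ^ n • x = 0)
    (hUH : ∀ P : HPoly N S, H.π (evalForms N S P) ∈ maximalIdeal T →
      ∀ x ∈ U, s33EvalJ N S N' P x ∈ U)
    (hUnil : ∀ P : HPoly N S, H.π (evalForms N S P) ∈ maximalIdeal T →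
      ∀ x ∈ U, ∃ k : ℕ, ((s33EvalJ N S N' P) ^ k) x = 0) :
    rsfSocle p H U ≠ ⊥ := by
  obtain ⟨z, hzU, hz0, hpz, hz⟩ := rsf_mtors J' hp
    {P : HPoly N S | H.π (evalForms N S P) ∈ maximalIdeal T} U hU0 hUtor
    (fun P hP => hUH P hP) (fun P hP => hUnil P hP)
  intro h
  have hzS : z ∈ rsfSocle p H U := ⟨hzU, hpz, fun P hP => hz P hP⟩
  rw [h, Submodule.mem_bot] at hzS
  exact hz0 hzS

variable [Fact p.Prime]

/-- **(RES1)**: a nonzero Galois-stable and Hecke-stable subgroup `U` of the `𝔪`-part of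
`J₀(N')[p^∞]` contains a nonzero class fixed by `τ₀` (an element of the inertia group at `p` with
`χ(τ₀) ≠ 1`); the class is killed by `p` and by the maximal ideal of the Hecke polynomials. -/
theorem rsf_res1 [Finite (ResidueField T)]
    (hcheb : WeakCheb) (hN' : N' ∣ N) (J' : JacInput N' p)
    (hp𝒪 : (p : 𝒪) ∈ IsLocalRing.maximalIdeal 𝒪) (hpS : p ∈ S)
    (hNS : ∀ q : ℕ, q.Prime → q ∣ N → q ∈ S)
    (H : CuspForm.HeckeGaloisRepDatum N (↑S : Set ℕ) 𝒪 θ T)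
    (h2 : IsUnit (2 : T))
    (hres : (GaloisRepAdic.ofResidualGaloisRep H.ρ.residual).IsOrdinaryAt p)
    (B : ValuationSubring (AlgebraicClosure ℚ)) (hB : B.LiesOverPrime p)
    (τ₀ : GQ) (hτ₀ : τ₀ ∈ B.inertiaSubgroupIn ℚ) (hw : s33W p τ₀ ≠ 1)
    (U : AddSubgroup (JZero N')) (hU0 : U ≠ ⊥)
    (hUG : ∀ (σ : GQ), ∀ x ∈ U, σ • x ∈ U)
    (hUtor : ∀ x ∈ U, ∃ n : ℕ, p ^ n • x = 0)
    (hUH : ∀ P : HPoly N S, H.π (evalForms N S P) ∈ maximalIdeal T →
      ∀ x ∈ U, s33EvalJ N S N' P x ∈ U)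
    (hUnil : ∀ P : HPoly N S, H.π (evalForms N S P) ∈ maximalIdeal T →
      ∀ x ∈ U, ∃ k : ℕ, ((s33EvalJ N S N' P) ^ k) x = 0) :
    ∃ z ∈ U, z ≠ 0 ∧ τ₀ • z = z ∧ p • z = 0 ∧
      ∀ P : HPoly N S, H.π (evalForms N S P) ∈ maximalIdeal T → s33EvalJ N S N' P z = 0 := by
  have hp : p.Prime := Fact.out
  have hS0 := rsfSocle_ne_bot hp J' H U hU0 hUtor hUH hUnil
  obtain ⟨z, hz, hz0, hfix⟩ := s33r_exists_fixed (rsfSocle p H U) (rsfSocle_gal J' H U hUG)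
    (fun x hx => hx.2.1) hcheb hN' J' hp𝒪 hpS hNS H (fun P hP x hx => hx.2.2 P hP) h2 hres B hB
    hS0 τ₀ hτ₀ hw
  exact ⟨z, hz.1, hz0, hfix, hz.2.1, hz.2.2⟩

/-- the same with an `ω`-eigenvector: some `z = s₀ x − x ≠ 0` with `x` in the socle of `U`; the
inertia group at `p` acts on `z` by `χ` (`s33r_O1U`). -/
theorem rsf_omega [Finite (ResidueField T)]
    (hcheb : WeakCheb) (hN' : N' ∣ N) (J' : JacInput N' p)
    (hp𝒪 : (p : 𝒪) ∈ IsLocalRing.maximalIdeal 𝒪) (hpS : p ∈ S)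
    (hNS : ∀ q : ℕ, q.Prime → q ∣ N → q ∈ S)
    (H : CuspForm.HeckeGaloisRepDatum N (↑S : Set ℕ) 𝒪 θ T)
    (h2 : IsUnit (2 : T))
    (hres : (GaloisRepAdic.ofResidualGaloisRep H.ρ.residual).IsOrdinaryAt p)
    (B : ValuationSubring (AlgebraicClosure ℚ)) (hB : B.LiesOverPrime p)
    (s₀ : GQ) (hs₀ : s₀ ∈ B.inertiaSubgroupIn ℚ) (hw : s33W p s₀ ≠ 1)
    (U : AddSubgroup (JZero N')) (hU0 : U ≠ ⊥)
    (hUG : ∀ (σ : GQ), ∀ x ∈ U, σ • x ∈ U)
    (hUtor : ∀ x ∈ U, ∃ n : ℕ, p ^ n • x = 0)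
    (hUH : ∀ P : HPoly N S, H.π (evalForms N S P) ∈ maximalIdeal T →
      ∀ x ∈ U, s33EvalJ N S N' P x ∈ U)
    (hUnil : ∀ P : HPoly N S, H.π (evalForms N S P) ∈ maximalIdeal T →
      ∀ x ∈ U, ∃ k : ℕ, ((s33EvalJ N S N' P) ^ k) x = 0) :
    ∃ z ∈ U, z ≠ 0 ∧ p • z = 0 ∧
      (∀ P : HPoly N S, H.π (evalForms N S P) ∈ maximalIdeal T → s33EvalJ N S N' P z = 0) ∧
      ∀ τ ∈ B.inertiaSubgroupIn ℚ, τ • z = s33W p τ • z := by
  have hp : p.Prime := Fact.out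
  have hS0 := rsfSocle_ne_bot hp J' H U hU0 hUtor hUH hUnil
  have hSG := rsfSocle_gal J' H U hUG
  obtain ⟨x, hx, hz0⟩ := s33r_exists_omega (rsfSocle p H U) hSG
    (fun x hx => hx.2.1) hcheb hN' J' hp𝒪 hpS hNS H (fun P hP x hx => hx.2.2 P hP) h2
    hS0 s₀ hw
  have hzS : s₀ • x - x ∈ rsfSocle p H U := (rsfSocle p H U).sub_mem (hSG s₀ x hx) hx
  refine ⟨s₀ • x - x, hzS.1, hz0, hzS.2.1, hzS.2.2, fun τ hτ => ?_⟩
  exact s33r_O1U (rsfSocle p H U) hSG (fun x hx => hx.2.1) hcheb hN' J' hp𝒪 hpS hNS H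
    (fun P hP x hx => hx.2.2 P hP) h2 hres B hB τ s₀ hτ hs₀ x hx

end Main

section HubForm

open Fermat.Agent.S35lib

variable {p : ℕ} {N : ℕ} [NeZero N] {S : Finset ℕ}
  {𝒪 : Type} [CommRing 𝒪] [IsDomain 𝒪] [IsDiscreteValuationRing 𝒪]
  [IsAdicComplete (IsLocalRing.maximalIdeal 𝒪) 𝒪]
  {θ : CuspForm.heckeAlgebra N 2 (↑S : Set ℕ) →+* IsLocalRing.ResidueField 𝒪}
  {T : Type} [CommRing T] [IsLocalRing T] [IsNoetherianRing T]
  [IsAdicComplete (IsLocalRing.maximalIdeal T) T] [Algebra 𝒪 T] [IsLocalHom (algebraMap 𝒪 T)]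
  [Module.Finite 𝒪 T] [Module.Free 𝒪 T]
  {N' : ℕ} [NeZero N']

/-- the two evaluation maps on `J₀(N')` agree -/
theorem rsf_evalJ_eq : s33EvalJ N S N' = evalJac N S N' := rfl

variable [Fact p.Prime] [Finite (ResidueField 𝒪)]

/-- **`hres ⇒ S33FixJ`** (the residual input of RANK): every nonzero Galois-stable subgroup of
`J₀(N')[p]` killed by the kernel of `θ'` contains a nonzero class fixed by `τ₀`, for every `τ₀` in
the inertia group at `p`. -/
theorem rsf_fixJ (hp2 : p ≠ 2)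
    (hp𝒪 : (p : 𝒪) ∈ IsLocalRing.maximalIdeal 𝒪) (hpN : p ∣ N)
    (hNS : ∀ q : ℕ, q.Prime → q ∣ N → q ∈ S)
    (H : CuspForm.HeckeGaloisRepDatum N (↑S : Set ℕ) 𝒪 θ T)
    (hres : (GaloisRepAdic.ofResidualGaloisRep H.ρ.residual).IsOrdinaryAt p)
    (hcheb : WeakCheb) (hN' : N' ∣ N) (J' : JacInput N' p)
    {θ' : HPoly N S →+* IsLocalRing.ResidueField 𝒪}
    (hθ : ∀ P : HPoly N S, θ' P = θ (evalForms N S P)) :
    S33FixJ N' p θ' := by
  intro B hB τ₀ hτ₀ U hU0 hU hUG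
  let U' : Submodule ℤ (JZero N') := AddSubgroup.toIntSubmodule U
  have hmem : ∀ x, x ∈ U' ↔ x ∈ U := fun x => Iff.rfl
  have hU0' : U' ≠ ⊥ := by
    intro h
    apply hU0
    rw [eq_bot_iff]
    intro x hx
    have hx' : x ∈ U' := (hmem x).mpr hx
    rw [h, Submodule.mem_bot] at hx'
    rw [AddSubgroup.mem_bot]
    exact hx'
  have hUG' : ∀ (σ : GQ), ∀ x ∈ U', σ • x ∈ U' := fun σ x hx => hUG σ x hx
  have hUp' : ∀ x ∈ U', p • x = 0 := fun x hx => (hU x hx).1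
  have hUθ' : ∀ P : HPoly N S, θ (evalForms N S P) = 0 → ∀ x ∈ U', s33EvalJ N S N' P x = 0 := by
    intro P hP x hx
    exact (hU x hx).2 P (by rw [hθ P, hP])
  by_cases hw : s33W p τ₀ = 1
  · -- `χ(τ₀) = 1`: `τ₀` is unipotent on `U`
    by_cases hall : ∀ x ∈ U, τ₀ • x - x = 0
    · obtain ⟨⟨z, hzU⟩, hz0⟩ := (AddSubgroup.ne_bot_iff_exists_ne_zero).mp hU0
      exact ⟨z, hzU, fun h => hz0 (Subtype.ext h), sub_eq_zero.mp (hall z hzU)⟩
    · push Not at hall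
      obtain ⟨x, hx, hz⟩ := hall
      refine ⟨τ₀ • x - x, U.sub_mem (hUG τ₀ x hx) hx, hz, ?_⟩
      have h1 := s33w_O1U hp2 hp𝒪 hpN hNS H hres hcheb hN' J' U' hUG' hUp' hUθ' B hB τ₀ τ₀
        hτ₀ hτ₀ x hx
      rw [hw, one_smul] at h1
      exact h1
  · exact s33w_exists_fixed hp2 hp𝒪 hpN hNS H hres hcheb hN' J' U' hUG' hUp' hUθ' B hB hU0'
      τ₀ hτ₀ hw

/-- **`hres ⇒ S33ResJ`** (Hub): every nonzero Galois-stable subgroup of `J₀(N')[p]` killed by the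
kernel of `θ'` contains a nonzero class on which the inertia group at `p` acts by the mod `p`
cyclotomic character. -/
theorem rsf_resJ (hp2 : p ≠ 2)
    (hp𝒪 : (p : 𝒪) ∈ IsLocalRing.maximalIdeal 𝒪) (hpN : p ∣ N)
    (hNS : ∀ q : ℕ, q.Prime → q ∣ N → q ∈ S)
    (H : CuspForm.HeckeGaloisRepDatum N (↑S : Set ℕ) 𝒪 θ T)
    (hres : (GaloisRepAdic.ofResidualGaloisRep H.ρ.residual).IsOrdinaryAt p)
    (hcheb : WeakCheb) (hN' : N' ∣ N) (J' : JacInput N' p)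
    {θ' : HPoly N S →+* IsLocalRing.ResidueField 𝒪}
    (hθ : ∀ P : HPoly N S, θ' P = θ (evalForms N S P)) :
    S33ResJ N' p θ' := by
  intro B hB U hU0 hU hUG
  let U' : Submodule ℤ (JZero N') := AddSubgroup.toIntSubmodule U
  have hmem : ∀ x, x ∈ U' ↔ x ∈ U := fun x => Iff.rfl
  have hU0' : U' ≠ ⊥ := by
    intro h
    apply hU0
    rw [eq_bot_iff]
    intro x hx
    have hx' : x ∈ U' := (hmem x).mpr hx
    rw [h, Submodule.mem_bot] at hx'
    rw [AddSubgroup.mem_bot]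
    exact hx'
  have hUG' : ∀ (σ : GQ), ∀ x ∈ U', σ • x ∈ U' := fun σ x hx => hUG σ x hx
  have hUp' : ∀ x ∈ U', p • x = 0 := fun x hx => (hU x hx).1
  have hUθ' : ∀ P : HPoly N S, θ (evalForms N S P) = 0 → ∀ x ∈ U', s33EvalJ N S N' P x = 0 := by
    intro P hP x hx
    exact (hU x hx).2 P (by rw [hθ P, hP])
  obtain ⟨z, hz, hz0, hzτ⟩ := s33w_exists_omega hp2 hp𝒪 hpN hNS H hres hcheb hN' J' U' hUG'
    hUp' hUθ' B hB hU0'
  exact ⟨z, hz, hz0, fun τ hτ => hzτ τ hτ⟩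

end HubForm

end Fermat.Agent.S33lib
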