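/-
Item 86 (S33), block TOR_p, piece T4 (STEP), the leading terms (helper17).  Complete proofs.

Level `N = M' p`, `p ∤ M'`, `A | p`; `R'` a series reduction of level `M'`, `R = R_∞` a series
reduction of level `M' p`, `R₀ = inredZero R` (`= glmZero`, the valuation at the cusp `0`).
`H` a set of Galois automorphisms (the stabiliser `I'` of the classes in question), `F1'` any
subfield of `F_{M'}` containing the `H`-fixed functions, with (DISC), (RES1) for `R'` and the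
uniformiser `ϖ` (hypotheses of `lvi_inv`).

* `stl_alpha` : if `u = c (1 + ϖ^i g)` is a Kummer function (`div u = p D`) of a class killed by
  `α_*`, with `g ∈ O_∞ ∩ O_0` fixed by `H`, `1 ≤ i`, `(p - 1) i < p e` (level below `v*`), then
  `red_∞ g = ψ^p + constant`;
* `stl_beta`  : the same with `β_*` and `red_0 g`;
* `stl_new`   : both, for a `p`-new class.

Proof: `Nm_α (1 + ϖ^i g) = 1 + ϖ^i t` with `red' t = red_∞ g` (`nf1_alpha`, helper24);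
`Nm_α u = c' s^p` (`degJAlpha_norm`); the `p`-th root can be taken `H`-fixed (`kdn_descent_set`);
`lvi_inv` (helper9) at level `M'`.
-/
import Mathlib
import Fermat.Agent.S33lib.NormFirst
import Fermat.Agent.S33lib.LevInv
import Fermat.Agent.S36lib.KummerDescN
import Fermat.Agent.S35lib.DegJ

set_option autoImplicit false
set_option linter.style.haveILetI false
set_option linter.unusedSectionVars false
set_option linter.unusedVariables false
set_option synthInstance.maxHeartbeats 400000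

noncomputable section

namespace Fermat.Agent.S33lib

open ModularCurve AlgebraicCurve HahnSeries
open Fermat.Agent.S24lib Fermat.Agent.HeckeBar Fermat.Agent.S37lib Fermat.Agent.GoodRed
open Fermat.Agent.S35lib Fermat.Agent.S34lib Fermat.Agent.S36lib Fermat.Agent.RRlib

section Gen

variable (M' p : ℕ) [NeZero M'] [NeZero p]
variable {A : ValuationSubring Kbar}
variable {Fk : IntermediateField (IsLocalRing.ResidueField A)
  (LaurentSeries (IsLocalRing.ResidueField A))}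

/-- **the core**: a norm `z = Nm (1 + ϖ^i g) = 1 + ϖ^i t` which is `H`-fixed and a constant times
a `p`-th power has leading term `red' t ∈ Fk^p + k`. -/
theorem stl_core [RRBase (IsLocalRing.ResidueField A) (↥Fk)] (hp : p.Prime)
    (R' : ConstRed A (IsLocalRing.residue A) (↥Fk) (FF M'))
    (H : Set (Kbar ≃ₐ[ℚ] Kbar)) (F1' : Subfield (FF M'))
    (hF1' : ∀ x : FF M', (∀ σ ∈ H, galFF M' σ • x = x) → x ∈ F1')
    {ϖ : Kbar} (hϖ0 : ϖ ≠ 0) (hϖA : ϖ ∈ A.nonunits)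
    (hϖ1 : algebraMap Kbar (FF M') ϖ ∈ F1')
    (hdisc' : ∀ f ∈ F1', f ≠ 0 → ∃ n : ℤ,
      algebraMap Kbar (FF M') (ϖ ^ n) * f ∈ R'.O ∧
        (algebraMap Kbar (FF M') (ϖ ^ n) * f)⁻¹ ∈ R'.O)
    (hres1' : ∀ c : IsLocalRing.ResidueField A, ∃ a : A,
      IsLocalRing.residue A a = c ∧ algebraMap Kbar (FF M') (a : Kbar) ∈ F1')
    {e i : ℕ} (hi : 1 ≤ i) (hpe : ∃ ε ∈ A, (p : Kbar) = ϖ ^ e * ε) (hie : (p - 1) * i < p * e)
    {t : FF M'} (ht : t ∈ R'.O)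
    (hz0 : 1 + algebraMap Kbar (FF M') (ϖ ^ i) * t ≠ 0)
    (hfix : ∀ σ ∈ H, galFF M' σ • (1 + algebraMap Kbar (FF M') (ϖ ^ i) * t)
      = 1 + algebraMap Kbar (FF M') (ϖ ^ i) * t)
    (hpow : ∃ (c : Kbar) (s : FF M'),
      1 + algebraMap Kbar (FF M') (ϖ ^ i) * t = algebraMap Kbar (FF M') c * s ^ p) :
    ∃ (ψ : ↥Fk) (cb : IsLocalRing.ResidueField A),
      R'.red ⟨t, ht⟩ = ψ ^ p + algebraMap (IsLocalRing.ResidueField A) (↥Fk) cb := by
  obtain ⟨c', s', -, -, hzc, -, hs'fix⟩ := kdn_descent_set M' p H hz0 hfix hpow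
  have hs1 : s' ∈ F1' := hF1' s' hs'fix
  obtain ⟨ψ, cb, hred, -⟩ :=
    lvi_inv R' F1' hp hϖ0 hϖA hϖ1 hdisc' hres1' hi hpe hie ht c' s' hs1 hzc
  exact ⟨ψ, cb, hred⟩

end Gen

section Concrete

variable (M' p : ℕ) [NeZero M'] [NeZero p] (hp : p.Prime) (hpM : ¬ p ∣ M')
variable {A : ValuationSubring Kbar} [ExpChar (IsLocalRing.ResidueField A) p]
variable {Fk : IntermediateField (IsLocalRing.ResidueField A)
  (LaurentSeries (IsLocalRing.ResidueField A))}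

/-- `ϖ^i` as an element of `A` -/
theorem stl_pow_mem {ϖ : Kbar} (hϖA : ϖ ∈ A.nonunits) (i : ℕ) : ϖ ^ i ∈ A :=
  pow_mem (A.nonunits_subset hϖA) i

theorem stl_residue_pow {ϖ : Kbar} (hϖA : ϖ ∈ A.nonunits) {i : ℕ} (hi : 1 ≤ i) :
    IsLocalRing.residue A ⟨ϖ ^ i, stl_pow_mem hϖA i⟩ = 0 := by
  have h1 : (⟨ϖ ^ i, stl_pow_mem hϖA i⟩ : A) = (⟨ϖ, A.nonunits_subset hϖA⟩ : A) ^ i := rfl
  have h2 : IsLocalRing.residue A (⟨ϖ, A.nonunits_subset hϖA⟩ : A) = 0 := by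
    rw [IsLocalRing.residue_eq_zero_iff, ← ValuationSubring.coe_mem_nonunits_iff]
    exact hϖA
  rw [h1, map_pow, h2, zero_pow (by omega)]

/-- **(STEP), `α`**: the `∞`-component of the leading term of a Kummer function of a class
killed by `α_*` lies in `Fk^p + k`. -/
theorem stl_alpha [RRBase (IsLocalRing.ResidueField A) (↥Fk)]
    (hlt : A.valuation (p : Kbar) < 1)
    (R' : ConstRed A (IsLocalRing.residue A) (↥Fk) (FF M')) (hR' : IsSeriesRed R')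
    (R : ConstRed A (IsLocalRing.residue A) (↥Fk) (FF (M' * p))) (hR : IsSeriesRed R)
    (H : Set (Kbar ≃ₐ[ℚ] Kbar)) (F1' : Subfield (FF M'))
    (hF1' : ∀ x : FF M', (∀ σ ∈ H, galFF M' σ • x = x) → x ∈ F1')
    {ϖ : Kbar} (hϖ0 : ϖ ≠ 0) (hϖA : ϖ ∈ A.nonunits) (hϖH : ∀ σ ∈ H, σ ϖ = ϖ)
    (hϖ1 : algebraMap Kbar (FF M') ϖ ∈ F1')
    (hdisc' : ∀ f ∈ F1', f ≠ 0 → ∃ n : ℤ,
      algebraMap Kbar (FF M') (ϖ ^ n) * f ∈ R'.O ∧
        (algebraMap Kbar (FF M') (ϖ ^ n) * f)⁻¹ ∈ R'.O)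
    (hres1' : ∀ c : IsLocalRing.ResidueField A, ∃ a : A,
      IsLocalRing.residue A a = c ∧ algebraMap Kbar (FF M') (a : Kbar) ∈ F1')
    {e i : ℕ} (hi : 1 ≤ i) (hpe : ∃ ε ∈ A, (p : Kbar) = ϖ ^ e * ε) (hie : (p - 1) * i < p * e)
    (D : Divisor.degZero (K := Kbar) (F := FF (M' * p))) {u : FF (M' * p)} (hu0 : u ≠ 0)
    (hD : ∀ w : Place Kbar (FF (M' * p)), (p • (D : Divisor Kbar (FF (M' * p)))) w = w.ord u)
    (h0 : degJAlpha M' p (Pic0.mk D) = 0)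
    (c : Kbar) (g : FF (M' * p)) (hg : g ∈ R.O)
    (hg₀ : g ∈ (inredZero (M' * p) p hp (dvd_mul_left p M') (inf_not_sq_dvd M' p hp hpM) R).O)
    (hgH : ∀ σ ∈ H, galFF (M' * p) σ • g = g)
    (hu : u = algebraMap Kbar (FF (M' * p)) c
      * (1 + algebraMap Kbar (FF (M' * p)) (ϖ ^ i) * g)) :
    ∃ (ψ : ↥Fk) (cb : IsLocalRing.ResidueField A),
      R.red ⟨g, hg⟩ = ψ ^ p + algebraMap (IsLocalRing.ResidueField A) (↥Fk) cb := by
  classical
  set a : A := ⟨ϖ ^ i, stl_pow_mem hϖA i⟩ with ha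
  have ha0 : a ≠ 0 := fun h => pow_ne_zero i hϖ0 (congrArg Subtype.val h)
  have hares : IsLocalRing.residue A a = 0 := stl_residue_pow hϖA hi
  obtain ⟨t, ht, hN, hred⟩ := nf1_alpha M' p hp hpM hlt R' hR' R hR a hares ha0 g hg hg₀
  have hN' : normAlong (heckeAlphaBar Kbar M' p)
      (1 + algebraMap Kbar (FF (M' * p)) (ϖ ^ i) * g)
      = 1 + algebraMap Kbar (FF M') (ϖ ^ i) * t := hN
  -- nonvanishing
  have hc0 : c ≠ 0 := by
    rintro rfl
    rw [map_zero, zero_mul] at hu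
    exact hu0 hu
  have hy0 : 1 + algebraMap Kbar (FF (M' * p)) (ϖ ^ i) * g ≠ 0 := by
    intro h
    rw [h, mul_zero] at hu
    exact hu0 hu
  have hz0 : 1 + algebraMap Kbar (FF M') (ϖ ^ i) * t ≠ 0 := by
    rw [← hN']
    exact dgj_normAlong_ne_zero (heckeAlphaBar Kbar M' p) (hinp_finiteAlong_alpha M' p) hy0
  -- `H`-fixed
  have hfix : ∀ σ ∈ H, galFF M' σ • (1 + algebraMap Kbar (FF M') (ϖ ^ i) * t)
      = 1 + algebraMap Kbar (FF M') (ϖ ^ i) * t := by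
    intro σ hσ
    rw [← hN', kdn_galFF_normAlong_alpha]
    congr 1
    rw [smul_add, smul_one, smul_mul', hgH σ hσ, SemilinearAut.smul_algebraMap]
    congr 3
    show σ (ϖ ^ i) = ϖ ^ i
    rw [map_pow, hϖH σ hσ]
  -- a constant times a `p`-th power
  have hpow : ∃ (c₁ : Kbar) (s : FF M'),
      1 + algebraMap Kbar (FF M') (ϖ ^ i) * t = algebraMap Kbar (FF M') c₁ * s ^ p := by
    obtain ⟨g₁, c₁, -, -, hnorm⟩ := degJAlpha_norm M' p D p hu0 hD h0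
    obtain ⟨d, hd⟩ := nf1_norm_const (heckeAlphaBar Kbar M' p) c
    rw [hu, map_mul, hd, hN'] at hnorm
    have hcd : algebraMap Kbar (FF M') (c ^ d) ≠ 0 := (map_ne_zero _).mpr (pow_ne_zero d hc0)
    refine ⟨(c ^ d)⁻¹ * c₁, g₁, ?_⟩
    rw [map_mul, map_inv₀, mul_assoc, ← hnorm, ← mul_assoc, inv_mul_cancel₀ hcd, one_mul]
  obtain ⟨ψ, cb, h⟩ := stl_core M' p hp R' H F1' hF1' hϖ0 hϖA hϖ1 hdisc' hres1' hi hpe hie ht
    hz0 hfix hpow
  exact ⟨ψ, cb, by rw [← hred]; exact h⟩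

/-- **(STEP), `β`**: the `0`-component of the leading term of a Kummer function of a class
killed by `β_*` lies in `Fk^p + k`. -/
theorem stl_beta [RRBase (IsLocalRing.ResidueField A) (↥Fk)]
    (hlt : A.valuation (p : Kbar) < 1)
    (R' : ConstRed A (IsLocalRing.residue A) (↥Fk) (FF M')) (hR' : IsSeriesRed R')
    (R : ConstRed A (IsLocalRing.residue A) (↥Fk) (FF (M' * p))) (hR : IsSeriesRed R)
    (H : Set (Kbar ≃ₐ[ℚ] Kbar)) (F1' : Subfield (FF M'))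
    (hF1' : ∀ x : FF M', (∀ σ ∈ H, galFF M' σ • x = x) → x ∈ F1')
    {ϖ : Kbar} (hϖ0 : ϖ ≠ 0) (hϖA : ϖ ∈ A.nonunits) (hϖH : ∀ σ ∈ H, σ ϖ = ϖ)
    (hϖ1 : algebraMap Kbar (FF M') ϖ ∈ F1')
    (hdisc' : ∀ f ∈ F1', f ≠ 0 → ∃ n : ℤ,
      algebraMap Kbar (FF M') (ϖ ^ n) * f ∈ R'.O ∧
        (algebraMap Kbar (FF M') (ϖ ^ n) * f)⁻¹ ∈ R'.O)
    (hres1' : ∀ c : IsLocalRing.ResidueField A, ∃ a : A,
      IsLocalRing.residue A a = c ∧ algebraMap Kbar (FF M') (a : Kbar) ∈ F1')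
    {e i : ℕ} (hi : 1 ≤ i) (hpe : ∃ ε ∈ A, (p : Kbar) = ϖ ^ e * ε) (hie : (p - 1) * i < p * e)
    (D : Divisor.degZero (K := Kbar) (F := FF (M' * p))) {u : FF (M' * p)} (hu0 : u ≠ 0)
    (hD : ∀ w : Place Kbar (FF (M' * p)), (p • (D : Divisor Kbar (FF (M' * p)))) w = w.ord u)
    (h0 : degJBeta M' p (Pic0.mk D) = 0)
    (c : Kbar) (g : FF (M' * p)) (hg : g ∈ R.O)
    (hg₀ : g ∈ (inredZero (M' * p) p hp (dvd_mul_left p M') (inf_not_sq_dvd M' p hp hpM) R).O)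
    (hgH : ∀ σ ∈ H, galFF (M' * p) σ • g = g)
    (hu : u = algebraMap Kbar (FF (M' * p)) c
      * (1 + algebraMap Kbar (FF (M' * p)) (ϖ ^ i) * g)) :
    ∃ (ψ : ↥Fk) (cb : IsLocalRing.ResidueField A),
      (inredZero (M' * p) p hp (dvd_mul_left p M') (inf_not_sq_dvd M' p hp hpM) R).red ⟨g, hg₀⟩
        = ψ ^ p + algebraMap (IsLocalRing.ResidueField A) (↥Fk) cb := by
  classical
  set a : A := ⟨ϖ ^ i, stl_pow_mem hϖA i⟩ with ha
  have ha0 : a ≠ 0 := fun h => pow_ne_zero i hϖ0 (congrArg Subtype.val h)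
  have hares : IsLocalRing.residue A a = 0 := stl_residue_pow hϖA hi
  obtain ⟨t, ht, hN, hred⟩ := nf1_beta M' p hp hpM hlt R' hR' R hR a hares ha0 g hg hg₀
  have hN' : normAlong (heckeBetaBar Kbar M' p)
      (1 + algebraMap Kbar (FF (M' * p)) (ϖ ^ i) * g)
      = 1 + algebraMap Kbar (FF M') (ϖ ^ i) * t := hN
  have hc0 : c ≠ 0 := by
    rintro rfl
    rw [map_zero, zero_mul] at hu
    exact hu0 hu
  have hy0 : 1 + algebraMap Kbar (FF (M' * p)) (ϖ ^ i) * g ≠ 0 := by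
    intro h
    rw [h, mul_zero] at hu
    exact hu0 hu
  have hz0 : 1 + algebraMap Kbar (FF M') (ϖ ^ i) * t ≠ 0 := by
    rw [← hN']
    exact dgj_normAlong_ne_zero (heckeBetaBar Kbar M' p) (hinp_finiteAlong_beta M' p) hy0
  have hfix : ∀ σ ∈ H, galFF M' σ • (1 + algebraMap Kbar (FF M') (ϖ ^ i) * t)
      = 1 + algebraMap Kbar (FF M') (ϖ ^ i) * t := by
    intro σ hσ
    rw [← hN', kdn_galFF_normAlong_beta]
    congr 1
    rw [smul_add, smul_one, smul_mul', hgH σ hσ, SemilinearAut.smul_algebraMap]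
    congr 3
    show σ (ϖ ^ i) = ϖ ^ i
    rw [map_pow, hϖH σ hσ]
  have hpow : ∃ (c₁ : Kbar) (s : FF M'),
      1 + algebraMap Kbar (FF M') (ϖ ^ i) * t = algebraMap Kbar (FF M') c₁ * s ^ p := by
    obtain ⟨g₁, c₁, -, -, hnorm⟩ := degJBeta_norm M' p D p hu0 hD h0
    obtain ⟨d, hd⟩ := nf1_norm_const (heckeBetaBar Kbar M' p) c
    rw [hu, map_mul, hd, hN'] at hnorm
    have hcd : algebraMap Kbar (FF M') (c ^ d) ≠ 0 := (map_ne_zero _).mpr (pow_ne_zero d hc0)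
    refine ⟨(c ^ d)⁻¹ * c₁, g₁, ?_⟩
    rw [map_mul, map_inv₀, mul_assoc, ← hnorm, ← mul_assoc, inv_mul_cancel₀ hcd, one_mul]
  obtain ⟨ψ, cb, h⟩ := stl_core M' p hp R' H F1' hF1' hϖ0 hϖA hϖ1 hdisc' hres1' hi hpe hie ht
    hz0 hfix hpow
  exact ⟨ψ, cb, by rw [← hred]; exact h⟩

end Concrete

end Fermat.Agent.S33lib

end
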