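/-
Item 86 (S33), block TOR_p, piece T4 = (STEP), final form (helper17).  Complete proofs.

(STEP) is the hypothesis `hstep` of the level induction (LEVB) for `p`-new classes at the level
`N = M' p`:  for a Kummer function `u = f₁ w^p = c (1 + ϖ^i g)` of a `p`-new class, with
`g ∈ F' ∩ B₁ ∩ O_∞ ∩ O_0` at a level `i` below `v*`, there are `Ψ ∈ F' ∩ B₁⁰ ∩ O_∞ ∩ O_0` and a
constant `κ` with `red_∞ g = (red_∞ Ψ)^p + κ` and `red_0 g = (red_0 Ψ)^p + κ`.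

* `stn_step_abs`  : abstract: leading terms in `Fk^p + k` + gluing + descent of lifts ⇒ (STEP);
* `stn_glued_of_mem_B` : the reduction of `g ∈ B₁ ∩ O` is glued (`B₁ = glbB`, helper22; it contains
  `glbB0 = ⋃ L(a D₁)`);
* `stn_hdesc`     : the descent of lifts at the level `M' p`, from `rlp_descent_pair` (helper4);
* `stn_step`      : (STEP), concrete: `R₁ = R`, `R₂ = inredZero R` (`= glmZero`),
  `D₁ = cuspDiv 1 1 = P_∞ + P_0`, `F' = ` the functions fixed by `H`; leading terms by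
  `stl_alpha`, `stl_beta` (`StepLead.lean`).
-/
import Mathlib
import Fermat.Agent.S33lib.StepRoot
import Fermat.Agent.S33lib.StepLead
import Fermat.Agent.S33lib.GlueB
import Fermat.Agent.S33lib.RayLiftPair
import Fermat.Agent.S34lib.GalRR

set_option autoImplicit false
set_option linter.style.haveILetI false
set_option linter.unusedSectionVars false
set_option linter.unusedVariables false
set_option synthInstance.maxHeartbeats 400000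

noncomputable section

namespace Fermat.Agent.S33lib

open ModularCurve AlgebraicCurve HahnSeries
open Fermat.Agent.S24lib Fermat.Agent.HeckeBar Fermat.Agent.S37lib Fermat.Agent.GoodRed
open Fermat.Agent.S35lib Fermat.Agent.S34lib Fermat.Agent.S36lib Fermat.Agent.RRlib

section Abs

variable {K F k : Type*} [Field K] [Field F] [Algebra K F] [Field k]
variable {Fk₁ Fk₂ : Type*} [Field Fk₁] [Field Fk₂] [Algebra k Fk₁] [Algebra k Fk₂]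
variable {A : ValuationSubring K} {π : A →+* k}
variable (R₁ : ConstRed A π Fk₁ F) (R₂ : ConstRed A π Fk₂ F)
variable {G : Gluing k (Fk₁ × Fk₂)} {p : ℕ} {D₁ : Divisor K F} {a₀ : ℕ}

/-- the reduction of an element of `B₁ ∩ O₁ ∩ O₂` is glued -/
theorem stn_glued_of_mem_B (hyp : TwistHyp (SSRed.ofPair R₁ R₂) G p D₁ a₀)
    (hD₁ : ∀ v, 0 ≤ D₁ v) {g : F} (hg₁ : g ∈ R₁.O) (hg₂ : g ∈ R₂.O)
    (hgB : g ∈ glbB (SSRed.ofPair R₁ R₂) D₁ hD₁) :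
    ∃ a : ℕ, a₀ ≤ a ∧ ((R₁.red ⟨g, hg₁⟩, R₂.red ⟨g, hg₂⟩) : Fk₁ × Fk₂) ∈ G.glued 1 a := by
  obtain ⟨a, x, hx, hred⟩ :=
    glb_exists_rep (S := SSRed.ofPair R₁ R₂) (⟨g, ⟨hg₁, hg₂⟩⟩ : (SSRed.ofPair R₁ R₂).O) hgB
  refine ⟨max a₀ a, le_max_left _ _, ?_⟩
  have h1 : ((R₁.red ⟨g, hg₁⟩, R₂.red ⟨g, hg₂⟩) : Fk₁ × Fk₂)
      = (SSRed.ofPair R₁ R₂).red x := hred.symm
  rw [h1, ← hyp.f3 (max a₀ a) (le_max_left _ _)]
  exact (SSRed.ofPair R₁ R₂).red_mem_redSp x (glb_L_mono hD₁ (le_max_right a₀ a) hx)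

/-- **(STEP), abstract**: leading terms in `Fk^p + k`, glued, and descent of lifts. -/
theorem stn_step_abs [CharP k p] (hp : p.Prime)
    (hyp : TwistHyp (SSRed.ofPair R₁ R₂) G p D₁ a₀) (hk : ∀ c : k, ∃ d : k, d ^ p = c)
    (Fix : F → Prop)
    (hdesc : ∀ (a : ℕ) (z : F) (hz₁ : z ∈ R₁.O) (hz₂ : z ∈ R₂.O),
      z ∈ riemannRochSpace (K := K) (a • D₁) →
      ∃ (s : F) (hs₁ : s ∈ R₁.O) (hs₂ : s ∈ R₂.O), s ∈ riemannRochSpace (K := K) (a • D₁) ∧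
        Fix s ∧ R₁.red ⟨s, hs₁⟩ = R₁.red ⟨z, hz₁⟩ ∧ R₂.red ⟨s, hs₂⟩ = R₂.red ⟨z, hz₂⟩)
    {g : F} (hg₁ : g ∈ R₁.O) (hg₂ : g ∈ R₂.O) {a : ℕ}
    (hglued : ((R₁.red ⟨g, hg₁⟩, R₂.red ⟨g, hg₂⟩) : Fk₁ × Fk₂) ∈ G.glued 1 a)
    (ψ₁ : Fk₁) (ψ₂ : Fk₂) (c₁ c₂ : k)
    (h₁ : R₁.red ⟨g, hg₁⟩ = ψ₁ ^ p + algebraMap k Fk₁ c₁)
    (h₂ : R₂.red ⟨g, hg₂⟩ = ψ₂ ^ p + algebraMap k Fk₂ c₂) :
    ∃ (a' : ℕ) (Ψ : F) (hΨ₁ : Ψ ∈ R₁.O) (hΨ₂ : Ψ ∈ R₂.O) (κ : k), a₀ ≤ a' ∧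
      Ψ ∈ riemannRochSpace (K := K) (a' • D₁) ∧ Fix Ψ ∧
      R₁.red ⟨g, hg₁⟩ = R₁.red ⟨Ψ, hΨ₁⟩ ^ p + algebraMap k Fk₁ κ ∧
      R₂.red ⟨g, hg₂⟩ = R₂.red ⟨Ψ, hΨ₂⟩ ^ p + algebraMap k Fk₂ κ := by
  obtain ⟨a', Ψ₀, hΨ₁, hΨ₂, κ, h0a, -, hΨL, hr₁, hr₂⟩ :=
    stn_root_pair R₁ R₂ hp hyp hk hg₁ hg₂ hglued ψ₁ ψ₂ c₁ c₂ h₁ h₂
  obtain ⟨s, hs₁, hs₂, hsL, hsF, e₁, e₂⟩ := hdesc a' Ψ₀ hΨ₁ hΨ₂ hΨL
  exact ⟨a', s, hs₁, hs₂, κ, h0a, hsL, hsF, by rw [e₁]; exact hr₁, by rw [e₂]; exact hr₂⟩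

end Abs

section Concrete

variable (M' p : ℕ) [NeZero M'] [NeZero p] [NeZero (M' * p)] (hp : p.Prime) (hpM : ¬ p ∣ M')
variable {A : ValuationSubring Kbar} [ExpChar (IsLocalRing.ResidueField A) p]
variable {Fk : IntermediateField (IsLocalRing.ResidueField A)
  (LaurentSeries (IsLocalRing.ResidueField A))}

/-- **descent of lifts** at the level `M' p` for the pair `(R, R₀)` and the divisors `a D₁`,
`D₁ = P_∞ + P_0`: the hypothesis `hdesc` of `stn_step_abs`, from `rlp_descent_pair`. -/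
theorem stn_hdesc [RRBase Kbar (FF (M' * p))] {H : Set (Kbar ≃ₐ[ℚ] Kbar)}
    {K' : IntermediateField ℚ Kbar} (hK' : ∀ c : Kbar, c ∈ K' ↔ ∀ σ ∈ H, σ c = c)
    (hK0 : k0Field A ≤ K') {ϖ : Kbar} (hd : VdDisc A K'.toSubfield ϖ)
    (hA : A.LiesOverPrime p)
    (R₁ R₂ : ConstRed A (IsLocalRing.residue A) (↥Fk) (FF (M' * p)))
    (hdisc₁ : ∀ f ∈ fixedLBC H (modularFunctionFieldFull (M' * p)), f ≠ 0 → ∃ n : ℤ,
      algebraMap Kbar (FF (M' * p)) (ϖ ^ n) * f ∈ R₁.O ∧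
        (algebraMap Kbar (FF (M' * p)) (ϖ ^ n) * f)⁻¹ ∈ R₁.O)
    (hdisc₂ : ∀ f ∈ fixedLBC H (modularFunctionFieldFull (M' * p)), f ≠ 0 → ∃ n : ℤ,
      algebraMap Kbar (FF (M' * p)) (ϖ ^ n) * f ∈ R₂.O ∧
        (algebraMap Kbar (FF (M' * p)) (ϖ ^ n) * f)⁻¹ ∈ R₂.O)
    (a : ℕ) (z : FF (M' * p)) (hz₁ : z ∈ R₁.O) (hz₂ : z ∈ R₂.O)
    (hz : z ∈ riemannRochSpace (K := Kbar)
      (a • cuspDiv (M' * p) p hp (dvd_mul_left p M') (inf_not_sq_dvd M' p hp hpM) 1 1)) :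
    ∃ (s : FF (M' * p)) (hs₁ : s ∈ R₁.O) (hs₂ : s ∈ R₂.O),
      s ∈ riemannRochSpace (K := Kbar)
        (a • cuspDiv (M' * p) p hp (dvd_mul_left p M') (inf_not_sq_dvd M' p hp hpM) 1 1) ∧
      (∀ σ ∈ H, galFF (M' * p) σ • s = s) ∧
      R₁.red ⟨s, hs₁⟩ = R₁.red ⟨z, hz₁⟩ ∧ R₂.red ⟨s, hs₂⟩ = R₂.red ⟨z, hz₂⟩ := by
  have hD : ∀ σ ∈ H, galFF (M' * p) σ •
      (a • cuspDiv (M' * p) p hp (dvd_mul_left p M') (inf_not_sq_dvd M' p hp hpM) 1 1)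
      = a • cuspDiv (M' * p) p hp (dvd_mul_left p M') (inf_not_sq_dvd M' p hp hpM) 1 1 := by
    intro σ _
    rw [smul_comm, galFF_smul_cuspDiv]
  obtain ⟨s, hs₁, hs₂, hsL, hsF, e₁, e₂⟩ :=
    rlp_descent_pair hK' hK0 hd hp hA R₁ R₂ hdisc₁ hdisc₂ _ hD z hz hz₁ hz₂
  exact ⟨s, hs₁, hs₂, hsL, hsF, e₁, e₂⟩

/-- **(STEP), concrete**, at the level `M' p`: for a Kummer function `u = c (1 + ϖ^i g)`
(`div u = p D`) of a `p`-new class, `g ∈ B₁ ∩ O_∞ ∩ O_0` fixed by `H`, `1 ≤ i`,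
`(p - 1) i < p e`: there are an `H`-fixed `Ψ ∈ L(a' D₁) ∩ O_∞ ∩ O_0` and a constant `κ` with
`red_∞ g = (red_∞ Ψ)^p + κ`, `red_0 g = (red_0 Ψ)^p + κ`. -/
theorem stn_step [RRBase (IsLocalRing.ResidueField A) (↥Fk)] [RRBase Kbar (FF (M' * p))]
    (hlt : A.valuation (p : Kbar) < 1) (hA : A.LiesOverPrime p)
    (hk : ∀ c : IsLocalRing.ResidueField A, ∃ d : IsLocalRing.ResidueField A, d ^ p = c)
    (R' : ConstRed A (IsLocalRing.residue A) (↥Fk) (FF M')) (hR' : IsSeriesRed R')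
    (R : ConstRed A (IsLocalRing.residue A) (↥Fk) (FF (M' * p))) (hR : IsSeriesRed R)
    {G : Gluing (IsLocalRing.ResidueField A) ((↥Fk) × (↥Fk))} {a₀ : ℕ}
    (hyp : TwistHyp (SSRed.ofPair R
        (inredZero (M' * p) p hp (dvd_mul_left p M') (inf_not_sq_dvd M' p hp hpM) R)) G p
      (cuspDiv (M' * p) p hp (dvd_mul_left p M') (inf_not_sq_dvd M' p hp hpM) 1 1) a₀)
    (hD₁ : ∀ v, 0 ≤ cuspDiv (M' * p) p hp (dvd_mul_left p M')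
      (inf_not_sq_dvd M' p hp hpM) 1 1 v)
    -- the rational structure
    {H : Set (Kbar ≃ₐ[ℚ] Kbar)} {K' : IntermediateField ℚ Kbar}
    (hK' : ∀ c : Kbar, c ∈ K' ↔ ∀ σ ∈ H, σ c = c) (hK0 : k0Field A ≤ K')
    {ϖ : Kbar} (hd : VdDisc A K'.toSubfield ϖ)
    -- level `M' p`: (DISC) for both valuations
    (hdisc₁ : ∀ f ∈ fixedLBC H (modularFunctionFieldFull (M' * p)), f ≠ 0 → ∃ n : ℤ,
      algebraMap Kbar (FF (M' * p)) (ϖ ^ n) * f ∈ R.O ∧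
        (algebraMap Kbar (FF (M' * p)) (ϖ ^ n) * f)⁻¹ ∈ R.O)
    (hdisc₂ : ∀ f ∈ fixedLBC H (modularFunctionFieldFull (M' * p)), f ≠ 0 → ∃ n : ℤ,
      algebraMap Kbar (FF (M' * p)) (ϖ ^ n) * f ∈
          (inredZero (M' * p) p hp (dvd_mul_left p M') (inf_not_sq_dvd M' p hp hpM) R).O ∧
        (algebraMap Kbar (FF (M' * p)) (ϖ ^ n) * f)⁻¹ ∈
          (inredZero (M' * p) p hp (dvd_mul_left p M') (inf_not_sq_dvd M' p hp hpM) R).O)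
    -- level `M'`: (DISC), (RES1)
    (hdisc' : ∀ f ∈ fixedLBC H (modularFunctionFieldFull M'), f ≠ 0 → ∃ n : ℤ,
      algebraMap Kbar (FF M') (ϖ ^ n) * f ∈ R'.O ∧
        (algebraMap Kbar (FF M') (ϖ ^ n) * f)⁻¹ ∈ R'.O)
    (hres1' : ∀ c : IsLocalRing.ResidueField A, ∃ a : A,
      IsLocalRing.residue A a = c ∧
        algebraMap Kbar (FF M') (a : Kbar) ∈ fixedLBC H (modularFunctionFieldFull M'))
    {e i : ℕ} (hi : 1 ≤ i) (hpe : ∃ ε ∈ A, (p : Kbar) = ϖ ^ e * ε) (hie : (p - 1) * i < p * e)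
    -- the `p`-new class and its Kummer function
    (D : Divisor.degZero (K := Kbar) (F := FF (M' * p))) {u : FF (M' * p)} (hu0 : u ≠ 0)
    (hD : ∀ w : Place Kbar (FF (M' * p)), (p • (D : Divisor Kbar (FF (M' * p)))) w = w.ord u)
    (hα : degJAlpha M' p (Pic0.mk D) = 0) (hβ : degJBeta M' p (Pic0.mk D) = 0)
    (c : Kbar) (g : FF (M' * p)) (hg : g ∈ R.O)
    (hg₀ : g ∈ (inredZero (M' * p) p hp (dvd_mul_left p M') (inf_not_sq_dvd M' p hp hpM) R).O)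
    (hgH : ∀ σ ∈ H, galFF (M' * p) σ • g = g)
    (hgB : g ∈ glbB (SSRed.ofPair R
        (inredZero (M' * p) p hp (dvd_mul_left p M') (inf_not_sq_dvd M' p hp hpM) R))
      (cuspDiv (M' * p) p hp (dvd_mul_left p M') (inf_not_sq_dvd M' p hp hpM) 1 1) hD₁)
    (hu : u = algebraMap Kbar (FF (M' * p)) c
      * (1 + algebraMap Kbar (FF (M' * p)) (ϖ ^ i) * g)) :
    ∃ (a' : ℕ) (Ψ : FF (M' * p)) (hΨ₁ : Ψ ∈ R.O)
      (hΨ₂ : Ψ ∈ (inredZero (M' * p) p hp (dvd_mul_left p M')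
        (inf_not_sq_dvd M' p hp hpM) R).O) (κ : IsLocalRing.ResidueField A),
      a₀ ≤ a' ∧
      Ψ ∈ riemannRochSpace (K := Kbar)
        (a' • cuspDiv (M' * p) p hp (dvd_mul_left p M') (inf_not_sq_dvd M' p hp hpM) 1 1) ∧
      (∀ σ ∈ H, galFF (M' * p) σ • Ψ = Ψ) ∧
      R.red ⟨g, hg⟩ = R.red ⟨Ψ, hΨ₁⟩ ^ p
        + algebraMap (IsLocalRing.ResidueField A) (↥Fk) κ ∧
      (inredZero (M' * p) p hp (dvd_mul_left p M') (inf_not_sq_dvd M' p hp hpM) R).red ⟨g, hg₀⟩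
        = (inredZero (M' * p) p hp (dvd_mul_left p M')
            (inf_not_sq_dvd M' p hp hpM) R).red ⟨Ψ, hΨ₂⟩ ^ p
          + algebraMap (IsLocalRing.ResidueField A) (↥Fk) κ := by
  classical
  haveI : CharP (IsLocalRing.ResidueField A) p := kf_charP_of_expChar _ hp
  have hϖ0 : ϖ ≠ 0 := hd.2.1
  have hϖA : ϖ ∈ A.nonunits := (A.mem_nonunits_iff).mpr hd.2.2.1
  have hϖH : ∀ σ ∈ H, σ ϖ = ϖ := (hK' ϖ).mp hd.1
  have hϖ1 : algebraMap Kbar (FF M') ϖ ∈ fixedLBC H (modularFunctionFieldFull M') := by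
    rw [algebraMap_mem_fixedLBC_iff (modularFunctionFieldFull M') hK']
    exact hd.1
  have hF1' : ∀ x : FF M', (∀ σ ∈ H, galFF M' σ • x = x) →
      x ∈ fixedLBC H (modularFunctionFieldFull M') := fun x hx => hx
  -- the leading terms
  obtain ⟨ψ₁, c₁, h₁⟩ := stl_alpha M' p hp hpM hlt R' hR' R hR H
    (fixedLBC H (modularFunctionFieldFull M')) hF1' hϖ0 hϖA hϖH hϖ1 hdisc' hres1' hi hpe hie
    D hu0 hD hα c g hg hg₀ hgH hu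
  obtain ⟨ψ₂, c₂, h₂⟩ := stl_beta M' p hp hpM hlt R' hR' R hR H
    (fixedLBC H (modularFunctionFieldFull M')) hF1' hϖ0 hϖA hϖH hϖ1 hdisc' hres1' hi hpe hie
    D hu0 hD hβ c g hg hg₀ hgH hu
  -- gluing
  obtain ⟨a, -, hglued⟩ := stn_glued_of_mem_B R _ hyp hD₁ hg hg₀ hgB
  exact stn_step_abs R _ hp hyp hk (fun s => ∀ σ ∈ H, galFF (M' * p) σ • s = s)
    (fun a z hz₁ hz₂ hz => stn_hdesc M' p hp hpM hK' hK0 hd hA R _ hdisc₁ hdisc₂ a z hz₁ hz₂ hz)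
    hg hg₀ hglued ψ₁ ψ₂ c₁ c₂ h₁ h₂

end Concrete

end Fermat.Agent.S33lib

end
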