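import Mathlib
import Fermat.Agent.S33lib.StepNewA
import Fermat.Agent.S35lib.Frob2K

/-!
# Item 86 (S33), block TOR_p, piece T4a, Kummer form (helper24)

The statement of `StepNewA.lean` (`sna_lead`) with the hypothesis "`p`-new" in KUMMER form
(`S35lib.IsKummerNew M' p p f`: both norms of `f` are constants times `p`-th powers), the form
used by `TasTorK` (helper13): for `f · w^p = c · (1 + lam^i g)`, `g ∈ R.O ∩ R₀.O`,
`(p - 1) i < p e`: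

  `red_∞ g = ψ₁^p + κ₁`,  `red_0 g = ψ₂^p + κ₂`   (`ψ₁ = ψ₂ = 0` if `p ∤ i`).

* `snk_lead_alpha`, `snk_lead_beta`: one norm each (hypothesis: the norm of `f` is `c₁ g₁^p`);
* `snk_lead`: both, from `IsKummerNew`.
-/

set_option autoImplicit false
set_option linter.style.haveILetI false
set_option linter.unusedSectionVars false
set_option linter.unusedVariables false

noncomputable section

namespace Fermat.Agent.S33lib

open ModularCurve AlgebraicCurve HahnSeries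
open Fermat.Agent.S24lib Fermat.Agent.HeckeBar Fermat.Agent.S37lib Fermat.Agent.GoodRed
open Fermat.Agent.S35lib Fermat.Agent.S34lib Fermat.Agent.RRlib

variable (M' p : ℕ) [NeZero M'] [NeZero p] (hp : p.Prime) (hpM : ¬ p ∣ M')
variable {A : ValuationSubring Kbar} [ExpChar (IsLocalRing.ResidueField A) p]
variable {Fk : IntermediateField (IsLocalRing.ResidueField A)
  (LaurentSeries (IsLocalRing.ResidueField A))}

/-- `lam^i` as an element of the maximal ideal of `A` -/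
theorem snk_pow_data {lam : Kbar} (hlam0 : lam ≠ 0) (hlamA : lam ∈ A.nonunits) {i : ℕ}
    (hi : 1 ≤ i) :
    ∃ a : A, (a : Kbar) = lam ^ i ∧ a ≠ 0 ∧ IsLocalRing.residue A a = 0 := by
  have hlamA' : lam ∈ A := A.nonunits_subset hlamA
  have hlv : A.valuation lam < 1 := hlamA
  refine ⟨⟨lam ^ i, pow_mem hlamA' i⟩, rfl, fun h => pow_ne_zero i hlam0 (congrArg Subtype.val h),
    ?_⟩
  rw [IsLocalRing.residue_eq_zero_iff, ValuationSubring.valuation_lt_one_iff, map_pow]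
  exact pow_lt_one₀ zero_le hlv (by omega)

/-- **T4a, `α`, Kummer form** -/
theorem snk_lead_alpha [RRBase (IsLocalRing.ResidueField A) ↥Fk]
    (hlt : A.valuation (p : Kbar) < 1)
    (R' : ConstRed A (IsLocalRing.residue A) (↥Fk) (FF M')) (hR' : IsSeriesRed R')
    (R : ConstRed A (IsLocalRing.residue A) (↥Fk) (FF (M' * p))) (hR : IsSeriesRed R)
    (F1 : Subfield (FF M')) (lam : Kbar) (hlam0 : lam ≠ 0) (hlamA : lam ∈ A.nonunits)
    (hlam1 : algebraMap Kbar (FF M') lam ∈ F1)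
    (hdisc : ∀ f ∈ F1, f ≠ 0 → ∃ n : ℤ,
      algebraMap Kbar (FF M') (lam ^ n) * f ∈ R'.O ∧
        (algebraMap Kbar (FF M') (lam ^ n) * f)⁻¹ ∈ R'.O)
    (hres1 : ∀ c : IsLocalRing.ResidueField A, ∃ a : A, IsLocalRing.residue A a = c ∧
      algebraMap Kbar (FF M') (a : Kbar) ∈ F1)
    {e i : ℕ} (hi : 1 ≤ i) (hpe : ∃ ε ∈ A, (p : Kbar) = lam ^ e * ε)
    (hie : (p - 1) * i < p * e)
    (hcan : ∀ u ∈ F1, (∃ (c : Kbar) (s : FF M'), u = algebraMap Kbar (FF M') c * s ^ p) →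
      ∃ (c' : Kbar) (s' : FF M'), s' ∈ F1 ∧ u = algebraMap Kbar (FF M') c' * s' ^ p)
    (g : FF (M' * p)) (hg : g ∈ R.O)
    (hg₀ : g ∈ (inredZero (M' * p) p hp (dvd_mul_left p M') (inf_not_sq_dvd M' p hp hpM) R).O)
    (hNα : normAlong (heckeAlphaBar Kbar M' p)
      (1 + algebraMap Kbar (FF (M' * p)) (lam ^ i) * g) ∈ F1)
    (c : Kbar) (hc : c ≠ 0) (w f : FF (M' * p))
    (hfw : f * w ^ p = algebraMap Kbar (FF (M' * p)) c
      * (1 + algebraMap Kbar (FF (M' * p)) (lam ^ i) * g))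
    (hα : ∃ (c₁ : Kbar) (g₁ : FF M'),
      normAlong (heckeAlphaBar Kbar M' p) f = algebraMap Kbar (FF M') c₁ * g₁ ^ p) :
    ∃ (ψ : ↥Fk) (κ : IsLocalRing.ResidueField A),
      R.red ⟨g, hg⟩ = ψ ^ p + algebraMap (IsLocalRing.ResidueField A) (↥Fk) κ ∧
      (¬ p ∣ i → ψ = 0) := by
  obtain ⟨a, haK, ha0, ha⟩ := snk_pow_data (A := A) hlam0 hlamA hi
  obtain ⟨t, ht, hNt, hrt⟩ := nf1_alpha M' p hp hpM hlt R' hR' R hR a ha ha0 g hg hg₀
  rw [haK] at hNt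
  obtain ⟨c₁, g₁, hN⟩ := hα
  obtain ⟨c', s, hcs⟩ := sna_pow_of_norm (heckeAlphaBar Kbar M' p) p c hc w f _ hfw c₁ g₁ hN
  obtain ⟨c'', s', hs'1, hcs'⟩ := hcan _ hNα ⟨c', s, hcs⟩
  rw [hNt] at hcs'
  obtain ⟨ψ, cb, hψ, hψ0⟩ := lvi_inv R' F1 hp hlam0 hlamA hlam1 hdisc hres1 hi hpe hie ht c'' s'
    hs'1 hcs'
  exact ⟨ψ, cb, by rw [← hrt, hψ], hψ0⟩

/-- **T4a, `β`, Kummer form** -/
theorem snk_lead_beta [RRBase (IsLocalRing.ResidueField A) ↥Fk]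
    (hlt : A.valuation (p : Kbar) < 1)
    (R' : ConstRed A (IsLocalRing.residue A) (↥Fk) (FF M')) (hR' : IsSeriesRed R')
    (R : ConstRed A (IsLocalRing.residue A) (↥Fk) (FF (M' * p))) (hR : IsSeriesRed R)
    (F1 : Subfield (FF M')) (lam : Kbar) (hlam0 : lam ≠ 0) (hlamA : lam ∈ A.nonunits)
    (hlam1 : algebraMap Kbar (FF M') lam ∈ F1)
    (hdisc : ∀ f ∈ F1, f ≠ 0 → ∃ n : ℤ,
      algebraMap Kbar (FF M') (lam ^ n) * f ∈ R'.O ∧
        (algebraMap Kbar (FF M') (lam ^ n) * f)⁻¹ ∈ R'.O)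
    (hres1 : ∀ c : IsLocalRing.ResidueField A, ∃ a : A, IsLocalRing.residue A a = c ∧
      algebraMap Kbar (FF M') (a : Kbar) ∈ F1)
    {e i : ℕ} (hi : 1 ≤ i) (hpe : ∃ ε ∈ A, (p : Kbar) = lam ^ e * ε)
    (hie : (p - 1) * i < p * e)
    (hcan : ∀ u ∈ F1, (∃ (c : Kbar) (s : FF M'), u = algebraMap Kbar (FF M') c * s ^ p) →
      ∃ (c' : Kbar) (s' : FF M'), s' ∈ F1 ∧ u = algebraMap Kbar (FF M') c' * s' ^ p)
    (g : FF (M' * p)) (hg : g ∈ R.O)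
    (hg₀ : g ∈ (inredZero (M' * p) p hp (dvd_mul_left p M') (inf_not_sq_dvd M' p hp hpM) R).O)
    (hNβ : normAlong (heckeBetaBar Kbar M' p)
      (1 + algebraMap Kbar (FF (M' * p)) (lam ^ i) * g) ∈ F1)
    (c : Kbar) (hc : c ≠ 0) (w f : FF (M' * p))
    (hfw : f * w ^ p = algebraMap Kbar (FF (M' * p)) c
      * (1 + algebraMap Kbar (FF (M' * p)) (lam ^ i) * g))
    (hβ : ∃ (c₁ : Kbar) (g₁ : FF M'),
      normAlong (heckeBetaBar Kbar M' p) f = algebraMap Kbar (FF M') c₁ * g₁ ^ p) :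
    ∃ (ψ : ↥Fk) (κ : IsLocalRing.ResidueField A),
      (inredZero (M' * p) p hp (dvd_mul_left p M') (inf_not_sq_dvd M' p hp hpM) R).red ⟨g, hg₀⟩
        = ψ ^ p + algebraMap (IsLocalRing.ResidueField A) (↥Fk) κ ∧
      (¬ p ∣ i → ψ = 0) := by
  obtain ⟨a, haK, ha0, ha⟩ := snk_pow_data (A := A) hlam0 hlamA hi
  obtain ⟨t, ht, hNt, hrt⟩ := nf1_beta M' p hp hpM hlt R' hR' R hR a ha ha0 g hg hg₀
  rw [haK] at hNt
  obtain ⟨c₁, g₁, hN⟩ := hβ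
  obtain ⟨c', s, hcs⟩ := sna_pow_of_norm (heckeBetaBar Kbar M' p) p c hc w f _ hfw c₁ g₁ hN
  obtain ⟨c'', s', hs'1, hcs'⟩ := hcan _ hNβ ⟨c', s, hcs⟩
  rw [hNt] at hcs'
  obtain ⟨ψ, cb, hψ, hψ0⟩ := lvi_inv R' F1 hp hlam0 hlamA hlam1 hdisc hres1 hi hpe hie ht c'' s'
    hs'1 hcs'
  exact ⟨ψ, cb, by rw [← hrt, hψ], hψ0⟩

/-- **T4a, Kummer form**: the leading terms of a Kummer-new function, at a level below `v*`,
lie in `Fk^p + k` on both components -/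
theorem snk_lead [RRBase (IsLocalRing.ResidueField A) ↥Fk]
    (hlt : A.valuation (p : Kbar) < 1)
    (R' : ConstRed A (IsLocalRing.residue A) (↥Fk) (FF M')) (hR' : IsSeriesRed R')
    (R : ConstRed A (IsLocalRing.residue A) (↥Fk) (FF (M' * p))) (hR : IsSeriesRed R)
    (F1 : Subfield (FF M')) (lam : Kbar) (hlam0 : lam ≠ 0) (hlamA : lam ∈ A.nonunits)
    (hlam1 : algebraMap Kbar (FF M') lam ∈ F1)
    (hdisc : ∀ f ∈ F1, f ≠ 0 → ∃ n : ℤ,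
      algebraMap Kbar (FF M') (lam ^ n) * f ∈ R'.O ∧
        (algebraMap Kbar (FF M') (lam ^ n) * f)⁻¹ ∈ R'.O)
    (hres1 : ∀ c : IsLocalRing.ResidueField A, ∃ a : A, IsLocalRing.residue A a = c ∧
      algebraMap Kbar (FF M') (a : Kbar) ∈ F1)
    {e i : ℕ} (hi : 1 ≤ i) (hpe : ∃ ε ∈ A, (p : Kbar) = lam ^ e * ε)
    (hie : (p - 1) * i < p * e)
    (hcan : ∀ u ∈ F1, (∃ (c : Kbar) (s : FF M'), u = algebraMap Kbar (FF M') c * s ^ p) →
      ∃ (c' : Kbar) (s' : FF M'), s' ∈ F1 ∧ u = algebraMap Kbar (FF M') c' * s' ^ p)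
    (g : FF (M' * p)) (hg : g ∈ R.O)
    (hg₀ : g ∈ (inredZero (M' * p) p hp (dvd_mul_left p M') (inf_not_sq_dvd M' p hp hpM) R).O)
    (hNα : normAlong (heckeAlphaBar Kbar M' p)
      (1 + algebraMap Kbar (FF (M' * p)) (lam ^ i) * g) ∈ F1)
    (hNβ : normAlong (heckeBetaBar Kbar M' p)
      (1 + algebraMap Kbar (FF (M' * p)) (lam ^ i) * g) ∈ F1)
    (c : Kbar) (hc : c ≠ 0) (w f : FF (M' * p))
    (hfw : f * w ^ p = algebraMap Kbar (FF (M' * p)) c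
      * (1 + algebraMap Kbar (FF (M' * p)) (lam ^ i) * g))
    (hnew : IsKummerNew M' p p f) :
    ∃ (ψ₁ ψ₂ : ↥Fk) (κ₁ κ₂ : IsLocalRing.ResidueField A),
      R.red ⟨g, hg⟩ = ψ₁ ^ p + algebraMap (IsLocalRing.ResidueField A) (↥Fk) κ₁ ∧
      (inredZero (M' * p) p hp (dvd_mul_left p M') (inf_not_sq_dvd M' p hp hpM) R).red ⟨g, hg₀⟩
        = ψ₂ ^ p + algebraMap (IsLocalRing.ResidueField A) (↥Fk) κ₂ ∧
      (¬ p ∣ i → ψ₁ = 0 ∧ ψ₂ = 0) := by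
  obtain ⟨ψ₁, κ₁, h₁, h₁'⟩ := snk_lead_alpha M' p hp hpM hlt R' hR' R hR F1 lam hlam0 hlamA hlam1
    hdisc hres1 hi hpe hie hcan g hg hg₀ hNα c hc w f hfw hnew.1
  obtain ⟨ψ₂, κ₂, h₂, h₂'⟩ := snk_lead_beta M' p hp hpM hlt R' hR' R hR F1 lam hlam0 hlamA hlam1
    hdisc hres1 hi hpe hie hcan g hg hg₀ hNβ c hc w f hfw hnew.2
  exact ⟨ψ₁, ψ₂, κ₁, κ₂, h₁, h₂, fun h => ⟨h₁' h, h₂' h⟩⟩

end Fermat.Agent.S33lib
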