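/-
Item 86 (S33), block TOR_p, piece T4 = (STEP), KUMMER form (helper17).  Complete proofs.

The hypothesis `hstep` of the level induction (LEVB) in the form used by the assembler
(`TasTorK`, helper13): the class is given by a Kummer-new function `f₁`
(`S35lib.IsKummerNew M' p p f₁`: both norms to the level `M'` are constants times `p`-th powers).

`stk_step`: if `f₁ w^p = c (1 + ϖ^i g)`, `c ≠ 0`, `g ∈ B₁ ∩ O_∞ ∩ O_0` fixed by `H`, `1 ≤ i`,
`(p - 1) i < p e`, then there are an `H`-fixed `Ψ ∈ L(a' D₁) ∩ O_∞ ∩ O_0` and a constant `κ`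
with `red_∞ g = (red_∞ Ψ)^p + κ`, `red_0 g = (red_0 Ψ)^p + κ`.

Leading terms: `snk_lead` (helper24), with (CAN) discharged by `kdn_descent_set` and the
rationality of the norms by `sna_norm_fixed_alpha/beta`; gluing and descent: `StepNew.lean`.
-/
import Mathlib
import Fermat.Agent.S33lib.StepNew
import Fermat.Agent.S33lib.StepNewK

set_option autoImplicit false
set_option linter.style.haveILetI false
set_option linter.unusedSectionVars false
set_option linter.unusedVariables false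
set_option synthInstance.maxHeartbeats 400000

noncomputable section

namespace Fermat.Agent.S33lib

open ModularCurve AlgebraicCurve HahnSeries
open Fermat.Agent.S24lib Fermat.Agent.HeckeBar Fermat.Agent.S37lib Fermat.Agent.GoodRed
open Fermat.Agent.S35lib Fermat.Agent.S34lib Fermat.Agent.S36lib Fermat.Agent.RRlib

/-- **(CAN) for functions at the level `L`**: an `H`-fixed function which is a constant times a
`p`-th power is a constant times the `p`-th power of an `H`-fixed function. -/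
theorem stk_hcan (L p : ℕ) [NeZero L] (H : Set (Kbar ≃ₐ[ℚ] Kbar)) :
    ∀ u ∈ fixedLBC H (modularFunctionFieldFull L),
      (∃ (c : Kbar) (s : FF L), u = algebraMap Kbar (FF L) c * s ^ p) →
      ∃ (c' : Kbar) (s' : FF L), s' ∈ fixedLBC H (modularFunctionFieldFull L) ∧
        u = algebraMap Kbar (FF L) c' * s' ^ p := by
  intro u hu h
  rcases eq_or_ne u 0 with rfl | hu0
  · exact ⟨0, 1, (fixedLBC H (modularFunctionFieldFull L)).one_mem, by rw [map_zero, zero_mul]⟩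
  · obtain ⟨c', s', -, -, hzc, -, hs'fix⟩ := kdn_descent_set L p H hu0 hu h
    exact ⟨c', s', hs'fix, hzc⟩

section Concrete

variable (M' p : ℕ) [NeZero M'] [NeZero p] [NeZero (M' * p)] (hp : p.Prime) (hpM : ¬ p ∣ M')
variable {A : ValuationSubring Kbar} [ExpChar (IsLocalRing.ResidueField A) p]
variable {Fk : IntermediateField (IsLocalRing.ResidueField A)
  (LaurentSeries (IsLocalRing.ResidueField A))}

/-- **the leading terms of a Kummer-new function**, rational structure = the `H`-fixed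
functions (no (CAN) hypothesis, no hypothesis on the norms). -/
theorem stk_lead [RRBase (IsLocalRing.ResidueField A) (↥Fk)]
    (hlt : A.valuation (p : Kbar) < 1)
    (R' : ConstRed A (IsLocalRing.residue A) (↥Fk) (FF M')) (hR' : IsSeriesRed R')
    (R : ConstRed A (IsLocalRing.residue A) (↥Fk) (FF (M' * p))) (hR : IsSeriesRed R)
    {H : Set (Kbar ≃ₐ[ℚ] Kbar)}
    {ϖ : Kbar} (hϖ0 : ϖ ≠ 0) (hϖA : ϖ ∈ A.nonunits) (hϖH : ∀ σ ∈ H, σ ϖ = ϖ)
    (hdisc' : ∀ f ∈ fixedLBC H (modularFunctionFieldFull M'), f ≠ 0 → ∃ n : ℤ,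
      algebraMap Kbar (FF M') (ϖ ^ n) * f ∈ R'.O ∧
        (algebraMap Kbar (FF M') (ϖ ^ n) * f)⁻¹ ∈ R'.O)
    (hres1' : ∀ c : IsLocalRing.ResidueField A, ∃ a : A,
      IsLocalRing.residue A a = c ∧
        algebraMap Kbar (FF M') (a : Kbar) ∈ fixedLBC H (modularFunctionFieldFull M'))
    {e i : ℕ} (hi : 1 ≤ i) (hpe : ∃ ε ∈ A, (p : Kbar) = ϖ ^ e * ε) (hie : (p - 1) * i < p * e)
    (f₁ w : FF (M' * p)) (hnew : IsKummerNew M' p p f₁)
    (c : Kbar) (hc : c ≠ 0) (g : FF (M' * p)) (hg : g ∈ R.O)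
    (hg₀ : g ∈ (inredZero (M' * p) p hp (dvd_mul_left p M') (inf_not_sq_dvd M' p hp hpM) R).O)
    (hgH : ∀ σ ∈ H, galFF (M' * p) σ • g = g)
    (hfw : f₁ * w ^ p = algebraMap Kbar (FF (M' * p)) c
      * (1 + algebraMap Kbar (FF (M' * p)) (ϖ ^ i) * g)) :
    ∃ (ψ₁ ψ₂ : ↥Fk) (κ₁ κ₂ : IsLocalRing.ResidueField A),
      R.red ⟨g, hg⟩ = ψ₁ ^ p + algebraMap (IsLocalRing.ResidueField A) (↥Fk) κ₁ ∧
      (inredZero (M' * p) p hp (dvd_mul_left p M') (inf_not_sq_dvd M' p hp hpM) R).red ⟨g, hg₀⟩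
        = ψ₂ ^ p + algebraMap (IsLocalRing.ResidueField A) (↥Fk) κ₂ := by
  have hϖ1 : algebraMap Kbar (FF M') ϖ ∈ fixedLBC H (modularFunctionFieldFull M') := by
    intro σ hσ
    have h : arithmeticGalois (modularFunctionFieldFull M') σ • algebraMap Kbar (FF M') ϖ
        = algebraMap Kbar (FF M') (σ ϖ) :=
      arithmeticRingAut_algebraMap (modularFunctionFieldFull M') σ ϖ
    rw [h, hϖH σ hσ]
  have hNα : normAlong (heckeAlphaBar Kbar M' p)
      (1 + algebraMap Kbar (FF (M' * p)) (ϖ ^ i) * g)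
        ∈ fixedLBC H (modularFunctionFieldFull M') := by
    intro σ hσ
    exact sna_norm_fixed_alpha M' p σ (ϖ ^ i) (by rw [map_pow, hϖH σ hσ]) g (hgH σ hσ)
  have hNβ : normAlong (heckeBetaBar Kbar M' p)
      (1 + algebraMap Kbar (FF (M' * p)) (ϖ ^ i) * g)
        ∈ fixedLBC H (modularFunctionFieldFull M') := by
    intro σ hσ
    exact sna_norm_fixed_beta M' p σ (ϖ ^ i) (by rw [map_pow, hϖH σ hσ]) g (hgH σ hσ)
  obtain ⟨ψ₁, ψ₂, κ₁, κ₂, h₁, h₂, -⟩ := snk_lead M' p hp hpM hlt R' hR' R hR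
    (fixedLBC H (modularFunctionFieldFull M')) ϖ hϖ0 hϖA hϖ1 hdisc' hres1' hi hpe hie
    (stk_hcan M' p H) g hg hg₀ hNα hNβ c hc w f₁ hfw hnew
  exact ⟨ψ₁, ψ₂, κ₁, κ₂, h₁, h₂⟩

/-- **(STEP), Kummer form**, at the level `M' p` (the hypothesis `hstep` of LEVB for a
Kummer-new function `f₁`). -/
theorem stk_step [RRBase (IsLocalRing.ResidueField A) (↥Fk)] [RRBase Kbar (FF (M' * p))]
    (hlt : A.valuation (p : Kbar) < 1) (hA : A.LiesOverPrime p)
    (hk : ∀ c : IsLocalRing.ResidueField A, ∃ d : IsLocalRing.ResidueField A, d ^ p = c)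
    (R' : ConstRed A (IsLocalRing.residue A) (↥Fk) (FF M')) (hR' : IsSeriesRed R')
    (R : ConstRed A (IsLocalRing.residue A) (↥Fk) (FF (M' * p))) (hR : IsSeriesRed R)
    {G : Gluing (IsLocalRing.ResidueField A) ((↥Fk) × (↥Fk))} {a₀ : ℕ}
    (hyp : TwistHyp (SSRed.ofPair R
        (inredZero (M' * p) p hp (dvd_mul_left p M') (inf_not_sq_dvd M' p hp hpM) R)) G p
      (cuspDiv (M' * p) p hp (dvd_mul_left p M') (inf_not_sq_dvd M' p hp hpM) 1 1) a₀)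
    (hD₁ : ∀ v, 0 ≤ cuspDiv (M' * p) p hp (dvd_mul_left p M')
      (inf_not_sq_dvd M' p hp hpM) 1 1 v)
    {H : Set (Kbar ≃ₐ[ℚ] Kbar)} {K' : IntermediateField ℚ Kbar}
    (hK' : ∀ c : Kbar, c ∈ K' ↔ ∀ σ ∈ H, σ c = c) (hK0 : k0Field A ≤ K')
    {ϖ : Kbar} (hd : VdDisc A K'.toSubfield ϖ)
    (hdisc₁ : ∀ f ∈ fixedLBC H (modularFunctionFieldFull (M' * p)), f ≠ 0 → ∃ n : ℤ,
      algebraMap Kbar (FF (M' * p)) (ϖ ^ n) * f ∈ R.O ∧
        (algebraMap Kbar (FF (M' * p)) (ϖ ^ n) * f)⁻¹ ∈ R.O)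
    (hdisc₂ : ∀ f ∈ fixedLBC H (modularFunctionFieldFull (M' * p)), f ≠ 0 → ∃ n : ℤ,
      algebraMap Kbar (FF (M' * p)) (ϖ ^ n) * f ∈
          (inredZero (M' * p) p hp (dvd_mul_left p M') (inf_not_sq_dvd M' p hp hpM) R).O ∧
        (algebraMap Kbar (FF (M' * p)) (ϖ ^ n) * f)⁻¹ ∈
          (inredZero (M' * p) p hp (dvd_mul_left p M') (inf_not_sq_dvd M' p hp hpM) R).O)
    (hdisc' : ∀ f ∈ fixedLBC H (modularFunctionFieldFull M'), f ≠ 0 → ∃ n : ℤ,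
      algebraMap Kbar (FF M') (ϖ ^ n) * f ∈ R'.O ∧
        (algebraMap Kbar (FF M') (ϖ ^ n) * f)⁻¹ ∈ R'.O)
    (hres1' : ∀ c : IsLocalRing.ResidueField A, ∃ a : A,
      IsLocalRing.residue A a = c ∧
        algebraMap Kbar (FF M') (a : Kbar) ∈ fixedLBC H (modularFunctionFieldFull M'))
    {e i : ℕ} (hi : 1 ≤ i) (hpe : ∃ ε ∈ A, (p : Kbar) = ϖ ^ e * ε) (hie : (p - 1) * i < p * e)
    (f₁ w : FF (M' * p)) (hnew : IsKummerNew M' p p f₁)
    (c : Kbar) (hc : c ≠ 0) (g : FF (M' * p)) (hg : g ∈ R.O)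
    (hg₀ : g ∈ (inredZero (M' * p) p hp (dvd_mul_left p M') (inf_not_sq_dvd M' p hp hpM) R).O)
    (hgH : ∀ σ ∈ H, galFF (M' * p) σ • g = g)
    (hgB : g ∈ glbB (SSRed.ofPair R
        (inredZero (M' * p) p hp (dvd_mul_left p M') (inf_not_sq_dvd M' p hp hpM) R))
      (cuspDiv (M' * p) p hp (dvd_mul_left p M') (inf_not_sq_dvd M' p hp hpM) 1 1) hD₁)
    (hfw : f₁ * w ^ p = algebraMap Kbar (FF (M' * p)) c
      * (1 + algebraMap Kbar (FF (M' * p)) (ϖ ^ i) * g)) :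
    ∃ (a' : ℕ) (Ψ : FF (M' * p)) (hΨ₁ : Ψ ∈ R.O)
      (hΨ₂ : Ψ ∈ (inredZero (M' * p) p hp (dvd_mul_left p M')
        (inf_not_sq_dvd M' p hp hpM) R).O) (κ : IsLocalRing.ResidueField A),
      a₀ ≤ a' ∧
      Ψ ∈ riemannRochSpace (K := Kbar)
        (a' • cuspDiv (M' * p) p hp (dvd_mul_left p M') (inf_not_sq_dvd M' p hp hpM) 1 1) ∧
      (∀ σ ∈ H, galFF (M' * p) σ • Ψ = Ψ) ∧
      R.red ⟨g, hg⟩ = R.red ⟨Ψ, hΨ₁⟩ ^ p
        + algebraMap (IsLocalRing.ResidueField A) (↥Fk) κ ∧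
      (inredZero (M' * p) p hp (dvd_mul_left p M') (inf_not_sq_dvd M' p hp hpM) R).red ⟨g, hg₀⟩
        = (inredZero (M' * p) p hp (dvd_mul_left p M')
            (inf_not_sq_dvd M' p hp hpM) R).red ⟨Ψ, hΨ₂⟩ ^ p
          + algebraMap (IsLocalRing.ResidueField A) (↥Fk) κ := by
  classical
  haveI : CharP (IsLocalRing.ResidueField A) p := kf_charP_of_expChar _ hp
  have hϖ0 : ϖ ≠ 0 := hd.2.1
  have hϖA : ϖ ∈ A.nonunits := (A.mem_nonunits_iff).mpr hd.2.2.1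
  have hϖH : ∀ σ ∈ H, σ ϖ = ϖ := (hK' ϖ).mp hd.1
  obtain ⟨ψ₁, ψ₂, c₁, c₂, h₁, h₂⟩ := stk_lead M' p hp hpM hlt R' hR' R hR hϖ0 hϖA hϖH
    hdisc' hres1' hi hpe hie f₁ w hnew c hc g hg hg₀ hgH hfw
  obtain ⟨a, -, hglued⟩ := stn_glued_of_mem_B R _ hyp hD₁ hg hg₀ hgB
  exact stn_step_abs R _ hp hyp hk (fun s => ∀ σ ∈ H, galFF (M' * p) σ • s = s)
    (fun a z hz₁ hz₂ hz => stn_hdesc M' p hp hpM hK' hK0 hd hA R _ hdisc₁ hdisc₂ a z hz₁ hz₂ hz)
    hg hg₀ hglued ψ₁ ψ₂ c₁ c₂ h₁ h₂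

end Concrete

end Fermat.Agent.S33lib

end
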