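/-
Item 86 (S33), block TOR_p, piece T4 (STEP): the hypotheses of `stk_step` (helper17) at the level
`M'` discharged from the landed files (helper12, for the assembler helper13).  Complete proofs.

* `skc_exists_red`: a series reduction `R'` of `FF M'` along `A ∣ p`, `p ∤ M'`
  (`exists_modConstRed` + `hred_modL`; no auxiliary level is needed);
* `skc_res`: (RES') over a field of invariants `K' ⊇ K0` (no hypothesis `H ⊆ I`);
* `skc_disc`: (DISC') at any level, for any series reduction (`lvd_disc`);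
* `skc_hk`: the residue field of `A` is perfect; `skc_hlt`: `v(p) < 1`;
* **`skc_step`**: `stk_step` with `R'`, (DISC'), (RES') at the level `M'`, the pair (DISC) at the
  level `M' p`, `hk`, `hlt` discharged.
-/
import Mathlib
import Fermat.Agent.S33lib.StepKum
import Fermat.Agent.S33lib.DiscPair
import Fermat.Agent.S34lib.LiftInf

set_option autoImplicit false
set_option linter.style.haveILetI false
set_option linter.unusedSectionVars false
set_option linter.unusedVariables false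
set_option synthInstance.maxHeartbeats 400000

noncomputable section

namespace Fermat.Agent.S33lib

open ModularCurve AlgebraicCurve HahnSeries
open Fermat.Agent.S24lib Fermat.Agent.HeckeBar Fermat.Agent.S37lib Fermat.Agent.GoodRed
open Fermat.Agent.S35lib Fermat.Agent.S34lib Fermat.Agent.S36lib Fermat.Agent.RRlib

section Pieces

variable (L : ℕ) [NeZero L] {A : ValuationSubring Kbar}
variable {H : Set (Kbar ≃ₐ[ℚ] Kbar)} {K' : IntermediateField ℚ Kbar}

/-- `v(p) < 1` for a valuation ring over `p` -/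
theorem skc_hlt {p : ℕ} (hA : A.LiesOverPrime p) : A.valuation (p : Kbar) < 1 :=
  A.mem_nonunits_iff.mp hA

/-- the residue field of `A` is perfect (it is algebraically closed) -/
theorem skc_hk (A : ValuationSubring Kbar) {p : ℕ} (hp : p ≠ 0) :
    ∀ c : IsLocalRing.ResidueField A, ∃ d : IsLocalRing.ResidueField A, d ^ p = c := by
  haveI : IsAlgClosed (IsLocalRing.ResidueField A) := isAlgClosed_residueField A
  intro c
  exact IsAlgClosed.exists_pow_nat_eq c (Nat.pos_of_ne_zero hp)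

/-- **a series reduction at the level `L`**, `p ∤ L` (any level prime to `p`). -/
theorem skc_exists_red {p : ℕ} (hp : p.Prime) (hpL : ¬ p ∣ L) (A : ValuationSubring Kbar)
    (hA : A.LiesOverPrime p) :
    ∃ R' : ConstRed A (IsLocalRing.residue A)
        (↥(modularFunctionFieldFullC (IsLocalRing.ResidueField A) L)) (FF L),
      IsSeriesRed R' := by
  haveI : Fact p.Prime := ⟨hp⟩
  exact exists_modConstRed L A (dw_ne_top hp hA) (Fermat.Agent.GM.hred_modL L hpL A hA)

/-- **(RES')** over `K' = ℚ̄^H ⊇ K0`: every residue class has an `H`-fixed constant lift. -/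
theorem skc_res {p : ℕ} (hp : p.Prime) (hA : A.LiesOverPrime p)
    (hK' : ∀ c : Kbar, c ∈ K' ↔ ∀ σ ∈ H, σ c = c) (hK0 : k0Field A ≤ K')
    (c : IsLocalRing.ResidueField A) :
    ∃ a : A, IsLocalRing.residue A a = c ∧
      algebraMap Kbar (FF L) (a : Kbar) ∈ fixedLBC H (modularFunctionFieldFull L) := by
  obtain ⟨a, ha, haK, -⟩ := lvd_res (L := L) (A := A) (H := (∅ : Set (Kbar ≃ₐ[ℚ] Kbar))) hp hA
    (fun σ hσ => absurd hσ (Set.notMem_empty σ)) c
  exact ⟨a, ha, lvd_const_fixed L hK' (hK0 haK)⟩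

/-- **(DISC')** at the level `L` (= `lvd_disc`, in the shape of the hypotheses of `stk_step`). -/
theorem skc_disc (hK' : ∀ c : Kbar, c ∈ K' ↔ ∀ σ ∈ H, σ c = c) (hK0 : k0Field A ≤ K')
    {ϖ : Kbar} (hd : VdDisc A K'.toSubfield ϖ)
    {Fk : IntermediateField (IsLocalRing.ResidueField A)
      (LaurentSeries (IsLocalRing.ResidueField A))}
    {R : ConstRed A (IsLocalRing.residue A) (↥Fk) (FF L)} (hR : IsSeriesRed R) :
    ∀ f ∈ fixedLBC H (modularFunctionFieldFull L), f ≠ 0 → ∃ n : ℤ,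
      algebraMap Kbar (FF L) (ϖ ^ n) * f ∈ R.O ∧
        (algebraMap Kbar (FF L) (ϖ ^ n) * f)⁻¹ ∈ R.O :=
  fun f hf hf0 => lvd_disc (L := L) hK' hK0 hd hR hf hf0

end Pieces

section Step

variable (M' p : ℕ) [NeZero M'] [NeZero p] [NeZero (M' * p)] (hp : p.Prime) (hpM : ¬ p ∣ M')
variable {A : ValuationSubring Kbar} [ExpChar (IsLocalRing.ResidueField A) p]

/-- **(STEP), Kummer form, all level-`M'` inputs discharged**: `stk_step` with `R'`, (DISC'),
(RES') at the level `M'`, (DISC) for the pair at the level `M' p`, `hk`, `hlt` discharged.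
What is left: the series reduction `R` of the level `M' p` (residue field `F_{M',k}`), the
gluing hypothesis `TwistHyp` at `m = p`, the field of invariants `K' = ℚ̄^H ⊇ K0` with its
uniformiser `ϖ`, `p = ϖ^e ε`, and the state `f₁ w^p = c (1 + ϖ^i g)` of the induction. -/
theorem skc_step
    [RRBase (IsLocalRing.ResidueField A)
      (↥(modularFunctionFieldFullC (IsLocalRing.ResidueField A) M'))]
    [RRBase Kbar (FF (M' * p))]
    (hA : A.LiesOverPrime p)
    (R : ConstRed A (IsLocalRing.residue A)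
      (↥(modularFunctionFieldFullC (IsLocalRing.ResidueField A) M')) (FF (M' * p)))
    (hR : IsSeriesRed R)
    {G : Gluing (IsLocalRing.ResidueField A)
      ((↥(modularFunctionFieldFullC (IsLocalRing.ResidueField A) M')) ×
        (↥(modularFunctionFieldFullC (IsLocalRing.ResidueField A) M')))} {a₀ : ℕ}
    (hyp : TwistHyp (SSRed.ofPair R
        (inredZero (M' * p) p hp (dvd_mul_left p M') (inf_not_sq_dvd M' p hp hpM) R)) G p
      (cuspDiv (M' * p) p hp (dvd_mul_left p M') (inf_not_sq_dvd M' p hp hpM) 1 1) a₀)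
    (hD₁ : ∀ v, 0 ≤ cuspDiv (M' * p) p hp (dvd_mul_left p M')
      (inf_not_sq_dvd M' p hp hpM) 1 1 v)
    {H : Set (Kbar ≃ₐ[ℚ] Kbar)} {K' : IntermediateField ℚ Kbar}
    (hK' : ∀ c : Kbar, c ∈ K' ↔ ∀ σ ∈ H, σ c = c) (hK0 : k0Field A ≤ K')
    {ϖ : Kbar} (hd : VdDisc A K'.toSubfield ϖ)
    {e i : ℕ} (hi : 1 ≤ i) (hpe : ∃ ε ∈ A, (p : Kbar) = ϖ ^ e * ε) (hie : (p - 1) * i < p * e)
    (f₁ w : FF (M' * p)) (hnew : IsKummerNew M' p p f₁)
    (c : Kbar) (hc : c ≠ 0) (g : FF (M' * p)) (hg : g ∈ R.O)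
    (hg₀ : g ∈ (inredZero (M' * p) p hp (dvd_mul_left p M') (inf_not_sq_dvd M' p hp hpM) R).O)
    (hgH : ∀ σ ∈ H, galFF (M' * p) σ • g = g)
    (hgB : g ∈ glbB (SSRed.ofPair R
        (inredZero (M' * p) p hp (dvd_mul_left p M') (inf_not_sq_dvd M' p hp hpM) R))
      (cuspDiv (M' * p) p hp (dvd_mul_left p M') (inf_not_sq_dvd M' p hp hpM) 1 1) hD₁)
    (hfw : f₁ * w ^ p = algebraMap Kbar (FF (M' * p)) c
      * (1 + algebraMap Kbar (FF (M' * p)) (ϖ ^ i) * g)) :
    ∃ (a' : ℕ) (Ψ : FF (M' * p)) (hΨ₁ : Ψ ∈ R.O)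
      (hΨ₂ : Ψ ∈ (inredZero (M' * p) p hp (dvd_mul_left p M')
        (inf_not_sq_dvd M' p hp hpM) R).O) (κ : IsLocalRing.ResidueField A),
      a₀ ≤ a' ∧
      Ψ ∈ riemannRochSpace (K := Kbar)
        (a' • cuspDiv (M' * p) p hp (dvd_mul_left p M') (inf_not_sq_dvd M' p hp hpM) 1 1) ∧
      (∀ σ ∈ H, galFF (M' * p) σ • Ψ = Ψ) ∧
      R.red ⟨g, hg⟩ = R.red ⟨Ψ, hΨ₁⟩ ^ p
        + algebraMap (IsLocalRing.ResidueField A)
            (↥(modularFunctionFieldFullC (IsLocalRing.ResidueField A) M')) κ ∧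
      (inredZero (M' * p) p hp (dvd_mul_left p M') (inf_not_sq_dvd M' p hp hpM) R).red ⟨g, hg₀⟩
        = (inredZero (M' * p) p hp (dvd_mul_left p M')
            (inf_not_sq_dvd M' p hp hpM) R).red ⟨Ψ, hΨ₂⟩ ^ p
          + algebraMap (IsLocalRing.ResidueField A)
              (↥(modularFunctionFieldFullC (IsLocalRing.ResidueField A) M')) κ := by
  obtain ⟨R', hR'⟩ := skc_exists_red M' hp hpM A hA
  exact stk_step M' p hp hpM (skc_hlt hA) hA (skc_hk A hp.ne_zero) R' hR' R hR hyp hD₁ hK' hK0 hd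
    (dsp_disc_inf hK' hK0 hd hR)
    (dsp_disc_zero hK' hK0 hd hR p hp (dvd_mul_left p M') (inf_not_sq_dvd M' p hp hpM))
    (skc_disc M' hK' hK0 hd hR') (fun c => skc_res M' hp hA hK' hK0 c)
    hi hpe hie f₁ w hnew c hc g hg hg₀ hgH hgB hfw

end Step

end Fermat.Agent.S33lib

end
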