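/-
Item 86 (S33), block TOR_p: `tcr_deep` (helper4, `TorCore.lean`) at the level `M' p` for the pair
`(R, glmZero R)`, with `hstep` (`stk_hstep_conc`), (DISC) for both valuations, (RES1) and
`v(p) < 1` DISCHARGED (helper17).  Complete proofs.

`tcc_hstep` : the hypothesis `hstep` of `tcr_deep`, verbatim, for a Kummer-new `u`.
`tcc_deep`  : the conclusion of `tcr_deep` from the setup data only
  (`H`, `K' = ℚ̄^H`, `ϖ`; the gluing package `hyp`, `hc`; the pair `(E, u)`; `lam`).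
-/
import Mathlib
import Fermat.Agent.S36lib.Speed
import Fermat.Agent.S33lib.TorCore
import Fermat.Agent.S33lib.StepConc
import Fermat.Agent.S34lib.GlueMod

set_option autoImplicit false
set_option linter.style.haveILetI false
set_option linter.unusedSectionVars false
set_option linter.unusedVariables false
set_option synthInstance.maxHeartbeats 400000

noncomputable section

namespace Fermat.Agent.S33lib

open ModularCurve AlgebraicCurve HahnSeries
open Fermat.Agent.S24lib Fermat.Agent.HeckeBar Fermat.Agent.S37lib Fermat.Agent.GoodRed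
open Fermat.Agent.S35lib Fermat.Agent.S34lib Fermat.Agent.S36lib Fermat.Agent.RRlib

variable (M' p : ℕ) [NeZero M'] [NeZero p] [NeZero (M' * p)] (hp : p.Prime) (hpM : ¬ p ∣ M')
variable {A : ValuationSubring Kbar} [CharP (IsLocalRing.ResidueField A) p]

/-- **`hstep` of `tcr_deep`**, verbatim, at the level `M' p` for the pair `(R, glmZero R)` and a
Kummer-new function `u`. -/
theorem tcc_hstep [RRBase (IsLocalRing.ResidueField A) (↥(modularFunctionFieldFullC (IsLocalRing.ResidueField A) M'))] [RRBase Kbar (FF (M' * p))]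
    (hA : A.LiesOverPrime p)
    (hk : ∀ c : IsLocalRing.ResidueField A, ∃ d : IsLocalRing.ResidueField A, d ^ p = c)
    (R' : ConstRed A (IsLocalRing.residue A) (↥(modularFunctionFieldFullC (IsLocalRing.ResidueField A) M')) (FF M')) (hR' : IsSeriesRed R')
    (R : ConstRed A (IsLocalRing.residue A) (↥(modularFunctionFieldFullC (IsLocalRing.ResidueField A) M')) (FF (M' * p))) (hR : IsSeriesRed R)
    {G : Gluing (IsLocalRing.ResidueField A) ((↥(modularFunctionFieldFullC (IsLocalRing.ResidueField A) M')) × (↥(modularFunctionFieldFullC (IsLocalRing.ResidueField A) M')))} {a₀ : ℕ}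
    (hyp : TwistHyp (SSRed.ofPair R (glmZero M' p hp hpM R)) G p
      (cuspDiv (M' * p) p hp (dvd_mul_left p M') (inf_not_sq_dvd M' p hp hpM) 1 1) a₀)
    (hD₁ : ∀ v, 0 ≤ cuspDiv (M' * p) p hp (dvd_mul_left p M')
      (inf_not_sq_dvd M' p hp hpM) 1 1 v)
    {H : Set (Kbar ≃ₐ[ℚ] Kbar)} (hHI : ∀ σ ∈ H, σ ∈ A.inertiaSubgroupIn ℚ)
    {K' : IntermediateField ℚ Kbar}
    (hK' : ∀ c : Kbar, c ∈ K' ↔ ∀ σ ∈ H, σ c = c) (hK0 : k0Field A ≤ K')
    {ϖ : Kbar} (hd : VdDisc A K'.toSubfield ϖ)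
    (u : FF (M' * p)) (hu0 : u ≠ 0) (hnew : IsKummerNew M' p p u) :
    ∀ (e : ℕ), (∃ ε ∈ A, ((p : ℕ) : Kbar) = ϖ ^ e * ε) → ∀ (f₁ s₁ : FF (M' * p)),
      s₁ ≠ 0 → f₁ = u⁻¹ * s₁ ^ p →
      ∀ (i : ℕ) (c : Kbar) (w g : FF (M' * p)), 1 ≤ i → p ∣ i → (p - 1) * i < p * e → c ≠ 0 →
        algebraMap Kbar (FF (M' * p)) c ∈ fixedLBC H (modularFunctionFieldFull (M' * p)) →
        w ∈ fixedLBC H (modularFunctionFieldFull (M' * p)) →
        w ∈ glbB0 (cuspDiv (M' * p) p hp (dvd_mul_left p M')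
          (inf_not_sq_dvd M' p hp hpM) 1 1) hD₁ →
        w - 1 ∈ R.O.nonunits → w - 1 ∈ (glmZero M' p hp hpM R).O.nonunits →
        g ∈ fixedLBC H (modularFunctionFieldFull (M' * p)) →
        g ∈ glbB0 (cuspDiv (M' * p) p hp (dvd_mul_left p M')
          (inf_not_sq_dvd M' p hp hpM) 1 1) hD₁ →
        ∀ (h1 : g ∈ R.O) (h2 : g ∈ (glmZero M' p hp hpM R).O),
        f₁ * w ^ p = algebraMap Kbar (FF (M' * p)) c
          * (1 + algebraMap Kbar (FF (M' * p)) (ϖ ^ i) * g) →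
        ∃ (Ψ : FF (M' * p)) (κ : IsLocalRing.ResidueField A) (k1 : Ψ ∈ R.O)
          (k2 : Ψ ∈ (glmZero M' p hp hpM R).O),
          Ψ ∈ fixedLBC H (modularFunctionFieldFull (M' * p)) ∧
          Ψ ∈ glbB0 (cuspDiv (M' * p) p hp (dvd_mul_left p M')
            (inf_not_sq_dvd M' p hp hpM) 1 1) hD₁ ∧
          R.red ⟨g, h1⟩ = R.red ⟨Ψ, k1⟩ ^ p
            + algebraMap (IsLocalRing.ResidueField A) (↥(modularFunctionFieldFullC (IsLocalRing.ResidueField A) M')) κ ∧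
          (glmZero M' p hp hpM R).red ⟨g, h2⟩ = (glmZero M' p hp hpM R).red ⟨Ψ, k2⟩ ^ p
            + algebraMap (IsLocalRing.ResidueField A) (↥(modularFunctionFieldFullC (IsLocalRing.ResidueField A) M')) κ := by
  intro e hpe f₁ s₁ hs₁ hf₁
  haveI : ExpChar (IsLocalRing.ResidueField A) p := ExpChar.prime hp
  exact stk_hstep_conc M' p hp hpM hA hk R' hR' R hR hyp hD₁ hHI hK' hK0 hd e hpe
    (glbB0 (cuspDiv (M' * p) p hp (dvd_mul_left p M') (inf_not_sq_dvd M' p hp hpM) 1 1) hD₁)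
    (fun a x hx => ⟨a, hx⟩) (fun x hx => glbB0_le_glbB _ _ hx) f₁
    (hf₁ ▸ tas_isKummerNew_inv_mul_pow hu0 hnew s₁)

set_option maxHeartbeats 1000000 in
/-- **the core of TOR_p at the level `M' p`**, from the setup data: for an `H`-fixed Kummer-new
Kummer function `u ≡ 1` (both valuations) of `E` the function `u⁻¹ s ^ p` is
`c₀ (1 + lam ^ p g)`, `g ∈ F^H ∩ O_R ∩ O_{R₀}` with poles at the two cusps. -/
theorem tcc_deep [RRBase (IsLocalRing.ResidueField A) (↥(modularFunctionFieldFullC (IsLocalRing.ResidueField A) M'))] [RRBase Kbar (FF (M' * p))]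
    (hp2 : p ≠ 2) (hA : A.LiesOverPrime p)
    (hk : ∀ c : IsLocalRing.ResidueField A, ∃ d : IsLocalRing.ResidueField A, d ^ p = c)
    (R' : ConstRed A (IsLocalRing.residue A) (↥(modularFunctionFieldFullC (IsLocalRing.ResidueField A) M')) (FF M')) (hR' : IsSeriesRed R')
    (R : ConstRed A (IsLocalRing.residue A) (↥(modularFunctionFieldFullC (IsLocalRing.ResidueField A) M')) (FF (M' * p))) (hR : IsSeriesRed R)
    {G : Gluing (IsLocalRing.ResidueField A) ((↥(modularFunctionFieldFullC (IsLocalRing.ResidueField A) M')) × (↥(modularFunctionFieldFullC (IsLocalRing.ResidueField A) M')))} {a₀ n₂ : ℕ}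
    {D₂ : Divisor Kbar (FF (M' * p))}
    {f finv : (SSRed.ofPair R (glmZero M' p hp hpM R)).O}
    (hyp : TwistHyp (SSRed.ofPair R (glmZero M' p hp hpM R)) G p
      (cuspDiv (M' * p) p hp (dvd_mul_left p M') (inf_not_sq_dvd M' p hp hpM) 1 1) a₀)
    (hc : TwistCrux (SSRed.ofPair R (glmZero M' p hp hpM R)) G 1
      (cuspDiv (M' * p) p hp (dvd_mul_left p M') (inf_not_sq_dvd M' p hp hpM) 1 1) D₂ n₂
      f finv)
    {H : Set (Kbar ≃ₐ[ℚ] Kbar)} (hHI : ∀ σ ∈ H, σ ∈ A.inertiaSubgroupIn ℚ)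
    {K' : IntermediateField ℚ Kbar}
    (hK' : ∀ c : Kbar, c ∈ K' ↔ ∀ σ ∈ H, σ c = c) (hK0 : k0Field A ≤ K')
    {ϖ : Kbar} (hd : VdDisc A K'.toSubfield ϖ)
    (hD₂ : ∀ σ ∈ H, galFF (M' * p) σ • D₂ = D₂)
    {a c : ℕ} (ha : a₀ ≤ a) (hca : a₀ ≤ c * n₂)
    (E : Divisor Kbar (FF (M' * p))) (hE : Divisor.degree E = 0)
    (hEH : ∀ σ ∈ H, galFF (M' * p) σ • E = E)
    (u : FF (M' * p)) (huH : u ∈ fixedLBC H (modularFunctionFieldFull (M' * p)))
    (hu₁ : u - 1 ∈ R.O.nonunits) (hu₂ : u - 1 ∈ (glmZero M' p hp hpM R).O.nonunits)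
    (hdiv : ∀ v : Place Kbar (FF (M' * p)), v.ord u = p * E v)
    (hnew : IsKummerNew M' p p u)
    {lam : Kbar} (hlam1 : lam ∈ K') (hlam0 : lam ≠ 0) (hlam : lam ∈ A.nonunits)
    (hlamv : A.valuation ((p : ℕ) : Kbar) = A.valuation lam ^ (p - 1)) :
    ∃ (s : FF (M' * p)) (c₀ : Kbar) (g : FF (M' * p)), s ≠ 0 ∧ c₀ ≠ 0 ∧
      g ∈ fixedLBC H (modularFunctionFieldFull (M' * p)) ∧
      (∃ b : ℕ, g ∈ riemannRochSpace (K := Kbar)
        (b • cuspDiv (M' * p) p hp (dvd_mul_left p M') (inf_not_sq_dvd M' p hp hpM) 1 1)) ∧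
      g ∈ R.O ∧ g ∈ (glmZero M' p hp hpM R).O ∧
      u⁻¹ * s ^ p = algebraMap Kbar (FF (M' * p)) c₀
        * (1 + algebraMap Kbar (FF (M' * p)) (lam ^ p) * g) := by
  have hu0 : u ≠ 0 := by
    intro h0
    rw [h0, zero_sub] at hu₁
    have h1 : (1 : FF (M' * p)) ∈ R.O.nonunits := by
      have := R.O.nonunits.neg_mem hu₁
      simpa using this
    exact (R.O.mem_nonunits_iff.mp h1).ne (map_one _)
  have hvp : A.valuation ((p : ℕ) : Kbar) < 1 := A.mem_nonunits_iff.mp hA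
  exact tcr_deep (L := M' * p) hK' hK0 hd hp hp2 hA hvp R (glmZero M' p hp hpM R)
    (fun f hf hf0 => lvd_disc hK' hK0 hd hR hf hf0)
    (stk_disc_zero (M' * p) p hp (dvd_mul_left p M') (inf_not_sq_dvd M' p hp hpM) hK' hK0 hd hR)
    (fun c => by
      obtain ⟨a, ha, -, hfix⟩ := lvd_res (L := M' * p) hp hA hHI c
      exact ⟨a, ha, hfix⟩)
    hyp hc
    (fun σ _ => galFF_smul_cuspDiv (M' * p) p hp (dvd_mul_left p M')
      (inf_not_sq_dvd M' p hp hpM) σ 1 1)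
    hD₂ ha hca E hE hEH u huH hu₁ hu₂ hdiv hlam1 hlam0 hlam hlamv
    (tcc_hstep M' p hp hpM hA hk R' hR' R hR hyp hc.D₁_nonneg hHI hK' hK0 hd u hu0 hnew)

end Fermat.Agent.S33lib

end
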