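/-
Item 86 (S33), block TOR_p, the LAST STEP of `TasTorK` (helper8).  Complete proofs.

`ten_main`: at the auxiliary level `N = M' p`, if the Kummer function `u` of a class `x = [D]`
(`div u = p D`) has, up to a `p`-th power, the DEEP normal form
`u · s ^ p = c · (1 + (ζ - 1) ^ p f)`, `f ∈ O_R ∩ O_{R₀}` regular outside the two cusps, and `x`
is fixed by an inertia element `τ₀` which moves `μ_p`, then `u = c' · s' ^ p`
(the conclusion of `TasTorK`, `S33lib/TorDefs.lean`).  No instance argument besides `NeZero`.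
= `r2n_fixed_J` (`RegTwoNConc.lean`) + "a class `0` has the Kummer functions `c s^p`".
-/
import Mathlib
import Fermat.Agent.S33lib.RegTwoNConc
import Fermat.Agent.S33lib.TorDefs

set_option autoImplicit false
set_option linter.style.haveILetI false
set_option linter.unusedVariables false
set_option linter.unusedSectionVars false
set_option synthInstance.maxHeartbeats 400000

noncomputable section

namespace Fermat.Agent.S33lib

open AlgebraicCurve ModularCurve HahnSeries
open Fermat.Agent.RRlib Fermat.Agent.GoodRed Fermat.Agent.S34lib Fermat.Agent.S18lib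
  Fermat.Agent.S24lib Fermat.Agent.S36lib Fermat.Agent.GalRep Fermat.Agent.S31lib
  Fermat.Agent.GM

section

variable (M' p : ℕ) [NeZero M'] [NeZero p] [NeZero (M' * p)] (hp : p.Prime) (hpM : ¬ p ∣ M')
variable {B : ValuationSubring Kbar}

set_option maxHeartbeats 2000000 in
/-- **the last step of (TOR_p) in Kummer form**: a Kummer function in deep normal form (inside
the family of the functions regular outside the cusps) of a class fixed by an inertia element
moving `μ_p` is a constant times a `p`-th power. -/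
theorem ten_main (haux : IsAuxLevel p M') (hB : B.LiesOverPrime p)
    {ζ : Kbar} (hζ : IsPrimitiveRoot ζ p)
    {R : ConstRed B (IsLocalRing.residue B)
      (↥(modularFunctionFieldFullC (IsLocalRing.ResidueField B) M')) (FF (M' * p))}
    (hR : IsSeriesRed R)
    (τ₀ : Kbar ≃ₐ[ℚ] Kbar) (hτ₀ : τ₀ ∈ B.inertiaSubgroupIn ℚ) (hmv : S33hMoves p τ₀)
    (D : Divisor.degZero (K := Kbar) (F := FF (M' * p))) (u : FF (M' * p)) (hu : u ≠ 0)
    (hDu : ∀ w : Place Kbar (FF (M' * p)),
      (p : ℤ) * (D : Divisor Kbar (FF (M' * p))) w = w.ord u)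
    (hfix : τ₀ • (Pic0.mk D : JZero (M' * p)) = Pic0.mk D)
    (c : Kbar) (hc : c ≠ 0) (s : FF (M' * p)) (hs : s ≠ 0) (f : FF (M' * p))
    (hfB : f ∈ cxiB (infPlaceBar (M' * p))
      (cuspZero (M' * p) p hp (dvd_mul_left p M') (inf_not_sq_dvd M' p hp hpM)))
    (hf₁ : f ∈ R.O) (hf₂ : f ∈ (glmZero M' p hp hpM R).O)
    (hrel : u * s ^ p = algebraMap Kbar (FF (M' * p)) c *
      (1 + algebraMap Kbar (FF (M' * p)) ((ζ - 1) ^ p) * f)) :
    ∃ (c' : Kbar) (s' : FF (M' * p)), u = algebraMap Kbar (FF (M' * p)) c' * s' ^ p := by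
  haveI : RRHyp Kbar (FF (M' * p)) := mod_rrHyp (M' * p)
  haveI : Fact p.Prime := ⟨hp⟩
  have hsp : s ^ p ≠ 0 := pow_ne_zero _ hs
  have e : algebraMap Kbar (FF (M' * p)) c * s⁻¹ ^ p *
      (1 + algebraMap Kbar (FF (M' * p)) ((ζ - 1) ^ p) * f) = u := by
    rw [mul_right_comm, ← hrel, inv_pow, mul_assoc, mul_inv_cancel₀ hsp, mul_one]
  have hD : p • (D : Divisor Kbar (FF (M' * p))) = divOf (K := Kbar)
      (algebraMap Kbar (FF (M' * p)) c * s⁻¹ ^ p *
        (1 + algebraMap Kbar (FF (M' * p)) ((ζ - 1) ^ p) * f)) := by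
    rw [e]
    ext w
    rw [Finsupp.smul_apply, nsmul_eq_mul, divOf_apply hu]
    exact hDu w
  have hx0 : (Pic0.mk D : JZero (M' * p)) = 0 :=
    r2n_fixed_J M' p hp hpM haux hB hζ hR τ₀ hτ₀ hmv c hc s⁻¹ (inv_ne_zero hs) f hfB hf₁ hf₂ D hD
      rfl hfix
  obtain ⟨h, hh0, hh⟩ := Fermat.Agent.S18lib.mem_principal_of_mk_eq_zero D hx0
  have hhp : h ^ p ≠ 0 := pow_ne_zero _ hh0
  have hq0 : u * (h ^ p)⁻¹ ≠ 0 := mul_ne_zero hu (inv_ne_zero hhp)
  have hord : ∀ v : Place Kbar (FF (M' * p)), 0 ≤ v.ord (u * (h ^ p)⁻¹) := by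
    intro v
    rw [v.ord_mul hu (inv_ne_zero hhp), v.ord_inv, tw_ord_pow, ← hDu v, hh v]
    apply le_of_eq
    ring
  obtain ⟨c', hcq⟩ := RRBase.const_of_forall_ord_nonneg (K := Kbar) _ hord
  refine ⟨c', h, ?_⟩
  rw [hcq, mul_assoc, inv_mul_cancel₀ hhp, mul_one]

end

end Fermat.Agent.S33lib

end
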