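import Mathlib
import Fermat.Agent.S33lib.TpInj
import Fermat.Agent.S33lib.GeoAux
import Fermat.Agent.S36lib.Speed

/-!
# Item 86 (S33), piece TPINJ for the MIXED predicates (helper29).  Complete proofs.

* `tpj_gax_at` : (TPINJ) at fixed auxiliary data: `gaxDeepAt M' M p hNM R ζ x`, `T_p x = 0` ⇒ `x = 0`;
* `tpj_gax`    : **(TPINJ)** `gaxDeep M' p B x → heckeOperatorBar M' ⟨p, _⟩ x = 0 → x = 0`
  (the hypothesis `TPINJ` of `s33_geom_good_mixed`);
* `s33_geom_good_lev` : **G1** `S33ResJ M' p θ' → S33Geom M' p θ'` from (LEV) alone.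
-/

set_option autoImplicit false
set_option linter.unusedSectionVars false
set_option linter.unusedVariables false
set_option linter.style.haveILetI false
set_option synthInstance.maxHeartbeats 400000

noncomputable section

namespace Fermat.Agent.S33lib

open AlgebraicCurve ModularCurve
open Fermat.Agent.RRlib Fermat.Agent.GoodRed Fermat.Agent.S24lib Fermat.Agent.HeckeBar
  Fermat.Agent.GM Fermat.Agent.S34lib Fermat.Agent.S31lib Fermat.Agent.GalRep
  Fermat.Agent.S18lib Fermat.Agent.S35lib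

section At

variable (M' p : ℕ) [NeZero M'] [Fact p.Prime]
variable (M e : ℕ) [NeZero M] (hNM : M' ∣ M)
variable (B : ValuationSubring Kbar) (hB : B.LiesOverPrime p)
variable (R : ConstRed B (IsLocalRing.residue B)
    (↥(modularFunctionFieldFullC (IsLocalRing.ResidueField B) M)) (FF M))
  (hR : IsSeriesRed R)

set_option maxHeartbeats 1600000 in
include hB hR in
/-- **(TPINJ)** at fixed data `(M, e, R, ζ)`, `M = M' e` auxiliary with `ψ(M) < 2 e ψ(M')`. -/
theorem tpj_gax_at (hM : M = M' * e) (hdeg : dedekindPsi M < 2 * e * dedekindPsi M')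
    (hAux : IsAuxLevel p M) {ζ : Kbar} (hζ : IsPrimitiveRoot ζ p)
    (x : JZero M') (hx : gaxDeepAt M' M p hNM R ζ x)
    (hT : heckeOperatorBar M' ⟨p, Fact.out⟩ x = 0) : x = 0 := by
  have hp : p.Prime := Fact.out
  haveI : NeZero p := ⟨hp.ne_zero⟩
  obtain ⟨D, u, hD, hu, hord, c, s, g, hc, hs, hg, hnf⟩ := hx
  rw [← hD] at hT ⊢
  exact tpj_main M' p M e hM hdeg hAux B hB hζ R hR hNM D u hu (fun P => (hord P).symm)
    c hc s hs ⟨g, hg⟩ hnf hT

end At

section Mixed

variable (M' p : ℕ) [NeZero M'] [Fact p.Prime] (hpM : ¬ p ∣ M')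
variable (B : ValuationSubring Kbar) (hB : B.LiesOverPrime p)

set_option maxHeartbeats 1600000 in
include hpM hB in
/-- **(TPINJ)** for the mixed predicate: `T_p` is injective on the classes of level `≥ v*`. -/
theorem tpj_gax (x : JZero M') (hx : gaxDeep M' p B x)
    (hT : heckeOperatorBar M' ⟨p, Fact.out⟩ x = 0) : x = 0 := by
  obtain ⟨M, e, _, hNM, hM, hdeg, hAux, R, hR⟩ := gax_exists_aux M' p hpM B hB
  obtain ⟨ζ, hζ⟩ := gax_exists_zeta p
  exact tpj_gax_at M' p M e hNM B hB R hR hM hdeg hAux hζ x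
    (hx M e hNM hM hdeg hAux R hR ζ hζ) hT

end Mixed

section G1

variable (M' : ℕ) [NeZero M'] (p : ℕ) [Fact p.Prime] {N : ℕ} {S : Finset ℕ}
  {κ : Type*} [Semiring κ] (θ' : HPoly N S →+* κ)

set_option maxHeartbeats 1600000 in
/-- **G1 (good level)** from (LEV) alone, for the mixed predicates. -/
theorem s33_geom_good_lev (hpM : ¬ p ∣ M') (Jin : JacInput M' p)
    (LEV : ∀ B : ValuationSubring (AlgebraicClosure ℚ), B.LiesOverPrime p →
      ∀ X : AddSubgroup (JZero M'), (X : Set (JZero M')).Finite → (∀ x ∈ X, p • x = 0) →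
        (∀ x ∈ X, gaxKer M' p B x) → (∀ τ ∈ B.inertiaSubgroupIn ℚ, ∀ x ∈ X, τ • x ∈ X) →
        (∀ x ∈ X, heckeOperatorBar M' ⟨p, Fact.out⟩ x ∈ X) →
        (∀ x ∈ X, heckeOperatorBar M' ⟨p, Fact.out⟩ x = 0 → x = 0) →
        ∀ x ∈ X, gaxDeep M' p B x)
    (hres : S33ResJ M' p θ') : S33Geom M' p θ' :=
  s33_geom_good_mixed M' p θ' hpM Jin
    (fun B hB x hx hT => tpj_gax M' p hpM B hB x hx hT) LEV hres

end G1

end Fermat.Agent.S33lib
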